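/-
Definitions for the local conditions of the Taylor-Wiles argument: the adjoint cocycles of a
two dimensional representation, the local Galois group of `ℚ_p` and integral models of finite
Galois modules as algebras of functions.
-/
import Mathlib.NumberTheory.Padics.Complex
import Mathlib.NumberTheory.Cyclotomic.CyclotomicCharacter
import Mathlib.RingTheory.RootsOfUnity.AlgebraicallyClosed
import Mathlib.LinearAlgebra.Matrix.Trace
import Mathlib.LinearAlgebra.Matrix.GeneralLinearGroup.Defs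
import Mathlib.FieldTheory.Galois.Basic

set_option autoImplicit false

noncomputable section

namespace Fermat.Agent.TW

section Adjoint

variable {G : Type*} [Group G] {k : Type*} [Field k]
  (r : G →* Matrix (Fin 2) (Fin 2) k)

/-- `M ↦ r g * M * r g⁻¹`. -/
def adConj (g : G) : Matrix (Fin 2) (Fin 2) k →ₗ[k] Matrix (Fin 2) (Fin 2) k :=
  (LinearMap.mulRight k (r g⁻¹)).comp (LinearMap.mulLeft k (r g))

@[simp] theorem adConj_apply (g : G) (M : Matrix (Fin 2) (Fin 2) k) :
    adConj r g M = r g * M * r g⁻¹ := rfl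

/-- Trace zero matrices. -/
abbrev trZero (k : Type*) [Field k] : Submodule k (Matrix (Fin 2) (Fin 2) k) :=
  LinearMap.ker (Matrix.traceLinearMap (Fin 2) k k)

/-- One-cocycles of `G` with values in the trace zero adjoint of `r`; no continuity. -/
def adCocycles : Submodule k (G → Matrix (Fin 2) (Fin 2) k) where
  carrier := {c | (∀ g, (c g).trace = 0) ∧ ∀ g h, c (g * h) = c g + r g * c h * r g⁻¹}
  add_mem' {a b} ha hb := by
    refine ⟨fun g => by simp [Matrix.trace_add, ha.1 g, hb.1 g], fun g h => ?_⟩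
    simp only [Pi.add_apply, ha.2 g h, hb.2 g h, mul_add, add_mul]
    abel
  zero_mem' := ⟨fun g => by simp, fun g h => by simp⟩
  smul_mem' t a ha := by
    refine ⟨fun g => by simp [Matrix.trace_smul, ha.1 g], fun g h => ?_⟩
    simp [Pi.smul_apply, ha.2 g h, smul_add]

theorem mem_adCocycles_iff (c : G → Matrix (Fin 2) (Fin 2) k) :
    c ∈ adCocycles r ↔ (∀ g, (c g).trace = 0) ∧ ∀ g h, c (g * h) = c g + r g * c h * r g⁻¹ :=
  Iff.rfl

/-- `M ↦ (g ↦ r g * M * r g⁻¹ - M)`. -/
def adD : Matrix (Fin 2) (Fin 2) k →ₗ[k] (G → Matrix (Fin 2) (Fin 2) k) :=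
  LinearMap.pi fun g => adConj r g - LinearMap.id

@[simp] theorem adD_apply (M : Matrix (Fin 2) (Fin 2) k) (g : G) :
    adD r M g = r g * M * r g⁻¹ - M := rfl

/-- Coboundaries of trace zero matrices. -/
def adCoboundaries : Submodule k (G → Matrix (Fin 2) (Fin 2) k) :=
  (trZero k).map (adD r)

/-- Trace zero matrices commuting with the image of `r`. -/
def adInvariants : Submodule k (Matrix (Fin 2) (Fin 2) k) where
  carrier := {M | M.trace = 0 ∧ ∀ g, r g * M = M * r g}
  add_mem' {a b} ha hb := ⟨by simp [Matrix.trace_add, ha.1, hb.1],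
    fun g => by rw [mul_add, add_mul, ha.2 g, hb.2 g]⟩
  zero_mem' := ⟨by simp, fun g => by simp⟩
  smul_mem' t a ha := ⟨by simp [Matrix.trace_smul, ha.1],
    fun g => by rw [mul_smul_comm, smul_mul_assoc, ha.2 g]⟩

/-- The action on `k² ⊕ ε k²` of the first order deformation `(1 + ε c) r`. -/
def liftAct (c : G → Matrix (Fin 2) (Fin 2) k) (g : G) (v : (Fin 2 → k) × (Fin 2 → k)) :
    (Fin 2 → k) × (Fin 2 → k) :=
  ((r g).mulVec v.1, (r g).mulVec v.2 + (c g).mulVec ((r g).mulVec v.1))

end Adjoint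

section Local

variable (p : ℕ) [Fact p.Prime]

/-- The absolute Galois group of `ℚ_p`. -/
abbrev GalQp : Type := PadicAlgCl p ≃ₐ[ℚ_[p]] PadicAlgCl p

theorem norm_galQp (σ : GalQp p) (x : PadicAlgCl p) : ‖σ x‖ = ‖x‖ :=
  (spectralNorm_eq_of_equiv σ x).symm

/-- The inertia subgroup of `GalQp p`. -/
def inertiaQp : Subgroup (GalQp p) where
  carrier := {σ | ∀ x : PadicAlgCl p, ‖x‖ ≤ 1 → ‖σ x - x‖ < 1}
  one_mem' x _ := by simp
  mul_mem' {a b} ha hb x hx := by
    have h1 : ‖a (b x) - b x‖ < 1 := ha (b x) (by rw [norm_galQp]; exact hx)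
    have h2 := hb x hx
    have h3 : (a * b) x - x = (a (b x) - b x) + (b x - x) := by
      rw [AlgEquiv.mul_apply]; ring
    rw [h3]
    exact lt_of_le_of_lt (IsUltrametricDist.norm_add_le_max _ _) (max_lt h1 h2)
  inv_mem' {a} ha x hx := by
    have h1 := ha (a⁻¹ x) (by rw [norm_galQp]; exact hx)
    have h2 : a (a⁻¹ x) = x := by rw [← AlgEquiv.mul_apply, mul_inv_cancel, AlgEquiv.one_apply]
    rw [h2] at h1
    rwa [norm_sub_rev]

theorem mem_inertiaQp_iff (σ : GalQp p) :
    σ ∈ inertiaQp p ↔ ∀ x : PadicAlgCl p, ‖x‖ ≤ 1 → ‖σ x - x‖ < 1 := Iff.rfl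

/-- `f` is constant on cosets of an open subgroup. -/
def IsFiniteLevel {X : Type*} (f : GalQp p → X) : Prop :=
  ∃ E : IntermediateField ℚ_[p] (PadicAlgCl p), FiniteDimensional ℚ_[p] E ∧
    ∀ g s : GalQp p, s ∈ E.fixingSubgroup → f (g * s) = f g

variable {p} in
theorem IsFiniteLevel.comp {X Y : Type*} {f : GalQp p → X} (h : IsFiniteLevel p f) (φ : X → Y) :
    IsFiniteLevel p (φ ∘ f) := by
  obtain ⟨E, hE, hf⟩ := h
  exact ⟨E, hE, fun g s hs => by simp [Function.comp_apply, hf g s hs]⟩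

variable {p} in
theorem IsFiniteLevel.add {X : Type*} [Add X] {f f' : GalQp p → X} (h : IsFiniteLevel p f)
    (h' : IsFiniteLevel p f') : IsFiniteLevel p (f + f') := by
  obtain ⟨E, hE, hf⟩ := h
  obtain ⟨E', hE', hf'⟩ := h'
  refine ⟨E ⊔ E', IntermediateField.finiteDimensional_sup E E', fun g s hs => ?_⟩
  simp only [Pi.add_apply]
  rw [hf g s (IntermediateField.fixingSubgroup_antitone le_sup_left hs),
    hf' g s (IntermediateField.fixingSubgroup_antitone le_sup_right hs)]

/-- Functions constant on cosets of an open subgroup, as a submodule. -/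
def finiteLevelFun (R X : Type*) [Semiring R] [AddCommMonoid X] [Module R X] :
    Submodule R (GalQp p → X) where
  carrier := {f | IsFiniteLevel p f}
  add_mem' h h' := h.add h'
  zero_mem' := ⟨⊥, inferInstance, fun _ _ _ => rfl⟩
  smul_mem' t _ h := h.comp (t • ·)

@[simp] theorem mem_finiteLevelFun {R X : Type*} [Semiring R] [AddCommMonoid X] [Module R X]
    (f : GalQp p → X) : f ∈ finiteLevelFun p R X ↔ IsFiniteLevel p f := Iff.rfl

theorem card_rootsOfUnity_padicAlgCl : Nat.card (rootsOfUnity p (PadicAlgCl p)) = p := by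
  haveI : NeZero p := ⟨(Fact.out : p.Prime).ne_zero⟩
  haveI : NeZero ((p : ℕ) : PadicAlgCl p) :=
    ⟨Nat.cast_ne_zero.mpr (Fact.out : p.Prime).ne_zero⟩
  exact HasEnoughRootsOfUnity.natCard_rootsOfUnity (PadicAlgCl p) p

/-- The mod `p` cyclotomic character of `GalQp p`. -/
def localCyclo : GalQp p →* (ZMod p)ˣ :=
  haveI : NeZero p := ⟨(Fact.out : p.Prime).ne_zero⟩
  MonoidHom.mk'
    (fun σ => modularCyclotomicCharacter (PadicAlgCl p)
      (card_rootsOfUnity_padicAlgCl p)
      (σ : PadicAlgCl p ≃+* PadicAlgCl p))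
    (fun a b => by rw [← map_mul]; congr 1)

theorem localCyclo_spec (σ : GalQp p) (μ : PadicAlgCl p) (hμ : μ ^ p = 1) :
    σ μ = μ ^ (localCyclo p σ : ZMod p).val := by
  haveI : NeZero p := ⟨(Fact.out : p.Prime).ne_zero⟩
  have hμ0 : μ ≠ 0 := by
    intro h
    rw [h, zero_pow (Fact.out : p.Prime).ne_zero] at hμ
    exact zero_ne_one hμ
  have h := modularCyclotomicCharacter.spec (PadicAlgCl p) (card_rootsOfUnity_padicAlgCl p)
    (σ : PadicAlgCl p ≃+* PadicAlgCl p) (t := Units.mk0 μ hμ0)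
    (by
      rw [mem_rootsOfUnity]
      exact Units.ext (by simpa using hμ))
  exact h

/-- An integral model over `ℤ_p` of a finite abelian group `V` with an action of `GalQp p`: a
finite algebra of equivariant functions separating points and closed under comultiplication.
It is the algebra of functions of a finite flat group scheme with points `V`. -/
structure LocalModel (V : Type*) [AddCommGroup V] (act : GalQp p → V → V) where
  /-- The functions. -/
  alg : Subring (V → PadicAlgCl p)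
  padicInt_mem : ∀ a : ℤ_[p], (fun _ : V => algebraMap ℚ_[p] (PadicAlgCl p) a) ∈ alg
  fg : ∃ (n : ℕ) (b : Fin n → alg), ∀ f ∈ alg, ∃ a : Fin n → ℤ_[p],
    ∀ x, f x = ∑ i, algebraMap ℚ_[p] (PadicAlgCl p) (a i) * (b i : V → PadicAlgCl p) x
  equivariant : ∀ f ∈ alg, ∀ (σ : GalQp p) (x : V), f (act σ x) = σ (f x)
  separates : ∀ x y : V, (∀ f ∈ alg, f x = f y) → x = y
  comul_mem : ∀ f ∈ alg, ∃ (n : ℕ) (a b : Fin n → alg), ∀ x y : V,
    f (x + y) = ∑ i, (a i : V → PadicAlgCl p) x * (b i : V → PadicAlgCl p) y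

/-- `V` has an integral model. -/
def HasLocalModel (V : Type*) [AddCommGroup V] (act : GalQp p → V → V) : Prop :=
  Nonempty (LocalModel p V act)

end Local

end Fermat.Agent.TW
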