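/-
Linear algebra of the trace zero adjoint of a two dimensional representation: coboundaries and
invariants, an element with distinct eigenvalues, the action of an involution, and a finiteness
criterion for submodules.
-/
import Fermat.Agent.TW.LocalDefs
import Mathlib.LinearAlgebra.Dimension.Finrank
import Mathlib.LinearAlgebra.Matrix.Charpoly.Basic
import Mathlib.LinearAlgebra.Matrix.Charpoly.Coeff
import Mathlib.LinearAlgebra.FiniteDimensional.Lemmas
import Mathlib.Tactic

set_option autoImplicit false

noncomputable section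

namespace Fermat.Agent.TW.LocalCondB

open Polynomial

variable {k : Type*} [Field k] {G : Type*} [Group G] (r : G →* Matrix (Fin 2) (Fin 2) k)

theorem rep_mul_inv_self (g : G) : r g * r g⁻¹ = 1 := by
  rw [← map_mul, mul_inv_cancel, map_one]

theorem rep_inv_mul_self (g : G) : r g⁻¹ * r g = 1 := by
  rw [← map_mul, inv_mul_cancel, map_one]

theorem finrank_trZero : Module.finrank k (trZero k) = 3 := by
  have h := LinearMap.finrank_range_add_finrank_ker (Matrix.traceLinearMap (Fin 2) k k)
  have hsurj : LinearMap.range (Matrix.traceLinearMap (Fin 2) k k) = ⊤ :=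
    LinearMap.range_eq_top.2 fun x => ⟨Matrix.single 0 0 x, by simp [Matrix.trace_fin_two]⟩
  rw [hsurj, finrank_top, Module.finrank_self, Module.finrank_matrix] at h
  simp only [Fintype.card_fin, Module.finrank_self] at h
  change 1 + Module.finrank k (trZero k) = _ at h
  omega

theorem conj_sub_eq_zero_iff (g : G) (M : Matrix (Fin 2) (Fin 2) k) :
    r g * M * r g⁻¹ - M = 0 ↔ r g * M = M * r g := by
  rw [sub_eq_zero]
  constructor
  · intro h
    calc r g * M = r g * M * (r g⁻¹ * r g) := by rw [rep_inv_mul_self, mul_one]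
      _ = M * r g := by rw [← mul_assoc, h]
  · intro h
    rw [h, mul_assoc, rep_mul_inv_self, mul_one]

theorem finrank_adCoboundaries_add_adInvariants :
    Module.finrank k (adCoboundaries r) + Module.finrank k (adInvariants r) = 3 := by
  have hmap : adInvariants r =
      (LinearMap.ker ((adD r).domRestrict (trZero k))).map (trZero k).subtype := by
    ext M
    constructor
    · intro hM
      refine ⟨⟨M, hM.1⟩, ?_, rfl⟩
      show adD r M = 0
      funext g
      rw [adD_apply]
      exact (conj_sub_eq_zero_iff r g M).2 (hM.2 g)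
    · rintro ⟨⟨M, hM⟩, hk, rfl⟩
      refine ⟨hM, fun g => (conj_sub_eq_zero_iff r g M).1 ?_⟩
      have := congr_fun (show adD r M = 0 from hk) g
      simpa using this
  have hrange : adCoboundaries r = LinearMap.range ((adD r).domRestrict (trZero k)) := by
    rw [adCoboundaries, LinearMap.range_domRestrict]
  have h := LinearMap.finrank_range_add_finrank_ker ((adD r).domRestrict (trZero k))
  rw [finrank_trZero] at h
  rw [hmap, hrange, Submodule.finrank_map_subtype_eq]
  exact h

theorem finrank_adInvariants_le_one (g : G) {α β : k} (hαβ : α ≠ β)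
    (hg : (r g).charpoly = (X - C α) * (X - C β)) :
    Module.finrank k (adInvariants r) ≤ 1 := by
  set A := r g with hA
  let f : adInvariants r →ₗ[k] k :=
    ((Matrix.traceLinearMap (Fin 2) k k).comp (LinearMap.mulRight k A)).comp (adInvariants r).subtype
  suffices hf : Function.Injective f by
    simpa using LinearMap.finrank_le_finrank_of_injective hf
  rw [injective_iff_map_eq_zero]
  rintro ⟨M, htr, hcomm⟩ h0
  have hc := hcomm g
  rw [← hA] at hc
  have htA : A 0 0 + A 1 1 = α + β ∧ A 0 0 * A 1 1 - A 0 1 * A 1 0 = α * β := by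
    have h1 := congr_arg (fun P => Polynomial.eval 0 P) hg
    have h2 := congr_arg (fun P => Polynomial.eval 1 P) hg
    simp only [Matrix.eval_charpoly] at h1 h2
    simp [Matrix.det_fin_two] at h1 h2
    exact ⟨by linear_combination h1 - h2, h1⟩
  set u := A 0 0 - A 1 1
  have hD : u ^ 2 + 4 * (A 0 1 * A 1 0) ≠ 0 := by
    have : u ^ 2 + 4 * (A 0 1 * A 1 0) = (α - β) ^ 2 := by
      linear_combination (A 0 0 + A 1 1 + α + β) * htA.1 - 4 * htA.2
    rw [this]
    exact pow_ne_zero 2 (sub_ne_zero.2 hαβ)
  rw [Matrix.trace_fin_two] at htr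
  have hd : M 1 1 = -M 0 0 := by linear_combination htr
  have h00 := congr_fun (congr_fun hc 0) 0
  have h01 := congr_fun (congr_fun hc 0) 1
  have h10 := congr_fun (congr_fun hc 1) 0
  have ht : (M * A).trace = 0 := h0
  simp [Matrix.mul_apply, Fin.sum_univ_two, Matrix.trace_fin_two, hd] at h00 h01 h10 ht
  have key : ∀ z : k, z * (u ^ 2 + 4 * (A 0 1 * A 1 0)) = 0 → z = 0 := fun z hz =>
    (mul_eq_zero.1 hz).resolve_right hD
  have ha : M 0 0 = 0 := by
    refine key _ ?_
    simp only [u]
    grobner
  have hb : M 0 1 = 0 := by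
    refine key _ ?_
    simp only [u]
    grobner
  have hc' : M 1 0 = 0 := by
    refine key _ ?_
    simp only [u]
    grobner
  ext i j
  fin_cases i <;> fin_cases j <;> simp [ha, hb, hc', hd]

theorem adCocycles_eq_adCoboundaries_of_involution (h2 : (2 : k) ≠ 0) (c : G) (hc : c * c = 1)
    (hgen : ∀ g : G, g = 1 ∨ g = c) (hdet : (r c).det = -1) :
    adCocycles r = adCoboundaries r ∧ Module.finrank k (adInvariants r) = 1 := by
  set A := r c with hA
  have hAA : A * A = 1 := by rw [hA, ← map_mul, hc, map_one]
  have hinv : c⁻¹ = c := inv_eq_of_mul_eq_one_right hc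
  have htA : A.trace = 0 := by
    have h00 := congr_fun (congr_fun hAA 0) 0
    have h01 := congr_fun (congr_fun hAA 0) 1
    have h10 := congr_fun (congr_fun hAA 1) 0
    have h11 := congr_fun (congr_fun hAA 1) 1
    simp [Matrix.mul_apply, Fin.sum_univ_two] at h00 h01 h10 h11
    rw [Matrix.det_fin_two] at hdet
    rw [Matrix.trace_fin_two]
    grobner
  refine ⟨le_antisymm ?_ ?_, le_antisymm ?_ ?_⟩
  · intro z hz
    obtain ⟨htr, hco⟩ := (mem_adCocycles_iff r z).1 hz
    have hz1 : z 1 = 0 := by simpa using hco 1 1
    have hzc : z c + A * z c * A = 0 := by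
      have := hco c c
      rw [hc, hz1, hinv] at this
      exact this.symm
    refine ⟨(-(2 : k)⁻¹) • z c, ?_, funext fun g => ?_⟩
    · show ((-(2 : k)⁻¹) • z c).trace = 0
      rw [Matrix.trace_smul, htr, smul_zero]
    rw [adD_apply]
    rcases hgen g with hg | hg
    · subst hg; simp [hz1]
    · rw [hg, hinv, ← hA, mul_smul_comm, smul_mul_assoc, eq_neg_of_add_eq_zero_right hzc, smul_neg,
        neg_smul, neg_neg, sub_neg_eq_add, ← two_smul k ((2 : k)⁻¹ • z c), smul_smul,
        mul_inv_cancel₀ h2, one_smul]
  · rintro _ ⟨M, hM, rfl⟩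
    rw [mem_adCocycles_iff]
    refine ⟨fun g => ?_, fun g h => ?_⟩
    · rw [adD_apply, Matrix.trace_sub, Matrix.trace_mul_comm, ← mul_assoc, rep_inv_mul_self,
        one_mul, sub_self]
    · simp only [adD_apply, map_mul, mul_inv_rev, mul_sub, sub_mul, mul_assoc]
      abel
  · have hne : (1 : k) ≠ -1 := fun h => h2 (by linear_combination h)
    refine finrank_adInvariants_le_one r c hne ?_
    rw [Matrix.charpoly_fin_two, ← hA, htA, hdet]
    simp only [map_zero, zero_mul, sub_zero, map_neg, map_one]
    ring
  · have hmem : A ∈ adInvariants r := ⟨htA, fun g => by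
      rcases hgen g with hg | hg
      · subst hg; simp
      · rw [hg]⟩
    refine Module.finrank_pos_iff_exists_ne_zero.2 ⟨⟨A, hmem⟩, fun h => ?_⟩
    have h' : A = 0 := congr_arg Subtype.val h
    rw [h', zero_mul] at hAA
    exact zero_ne_one hAA

/-- A submodule all of whose finite dimensional submodules have dimension at most `N`. -/
theorem finrank_le_of_forall_le {V : Type*} [AddCommGroup V] [Module k V] (Z : Submodule k V)
    {N : ℕ} (h : ∀ W : Submodule k V, FiniteDimensional k W → W ≤ Z → Module.finrank k W ≤ N) :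
    FiniteDimensional k Z ∧ Module.finrank k Z ≤ N := by
  classical
  have hrank : Module.rank k Z ≤ N := by
    refine rank_le fun s hs => ?_
    have hli : LinearIndependent k fun i : s => ((i : Z) : V) :=
      hs.map' Z.subtype (Submodule.ker_subtype Z)
    have hW := h (Submodule.span k (Set.range fun i : s => ((i : Z) : V)))
      (FiniteDimensional.span_of_finite k (Set.finite_range _))
      (Submodule.span_le.2 (by rintro _ ⟨i, rfl⟩; exact (i : Z).2))
    rwa [finrank_span_eq_card hli, Fintype.card_coe] at hW
  have hfin : FiniteDimensional k Z :=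
    Module.rank_lt_aleph0_iff.1 (lt_of_le_of_lt hrank Cardinal.natCast_lt_aleph0)
  exact ⟨hfin, by exact_mod_cast (Module.finrank_eq_rank k Z).trans_le hrank⟩

end Fermat.Agent.TW.LocalCondB
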