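/-
Basic structure of the Galois group of `ℚ_p`: residue action, Frobenius elements, lifting of
inertia, fields fixed by inertia have integral value group, tame characters.
-/
import Fermat.Agent.TW.LocalDefs
import Mathlib.RingTheory.Invariant.Profinite
import Mathlib.FieldTheory.Galois.Infinite
import Mathlib.FieldTheory.Galois.Profinite
import Mathlib.FieldTheory.Finite.Basic
import Mathlib.FieldTheory.Normal.Closure
import Mathlib.GroupTheory.PGroup

set_option autoImplicit false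

noncomputable section

open scoped NNReal

namespace Fermat.Agent.TW

variable (p : ℕ) [Fact p.Prime]

instance galQp_isGalois : IsGalois ℚ_[p] (PadicAlgCl p) := by
  have : IsAlgClosure ℚ_[p] (PadicAlgCl p) := ⟨inferInstance, inferInstance⟩
  exact IsAlgClosure.isGalois ℚ_[p] (PadicAlgCl p)

/-- The valuation ring of `PadicAlgCl p`. -/
def intQp : ValuationSubring (PadicAlgCl p) where
  carrier := {x | ‖x‖ ≤ 1}
  mul_mem' {a b} ha hb := by
    show ‖a * b‖ ≤ 1
    rw [norm_mul]; exact mul_le_one₀ ha (norm_nonneg b) hb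
  one_mem' := by show ‖(1 : PadicAlgCl p)‖ ≤ 1; rw [norm_one]
  add_mem' {a b} ha hb :=
    le_trans (IsUltrametricDist.norm_add_le_max a b) (max_le ha hb)
  zero_mem' := by show ‖(0 : PadicAlgCl p)‖ ≤ 1; rw [norm_zero]; exact zero_le_one
  neg_mem' {a} ha := by show ‖-a‖ ≤ 1; rw [norm_neg]; exact ha
  mem_or_inv_mem' a := by
    rcases le_total ‖a‖ 1 with h | h
    · exact Or.inl h
    · exact Or.inr (by show ‖a⁻¹‖ ≤ 1; rw [norm_inv]; exact inv_le_one_of_one_le₀ h)

theorem mem_intQp_iff (x : PadicAlgCl p) : x ∈ intQp p ↔ ‖x‖ ≤ 1 := Iff.rfl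

/-- The residue field of `PadicAlgCl p`. -/
abbrev resQp : Type := IsLocalRing.ResidueField (intQp p)

/-- Reduction. -/
abbrev resid : intQp p →+* resQp p := IsLocalRing.residue (intQp p)

theorem resid_eq_zero_iff (x : intQp p) : resid p x = 0 ↔ ‖(x : PadicAlgCl p)‖ < 1 := by
  rw [IsLocalRing.residue_eq_zero_iff, IsLocalRing.mem_maximalIdeal, mem_nonunits_iff]
  constructor
  · intro h
    rcases lt_or_eq_of_le ((mem_intQp_iff p _).mp x.2) with h1 | h1
    · exact h1
    refine absurd ?_ h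
    have hx0 : (x : PadicAlgCl p) ≠ 0 := by
      intro h0; rw [h0, norm_zero] at h1; exact zero_ne_one h1
    refine isUnit_iff_exists_inv.mpr ⟨⟨(x : PadicAlgCl p)⁻¹, ?_⟩, ?_⟩
    · rw [mem_intQp_iff, norm_inv, h1, inv_one]
    · exact Subtype.ext (mul_inv_cancel₀ hx0)
  · intro h hu
    obtain ⟨y, hy⟩ := isUnit_iff_exists_inv.mp hu
    have h1 : ‖(x : PadicAlgCl p)‖ * ‖(y : PadicAlgCl p)‖ = 1 := by
      rw [← norm_mul, ← MulMemClass.coe_mul, hy]; simp
    have h2 := (mem_intQp_iff p _).mp y.2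
    have h3 := norm_nonneg (x : PadicAlgCl p)
    nlinarith

theorem resid_eq_iff (x y : intQp p) :
    resid p x = resid p y ↔ ‖(x : PadicAlgCl p) - y‖ < 1 := by
  rw [← sub_eq_zero, ← map_sub, resid_eq_zero_iff]; simp

instance : MulSemiringAction (GalQp p) (intQp p) where
  smul σ x := ⟨σ x, by rw [mem_intQp_iff, norm_galQp]; exact (mem_intQp_iff p _).mp x.2⟩
  one_smul _ := rfl
  mul_smul _ _ _ := rfl
  smul_zero σ := Subtype.ext (map_zero σ)
  smul_add σ x y := Subtype.ext (map_add σ (x : PadicAlgCl p) y)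
  smul_one σ := Subtype.ext (map_one σ)
  smul_mul σ x y := Subtype.ext (map_mul σ (x : PadicAlgCl p) y)

@[simp] theorem coe_smul_intQp (σ : GalQp p) (x : intQp p) :
    ((σ • x : intQp p) : PadicAlgCl p) = σ x := rfl

theorem mem_inertiaQp_iff_resid (σ : GalQp p) :
    σ ∈ inertiaQp p ↔ ∀ x : intQp p, resid p (σ • x) = resid p x := by
  rw [mem_inertiaQp_iff]
  refine ⟨fun h x => ?_, fun h x hx => ?_⟩
  · rw [resid_eq_iff, coe_smul_intQp]
    exact h (x : PadicAlgCl p) ((mem_intQp_iff p _).mp x.2)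
  · have h1 := h ⟨x, (mem_intQp_iff p x).mpr hx⟩
    rw [resid_eq_iff, coe_smul_intQp] at h1
    exact h1

section Lift

local instance intQpTopology : TopologicalSpace (intQp p) := ⊥

local instance intQpDiscrete : DiscreteTopology (intQp p) := ⟨rfl⟩

/-- Every automorphism of the residue field fixing the residues of `K` is induced by an element
of the Galois group fixing `K`. -/
theorem exists_fixing_resid_eq (K : IntermediateField ℚ_[p] (PadicAlgCl p))
    (F : resQp p ≃+* resQp p)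
    (hF : ∀ a : intQp p, (a : PadicAlgCl p) ∈ K → F (resid p a) = resid p a) :
    ∃ h : GalQp p, (∀ x ∈ K, h x = x) ∧ ∀ x : intQp p, resid p (h • x) = F (resid p x) := by
  haveI : ContinuousSMul ↥K.fixingSubgroup (intQp p) := by
    rw [continuousSMul_iff_stabilizer_isOpen]
    intro b
    have h1 : IsOpen (MulAction.stabilizer (GalQp p) (b : PadicAlgCl p) : Set (GalQp p)) :=
      stabilizer_isOpen_of_isIntegral (b : PadicAlgCl p)
    have h2 : (MulAction.stabilizer ↥K.fixingSubgroup b : Set ↥K.fixingSubgroup) =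
        Subtype.val ⁻¹' (MulAction.stabilizer (GalQp p) (b : PadicAlgCl p) : Set (GalQp p)) := by
      ext σ
      simp [Subtype.ext_iff, Subgroup.smul_def]
    rw [h2]
    exact h1.preimage continuous_subtype_val
  haveI : CompactSpace ↥K.fixingSubgroup :=
    isCompact_iff_compactSpace.mp (InfiniteGalois.fixingSubgroup_isClosed K).isCompact
  let A : Subring (intQp p) := FixedPoints.subring (intQp p) ↥K.fixingSubgroup
  haveI : SMulCommClass ↥K.fixingSubgroup A (intQp p) :=
    ⟨fun g a b => by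
      show g • ((a : intQp p) * b) = (a : intQp p) * (g • b)
      rw [smul_mul', a.2 g]⟩
  haveI : Algebra.IsInvariant A (intQp p) ↥K.fixingSubgroup := ⟨fun b hb => ⟨⟨b, hb⟩, rfl⟩⟩
  let Q : Ideal (intQp p) := IsLocalRing.maximalIdeal (intQp p)
  let P : Ideal A := Q.under A
  have hK : ∀ a : A, ((a : intQp p) : PadicAlgCl p) ∈ K := by
    intro a
    rw [← InfiniteGalois.fixedField_fixingSubgroup K]
    rintro ⟨σ, hσ⟩
    exact congrArg Subtype.val (a.2 ⟨σ, hσ⟩)
  let F' : (intQp p ⧸ Q) ≃ₐ[A ⧸ P] (intQp p ⧸ Q) :=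
    AlgEquiv.ofRingEquiv (f := F) fun r => by
      obtain ⟨a, rfl⟩ := Ideal.Quotient.mk_surjective r
      exact hF a (hK a)
  obtain ⟨⟨⟨σ, hσK⟩, hσQ⟩, hσ⟩ :=
    Ideal.Quotient.stabilizerHom_surjective_of_profinite (G := ↥K.fixingSubgroup) P Q F'
  refine ⟨σ, fun x hx => ?_, fun x => ?_⟩
  · exact (IntermediateField.mem_fixingSubgroup_iff K σ).mp hσK x hx
  · exact DFunLike.congr_fun hσ (Ideal.Quotient.mk Q x)

end Lift

section Basics

theorem norm_p : ‖(p : PadicAlgCl p)‖ = (p : ℝ)⁻¹ := by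
  rw [← map_natCast (algebraMap ℚ_[p] (PadicAlgCl p)) p, PadicAlgCl.norm_extends, Padic.norm_p]

theorem norm_natCast_le (n : ℕ) : ‖(n : PadicAlgCl p)‖ ≤ 1 :=
  IsUltrametricDist.norm_natCast_le_one _ n

theorem norm_natCast_lt_iff (n : ℕ) : ‖(n : PadicAlgCl p)‖ < 1 ↔ p ∣ n := by
  rw [← map_natCast (algebraMap ℚ_[p] (PadicAlgCl p)) n, PadicAlgCl.norm_extends,
    Padic.norm_natCast_lt_one_iff]

instance : CharP (resQp p) p := by
  refine (CharP.charP_iff_prime_eq_zero (Fact.out : p.Prime)).mpr ?_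
  rw [← map_natCast (resid p), resid_eq_zero_iff]
  simpa using (norm_natCast_lt_iff p p).mpr dvd_rfl

/-- The Frobenius automorphism of the residue field. -/
def frobRes : resQp p ≃+* resQp p :=
  RingEquiv.ofBijective (frobenius (resQp p) p) ⟨frobenius_inj _ p, fun y => by
    obtain ⟨y, rfl⟩ := IsLocalRing.residue_surjective y
    obtain ⟨z, hz⟩ := IsAlgClosed.exists_pow_nat_eq (y : PadicAlgCl p) (Fact.out : p.Prime).pos
    have hz1 : ‖z‖ ≤ 1 := by
      have h1 : ‖z‖ ^ p ≤ 1 := by rw [← norm_pow, hz]; exact (mem_intQp_iff p _).mp y.2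
      exact (pow_le_one_iff_of_nonneg (norm_nonneg z) (Fact.out : p.Prime).ne_zero).mp h1
    refine ⟨resid p ⟨z, hz1⟩, ?_⟩
    rw [frobenius_def, ← map_pow]
    exact congrArg _ (Subtype.ext hz)⟩

@[simp] theorem frobRes_apply (x : resQp p) : frobRes p x = x ^ p := rfl

theorem exists_zmod_resid_eq (a : intQp p) (ha : (a : PadicAlgCl p) ∈
    (⊥ : IntermediateField ℚ_[p] (PadicAlgCl p))) :
    ∃ n : ℕ, resid p a = (n : resQp p) := by
  obtain ⟨x, hx⟩ := IntermediateField.mem_bot.mp ha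
  have hx1 : ‖x‖ ≤ 1 := by
    have := (mem_intQp_iff p _).mp a.2
    rwa [← hx, PadicAlgCl.norm_extends] at this
  refine ⟨(PadicInt.toZMod (⟨x, hx1⟩ : ℤ_[p])).val, ?_⟩
  rw [← map_natCast (resid p), resid_eq_iff]
  have h1 := PadicInt.toZMod_spec (x := (⟨x, hx1⟩ : ℤ_[p]))
  rw [PadicInt.maximalIdeal_eq_span_p, Ideal.mem_span_singleton,
    ← PadicInt.norm_lt_one_iff_dvd, PadicInt.norm_def] at h1
  rw [← ZMod.natCast_val] at h1
  have h2 : (a : PadicAlgCl p) -
      (((PadicInt.toZMod (⟨x, hx1⟩ : ℤ_[p])).val : intQp p) : PadicAlgCl p) =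
      algebraMap ℚ_[p] (PadicAlgCl p)
        (x - ((PadicInt.toZMod (⟨x, hx1⟩ : ℤ_[p])).val : ℚ_[p])) := by
    simp [hx]
  rw [h2, PadicAlgCl.norm_extends]
  simpa using h1

/-- There is a Frobenius element. -/
theorem exists_frobenius : ∃ φ : GalQp p, ∀ x : intQp p, resid p (φ • x) = resid p x ^ p := by
  obtain ⟨φ, -, hφ⟩ := exists_fixing_resid_eq p ⊥ (frobRes p) (fun a ha => by
    obtain ⟨n, hn⟩ := exists_zmod_resid_eq p a ha
    rw [hn, frobRes_apply]
    rw [← frobenius_def]; exact map_natCast (frobenius (resQp p) p) n)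
  exact ⟨φ, hφ⟩

/-- Inertia of a finite level lifts to `inertiaQp`. -/
theorem exists_inertia_lift (K : IntermediateField ℚ_[p] (PadicAlgCl p)) (τ : GalQp p)
    (hτ : ∀ a : intQp p, (a : PadicAlgCl p) ∈ K → resid p (τ • a) = resid p a) :
    ∃ g ∈ inertiaQp p, ∀ x ∈ K, g x = τ x := by
  let R : resQp p ≃+* resQp p := IsLocalRing.ResidueField.mapEquiv
    (MulSemiringAction.toRingEquiv (GalQp p) (intQp p) τ)
  have hR : ∀ x : intQp p, R (resid p x) = resid p (τ • x) := fun x => rfl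
  obtain ⟨h, hK, hh⟩ := exists_fixing_resid_eq p K R (fun a ha => (hR a).trans (hτ a ha))
  refine ⟨τ * h⁻¹, ?_, fun x hx => ?_⟩
  · rw [mem_inertiaQp_iff_resid]
    intro x
    have h1 := hh (h⁻¹ • x)
    rw [smul_inv_smul, hR, smul_smul] at h1
    exact h1.symm
  · show τ (h⁻¹ x) = τ x
    have h1 : h⁻¹ x = h⁻¹ (h x) := by rw [hK x hx]
    rw [h1]
    exact congrArg τ (h.symm_apply_apply x)

theorem conj_mem_inertiaQp (σ : GalQp p) {g : GalQp p} (hg : g ∈ inertiaQp p) :
    σ * g * σ⁻¹ ∈ inertiaQp p := by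
  rw [mem_inertiaQp_iff_resid] at hg ⊢
  intro x
  have h1 := (resid_eq_iff p _ _).mp (hg (σ⁻¹ • x))
  rw [resid_eq_iff]
  simp only [coe_smul_intQp] at h1 ⊢
  have h2 : (σ * g * σ⁻¹) (x : PadicAlgCl p) - (x : PadicAlgCl p)
      = σ (g (σ⁻¹ x) - σ⁻¹ x) := by
    rw [map_sub, AlgEquiv.mul_apply, AlgEquiv.mul_apply]
    congr 1
    exact (σ.apply_symm_apply _).symm
  rw [h2, norm_galQp]
  exact h1

instance : (inertiaQp p).Normal := ⟨fun _ hg σ => conj_mem_inertiaQp p σ hg⟩

end Basics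

section Finite

variable (K : IntermediateField ℚ_[p] (PadicAlgCl p)) [FiniteDimensional ℚ_[p] K]

/-- Elements of `K` with independent residues are independent, with norm of a combination the
largest norm of a coefficient. -/
theorem norm_combination_of_resid_indep {ι : Type*} [Fintype ι] (y : ι → intQp p)
    (hy : ∀ c : ι → ℕ, ∑ i, (c i : resQp p) * resid p (y i) = 0 → ∀ i, p ∣ c i)
    (a : ι → ℚ_[p]) (i₀ : ι) (hmax : ∀ i, ‖a i‖ ≤ ‖a i₀‖) :
    ‖∑ i, algebraMap ℚ_[p] (PadicAlgCl p) (a i) * (y i : PadicAlgCl p)‖ = ‖a i₀‖ := by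
  classical
  rcases eq_or_ne (a i₀) 0 with h0 | h0
  · have h1 : ∀ i, a i = 0 := fun i => norm_le_zero_iff.mp (by simpa [h0] using hmax i)
    simp [h1]
  have hb : ∀ i, ‖a i / a i₀‖ ≤ 1 := fun i => by
    rw [norm_div]; exact (div_le_one (norm_pos_iff.mpr h0)).mpr (hmax i)
  let b : ι → intQp p := fun i => ⟨algebraMap ℚ_[p] (PadicAlgCl p) (a i / a i₀),
    (mem_intQp_iff p _).mpr (le_of_eq_of_le (PadicAlgCl.norm_extends p _) (hb i))⟩
  have hc : ∀ i, ∃ n : ℕ, resid p (b i) = (n : resQp p) := fun i =>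
    exists_zmod_resid_eq p (b i) (IntermediateField.mem_bot.mpr ⟨_, rfl⟩)
  choose c hc using hc
  have hS : ‖((∑ i, b i * y i : intQp p) : PadicAlgCl p)‖ = 1 := by
    refine le_antisymm ((mem_intQp_iff p _).mp (∑ i, b i * y i).2) (not_lt.mp fun hlt => ?_)
    have h1 := (resid_eq_zero_iff p _).mpr hlt
    rw [map_sum] at h1
    simp_rw [map_mul, hc] at h1
    have h2 := hy c h1 i₀
    have h3 : b i₀ = 1 := Subtype.ext (by simp [b, div_self h0])
    have h4 := hc i₀
    rw [h3, map_one, (CharP.cast_eq_zero_iff (resQp p) p _).mpr h2] at h4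
    exact one_ne_zero h4
  have h5 : ∑ i, algebraMap ℚ_[p] (PadicAlgCl p) (a i) * (y i : PadicAlgCl p) =
      algebraMap ℚ_[p] (PadicAlgCl p) (a i₀) * ((∑ i, b i * y i : intQp p) : PadicAlgCl p) := by
    rw [AddSubmonoidClass.coe_finsetSum, Finset.mul_sum]
    refine Finset.sum_congr rfl fun i _ => ?_
    simp only [MulMemClass.coe_mul, b]
    rw [← mul_assoc, ← map_mul, mul_div_cancel₀ _ h0]
  rw [h5, norm_mul, hS, PadicAlgCl.norm_extends, mul_one]

/-- The residues of `K`. -/
def residSubfield : Subfield (resQp p) where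
  carrier := {x | ∃ a : intQp p, (a : PadicAlgCl p) ∈ K ∧ resid p a = x}
  zero_mem' := ⟨0, by simp, map_zero _⟩
  one_mem' := ⟨1, by simp, map_one _⟩
  add_mem' := by
    rintro _ _ ⟨a, ha, rfl⟩ ⟨b, hb, rfl⟩
    exact ⟨a + b, by simpa using add_mem ha hb, map_add _ _ _⟩
  mul_mem' := by
    rintro _ _ ⟨a, ha, rfl⟩ ⟨b, hb, rfl⟩
    exact ⟨a * b, by simpa using mul_mem ha hb, map_mul _ _ _⟩
  neg_mem' := by
    rintro _ ⟨a, ha, rfl⟩
    exact ⟨-a, by simpa using neg_mem ha, map_neg _ _⟩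
  inv_mem' := by
    rintro _ ⟨a, ha, rfl⟩
    rcases eq_or_ne (resid p a) 0 with h | h
    · exact ⟨0, by simp, by simp [h]⟩
    have h1 : ‖(a : PadicAlgCl p)‖ = 1 := le_antisymm ((mem_intQp_iff p _).mp a.2)
      (not_lt.mp fun hh => h ((resid_eq_zero_iff p a).mpr hh))
    let b : intQp p := ⟨(a : PadicAlgCl p)⁻¹,
      (mem_intQp_iff p _).mpr (by rw [norm_inv, h1, inv_one])⟩
    refine ⟨b, inv_mem ha, eq_inv_of_mul_eq_one_left ?_⟩
    rw [← map_mul, ← map_one (resid p)]
    exact congrArg _ (Subtype.ext (inv_mul_cancel₀ (norm_ne_zero_iff.mp (by rw [h1]; exact one_ne_zero))))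

theorem resid_mem_residSubfield (a : intQp p) (ha : (a : PadicAlgCl p) ∈ K) :
    resid p a ∈ residSubfield p K := ⟨a, ha, rfl⟩

instance residSubfieldAlgebra : Algebra (ZMod p) (residSubfield p K) :=
  (ZMod.castHom (dvd_refl p) (residSubfield p K)).toAlgebra

theorem card_le_of_linearIndependent {ι : Type*} [Fintype ι] {v : ι → residSubfield p K}
    (hv : LinearIndependent (ZMod p) v) :
    ∃ y : ι → intQp p, (∀ i, (y i : PadicAlgCl p) ∈ K ∧ resid p (y i) = v i) ∧
      ∀ c : ι → ℕ, ∑ i, (c i : resQp p) * resid p (y i) = 0 → ∀ i, p ∣ c i := by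
  choose y hy using fun i => (v i).2
  refine ⟨y, hy, fun c hc i => ?_⟩
  have h1 : ∑ i, (c i : ZMod p) • v i = 0 := by
    apply Subtype.ext
    rw [AddSubmonoidClass.coe_finsetSum, ZeroMemClass.coe_zero, ← hc]
    refine Finset.sum_congr rfl fun j _ => ?_
    rw [Algebra.smul_def, map_natCast, MulMemClass.coe_mul, (hy j).2]
    simp
  exact (CharP.cast_eq_zero_iff (ZMod p) p _).mp (Fintype.linearIndependent_iff.mp hv _ h1 i)

theorem residSubfield_finrank_le :
    Module.Finite (ZMod p) (residSubfield p K) ∧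
      Module.finrank (ZMod p) (residSubfield p K) ≤ Module.finrank ℚ_[p] K := by
  have key : ∀ (s : Finset (residSubfield p K)),
      LinearIndependent (ZMod p) (Subtype.val : s → residSubfield p K) →
        s.card ≤ Module.finrank ℚ_[p] K := by
    intro s hs
    obtain ⟨y, hy, hind⟩ := card_le_of_linearIndependent p K hs
    have hli : LinearIndependent ℚ_[p] (fun i => (⟨(y i : PadicAlgCl p), (hy i).1⟩ : K)) := by
      rw [Fintype.linearIndependent_iff]
      intro a ha i
      obtain ⟨i₀, -, hi₀⟩ :=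
        Finset.exists_max_image Finset.univ (fun i => ‖a i‖) ⟨i, Finset.mem_univ i⟩
      have h1 := norm_combination_of_resid_indep p y hind a i₀ fun j => hi₀ j (Finset.mem_univ j)
      have h2 : ∑ i, algebraMap ℚ_[p] (PadicAlgCl p) (a i) * (y i : PadicAlgCl p) = 0 := by
        have := congrArg Subtype.val ha
        simpa [Algebra.smul_def] using this
      rw [h2, norm_zero] at h1
      exact norm_le_zero_iff.mp (h1 ▸ hi₀ i (Finset.mem_univ i))
    simpa using hli.fintype_card_le_finrank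
  have h := rank_le (R := ZMod p) (n := Module.finrank ℚ_[p] K) key
  have hfin : Module.Finite (ZMod p) (residSubfield p K) :=
    Module.rank_lt_aleph0_iff.mp (h.trans_lt (Cardinal.natCast_lt_aleph0))
  exact ⟨hfin, Module.finrank_le_of_rank_le h⟩

end Finite

section Decomposition

theorem resid_pow_smul_of_frobenius {φ : GalQp p} (hφ : ∀ x : intQp p, resid p (φ • x) = resid p x ^ p)
    (m : ℕ) (x : intQp p) : resid p ((φ ^ m) • x) = resid p x ^ p ^ m := by
  induction m with
  | zero => simp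
  | succ m ih => rw [pow_succ', mul_smul, hφ, ih, ← pow_mul, ← pow_succ]

variable (K : IntermediateField ℚ_[p] (PadicAlgCl p))

theorem smul_mem_of_normal [Normal ℚ_[p] K] (σ : GalQp p) {x : PadicAlgCl p} (hx : x ∈ K) :
    σ x ∈ K := by
  have h := IntermediateField.normal_iff_forall_map_le'.mp ‹Normal ℚ_[p] K› σ
  exact h ⟨x, hx, rfl⟩

theorem exists_frobenius_power [FiniteDimensional ℚ_[p] K] [Normal ℚ_[p] K] {φ : GalQp p}
    (hφ : ∀ x : intQp p, resid p (φ • x) = resid p x ^ p) (g : GalQp p) :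
    ∃ m < Module.finrank ℚ_[p] K, ∀ a : intQp p, (a : PadicAlgCl p) ∈ K →
      resid p (g • a) = resid p ((φ ^ m) • a) := by
  obtain ⟨hfin, hle⟩ := residSubfield_finrank_le p K
  haveI : Finite (residSubfield p K) := Module.finite_of_finite (ZMod p)
  have hstable : ∀ x : resQp p, x ∈ residSubfield p K →
      IsLocalRing.ResidueField.mapEquiv
        (MulSemiringAction.toRingEquiv (GalQp p) (intQp p) g) x ∈ residSubfield p K := by
    rintro _ ⟨a, ha, rfl⟩
    exact ⟨g • a, smul_mem_of_normal p K g ha, rfl⟩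
  let T : residSubfield p K →+* residSubfield p K :=
    ((IsLocalRing.ResidueField.mapEquiv
      (MulSemiringAction.toRingEquiv (GalQp p) (intQp p) g) : resQp p →+* resQp p).comp
        (residSubfield p K).subtype).codRestrict (residSubfield p K) (fun x => hstable x x.2)
  let Ta : residSubfield p K →ₐ[ZMod p] residSubfield p K :=
    { T with
      commutes' := fun c => RingHom.congr_fun
        (RingHom.ext_zmod (T.comp (algebraMap (ZMod p) (residSubfield p K)))
          (algebraMap (ZMod p) (residSubfield p K))) c }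
  obtain ⟨⟨m, hm⟩, hmT⟩ :=
    (FiniteField.bijective_frobeniusAlgHom_pow (ZMod p) (residSubfield p K)).2 Ta
  refine ⟨m, hm.trans_le hle, fun a ha => ?_⟩
  rw [resid_pow_smul_of_frobenius p hφ]
  have h1 := congrArg (fun F : residSubfield p K →ₐ[ZMod p] residSubfield p K =>
    ((F ⟨resid p a, a, ha, rfl⟩ : residSubfield p K) : resQp p)) hmT
  simp only [AlgHom.coe_pow, FiniteField.coe_frobeniusAlgHom, pow_iterate, ZMod.card, SubmonoidClass.coe_pow] at h1
  exact h1.symm

/-- Every element is a power of Frobenius times inertia, on a given finite normal level. -/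
theorem exists_decomposition [FiniteDimensional ℚ_[p] K] [Normal ℚ_[p] K] {φ : GalQp p}
    (hφ : ∀ x : intQp p, resid p (φ • x) = resid p x ^ p) (g : GalQp p) :
    ∃ m < Module.finrank ℚ_[p] K, ∃ i ∈ inertiaQp p, ∃ h ∈ K.fixingSubgroup, g = φ ^ m * i * h := by
  obtain ⟨m, hm, hmg⟩ := exists_frobenius_power p K hφ g
  obtain ⟨i, hi, hiK⟩ := exists_inertia_lift p K ((φ ^ m)⁻¹ * g) (fun a ha => by
    rw [mul_smul]
    have h1 := (resid_eq_iff p _ _).mp (hmg a ha)
    rw [resid_eq_iff]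
    simp only [coe_smul_intQp] at h1 ⊢
    have h2 : (φ ^ m)⁻¹ (g (a : PadicAlgCl p)) - (a : PadicAlgCl p) =
        (φ ^ m)⁻¹ (g (a : PadicAlgCl p) - (φ ^ m) (a : PadicAlgCl p)) := by
      rw [map_sub]
      congr 1
      exact ((φ ^ m).symm_apply_apply _).symm
    rw [h2, norm_galQp]
    exact h1)
  refine ⟨m, hm, i, hi, i⁻¹ * ((φ ^ m)⁻¹ * g), ?_, by group⟩
  rw [IntermediateField.mem_fixingSubgroup_iff]
  intro x hx
  rw [AlgEquiv.mul_apply, ← hiK x hx]
  exact i.symm_apply_apply x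

end Decomposition

section ValueGroup

theorem exists_pow_norm_eq_zpow_le {x : PadicAlgCl p} (hx : x ≠ 0) :
    ∃ (n : ℕ) (m : ℤ), 0 < n ∧ ‖x‖ ^ n = (p : ℝ) ^ m ∧
      n ≤ (minpoly ℚ_[p] x).natDegree := by
  classical
  have hint : IsIntegral ℚ_[p] x := Algebra.IsIntegral.isIntegral x
  set f := minpoly ℚ_[p] x with hf
  have hc0 : f.coeff 0 ≠ 0 := minpoly.coeff_zero_ne_zero hint hx
  obtain ⟨m, hm⟩ : ∃ m : ℤ, ‖f.coeff 0‖ = (p : ℝ) ^ (-m) :=
    ⟨_, Padic.norm_eq_zpow_neg_valuation hc0⟩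
  refine ⟨f.natDegree, -m, minpoly.natDegree_pos hint, ?_, le_rfl⟩
  rw [← hm]
  have hs : (f.map (algebraMap ℚ_[p] (PadicAlgCl p))).Splits :=
    IsAlgClosed.splits _
  have h1 := hs.coeff_zero_eq_prod_roots_of_monic ((minpoly.monic hint).map _)
  rw [Polynomial.coeff_map, Polynomial.natDegree_map] at h1
  have h2 : ∀ y ∈ (f.map (algebraMap ℚ_[p] (PadicAlgCl p))).roots, ‖y‖ = ‖x‖ := by
    intro y hy
    have hy' : Polynomial.aeval y f = 0 := by
      have := (Polynomial.mem_roots'.mp hy).2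
      rwa [Polynomial.IsRoot.def, Polynomial.eval_map, ← Polynomial.aeval_def] at this
    obtain ⟨σ, hσ⟩ := Normal.minpoly_eq_iff_mem_orbit (F := ℚ_[p]) (E := PadicAlgCl p) |>.mp
      (minpoly.eq_of_root (Algebra.IsAlgebraic.isAlgebraic x) hy')
    rw [← hσ]
    exact norm_galQp p σ x
  have h3 : ‖(f.map (algebraMap ℚ_[p] (PadicAlgCl p))).roots.prod‖ =
      ‖x‖ ^ Multiset.card (f.map (algebraMap ℚ_[p] (PadicAlgCl p))).roots := by
    have h4 := map_multiset_prod (normHom (α := PadicAlgCl p))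
      (f.map (algebraMap ℚ_[p] (PadicAlgCl p))).roots
    rw [normHom_apply] at h4
    simp only [normHom_apply] at h4
    rw [h4, Multiset.map_congr rfl (g := fun _ => ‖x‖) (fun y hy => h2 y hy),
      Multiset.map_const', Multiset.prod_replicate]
  rw [hs.natDegree_eq_card_roots.symm.trans (Polynomial.natDegree_map _) |>.symm] at h1 ⊢
  rw [← PadicAlgCl.norm_extends p (f.coeff 0)]
  show _ = ‖algebraMap ℚ_[p] (PadicAlgCl p) (f.coeff 0)‖
  rw [h1, norm_mul, norm_pow, norm_neg, norm_one, one_pow, one_mul, h3]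

theorem norm_padic_eq_zpow {a : ℚ_[p]} (ha : a ≠ 0) : ∃ m : ℤ, ‖a‖ = (p : ℝ) ^ m :=
  ⟨_, Padic.norm_eq_zpow_neg_valuation ha⟩

/-- An element fixed by inertia has integral valuation. -/
theorem exists_zpow_norm_eq_of_inertia_fixed {x : PadicAlgCl p} (hx : x ≠ 0)
    (hfix : ∀ g ∈ inertiaQp p, g x = x) : ∃ m : ℤ, ‖x‖ = (p : ℝ) ^ m := by
  classical
  by_contra hcon
  push Not at hcon
  haveI : FiniteDimensional ℚ_[p] (IntermediateField.adjoin ℚ_[p] ({x} : Set (PadicAlgCl p))) :=
    IntermediateField.adjoin.finiteDimensional (Algebra.IsIntegral.isIntegral x)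
  set K := IntermediateField.normalClosure ℚ_[p]
    (IntermediateField.adjoin ℚ_[p] ({x} : Set (PadicAlgCl p))) (PadicAlgCl p) with hK
  haveI : FiniteDimensional ℚ_[p] K := normalClosure.is_finiteDimensional _ _ _
  haveI : Normal ℚ_[p] K := normalClosure.normal _ _ _
  have hxK : x ∈ K :=
    IntermediateField.le_normalClosure _ (IntermediateField.mem_adjoin_simple_self _ x)
  have hKle : K ≤ IntermediateField.fixedField (inertiaQp p) := by
    rw [hK, IntermediateField.normalClosure_def']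
    refine iSup_le fun f => ?_
    rintro _ ⟨y, hy, rfl⟩
    set σ : GalQp p := AlgEquiv.ofBijective f (Algebra.IsAlgebraic.algHom_bijective f) with hσ
    have hle : IntermediateField.adjoin ℚ_[p] ({x} : Set (PadicAlgCl p)) ≤
        IntermediateField.fixedField (inertiaQp p) :=
      IntermediateField.adjoin_le_iff.mpr (by rintro z rfl i; exact hfix i.1 i.2)
    rintro ⟨g, hg⟩
    have h1 : (σ⁻¹ * g * σ⁻¹⁻¹) y = y := hle hy ⟨_, conj_mem_inertiaQp p σ⁻¹ hg⟩
    rw [inv_inv, AlgEquiv.mul_apply, AlgEquiv.mul_apply] at h1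
    have h2 := congrArg σ h1
    rw [show σ (σ⁻¹ (g (σ y))) = g (σ y) from σ.apply_symm_apply _] at h2
    exact h2
  have hIK : ∀ g ∈ inertiaQp p, g ∈ K.fixingSubgroup := fun g hg =>
    (IntermediateField.mem_fixingSubgroup_iff _ _).mpr fun z hz => hKle hz ⟨g, hg⟩
  obtain ⟨φ, hφ⟩ := exists_frobenius p
  -- the residue degree
  obtain ⟨hfin, -⟩ := residSubfield_finrank_le p K
  haveI : Finite (residSubfield p K) := Module.finite_of_finite (ZMod p)
  set d := Module.finrank (ZMod p) (residSubfield p K) with hd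
  have hdpos : 0 < d := Module.finrank_pos
  obtain ⟨y, hyK, hyind⟩ := card_le_of_linearIndependent p K
    (Module.finBasis (ZMod p) (residSubfield p K)).linearIndependent
  have hint : ∃ m : ℤ, ∃ z : PadicAlgCl p, z ∈ K ∧ z ≠ 0 ∧ ‖z‖ = ‖x‖ * (p : ℝ) ^ m :=
    ⟨0, x, hxK, hx, by simp⟩
  -- `2 d` elements of `K` are independent
  have hli : LinearIndependent ℚ_[p] (Sum.elim (fun i => (⟨(y i : PadicAlgCl p), (hyK i).1⟩ : K))
      (fun i => (⟨x * (y i : PadicAlgCl p), mul_mem hxK (hyK i).1⟩ : K))) := by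
    rw [Fintype.linearIndependent_iff]
    intro a ha
    have h0 : ∑ i, algebraMap ℚ_[p] (PadicAlgCl p) (a (Sum.inl i)) * (y i : PadicAlgCl p) +
        x * ∑ i, algebraMap ℚ_[p] (PadicAlgCl p) (a (Sum.inr i)) * (y i : PadicAlgCl p) = 0 := by
      have := congrArg Subtype.val ha
      simpa [Fintype.sum_sum_type, Algebra.smul_def, Finset.mul_sum, mul_left_comm] using this
    have hz : ∀ b : Fin d → ℚ_[p],
        ∑ i, algebraMap ℚ_[p] (PadicAlgCl p) (b i) * (y i : PadicAlgCl p) = 0 → ∀ i, b i = 0 := by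
      intro b hb i
      obtain ⟨i₀, -, hi₀⟩ :=
        Finset.exists_max_image Finset.univ (fun i => ‖b i‖) ⟨i, Finset.mem_univ i⟩
      have h1 := norm_combination_of_resid_indep p y hyind b i₀ fun j => hi₀ j (Finset.mem_univ j)
      rw [hb, norm_zero] at h1
      exact norm_le_zero_iff.mp (h1 ▸ hi₀ i (Finset.mem_univ i))
    have hv : ∀ b : Fin d → ℚ_[p],
        ∑ i, algebraMap ℚ_[p] (PadicAlgCl p) (b i) * (y i : PadicAlgCl p) ≠ 0 →
        ∃ m : ℤ, ‖∑ i, algebraMap ℚ_[p] (PadicAlgCl p) (b i) * (y i : PadicAlgCl p)‖ =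
          (p : ℝ) ^ m := by
      intro b hb
      obtain ⟨i₀, -, hi₀⟩ :=
        Finset.exists_max_image Finset.univ (fun i => ‖b i‖) ⟨⟨0, hdpos⟩, Finset.mem_univ _⟩
      have h1 := norm_combination_of_resid_indep p y hyind b i₀ fun j => hi₀ j (Finset.mem_univ j)
      have hb0 : b i₀ ≠ 0 := fun h => hb (norm_eq_zero.mp (by rw [h1, h, norm_zero]))
      obtain ⟨m, hm⟩ := norm_padic_eq_zpow p hb0
      exact ⟨m, h1.trans hm⟩
    set A := ∑ i, algebraMap ℚ_[p] (PadicAlgCl p) (a (Sum.inl i)) * (y i : PadicAlgCl p)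
    set B := ∑ i, algebraMap ℚ_[p] (PadicAlgCl p) (a (Sum.inr i)) * (y i : PadicAlgCl p)
    have hB : B = 0 := by
      by_contra hB
      obtain ⟨mB, hmB⟩ := hv _ hB
      have hA : A = -(x * B) := eq_neg_of_add_eq_zero_left h0
      have hA0 : A ≠ 0 := by rw [hA]; exact neg_ne_zero.mpr (mul_ne_zero hx hB)
      obtain ⟨mA, hmA⟩ := hv _ hA0
      refine hcon (mA - mB) ?_
      have hp0 : (p : ℝ) ≠ 0 := Nat.cast_ne_zero.mpr (Fact.out : p.Prime).ne_zero
      have h5 : ‖A‖ = ‖x‖ * ‖B‖ := by rw [hA, norm_neg, norm_mul]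
      rw [hmA, hmB] at h5
      rw [zpow_sub₀ hp0, h5, mul_div_cancel_right₀ _ (zpow_ne_zero _ hp0)]
    have hA : A = 0 := by simpa [hB] using h0
    rintro (i | i)
    · exact hz _ hA i
    · exact hz _ hB i
  -- but the Galois group of `K` has at most `d` elements
  haveI : IsGalois ℚ_[p] K := {}
  have hcard : Nat.card (K ≃ₐ[ℚ_[p]] K) ≤ d := by
    have hsurj : Function.Surjective (fun m : Fin d =>
        (AlgEquiv.restrictNormalHom (F := ℚ_[p]) (K₁ := PadicAlgCl p) K (φ ^ (m : ℕ)))) := by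
      intro τ
      obtain ⟨g, rfl⟩ := AlgEquiv.restrictNormalHom_surjective (F := ℚ_[p]) (E := PadicAlgCl p) τ
      obtain ⟨m, -, i, hi, h, hh, rfl⟩ := exists_decomposition p K hφ g
      refine ⟨⟨m % d, Nat.mod_lt _ hdpos⟩, ?_⟩
      have hker : ∀ h ∈ K.fixingSubgroup,
          AlgEquiv.restrictNormalHom (F := ℚ_[p]) (K₁ := PadicAlgCl p) K h = 1 := fun h hh => by
        rwa [← IntermediateField.restrictNormalHom_ker, MonoidHom.mem_ker] at hh
      simp only [map_mul, hker i (hIK i hi), hker h hh, mul_one]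
      have hd' : φ ^ d ∈ K.fixingSubgroup := by
        obtain ⟨i', hi', hi'K⟩ := exists_inertia_lift p K (φ ^ d) (fun a ha => by
          rw [resid_pow_smul_of_frobenius p hφ]
          have hx' : (⟨resid p a, a, ha, rfl⟩ : residSubfield p K) ^ (p ^ d) =
              ⟨resid p a, a, ha, rfl⟩ := by
            haveI : Fintype (residSubfield p K) := Fintype.ofFinite _
            have hc : Fintype.card (residSubfield p K) = p ^ d := by
              rw [hd, Module.card_eq_pow_finrank (K := ZMod p), ZMod.card]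
            rw [← hc]; exact FiniteField.pow_card _
          exact congrArg Subtype.val hx')
        rw [IntermediateField.mem_fixingSubgroup_iff]
        intro z hz
        rw [← hi'K z hz]
        exact (IntermediateField.mem_fixingSubgroup_iff _ _).mp (hIK i' hi') z hz
      have hsplit : φ ^ m = φ ^ (m % d) * (φ ^ d) ^ (m / d) := by
        rw [← pow_mul, ← pow_add, Nat.mod_add_div]
      rw [hsplit, map_mul, map_pow (AlgEquiv.restrictNormalHom _) (φ ^ d), hker _ hd', one_pow,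
        mul_one]
    simpa using Nat.card_le_card_of_surjective _ hsurj
  rw [IsGalois.card_aut_eq_finrank] at hcard
  have h2 := hli.fintype_card_le_finrank
  simp at h2
  omega

end ValueGroup

end Fermat.Agent.TW
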