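/-
Tame characters of the inertia group of `ℚ_p`.
-/
import Fermat.Agent.TW.LocalField
import Mathlib.RingTheory.IntegralDomain
import Mathlib.RingTheory.RootsOfUnity.Lemmas

set_option autoImplicit false

noncomputable section

namespace Fermat.Agent.TW

variable (p : ℕ) [Fact p.Prime]

/-- The residue of `σ x / x`. -/
def tameChar (x : PadicAlgCl p) (σ : GalQp p) : resQp p :=
  resid p ⟨σ x / x, by
    rw [mem_intQp_iff, norm_div, norm_galQp]
    exact div_self_le_one _⟩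

theorem norm_sub_lt_iff_tameChar {x : PadicAlgCl p} (hx : x ≠ 0) (σ : GalQp p) :
    ‖σ x - x‖ < ‖x‖ ↔ tameChar p x σ = 1 := by
  rw [tameChar, ← map_one (resid p), resid_eq_iff]
  show ‖σ x - x‖ < ‖x‖ ↔ ‖σ x / x - 1‖ < 1
  rw [div_sub_one hx, norm_div, div_lt_one (norm_pos_iff.mpr hx)]

theorem tameChar_ne_zero {x : PadicAlgCl p} (hx : x ≠ 0) (σ : GalQp p) : tameChar p x σ ≠ 0 := by
  rw [tameChar, Ne, resid_eq_zero_iff]
  show ¬ ‖σ x / x‖ < 1
  rw [norm_div, norm_galQp, div_self (norm_ne_zero_iff.mpr hx)]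
  exact lt_irrefl 1

theorem tameChar_mul {x : PadicAlgCl p} (hx : x ≠ 0) {σ : GalQp p} (hσ : σ ∈ inertiaQp p)
    (τ : GalQp p) : tameChar p x (σ * τ) = tameChar p x σ * tameChar p x τ := by
  set u : intQp p := ⟨τ x / x, by
    rw [mem_intQp_iff, norm_div, norm_galQp]; exact div_self_le_one _⟩ with hu
  have h1 := (mem_inertiaQp_iff_resid p σ).mp hσ u
  rw [tameChar, tameChar, tameChar]
  rw [← hu, ← h1, ← map_mul]
  congr 1
  apply Subtype.ext
  show (σ * τ) x / x = σ x / x * σ (τ x / x)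
  have hσx : σ x ≠ 0 := (map_ne_zero σ).mpr hx
  rw [map_div₀, AlgEquiv.mul_apply]
  field_simp

theorem tameChar_mul_arg (x y : PadicAlgCl p) (σ : GalQp p) :
    tameChar p (x * y) σ = tameChar p x σ * tameChar p y σ := by
  rw [tameChar, tameChar, tameChar, ← map_mul]
  congr 1
  apply Subtype.ext
  show σ (x * y) / (x * y) = σ x / x * (σ y / y)
  rw [map_mul, mul_div_mul_comm]

theorem tameChar_of_norm_one {x : PadicAlgCl p} (hx : ‖x‖ = 1) {σ : GalQp p}
    (hσ : σ ∈ inertiaQp p) : tameChar p x σ = 1 := by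
  have hx0 : x ≠ 0 := norm_ne_zero_iff.mp (by rw [hx]; exact one_ne_zero)
  rw [← norm_sub_lt_iff_tameChar p hx0, hx]
  exact (mem_inertiaQp_iff p σ).mp hσ x hx.le

theorem tameChar_eq_of_norm_eq {x y : PadicAlgCl p} (hy : y ≠ 0) (h : ‖x‖ = ‖y‖) {σ : GalQp p}
    (hσ : σ ∈ inertiaQp p) : tameChar p x σ = tameChar p y σ := by
  have h1 : x = x / y * y := (div_mul_cancel₀ x hy).symm
  rw [h1, tameChar_mul_arg, tameChar_of_norm_one p _ hσ, one_mul]
  rw [norm_div, h, div_self (norm_ne_zero_iff.mpr hy)]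

theorem tameChar_zpow {x : PadicAlgCl p} (hx : x ≠ 0) (σ : GalQp p) (m : ℤ) :
    tameChar p (x ^ m) σ = tameChar p x σ ^ m := by
  have hnat : ∀ n : ℕ, tameChar p (x ^ n) σ = tameChar p x σ ^ n := by
    intro n
    induction n with
    | zero =>
      rw [tameChar, pow_zero, pow_zero, ← map_one (resid p)]
      congr 1
      exact Subtype.ext (by simp)
    | succ n ih => rw [pow_succ, pow_succ, tameChar_mul_arg, ih]
  obtain ⟨n, rfl | rfl⟩ := Int.eq_nat_or_neg m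
  · rw [zpow_natCast, zpow_natCast, hnat]
  · rw [zpow_neg, zpow_natCast, zpow_neg, zpow_natCast]
    refine eq_inv_of_mul_eq_one_left ?_
    rw [← hnat, ← tameChar_mul_arg, inv_mul_cancel₀ (pow_ne_zero n hx), tameChar,
      ← map_one (resid p)]
    congr 1
    exact Subtype.ext (by simp)

theorem tameChar_conj {x : PadicAlgCl p} (hx : x ≠ 0) {σ : GalQp p} (hσ : σ ∈ inertiaQp p)
    {φ : GalQp p} (hφ : ∀ z : intQp p, resid p (φ • z) = resid p z ^ p) :
    tameChar p x (φ * σ * φ⁻¹) = tameChar p x σ ^ p := by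
  have hy : φ⁻¹ x ≠ 0 := (map_ne_zero φ⁻¹).mpr hx
  rw [← tameChar_eq_of_norm_eq p (x := φ⁻¹ x) hx (norm_galQp p φ⁻¹ x) hσ]
  rw [tameChar, tameChar, ← hφ]
  congr 1
  apply Subtype.ext
  show (φ * σ * φ⁻¹) x / x = φ (σ (φ⁻¹ x) / φ⁻¹ x)
  rw [map_div₀, AlgEquiv.mul_apply, AlgEquiv.mul_apply]
  congr 1
  exact (φ.apply_symm_apply x).symm

/-- An element with trivial tame characters on `K` has `p`-power order on `K`. -/
theorem exists_pow_mem_fixingSubgroup (K : IntermediateField ℚ_[p] (PadicAlgCl p))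
    [FiniteDimensional ℚ_[p] K] [Normal ℚ_[p] K] {σ : GalQp p}
    (hσ : ∀ x ∈ K, x ≠ 0 → ‖σ x - x‖ < ‖x‖) :
    ∃ a : ℕ, σ ^ p ^ a ∈ K.fixingSubgroup := by
  set r := AlgEquiv.restrictNormalHom (F := ℚ_[p]) (K₁ := PadicAlgCl p) K with hr
  have hker : ∀ g, g ∈ K.fixingSubgroup ↔ r g = 1 := fun g => by
    rw [← IntermediateField.restrictNormalHom_ker, MonoidHom.mem_ker]
  obtain ⟨a, m, hm, hn⟩ :=
    Nat.exists_eq_pow_mul_and_not_dvd (orderOf_pos (r σ)).ne' p (Fact.out : p.Prime).ne_one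
  refine ⟨a, ?_⟩
  set τ := σ ^ p ^ a with hτ
  have hτK : ∀ x ∈ K, x ≠ 0 → ‖τ x - x‖ < ‖x‖ := by
    have : ∀ j : ℕ, ∀ x ∈ K, x ≠ 0 → ‖(σ ^ j) x - x‖ < ‖x‖ := by
      intro j
      induction j with
      | zero => intro x _ hx; simpa using norm_pos_iff.mpr hx
      | succ j ih =>
        intro x hxK hx
        have h1 : (σ ^ (j + 1)) x - x = ((σ ^ j) (σ x) - σ x) + (σ x - x) := by
          rw [pow_succ, AlgEquiv.mul_apply]; ring
        rw [h1]
        refine lt_of_le_of_lt (IsUltrametricDist.norm_add_le_max _ _) (max_lt ?_ (hσ x hxK hx))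
        have := ih (σ x) (smul_mem_of_normal p K σ hxK) ((map_ne_zero σ).mpr hx)
        rwa [norm_galQp] at this
    exact this _
  rw [IntermediateField.mem_fixingSubgroup_iff]
  intro x hxK
  have hτm : (τ ^ m) x = x := by
    have : τ ^ m ∈ K.fixingSubgroup := by
      rw [hker, map_pow, hτ, map_pow, ← pow_mul, ← hn, pow_orderOf_eq_one]
    exact (IntermediateField.mem_fixingSubgroup_iff _ _).mp this x hxK
  by_contra hne
  set y := τ x - x with hy
  have hy0 : y ≠ 0 := sub_ne_zero.mpr hne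
  have hyK : y ∈ K := sub_mem (smul_mem_of_normal p K τ hxK) hxK
  -- `τ ^ j x - x ≡ j y`
  have key : ∀ j : ℕ, ‖(τ ^ j) x - x - (j : PadicAlgCl p) * y‖ < ‖y‖ := by
    intro j
    induction j with
    | zero => simpa using norm_pos_iff.mpr hy0
    | succ j ih =>
      have h1 : (τ ^ (j + 1)) x - x - ((j + 1 : ℕ) : PadicAlgCl p) * y =
          τ ((τ ^ j) x - x - (j : PadicAlgCl p) * y) + (j : PadicAlgCl p) * (τ y - y) := by
        rw [pow_succ', AlgEquiv.mul_apply, map_sub, map_sub, map_mul, map_natCast, Nat.cast_add,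
          Nat.cast_one, hy]
        ring
      rw [h1]
      refine lt_of_le_of_lt (IsUltrametricDist.norm_add_le_max _ _) (max_lt ?_ ?_)
      · rwa [norm_galQp]
      · rw [norm_mul]
        exact lt_of_le_of_lt
          (mul_le_of_le_one_left (norm_nonneg _) (norm_natCast_le p j)) (hτK y hyK hy0)
  have := key m
  rw [hτm, sub_self, zero_sub, norm_neg, norm_mul] at this
  have hm1 : ‖(m : PadicAlgCl p)‖ = 1 :=
    le_antisymm (norm_natCast_le p m) (not_lt.mp fun h => hm ((norm_natCast_lt_iff p m).mp h))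
  rw [hm1, one_mul] at this
  exact lt_irrefl _ this

/-- The value group of a finite extension is cyclic. -/
theorem exists_norm_generator (K : IntermediateField ℚ_[p] (PadicAlgCl p))
    [FiniteDimensional ℚ_[p] K] :
    ∃ π ∈ K, π ≠ 0 ∧ ∀ x ∈ K, x ≠ 0 → ∃ m : ℤ, ‖x‖ = ‖π‖ ^ m := by
  set n := (Module.finrank ℚ_[p] K).factorial with hn
  have hp1 : (1 : ℝ) < p := by exact_mod_cast (Fact.out : p.Prime).one_lt
  have hp0 : (p : ℝ) ≠ 0 := by positivity
  have key : ∀ x ∈ K, x ≠ 0 → ∃ m : ℤ, ‖x‖ ^ n = (p : ℝ) ^ m := by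
    intro x hxK hx
    classical
    have hint : IsIntegral ℚ_[p] x := Algebra.IsIntegral.isIntegral x
    obtain ⟨d, m, hd, hm, hdn⟩ : ∃ (d : ℕ) (m : ℤ), 0 < d ∧ ‖x‖ ^ d = (p : ℝ) ^ m ∧ d ∣ n := by
      obtain ⟨d, m, hd, hm, hdle⟩ := exists_pow_norm_eq_zpow_le p hx
      refine ⟨d, m, hd, hm, Nat.dvd_factorial hd (hdle.trans ?_)⟩
      rw [← IntermediateField.minpoly_eq (⟨x, hxK⟩ : K)]
      exact minpoly.natDegree_le _
    obtain ⟨c, hc⟩ := hdn
    exact ⟨m * c, by rw [hc, pow_mul, hm, zpow_mul, zpow_natCast]⟩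
  let H : AddSubgroup ℤ :=
    { carrier := {m | ∃ x ∈ K, x ≠ 0 ∧ ‖x‖ ^ n = (p : ℝ) ^ m}
      zero_mem' := ⟨1, one_mem K, one_ne_zero, by simp⟩
      add_mem' := by
        rintro a b ⟨x, hx, hx0, ha⟩ ⟨y, hy, hy0, hb⟩
        exact ⟨x * y, mul_mem hx hy, mul_ne_zero hx0 hy0, by
          rw [norm_mul, mul_pow, ha, hb, zpow_add₀ hp0]⟩
      neg_mem' := by
        rintro a ⟨x, hx, hx0, ha⟩
        exact ⟨x⁻¹, inv_mem hx, inv_ne_zero hx0, by rw [norm_inv, inv_pow, ha, zpow_neg]⟩ }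
  obtain ⟨g, hg⟩ := Int.subgroup_cyclic H
  have hgH : g ∈ H := hg ▸ AddSubgroup.subset_closure (Set.mem_singleton g)
  obtain ⟨π, hπK, hπ0, hπ⟩ := hgH
  refine ⟨π, hπK, hπ0, fun x hxK hx => ?_⟩
  obtain ⟨m, hm⟩ := key x hxK hx
  have hmH : m ∈ H := ⟨x, hxK, hx, hm⟩
  rw [hg, AddSubgroup.mem_closure_singleton] at hmH
  obtain ⟨c, rfl⟩ := hmH
  refine ⟨c, ?_⟩
  have h1 : ‖x‖ ^ n = (‖π‖ ^ c) ^ n := by
    rw [hm, ← zpow_natCast, ← zpow_mul, mul_comm c (n : ℤ), zpow_mul, zpow_natCast, hπ, ← zpow_mul,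
      smul_eq_mul, mul_comm g c]
  exact (pow_left_inj₀ (norm_nonneg _) (zpow_nonneg (norm_nonneg _) _)
    (Nat.factorial_pos _).ne').mp h1

/-- For a finite level homomorphism which on inertia at `q` has exponent prime to `q`, the image
of inertia is cyclic, and Frobenius raises it to the `q`-th power. -/
theorem exists_tame_generator_of_coprime {q : ℕ} [Fact q.Prime] {Γ : Type*} [Monoid Γ] {N : ℕ}
    (hN : Nat.Coprime q N)
    (f : GalQp q →* Γ) (K : IntermediateField ℚ_[q] (PadicAlgCl q))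
    [FiniteDimensional ℚ_[q] K] [Normal ℚ_[q] K] (hK : ∀ g ∈ K.fixingSubgroup, f g = 1)
    (hpow : ∀ s ∈ inertiaQp q, f s ^ N = 1) :
    ∃ τ ∈ inertiaQp q, (∀ s ∈ inertiaQp q, ∃ n : ℕ, f s = f τ ^ n) ∧
      ∀ φ : GalQp q, (∀ z : intQp q, resid q (φ • z) = resid q z ^ q) →
        f (φ * τ * φ⁻¹) = f τ ^ q := by
  obtain ⟨π, hπK, hπ0, hπ⟩ := exists_norm_generator q K
  have hmem : ∀ s : GalQp q, tameChar q π s ∈ residSubfield q K := fun s =>
    ⟨_, div_mem (smul_mem_of_normal q K s hπK) hπK, rfl⟩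
  obtain ⟨hfin, -⟩ := residSubfield_finrank_le q K
  haveI : Finite (residSubfield q K) := Module.finite_of_finite (ZMod q)
  let θ : ↥(inertiaQp q) →* (residSubfield q K)ˣ :=
    MonoidHom.toHomUnits
      { toFun := fun s => ⟨tameChar q π s, hmem _⟩
        map_one' := Subtype.ext (by
          show tameChar q π 1 = 1
          rw [← norm_sub_lt_iff_tameChar q hπ0]
          simpa using norm_pos_iff.mpr hπ0)
        map_mul' := fun s t => Subtype.ext (tameChar_mul q hπ0 s.2 t.1) }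
  have hθ : ∀ s : ↥(inertiaQp q), ((θ s : residSubfield q K) : resQp q) = tameChar q π s :=
    fun _ => rfl
  -- an inertia element with trivial character is killed by `f`
  have hkill : ∀ s : ↥(inertiaQp q), θ s = 1 → f s = 1 := by
    intro s hs
    have h1 : ∀ x ∈ K, x ≠ 0 → ‖(s : GalQp q) x - x‖ < ‖x‖ := by
      intro x hxK hx
      obtain ⟨m, hm⟩ := hπ x hxK hx
      rw [norm_sub_lt_iff_tameChar q hx, tameChar_eq_of_norm_eq q (zpow_ne_zero m hπ0)
        (by rw [hm, norm_zpow]) s.2, tameChar_zpow q hπ0, ← hθ, hs]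
      simp
    obtain ⟨a, ha⟩ := exists_pow_mem_fixingSubgroup q K h1
    have h2 : f s ^ q ^ a = 1 := by rw [← map_pow]; exact hK _ ha
    have h3 := hpow s.1 s.2
    have hcop : Nat.gcd (q ^ a) N = 1 := Nat.Coprime.pow_left a hN
    have := pow_gcd_eq_one.mpr ⟨h2, h3⟩
    rwa [hcop, pow_one] at this
  have hsame : ∀ s t : ↥(inertiaQp q), θ s = θ t → f s = f t := by
    intro s t hst
    have h1 := hkill (t⁻¹ * s) (by rw [map_mul, map_inv, hst, inv_mul_cancel])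
    calc f s = f ((t : GalQp q) * ((t⁻¹ * s : ↥(inertiaQp q)) : GalQp q)) := by simp
      _ = f t * f ((t⁻¹ * s : ↥(inertiaQp q)) : GalQp q) := map_mul _ _ _
      _ = f t := by rw [h1, mul_one]
  haveI : IsCyclic θ.range := inferInstance
  obtain ⟨⟨_, τ, rfl⟩, hτ⟩ := IsCyclic.exists_monoid_generator (α := θ.range)
  refine ⟨τ.1, τ.2, fun s hs => ?_, fun φ hφ => ?_⟩
  · obtain ⟨n, hn⟩ := hτ ⟨θ ⟨s, hs⟩, ⟨⟨s, hs⟩, rfl⟩⟩
    refine ⟨n, ?_⟩
    have h1 : θ (τ ^ n) = θ ⟨s, hs⟩ := by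
      rw [map_pow]; exact congrArg Subtype.val hn
    rw [← hsame _ _ h1, SubgroupClass.coe_pow, map_pow]
  · have h1 : θ ⟨φ * τ.1 * φ⁻¹, conj_mem_inertiaQp q φ τ.2⟩ = θ (τ ^ q) := by
      rw [map_pow]
      refine Units.ext (Subtype.ext ?_)
      show tameChar q π (φ * τ.1 * φ⁻¹) = _
      rw [tameChar_conj q hπ0 τ.2 hφ]
      rfl
    have h2 := hsame _ _ h1
    simpa using h2

/-- For a finite level homomorphism which is killed by a power of `p ≠ q` on inertia, the image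
of inertia at `q` is cyclic, and Frobenius raises it to the `q`-th power. -/
theorem exists_tame_generator {q : ℕ} [Fact q.Prime] {Γ : Type*} [Monoid Γ] (hqp : q ≠ p)
    (f : GalQp q →* Γ) (K : IntermediateField ℚ_[q] (PadicAlgCl q))
    [FiniteDimensional ℚ_[q] K] [Normal ℚ_[q] K] (hK : ∀ g ∈ K.fixingSubgroup, f g = 1)
    (hpow : ∀ s ∈ inertiaQp q, f s ^ p = 1) :
    ∃ τ ∈ inertiaQp q, (∀ s ∈ inertiaQp q, ∃ n : ℕ, f s = f τ ^ n) ∧
      ∀ φ : GalQp q, (∀ z : intQp q, resid q (φ • z) = resid q z ^ q) →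
        f (φ * τ * φ⁻¹) = f τ ^ q :=
  exists_tame_generator_of_coprime ((Nat.coprime_primes Fact.out Fact.out).mpr hqp) f K hK hpow

/-- Inertia is nontrivial on `p`-th roots of unity (`p` odd). -/
theorem exists_inertia_localCyclo_ne_one (hp2 : p ≠ 2) :
    ∃ s ∈ inertiaQp p, localCyclo p s ≠ 1 := by
  classical
  have hp : p.Prime := Fact.out
  by_contra hcon
  push Not at hcon
  haveI : NeZero p := ⟨hp.ne_zero⟩
  obtain ⟨ζ, hζ⟩ : ∃ ζ : PadicAlgCl p, IsPrimitiveRoot ζ p := by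
    haveI : NeZero ((p : ℕ) : PadicAlgCl p) := ⟨Nat.cast_ne_zero.mpr hp.ne_zero⟩
    exact HasEnoughRootsOfUnity.exists_primitiveRoot (PadicAlgCl p) p
  have hne : ∀ j ∈ Finset.Ico 1 p, ζ ^ j - 1 ≠ 0 := fun j hj => by
    rw [Finset.mem_Ico] at hj
    exact sub_ne_zero.mpr (hζ.pow_ne_one_of_pos_of_lt (by omega) hj.2)
  obtain ⟨m, hm⟩ := exists_zpow_norm_eq_of_inertia_fixed p (x := ζ - 1)
    (sub_ne_zero.mpr (hζ.ne_one hp.one_lt)) (fun g hg => by
      rw [map_sub, map_one, localCyclo_spec p g ζ hζ.pow_eq_one, hcon g hg, Units.val_one,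
        ZMod.val_one, pow_one])
  have h1 : ‖ζ - 1‖ ^ (p - 1) = (p : ℝ)⁻¹ := by
    rw [← norm_p p]
    have hprod : ∏ j ∈ Finset.Ico 1 p, (1 - ζ ^ j) = (p : PadicAlgCl p) := by
      obtain ⟨n, hn⟩ : ∃ n, p = n + 1 := ⟨p - 1, by have := hp.pos; omega⟩
      have := IsPrimitiveRoot.prod_one_sub_pow_eq_order (n := n) (μ := ζ) (hn ▸ hζ)
      have hcast : (p : PadicAlgCl p) = (n : PadicAlgCl p) + 1 := by
        exact_mod_cast congrArg (Nat.cast : ℕ → PadicAlgCl p) hn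
      rw [Finset.prod_Ico_eq_prod_range, show p - 1 = n by omega, hcast]
      simpa [add_comm 1] using this
    have hnorm : ∀ j ∈ Finset.Ico 1 p, ‖1 - ζ ^ j‖ = ‖ζ - 1‖ := by
      intro j hj
      rw [Finset.mem_Ico] at hj
      have hcop : Nat.Coprime j p := by
        refine (hp.coprime_iff_not_dvd.mpr fun h => ?_).symm
        exact absurd (Nat.le_of_dvd (by omega) h) (by omega)
      have hle : ∀ (z : PadicAlgCl p) (i : ℕ), ‖z‖ ≤ 1 → ‖z ^ i - 1‖ ≤ ‖z - 1‖ := by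
        intro z i hz
        induction i with
        | zero => simp
        | succ i ih =>
          have : z ^ (i + 1) - 1 = z * (z ^ i - 1) + (z - 1) := by ring
          rw [this]
          refine le_trans (IsUltrametricDist.norm_add_le_max _ _) (max_le ?_ le_rfl)
          rw [norm_mul]
          exact le_trans (mul_le_of_le_one_left (norm_nonneg _) hz) ih
      have hζ1 : ‖ζ‖ = 1 := IsOfFinOrder.norm_eq_one (isOfFinOrder_iff_pow_eq_one.mpr ⟨p, hp.pos, hζ.pow_eq_one⟩)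
      rw [norm_sub_rev]
      refine le_antisymm (hle ζ j hζ1.le) ?_
      obtain ⟨i, hi⟩ : ∃ i, (ζ ^ j) ^ i = ζ := by
        obtain ⟨i, -, hi⟩ := (hζ.pow_of_coprime j hcop).eq_pow_of_pow_eq_one hζ.pow_eq_one
        exact ⟨i, hi⟩
      calc ‖ζ - 1‖ = ‖(ζ ^ j) ^ i - 1‖ := by rw [hi]
        _ ≤ ‖ζ ^ j - 1‖ := hle _ i (by rw [norm_pow, hζ1, one_pow])
    rw [← hprod, norm_prod, Finset.prod_congr rfl hnorm, Finset.prod_const, Nat.card_Ico]
  rw [hm, ← zpow_natCast, ← zpow_mul, ← zpow_neg_one] at h1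
  have h2 := zpow_right_injective₀ (by exact_mod_cast hp.pos : (0 : ℝ) < p)
    (by exact_mod_cast hp.ne_one) h1
  have h3 : ((p - 1 : ℕ) : ℤ) ∣ 1 := ⟨-m, by linarith⟩
  have h4 : p - 1 = 1 := Nat.dvd_one.mp (by exact_mod_cast h3)
  omega

end Fermat.Agent.TW
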