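/-
Cocycles of the Galois group of `ℚ_p` with values in a one dimensional representation which is
the mod `p` cyclotomic character on inertia: there are at most `3` independent ones, and at most
`2` if the character is not the cyclotomic character.

On the kernel `G₀` of the unramified quotient of the two characters such a cocycle is a Kummer
cocycle; the Kummer element is described by its valuation modulo `p` and by the first digit of a
power of the unit part, on which a Frobenius acts semilinearly.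
-/
import Fermat.Agent.TW.LocalField
import Fermat.Agent.TW.LocalTame
import Fermat.Agent.PoitouTate.Sha2Hilbert90
import Mathlib.LinearAlgebra.Dimension.Finrank
import Mathlib.LinearAlgebra.Dual.Lemmas

set_option autoImplicit false

noncomputable section

namespace Fermat.Agent.TW.LocalCondB

open Polynomial

/-- The cocycles of finite level with values in `k` twisted by `ψ`. -/
def twistCocycles (p : ℕ) [Fact p.Prime] {k : Type} [Field k] (ψ : GalQp p →* k) :
    Submodule k (GalQp p → k) where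
  carrier := {f | (∀ g h, f (g * h) = f g + ψ g * f h) ∧ IsFiniteLevel p f}
  add_mem' {a b} ha hb := ⟨fun g h => by simp only [Pi.add_apply, ha.1 g h, hb.1 g h]; ring,
    ha.2.add hb.2⟩
  zero_mem' := ⟨fun g h => by simp, ⊥, inferInstance, fun _ _ _ => rfl⟩
  smul_mem' t a ha := ⟨fun g h => by simp only [Pi.smul_apply, smul_eq_mul, ha.1 g h]; ring,
    ha.2.comp (t • ·)⟩

/-- The mod `p` cyclotomic character with values in a field of characteristic `p`. -/
def cycloK (p : ℕ) [Fact p.Prime] (k : Type) [Field k] [CharP k p] : GalQp p →* k :=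
  ((ZMod.castHom (dvd_refl p) k).toMonoidHom.comp (Units.coeHom (ZMod p))).comp (localCyclo p)

theorem cycloK_apply (p : ℕ) [Fact p.Prime] (k : Type) [Field k] [CharP k p] (g : GalQp p) :
    cycloK p k g = ((localCyclo p g : ZMod p).val : k) := by
  have : NeZero p := ⟨(Fact.out : p.Prime).ne_zero⟩
  exact (ZMod.natCast_val _).symm

section Semilinear

variable {p : ℕ} [Fact p.Prime] {W : Type*} [AddCommGroup W] [Module (ZMod p) W]
  {Ω : Type*} [Field Ω] [CharP Ω p]

/-- Additive maps into a perfect field which turn `T` into the Frobenius: independence over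
`F_p` implies independence over the field. -/
theorem eq_zero_of_semilinear (hsurj : ∀ c : Ω, ∃ d, d ^ p = c) (T : W → W) {ι : Type*}
    (F : ι → W → Ω) (hF : ∀ i w, F i (T w) = F i w ^ p) (s : Finset ι)
    (hind : ∀ c : ι → ZMod p, (∀ w, ∑ i ∈ s, ((c i).val : Ω) * F i w = 0) → ∀ i ∈ s, c i = 0) :
    ∀ c : ι → Ω, (∀ w, ∑ i ∈ s, c i * F i w = 0) → ∀ i ∈ s, c i = 0 := by
  classical
  have hp0 : p ≠ 0 := (Fact.out : p.Prime).ne_zero
  have : NeZero p := ⟨hp0⟩
  induction s using Finset.induction_on with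
  | empty => simp
  | insert a s ha ih =>
    have hs : ∀ c : ι → ZMod p, (∀ w, ∑ i ∈ s, ((c i).val : Ω) * F i w = 0) →
        ∀ i ∈ s, c i = 0 := by
      intro c hc i hi
      have h := hind (Function.update c a 0) (fun w => by
        rw [Finset.sum_insert ha, Function.update_self, ZMod.val_zero, Nat.cast_zero, zero_mul,
          zero_add]
        exact (Finset.sum_congr rfl fun j hj => by
          rw [Function.update_of_ne (fun h => ha (h ▸ hj) : j ≠ a)]).trans (hc w))
        i (Finset.mem_insert_of_mem hi)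
      rwa [Function.update_of_ne (fun h => ha (h ▸ hi) : i ≠ a)] at h
    intro c hc
    by_cases hca : c a = 0
    · have h1 : ∀ i ∈ s, c i = 0 := ih hs c fun w => by
        have := hc w
        rwa [Finset.sum_insert ha, hca, zero_mul, zero_add] at this
      intro i hi
      rcases Finset.mem_insert.1 hi with rfl | hi'
      exacts [hca, h1 i hi']
    exfalso
    set e : ι → Ω := fun i => -(c i) / c a with he
    have hFa : ∀ w, F a w = ∑ i ∈ s, e i * F i w := fun w => by
      have := hc w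
      rw [Finset.sum_insert ha] at this
      have h2 : ∑ i ∈ s, e i * F i w = -(∑ i ∈ s, c i * F i w) / c a := by
        rw [← Finset.sum_neg_distrib, Finset.sum_div]
        exact Finset.sum_congr rfl fun i _ => by simp only [he]; field_simp
      rw [h2, eq_div_iff hca]
      linear_combination this
    choose d hd using fun i => hsurj (e i - e i ^ p)
    have h3 : ∀ i ∈ s, d i = 0 := ih hs d fun w => by
      refine eq_zero_of_pow_eq_zero (n := p) ?_
      have h4 := hFa (T w)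
      rw [hF, hFa w, sum_pow_char] at h4
      rw [sum_pow_char]
      simp only [mul_pow, hd, sub_mul, Finset.sum_sub_distrib, hF] at h4 ⊢
      exact sub_eq_zero.2 h4.symm
    have hmem : ∀ i ∈ s, ∃ n : ZMod p, e i = (n.val : Ω) := fun i hi => by
      have h5 : e i ^ p = e i := by
        have := hd i
        rw [h3 i hi, zero_pow hp0] at this
        linear_combination this
      obtain ⟨n, hn⟩ : e i ∈ Set.range (ZMod.castHom (dvd_refl p) Ω) := by
        have hb : e i ∈ (⊥ : Subfield Ω) := (Subfield.mem_bot_iff_pow_eq_self (F := Ω) (p := p)).2 h5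
        exact (bot_le : (⊥ : Subfield Ω) ≤ (ZMod.castHom (dvd_refl p) Ω).fieldRange) hb
      exact ⟨n, hn.symm.trans (ZMod.natCast_val n).symm⟩
    choose! n hn using hmem
    have h6 := hind (Function.update (fun i => -n i) a 1) (fun w => by
      rw [Finset.sum_insert ha, Function.update_self, ZMod.val_one, Nat.cast_one, one_mul, hFa w,
        ← Finset.sum_add_distrib]
      refine Finset.sum_eq_zero fun i hi => ?_
      rw [Function.update_of_ne (fun h => ha (h ▸ hi) : i ≠ a), hn i hi, ← add_mul,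
        ZMod.natCast_val, ZMod.natCast_val, ZMod.cast_neg (dvd_refl p), add_neg_cancel, zero_mul])
      a (Finset.mem_insert_self a s)
    rw [Function.update_self] at h6
    exact one_ne_zero h6

/-- The additive maps turning `T` into Frobenius are at most as many as the elements of `W`. -/
theorem card_semilinear_le [Finite W] (hsurj : ∀ c : Ω, ∃ d, d ^ p = c) (T : W → W) :
    Finite {F : W →+ Ω // ∀ w, F (T w) = F w ^ p} ∧
      Nat.card {F : W →+ Ω // ∀ w, F (T w) = F w ^ p} ≤ Nat.card W := by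
  classical
  have hp0 : p ≠ 0 := (Fact.out : p.Prime).ne_zero
  have : NeZero p := ⟨hp0⟩
  letI : Algebra (ZMod p) Ω := ZMod.algebra Ω p
  let S : Submodule (ZMod p) (W →+ Ω) :=
    { carrier := {F | ∀ w, F (T w) = F w ^ p}
      add_mem' := fun {a b} ha hb w => by
        rw [AddMonoidHom.add_apply, AddMonoidHom.add_apply, ha w, hb w, add_pow_char]
      zero_mem' := fun w => by simp [hp0]
      smul_mem' := fun t a ha w => by
        rw [AddMonoidHom.smul_apply, AddMonoidHom.smul_apply, ha w, Algebra.smul_def,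
          Algebra.smul_def, mul_pow, ← map_pow (algebraMap (ZMod p) Ω), ZMod.pow_card] }
  set m := Module.finrank (ZMod p) W
  let b := Module.finBasis (ZMod p) W
  have key : ∀ s : Finset S, LinearIndependent (ZMod p) (fun i : s => (i : S)) → s.card ≤ m := by
    intro s hs
    have hli := eq_zero_of_semilinear (Ω := Ω) hsurj T (fun (i : S) w => (i : W →+ Ω) w)
      (fun i w => i.2 w) s (fun c hc i hi => by
        have h0 : ∑ j : s, c j • (j : S) = 0 := by
          refine Subtype.ext (DFunLike.ext _ _ fun w => ?_)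
          rw [Submodule.coe_sum, AddMonoidHom.finsetSum_apply, ZeroMemClass.coe_zero,
            AddMonoidHom.zero_apply]
          rw [Finset.sum_coe_sort s (fun j : S => ((c j • j : S) : W →+ Ω) w)]
          rw [← hc w]
          refine Finset.sum_congr rfl fun j _ => ?_
          rw [Submodule.coe_smul, AddMonoidHom.smul_apply, Algebra.smul_def, ← map_natCast
            (algebraMap (ZMod p) Ω), ZMod.natCast_zmod_val]
        exact Fintype.linearIndependent_iff.1 hs (fun j => c j) h0 ⟨i, hi⟩)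
    let v : s → (Fin m → Ω) := fun i l => ((i : S) : W →+ Ω) (b l)
    have hv : LinearIndependent Ω v := by
      rw [Fintype.linearIndependent_iff]
      intro c hc i
      let c' : S → Ω := fun j => if h : j ∈ s then c ⟨j, h⟩ else 0
      have hc' : ∀ w, ∑ j ∈ s, c' j * (j : W →+ Ω) w = 0 := by
        intro w
        rw [← Finset.sum_coe_sort]
        simp only [c', Subtype.coe_prop, dif_pos, Subtype.coe_eta]
        have hlin : ∀ j : s, ((j : S) : W →+ Ω) w =
            ∑ l, algebraMap (ZMod p) Ω (b.repr w l) * ((j : S) : W →+ Ω) (b l) := by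
          intro j
          conv_lhs => rw [← b.sum_repr w]
          rw [map_sum]
          refine Finset.sum_congr rfl fun l _ => ?_
          rw [← Algebra.smul_def, ZMod.map_smul]
        simp only [hlin, Finset.mul_sum]
        rw [Finset.sum_comm]
        refine Finset.sum_eq_zero fun l _ => ?_
        have := congrFun hc l
        simp only [Finset.sum_apply, Pi.smul_apply, smul_eq_mul, v, Pi.zero_apply] at this
        calc _ = algebraMap (ZMod p) Ω (b.repr w l) *
            ∑ j : s, c j * ((j : S) : W →+ Ω) (b l) := by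
              rw [Finset.mul_sum]
              exact Finset.sum_congr rfl fun j _ => by
                rw [dif_pos (show (j : S) ∈ s from j.2)]; ring
          _ = 0 := by rw [this, mul_zero]
      have := hli c' hc' i i.2
      simpa [c', i.2] using this
    have := hv.fintype_card_le_finrank
    rwa [Fintype.card_coe, Module.finrank_fin_fun] at this
  have hrank := rank_le (R := ZMod p) (n := m) key
  have : Module.Free (ZMod p) S := Module.Free.of_divisionRing (ZMod p) S
  have hfd : Module.Finite (ZMod p) S :=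
    Module.rank_lt_aleph0_iff.mp (hrank.trans_lt Cardinal.natCast_lt_aleph0)
  have hfin : Finite S := Module.finite_of_finite (ZMod p)
  refine ⟨hfin, ?_⟩
  show Nat.card S ≤ _
  rw [Module.natCard_eq_pow_finrank (K := ZMod p), Module.natCard_eq_pow_finrank (K := ZMod p)
    (V := W)]
  exact Nat.pow_le_pow_right (Nat.card_pos) (Module.finrank_le_of_rank_le hrank)

end Semilinear

section Kummer

variable {p : ℕ} [Fact p.Prime] {k : Type} [Field k] [CharP k p] {ψ : GalQp p →* k}
  {ζ : PadicAlgCl p}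

/-- The subgroup on which `ψ` is the cyclotomic character. -/
def sameSub (ψ : GalQp p →* k) : Subgroup (GalQp p) := MonoidHom.eqLocus ψ (cycloK p k)

theorem mem_sameSub {g : GalQp p} : g ∈ sameSub ψ ↔ ψ g = cycloK p k g := Iff.rfl

omit [Field k] [CharP k p] in
/-- A power of the fixed root of unity with exponent modulo `p`. -/
def zetaPow (ζ : PadicAlgCl p) (a : ZMod p) : PadicAlgCl p := ζ ^ a.val

omit [Field k] [CharP k p] in
theorem zetaPow_natCast (hζ : IsPrimitiveRoot ζ p) (n : ℕ) : zetaPow ζ (n : ZMod p) = ζ ^ n := by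
  rw [zetaPow, ZMod.val_natCast, ← pow_eq_pow_mod n hζ.pow_eq_one]

theorem zetaPow_add (hζ : IsPrimitiveRoot ζ p) (a b : ZMod p) :
    zetaPow ζ (a + b) = zetaPow ζ a * zetaPow ζ b := by
  have : NeZero p := ⟨(Fact.out : p.Prime).ne_zero⟩
  rw [← ZMod.natCast_zmod_val a, ← ZMod.natCast_zmod_val b, ← Nat.cast_add, zetaPow_natCast hζ,
    zetaPow_natCast hζ, zetaPow_natCast hζ, pow_add]

theorem zetaPow_pow (hζ : IsPrimitiveRoot ζ p) (a : ZMod p) (n : ℕ) :
    zetaPow ζ a ^ n = zetaPow ζ ((n : ZMod p) * a) := by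
  have : NeZero p := ⟨(Fact.out : p.Prime).ne_zero⟩
  rw [← ZMod.natCast_zmod_val a, ← Nat.cast_mul, zetaPow_natCast hζ, zetaPow_natCast hζ, ← pow_mul,
    mul_comm]

theorem zetaPow_pow_prime (hζ : IsPrimitiveRoot ζ p) (a : ZMod p) : zetaPow ζ a ^ p = 1 := by
  rw [zetaPow_pow hζ, ZMod.natCast_self, zero_mul, zetaPow, ZMod.val_zero, pow_zero]

theorem zetaPow_ne_zero (hζ : IsPrimitiveRoot ζ p) (a : ZMod p) : zetaPow ζ a ≠ 0 :=
  pow_ne_zero _ (hζ.ne_zero (Fact.out : p.Prime).ne_zero)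

theorem zetaPow_injective (hζ : IsPrimitiveRoot ζ p) : Function.Injective (zetaPow ζ) := by
  intro a b h
  have : NeZero p := ⟨(Fact.out : p.Prime).ne_zero⟩
  exact ZMod.val_injective p (hζ.pow_inj (ZMod.val_lt a) (ZMod.val_lt b) h)

theorem galQp_zetaPow (hζ : IsPrimitiveRoot ζ p) (g : GalQp p) (a : ZMod p) :
    g (zetaPow ζ a) = zetaPow ζ ((localCyclo p g : ZMod p) * a) := by
  have : NeZero p := ⟨(Fact.out : p.Prime).ne_zero⟩
  conv_rhs => rw [← ZMod.natCast_zmod_val (localCyclo p g : ZMod p), ← zetaPow_pow hζ]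
  exact localCyclo_spec p g _ (zetaPow_pow_prime hζ a)

theorem norm_zetaPow (hζ : IsPrimitiveRoot ζ p) (a : ZMod p) : ‖zetaPow ζ a‖ = 1 :=
  IsOfFinOrder.norm_eq_one
    (isOfFinOrder_iff_pow_eq_one.mpr ⟨p, (Fact.out : p.Prime).pos, zetaPow_pow_prime hζ a⟩)

/-- `α` is a Kummer element of `h` on the subgroup `G₀`. -/
def IsKummer (ψ : GalQp p →* k) (ζ : PadicAlgCl p) (h : GalQp p → ZMod p) (α : PadicAlgCl p) :
    Prop :=
  α ≠ 0 ∧ ∀ g ∈ sameSub ψ, g α = zetaPow ζ (h g) * α

theorem IsKummer.fixed_pow (hζ : IsPrimitiveRoot ζ p) {h : GalQp p → ZMod p} {α : PadicAlgCl p}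
    (hα : IsKummer ψ ζ h α) : ∀ g ∈ sameSub ψ, g (α ^ p) = α ^ p := fun g hg => by
  rw [map_pow, hα.2 g hg, mul_pow, zetaPow_pow_prime hζ, one_mul]

theorem IsKummer.mul (hζ : IsPrimitiveRoot ζ p) {h h' : GalQp p → ZMod p} {α β : PadicAlgCl p}
    (hα : IsKummer ψ ζ h α) (hβ : IsKummer ψ ζ h' β) : IsKummer ψ ζ (h + h') (α * β) :=
  ⟨mul_ne_zero hα.1 hβ.1, fun g hg => by
    rw [map_mul, hα.2 g hg, hβ.2 g hg, Pi.add_apply, zetaPow_add hζ]; ring⟩

theorem IsKummer.mul_fixed {h : GalQp p → ZMod p} {α x : PadicAlgCl p} (hα : IsKummer ψ ζ h α)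
    (hx0 : x ≠ 0) (hx : ∀ g ∈ sameSub ψ, g x = x) : IsKummer ψ ζ h (α * x) :=
  ⟨mul_ne_zero hα.1 hx0, fun g hg => by rw [map_mul, hα.2 g hg, hx g hg, mul_assoc]⟩

theorem IsKummer.div_fixed (hζ : IsPrimitiveRoot ζ p) {h : GalQp p → ZMod p}
    {α β : PadicAlgCl p} (hα : IsKummer ψ ζ h α) (hβ : IsKummer ψ ζ h β) :
    ∀ g ∈ sameSub ψ, g (β / α) = β / α := fun g hg => by
  rw [map_div₀, hα.2 g hg, hβ.2 g hg, mul_div_mul_left _ _ (zetaPow_ne_zero hζ _)]

theorem isKummer_zero : IsKummer ψ ζ 0 1 :=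
  ⟨one_ne_zero, fun g _ => by simp [zetaPow]⟩

theorem inertia_le_sameSub (hψI : ∀ g ∈ inertiaQp p, ψ g = cycloK p k g) :
    inertiaQp p ≤ sameSub ψ := fun g hg => hψI g hg

theorem exists_zpow_of_fixed (hψI : ∀ g ∈ inertiaQp p, ψ g = cycloK p k g) {x : PadicAlgCl p}
    (hx0 : x ≠ 0) (hx : ∀ g ∈ sameSub ψ, g x = x) : ∃ m : ℤ, ‖x‖ = (p : ℝ) ^ m :=
  exists_zpow_norm_eq_of_inertia_fixed p hx0 fun g hg => hx g (inertia_le_sameSub hψI hg)

/-- A fixed element of norm less than one has norm at most `1 / p`. -/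
theorem norm_le_of_fixed (hψI : ∀ g ∈ inertiaQp p, ψ g = cycloK p k g) {x : PadicAlgCl p}
    (hx : ∀ g ∈ sameSub ψ, g x = x) (n : ℤ) (h : ‖x‖ < (p : ℝ) ^ n) :
    ‖x‖ ≤ (p : ℝ) ^ (n - 1) := by
  rcases eq_or_ne x 0 with rfl | hx0
  · rw [norm_zero]; positivity
  obtain ⟨m, hm⟩ := exists_zpow_of_fixed hψI hx0 hx
  have hp1 : (1 : ℝ) < p := by exact_mod_cast (Fact.out : p.Prime).one_lt
  rw [hm] at h ⊢
  exact zpow_le_zpow_right₀ hp1.le (by have := (zpow_lt_zpow_iff_right₀ hp1).1 h; omega)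

/-- The valuation of the Kummer element. -/
def IsVal (ψ : GalQp p →* k) (ζ : PadicAlgCl p) (h : GalQp p → ZMod p) (a : ZMod p) : Prop :=
  ∃ (α : PadicAlgCl p) (n : ℤ), IsKummer ψ ζ h α ∧ ‖α‖ ^ p = (p : ℝ) ^ n ∧ (n : ZMod p) = a

theorem IsVal.unique (hζ : IsPrimitiveRoot ζ p) (hψI : ∀ g ∈ inertiaQp p, ψ g = cycloK p k g)
    {h : GalQp p → ZMod p} {a b : ZMod p} (ha : IsVal ψ ζ h a) (hb : IsVal ψ ζ h b) : a = b := by
  obtain ⟨α, n, hα, hn, rfl⟩ := ha
  obtain ⟨β, n', hβ, hn', rfl⟩ := hb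
  obtain ⟨m, hm⟩ := exists_zpow_of_fixed hψI (div_ne_zero hβ.1 hα.1) (hα.div_fixed hζ hβ)
  have hp1 : (1 : ℝ) < p := by exact_mod_cast (Fact.out : p.Prime).one_lt
  have h1 : ‖β‖ ^ p = (p : ℝ) ^ (n + m * p) := by
    rw [zpow_add₀ (by positivity), zpow_mul, zpow_natCast, ← hn, ← hm, ← mul_pow, ← norm_mul,
      mul_div_cancel₀ _ hα.1]
  rw [hn'] at h1
  have h2 : n' = n + m * p := zpow_right_injective₀ (by positivity) hp1.ne' h1
  rw [h2]; simp

theorem IsVal.add (hζ : IsPrimitiveRoot ζ p) {h h' : GalQp p → ZMod p} {a b : ZMod p}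
    (ha : IsVal ψ ζ h a) (hb : IsVal ψ ζ h' b) : IsVal ψ ζ (h + h') (a + b) := by
  obtain ⟨α, n, hα, hn, rfl⟩ := ha
  obtain ⟨β, n', hβ, hn', rfl⟩ := hb
  refine ⟨α * β, n + n', hα.mul hζ hβ, ?_, Int.cast_add n n'⟩
  have : (0 : ℝ) < p := by exact_mod_cast (Fact.out : p.Prime).pos
  rw [norm_mul, mul_pow, hn, hn', zpow_add₀ this.ne']

theorem exists_isVal (hζ : IsPrimitiveRoot ζ p) (hψI : ∀ g ∈ inertiaQp p, ψ g = cycloK p k g)
    {h : GalQp p → ZMod p} {α : PadicAlgCl p} (hα : IsKummer ψ ζ h α) : ∃ a, IsVal ψ ζ h a := by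
  obtain ⟨n, hn⟩ := exists_zpow_of_fixed hψI (pow_ne_zero p hα.1) (hα.fixed_pow hζ)
  exact ⟨n, α, n, hα, by rw [← norm_pow]; exact hn, rfl⟩

theorem exists_unit_of_isVal_zero (hψI : ∀ g ∈ inertiaQp p, ψ g = cycloK p k g)
    {h : GalQp p → ZMod p} (hv : IsVal ψ ζ h 0) :
    ∃ α, IsKummer ψ ζ h α ∧ ‖α‖ = 1 := by
  obtain ⟨α, n, hα, hn, hn0⟩ := hv
  obtain ⟨m, rfl⟩ := (ZMod.intCast_zmod_eq_zero_iff_dvd n p).1 hn0
  have hp : (0 : ℝ) < p := by exact_mod_cast (Fact.out : p.Prime).pos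
  have hα' : ‖α‖ = (p : ℝ) ^ m := by
    rw [mul_comm, zpow_mul, zpow_natCast] at hn
    exact (pow_left_inj₀ (norm_nonneg _) (zpow_nonneg hp.le _) (Fact.out : p.Prime).ne_zero).1 hn
  refine ⟨α * (p : PadicAlgCl p) ^ m, hα.mul_fixed
    (zpow_ne_zero _ (Nat.cast_ne_zero.2 (Fact.out : p.Prime).ne_zero))
    (fun g _ => by rw [map_zpow₀, map_natCast]), ?_⟩
  rw [norm_mul, norm_zpow, norm_p, hα', inv_zpow, mul_inv_cancel₀ (zpow_ne_zero _ hp.ne')]

/-- The exponent which kills the residues of the fixed field. -/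
def tameExp (p : ℕ) (k : Type) [Field k] : ℕ := p ^ Nat.card kˣ - 1

/-- The first digit of a power of the unit part of a Kummer element. -/
def IsDigit (ψ : GalQp p →* k) (ζ : PadicAlgCl p) (h : GalQp p → ZMod p) (w : resQp p) : Prop :=
  ∃ (α : PadicAlgCl p) (b : intQp p), IsKummer ψ ζ h α ∧ ‖α‖ = 1 ∧
    (α ^ p) ^ tameExp p k = 1 + (p : PadicAlgCl p) * b ∧ resid p b = w

theorem norm_pow_prime_sub_one_le {x : PadicAlgCl p} (hx : ‖x - 1‖ ≤ (p : ℝ)⁻¹) :
    ‖x ^ p - 1‖ ≤ (p : ℝ)⁻¹ * (p : ℝ)⁻¹ := by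
  have hp0 : (0 : ℝ) ≤ (p : ℝ)⁻¹ := by positivity
  have hp1 : ((p : ℝ)⁻¹) ≤ 1 :=
    inv_le_one_of_one_le₀ (by exact_mod_cast (Fact.out : p.Prime).one_le)
  have hx1 : ‖x‖ ≤ 1 := by
    have := IsUltrametricDist.norm_add_le_max (x - 1) 1
    rw [sub_add_cancel, norm_one] at this
    exact this.trans (max_le (hx.trans hp1) le_rfl)
  have hpow : ∀ i : ℕ, ‖x ^ i - 1‖ ≤ (p : ℝ)⁻¹ := by
    intro i
    induction i with
    | zero => simpa using hp0
    | succ i ih =>
      rw [show x ^ (i + 1) - 1 = x * (x ^ i - 1) + (x - 1) by ring]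
      refine (IsUltrametricDist.norm_add_le_max _ _).trans (max_le ?_ hx)
      rw [norm_mul]
      exact (mul_le_of_le_one_left (norm_nonneg _) hx1).trans ih
  rw [← geom_sum_mul, norm_mul]
  refine mul_le_mul ?_ hx (norm_nonneg _) hp0
  have : ∑ i ∈ Finset.range p, x ^ i =
      (p : PadicAlgCl p) + ∑ i ∈ Finset.range p, (x ^ i - 1) := by
    rw [Finset.sum_sub_distrib, Finset.sum_const, Finset.card_range, nsmul_one]; ring
  rw [this]
  exact (IsUltrametricDist.norm_add_le_max _ _).trans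
    (max_le (norm_p p).le (IsUltrametricDist.norm_sum_le_of_forall_le_of_nonneg hp0
      fun i _ => hpow i))

theorem norm_tameExp_sub_one_le [Finite k] (hψI : ∀ g ∈ inertiaQp p, ψ g = cycloK p k g)
    {φ : GalQp p} (hφ : ∀ z : intQp p, resid p (φ • z) = resid p z ^ p)
    {x : PadicAlgCl p} (hx : ∀ g ∈ sameSub ψ, g x = x) (hx1 : ‖x‖ = 1) :
    ‖x ^ tameExp p k - 1‖ ≤ (p : ℝ)⁻¹ := by
  set d := Nat.card kˣ
  have hmem : φ ^ d ∈ sameSub ψ := by
    rw [mem_sameSub]
    have h1 : ψ.toHomUnits φ ^ d = 1 := pow_card_eq_one'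
    have h2 : (cycloK p k).toHomUnits φ ^ d = 1 := pow_card_eq_one'
    have h3 := congrArg Units.val h1
    have h4 := congrArg Units.val h2
    rw [Units.val_pow_eq_pow_val, MonoidHom.coe_toHomUnits, Units.val_one] at h3 h4
    rw [map_pow, map_pow, h3, h4]
  set z : intQp p := ⟨x, (mem_intQp_iff p x).2 hx1.le⟩
  have h5 : resid p z ^ p ^ d = resid p z := by
    rw [← resid_pow_smul_of_frobenius p hφ d z]
    exact congrArg _ (Subtype.ext (hx _ hmem))
  have hz0 : resid p z ≠ 0 := fun h0 => by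
    rw [resid_eq_zero_iff] at h0
    exact absurd hx1 (ne_of_lt h0)
  have h6 : resid p (z ^ tameExp p k) = resid p 1 := by
    rw [map_pow, map_one]
    apply mul_right_cancel₀ hz0
    rw [← pow_succ, one_mul, tameExp, Nat.sub_add_cancel (Nat.one_le_pow _ _ (Fact.out : p.Prime).pos)]
    exact h5
  rw [resid_eq_iff] at h6
  have h7 := norm_le_of_fixed hψI (x := x ^ tameExp p k - 1) (fun g hg => by
    rw [map_sub, map_pow, hx g hg, map_one]) 0 (by simpa [z] using h6)
  simpa using h7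

theorem exists_isDigit [Finite k] (hζ : IsPrimitiveRoot ζ p)
    (hψI : ∀ g ∈ inertiaQp p, ψ g = cycloK p k g)
    {φ : GalQp p} (hφ : ∀ z : intQp p, resid p (φ • z) = resid p z ^ p)
    {h : GalQp p → ZMod p} (hv : IsVal ψ ζ h 0) : ∃ w, IsDigit ψ ζ h w := by
  obtain ⟨α, hα, hα1⟩ := exists_unit_of_isVal_zero hψI hv
  have h1 := norm_tameExp_sub_one_le hψI hφ (hα.fixed_pow hζ) (by rw [norm_pow, hα1, one_pow])
  have hp0 : (p : PadicAlgCl p) ≠ 0 := Nat.cast_ne_zero.2 (Fact.out : p.Prime).ne_zero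
  let b : intQp p := ⟨((α ^ p) ^ tameExp p k - 1) / p, by
    rw [mem_intQp_iff, norm_div, norm_p, div_le_one (by
      have : (0 : ℝ) < p := by exact_mod_cast (Fact.out : p.Prime).pos
      positivity)]
    exact h1⟩
  exact ⟨resid p b, α, b, hα, hα1, by simp only [b]; field_simp; ring, rfl⟩

theorem IsDigit.unique [Finite k] (hζ : IsPrimitiveRoot ζ p)
    (hψI : ∀ g ∈ inertiaQp p, ψ g = cycloK p k g)
    {φ : GalQp p} (hφ : ∀ z : intQp p, resid p (φ • z) = resid p z ^ p)
    {h : GalQp p → ZMod p} {w w' : resQp p}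
    (hw : IsDigit ψ ζ h w) (hw' : IsDigit ψ ζ h w') : w = w' := by
  obtain ⟨α, b, hα, hα1, hb, rfl⟩ := hw
  obtain ⟨β, b', hβ, hβ1, hb', rfl⟩ := hw'
  set u := β / α
  have hu : ‖(u ^ p) ^ tameExp p k - 1‖ ≤ (p : ℝ)⁻¹ * (p : ℝ)⁻¹ := by
    rw [← pow_mul, mul_comm, pow_mul]
    exact norm_pow_prime_sub_one_le (norm_tameExp_sub_one_le hψI hφ (hα.div_fixed hζ hβ)
      (by rw [norm_div, hα1, hβ1, div_one]))
  have e : (u ^ p) ^ tameExp p k * (1 + (p : PadicAlgCl p) * b) = 1 + (p : PadicAlgCl p) * b' := by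
    rw [← hb, ← hb', ← mul_pow, ← mul_pow, div_mul_cancel₀ _ hα.1]
  have hpos : (0 : ℝ) < (p : ℝ)⁻¹ := by
    have : (0 : ℝ) < p := by exact_mod_cast (Fact.out : p.Prime).pos
    positivity
  have hlt : (p : ℝ)⁻¹ < 1 := inv_lt_one_of_one_lt₀ (by exact_mod_cast (Fact.out : p.Prime).one_lt)
  symm
  rw [resid_eq_iff]
  have e2 : (p : PadicAlgCl p) * ((b' : PadicAlgCl p) - b) =
      ((u ^ p) ^ tameExp p k - 1) * (1 + (p : PadicAlgCl p) * b) := by
    linear_combination -e
  have h3 : ‖(p : PadicAlgCl p)‖ * ‖(b' : PadicAlgCl p) - b‖ ≤ (p : ℝ)⁻¹ * (p : ℝ)⁻¹ := by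
    rw [← norm_mul, e2, norm_mul, ← hb, norm_pow, norm_pow, hα1, one_pow, one_pow, mul_one]
    exact hu
  rw [norm_p] at h3
  exact (le_of_mul_le_mul_left h3 hpos).trans_lt hlt

theorem IsDigit.add (hζ : IsPrimitiveRoot ζ p) {h h' : GalQp p → ZMod p} {w w' : resQp p}
    (hw : IsDigit ψ ζ h w) (hw' : IsDigit ψ ζ h' w') : IsDigit ψ ζ (h + h') (w + w') := by
  obtain ⟨α, b, hα, hα1, hb, rfl⟩ := hw
  obtain ⟨β, b', hβ, hβ1, hb', rfl⟩ := hw'
  refine ⟨α * β, b + b' + (p : intQp p) * (b * b'), hα.mul hζ hβ,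
    by rw [norm_mul, hα1, hβ1, one_mul], ?_, ?_⟩
  · rw [mul_pow, mul_pow, hb, hb']
    push_cast
    ring
  · rw [map_add, map_mul, map_natCast, CharP.cast_eq_zero, zero_mul, add_zero, map_add]

/-- A Kummer cocycle of a unit with trivial digit is a coboundary. -/
theorem eq_coboundary_of_isDigit_zero [Finite k] (hζ : IsPrimitiveRoot ζ p) (hp2 : p ≠ 2)
    (hψI : ∀ g ∈ inertiaQp p, ψ g = cycloK p k g)
    {h : GalQp p → ZMod p} (hw : IsDigit ψ ζ h 0) :
    ∃ a : ZMod p, ∀ g ∈ sameSub ψ, h g = ((localCyclo p g : ZMod p) - 1) * a := by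
  obtain ⟨α, b, hα, hα1, hb, hb0⟩ := hw
  have hp : p.Prime := Fact.out
  have hpR : (1 : ℝ) < p := by exact_mod_cast hp.one_lt
  set N := tameExp p k with hN
  set z := α ^ N with hz
  have hzp : ‖z ^ p - 1‖ ≤ (p : ℝ) ^ (-2 : ℤ) := by
    have e : z ^ p = (α ^ p) ^ N := by rw [hz, ← pow_mul, ← pow_mul, mul_comm]
    refine norm_le_of_fixed hψI (fun g hg => ?_) (-1) ?_
    · rw [map_sub, map_one, e, map_pow, hα.fixed_pow hζ g hg]
    · rw [e, hb, add_sub_cancel_left, norm_mul, norm_p, zpow_neg_one]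
      exact mul_lt_of_lt_one_right (by positivity) ((resid_eq_zero_iff p b).1 hb0)
  -- some root of unity is close to `z`
  obtain ⟨i, hi⟩ : ∃ i : ℕ, ‖z - ζ ^ i‖ ^ p ≤ (p : ℝ) ^ (-2 : ℤ) := by
    by_contra hcon
    push Not at hcon
    have hprod : ∏ i ∈ Finset.range p, (z - ζ ^ i) = z ^ p - 1 := by
      have h1 := congrArg (Polynomial.eval z)
        (X_pow_sub_C_eq_prod hζ hp.pos (one_pow p : (1 : PadicAlgCl p) ^ p = 1))
      simp only [eval_sub, eval_pow, eval_X, eval_C, eval_prod, mul_one] at h1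
      exact h1.symm
    have h2 : ((p : ℝ) ^ (-2 : ℤ)) ^ p < ‖z ^ p - 1‖ ^ p := by
      rw [← hprod, norm_prod, ← Finset.prod_pow]
      calc ((p : ℝ) ^ (-2 : ℤ)) ^ p = ∏ i ∈ Finset.range p, (p : ℝ) ^ (-2 : ℤ) := by
            rw [Finset.prod_const, Finset.card_range]
        _ < _ := Finset.prod_lt_prod_of_nonempty (fun i _ => by positivity) (fun i _ => hcon i)
            ⟨0, Finset.mem_range.2 hp.pos⟩
    exact absurd (pow_le_pow_left₀ (norm_nonneg _) hzp p) (not_le.2 h2)
  set e : ZMod p := (i : ZMod p) with he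
  have hzi : ζ ^ i = zetaPow ζ e := (zetaPow_natCast hζ i).symm
  set z' := z / zetaPow ζ e with hz'
  have hz'1 : ‖z' - 1‖ = ‖z - ζ ^ i‖ := by
    rw [hz', hzi, div_sub_one (zetaPow_ne_zero hζ e), norm_div, norm_zetaPow hζ, div_one]
  have hz'n : ‖z'‖ = 1 := by
    rw [hz', norm_div, norm_zetaPow hζ, div_one, hz, norm_pow, hα1, one_pow]
  refine ⟨(N : ZMod p)⁻¹ * e, fun g hg => ?_⟩
  have hgz : g z' = zetaPow ζ ((N : ZMod p) * h g - ((localCyclo p g : ZMod p) - 1) * e) * z' := by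
    rw [hz', map_div₀, hz, map_pow, hα.2 g hg, mul_pow, zetaPow_pow hζ, galQp_zetaPow hζ]
    have h3 := zetaPow_add hζ
      ((N : ZMod p) * h g - ((localCyclo p g : ZMod p) - 1) * e) ((localCyclo p g : ZMod p) * e)
    have h4 := zetaPow_add hζ ((N : ZMod p) * h g) e
    have h5 : (N : ZMod p) * h g - ((localCyclo p g : ZMod p) - 1) * e +
        (localCyclo p g : ZMod p) * e = (N : ZMod p) * h g + e := by ring
    rw [h5, h4] at h3
    rw [mul_div_assoc', div_eq_div_iff (zetaPow_ne_zero hζ _) (zetaPow_ne_zero hζ _)]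
    linear_combination α ^ N * h3
  set j := (N : ZMod p) * h g - ((localCyclo p g : ZMod p) - 1) * e with hj
  have hjn : ‖zetaPow ζ j - 1‖ ≤ ‖z' - 1‖ := by
    have e1 : (zetaPow ζ j - 1) * z' = (g (z' - 1)) - (z' - 1) := by
      rw [map_sub, map_one, hgz]; ring
    have h3 : ‖(zetaPow ζ j - 1) * z'‖ ≤ ‖z' - 1‖ := by
      rw [e1, sub_eq_add_neg]
      refine (IsUltrametricDist.norm_add_le_max _ _).trans (max_le ?_ ?_)
      · rw [norm_galQp]
      · rw [norm_neg]
    rwa [norm_mul, hz'n, mul_one] at h3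
  have hj0 : j = 0 := by
    by_contra hne
    set μ := zetaPow ζ j with hμdef
    have hμ : IsPrimitiveRoot μ p := hζ.pow_of_coprime _
      (hp.coprime_iff_not_dvd.2 fun hd => hne (by
        have : NeZero p := ⟨hp.ne_zero⟩
        rw [← ZMod.natCast_zmod_val j]
        exact (CharP.cast_eq_zero_iff (ZMod p) p _).2 hd)).symm
    set r := ‖μ - 1‖
    have hr0 : 0 ≤ r := norm_nonneg _
    have hlow : (p : ℝ)⁻¹ ≤ r ^ (p - 1) := by
      obtain ⟨n, hn⟩ : ∃ n, p = n + 1 := ⟨p - 1, by have := hp.pos; omega⟩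
      have h1 := IsPrimitiveRoot.prod_one_sub_pow_eq_order (n := n) (μ := μ) (hn ▸ hμ)
      rw [show p - 1 = n by omega, ← norm_p p,
        show (p : PadicAlgCl p) = (n : PadicAlgCl p) + 1 by
          exact_mod_cast congrArg (Nat.cast : ℕ → PadicAlgCl p) hn, ← h1,
        norm_prod]
      refine (Finset.prod_le_prod (fun _ _ => norm_nonneg _) (fun l _ => ?_)).trans_eq
        (by rw [Finset.prod_const, Finset.card_range])
      have hμ1 : ‖μ‖ ≤ 1 := (norm_zetaPow hζ j).le
      rw [norm_sub_rev]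
      generalize l + 1 = s
      induction s with
      | zero => simpa using hr0
      | succ s ih =>
        rw [show μ ^ (s + 1) - 1 = μ * (μ ^ s - 1) + (μ - 1) by ring]
        refine (IsUltrametricDist.norm_add_le_max _ _).trans (max_le ?_ le_rfl)
        rw [norm_mul]
        exact (mul_le_of_le_one_left (norm_nonneg _) hμ1).trans ih
    have hhigh : r ^ p ≤ (p : ℝ) ^ (-2 : ℤ) :=
      (pow_le_pow_left₀ hr0 (hjn.trans hz'1.le) p).trans hi
    have h1 : ((p : ℝ)⁻¹) ^ p ≤ ((p : ℝ) ^ (-2 : ℤ)) ^ (p - 1) :=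
      calc ((p : ℝ)⁻¹) ^ p ≤ (r ^ (p - 1)) ^ p := pow_le_pow_left₀ (by positivity) hlow p
        _ = (r ^ p) ^ (p - 1) := by rw [← pow_mul, ← pow_mul, mul_comm]
        _ ≤ _ := pow_le_pow_left₀ (by positivity) hhigh (p - 1)
    rw [← zpow_neg_one, ← zpow_natCast, ← zpow_natCast, ← zpow_mul, ← zpow_mul,
      zpow_le_zpow_iff_right₀ hpR] at h1
    have := hp.two_le
    omega
  have hN0 : (N : ZMod p) ≠ 0 := by
    rw [hN, tameExp, Nat.cast_sub (Nat.one_le_pow _ _ hp.pos), Nat.cast_pow, ZMod.natCast_self,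
      zero_pow Nat.card_pos.ne', zero_sub, Nat.cast_one]
    exact neg_ne_zero.2 one_ne_zero
  rw [hj, sub_eq_zero] at hj0
  rw [mul_left_comm, ← hj0, inv_mul_cancel_left₀ hN0]

/-- Hilbert 90: a twisted cocycle on `G₀` is a Kummer cocycle. -/
theorem exists_isKummer (hζ : IsPrimitiveRoot ζ p) (h : GalQp p → ZMod p)
    (hh : ∀ g ∈ sameSub ψ, ∀ g', h (g * g') = h g + (localCyclo p g : ZMod p) * h g')
    (hfin : IsFiniteLevel p h) : ∃ α, IsKummer ψ ζ h α := by
  obtain ⟨E, hE, hhE⟩ := hfin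
  have := hE
  have : Finite (GalQp p ⧸ E.fixingSubgroup) :=
    Subgroup.quotient_finite_of_isOpen _ (IntermediateField.fixingSubgroup_isOpen E)
  have : Finite (sameSub ψ ⧸ E.fixingSubgroup.subgroupOf (sameSub ψ)) :=
    Finite.of_injective
      (Quotient.map' (s₁ := QuotientGroup.leftRel (E.fixingSubgroup.subgroupOf (sameSub ψ)))
        (s₂ := QuotientGroup.leftRel E.fixingSubgroup) (fun u : sameSub ψ => (u : GalQp p))
        fun a b hab => by
          rw [QuotientGroup.leftRel_apply] at hab ⊢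
          simpa [Subgroup.mem_subgroupOf] using hab)
      (by
        rintro ⟨a⟩ ⟨b⟩ hab
        refine Quotient.sound' ?_
        have h1 := Quotient.exact' hab
        rw [QuotientGroup.leftRel_apply] at h1 ⊢
        simpa [Subgroup.mem_subgroupOf] using h1)
  let act : sameSub ψ →* (PadicAlgCl p ≃+* PadicAlgCl p) :=
    MonoidHom.mk' (fun g => ((g : GalQp p) : PadicAlgCl p ≃+* PadicAlgCl p)) fun _ _ => rfl
  obtain ⟨α, hα0, hα⟩ := PoitouTate.exists_hilbert90 act
    (E.fixingSubgroup.subgroupOf (sameSub ψ)) (E.val.toRingHom.toMonoidHom)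
    (fun s hs z => (IntermediateField.mem_fixingSubgroup_iff _ _).1 hs _ z.2)
    (fun σ τ hστ => by
      rw [Subgroup.mem_subgroupOf, IntermediateField.mem_fixingSubgroup_iff]
      intro x hx
      have h1 : (σ : GalQp p) x = (τ : GalQp p) x := hστ ⟨x, hx⟩
      show ((σ : GalQp p)⁻¹ * (τ : GalQp p)) x = x
      rw [AlgEquiv.mul_apply, ← h1]
      exact (σ : GalQp p).symm_apply_apply x)
    (fun g => zetaPow ζ (h g)) (fun g => zetaPow_ne_zero hζ _)
    (fun σ τ => by
      show zetaPow ζ (h ((σ : GalQp p) * τ)) = (σ : GalQp p) (zetaPow ζ (h τ)) * zetaPow ζ (h σ)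
      rw [galQp_zetaPow hζ, ← zetaPow_add hζ, hh _ σ.2, add_comm])
    (fun σ s hs => by
      show zetaPow ζ (h ((σ : GalQp p) * s)) = zetaPow ζ (h σ)
      rw [hhE _ _ (Subgroup.mem_subgroupOf.1 hs)])
  refine ⟨α, hα0, fun g hg => ?_⟩
  have h1 := hα ⟨g, hg⟩
  change zetaPow ζ (h g) = g α / α at h1
  rw [h1, div_mul_cancel₀ _ hα0]

end Kummer

section Count

theorem finite_and_card_le {A B : Type*} [AddGroup A] [AddGroup B] (f : A →+ B) {m n : ℕ}
    (hk : Finite f.ker ∧ Nat.card f.ker ≤ m) (hr : Finite f.range ∧ Nat.card f.range ≤ n) :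
    Finite A ∧ Nat.card A ≤ n * m := by
  have := hk.1
  have := hr.1
  have e := QuotientAddGroup.quotientKerEquivRange f
  have : Finite (A ⧸ f.ker) := Finite.of_equiv _ e.toEquiv.symm
  refine ⟨Finite.of_equiv _ (AddSubgroup.addGroupEquivQuotientProdAddSubgroup (s := f.ker)).symm, ?_⟩
  rw [AddSubgroup.card_eq_card_quotient_mul_card_addSubgroup f.ker, Nat.card_congr e.toEquiv]
  exact Nat.mul_le_mul hr.2 hk.2

variable {p : ℕ} [Fact p.Prime] {k : Type} [Field k] [CharP k p] {ψ : GalQp p →* k}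

theorem twistCocycle_eq_of_sameSub (hψI : ∀ g ∈ inertiaQp p, ψ g = cycloK p k g)
    {s : GalQp p} (hs : s ∈ inertiaQp p) (hsψ : ψ s ≠ 1)
    {f : GalQp p → k} (hf : f ∈ twistCocycles p ψ)
    (h0 : ∀ g ∈ sameSub ψ, f g = 0) : f = 0 := by
  funext g
  have h1 : f (s * g) = f (g * (g⁻¹ * s * g)) := by group
  have hmem : g⁻¹ * s * g ∈ inertiaQp p := by
    simpa using conj_mem_inertiaQp p g⁻¹ hs
  rw [hf.1, hf.1, h0 s (hψI s hs), h0 _ (hψI _ hmem), mul_zero, zero_add, add_zero] at h1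
  exact (mul_left_eq_self₀.1 h1).resolve_left hsψ

theorem card_twistCocycles_le [Finite k] (hp2 : p ≠ 2) (hψfin : IsFiniteLevel p ψ)
    (hψI : ∀ g ∈ inertiaQp p, ψ g = cycloK p k g) :
    Finite (twistCocycles p ψ) ∧ Nat.card (twistCocycles p ψ) ≤ Nat.card k ^ 3 ∧
      ((∃ g, ψ g ≠ cycloK p k g) → Nat.card (twistCocycles p ψ) ≤ Nat.card k ^ 2) := by
  classical
  have hp : p.Prime := Fact.out
  have : NeZero p := ⟨hp.ne_zero⟩
  letI := ZMod.algebra k p
  have : Finite (Module.Dual (ZMod p) k) := Module.finite_of_finite (ZMod p)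
  let W := Module.Dual (ZMod p) k
  have hW : Nat.card W = Nat.card k := by
    rw [Module.natCard_eq_pow_finrank (K := ZMod p), Subspace.dual_finrank_eq,
      ← Module.natCard_eq_pow_finrank]
  obtain ⟨ζ, hζ⟩ : ∃ ζ : PadicAlgCl p, IsPrimitiveRoot ζ p := by
    haveI : NeZero ((p : ℕ) : PadicAlgCl p) := ⟨Nat.cast_ne_zero.mpr hp.ne_zero⟩
    exact HasEnoughRootsOfUnity.exists_primitiveRoot (PadicAlgCl p) p
  obtain ⟨φ, hφ⟩ := exists_frobenius p
  obtain ⟨s₀, hs₀, hs₀ω⟩ := exists_inertia_localCyclo_ne_one p hp2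
  have hs₀ψ : ψ s₀ ≠ 1 := by
    rw [hψI s₀ hs₀]
    intro h1
    refine hs₀ω (Units.ext ?_)
    apply (ZMod.castHom (dvd_refl p) k).injective
    rw [Units.val_one, map_one]
    exact h1
  have hdual : ∀ x : k, (∀ l : W, l x = 0) → x = 0 := fun x hx =>
    (Module.forall_dual_apply_eq_zero_iff (ZMod p) x).1 hx
  have hsmul : ∀ (l : W) (a : ZMod p) (x : k),
      l (ZMod.castHom (dvd_refl p) k a * x) = a * l x := fun l a x => by
    rw [show ZMod.castHom (dvd_refl p) k a * x = a • x from rfl, map_smul, smul_eq_mul]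
  set Z := twistCocycles p ψ
  have hkum : ∀ (f : Z) (l : W), ∃ α, IsKummer ψ ζ (fun g => l ((f : GalQp p → k) g)) α := by
    intro f l
    refine exists_isKummer hζ _ (fun g hg g' => ?_) (f.2.2.comp l)
    rw [f.2.1 g g', map_add, mem_sameSub.1 hg]
    exact congrArg _ (hsmul l _ _)
  choose v hv using fun (f : Z) (l : W) => exists_isVal hζ hψI (hkum f l).choose_spec
  let V : Z →+ (W →+ ZMod p) := AddMonoidHom.mk'
    (fun f => AddMonoidHom.mk' (v f) fun l l' =>
      IsVal.unique hζ hψI (hv f (l + l')) ((hv f l).add hζ (hv f l')))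
    (fun f f' => AddMonoidHom.ext fun l => IsVal.unique hζ hψI (hv (f + f') l) (by
      have h1 := (hv f l).add hζ (hv f' l)
      have e : (fun g => l (((f + f' : Z) : GalQp p → k) g)) = (fun g => l ((f : GalQp p → k) g)) +
          fun g => l ((f' : GalQp p → k) g) := funext fun g => map_add l _ _
      rw [e]
      exact h1))
  -- the twist by a Frobenius
  set c : k := cycloK p k φ * (ψ.toHomUnits φ)⁻¹.val with hc
  let T : W → W := fun l => l.comp (LinearMap.mulLeft (ZMod p) c)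
  have hequiv : ∀ (f : Z) (l : W) (α : PadicAlgCl p),
      IsKummer ψ ζ (fun g => l ((f : GalQp p → k) g)) α →
      ∃ a : ZMod p, IsKummer ψ ζ (fun g => T l ((f : GalQp p → k) g))
        (φ α * zetaPow ζ a) := by
    intro f l α hα
    refine ⟨-T l ((f : GalQp p → k) φ),
      mul_ne_zero ((map_ne_zero φ).2 hα.1) (zetaPow_ne_zero hζ _), fun g hg => ?_⟩
    set g₀ := φ⁻¹ * g * φ with hg₀def
    have hg₀ : g₀ ∈ sameSub ψ := by
      rw [mem_sameSub] at hg ⊢
      have e : ∀ χ : GalQp p →* k, χ g₀ = χ φ⁻¹ * χ φ * χ g := fun χ => by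
        rw [hg₀def, map_mul, map_mul]; ring
      rw [e ψ, e (cycloK p k), hg, ← map_mul ψ φ⁻¹ φ, ← map_mul (cycloK p k) φ⁻¹ φ, inv_mul_cancel,
        map_one, map_one]
    have hgφ : g * φ = φ * g₀ := by rw [hg₀def]; group
    have h1 : g (φ α) = φ (g₀ α) := by
      rw [← AlgEquiv.mul_apply, ← AlgEquiv.mul_apply, hgφ]
    have hu : c * ψ φ = cycloK p k φ := by
      rw [hc, mul_assoc, ← MonoidHom.coe_toHomUnits ψ φ, Units.inv_mul, mul_one]
    have h2 : T l ((f : GalQp p → k) g) + (localCyclo p g : ZMod p) * T l ((f : GalQp p → k) φ) =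
        T l ((f : GalQp p → k) φ) + (localCyclo p φ : ZMod p) * l ((f : GalQp p → k) g₀) := by
      have h3 := congrArg (T l) (congrArg (f : GalQp p → k) hgφ)
      rw [f.2.1, f.2.1, map_add, map_add] at h3
      have h4 : T l (ψ g * (f : GalQp p → k) φ) =
          (localCyclo p g : ZMod p) * T l ((f : GalQp p → k) φ) := by
        rw [mem_sameSub.1 hg]
        exact hsmul (T l) _ _
      have h5 : T l (ψ φ * (f : GalQp p → k) g₀) =
          (localCyclo p φ : ZMod p) * l ((f : GalQp p → k) g₀) := by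
        show l (c * (ψ φ * (f : GalQp p → k) g₀)) = _
        rw [← mul_assoc, hu]
        exact hsmul l _ _
      rw [h4, h5] at h3
      exact h3
    rw [map_mul, h1, hα.2 g₀ hg₀, map_mul, galQp_zetaPow hζ, galQp_zetaPow hζ]
    have h6 := zetaPow_add hζ ((localCyclo p φ : ZMod p) * l ((f : GalQp p → k) g₀))
      ((localCyclo p g : ZMod p) * -T l ((f : GalQp p → k) φ))
    have h7 := zetaPow_add hζ (T l ((f : GalQp p → k) g)) (-T l ((f : GalQp p → k) φ))
    have h8 : (localCyclo p φ : ZMod p) * l ((f : GalQp p → k) g₀) +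
        (localCyclo p g : ZMod p) * -T l ((f : GalQp p → k) φ) =
        T l ((f : GalQp p → k) g) + -T l ((f : GalQp p → k) φ) := by
      linear_combination -h2
    rw [h8, h7] at h6
    linear_combination (-(φ α)) * h6
  have hVT : ∀ (f : Z) (l : W), V f (T l) = V f l := by
    intro f l
    obtain ⟨α, n, hα, hn, hnv⟩ := hv f l
    obtain ⟨a, ha⟩ := hequiv f l α hα
    refine IsVal.unique hζ hψI (hv f (T l)) ⟨_, n, ha, ?_, hnv⟩
    rw [norm_mul, norm_galQp, norm_zetaPow hζ, mul_one]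
    exact hn
  -- the digits
  have hdig : ∀ (f : V.ker) (l : W),
      ∃ w, IsDigit ψ ζ (fun g => l (((f : Z) : GalQp p → k) g)) w := fun f l => by
    refine exists_isDigit hζ hψI hφ ?_
    have h1 := DFunLike.congr_fun (AddMonoidHom.mem_ker.1 f.2) l
    have h2 := hv (f : Z) l
    change v (f : Z) l = 0 at h1
    rwa [h1] at h2
  choose D hD using hdig
  let L : V.ker →+ (W →+ resQp p) := AddMonoidHom.mk'
    (fun f => AddMonoidHom.mk' (D f) fun l l' =>
      IsDigit.unique hζ hψI hφ (hD f (l + l')) ((hD f l).add hζ (hD f l')))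
    (fun f f' => AddMonoidHom.ext fun l => IsDigit.unique hζ hψI hφ (hD (f + f') l) (by
      have h1 := (hD f l).add hζ (hD f' l)
      have e : (fun g => l ((((f + f' : V.ker) : Z) : GalQp p → k) g)) =
          (fun g => l (((f : Z) : GalQp p → k) g)) + fun g => l (((f' : Z) : GalQp p → k) g) := funext fun g => map_add l _ _
      rw [e]
      exact h1))
  have hLT : ∀ (f : V.ker) (l : W), L f (T l) = L f l ^ p := by
    intro f l
    obtain ⟨α, b, hα, hα1, hb, hbw⟩ := hD f l
    obtain ⟨a, ha⟩ := hequiv (f : Z) l α hα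
    refine IsDigit.unique hζ hψI hφ (hD f (T l)) ⟨_, φ • b, ha, ?_, ?_, ?_⟩
    · rw [norm_mul, norm_galQp, hα1, norm_zetaPow hζ, mul_one]
    · rw [mul_pow (φ α), zetaPow_pow_prime hζ, mul_one, ← map_pow, ← map_pow, hb, map_add,
        map_one, map_mul, map_natCast, coe_smul_intQp]
    · rw [hφ, hbw]; rfl
  -- the kernel of the digits
  have hker : Finite L.ker ∧ Nat.card L.ker ≤ Nat.card k := by
    let e : L.ker → k := fun f => ((f : V.ker) : Z).1 s₀
    have hinj : Function.Injective e := by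
      rintro ⟨⟨f, hfV⟩, hfL⟩ ⟨⟨f', hfV'⟩, hfL'⟩ hee
      refine Subtype.ext (Subtype.ext ?_)
      rw [← sub_eq_zero]
      have hd : (⟨f, hfV⟩ - ⟨f', hfV'⟩ : V.ker) ∈ L.ker := sub_mem hfL hfL'
      set d : Z := f - f'
      have hd0 : (d : GalQp p → k) s₀ = 0 := by
        show (f : GalQp p → k) s₀ - (f' : GalQp p → k) s₀ = 0
        exact sub_eq_zero.2 hee
      refine Subtype.ext (twistCocycle_eq_of_sameSub hψI hs₀ hs₀ψ d.2 fun g hg => hdual _ ?_)
      intro l
      have h1 := hD (⟨f, hfV⟩ - ⟨f', hfV'⟩ : V.ker) l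
      have h2 : D (⟨f, hfV⟩ - ⟨f', hfV'⟩ : V.ker) l = 0 :=
        DFunLike.congr_fun (AddMonoidHom.mem_ker.1 hd) l
      rw [h2] at h1
      obtain ⟨a, ha⟩ := eq_coboundary_of_isDigit_zero hζ hp2 hψI h1
      have ha0 := ha s₀ (hψI s₀ hs₀)
      change l ((d : GalQp p → k) s₀) = _ at ha0
      rw [hd0, map_zero] at ha0
      have haz : a = 0 := (mul_eq_zero.1 ha0.symm).resolve_left
        (sub_ne_zero.2 fun h3 => hs₀ω (Units.ext h3))
      have := ha g hg
      rw [haz, mul_zero] at this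
      exact this
    exact ⟨Finite.of_injective e hinj, Nat.card_le_card_of_injective e hinj⟩
  have hrange : Finite L.range ∧ Nat.card L.range ≤ Nat.card k := by
    obtain ⟨h1, h2⟩ := card_semilinear_le (p := p) (W := W) (Ω := resQp p)
      (fun c => ⟨(frobRes p).symm c, (frobRes p).apply_symm_apply c⟩) T
    let e : L.range → {F : W →+ resQp p // ∀ w, F (T w) = F w ^ p} :=
      fun F => ⟨F, by obtain ⟨f, hf⟩ := F.2; rw [← hf]; exact hLT f⟩
    have hinj : Function.Injective e := fun a b hab => by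
      have h3 := congrArg (fun F : {F : W →+ resQp p // ∀ w, F (T w) = F w ^ p} => F.1) hab
      exact Subtype.ext h3
    exact ⟨Finite.of_injective e hinj,
      (Nat.card_le_card_of_injective e hinj).trans (h2.trans hW.le)⟩
  obtain ⟨hfinV, hcardV⟩ := finite_and_card_le L hker hrange
  let em : (W →+ ZMod p) → Module.Dual (ZMod p) W := fun F => F.toZModLinearMap p
  have hem : Function.Injective em := fun a b hab =>
    AddMonoidHom.ext fun w => LinearMap.congr_fun hab w
  have : Finite (Module.Dual (ZMod p) W) := Module.finite_of_finite (ZMod p)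
  have : Finite (W →+ ZMod p) := Finite.of_injective em hem
  have hcW : Nat.card (W →+ ZMod p) ≤ Nat.card k := by
    refine (Nat.card_le_card_of_injective em hem).trans_eq ?_
    rw [← hW, Module.natCard_eq_pow_finrank (K := ZMod p), Subspace.dual_finrank_eq,
      ← Module.natCard_eq_pow_finrank]
  obtain ⟨hfinZ, hcardZ⟩ := finite_and_card_le V ⟨hfinV, hcardV⟩
    ⟨inferInstance, (Nat.card_le_card_of_injective _ Subtype.val_injective).trans hcW⟩
  refine ⟨hfinZ, hcardZ.trans (le_of_eq (by ring)), fun hne => ?_⟩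
  -- away from the cyclotomic character the valuations vanish
  have hc1 : c ≠ 1 := by
    intro h1
    obtain ⟨g, hg⟩ := hne
    apply hg
    obtain ⟨E, hE, hψE⟩ := hψfin
    have := hE
    have : FiniteDimensional ℚ_[p] (IntermediateField.adjoin ℚ_[p] ({ζ} : Set (PadicAlgCl p))) :=
      IntermediateField.adjoin.finiteDimensional (Algebra.IsIntegral.isIntegral ζ)
    let K := IntermediateField.normalClosure ℚ_[p]
      (E ⊔ IntermediateField.adjoin ℚ_[p] ({ζ} : Set (PadicAlgCl p)) :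
        IntermediateField ℚ_[p] (PadicAlgCl p)) (PadicAlgCl p)
    have : FiniteDimensional ℚ_[p] K := normalClosure.is_finiteDimensional _ _ _
    have : Normal ℚ_[p] K := normalClosure.normal _ _ _
    have hφ' : ψ φ = cycloK p k φ := by
      have : c * ψ φ = cycloK p k φ := by
        rw [hc, mul_assoc, ← MonoidHom.coe_toHomUnits ψ φ, Units.inv_mul, mul_one]
      rwa [h1, one_mul] at this
    obtain ⟨m, -, i, hi, h, hh, rfl⟩ := exists_decomposition p K hφ g
    have hhE : h ∈ E.fixingSubgroup := IntermediateField.fixingSubgroup_antitone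
      (le_sup_left.trans (IntermediateField.le_normalClosure _)) hh
    have hhψ : ψ h = 1 := by
      have := hψE 1 h hhE
      rwa [one_mul, map_one] at this
    have hhω : cycloK p k h = 1 := by
      have hζK : ζ ∈ K := IntermediateField.le_normalClosure _
        ((le_sup_right : _ ≤ E ⊔ _) (IntermediateField.mem_adjoin_simple_self _ ζ))
      have h2 := (IntermediateField.mem_fixingSubgroup_iff _ _).1 hh ζ hζK
      have h3 : zetaPow ζ (1 : ZMod p) = ζ := by rw [zetaPow, ZMod.val_one, pow_one]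
      rw [← h3, galQp_zetaPow hζ, mul_one] at h2
      show ZMod.castHom (dvd_refl p) k (localCyclo p h : ZMod p) = 1
      rw [zetaPow_injective hζ h2, map_one]
    rw [map_mul, map_mul, map_pow, map_mul, map_mul, map_pow, hφ', hψI i hi, hhψ, hhω]
  have hV0 : V.range = ⊥ := by
    rw [eq_bot_iff]
    rintro _ ⟨f, rfl⟩
    rw [AddSubgroup.mem_bot]
    refine AddMonoidHom.ext fun l => ?_
    let l' : W := l.comp (LinearMap.mulLeft (ZMod p) (c - 1)⁻¹)
    have hl : l = T l' - l' := by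
      refine LinearMap.ext fun x => ?_
      show l x = l ((c - 1)⁻¹ * (c * x)) - l ((c - 1)⁻¹ * x)
      rw [← map_sub, ← mul_sub, ← sub_one_mul, inv_mul_cancel_left₀ (sub_ne_zero.2 hc1)]
    rw [hl, map_sub, hVT, sub_self, AddMonoidHom.zero_apply]
  obtain ⟨-, hcard2⟩ := finite_and_card_le V ⟨hfinV, hcardV⟩ (n := 1)
    ⟨inferInstance, by rw [hV0]; simp⟩
  exact hcard2.trans (le_of_eq (by ring))

/-- Twisted cocycles for a character which is cyclotomic on inertia: `h¹ ≤ 2`, and `h¹ ≤ 1` away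
from the cyclotomic character; here with the coboundaries included. -/
theorem finrank_twistCocycles_le [Finite k] (hp2 : p ≠ 2) (hψfin : IsFiniteLevel p ψ)
    (hψI : ∀ g ∈ inertiaQp p, ψ g = ((localCyclo p g : ZMod p).val : k)) :
    FiniteDimensional k (twistCocycles p ψ) ∧ Module.finrank k (twistCocycles p ψ) ≤ 3 ∧
      ((∃ g, ψ g ≠ ((localCyclo p g : ZMod p).val : k)) →
        Module.finrank k (twistCocycles p ψ) ≤ 2) := by
  simp only [← cycloK_apply] at hψI ⊢
  obtain ⟨h1, h2, h3⟩ := card_twistCocycles_le hp2 hψfin hψI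
  have := h1
  have hfd : FiniteDimensional k (twistCocycles p ψ) := Module.Finite.of_finite
  have hk : 1 < Nat.card k := Finite.one_lt_card
  rw [Module.natCard_eq_pow_finrank (K := k)] at h2 h3
  exact ⟨hfd, (Nat.pow_le_pow_iff_right hk).1 h2, fun h => (Nat.pow_le_pow_iff_right hk).1 (h3 h)⟩

end Count

end Fermat.Agent.TW.LocalCondB
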