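/-
The strict ordinary bound: cocycles which are strictly upper triangular with respect to the line
on the quotient by which inertia is trivial, together with the coboundaries, form a space of
dimension at most `4`.
-/
import Fermat.Agent.TW.LocalCondBKummer
import Fermat.Agent.TW.LocalCondBAlgebra

set_option autoImplicit false

noncomputable section

namespace Fermat.Agent.TW.LocalCondB

open scoped Matrix

section Line

variable {k : Type} [Field k]

/-- The determinant pairing with `v`. -/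
def linePair (v : Fin 2 → k) : Fin 2 → k := ![-v 1, v 0]

/-- The nilpotent matrix with image and kernel the line of `v`. -/
def lineNil (v : Fin 2 → k) : Matrix (Fin 2) (Fin 2) k := Matrix.vecMulVec v (linePair v)

theorem linePair_dotProduct_self (v : Fin 2 → k) : linePair v ⬝ᵥ v = 0 := by
  simp [linePair, dotProduct, Fin.sum_univ_two]; ring

theorem exists_line_complement {v : Fin 2 → k} (hv : v ≠ 0) :
    ∃ w u : Fin 2 → k, u ⬝ᵥ v = 1 ∧ u ⬝ᵥ w = 0 ∧ linePair v ⬝ᵥ w = 1 ∧
      ∀ x, x = (u ⬝ᵥ x) • v + (linePair v ⬝ᵥ x) • w := by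
  by_cases h0 : v 0 = 0
  · have h1 : v 1 ≠ 0 := fun h1 => hv (funext fun i => by fin_cases i <;> assumption)
    refine ⟨![-(v 1)⁻¹, 0], ![0, (v 1)⁻¹], ?_, ?_, ?_, fun x => funext fun i => ?_⟩
    · simp [dotProduct, Fin.sum_univ_two, h1]
    · simp [dotProduct, Fin.sum_univ_two]
    · simp [linePair, dotProduct, Fin.sum_univ_two, h1]
    · fin_cases i <;> simp [linePair, dotProduct, Fin.sum_univ_two, h0] <;> field_simp
  · refine ⟨![0, (v 0)⁻¹], ![(v 0)⁻¹, 0], ?_, ?_, ?_, fun x => funext fun i => ?_⟩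
    · simp [dotProduct, Fin.sum_univ_two, h0]
    · simp [dotProduct, Fin.sum_univ_two]
    · simp [linePair, dotProduct, Fin.sum_univ_two, h0]
    · fin_cases i <;> simp [linePair, dotProduct, Fin.sum_univ_two] <;> field_simp <;> ring

theorem lineNil_mulVec (v x : Fin 2 → k) :
    (lineNil v).mulVec x = (linePair v ⬝ᵥ x) • v := by
  rw [lineNil, Matrix.vecMulVec_mulVec]
  funext i
  simp [mul_comm]

theorem lineNil_mulVec_self (v : Fin 2 → k) : (lineNil v).mulVec v = 0 := by
  rw [lineNil_mulVec, linePair_dotProduct_self, zero_smul]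

theorem trace_lineNil (v : Fin 2 → k) : (lineNil v).trace = 0 := by
  simp [lineNil, linePair, Matrix.trace_fin_two, Matrix.vecMulVec_apply]; ring

theorem lineNil_ne_zero {v : Fin 2 → k} (hv : v ≠ 0) : lineNil v ≠ 0 := by
  obtain ⟨w, u, -, -, hw, -⟩ := exists_line_complement hv
  intro h
  have h1 := lineNil_mulVec v w
  rw [h, hw, one_smul, Matrix.zero_mulVec] at h1
  exact hv h1.symm

/-- A trace zero matrix killing `v` is a multiple of the nilpotent of the line. -/
theorem exists_eq_smul_lineNil {v : Fin 2 → k} (hv : v ≠ 0) {M : Matrix (Fin 2) (Fin 2) k}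
    (hM : M.mulVec v = 0) (htr : M.trace = 0) : ∃ t : k, M = t • lineNil v := by
  obtain ⟨w, u, -, -, -, hdec⟩ := exists_line_complement hv
  set m := M.mulVec w with hm
  have hx : ∀ x, M.mulVec x = (linePair v ⬝ᵥ x) • m := fun x => by
    conv_lhs => rw [hdec x]
    rw [Matrix.mulVec_add, Matrix.mulVec_smul, Matrix.mulVec_smul, hM, smul_zero, zero_add]
  have hMeq : M = Matrix.vecMulVec m (linePair v) := by
    refine Matrix.toLin'.injective (LinearMap.ext fun x => ?_)
    rw [Matrix.toLin'_apply, Matrix.toLin'_apply, hx, Matrix.vecMulVec_mulVec]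
    funext i
    simp [mul_comm]
  have h0 : linePair v ⬝ᵥ m = 0 := by
    rw [hMeq, Matrix.trace_vecMulVec, dotProduct_comm] at htr
    exact htr
  refine ⟨u ⬝ᵥ m, ?_⟩
  have h1 := hdec m
  rw [h0, zero_smul, add_zero] at h1
  rw [hMeq, lineNil, ← Matrix.smul_vecMulVec, ← h1]

theorem det_one_add_vecMulVec_two (v l : Fin 2 → k) :
    (1 + Matrix.vecMulVec v l).det = 1 + l ⬝ᵥ v := by
  simp [Matrix.det_fin_two, Matrix.vecMulVec_apply, dotProduct, Fin.sum_univ_two]
  ring

end Line

variable {p : ℕ} [Fact p.Prime] {k : Type} [Field k] (r : GalQp p →* Matrix (Fin 2) (Fin 2) k)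

theorem rep_stable {v : Fin 2 → k} (h : ∀ g, (r g).mulVec v ∈ k ∙ v) (g : GalQp p) :
    ∃ a : k, (r g).mulVec v = a • v := by
  obtain ⟨a, ha⟩ := Submodule.mem_span_singleton.1 (h g)
  exact ⟨a, ha.symm⟩

/-- On inertia the line is the cyclotomic character. -/
theorem inertia_mulVec_line {v : Fin 2 → k} (hv : v ≠ 0)
    (hquo : ∀ g ∈ inertiaQp p, ∀ w, (r g).mulVec w - w ∈ k ∙ v) {g : GalQp p}
    (hg : g ∈ inertiaQp p) : (r g).mulVec v = (r g).det • v := by
  obtain ⟨w, u, huv, -, -, hdec⟩ := exists_line_complement hv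
  have hl : r g = 1 + Matrix.vecMulVec v (fun j => u ⬝ᵥ ((r g).mulVec (Pi.single j 1) - Pi.single j 1)) := by
    ext i j
    obtain ⟨t, ht⟩ := Submodule.mem_span_singleton.1 (hquo g hg (Pi.single j 1))
    rw [Matrix.add_apply, Matrix.vecMulVec_apply, ← ht, dotProduct_smul, huv, smul_eq_mul, mul_one]
    have h1 := congrFun ht i
    rw [Pi.sub_apply, Pi.smul_apply, smul_eq_mul, Matrix.mulVec_single_one] at h1
    simp only [Matrix.col_apply] at h1
    rw [Matrix.one_apply]
    rw [Pi.single_apply] at h1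
    linear_combination -h1
  set l : Fin 2 → k := fun j => u ⬝ᵥ ((r g).mulVec (Pi.single j 1) - Pi.single j 1)
  rw [hl, det_one_add_vecMulVec_two, Matrix.add_mulVec, Matrix.one_mulVec,
    Matrix.vecMulVec_mulVec]
  funext i
  simp [mul_comm (v i), add_mul]

/-- The stable line is unique. -/
theorem span_eq_of_line [CharP k p] (hp2 : p ≠ 2)
    (hdet : ∀ g, (r g).det = ((localCyclo p g : ZMod p).val : k))
    {v v' : Fin 2 → k} (hv : v ≠ 0) (hv' : v' ≠ 0)
    (hquo : ∀ g ∈ inertiaQp p, ∀ w, (r g).mulVec w - w ∈ k ∙ v)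
    (hquo' : ∀ g ∈ inertiaQp p, ∀ w, (r g).mulVec w - w ∈ k ∙ v') :
    ∃ t : k, v' = t • v := by
  obtain ⟨s, hs, hsω⟩ := exists_inertia_localCyclo_ne_one p hp2
  have hne : (r s).det - 1 ≠ 0 := by
    rw [sub_ne_zero, hdet, ← cycloK_apply]
    intro h1
    refine hsω (Units.ext ?_)
    apply (ZMod.castHom (dvd_refl p) k).injective
    rw [Units.val_one, map_one]
    exact h1
  have h1 := hquo' s hs v
  rw [inertia_mulVec_line r hv hquo hs, show (r s).det • v - v = ((r s).det - 1) • v by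
    rw [sub_smul, one_smul], Submodule.smul_mem_iff _ hne] at h1
  obtain ⟨t, ht⟩ := Submodule.mem_span_singleton.1 h1
  have ht0 : t ≠ 0 := fun h => hv (by rw [← ht, h, zero_smul])
  exact ⟨t⁻¹, by rw [← ht, inv_smul_smul₀ ht0]⟩

/-- The strict ordinary cocycles and the coboundaries span at most four dimensions. -/
theorem finrank_ord_le [Finite k] [CharP k p] (hp2 : p ≠ 2) (hfin : IsFiniteLevel p r)
    (hdet : ∀ g, (r g).det = ((localCyclo p g : ZMod p).val : k))
    (Z : Submodule k (GalQp p → Matrix (Fin 2) (Fin 2) k))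
    (hZ : Z ≤ Submodule.span k
      {c | c ∈ adCocycles r ∧ IsFiniteLevel p c ∧ ∃ v : Fin 2 → k, v ≠ 0 ∧
        (∀ g, (r g).mulVec v ∈ k ∙ v) ∧
        (∀ g ∈ inertiaQp p, ∀ w, (r g).mulVec w - w ∈ k ∙ v) ∧
        ∀ g, (c g).mulVec v = 0} ⊔ adCoboundaries r) :
    FiniteDimensional k Z ∧ Module.finrank k Z ≤ 4 := by
  classical
  suffices h : ∃ Y : Submodule k (GalQp p → Matrix (Fin 2) (Fin 2) k),
      FiniteDimensional k Y ∧ Module.finrank k Y ≤ 4 ∧ Z ≤ Y by
    obtain ⟨Y, hY, hY4, hle⟩ := h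
    exact ⟨Submodule.finiteDimensional_of_le hle, (Submodule.finrank_mono hle).trans hY4⟩
  by_cases hline : ∃ v : Fin 2 → k, v ≠ 0 ∧ (∀ g, (r g).mulVec v ∈ k ∙ v) ∧
      (∀ g ∈ inertiaQp p, ∀ w, (r g).mulVec w - w ∈ k ∙ v)
  swap
  · have hempty : ∀ {S : Set (GalQp p → Matrix (Fin 2) (Fin 2) k)}, (∀ c ∈ S, False) →
        Submodule.span k S = ⊥ := fun h => Submodule.span_eq_bot.2 fun c hc => (h c hc).elim
    refine ⟨adCoboundaries r, inferInstanceAs (FiniteDimensional k ((trZero k).map (adD r))),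
      ?_, hZ.trans (sup_le ?_ le_rfl)⟩
    · refine (Submodule.finrank_map_le (adD r) (trZero k)).trans ?_
      rw [finrank_trZero]; omega
    · rw [hempty]
      · exact bot_le
      · rintro c ⟨-, -, v, hv, h1, h2, -⟩
        exact hline ⟨v, hv, h1, h2⟩
  obtain ⟨v, hv, hst, hquo⟩ := hline
  set e := lineNil v with he
  obtain ⟨w, u, huv, huw, hw, hdec⟩ := exists_line_complement hv
  have hψex : ∀ g, ∃ t : k, r g * e * r g⁻¹ = t • e := fun g => by
    refine exists_eq_smul_lineNil hv ?_ ?_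
    · obtain ⟨a, ha⟩ := rep_stable r hst g⁻¹
      rw [← Matrix.mulVec_mulVec, ha, Matrix.mulVec_smul, ← Matrix.mulVec_mulVec, he,
        lineNil_mulVec_self, Matrix.mulVec_zero, smul_zero]
    · rw [Matrix.trace_mul_comm, ← mul_assoc, rep_inv_mul_self, one_mul, he, trace_lineNil]
  choose ψf hψ using hψex
  have hinj : Function.Injective fun t : k => t • e := smul_left_injective k (lineNil_ne_zero hv)
  let ψ : GalQp p →* k :=
    { toFun := ψf
      map_one' := hinj (by
        show ψf 1 • e = (1 : k) • e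
        rw [← hψ, inv_one, map_one, one_mul, mul_one, one_smul])
      map_mul' := fun g h => hinj (by
        show ψf (g * h) • e = (ψf g * ψf h) • e
        rw [← hψ, map_mul, mul_inv_rev, map_mul,
          show r g * r h * e * (r h⁻¹ * r g⁻¹) = r g * (r h * e * r h⁻¹) * r g⁻¹ by
            simp only [mul_assoc],
          hψ, mul_smul_comm, smul_mul_assoc, hψ, smul_smul, mul_comm]) }
  have hψfin : IsFiniteLevel p ψ := by
    obtain ⟨E, hE, hE'⟩ := hfin
    refine ⟨E, hE, fun g s hs => hinj ?_⟩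
    show ψf (g * s) • e = ψf g • e
    have hinv : r (g * s)⁻¹ = r g⁻¹ := left_inv_eq_right_inv (rep_inv_mul_self r _)
      (by rw [hE' g s hs]; exact rep_mul_inv_self r _)
    rw [← hψ, ← hψ, hE' g s hs, hinv]
  have hψI : ∀ g ∈ inertiaQp p, ψ g = ((localCyclo p g : ZMod p).val : k) := by
    intro g hg
    refine hinj ?_
    show ψf g • e = _ • e
    rw [← hψ, ← hdet]
    refine Matrix.toLin'.injective (LinearMap.ext fun x => ?_)
    obtain ⟨t, ht⟩ := Submodule.mem_span_singleton.1 (hquo g⁻¹ (inv_mem hg) x)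
    have hx : (r g⁻¹).mulVec x = x + t • v := by rw [ht]; abel
    rw [Matrix.toLin'_apply, Matrix.toLin'_apply, ← Matrix.mulVec_mulVec, hx,
      ← Matrix.mulVec_mulVec, Matrix.mulVec_add (A := e), Matrix.mulVec_smul (M := e), he,
      lineNil_mulVec_self, smul_zero, add_zero, Matrix.smul_mulVec, lineNil_mulVec,
      Matrix.mulVec_smul, inertia_mulVec_line r hv hquo hg, smul_comm]
  obtain ⟨hfd, h3, -⟩ := finrank_twistCocycles_le (ψ := ψ) hp2 hψfin hψI
  let Φ : twistCocycles p ψ →ₗ[k] GalQp p → Matrix (Fin 2) (Fin 2) k :=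
    { toFun := fun f g => (f : GalQp p → k) g • e
      map_add' := fun f f' => funext fun g => add_smul _ _ _
      map_smul' := fun t f => funext fun g => mul_smul t _ e }
  set M₀ := Matrix.vecMulVec w u with hM₀
  refine ⟨LinearMap.range Φ ⊔ k ∙ adD r M₀, inferInstance, ?_, ?_⟩
  · have h1 : Module.finrank k (LinearMap.range Φ) ≤ 3 :=
      (LinearMap.finrank_range_le Φ).trans h3
    have h2 : Module.finrank k (k ∙ adD r M₀ : Submodule k (GalQp p → _)) ≤ 1 :=
      (finrank_span_le_card ({adD r M₀} : Set _)).trans (by simp)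
    have := Submodule.finrank_add_le_finrank_add_finrank (LinearMap.range Φ) (k ∙ adD r M₀)
    omega
  have hrange : ∀ c : GalQp p → Matrix (Fin 2) (Fin 2) k, c ∈ adCocycles r → IsFiniteLevel p c →
      (∀ g, (c g).mulVec v = 0) → c ∈ LinearMap.range Φ := by
    intro c hc hcfin hcv
    choose f hf using fun g => exists_eq_smul_lineNil hv (hcv g) (hc.1 g)
    refine ⟨⟨f, fun g h => hinj ?_, ?_⟩, funext fun g => (hf g).symm⟩
    · show f (g * h) • e = (f g + ψ g * f h) • e
      rw [← hf, hc.2, hf g, hf h, mul_smul_comm, smul_mul_assoc, ← he, hψ, smul_smul, add_smul,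
        mul_comm (f h)]
      rfl
    · obtain ⟨E, hE, hE'⟩ := hcfin
      exact ⟨E, hE, fun g s hs => hinj (by
        show f (g * s) • e = f g • e
        rw [he, ← hf, ← hf, hE' g s hs])⟩
  refine hZ.trans (sup_le (Submodule.span_le.2 ?_) ?_)
  · rintro c ⟨hc, hcfin, v', hv', hst', hquo', hcv'⟩
    refine Submodule.mem_sup_left (hrange c hc hcfin fun g => ?_)
    obtain ⟨t, ht⟩ := span_eq_of_line r hp2 hdet hv' hv hquo' hquo
    rw [ht, Matrix.mulVec_smul, hcv' g, smul_zero]
  · rintro _ ⟨M, hM, rfl⟩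
    set s := linePair v ⬝ᵥ M.mulVec v
    have htr₀ : M₀.trace = 0 := by
      rw [hM₀, Matrix.trace_vecMulVec, dotProduct_comm, huw]
    have hM₀v : M₀.mulVec v = w := by
      rw [hM₀, Matrix.vecMulVec_mulVec, huv]
      funext i
      simp
    set M' := M - s • M₀ with hM'
    have hm : M'.mulVec v = (u ⬝ᵥ M'.mulVec v) • v := by
      conv_lhs => rw [hdec (M'.mulVec v)]
      rw [show linePair v ⬝ᵥ M'.mulVec v = 0 by
        rw [hM', Matrix.sub_mulVec, Matrix.smul_mulVec, hM₀v, dotProduct_sub, dotProduct_smul, hw,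
          smul_eq_mul, mul_one, sub_self], zero_smul, add_zero]
    have hdecM : adD r M = adD r M' + s • adD r M₀ := by
      rw [← map_smul, ← map_add, hM', sub_add_cancel]
    rw [hdecM]
    refine add_mem (Submodule.mem_sup_left (hrange _ ?_ ?_ fun g => ?_))
      (Submodule.mem_sup_right (Submodule.smul_mem _ _ (Submodule.mem_span_singleton_self _)))
    · refine ⟨fun g => ?_, fun g h => ?_⟩
      · rw [adD_apply, Matrix.trace_sub, Matrix.trace_mul_comm, ← mul_assoc, rep_inv_mul_self,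
          one_mul, sub_self]
      · simp only [adD_apply, map_mul, mul_inv_rev, mul_sub, sub_mul]
        simp only [mul_assoc]
        abel
    · obtain ⟨E, hE, hE'⟩ := hfin
      refine ⟨E, hE, fun g s hs => ?_⟩
      have hinv : r (g * s)⁻¹ = r g⁻¹ := left_inv_eq_right_inv (rep_inv_mul_self r _)
        (by rw [hE' g s hs]; exact rep_mul_inv_self r _)
      simp only [adD_apply, hE' g s hs, hinv]
    · obtain ⟨a, ha⟩ := rep_stable r hst g
      obtain ⟨a', ha'⟩ := rep_stable r hst g⁻¹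
      have haa : (a' * a) • v = v := by
        rw [mul_smul, ← ha, ← Matrix.mulVec_smul, ← ha', Matrix.mulVec_mulVec, rep_mul_inv_self,
          Matrix.one_mulVec]
      rw [adD_apply, Matrix.sub_mulVec, ← Matrix.mulVec_mulVec, ha', Matrix.mulVec_smul,
        ← Matrix.mulVec_mulVec, hm, Matrix.mulVec_smul, ha, smul_comm a' (u ⬝ᵥ M'.mulVec v),
        ← mul_smul a', haa, sub_self]

end Fermat.Agent.TW.LocalCondB
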