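/-
The image of the local Galois group at `q` is the decomposition group of the fixed place over `q`,
and the local inertia group maps onto the inertia group.
-/
import Fermat.Agent.TW.LocalDefs
import Fermat.Agent.PoitouTate.GlobalLocalConj
import Fermat.Agent.PoitouTate.GlobalKummer
import Fermat.Agent.PoitouTate.GlobalKrasner

set_option autoImplicit false

noncomputable section

namespace Fermat.Agent.TW

open scoped NNReal Pointwise
open IntermediateField PoitouTate

local notation "Qb" => AlgebraicClosure ℚ
local notation "Γℚ" => AlgebraicClosure ℚ ≃ₐ[ℚ] AlgebraicClosure ℚ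

variable (q : ℕ) [Fact q.Prime]

theorem mem_padicPlace_nonunits_iff (x : Qb) :
    x ∈ (padicPlace q).nonunits ↔ ‖padicEmbedding q x‖ < 1 := by
  rw [ValuationSubring.mem_nonunits_iff_or, mem_padicPlace_iff, map_inv₀, nnnorm_inv]
  rcases eq_or_ne x 0 with rfl | hx
  · simp
  have h0 : 0 < ‖padicEmbedding q x‖₊ := nnnorm_pos.2 (by simpa using hx)
  rw [or_iff_right hx, not_le, one_lt_inv₀ h0]
  exact Iff.rfl

/-- The intersection of finitely many fixed embeddings is a finite level. -/
theorem exists_localLevel (E : IntermediateField ℚ Qb) [FiniteDimensional ℚ E] :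
    ∃ E' : IntermediateField ℚ_[q] (PadicAlgCl q), FiniteDimensional ℚ_[q] E' ∧
      ∀ g : GalQp q, g ∈ E'.fixingSubgroup → ∀ x ∈ E, localGaloisToGlobal q g x = x := by
  obtain ⟨θ, hθ⟩ := Field.exists_primitive_element ℚ E
  set b : PadicAlgCl q := padicEmbedding q (θ : Qb)
  refine ⟨ℚ_[q]⟮b⟯, IntermediateField.adjoin.finiteDimensional
    (Algebra.IsIntegral.isIntegral b), fun g hg => ?_⟩
  have hfix : localGaloisToGlobal q g (θ : Qb) = θ := by
    apply (padicEmbedding q).toRingHom.injective
    show padicEmbedding q _ = padicEmbedding q _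
    rw [padicEmbedding_localGaloisToGlobal]
    exact (IntermediateField.mem_fixingSubgroup_iff _ g).1 hg b
      (IntermediateField.mem_adjoin_simple_self _ b)
  intro x hx
  have key : ∀ z : E, localGaloisToGlobal q g (z : Qb) = z := by
    intro z
    have hz : z ∈ IntermediateField.adjoin ℚ {θ} := by rw [hθ]; exact IntermediateField.mem_top
    induction hz using IntermediateField.adjoin_induction with
    | mem u hu => rw [Set.mem_singleton_iff.mp hu]; exact hfix
    | algebraMap r => simp
    | add u v _ _ hu hv => rw [IntermediateField.coe_add, map_add, hu, hv]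
    | inv u _ hu => rw [IntermediateField.coe_inv, map_inv₀, hu]
    | mul u v _ _ hu hv => rw [IntermediateField.coe_mul, map_mul, hu, hv]
  exact key ⟨x, hx⟩

theorem continuous_localGaloisToGlobal : Continuous (localGaloisToGlobal q) := by
  refine continuous_of_continuousAt_one _ fun U hU => ?_
  rw [map_one] at hU
  rw [Filter.mem_map, krullTopology_mem_nhds_one_iff]
  rw [krullTopology_mem_nhds_one_iff] at hU
  obtain ⟨E, hE, hEU⟩ := hU
  obtain ⟨E', hE', hfix⟩ := exists_localLevel q E
  exact ⟨E', hE', fun g hg => hEU ((IntermediateField.mem_fixingSubgroup_iff _ _).2 (hfix g hg))⟩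

/-- Every element of the decomposition group of the fixed place comes from the local group. -/
theorem exists_localGaloisToGlobal_eq {σ : Γℚ}
    (hσ : σ ∈ (padicPlace q).decompositionSubgroup ℚ) :
    ∃ g : GalQp q, localGaloisToGlobal q g = σ := by
  have hmem : ∀ z : Qb, z ∈ (padicPlace q).nonunits → σ z ∈ (padicPlace q).nonunits := fun z hz => by
    have h := (mem_smul_nonunits σ (A := padicPlace q) (x := σ z)).2
      (by rwa [← AlgEquiv.mul_apply, inv_mul_cancel, AlgEquiv.one_apply])
    rwa [MulAction.mem_stabilizer_iff.1 hσ] at h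
  have hmem' : ∀ z : Qb, σ z ∈ (padicPlace q).nonunits → z ∈ (padicPlace q).nonunits := fun z hz => by
    rw [← MulAction.mem_stabilizer_iff.1 hσ, mem_smul_nonunits] at hz
    rwa [← AlgEquiv.mul_apply, inv_mul_cancel, AlgEquiv.one_apply] at hz
  have hclosed : IsClosed (Set.range (localGaloisToGlobal q)) :=
    (isCompact_range (continuous_localGaloisToGlobal q)).isClosed
  have hσcl : σ ∈ closure (Set.range (localGaloisToGlobal q)) := by
    rw [mem_closure_iff_nhds]
    intro U hU
    obtain ⟨E, hE, hEU⟩ := (krullTopology_mem_nhds_one_iff ℚ Qb _).1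
      ((continuous_const_mul σ).continuousAt.preimage_mem_nhds (by simpa using hU))
    haveI := hE
    obtain ⟨τ, s, hs, hτ⟩ := exists_local_of_norm_eq q (L := E) (g := 1) (g' := σ)
      (norm_eq_of_lt_one_iff q fun x _ => by
        rw [← mem_padicPlace_nonunits_iff, ← mem_padicPlace_nonunits_iff]
        exact ⟨hmem x, hmem' x⟩)
    rw [mul_one] at hτ
    exact ⟨σ * s⁻¹, hEU (inv_mem hs), τ, by rw [hτ, mul_inv_cancel_right]⟩
  rw [hclosed.closure_eq] at hσcl
  exact hσcl

theorem localGaloisToGlobal_mem_inertia {g : GalQp q} (hg : g ∈ inertiaQp q) :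
    localGaloisToGlobal q g ∈ (padicPlace q).inertiaSubgroupIn ℚ := by
  refine mem_inertiaSubgroupIn_of_forall (localGaloisToGlobal_mem_decompositionSubgroup q g)
    fun a ha => ?_
  rw [mem_padicPlace_nonunits_iff, map_sub, padicEmbedding_localGaloisToGlobal]
  exact hg _ (by exact_mod_cast (mem_padicPlace_iff q).1 ha)

/-- The local inertia group maps onto the inertia group of the fixed place. -/
theorem exists_inertiaQp_eq {σ : Γℚ} (hσ : σ ∈ (padicPlace q).inertiaSubgroupIn ℚ) :
    ∃ g ∈ inertiaQp q, localGaloisToGlobal q g = σ := by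
  have hσD := inertiaSubgroupIn_le_decompositionSubgroup _ hσ
  obtain ⟨g, rfl⟩ := exists_localGaloisToGlobal_eq q hσD
  refine ⟨g, fun y hy => ?_, rfl⟩
  obtain ⟨a, ha⟩ := exists_global_norm_sub_lt (q := ⟨q, Fact.out⟩) y one_pos
  have haP : a ∈ padicPlace q := by
    rw [mem_padicPlace_iff]
    have h1 : ‖padicEmbedding q a‖ ≤ 1 := by
      have h2 := IsUltrametricDist.norm_add_le_max (padicEmbedding q a - y) y
      rw [sub_add_cancel] at h2
      exact h2.trans (max_le ((norm_sub_rev _ _).trans_lt ha).le hy)
    exact_mod_cast h1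
  have h3 := inertia_sub_mem_nonunits hσ haP
  rw [mem_padicPlace_nonunits_iff, map_sub, padicEmbedding_localGaloisToGlobal] at h3
  have e : g y - y = (g (y - padicEmbedding q a)) +
      ((g (padicEmbedding q a) - padicEmbedding q a) + (padicEmbedding q a - y)) := by
    rw [map_sub]; ring
  rw [e]
  refine lt_of_le_of_lt (IsUltrametricDist.norm_add_le_max _ _) (max_lt ?_ ?_)
  · rw [norm_galQp]; exact ha
  · exact lt_of_le_of_lt (IsUltrametricDist.norm_add_le_max _ _)
      (max_lt h3 ((norm_sub_rev _ _).trans_lt ha))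

end Fermat.Agent.TW
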