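/-
Tame generators of the local Galois group at `q` in finite quotients in which inertia is a
`p`-group, and the bounds which they give on local adjoint cocycles: such a cocycle is determined
by its values at a Frobenius and at a tame generator.
-/
import Fermat.Agent.TW.LocalDefs
import Fermat.Agent.TW.LocalGlobal
import Fermat.Agent.TW.LocalCondBAlgebra
import Fermat.Agent.Galois.TameGenerator
import Fermat.Agent.PoitouTate.GlobalKrasner
import Fermat.Agent.PoitouTate.GlobalPrincipalize
import Mathlib.LinearAlgebra.Matrix.Charpoly.Basic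

set_option autoImplicit false

noncomputable section

namespace Fermat.Agent.TW.LocalCondB

open Polynomial

local notation "Qb" => AlgebraicClosure ℚ
local notation "Γℚ" => AlgebraicClosure ℚ ≃ₐ[ℚ] AlgebraicClosure ℚ

/-- `F` induces the `q`-th power on the residue field. -/
def IsFrobQp (q : ℕ) [Fact q.Prime] (F : GalQp q) : Prop :=
  ∀ x : PadicAlgCl q, ‖x‖ ≤ 1 → ‖F x - x ^ q‖ < 1

section Frobenius

variable {q : ℕ} [Fact q.Prime]

theorem liesOverPrime_padicPlace' : (padicPlace q).LiesOverPrime q :=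
  PoitouTate.liesOverPrime_padicPlace ⟨q, Fact.out⟩

theorem norm_pow_sub_pow_lt {a b : PadicAlgCl q} (ha : ‖a‖ ≤ 1) (hb : ‖b‖ ≤ 1)
    (hab : ‖a - b‖ < 1) (n : ℕ) : ‖a ^ n - b ^ n‖ < 1 := by
  induction n with
  | zero => simp
  | succ n ih =>
    rw [show a ^ (n + 1) - b ^ (n + 1) = a * (a ^ n - b ^ n) + (a - b) * b ^ n by ring]
    refine lt_of_le_of_lt (IsUltrametricDist.norm_add_le_max _ _) (max_lt ?_ ?_)
    · rw [norm_mul]
      exact lt_of_le_of_lt (mul_le_of_le_one_left (norm_nonneg _) ha) ih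
    · rw [norm_mul, norm_pow]
      exact lt_of_le_of_lt
        (mul_le_of_le_one_right (norm_nonneg _) (pow_le_one₀ (norm_nonneg _) hb)) hab

theorem smul_sub_pow_mem_nonunits {σ : Γℚ} (hσ : (padicPlace q).IsFrobeniusAt σ q) {a : Qb}
    (ha : a ∈ padicPlace q) : σ a - a ^ q ∈ (padicPlace q).nonunits := by
  have h := hσ.smul_residue_eq (IsLocalRing.residue _ ⟨a, ha⟩)
  rw [← IsLocalRing.ResidueField.residue_smul, ← map_pow, ← sub_eq_zero, ← map_sub,
    IsLocalRing.residue_eq_zero_iff, ← ValuationSubring.coe_mem_nonunits_iff] at h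
  exact h

/-- A Frobenius of `GalQp q` gives a Frobenius at the fixed place over `q`. -/
theorem IsFrobQp.isFrobeniusAt {F : GalQp q} (hF : IsFrobQp q F) :
    (padicPlace q).IsFrobeniusAt (localGaloisToGlobal q F) q := by
  refine ⟨localGaloisToGlobal_mem_decompositionSubgroup q F, fun x => ?_⟩
  obtain ⟨a, rfl⟩ := IsLocalRing.residue_surjective x
  rw [← IsLocalRing.ResidueField.residue_smul, ← map_pow, ← sub_eq_zero, ← map_sub,
    IsLocalRing.residue_eq_zero_iff, ← ValuationSubring.coe_mem_nonunits_iff]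
  show localGaloisToGlobal q F (a : Qb) - (a : Qb) ^ q ∈ (padicPlace q).nonunits
  rw [mem_padicPlace_nonunits_iff, map_sub, padicEmbedding_localGaloisToGlobal, map_pow]
  exact hF _ (by exact_mod_cast (mem_padicPlace_iff q).1 a.2)

theorem exists_isFrobQp : ∃ F : GalQp q, IsFrobQp q F := by
  have hA : (padicPlace q).LiesOverPrime q := liesOverPrime_padicPlace'
  obtain ⟨σ, hσ⟩ := Galois.exists_isFrobeniusAt (Fact.out : q.Prime) hA
  obtain ⟨F, rfl⟩ := exists_localGaloisToGlobal_eq q hσ.mem_decompositionSubgroup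
  refine ⟨F, fun y hy => ?_⟩
  obtain ⟨a, ha⟩ := PoitouTate.exists_global_norm_sub_lt (q := ⟨q, Fact.out⟩) y one_pos
  have h1 : ‖padicEmbedding q a‖ ≤ 1 := by
    have h2 := IsUltrametricDist.norm_add_le_max (padicEmbedding q a - y) y
    rw [sub_add_cancel] at h2
    exact h2.trans (max_le ((norm_sub_rev _ _).trans_lt ha).le hy)
  have haP : a ∈ padicPlace q := by
    rw [mem_padicPlace_iff]
    exact_mod_cast h1
  have h3 := smul_sub_pow_mem_nonunits hσ haP
  rw [mem_padicPlace_nonunits_iff, map_sub, padicEmbedding_localGaloisToGlobal, map_pow] at h3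
  have e : F y - y ^ q = F (y - padicEmbedding q a) +
      ((F (padicEmbedding q a) - padicEmbedding q a ^ q) + (padicEmbedding q a ^ q - y ^ q)) := by
    rw [map_sub]; ring
  rw [e]
  refine lt_of_le_of_lt (IsUltrametricDist.norm_add_le_max _ _) (max_lt ?_ ?_)
  · rw [norm_galQp]; exact ha
  · exact lt_of_le_of_lt (IsUltrametricDist.norm_add_le_max _ _)
      (max_lt h3 (norm_pow_sub_pow_lt h1 hy ((norm_sub_rev _ _).trans_lt ha) q))

theorem conj_mem_inertiaQp (F : GalQp q) {h : GalQp q} (hh : h ∈ inertiaQp q) :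
    F * h * F⁻¹ ∈ inertiaQp q := by
  intro y hy
  have h1 := hh (F⁻¹ y) (by rw [norm_galQp]; exact hy)
  have h2 : F (F⁻¹ y) = y := by rw [← AlgEquiv.mul_apply, mul_inv_cancel, AlgEquiv.one_apply]
  calc ‖(F * h * F⁻¹) y - y‖ = ‖F (h (F⁻¹ y) - F⁻¹ y)‖ := by
        rw [map_sub, h2, AlgEquiv.mul_apply, AlgEquiv.mul_apply]
    _ < 1 := by rw [norm_galQp]; exact h1

end Frobenius

/-- A tame generator of `GalQp q` for the finite quotients in which inertia is a `p`-group. -/
structure IsTameGen (p q : ℕ) [Fact q.Prime] (τ : GalQp q) : Prop where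
  mem : τ ∈ inertiaQp q
  relations : ∀ F : GalQp q, IsFrobQp q F → ∀ (H : Type) [Group H] (f : GalQp q →* H),
    IsFiniteLevel q f → (∀ g ∈ inertiaQp q, ∃ n : ℕ, f g ^ p ^ n = 1) →
    f F * f τ * (f F)⁻¹ = f τ ^ q ∧
      (∀ g ∈ inertiaQp q, f g ∈ Subgroup.zpowers (f τ)) ∧
      ∀ g : GalQp q, f g ∈ Subgroup.closure {f F, f τ}

theorem exists_isTameGen {p q : ℕ} (hp : p.Prime) [hq : Fact q.Prime] (hqp : q ≠ p) :
    ∃ τ : GalQp q, IsTameGen p q τ := by
  have hA : (padicPlace q).LiesOverPrime q := liesOverPrime_padicPlace'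
  obtain ⟨τg, hτgI, hτg⟩ := Galois.exists_generatesLayer hq.out hA
  obtain ⟨τ, hτI, hτeq⟩ := exists_inertiaQp_eq q hτgI
  refine ⟨τ, hτI, ?_⟩
  intro F hF H _ f hf hpI
  obtain ⟨E, hE, hfE⟩ := hf
  have := hE
  obtain ⟨θ, hθ⟩ := Field.exists_primitive_element ℚ_[q] E
  obtain ⟨F₀, hF₀, hfix⟩ := PoitouTate.exists_finite_fixes ⟨q, Fact.out⟩
    ({(θ : PadicAlgCl q)} : Set (PadicAlgCl q)) (Set.finite_singleton _)
  have := hF₀
  let L := IntermediateField.normalClosure ℚ F₀ Qb
  have : FiniteDimensional ℚ L := normalClosure.is_finiteDimensional ℚ _ _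
  have : IsGalois ℚ L := IsGalois.normalClosure ℚ _ _
  have hkerE : ∀ g : GalQp q, (∀ x ∈ L, localGaloisToGlobal q g x = x) → f g = 1 := by
    intro g hg
    have hgθ : g (θ : PadicAlgCl q) = θ :=
      hfix g ((IntermediateField.mem_fixingSubgroup_iff _ _).2 fun x hx =>
        hg x (IntermediateField.le_normalClosure F₀ hx)) _ (Set.mem_singleton _)
    have hgE : g ∈ E.fixingSubgroup := by
      rw [IntermediateField.mem_fixingSubgroup_iff]
      intro x hx
      have key : ∀ z : E, g (z : PadicAlgCl q) = z := by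
        intro z
        have hz : z ∈ IntermediateField.adjoin ℚ_[q] {θ} := by
          rw [hθ]; exact IntermediateField.mem_top
        induction hz using IntermediateField.adjoin_induction with
        | mem u hu => rw [Set.mem_singleton_iff.mp hu]; exact hgθ
        | algebraMap r => simp
        | add u v _ _ hu hv => rw [IntermediateField.coe_add, map_add, hu, hv]
        | inv u _ hu => rw [IntermediateField.coe_inv, map_inv₀, hu]
        | mul u v _ _ hu hv => rw [IntermediateField.coe_mul, map_mul, hu, hv]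
      exact key ⟨x, hx⟩
    have := hfE 1 g hgE
    rwa [one_mul, map_one] at this
  set r := AlgEquiv.restrictNormalHom (F := ℚ) (K₁ := Qb) L with hr
  have hker : ∀ g : GalQp q, r (localGaloisToGlobal q g) = 1 → f g = 1 := by
    intro g hg
    refine hkerE g fun x hx => ?_
    have := Galois.layer_coe_apply (localGaloisToGlobal q g) (⟨x, hx⟩ : L)
    rw [← hr, hg] at this
    exact this
  have hkill : ∀ h ∈ inertiaQp q, ∀ m : ℕ, r (localGaloisToGlobal q h) ^ q ^ m = 1 → f h = 1 := by
    intro h hh m hm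
    obtain ⟨n, hn⟩ := hpI h hh
    exact Galois.eq_one_of_pow_pow_eq_one hp hq.out hqp (m := m)
      (by rw [← map_pow]; exact hker _ (by rw [map_pow, map_pow]; exact hm)) hn
  have hcyc : ∀ g ∈ inertiaQp q, f g ∈ Subgroup.zpowers (f τ) := by
    intro g hg
    obtain ⟨j, m, hjm⟩ := (hτg L).2 _ (localGaloisToGlobal_mem_inertia q hg)
    have h := hkill ((τ ^ j)⁻¹ * g) (mul_mem (inv_mem (pow_mem hτI j)) hg) m
      (by simp only [map_mul, map_inv, map_pow, hτeq]; exact hjm)
    rw [map_mul, map_inv, map_pow, inv_mul_eq_one] at h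
    exact h ▸ Subgroup.npow_mem_zpowers _ _
  have hFg := hF.isFrobeniusAt
  refine ⟨?_, hcyc, fun g => ?_⟩
  · obtain ⟨s, -, -, hconj⟩ := Galois.exists_layer_generator_data hq.out hA L
    obtain ⟨m, hm⟩ := hconj _ (Galois.restrict_mem_inertia hτgI) (r (localGaloisToGlobal q F))
      (Galois.restrict_smul_layerPrime hFg.mem_decompositionSubgroup)
      (Galois.frobenius_smul_sub_pow_mem hFg)
    have h := hkill ((τ ^ q)⁻¹ * (F * τ * F⁻¹))
      (mul_mem (inv_mem (pow_mem hτI q)) (conj_mem_inertiaQp F hτI)) m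
      (by simp only [map_mul, map_inv, map_pow, hτeq]; exact hm)
    simp only [map_mul, map_inv, map_pow, inv_mul_eq_one] at h
    exact h.symm
  · obtain ⟨j, hg', hh, hgh⟩ := Galois.exists_decomposition_eq (L := L) hq.out hA hFg
      (localGaloisToGlobal_mem_decompositionSubgroup q g)
    obtain ⟨h, hhI, rfl⟩ := exists_inertiaQp_eq q hh
    have hfg : f g = f (F ^ j * h) := by
      have h0 := hkerE ((F ^ j * h)⁻¹ * g) fun x hx => by
        rw [map_mul, map_inv, map_mul, map_pow, AlgEquiv.mul_apply, hgh x hx,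
          ← AlgEquiv.mul_apply, inv_mul_cancel, AlgEquiv.one_apply]
      rw [map_mul, map_inv, inv_mul_eq_one] at h0
      exact h0.symm
    rw [hfg, map_mul, map_pow]
    have h1 : f F ∈ Subgroup.closure ({f F, f τ} : Set H) :=
      Subgroup.subset_closure (Set.mem_insert (f F) {f τ})
    have h2 : f τ ∈ Subgroup.closure ({f F, f τ} : Set H) :=
      Subgroup.subset_closure (Set.mem_insert_of_mem (f F) (Set.mem_singleton (f τ)))
    exact mul_mem (pow_mem h1 j) (Subgroup.zpowers_le.mpr h2 (hcyc h hhI))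

section Cocycle

variable {G : Type*} [Group G] {k : Type*} [Field k] {r : G →* Matrix (Fin 2) (Fin 2) k}
  {c : G → Matrix (Fin 2) (Fin 2) k}

theorem cocycle_map_one (hc : c ∈ adCocycles r) : c 1 = 0 := by
  have h := hc.2 1 1
  rw [mul_one, map_one, one_mul, inv_one, map_one, mul_one] at h
  exact left_eq_add.mp h

theorem cocycle_pow_of_rep_eq_one (hc : c ∈ adCocycles r) {g : G} (hg : r g = 1) (n : ℕ) :
    c (g ^ n) = n • c g := by
  have hg' : r g⁻¹ = 1 := by
    have h := rep_inv_mul_self r g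
    rwa [hg, mul_one] at h
  induction n with
  | zero => simp [cocycle_map_one hc]
  | succ n ih => rw [pow_succ', hc.2, ih, hg, hg', one_mul, mul_one, succ_nsmul']

theorem cocycle_pow_of_eq_zero (hc : c ∈ adCocycles r) {g : G} (hg : c g = 0) (n : ℕ) :
    c (g ^ n) = 0 := by
  induction n with
  | zero => simp [cocycle_map_one hc]
  | succ n ih => rw [pow_succ', hc.2, ih, hg, mul_zero, zero_mul, add_zero]

/-- The first order deformation `(1 + ε c) r` as a homomorphism into block triangular matrices. -/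
def blockHom (r : G →* Matrix (Fin 2) (Fin 2) k) (c : G → Matrix (Fin 2) (Fin 2) k)
    (hc : c ∈ adCocycles r) : G →* (Matrix (Fin 2 ⊕ Fin 2) (Fin 2 ⊕ Fin 2) k)ˣ :=
  MonoidHom.toHomUnits
    { toFun := fun g => Matrix.fromBlocks (r g) (c g * r g) 0 (r g)
      map_one' := by
        rw [cocycle_map_one hc, zero_mul, map_one, Matrix.fromBlocks_one]
      map_mul' := fun g h => by
        rw [Matrix.fromBlocks_multiply, map_mul, hc.2 g h]
        simp only [zero_mul, mul_zero, add_zero, zero_add, add_mul]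
        congr 1
        rw [add_comm]
        congr 1
        · calc r g * c h * r g⁻¹ * (r g * r h)
              = r g * c h * (r g⁻¹ * r g) * r h := by simp only [mul_assoc]
            _ = r g * (c h * r h) := by rw [rep_inv_mul_self, mul_one, mul_assoc]
        · rw [mul_assoc] }

theorem blockHom_val (hc : c ∈ adCocycles r) (g : G) :
    ((blockHom r c hc g : (Matrix (Fin 2 ⊕ Fin 2) (Fin 2 ⊕ Fin 2) k)ˣ) :
      Matrix (Fin 2 ⊕ Fin 2) (Fin 2 ⊕ Fin 2) k) =
      Matrix.fromBlocks (r g) (c g * r g) 0 (r g) := rfl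

theorem blockHom_eq_iff (hc : c ∈ adCocycles r) {g h : G} :
    blockHom r c hc g = blockHom r c hc h ↔ r g = r h ∧ c g = c h := by
  rw [Units.ext_iff, blockHom_val, blockHom_val, Matrix.fromBlocks_inj]
  constructor
  · rintro ⟨h1, h2, -, -⟩
    refine ⟨h1, ?_⟩
    calc c g = c g * r g * r g⁻¹ := by rw [mul_assoc, rep_mul_inv_self, mul_one]
      _ = c h * r g * r g⁻¹ := by rw [h2, ← h1]
      _ = c h := by rw [mul_assoc, rep_mul_inv_self, mul_one]
  · rintro ⟨h1, h2⟩
    exact ⟨h1, by rw [h1, h2], rfl, h1⟩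

theorem cocycle_conj_eq (hc : c ∈ adCocycles r) (F τ : G) :
    c (F * τ * F⁻¹) + r (F * τ * F⁻¹) * c F * r (F * τ * F⁻¹)⁻¹ =
      c F + r F * c τ * r F⁻¹ := by
  rw [← hc.2, ← hc.2, inv_mul_cancel_right]

theorem adD_mem_adCocycles (M : Matrix (Fin 2) (Fin 2) k) :
    adD r M ∈ adCocycles r := by
  refine ⟨fun g => ?_, fun g h => ?_⟩
  · rw [adD_apply, Matrix.trace_sub, Matrix.trace_mul_comm, ← mul_assoc, rep_inv_mul_self,
      one_mul, sub_self]
  · simp only [adD_apply, map_mul, mul_inv_rev, mul_sub, sub_mul]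
    simp only [mul_assoc]
    abel

end Cocycle

section Local

variable {p : ℕ} [Fact p.Prime] {q : ℕ} [Fact q.Prime] {k : Type} [Field k] [CharP k p]
  {r : GalQp q →* Matrix (Fin 2) (Fin 2) k} {F τ : GalQp q}

omit [Fact p.Prime] [CharP k p] in
theorem isFiniteLevel_toHomUnits (hfin : IsFiniteLevel q r) :
    IsFiniteLevel q r.toHomUnits := by
  obtain ⟨E, hE, h⟩ := hfin
  exact ⟨E, hE, fun g s hs => Units.ext (h g s hs)⟩

omit [Fact p.Prime] [CharP k p] in
theorem isFiniteLevel_blockHom {c : GalQp q → Matrix (Fin 2) (Fin 2) k}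
    (hc : c ∈ adCocycles r) (hcfin : IsFiniteLevel q c) (hfin : IsFiniteLevel q r) :
    IsFiniteLevel q (blockHom r c hc) := by
  obtain ⟨E, hE, h⟩ := hfin
  obtain ⟨E', hE', h'⟩ := hcfin
  refine ⟨E ⊔ E', IntermediateField.finiteDimensional_sup E E', fun g s hs => ?_⟩
  rw [blockHom_eq_iff]
  exact ⟨h g s (IntermediateField.fixingSubgroup_antitone le_sup_left hs),
    h' g s (IntermediateField.fixingSubgroup_antitone le_sup_right hs)⟩

omit [Fact p.Prime] in
theorem blockHom_pow_eq_one {c : GalQp q → Matrix (Fin 2) (Fin 2) k} (hc : c ∈ adCocycles r)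
    {g : GalQp q} (hg : r g ^ p = 1) : blockHom r c hc g ^ p ^ 2 = 1 := by
  have hg' : r (g ^ p) = 1 := by rw [map_pow, hg]
  rw [← map_pow, ← map_one (blockHom r c hc), blockHom_eq_iff]
  rw [pow_two, pow_mul, map_pow, hg', one_pow, map_one, cocycle_pow_of_rep_eq_one hc hg',
    cocycle_map_one hc]
  exact ⟨rfl, by rw [← Nat.cast_smul_eq_nsmul k, CharP.cast_eq_zero, zero_smul]⟩

omit [Fact p.Prime] in
/-- A cocycle is determined by its values at a Frobenius and a tame generator. -/
theorem cocycle_eq_zero_of_generators (hF : IsFrobQp q F) (hτ : IsTameGen p q τ)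
    (hfin : IsFiniteLevel q r) (hI : ∀ g ∈ inertiaQp q, r g ^ p = 1)
    {c : GalQp q → Matrix (Fin 2) (Fin 2) k} (hc : c ∈ adCocycles r)
    (hcfin : IsFiniteLevel q c) (hcF : c F = 0) (hcτ : c τ = 0) : c = 0 := by
  let Z : Subgroup (GalQp q) :=
    { carrier := {g | c g = 0}
      mul_mem' := fun {a b} ha hb => by
        show c (a * b) = 0
        rw [hc.2, show c a = 0 from ha, show c b = 0 from hb, mul_zero, zero_mul, add_zero]
      one_mem' := cocycle_map_one hc
      inv_mem' := fun {a} ha => by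
        show c a⁻¹ = 0
        have h := hc.2 a⁻¹ a
        rw [inv_mul_cancel, cocycle_map_one hc, show c a = 0 from ha, mul_zero, zero_mul,
          add_zero] at h
        exact h.symm }
  obtain ⟨-, -, hgen⟩ := hτ.relations F hF _ (blockHom r c hc)
    (isFiniteLevel_blockHom hc hcfin hfin) fun g hg => ⟨2, blockHom_pow_eq_one hc (hI g hg)⟩
  have hle : Subgroup.closure {blockHom r c hc F, blockHom r c hc τ} ≤
      Z.map (blockHom r c hc) := by
    rw [Subgroup.closure_le]
    rintro _ (rfl | rfl)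
    · exact ⟨F, hcF, rfl⟩
    · exact ⟨τ, hcτ, rfl⟩
  funext g
  obtain ⟨s, hs, hfs⟩ := hle (hgen g)
  exact ((blockHom_eq_iff hc).1 hfs).2.symm.trans hs

omit [Fact p.Prime] in
theorem cocycle_frob_relation (hF : IsFrobQp q F) (hτ : IsTameGen p q τ)
    (hfin : IsFiniteLevel q r) (hI : ∀ g ∈ inertiaQp q, r g ^ p = 1)
    {c : GalQp q → Matrix (Fin 2) (Fin 2) k} (hc : c ∈ adCocycles r)
    (hcfin : IsFiniteLevel q c) :
    c (τ ^ q) + r (τ ^ q) * c F * r (τ ^ q)⁻¹ = c F + r F * c τ * r F⁻¹ := by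
  obtain ⟨hrel, -, -⟩ := hτ.relations F hF _ (blockHom r c hc)
    (isFiniteLevel_blockHom hc hcfin hfin) fun g hg => ⟨2, blockHom_pow_eq_one hc (hI g hg)⟩
  rw [← map_inv, ← map_mul, ← map_mul, ← map_pow, blockHom_eq_iff] at hrel
  obtain ⟨h1, h2⟩ := hrel
  have hinv : r (τ ^ q)⁻¹ = r (F * τ * F⁻¹)⁻¹ :=
    left_inv_eq_right_inv (rep_inv_mul_self r _) (by rw [← h1]; exact rep_mul_inv_self r _)
  rw [← cocycle_conj_eq hc F τ, ← h2, ← h1, hinv]

/-- The matrices of trace zero on which conjugation by `A` is multiplication by `t`. -/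
def twistedCentralizer (A : Matrix (Fin 2) (Fin 2) k) (t : k) :
    Submodule k (Matrix (Fin 2) (Fin 2) k) where
  carrier := {M | M.trace = 0 ∧ A * M = t • (M * A)}
  add_mem' {a b} ha hb := ⟨by simp [Matrix.trace_add, ha.1, hb.1],
    by rw [mul_add, add_mul, smul_add, ha.2, hb.2]⟩
  zero_mem' := ⟨by simp, by simp⟩
  smul_mem' s a ha := ⟨by simp [Matrix.trace_smul, ha.1],
    by rw [mul_smul_comm, smul_mul_assoc, ha.2, smul_comm]⟩

/-- At an unramified prime `q ≠ p` a local cocycle is given by its value at a Frobenius `F` and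
a matrix on which `F` acts by multiplication by `q`. -/
theorem finrank_cocycles_le_add (hqp : q ≠ p) (hfin : IsFiniteLevel q r)
    (hunr : ∀ g ∈ inertiaQp q, r g = 1) (hF : IsFrobQp q F) :
    FiniteDimensional k
        (adCocycles r ⊓ finiteLevelFun q k (Matrix (Fin 2) (Fin 2) k) :
          Submodule k (GalQp q → Matrix (Fin 2) (Fin 2) k)) ∧
      Module.finrank k
          (adCocycles r ⊓ finiteLevelFun q k (Matrix (Fin 2) (Fin 2) k) :
            Submodule k (GalQp q → Matrix (Fin 2) (Fin 2) k)) ≤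
        3 + Module.finrank k (twistedCentralizer (r F) (q : k)) := by
  obtain ⟨τ, hτ⟩ := exists_isTameGen (q := q) (Fact.out : p.Prime) hqp
  have hI : ∀ g ∈ inertiaQp q, r g ^ p = 1 := fun g hg => by rw [hunr g hg, one_pow]
  set S : Submodule k (GalQp q → Matrix (Fin 2) (Fin 2) k) :=
    adCocycles r ⊓ finiteLevelFun q k (Matrix (Fin 2) (Fin 2) k)
  have hV : ∀ c : S, (c : GalQp q → Matrix (Fin 2) (Fin 2) k) τ ∈
      twistedCentralizer (r F) (q : k) := by
    rintro ⟨c, hc, hcfin⟩
    refine ⟨hc.1 τ, ?_⟩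
    have h := cocycle_frob_relation hF hτ hfin hI hc hcfin
    have hτ1 : r τ = 1 := hunr τ hτ.mem
    rw [cocycle_pow_of_rep_eq_one hc hτ1, ← Nat.cast_smul_eq_nsmul k, hunr _ (pow_mem hτ.mem q),
      hunr _ (inv_mem (pow_mem hτ.mem q)), one_mul, mul_one, add_comm, add_right_inj] at h
    show r F * c τ = (q : k) • (c τ * r F)
    rw [← smul_mul_assoc, h, mul_assoc, rep_inv_mul_self, mul_one]
  let Φ : S →ₗ[k] trZero k × twistedCentralizer (r F) (q : k) :=
    LinearMap.prod
      (LinearMap.codRestrict _ ((LinearMap.proj F).comp S.subtype) fun c => c.2.1.1 F)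
      (LinearMap.codRestrict _ ((LinearMap.proj τ).comp S.subtype) hV)
  have hΦ : Function.Injective Φ := by
    rw [injective_iff_map_eq_zero]
    rintro ⟨c, hc, hcfin⟩ h0
    obtain ⟨h1, h2⟩ := Prod.ext_iff.1 h0
    refine Subtype.ext ?_
    exact cocycle_eq_zero_of_generators hF hτ hfin hI hc hcfin
      (congrArg Subtype.val h1) (congrArg Subtype.val h2)
  refine ⟨FiniteDimensional.of_injective Φ hΦ, ?_⟩
  refine (LinearMap.finrank_le_finrank_of_injective hΦ).trans_eq ?_
  rw [Module.finrank_prod, finrank_trZero]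

omit [Fact p.Prime] [CharP k p] in
/-- The image of an unramified representation is generated by Frobenius. -/
theorem twistedCentralizer_le_adInvariants (hp : p.Prime) (hqp : q ≠ p)
    (hfin : IsFiniteLevel q r) (hunr : ∀ g ∈ inertiaQp q, r g = 1) (hF : IsFrobQp q F) :
    twistedCentralizer (r F) (1 : k) ≤ adInvariants r := by
  obtain ⟨τ, hτ⟩ := exists_isTameGen (q := q) hp hqp
  rintro M ⟨htr, hM⟩
  rw [one_smul] at hM
  refine ⟨htr, fun g => ?_⟩
  obtain ⟨-, -, hgen⟩ := hτ.relations F hF _ r.toHomUnits (isFiniteLevel_toHomUnits hfin)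
    fun h hh => ⟨0, by
      rw [pow_zero, pow_one]
      exact Units.ext (hunr h hh)⟩
  let C : Subgroup (Matrix (Fin 2) (Fin 2) k)ˣ :=
    { carrier := {u | Commute (u : Matrix (Fin 2) (Fin 2) k) M}
      mul_mem' := fun {a b} ha hb => by
        show Commute ((a * b : (Matrix (Fin 2) (Fin 2) k)ˣ) : Matrix (Fin 2) (Fin 2) k) M
        rw [Units.val_mul]
        exact Commute.mul_left ha hb
      one_mem' := Commute.one_left M
      inv_mem' := fun {a} ha => Commute.units_inv_left ha }
  have hle : Subgroup.closure {r.toHomUnits F, r.toHomUnits τ} ≤ C := by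
    rw [Subgroup.closure_le]
    rintro _ (rfl | rfl)
    · exact hM
    · show Commute (r τ) M
      rw [hunr τ hτ.mem]
      exact Commute.one_left M
  exact hle (hgen g)

end Local

section Unipotent

variable {k : Type*} [Field k]

theorem one_add_pow_of_sq_eq_zero {N : Matrix (Fin 2) (Fin 2) k} (hN : N * N = 0) (n : ℕ) :
    (1 + N) ^ n = 1 + (n : k) • N := by
  induction n with
  | zero => simp
  | succ n ih =>
    rw [pow_succ, ih, add_mul, mul_add, mul_add, smul_mul_assoc, smul_mul_assoc, hN, smul_zero,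
      one_mul, one_mul, mul_one, Nat.cast_succ, add_smul, one_smul]
    abel

theorem sub_one_sq_eq_zero {A : Matrix (Fin 2) (Fin 2) k}
    (h : A.charpoly = (X - 1) ^ 2) : (A - 1) * (A - 1) = 0 := by
  have h1 := Matrix.aeval_self_charpoly A
  rw [h] at h1
  simpa [pow_two] using h1

theorem eq_zero_of_commute_nilpotent (h2 : (2 : k) ≠ 0) {N X : Matrix (Fin 2) (Fin 2) k}
    (hN : N * N = 0) (hN0 : N ≠ 0) (htr : X.trace = 0) (hc : X * N = N * X)
    (h : (N 0 1 ≠ 0 → X 0 1 = 0) ∧ (N 0 1 = 0 → X 1 0 = 0)) : X = 0 := by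
  have n00 := congr_fun (congr_fun hN 0) 0
  have n11 := congr_fun (congr_fun hN 1) 1
  have c00 := congr_fun (congr_fun hc 0) 0
  have c01 := congr_fun (congr_fun hc 0) 1
  have c10 := congr_fun (congr_fun hc 1) 0
  rw [Matrix.trace_fin_two] at htr
  have hd : X 1 1 = -X 0 0 := by linear_combination htr
  simp [Matrix.mul_apply, Fin.sum_univ_two, hd] at n00 n11 c00 c01 c10
  suffices hX : X 0 0 = 0 ∧ X 0 1 = 0 ∧ X 1 0 = 0 by
    obtain ⟨ha, hb, hc'⟩ := hX
    ext i j
    fin_cases i <;> fin_cases j <;> simp [ha, hb, hc', hd]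
  by_cases hb : N 0 1 = 0
  · have ha : N 0 0 = 0 := by simpa [hb] using n00
    have hd' : N 1 1 = 0 := by simpa [hb] using n11
    have hc0 : N 1 0 ≠ 0 := fun hc0 => hN0 <| by
      ext i j
      fin_cases i <;> fin_cases j <;> simp [ha, hb, hc0, hd']
    have hz := h.2 hb
    simp [hb, ha, hd', hz] at c00 c10
    refine ⟨?_, c00.resolve_right hc0, hz⟩
    have : (2 : k) * (X 0 0 * N 1 0) = 0 := by linear_combination -c10
    exact ((mul_eq_zero.1 ((mul_eq_zero.1 this).resolve_left h2))).resolve_right hc0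
  · have hy := h.1 hb
    have hz : N 0 1 * X 1 0 = 0 := by linear_combination -c00 + N 1 0 * hy
    refine ⟨?_, hy, (mul_eq_zero.1 hz).resolve_left hb⟩
    have : (2 : k) * (X 0 0 * N 0 1) = 0 := by linear_combination c01 + (N 0 0 - N 1 1) * hy
    exact ((mul_eq_zero.1 ((mul_eq_zero.1 this).resolve_left h2))).resolve_right hb

end Unipotent

section UnipotentBound

variable {p : ℕ} [Fact p.Prime] {q : ℕ} [Fact q.Prime] {k : Type} [Field k] [CharP k p]
  {r : GalQp q →* Matrix (Fin 2) (Fin 2) k}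

/-- Cocycles which keep trace `2` on a non trivial unipotent inertia form a space of dimension
at most `3`. -/
theorem finrank_le_three_of_unipotent (hp2 : p ≠ 2) (hqp : q ≠ p) (hfin : IsFiniteLevel q r)
    (hunip : ∀ g ∈ inertiaQp q, (r g).charpoly = (X - 1) ^ 2)
    (hram : ∃ g ∈ inertiaQp q, r g ≠ 1)
    (Z : Submodule k (GalQp q → Matrix (Fin 2) (Fin 2) k))
    (hZ : ∀ c ∈ Z, c ∈ adCocycles r ∧ IsFiniteLevel q c ∧
      ∀ g ∈ inertiaQp q, (c g * r g).trace = 0) :
    FiniteDimensional k Z ∧ Module.finrank k Z ≤ 3 := by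
  classical
  have hp : p.Prime := Fact.out
  have h2 : (2 : k) ≠ 0 := fun h => hp2 ((Nat.prime_dvd_prime_iff_eq hp Nat.prime_two).mp
    ((CharP.cast_eq_zero_iff k p 2).mp (by exact_mod_cast h)))
  have hq0 : (q : k) ≠ 0 := fun h => hqp ((Nat.prime_dvd_prime_iff_eq hp (Fact.out : q.Prime)).mp
    ((CharP.cast_eq_zero_iff k p q).mp h)).symm
  have hI : ∀ g ∈ inertiaQp q, r g ^ p = 1 := fun g hg => by
    rw [← add_sub_cancel 1 (r g), one_add_pow_of_sq_eq_zero (sub_one_sq_eq_zero (hunip g hg)),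
      CharP.cast_eq_zero, zero_smul, add_zero]
  obtain ⟨F, hF⟩ := exists_isFrobQp (q := q)
  obtain ⟨τ, hτ⟩ := exists_isTameGen (q := q) hp hqp
  set N := r τ - 1 with hNdef
  have hrτ : r τ = 1 + N := (add_sub_cancel 1 (r τ)).symm
  have hN : N * N = 0 := sub_one_sq_eq_zero (hunip τ hτ.mem)
  have hN0 : N ≠ 0 := by
    intro h0
    obtain ⟨g, hg, hne⟩ := hram
    obtain ⟨-, hcyc, -⟩ := hτ.relations F hF _ r.toHomUnits (isFiniteLevel_toHomUnits hfin)
      fun h hh => ⟨1, by
        rw [pow_one]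
        exact Units.ext (by rw [Units.val_pow_eq_pow_val]; exact hI h hh)⟩
    have h1 := hcyc g hg
    have h1' : r.toHomUnits τ = 1 := Units.ext (by show r τ = 1; rw [hrτ, h0, add_zero])
    rw [h1', Subgroup.zpowers_one_eq_bot, Subgroup.mem_bot] at h1
    exact hne (congrArg Units.val h1)
  -- the values at the tame generator
  let φ : trZero k →ₗ[k] k :=
    ((Matrix.traceLinearMap (Fin 2) k k).comp (LinearMap.mulRight k N)).comp (trZero k).subtype
  have hφ : Module.finrank k (LinearMap.ker φ) ≤ 2 := by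
    have h := LinearMap.finrank_range_add_finrank_ker φ
    rw [finrank_trZero] at h
    suffices hne : LinearMap.range φ ≠ ⊥ by
      have : 1 ≤ Module.finrank k (LinearMap.range φ) :=
        Submodule.one_le_finrank_iff.2 hne
      omega
    intro hbot
    rw [LinearMap.range_eq_bot] at hbot
    have key : ∀ M : Matrix (Fin 2) (Fin 2) k, M.trace = 0 → (M * N).trace = 0 := fun M hM =>
      LinearMap.congr_fun hbot ⟨M, hM⟩
    have e1 := key (Matrix.single 0 1 1) (by simp)
    have e2 := key (Matrix.single 1 0 1) (by simp)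
    have e3 := key !![1, 0; 0, -1] (by simp [Matrix.trace_fin_two])
    simp [Matrix.trace_fin_two, Matrix.mul_apply, Matrix.single_apply, Fin.sum_univ_two,
      Matrix.vecMul, dotProduct] at e1 e2 e3
    have n00 := congr_fun (congr_fun hN 0) 0
    simp [Matrix.mul_apply, Fin.sum_univ_two, e1, e2] at n00
    apply hN0
    ext i j
    fin_cases i <;> fin_cases j <;> simp [e1, e2, n00]
    linear_combination -e3 + n00
  let ψ : Z →ₗ[k] LinearMap.ker φ :=
    LinearMap.codRestrict _
      (LinearMap.codRestrict (trZero k) ((LinearMap.proj τ).comp Z.subtype)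
        fun c => (hZ c c.2).1.1 τ)
      fun c => by
        obtain ⟨hc, -, htr⟩ := hZ c c.2
        have h := htr τ hτ.mem
        rw [hrτ, mul_add, mul_one, Matrix.trace_add, hc.1, zero_add] at h
        exact h
  have hτq : r (τ ^ q) = 1 + (q : k) • N := by
    rw [map_pow, hrτ, one_add_pow_of_sq_eq_zero hN]
  -- the kernel
  have hcomm : ∀ c ∈ Z, c τ = 0 → c F * N = N * c F := by
    intro c hcZ hcτ
    obtain ⟨hc, hcfin, -⟩ := hZ c hcZ
    have h := cocycle_frob_relation hF hτ hfin hI hc hcfin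
    rw [hcτ, cocycle_pow_of_eq_zero hc hcτ, mul_zero, zero_mul, add_zero, zero_add] at h
    have h' : r (τ ^ q) * c F = c F * r (τ ^ q) :=
      (conj_sub_eq_zero_iff r _ _).1 (by rw [h, sub_self])
    rw [hτq, add_mul, mul_add, one_mul, mul_one, smul_mul_assoc, mul_smul_comm, add_right_inj]
      at h'
    exact (smul_right_injective _ hq0 h').symm
  let Φ : Z →ₗ[k] Matrix (Fin 2) (Fin 2) k × Matrix (Fin 2) (Fin 2) k :=
    ((LinearMap.proj F).comp Z.subtype).prod ((LinearMap.proj τ).comp Z.subtype)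
  have hΦ : Function.Injective Φ := by
    rw [injective_iff_map_eq_zero]
    rintro ⟨c, hcZ⟩ h0
    obtain ⟨hc, hcfin, -⟩ := hZ c hcZ
    obtain ⟨h1, h2'⟩ := Prod.ext_iff.1 h0
    exact Subtype.ext (cocycle_eq_zero_of_generators hF hτ hfin hI hc hcfin h1 h2')
  have hfd : FiniteDimensional k Z := FiniteDimensional.of_injective Φ hΦ
  refine ⟨hfd, ?_⟩
  let l : LinearMap.ker ψ →ₗ[k] k :=
    if N 0 1 = 0 then
      (Matrix.entryLinearMap k k 1 0).comp (((LinearMap.proj F).comp Z.subtype).comp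
        (LinearMap.ker ψ).subtype)
    else
      (Matrix.entryLinearMap k k 0 1).comp (((LinearMap.proj F).comp Z.subtype).comp
        (LinearMap.ker ψ).subtype)
  have hl : Function.Injective l := by
    rw [injective_iff_map_eq_zero]
    rintro ⟨⟨c, hcZ⟩, hker⟩ h0
    obtain ⟨hc, hcfin, -⟩ := hZ c hcZ
    have hcτ : c τ = 0 := congrArg (fun x : LinearMap.ker φ => ((x : trZero k) :
      Matrix (Fin 2) (Fin 2) k)) (LinearMap.mem_ker.1 hker)
    have hcF : c F = 0 := by
      refine eq_zero_of_commute_nilpotent h2 hN hN0 (hc.1 F) (hcomm c hcZ hcτ)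
        ⟨fun hne => ?_, fun heq => ?_⟩
      · simp only [l, if_neg hne] at h0
        exact h0
      · simp only [l, if_pos heq] at h0
        exact h0
    exact Subtype.ext (Subtype.ext
      (cocycle_eq_zero_of_generators hF hτ hfin hI hc hcfin hcF hcτ))
  have h1 := LinearMap.finrank_range_add_finrank_ker (K := k) (V := Z) (V₂ := LinearMap.ker φ) ψ
  have h3 : Module.finrank k (LinearMap.range ψ) ≤ 2 := (Submodule.finrank_le _).trans hφ
  have h4 : Module.finrank k (LinearMap.ker ψ) ≤ 1 := by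
    simpa using LinearMap.finrank_le_finrank_of_injective hl
  omega

end UnipotentBound

end Fermat.Agent.TW.LocalCondB
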