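/-
Dimension bounds for the local tangent spaces of the Taylor-Wiles argument.  All of them are
stated for spaces of cocycles containing the coboundaries: as
`dim adCoboundaries + dim adInvariants = 3`, a bound `≤ 3 + δ` is the bound `h⁰ + δ` on classes.
-/
import Fermat.Agent.TW.LocalDefs
import Fermat.Agent.TW.LocalCondBAlgebra
import Fermat.Agent.TW.LocalCondBTame
import Fermat.Agent.TW.LocalCondBOrd
import Mathlib.LinearAlgebra.Dimension.Finrank
import Mathlib.LinearAlgebra.Matrix.Charpoly.Basic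

set_option autoImplicit false

noncomputable section

open Polynomial

namespace Fermat.Agent.TW

variable (p : ℕ) [Fact p.Prime] {k : Type} [Field k]
  (r : GalQp p →* Matrix (Fin 2) (Fin 2) k)

/-- Cocycles of finite level. -/
def ctsCocycles : Submodule k (GalQp p → Matrix (Fin 2) (Fin 2) k) :=
  adCocycles r ⊓ finiteLevelFun p k (Matrix (Fin 2) (Fin 2) k)

theorem mem_ctsCocycles_iff (c : GalQp p → Matrix (Fin 2) (Fin 2) k) :
    c ∈ ctsCocycles p r ↔ c ∈ adCocycles r ∧ IsFiniteLevel p c := Iff.rfl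

theorem finrank_adCoboundaries_add_adInvariants {G : Type*} [Group G]
    (r : G →* Matrix (Fin 2) (Fin 2) k) (h2 : (2 : k) ≠ 0) :
    Module.finrank k (adCoboundaries r) + Module.finrank k (adInvariants r) = 3 :=
  LocalCondB.finrank_adCoboundaries_add_adInvariants r

/-- Cocycles which are strictly upper triangular with respect to a stable line modulo which
inertia acts trivially. -/
def ordCocycles : Submodule k (GalQp p → Matrix (Fin 2) (Fin 2) k) :=
  Submodule.span k
    {c | c ∈ ctsCocycles p r ∧ ∃ v : Fin 2 → k, v ≠ 0 ∧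
      (∀ g, (r g).mulVec v ∈ k ∙ v) ∧
      (∀ g ∈ inertiaQp p, ∀ w, (r g).mulVec w - w ∈ k ∙ v) ∧
      (∀ g, (c g).mulVec v = 0) ∧ ∀ g w, (c g).mulVec w ∈ k ∙ v}

/-- The local space of the strict ordinary condition. -/
def ordLocal : Submodule k (GalQp p → Matrix (Fin 2) (Fin 2) k) :=
  ordCocycles p r ⊔ adCoboundaries r

/-- Strict ordinary bound: `h⁰ + 1`. -/
theorem finrank_ordLocal_le [Finite k] [CharP k p] (hp2 : p ≠ 2) (hfin : IsFiniteLevel p r)
    (hdet : ∀ g, (r g).det = ((localCyclo p g : ZMod p).val : k)) :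
    FiniteDimensional k (ordLocal p r) ∧ Module.finrank k (ordLocal p r) ≤ 4 := by
  refine LocalCondB.finrank_ord_le r hp2 hfin hdet _ (sup_le_sup_right (Submodule.span_mono ?_) _)
  rintro c ⟨hc, v, hv, h1, h2, h3, -⟩
  exact ⟨hc.1, hc.2, v, hv, h1, h2, h3⟩

/-- Cocycles whose first order deformation has an integral model at `p`. -/
def flatCocycles : Submodule k (GalQp p → Matrix (Fin 2) (Fin 2) k) :=
  Submodule.span k
    {c | c ∈ ctsCocycles p r ∧ HasLocalModel p ((Fin 2 → k) × (Fin 2 → k)) (liftAct r c)}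

/-- The local space of the flat condition. -/
def flatLocal : Submodule k (GalQp p → Matrix (Fin 2) (Fin 2) k) :=
  flatCocycles p r ⊔ adCoboundaries r

variable (q : ℕ) [Fact q.Prime] (r' : GalQp q →* Matrix (Fin 2) (Fin 2) k)

/-- Cocycles whose first order deformation keeps trace `2` on inertia (the determinant is kept
by `tr c = 0`). -/
def unipotentCocycles : Submodule k (GalQp q → Matrix (Fin 2) (Fin 2) k) where
  carrier := {c | c ∈ ctsCocycles q r' ∧ ∀ g ∈ inertiaQp q, (c g * r' g).trace = 0}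
  add_mem' ha hb := ⟨add_mem ha.1 hb.1, fun g hg => by
    simp [add_mul, Matrix.trace_add, ha.2 g hg, hb.2 g hg]⟩
  zero_mem' := ⟨zero_mem _, fun g _ => by simp⟩
  smul_mem' t a ha := ⟨Submodule.smul_mem _ t ha.1, fun g hg => by
    simp [Matrix.trace_smul, ha.2 g hg]⟩

/-- The local space of the minimal unipotent condition. -/
def unipotentLocal : Submodule k (GalQp q → Matrix (Fin 2) (Fin 2) k) :=
  unipotentCocycles q r' ⊔ adCoboundaries r'

/-- Minimal bound at a ramified prime with unipotent inertia: `h⁰`. -/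
theorem finrank_unipotentLocal_le [Finite k] [CharP k p] (hp2 : p ≠ 2) (hqp : q ≠ p)
    (hfin : IsFiniteLevel q r')
    (hunip : ∀ g ∈ inertiaQp q, (r' g).charpoly = (X - 1) ^ 2)
    (hram : ∃ g ∈ inertiaQp q, r' g ≠ 1) :
    FiniteDimensional k (unipotentLocal q r') ∧
      Module.finrank k (unipotentLocal q r') ≤ 3 := by
  refine LocalCondB.finrank_le_three_of_unipotent hp2 hqp hfin hunip hram _ fun c hc => ?_
  have hle : unipotentLocal q r' ≤ unipotentCocycles q r' := sup_le le_rfl <| by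
    rintro _ ⟨M, hM, rfl⟩
    obtain ⟨E, hE, hE'⟩ := hfin
    refine ⟨⟨LocalCondB.adD_mem_adCocycles M, E, hE, fun g s hs => ?_⟩, fun g _ => ?_⟩
    · have hinv : r' (g * s)⁻¹ = r' g⁻¹ := left_inv_eq_right_inv
        (LocalCondB.rep_inv_mul_self r' _)
        (by rw [hE' g s hs]; exact LocalCondB.rep_mul_inv_self r' _)
      simp only [adD_apply, hE' g s hs, hinv]
    · rw [adD_apply, sub_mul, Matrix.trace_sub, mul_assoc, LocalCondB.rep_inv_mul_self, mul_one,
        Matrix.trace_mul_comm (r' g) M, sub_self]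
  exact ⟨(hle hc).1.1, (hle hc).1.2, (hle hc).2⟩

/-- At an unramified prime `q ≡ 1 (mod p)`: `h¹ ≤ 2 h⁰`. -/
theorem finrank_ctsCocycles_le_of_unramified [Finite k] [CharP k p] (hp2 : p ≠ 2) (hqp : q ≠ p)
    (hq1 : (q : k) = 1) (hfin : IsFiniteLevel q r') (hunr : ∀ g ∈ inertiaQp q, r' g = 1) :
    FiniteDimensional k (ctsCocycles q r') ∧
      Module.finrank k (ctsCocycles q r') ≤ 3 + Module.finrank k (adInvariants r') := by
  obtain ⟨F, hF⟩ := LocalCondB.exists_isFrobQp (q := q)
  obtain ⟨h1, h2⟩ := LocalCondB.finrank_cocycles_le_add (p := p) hqp hfin hunr hF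
  have h3 : LocalCondB.twistedCentralizer (r' F) (q : k) ≤ adInvariants r' := by
    rw [hq1]
    exact LocalCondB.twistedCentralizer_le_adInvariants Fact.out hqp hfin hunr hF
  exact ⟨h1, h2.trans (by have := Submodule.finrank_mono h3; omega)⟩

/-- At an unramified prime where some element has distinct eigenvalues, `h⁰ ≤ 1`. -/
theorem finrank_adInvariants_le_one {G : Type*} [Group G]
    (r : G →* Matrix (Fin 2) (Fin 2) k) (h2 : (2 : k) ≠ 0) (g : G) {α β : k} (hαβ : α ≠ β)
    (hg : (r g).charpoly = (X - C α) * (X - C β)) :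
    Module.finrank k (adInvariants r) ≤ 1 :=
  LocalCondB.finrank_adInvariants_le_one r g hαβ hg

/-- At a Taylor-Wiles prime: `h¹ ≤ h⁰ + 1`. -/
theorem finrank_ctsCocycles_le_four [Finite k] [CharP k p] (hp2 : p ≠ 2) (hqp : q ≠ p)
    (hq1 : (q : k) = 1) (hfin : IsFiniteLevel q r') (hunr : ∀ g ∈ inertiaQp q, r' g = 1)
    (hdist : ∃ (g : GalQp q) (α β : k), α ≠ β ∧ (r' g).charpoly = (X - C α) * (X - C β)) :
    FiniteDimensional k (ctsCocycles q r') ∧ Module.finrank k (ctsCocycles q r') ≤ 4 := by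
  obtain ⟨g, α, β, hαβ, hg⟩ := hdist
  obtain ⟨h1, h2⟩ := finrank_ctsCocycles_le_of_unramified p q r' hp2 hqp hq1 hfin hunr
  have h3 : (2 : k) ≠ 0 := fun h => by
    have h4 := (CharP.cast_eq_zero_iff k p 2).mp (by exact_mod_cast h)
    exact hp2 ((Nat.prime_dvd_prime_iff_eq (Fact.out : p.Prime) Nat.prime_two).mp h4)
  exact ⟨h1, h2.trans (by have := finrank_adInvariants_le_one r' h3 g hαβ hg; omega)⟩

/-- At a real place: `H¹ = 0` and `h⁰ = 1`. -/
theorem adCocycles_eq_adCoboundaries_of_involution {G : Type*} [Group G]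
    (r : G →* Matrix (Fin 2) (Fin 2) k) (h2 : (2 : k) ≠ 0) (c : G) (hc : c * c = 1)
    (hgen : ∀ g : G, g = 1 ∨ g = c) (hdet : (r c).det = -1) :
    adCocycles r = adCoboundaries r ∧ Module.finrank k (adInvariants r) = 1 :=
  LocalCondB.adCocycles_eq_adCoboundaries_of_involution r h2 c hc hgen hdet

end Fermat.Agent.TW
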