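/-
The matrix form of a residual representation and its restriction to the local Galois groups.
-/
import Fermat.Agent.TW.LocalConditions
import Fermat.Prelude.Def_GaloisRep_Adic
import Fermat.Prelude.Def_GaloisRep_CompletionBridge

set_option autoImplicit false

noncomputable section

namespace Fermat.Agent.TW

local notation "Γℚ" => AlgebraicClosure ℚ ≃ₐ[ℚ] AlgebraicClosure ℚ

variable {k : Type} [Field k] (ρ : ResidualGaloisRep k)

/-- A chosen basis of the space of `ρ`. -/
def residualBasis : Module.Basis (Fin 2) k ρ.V :=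
  Module.finBasisOfFinrankEq k ρ.V ρ.finrank_eq

/-- `ρ` in the chosen basis. -/
def matRep : Γℚ →* Matrix (Fin 2) (Fin 2) k where
  toFun σ := LinearMap.toMatrix (residualBasis ρ) (residualBasis ρ) (ρ.ρ σ)
  map_one' := by simp [LinearMap.toMatrix_one, Module.End.one_eq_id]
  map_mul' σ τ := by
    rw [map_mul]
    exact LinearMap.toMatrix_mul (residualBasis ρ) _ _

theorem charpoly_matRep (σ : Γℚ) : (matRep ρ σ).charpoly = LinearMap.charpoly (ρ.ρ σ) :=
  LinearMap.charpoly_toMatrix _ _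

theorem det_matRep (σ : Γℚ) : (matRep ρ σ).det = LinearMap.det (ρ.ρ σ) :=
  LinearMap.det_toMatrix _ _

theorem matRep_eq_one_iff (σ : Γℚ) : matRep ρ σ = 1 ↔ ρ.ρ σ = 1 := by
  constructor
  · intro h
    apply (LinearMap.toMatrix (residualBasis ρ) (residualBasis ρ)).injective
    rw [LinearMap.toMatrix_one]
    exact h
  · intro h
    show LinearMap.toMatrix _ _ (ρ.ρ σ) = 1
    rw [h, LinearMap.toMatrix_one]

theorem matRep_factorsThroughFiniteLevel :
    GaloisFactorsThroughFiniteLevel (matRep ρ) := by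
  obtain ⟨L, hL, h⟩ := ρ.factorsThroughFiniteLevel
  exact ⟨L, hL, fun σ hσ => (matRep_eq_one_iff ρ σ).mpr (h σ hσ)⟩

/-- The restriction of `matRep ρ` to the local Galois group at `q`. -/
def locRep (q : ℕ) [Fact q.Prime] : GalQp q →* Matrix (Fin 2) (Fin 2) k :=
  (matRep ρ).comp (localGaloisToGlobal q)

/-- Restriction of functions to the local Galois group at `q`. -/
def resLoc (q : ℕ) [Fact q.Prime] :
    (Γℚ → Matrix (Fin 2) (Fin 2) k) →ₗ[k] (GalQp q → Matrix (Fin 2) (Fin 2) k) :=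
  LinearMap.funLeft k (Matrix (Fin 2) (Fin 2) k) (localGaloisToGlobal q)

/-- Functions constant on cosets of an open subgroup of the global Galois group. -/
def globalFiniteLevel (k : Type) [Field k] :
    Submodule k (Γℚ → Matrix (Fin 2) (Fin 2) k) where
  carrier := {f | ∃ E : IntermediateField ℚ (AlgebraicClosure ℚ), FiniteDimensional ℚ E ∧
    ∀ g s : Γℚ, (∀ x ∈ E, s x = x) → f (g * s) = f g}
  add_mem' := by
    rintro a b ⟨E, hE, ha⟩ ⟨E', hE', hb⟩
    refine ⟨E ⊔ E', IntermediateField.finiteDimensional_sup E E', fun g s hs => ?_⟩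
    simp only [Pi.add_apply]
    rw [ha g s fun x hx => hs x ((le_sup_left : E ≤ E ⊔ E') hx),
      hb g s fun x hx => hs x ((le_sup_right : E' ≤ E ⊔ E') hx)]
  zero_mem' := ⟨⊥, inferInstance, fun _ _ _ => rfl⟩
  smul_mem' := by
    rintro t a ⟨E, hE, ha⟩
    exact ⟨E, hE, fun g s hs => by simp [Pi.smul_apply, ha g s hs]⟩

/-- The global cocycles: finite level, unramified outside `T`. -/
def globalCocycles (T : Finset ℕ) : Submodule k (Γℚ → Matrix (Fin 2) (Fin 2) k) where
  carrier := {c | c ∈ adCocycles (matRep ρ) ⊓ globalFiniteLevel k ∧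
    ∀ q : ℕ, q.Prime → q ∉ T → ∀ P : ValuationSubring (AlgebraicClosure ℚ), P.LiesOverPrime q →
      ∀ σ ∈ P.inertiaSubgroupIn ℚ, c σ = 0}
  add_mem' ha hb := ⟨add_mem ha.1 hb.1, fun q hq hqT P hP σ hσ => by
    simp [ha.2 q hq hqT P hP σ hσ, hb.2 q hq hqT P hP σ hσ]⟩
  zero_mem' := ⟨zero_mem _, fun _ _ _ _ _ _ _ => rfl⟩
  smul_mem' t a ha := ⟨Submodule.smul_mem _ t ha.1, fun q hq hqT P hP σ hσ => by
    simp [ha.2 q hq hqT P hP σ hσ]⟩

end Fermat.Agent.TW
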