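/-
Congruences between traces of `p ^ n`-th powers of integer matrices: sums over words which are
invariant under rotation, matrices congruent modulo `p`, and characteristic polynomials congruent
modulo `p`.
-/
import Mathlib

set_option autoImplicit false

noncomputable section

namespace Fermat.Agent.TW.RepAlgebra

open Polynomial Matrix

section Orbit

variable {p : ℕ} [Fact p.Prime] {W A : Type*} [Fintype W] [AddCommMonoid A]

/-- An invariant function sums to zero over a set with an action of a cyclic `p`-group, if on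
each point its value is killed by the size of the orbit. -/
theorem sum_eq_zero_of_perm (π : Equiv.Perm W) {n : ℕ} (hπ : π ^ p ^ n = 1) (f : W → A)
    (hf : ∀ w, f (π w) = f w)
    (h : ∀ i ≤ n, ∀ w, (π ^ p ^ i) w = w → p ^ i • f w = 0) :
    ∑ w, f w = 0 := by
  classical
  rw [Finset.sum_partition (Equiv.Perm.SameCycle.setoid π)]
  refine Finset.sum_eq_zero fun b hb => ?_
  obtain ⟨w, -, rfl⟩ := Finset.mem_image.1 hb
  have hper : Function.IsPeriodicPt π (p ^ n) w := by
    show π^[p ^ n] w = w
    rw [← Equiv.Perm.coe_pow, hπ]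
    rfl
  obtain ⟨i, hi, hm⟩ := (Nat.dvd_prime_pow (Fact.out : p.Prime)).1 hper.minimalPeriod_dvd
  have hfix : (π ^ p ^ i) w = w := by
    rw [Equiv.Perm.coe_pow, ← hm]
    exact Function.iterate_minimalPeriod
  have hset : (Finset.univ.filter fun y => (⟦y⟧ : Quotient (Equiv.Perm.SameCycle.setoid π)) = ⟦w⟧)
      = (Finset.range (p ^ i)).image fun j => π^[j] w := by
    ext y
    simp only [Finset.mem_filter, Finset.mem_univ, true_and, Finset.mem_image, Finset.mem_range,
      Quotient.eq]
    constructor
    · intro hy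
      obtain ⟨j, hj⟩ := (Equiv.Perm.SameCycle.symm hy).exists_nat_pow_eq
      refine ⟨j % p ^ i, Nat.mod_lt _ (pow_pos (Fact.out : p.Prime).pos _), ?_⟩
      rw [← hm, Function.iterate_mod_minimalPeriod_eq, ← Equiv.Perm.coe_pow, hj]
    · rintro ⟨j, -, rfl⟩
      exact Equiv.Perm.SameCycle.symm ⟨j, by rw [zpow_natCast, Equiv.Perm.coe_pow]⟩
  rw [hset, Finset.sum_image]
  · have hconst : ∀ j, f (π^[j] w) = f w := by
      intro j
      induction j with
      | zero => rfl
      | succ j ih => rw [Function.iterate_succ_apply', hf, ih]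
    simp only [hconst, Finset.sum_const, Finset.card_range]
    exact h i hi w hfix
  · intro a ha b hb hab
    exact Function.iterate_injOn_Iio_minimalPeriod
      (by simpa [hm] using ha) (by simpa [hm] using hb) hab

end Orbit

section Words

variable {p : ℕ} [Fact p.Prime] {α A : Type*} [Fintype α] [AddCommMonoid A]

omit [Fintype α] in
/-- Rotation of a word by one letter. -/
theorem ofFn_comp_finRotate {N : ℕ} (w : Fin (N + 1) → α) :
    List.ofFn (w ∘ finRotate (N + 1)) = (List.ofFn fun j : Fin N => w j.succ) ++ [w 0] := by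
  rw [List.ofFn_succ', List.concat_eq_append]
  congr 2
  · funext j
    simp
  · simp

theorem finRotate_iterate_val {N : ℕ} (j : ℕ) (x : Fin (N + 1)) :
    (((finRotate (N + 1)))^[j] x).val = (x.val + j) % (N + 1) := by
  induction j with
  | zero => simp [Nat.mod_eq_of_lt x.isLt]
  | succ j ih =>
    rw [Function.iterate_succ_apply', finRotate_apply, Fin.val_add, ih, Fin.val_one',
      ← Nat.add_mod, Nat.add_assoc]

omit [Fintype α] in
/-- A word fixed by the rotation by `q` is a repetition of its first `q` letters. -/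
theorem ofFn_eq_flatten_of_periodic {N q M : ℕ} (hN : N = M * q) (hq : 0 < q) (hM : 0 < M)
    (w : Fin N → α) (hw : ∀ x : Fin N, ∀ y : Fin N, y.val = (x.val + q) % N → w y = w x) :
    ∃ l : List α, l.length = q ∧ List.ofFn w = (List.replicate M l).flatten := by
  have hqN : q ≤ N := hN ▸ Nat.le_mul_of_pos_left q hM
  let w0 : Fin q → α := fun j => w ⟨j, lt_of_lt_of_le j.isLt hqN⟩
  refine ⟨List.ofFn w0, by simp, ?_⟩
  rw [← List.ofFn_fin_repeat, List.ofFn_congr hN]
  congr 1
  funext x
  have key : ∀ t r (hr : r < q) (ht : r + t * q < N), w ⟨r + t * q, ht⟩ = w0 ⟨r, hr⟩ := by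
    intro t
    induction t with
    | zero => intro r hr ht; simp [w0]
    | succ t ih =>
      intro r hr ht
      have ht' : r + t * q < N := by
        have : t * q ≤ (t + 1) * q := Nat.mul_le_mul_right q (Nat.le_succ t)
        omega
      rw [← ih r hr ht']
      refine hw ⟨r + t * q, ht'⟩ ⟨r + (t + 1) * q, ht⟩ ?_
      show r + (t + 1) * q = (r + t * q + q) % N
      rw [Nat.mod_eq_of_lt (by rw [Nat.add_assoc, ← Nat.succ_mul]; exact ht)]
      ring
  have hx : x.val % q + x.val / q * q = x.val := Nat.mod_add_div' _ _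
  have := key (x.val / q) (x.val % q) (Nat.mod_lt _ hq)
    (lt_of_eq_of_lt hx (lt_of_lt_of_eq x.isLt hN.symm))
  simp only [Fin.repeat, Fin.modNat]
  rw [← this]
  congr 1
  exact Fin.ext hx.symm

/-- A function of words which is invariant under rotation sums to zero over all words of
length `p ^ n`, if on each periodic word it is killed by the period. -/
theorem sum_words_eq_zero (n : ℕ) (f : List α → A) (hrot : ∀ l₁ l₂, f (l₁ ++ l₂) = f (l₂ ++ l₁))
    (h : ∀ i ≤ n, ∀ l : List α, l.length = p ^ i →
      p ^ i • f (List.replicate (p ^ (n - i)) l).flatten = 0) :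
    ∑ w : Fin (p ^ n) → α, f (List.ofFn w) = 0 := by
  obtain ⟨N, hN⟩ : ∃ N, p ^ n = N + 1 :=
    ⟨p ^ n - 1, (Nat.succ_pred_eq_of_pos (pow_pos (Fact.out : p.Prime).pos n)).symm⟩
  let π : Equiv.Perm (Fin (p ^ n) → α) :=
    Equiv.arrowCongr (finRotate (p ^ n)).symm (Equiv.refl α)
  have hπ : ∀ (j : ℕ) (w : Fin (p ^ n) → α), (π ^ j) w = w ∘ (finRotate (p ^ n))^[j] := by
    intro j
    induction j with
    | zero => intro w; rfl
    | succ j ih =>
      intro w
      rw [pow_succ', Equiv.Perm.mul_apply, ih, Function.iterate_succ]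
      rfl
  have hval : ∀ (j : ℕ) (x : Fin (p ^ n)),
      ((finRotate (p ^ n))^[j] x).val = (x.val + j) % p ^ n := by
    rw [hN]; exact finRotate_iterate_val
  refine sum_eq_zero_of_perm (p := p) π (n := n) ?_ _ ?_ ?_
  · refine Equiv.ext fun w => ?_
    rw [hπ, Equiv.Perm.one_apply]
    funext x
    refine congrArg w (Fin.ext ?_)
    rw [hval, Nat.add_mod_right, Nat.mod_eq_of_lt x.isLt]
  · intro w
    have h1 := hπ 1 w
    rw [pow_one, Function.iterate_one] at h1
    rw [h1]
    clear h1 hval hπ π h
    revert w
    rw [hN]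
    intro w
    rw [ofFn_comp_finRotate, hrot, List.ofFn_succ]
    rfl
  · intro i hi w hw
    have hper : ∀ x y : Fin (p ^ n), y.val = (x.val + p ^ i) % p ^ n → w y = w x := by
      intro x y hy
      conv_rhs => rw [← hw, hπ]
      refine congrArg w (Fin.ext ?_)
      rw [hy, hval]
    obtain ⟨l, hl, hlw⟩ := ofFn_eq_flatten_of_periodic (M := p ^ (n - i))
      (by rw [← pow_add, Nat.sub_add_cancel hi]) (pow_pos (Fact.out : p.Prime).pos i)
      (pow_pos (Fact.out : p.Prime).pos _) w hper
    rw [hlw]
    exact h i hi l hl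

/-- Expansion of a power of a sum. -/
theorem sum_pow_eq_sum_words {S : Type*} [Semiring S] (x : α → S) (N : ℕ) :
    (∑ a, x a) ^ N = ∑ w : Fin N → α, ((List.ofFn w).map x).prod := by
  induction N with
  | zero => simp
  | succ N ih =>
    rw [pow_succ', ih, Finset.sum_mul_sum, ← Fintype.sum_prod_type']
    exact Fintype.sum_equiv (Fin.consEquiv fun _ => α) _ _ fun y => by simp [Fin.consEquiv]

end Words

section Congruence

variable {p : ℕ} [Fact p.Prime] {ι κ : Type*} [Fintype ι] [DecidableEq ι] [Fintype κ]
  [DecidableEq κ]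

theorem succ_le_prime_pow (d : ℕ) : d + 1 ≤ p ^ d :=
  Nat.lt_pow_self (Fact.out : p.Prime).one_lt

/-- Matrices congruent modulo `p` have congruent traces of `p ^ n`-th powers modulo
`p ^ (n + 1)`. -/
theorem trace_pow_congr (n : ℕ) {A B : Matrix ι ι ℤ}
    (h : A.map (Int.castRingHom (ZMod p)) = B.map (Int.castRingHom (ZMod p))) :
    ((A ^ p ^ n).trace : ZMod (p ^ (n + 1))) = ((B ^ p ^ n).trace : ZMod (p ^ (n + 1))) := by
  obtain ⟨C, hC⟩ : ∃ C : Matrix ι ι ℤ, A = B + (p : ℤ) • C := by
    have hd : ∀ i j, (p : ℤ) ∣ A i j - B i j := fun i j => by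
      rw [← ZMod.intCast_zmod_eq_zero_iff_dvd, Int.cast_sub, sub_eq_zero]
      exact congr_fun (congr_fun h i) j
    choose C hC using hd
    refine ⟨Matrix.of C, ?_⟩
    ext i j
    simp [← hC i j]
  let x : Bool → Matrix ι ι ℤ := fun b => if b then (p : ℤ) • C else B
  let T : List Bool → ZMod (p ^ (n + 1)) := fun l => ((l.map x).prod.trace : ZMod (p ^ (n + 1)))
  let f : List Bool → ZMod (p ^ (n + 1)) := fun l => if true ∈ l then T l else 0
  have hrot : ∀ l₁ l₂, f (l₁ ++ l₂) = f (l₂ ++ l₁) := by
    intro l₁ l₂
    simp only [f, T, List.mem_append, List.map_append, List.prod_append, or_comm]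
    rw [Matrix.trace_mul_comm]
  have hsum := sum_words_eq_zero (p := p) n f hrot (by
    intro i hi l hl
    have hpos : p ^ (n - i) ≠ 0 := (pow_pos (Fact.out : p.Prime).pos _).ne'
    by_cases ht : true ∈ l
    · have hmem : true ∈ (List.replicate (p ^ (n - i)) l).flatten :=
        List.mem_flatten.2 ⟨l, List.mem_replicate.2 ⟨hpos, rfl⟩, ht⟩
      obtain ⟨l₁, l₂, rfl⟩ := List.append_of_mem ht
      simp only [f, T, if_pos hmem]
      rw [List.map_flatten, List.map_replicate, List.prod_flatten, List.map_replicate,
        List.prod_replicate]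
      have : ((l₁ ++ true :: l₂).map x).prod
          = (p : ℤ) • ((l₁.map x).prod * (C * (l₂.map x).prod)) := by
        rw [List.map_append, List.map_cons, List.prod_append, List.prod_cons,
          show x true = (p : ℤ) • C from rfl, Matrix.smul_mul, Matrix.mul_smul]
      rw [this, _root_.smul_pow, Matrix.trace_smul, smul_eq_mul, Int.cast_mul, nsmul_eq_mul, ← mul_assoc]
      push_cast
      have hexp : n + 1 ≤ i + p ^ (n - i) := by
        have := succ_le_prime_pow (p := p) (n - i)
        omega
      rw [← pow_add, pow_eq_zero_of_le hexp, zero_mul]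
      exact_mod_cast ZMod.natCast_self (p ^ (n + 1))
    · have hmem : true ∉ (List.replicate (p ^ (n - i)) l).flatten := by
        simp only [List.mem_flatten, List.mem_replicate]
        rintro ⟨l', ⟨-, rfl⟩, h'⟩
        exact ht h'
      simp [f, hmem])
  have hA : A = ∑ b, x b := by rw [hC, Fintype.sum_bool]; simp [x, add_comm]
  rw [hA, sum_pow_eq_sum_words, Matrix.trace_sum, Int.cast_sum]
  have key : ∀ w : Fin (p ^ n) → Bool,
      (((List.ofFn w).map x).prod.trace : ZMod (p ^ (n + 1)))
        = f (List.ofFn w) + if w = (fun _ => false) then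
            ((B ^ p ^ n).trace : ZMod (p ^ (n + 1))) else 0 := by
    intro w
    by_cases hw : w = fun _ => false
    · subst hw
      have : true ∉ List.replicate (p ^ n) false := by simp [List.mem_replicate]
      simp [f, x, List.ofFn_const, this, List.map_replicate, List.prod_replicate]
    · have : true ∈ List.ofFn w := by
        rw [List.mem_ofFn']
        by_contra hne
        exact hw (funext fun j => by
          cases hj : w j
          · rfl
          · exact absurd ⟨j, hj⟩ hne)
      simp [f, T, this, hw]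
  simp only [key, Finset.sum_add_distrib, hsum, zero_add, Finset.sum_ite_eq', Finset.mem_univ,
    if_true]

/-- Traces of powers of a product do not depend on the order of the factors. -/
theorem trace_pow_mul_comm {R : Type*} [CommRing R] (U : Matrix ι κ R) (V : Matrix κ ι R) {N : ℕ}
    (hN : 0 < N) : ((U * V) ^ N).trace = ((V * U) ^ N).trace := by
  obtain ⟨N, rfl⟩ := Nat.exists_eq_succ_of_ne_zero hN.ne'
  have : ∀ j, (U * V) ^ j * U = U * (V * U) ^ j := by
    intro j
    induction j with
    | zero => simp
    | succ j ih => rw [pow_succ, pow_succ', Matrix.mul_assoc, Matrix.mul_assoc, ← Matrix.mul_assoc,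
        ih, Matrix.mul_assoc, pow_mul_comm']
  rw [pow_succ, ← Matrix.mul_assoc, this, Matrix.mul_assoc, Matrix.trace_mul_comm, pow_succ,
    Matrix.mul_assoc]

end Congruence

section Charpoly

variable {ι κ : Type*} [Fintype ι] [DecidableEq ι] [Fintype κ] [DecidableEq κ]

/-- The trace of a power is the power sum of the roots of the characteristic polynomial. -/
theorem trace_pow_eq_sum_roots (M : Matrix ι ι ℂ) {N : ℕ} (hN : 0 < N) :
    (M ^ N).trace = (M.charpoly.roots.map fun z => z ^ N).sum := by
  have hcard : M.charpoly.roots.card = Fintype.card ι := by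
    rw [← (IsAlgClosed.splits M.charpoly).natDegree_eq_card_roots,
      Matrix.charpoly_natDegree_eq_dim]
  have key : ∀ q : ℂ[X], (aeval M q).det = (M.charpoly.roots.map fun z => q.eval z).prod := by
    intro q
    have hq := (IsAlgClosed.splits q).eq_prod_roots
    rw [hq]
    generalize q.roots = s
    generalize q.leadingCoeff = c
    induction s using Multiset.induction_on with
    | empty => simp [Algebra.algebraMap_eq_smul_one, hcard]
    | cons μ s ih =>
      have hμ : (aeval M (X - C μ)).det = (M.charpoly.roots.map fun z => z - μ).prod := by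
        have h1 : aeval M (X - C μ) = -(Matrix.scalar ι μ - M) := by
          simp [Algebra.algebraMap_eq_smul_one, Matrix.smul_one_eq_diagonal]
        rw [h1, Matrix.det_neg, ← Matrix.eval_charpoly]
        conv_lhs => rw [(IsAlgClosed.splits M.charpoly).eq_prod_roots]
        rw [M.charpoly_monic.leadingCoeff, C_1, one_mul, eval_multiset_prod, Multiset.map_map,
          ← hcard, ← Multiset.prod_replicate, ← Multiset.map_const', ← Multiset.prod_map_mul]
        simp
      rw [Multiset.map_cons, Multiset.prod_cons, mul_left_comm, map_mul, Matrix.det_mul, ih, hμ,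
        ← Multiset.prod_map_mul]
      simp
  have hchar : (M ^ N).charpoly = ((M.charpoly.roots.map fun z => z ^ N).map fun z => X - C z).prod := by
    refine Polynomial.funext fun y => ?_
    rw [Matrix.eval_charpoly, eval_multiset_prod, Multiset.map_map, Multiset.map_map]
    have := key (C y - X ^ N)
    simp only [map_sub, aeval_C, map_pow, aeval_X, eval_sub, eval_C, eval_pow, eval_X] at this
    simpa [Algebra.algebraMap_eq_smul_one, Matrix.smul_one_eq_diagonal] using this
  rw [Matrix.trace_eq_sum_roots_charpoly, hchar, roots_multiset_prod_X_sub_C]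

/-- Integer matrices with the same characteristic polynomial have the same traces of powers. -/
theorem trace_pow_eq_of_charpoly_eq {A : Matrix ι ι ℤ} {B : Matrix κ κ ℤ}
    (h : A.charpoly = B.charpoly) {N : ℕ} (hN : 0 < N) : (A ^ N).trace = (B ^ N).trace := by
  apply Int.cast_injective (α := ℂ)
  show Int.castRingHom ℂ _ = Int.castRingHom ℂ _
  rw [AddMonoidHom.map_trace, AddMonoidHom.map_trace, Matrix.map_pow, Matrix.map_pow,
    trace_pow_eq_sum_roots _ hN, trace_pow_eq_sum_roots _ hN, Matrix.charpoly_map,
    Matrix.charpoly_map, h]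

variable {p : ℕ} [Fact p.Prime]

/-- Two monic integer polynomials of the same degree, congruent modulo `p`, are the
characteristic polynomials of matrices congruent modulo `p`. -/
theorem exists_companion {F G : ℤ[X]} (hF : F.Monic) (hG : G.Monic)
    (hdeg : F.natDegree = G.natDegree)
    (h : F.map (Int.castRingHom (ZMod p)) = G.map (Int.castRingHom (ZMod p))) :
    ∃ (d : ℕ) (CF CG : Matrix (Fin d) (Fin d) ℤ), CF.charpoly = F ∧ CG.charpoly = G ∧
      CF.map (Int.castRingHom (ZMod p)) = CG.map (Int.castRingHom (ZMod p)) := by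
  have hd : ∀ i, (p : ℤ) ∣ G.coeff i - F.coeff i := fun i => by
    rw [← ZMod.intCast_zmod_eq_zero_iff_dvd, Int.cast_sub, sub_eq_zero]
    have := congr_arg (fun P => Polynomial.coeff P i) h
    simpa using this.symm
  choose c hc using hd
  let H : ℤ[X] := ∑ i ∈ Finset.range F.natDegree, C (c i) * X ^ i
  have hH : G = F + C (p : ℤ) * H := by
    ext i
    simp only [H, coeff_add, coeff_C_mul, finsetSum_coeff, coeff_X_pow]
    rcases lt_or_ge i F.natDegree with hi | hi
    · rw [Finset.sum_eq_single i (fun b _ hb => by simp [Ne.symm hb])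
        (fun hn => absurd (Finset.mem_range.2 hi) hn)]
      simp [← hc i]
    · rw [Finset.sum_eq_zero fun b hb => by
        rw [if_neg, mul_zero]
        have := Finset.mem_range.1 hb
        omega]
      rw [mul_zero, add_zero]
      rcases eq_or_lt_of_le hi with heq | hgt
      · rw [← heq, hF.coeff_natDegree, hdeg, hG.coeff_natDegree]
      · rw [coeff_eq_zero_of_natDegree_lt hgt, coeff_eq_zero_of_natDegree_lt (hdeg ▸ hgt)]
  let P : (ℤ[X])[X] := F.map C + C X * H.map C
  have hlow : (C (X : ℤ[X]) * H.map C).degree < (F.map C).degree := by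
    rw [Polynomial.degree_map_eq_of_injective C_injective F, degree_C_mul X_ne_zero]
    refine lt_of_le_of_lt degree_map_le ?_
    rw [degree_eq_natDegree hF.ne_zero]
    refine lt_of_le_of_lt (degree_sum_le _ _) ((Finset.sup_lt_iff (WithBot.bot_lt_coe _)).2 ?_)
    intro i hi
    exact lt_of_le_of_lt (degree_C_mul_X_pow_le i _) (by exact_mod_cast Finset.mem_range.1 hi)
  have hP : P.Monic := (hF.map C).add_of_left hlow
  let pb := AdjoinRoot.powerBasis' hP
  let M := Algebra.leftMulMatrix pb.basis pb.gen
  have hM : M.charpoly = P := by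
    rw [charpoly_leftMulMatrix]
    exact (minpoly.unique' _ _ hP (by simp [pb, AdjoinRoot.aeval_eq]) fun q hq => by
      by_contra hne
      push Not at hne
      have := pb.dim_le_degree_of_root hne.1 hne.2
      rw [AdjoinRoot.powerBasis'_dim] at this
      exact absurd (lt_of_lt_of_le hq degree_le_natDegree) (not_lt.2 this)).symm
  have hev : ∀ a : ℤ, (evalRingHom a).comp C = RingHom.id ℤ := fun a => RingHom.ext_int _ _
  refine ⟨_, M.map (evalRingHom (0 : ℤ)), M.map (evalRingHom (p : ℤ)), ?_, ?_, ?_⟩
  · rw [Matrix.charpoly_map, hM]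
    simp [P, Polynomial.map_map, hev]
  · rw [Matrix.charpoly_map, hM, hH]
    simp [P, Polynomial.map_map, hev]
  · ext i j
    simp only [Matrix.map_apply, eq_intCast, coe_evalRingHom]
    rw [← sub_eq_zero, ← Int.cast_sub, ZMod.intCast_zmod_eq_zero_iff_dvd]
    exact dvd_sub_comm.1 (by simpa using (M i j).sub_dvd_eval_sub (p : ℤ) 0)

/-- Matrices with characteristic polynomials congruent modulo `p` have congruent traces of
`p ^ n`-th powers modulo `p ^ (n + 1)`. -/
theorem trace_pow_congr_of_charpoly (n : ℕ) {A : Matrix ι ι ℤ} {B : Matrix κ κ ℤ}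
    (h : (A.map (Int.castRingHom (ZMod p))).charpoly = (B.map (Int.castRingHom (ZMod p))).charpoly) :
    ((A ^ p ^ n).trace : ZMod (p ^ (n + 1))) = ((B ^ p ^ n).trace : ZMod (p ^ (n + 1))) := by
  have hdeg : A.charpoly.natDegree = B.charpoly.natDegree := by
    have := congr_arg Polynomial.natDegree h
    simpa [Matrix.charpoly_natDegree_eq_dim] using this
  rw [Matrix.charpoly_map, Matrix.charpoly_map] at h
  obtain ⟨d, CF, CG, hF, hG, hCC⟩ :=
    exists_companion A.charpoly_monic B.charpoly_monic hdeg h
  have hN : 0 < p ^ n := pow_pos (Fact.out : p.Prime).pos n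
  rw [← trace_pow_eq_of_charpoly_eq hF hN, ← trace_pow_eq_of_charpoly_eq hG hN]
  exact trace_pow_congr n hCC

end Charpoly

end Fermat.Agent.TW.RepAlgebra
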