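/-
The dimension of the invariants of a relatively projective module over `ZMod p` is determined by
traces of lifts of the elements of order prime to `p`, taken to a high power of `p`.
-/
import Fermat.Agent.TW.RepAlgebraTrace

set_option autoImplicit false

noncomputable section

namespace Fermat.Agent.TW.RepAlgebra

open Matrix
open scoped Kronecker

variable {G : Type*} [Group G] [Fintype G] [DecidableEq G]

/-- The left regular representation by permutation matrices. -/
def leftReg (R : Type*) [CommRing R] : G →* Matrix G G R where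
  toFun u := Matrix.of fun x y => if x = u * y then 1 else 0
  map_one' := by ext x y; simp [Matrix.one_apply]
  map_mul' u v := by ext x y; simp [Matrix.mul_apply, mul_assoc]

/-- The right regular representation by permutation matrices. -/
def rightReg (R : Type*) [CommRing R] : G →* Matrix G G R where
  toFun g := Matrix.of fun x y => if y = x * g then 1 else 0
  map_one' := by ext x y; simp [Matrix.one_apply, eq_comm]
  map_mul' u v := by
    ext x y
    simp only [Matrix.mul_apply, Matrix.of_apply]
    rw [Finset.sum_eq_single (x * u)]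
    · simp [mul_assoc]
    · intro b _ hb
      simp [hb]
    · simp

section

variable {R : Type*} [CommRing R]

theorem leftReg_apply (u x y : G) : leftReg R u x y = if x = u * y then 1 else 0 := rfl

theorem rightReg_apply (g x y : G) : rightReg R g x y = if y = x * g then 1 else 0 := rfl

theorem leftReg_commute_rightReg (u g : G) : Commute (leftReg R u) (rightReg R g) := by
  ext x y
  simp only [Matrix.mul_apply, leftReg_apply, rightReg_apply, ite_mul, one_mul, zero_mul]
  rw [Finset.sum_eq_single (u⁻¹ * x) (fun b _ hb => by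
      rw [if_neg]; intro h; exact hb (by rw [h, inv_mul_cancel_left]))
      (fun h => absurd (Finset.mem_univ _) h), Finset.sum_eq_single (x * g)
      (fun b _ hb => by rw [if_neg hb]) (fun h => absurd (Finset.mem_univ _) h)]
  simp [eq_inv_mul_iff_mul_eq, mul_assoc, eq_comm]

theorem trace_leftReg_mul_rightReg (u g : G) :
    (leftReg R u * rightReg R g).trace = ∑ x : G, if u = x * g * x⁻¹ then 1 else 0 := by
  simp only [Matrix.trace, Matrix.diag_apply, Matrix.mul_apply, leftReg_apply, rightReg_apply]
  refine Finset.sum_congr rfl fun x _ => ?_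
  rw [Finset.sum_eq_single (x * g⁻¹) (fun b _ hb => by
      rw [if_neg (fun h : x = b * g => hb (by rw [h, mul_inv_cancel_right])), mul_zero])
      (fun h => absurd (Finset.mem_univ _) h)]
  have h : x = u * (x * g⁻¹) ↔ u = x * g * x⁻¹ := by
    rw [← mul_inv_eq_iff_eq_mul, eq_comm]
    simp [mul_assoc]
  simp [h]

theorem leftReg_map {S : Type*} [CommRing S] (f : R →+* S) (u : G) :
    (leftReg R u).map f = leftReg S u := by
  ext x y
  simp only [Matrix.map_apply, leftReg_apply, apply_ite f, map_one, map_zero]

theorem rightReg_map {S : Type*} [CommRing S] (f : R →+* S) (u : G) :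
    (rightReg R u).map f = rightReg S u := by
  ext x y
  simp only [Matrix.map_apply, rightReg_apply, apply_ite f, map_one, map_zero]

end

section

variable {p : ℕ} {ι κ : Type*}

/-- A lift of a matrix over `ZMod p` to an integer matrix. -/
def intLift (M : Matrix ι κ (ZMod p)) : Matrix ι κ ℤ := M.map fun z => (z.val : ℤ)

theorem intLift_map [NeZero p] (M : Matrix ι κ (ZMod p)) :
    (intLift M).map (Int.castRingHom (ZMod p)) = M := by
  ext i j
  simp [intLift]

theorem cast_congr_of_le {n k : ℕ} {a b : ℤ} (hk : k ≤ n + 1)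
    (h : (a : ZMod (p ^ (n + 1))) = b) : (a : ZMod (p ^ k)) = b := by
  rw [ZMod.intCast_eq_intCast_iff_dvd_sub] at h ⊢
  refine dvd_trans ?_ h
  push_cast
  exact pow_dvd_pow _ hk

theorem pow_kronecker {R : Type*} [CommRing R] [Fintype ι] [DecidableEq ι] [Fintype κ]
    [DecidableEq κ] (A : Matrix ι ι R) (B : Matrix κ κ R) (N : ℕ) :
    (A ⊗ₖ B) ^ N = (A ^ N) ⊗ₖ (B ^ N) := by
  induction N with
  | zero => simp
  | succ N ih => rw [pow_succ, ih, ← Matrix.mul_kronecker_mul, ← pow_succ, ← pow_succ]

/-- The count of invariants through the traces on the elements of order prime to `p`. -/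
theorem card_mul_rank_eq_sum_trace [Fact p.Prime] [Fintype ι] [DecidableEq ι]
    (τ : G →* Matrix ι ι (ZMod p)) (θ : Matrix ι ι (ZMod p))
    (hθ : ∑ g, τ g⁻¹ * θ * τ g = 1) {r : ℕ} (U : Matrix ι (Fin r) (ZMod p))
    (V : Matrix (Fin r) ι (ZMod p)) (hUV : U * V = ∑ g, τ g * θ) (hVU : V * U = 1)
    (L : G → Matrix ι ι ℤ) (hL : ∀ g, (L g).map (Int.castRingHom (ZMod p)) = τ g)
    {n a k m : ℕ} (hG : Fintype.card G = p ^ a * m) (hm : m.Coprime p) (hk : k + a ≤ n)
    (hN : ∀ s : G, (orderOf s).Coprime p → s ^ p ^ n = s) :
    (((Fintype.card G * r : ℕ) : ℤ) : ZMod (p ^ k))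
      = ∑ s ∈ Finset.univ.filter (fun s : G => (orderOf s).Coprime p),
          (((L s) ^ p ^ n).trace : ZMod (p ^ k)) := by
  classical
  have hkn : k ≤ n + 1 := by omega
  have hNpos : 0 < p ^ n := pow_pos (Fact.out : p.Prime).pos n
  set π := Int.castRingHom (ZMod p)
  let A : G → Matrix ι ι ℤ := fun u => L u * intLift θ
  let x : G → Matrix (G × ι) (G × ι) ℤ := fun u => leftReg ℤ u ⊗ₖ A u
  let E : Matrix (G × ι) (G × ι) ℤ := ∑ u, x u
  let T : G → Matrix (G × ι) (G × ι) ℤ := fun g => rightReg ℤ g ⊗ₖ (1 : Matrix ι ι ℤ)
  -- the words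
  have hprod : ∀ l : List G, (l.map x).prod = leftReg ℤ l.prod ⊗ₖ (l.map A).prod := by
    intro l
    induction l with
    | nil => simp
    | cons u l ih => simp [ih, x, map_mul, Matrix.mul_kronecker_mul]
  have hexp : ∀ g, (E ^ p ^ n * T g).trace = ∑ w : Fin (p ^ n) → G,
      (leftReg ℤ (List.ofFn w).prod * rightReg ℤ g).trace * ((List.ofFn w).map A).prod.trace := by
    intro g
    simp only [E, sum_pow_eq_sum_words, Finset.sum_mul, Matrix.trace_sum, hprod, T,
      ← Matrix.mul_kronecker_mul, Matrix.trace_kronecker, mul_one]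
  -- the total sum
  have htotal : ∑ g, (E ^ p ^ n * T g).trace
      = (Fintype.card G : ℤ) * ((∑ u, A u) ^ p ^ n).trace := by
    simp only [hexp]
    rw [Finset.sum_comm, sum_pow_eq_sum_words, Matrix.trace_sum, Finset.mul_sum]
    refine Finset.sum_congr rfl fun w _ => ?_
    rw [← Finset.sum_mul]
    congr 1
    simp only [trace_leftReg_mul_rightReg]
    rw [Finset.sum_comm]
    have : ∀ y : G, (∑ g : G, if (List.ofFn w).prod = y * g * y⁻¹ then (1 : ℤ) else 0) = 1 := by
      intro y
      rw [Finset.sum_eq_single (y⁻¹ * (List.ofFn w).prod * y)]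
      · rw [if_pos]; group
      · intro b _ hb
        rw [if_neg]
        intro h
        exact hb (by rw [h]; group)
      · simp
    simp [this, Finset.card_univ]
  -- singular elements
  have hsing : ∀ g : G, ¬ (orderOf g).Coprime p →
      ((E ^ p ^ n * T g).trace : ZMod (p ^ k)) = 0 := by
    intro g hg
    rw [hexp, Int.cast_sum]
    refine sum_words_eq_zero (p := p) n
      (fun l => (((leftReg ℤ l.prod * rightReg ℤ g).trace * (l.map A).prod.trace : ℤ) :
        ZMod (p ^ k))) ?_ ?_
    · intro l₁ l₂
      simp only [List.prod_append, List.map_append, map_mul]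
      rw [Matrix.trace_mul_comm (l₁.map A).prod]
      congr 2
      rw [Matrix.mul_assoc, Matrix.trace_mul_comm (leftReg ℤ l₁.prod), Matrix.mul_assoc,
        ← (leftReg_commute_rightReg l₁.prod g).eq, ← Matrix.mul_assoc]
    · intro i hi l _
      rcases le_or_gt k i with hki | hki
      · rw [nsmul_eq_mul, (ZMod.natCast_eq_zero_iff _ _).2 (pow_dvd_pow p hki), zero_mul]
      · have hdiag : (leftReg ℤ (List.replicate (p ^ (n - i)) l).flatten.prod
            * rightReg ℤ g).trace = 0 := by
          rw [trace_leftReg_mul_rightReg]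
          refine Finset.sum_eq_zero fun y _ => if_neg fun h => hg ?_
          rw [List.prod_flatten, List.map_replicate, List.prod_replicate] at h
          have hdvd : orderOf (l.prod ^ p ^ (n - i)) ∣ m := by
            apply orderOf_dvd_of_pow_eq_one
            rw [← pow_mul]
            refine orderOf_dvd_iff_pow_eq_one.1 (orderOf_dvd_card.trans ?_)
            rw [hG]
            exact mul_dvd_mul_right (pow_dvd_pow p (by omega)) m
          rw [h] at hdvd
          have hconj : orderOf (y * g * y⁻¹) = orderOf g :=
            MulEquiv.orderOf_eq (MulAut.conj y) g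
          rw [hconj] at hdvd
          exact hm.coprime_dvd_left hdvd
        simp only [hdiag, zero_mul, Int.cast_zero, smul_zero]
  -- regular elements
  have hreg : ∀ s : G, (orderOf s).Coprime p →
      ((E ^ p ^ n * T s).trace : ZMod (p ^ k)) = (((L s) ^ p ^ n).trace : ZMod (p ^ k)) := by
    intro s hs
    refine cast_congr_of_le hkn ?_
    have hxT : ∀ u, Commute (x u) (T s) := fun u => by
      show _ * _ = _ * _
      simp only [x, T, ← Matrix.mul_kronecker_mul, (leftReg_commute_rightReg u s).eq, mul_one,
        one_mul]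
    have hc : Commute E (T s) := Commute.sum_left _ _ _ fun u _ => hxT u
    have hT : (T s) ^ p ^ n = T s := by
      simp only [T, pow_kronecker, one_pow, ← map_pow, hN s hs]
    have hpow : E ^ p ^ n * T s = (E * T s) ^ p ^ n := by rw [hc.mul_pow, hT]
    let J : Matrix (G × ι) ι (ZMod p) := Matrix.of fun y j => τ y.1 y.2 j
    let R : Matrix ι (G × ι) (ZMod p) := Matrix.of fun j y => (τ y.1⁻¹ * θ) j y.2
    have hJR : E.map π = J * R := by
      have h1 : E.map π = ∑ u, leftReg (ZMod p) u ⊗ₖ (τ u * θ) := by
        rw [show E.map π = π.mapMatrix E from rfl]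
        simp only [E, map_sum, RingHom.mapMatrix_apply]
        refine Finset.sum_congr rfl fun u _ => ?_
        ext ⟨y, i⟩ ⟨z, j⟩
        simp only [x, Matrix.map_apply, Matrix.kronecker_apply, map_mul]
        have hA : π (A u i j) = (τ u * θ) i j := by
          have : (A u).map π = τ u * θ := by
            rw [Matrix.map_mul, hL, intLift_map]
          exact congr_fun (congr_fun this i) j
        rw [hA, ← leftReg_map π u, Matrix.map_apply]
      rw [h1]
      ext ⟨y, i⟩ ⟨z, j⟩
      simp only [Matrix.sum_apply, Matrix.kronecker_apply, leftReg_apply]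
      rw [Finset.sum_eq_single (y * z⁻¹)]
      · rw [if_pos (inv_mul_cancel_right y z).symm, one_mul, map_mul, Matrix.mul_assoc,
          Matrix.mul_apply, Matrix.mul_apply]
        rfl
      · intro b _ hb
        rw [if_neg (fun h => hb (by rw [h, mul_inv_cancel_right])), zero_mul]
      · simp
    have hTJ : (T s).map π * J = J * τ s := by
      have h1 : (T s).map π = rightReg (ZMod p) s ⊗ₖ (1 : Matrix ι ι (ZMod p)) := by
        ext ⟨y, i⟩ ⟨z, j⟩
        simp only [T, Matrix.map_apply, Matrix.kronecker_apply, map_mul, Matrix.one_apply,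
          apply_ite π, map_one, map_zero]
        rw [← rightReg_map π s, Matrix.map_apply]
      rw [h1]
      ext ⟨y, i⟩ j
      simp only [Matrix.mul_apply, Fintype.sum_prod_type, Matrix.kronecker_apply, rightReg_apply,
        Matrix.one_apply, J, Matrix.of_apply, ite_mul, one_mul, zero_mul, Finset.sum_ite_eq,
        Finset.sum_ite_irrel, Finset.sum_const_zero, Finset.sum_ite_eq', Finset.mem_univ, if_true,
        map_mul]
    have hRJ : R * J = 1 := by
      rw [← hθ]
      ext i j
      simp only [R, J, Matrix.mul_apply, Fintype.sum_prod_type, Matrix.of_apply, Matrix.sum_apply]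
    have hmain : (E * T s).map π = J * (τ s * R) := by
      rw [hc.eq, Matrix.map_mul, hJR, ← Matrix.mul_assoc, hTJ, Matrix.mul_assoc]
    rw [hpow, trace_pow_congr n (B := intLift J * intLift (τ s * R))
        (by rw [Matrix.map_mul (L := intLift J), intLift_map, intLift_map, hmain]),
      trace_pow_mul_comm _ _ hNpos]
    exact trace_pow_congr n
      (by rw [Matrix.map_mul, intLift_map, intLift_map, Matrix.mul_assoc, hRJ, Matrix.mul_one, hL])
  -- the invariants
  have hinv : ((((∑ u, A u) ^ p ^ n).trace : ℤ) : ZMod (p ^ k)) = ((r : ℤ) : ZMod (p ^ k)) := by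
    refine cast_congr_of_le hkn ?_
    have h1 : (∑ u, A u).map π = U * V := by
      rw [show (∑ u, A u).map π = π.mapMatrix (∑ u, A u) from rfl, hUV, map_sum]
      exact Finset.sum_congr rfl fun u _ => by
        rw [RingHom.mapMatrix_apply, Matrix.map_mul, hL, intLift_map]
    rw [trace_pow_congr n (B := intLift U * intLift V)
        (by rw [Matrix.map_mul, intLift_map, intLift_map, h1]),
      trace_pow_mul_comm _ _ hNpos,
      trace_pow_congr n (B := (1 : Matrix (Fin r) (Fin r) ℤ))
        (by rw [Matrix.map_mul, intLift_map, intLift_map, hVU,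
          Matrix.map_one _ (map_zero _) (map_one _)])]
    simp
  calc (((Fintype.card G * r : ℕ) : ℤ) : ZMod (p ^ k))
      = ((Fintype.card G : ℤ) : ZMod (p ^ k)) * ((r : ℤ) : ZMod (p ^ k)) := by push_cast; ring
    _ = ((∑ g, (E ^ p ^ n * T g).trace : ℤ) : ZMod (p ^ k)) := by
        rw [htotal, Int.cast_mul, hinv]
    _ = _ := by
        rw [Int.cast_sum, Finset.sum_filter]
        refine Finset.sum_congr rfl fun g _ => ?_
        split_ifs with hg
        · exact hreg g hg
        · exact hsing g hg

end

end Fermat.Agent.TW.RepAlgebra
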