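/-
Intertwiners into modules with trivial `H¹` on a Sylow subgroup extend from stable subspaces.
-/
import Mathlib

set_option autoImplicit false

namespace Fermat.Agent.TW.RepAlgebra

open Module

variable {p : ℕ} [Fact p.Prime] {G : Type} [Group G] [Finite G]
variable {N Y : Type} [AddCommGroup N] [Module (ZMod p) N] [FiniteDimensional (ZMod p) N]
  [AddCommGroup Y] [Module (ZMod p) Y] [FiniteDimensional (ZMod p) Y]

/-- `H¹(P, Y) = 0`, with explicit cocycles. -/
def H1Trivial (σ : Representation (ZMod p) G Y) (P : Subgroup G) : Prop :=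
  ∀ c : P → Y, (∀ g h : P, c (g * h) = c g + σ g (c h)) → ∃ y, ∀ g : P, c g = σ g y - y

/-- The space of intertwiners. -/
def homG (ρ : Representation (ZMod p) G N) (σ : Representation (ZMod p) G Y) :
    Submodule (ZMod p) (N →ₗ[ZMod p] Y) where
  carrier := {f | ∀ g n, f (ρ g n) = σ g (f n)}
  add_mem' hf hf' g n := by simp [hf g n, hf' g n]
  zero_mem' g n := by simp
  smul_mem' t f hf g n := by simp [hf g n]

omit [Finite G] [FiniteDimensional (ZMod p) Y] in
/-- One step of the extension: equivariant maps for a `p`-group extend from a proper stable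
subspace to a larger one. -/
theorem exists_extend_step {P : Subgroup G} (hP : IsPGroup p P)
    {σ : Representation (ZMod p) G Y} (h : H1Trivial σ P)
    (ρ : Representation (ZMod p) G N) (B : Submodule (ZMod p) N) (hne : B ≠ ⊤)
    (hB : ∀ g : P, ∀ b ∈ B, ρ g b ∈ B) (f : N →ₗ[ZMod p] Y)
    (hf : ∀ g : P, ∀ b ∈ B, f (ρ g b) = σ g (f b)) :
    ∃ (B' : Submodule (ZMod p) N) (f' : N →ₗ[ZMod p] Y), B < B' ∧
      (∀ g : P, ∀ b ∈ B', ρ g b ∈ B') ∧ (∀ g : P, ∀ b ∈ B', f' (ρ g b) = σ g (f' b)) ∧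
      ∀ b ∈ B, f' b = f b := by
  classical
  have hNfin : Finite N := Module.finite_of_finite (ZMod p)
  -- `P` acts on the quotient by `B`
  have hinv : ∀ g : P, B ≤ B.comap (ρ g) := fun g b hb => hB g b hb
  let act : MulAction P (N ⧸ B) :=
    { smul := fun g x => B.mapQ B (ρ g) (hinv g) x
      one_smul := fun x => by
        induction x using Submodule.Quotient.induction_on with
        | _ n => show Submodule.Quotient.mk (ρ (1 : G) n) = _; simp
      mul_smul := fun g g' x => by
        induction x using Submodule.Quotient.induction_on with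
        | _ n =>
          show Submodule.Quotient.mk (ρ ((g : G) * g') n) = Submodule.Quotient.mk (ρ g (ρ g' n))
          simp }
  have : Nontrivial (N ⧸ B) := Submodule.Quotient.nontrivial_iff.2 hne
  have hdvd : p ∣ Nat.card (N ⧸ B) := by
    rw [Module.natCard_eq_pow_finrank (K := ZMod p), Nat.card_zmod]
    exact dvd_pow_self p Module.finrank_pos.ne'
  have h0 : (0 : N ⧸ B) ∈ MulAction.fixedPoints P (N ⧸ B) := fun g => map_zero _
  have : Finite (N ⧸ B) := Finite.of_surjective _ (Submodule.Quotient.mk_surjective B)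
  obtain ⟨x, hx, hx0⟩ := hP.exists_fixed_point_of_prime_dvd_card_of_fixed_point (N ⧸ B) hdvd h0
  obtain ⟨a, rfl⟩ := Submodule.Quotient.mk_surjective B x
  have ha : a ∉ B := fun hh => hx0 ((Submodule.Quotient.mk_eq_zero B).2 hh).symm
  have hga : ∀ g : P, ρ g a - a ∈ B := fun g => by
    rw [← Submodule.Quotient.eq]
    exact hx g
  -- the cocycle
  obtain ⟨y, hy⟩ := h (fun g => f (ρ g a - a)) (by
    intro g g'
    have : ρ ((g : G) * g') a - a = (ρ g a - a) + ρ g (ρ g' a - a) := by
      simp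
    simp only [Subgroup.coe_mul, this, map_add, hf g _ (hga g')])
  obtain ⟨l, hl0, hlB⟩ := Submodule.exists_le_ker_of_notMem ha
  have hlB' : ∀ b ∈ B, l b = 0 := fun b hb => hlB hb
  let f' : N →ₗ[ZMod p] Y := f + (l a)⁻¹ • (l.smulRight (y - f a))
  have hf'B : ∀ b ∈ B, f' b = f b := fun b hb => by simp [f', hlB' b hb]
  have hf'a : f' a = y := by
    simp [f', smul_smul, inv_mul_cancel₀ hl0]
  have hlt : B < B ⊔ Submodule.span (ZMod p) {a} := by
    refine lt_of_le_of_ne le_sup_left fun heq => ha ?_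
    rw [heq]
    exact Submodule.mem_sup_right (Submodule.mem_span_singleton_self a)
  refine ⟨B ⊔ Submodule.span (ZMod p) {a}, f', hlt, ?_, ?_, hf'B⟩
  · intro g m hm
    obtain ⟨b, hb, z, hz, rfl⟩ := Submodule.mem_sup.1 hm
    obtain ⟨t, rfl⟩ := Submodule.mem_span_singleton.1 hz
    have : ρ g (b + t • a) = (ρ g b + t • (ρ g a - a)) + t • a := by
      simp [smul_sub]; abel
    rw [this]
    exact Submodule.add_mem_sup (add_mem (hB g b hb) (Submodule.smul_mem _ _ (hga g)))
      (Submodule.smul_mem _ _ (Submodule.mem_span_singleton_self a))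
  · intro g m hm
    obtain ⟨b, hb, z, hz, rfl⟩ := Submodule.mem_sup.1 hm
    obtain ⟨t, rfl⟩ := Submodule.mem_span_singleton.1 hz
    have h1 : f' (ρ g a) = σ g y := by
      have := hf'B _ (hga g)
      rw [map_sub, hf'a, hy g] at this
      simpa using this
    simp [hf'a, h1, hf'B b hb, hf'B _ (hB g b hb), hf g b hb]

omit [Finite G] [FiniteDimensional (ZMod p) Y] in
/-- Equivariant maps for a `p`-group extend from stable subspaces. -/
theorem exists_extend_pGroup {P : Subgroup G} (hP : IsPGroup p P)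
    {σ : Representation (ZMod p) G Y} (h : H1Trivial σ P)
    (ρ : Representation (ZMod p) G N) (B : Submodule (ZMod p) N)
    (hB : ∀ g : P, ∀ b ∈ B, ρ g b ∈ B) (f : N →ₗ[ZMod p] Y)
    (hf : ∀ g : P, ∀ b ∈ B, f (ρ g b) = σ g (f b)) :
    ∃ F : N →ₗ[ZMod p] Y, (∀ g : P, ∀ n, F (ρ g n) = σ g (F n)) ∧ ∀ b ∈ B, F b = f b := by
  induction B using WellFoundedGT.induction generalizing f with
  | _ B ih =>
    by_cases hne : B = ⊤
    · subst hne
      exact ⟨f, fun g n => hf g n trivial, fun b _ => rfl⟩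
    obtain ⟨B', f', hlt, hB', hf', hff⟩ := exists_extend_step hP h ρ B hne hB f hf
    obtain ⟨F, hF, hFB⟩ := ih B' hlt hB' f' hf'
    exact ⟨F, hF, fun b hb => by rw [hFB b (hlt.le hb), hff b hb]⟩

omit [FiniteDimensional (ZMod p) Y] in
/-- Intertwiners into `Y` extend from stable subspaces, if `Y` has trivial `H¹` on a Sylow
`p`-subgroup. -/
theorem exists_extend (P : Sylow p G) {σ : Representation (ZMod p) G Y}
    (h : H1Trivial σ P) (ρ : Representation (ZMod p) G N) (B : Submodule (ZMod p) N)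
    (hB : ∀ g, ∀ b ∈ B, ρ g b ∈ B) (f : B →ₗ[ZMod p] Y)
    (hf : ∀ g (b : B), f ⟨ρ g b, hB g b b.2⟩ = σ g (f b)) :
    ∃ F : N →ₗ[ZMod p] Y, (∀ g n, F (ρ g n) = σ g (F n)) ∧ ∀ b : B, F b = f b := by
  classical
  obtain ⟨f₀, hf₀⟩ := f.exists_extend
  have hf₀' : ∀ b : B, f₀ b = f b := fun b => LinearMap.congr_fun hf₀ b
  obtain ⟨F, hF, hFB⟩ := exists_extend_pGroup P.isPGroup' h ρ B (fun g => hB g) f₀ (by
    intro g b hb
    have := hf g ⟨b, hb⟩
    rw [← hf₀', ← hf₀'] at this
    exact this)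
  -- averaging over the cosets
  let T : G ⧸ (P : Subgroup G) → (N →ₗ[ZMod p] Y) :=
    Quotient.lift (fun g : G => σ g ∘ₗ F ∘ₗ ρ g⁻¹) (fun g g' hgg => by
      obtain ⟨x, rfl⟩ : ∃ x : P, g' = g * x :=
        ⟨⟨g⁻¹ * g', QuotientGroup.leftRel_apply.1 hgg⟩, by simp⟩
      ext n
      have := hF x (ρ ((x : G)⁻¹) (ρ g⁻¹ n))
      simp only [LinearMap.comp_apply, mul_inv_rev, map_mul, Module.End.mul_apply]
      rw [← this, ← Module.End.mul_apply (ρ (x : G)), ← map_mul, mul_inv_cancel, map_one,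
        Module.End.one_apply])
  have hT : ∀ (g : G) (q : G ⧸ (P : Subgroup G)) (n : N), T (g • q) (ρ g n) = σ g (T q n) := by
    intro g q n
    induction q using Quotient.inductionOn with
    | _ x =>
      show σ (g * x) (F (ρ (g * x)⁻¹ (ρ g n))) = σ g (σ x (F (ρ x⁻¹ n)))
      simp
  let _ := Fintype.ofFinite (G ⧸ (P : Subgroup G))
  have hidx : ((Fintype.card (G ⧸ (P : Subgroup G)) : ℕ) : ZMod p) ≠ 0 := by
    rw [Fintype.card_eq_nat_card, Ne, ZMod.natCast_eq_zero_iff]
    exact P.not_dvd_index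
  refine ⟨(Fintype.card (G ⧸ (P : Subgroup G)) : ZMod p)⁻¹ • ∑ q, T q, ?_, ?_⟩
  · intro g n
    simp only [LinearMap.smul_apply, LinearMap.sum_apply, map_smul, map_sum]
    congr 1
    rw [← Equiv.sum_comp (MulAction.toPerm g)]
    exact Finset.sum_congr rfl fun q _ => hT g q n
  · intro b
    have hTb : ∀ q, T q b = f b := by
      intro q
      induction q using Quotient.inductionOn with
      | _ x =>
        show σ x (F (ρ x⁻¹ b)) = f b
        have hb' := hf x ⟨ρ x⁻¹ b, hB _ b b.2⟩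
        rw [← hf₀' ⟨ρ x⁻¹ b, hB _ b b.2⟩] at hb'
        rw [hFB _ (hB _ b b.2), ← hb']
        congr 1
        ext
        simp
    simp only [LinearMap.smul_apply, LinearMap.sum_apply, hTb, Finset.sum_const, Finset.card_univ]
    rw [← Nat.cast_smul_eq_nsmul (ZMod p), smul_smul, inv_mul_cancel₀ hidx, one_smul]

end Fermat.Agent.TW.RepAlgebra
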