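/-
For modules with trivial `H¹` on a Sylow subgroup, `dim Hom_G(N, -)` only depends on the
characteristic polynomials of the elements of order prime to `p`.
-/
import Fermat.Agent.TW.RepAlgebraExtend
import Fermat.Agent.TW.RepAlgebraCount

set_option autoImplicit false

noncomputable section

namespace Fermat.Agent.TW.RepAlgebra

open Module
open scoped Kronecker

variable {p : ℕ} [Fact p.Prime] {G : Type} [Group G] [Fintype G] [DecidableEq G]
variable {N Y : Type} [AddCommGroup N] [Module (ZMod p) N] [FiniteDimensional (ZMod p) N]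
  [AddCommGroup Y] [Module (ZMod p) Y] [FiniteDimensional (ZMod p) Y]

/-- Right translations on functions on the group. -/
def translRep (p : ℕ) (G Y : Type) [Group G] [AddCommGroup Y] [Module (ZMod p) Y] :
    Representation (ZMod p) G (G → Y) where
  toFun g := LinearMap.funLeft (ZMod p) Y fun x => x * g
  map_one' := by ext φ x; simp
  map_mul' g h := by ext φ x; simp [mul_assoc]

/-- Trivial `H¹` on a Sylow subgroup gives Higman's criterion. -/
theorem exists_higman (P : Sylow p G) {σ : Representation (ZMod p) G Y} (h : H1Trivial σ P) :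
    ∃ θ : Y →ₗ[ZMod p] Y, ∑ g : G, σ g⁻¹ * θ * σ g = 1 := by
  let emb : Y →ₗ[ZMod p] (G → Y) := LinearMap.pi fun x => σ x
  have hinj : Function.Injective emb := fun y z hyz => by
    have := congr_fun hyz 1
    simpa [emb] using this
  let e := LinearEquiv.ofInjective emb hinj
  have hemb : ∀ g y, translRep p G Y g (emb y) = emb (σ g y) := by
    intro g y
    ext x
    simp [translRep, emb, LinearMap.funLeft_apply]
  have hB : ∀ g, ∀ b ∈ LinearMap.range emb, translRep p G Y g b ∈ LinearMap.range emb := by
    rintro g b ⟨y, rfl⟩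
    exact ⟨σ g y, (hemb g y).symm⟩
  obtain ⟨F, hF, hFB⟩ := exists_extend P h (translRep p G Y) (LinearMap.range emb) hB
    e.symm.toLinearMap (by
      rintro g ⟨b, y, rfl⟩
      have h1 : (⟨translRep p G Y g (emb y), hB g _ ⟨y, rfl⟩⟩ : LinearMap.range emb)
          = e (σ g y) := by
        ext1
        exact hemb g y
      have h2 : (⟨emb y, ⟨y, rfl⟩⟩ : LinearMap.range emb) = e y := by
        ext1
        rfl
      simp only [LinearEquiv.coe_coe]
      rw [h1, h2, LinearEquiv.symm_apply_apply, LinearEquiv.symm_apply_apply])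
  refine ⟨F ∘ₗ LinearMap.single (ZMod p) (fun _ : G => Y) 1, ?_⟩
  ext y
  simp only [LinearMap.sum_apply, Module.End.mul_apply, LinearMap.comp_apply, Module.End.one_apply]
  calc ∑ g : G, σ g⁻¹ (F (LinearMap.single (ZMod p) (fun _ : G => Y) 1 (σ g y)))
      = F (∑ g : G, translRep p G Y g⁻¹ (LinearMap.single (ZMod p) (fun _ : G => Y) 1 (σ g y))) := by
        rw [map_sum]
        simp only [hF]
    _ = F (emb y) := by
        congr 1
        funext x
        rw [Finset.sum_apply, Finset.sum_eq_single x]
        · simp [translRep, emb, LinearMap.funLeft_apply]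
        · intro g _ hg
          simp only [translRep, MonoidHom.coe_mk, OneHom.coe_mk, LinearMap.funLeft_apply,
            LinearMap.coe_single]
          rw [Pi.single_eq_of_ne]
          intro h1
          exact hg (mul_inv_eq_one.1 h1).symm
        · simp
    _ = y := by
        rw [← e.symm_apply_apply y]
        simpa [e] using hFB (e y)

/-- The dimension of the intertwiners, counted by traces of lifts. -/
theorem card_mul_finrank_homG (P : Sylow p G) {σ : Representation (ZMod p) G Y}
    (h : H1Trivial σ P) (ρ : Representation (ZMod p) G N) {dY dN : ℕ}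
    (bY : Basis (Fin dY) (ZMod p) Y) (bN : Basis (Fin dN) (ZMod p) N)
    {n a k m : ℕ} (hG : Fintype.card G = p ^ a * m) (hm : m.Coprime p) (hk : k + a ≤ n)
    (hN : ∀ s : G, (orderOf s).Coprime p → s ^ p ^ n = s) :
    (((Fintype.card G * finrank (ZMod p) (homG ρ σ) : ℕ) : ℤ) : ZMod (p ^ k))
      = ∑ s ∈ Finset.univ.filter (fun s : G => (orderOf s).Coprime p),
          ((((intLift (LinearMap.toMatrix bY bY (σ s))) ^ p ^ n).trace *
            ((intLift (LinearMap.toMatrix bN bN (ρ s⁻¹))) ^ p ^ n).trace : ℤ) : ZMod (p ^ k)) := by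
  classical
  obtain ⟨θ, hθ⟩ := exists_higman P h
  let lin := Representation.linHom ρ σ
  let θW : Module.End (ZMod p) (N →ₗ[ZMod p] Y) := LinearMap.llcomp (ZMod p) N Y Y θ
  have hlin : ∀ g f v, lin g f v = σ g (f (ρ g⁻¹ v)) := fun g f v => rfl
  have hθW : ∑ g : G, lin g⁻¹ * θW * lin g = 1 := by
    ext f v
    simp only [LinearMap.sum_apply, Module.End.mul_apply, Module.End.one_apply, θW,
      LinearMap.llcomp_apply, hlin, inv_inv]
    have := LinearMap.congr_fun hθ (f v)
    simp only [LinearMap.sum_apply, Module.End.mul_apply, Module.End.one_apply] at this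
    rw [← this]
    refine Finset.sum_congr rfl fun g _ => ?_
    rw [← Module.End.mul_apply (ρ g⁻¹) (ρ g), ← map_mul, inv_mul_cancel, map_one,
      Module.End.one_apply]
  let av : Module.End (ZMod p) (N →ₗ[ZMod p] Y) := ∑ g : G, lin g * θW
  have hmem : ∀ f, f ∈ homG ρ σ ↔ ∀ g, lin g f = f := by
    intro f
    constructor
    · intro hf g
      ext v
      rw [hlin, ← hf g, ← Module.End.mul_apply (ρ g), ← map_mul, mul_inv_cancel, map_one,
        Module.End.one_apply]
    · intro hf g v
      have := LinearMap.congr_fun (hf g) (ρ g v)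
      rw [hlin, ← Module.End.mul_apply (ρ g⁻¹), ← map_mul, inv_mul_cancel, map_one,
        Module.End.one_apply] at this
      exact this.symm
  have hav : ∀ f, av f ∈ homG ρ σ := by
    intro f
    rw [hmem]
    intro g
    simp only [av, LinearMap.sum_apply, map_sum, Module.End.mul_apply]
    rw [← Equiv.sum_comp (Equiv.mulLeft g) fun x => lin x (θW f)]
    refine Finset.sum_congr rfl fun x _ => ?_
    simp
  have hid : ∀ f ∈ homG ρ σ, av f = f := by
    intro f hf
    have := LinearMap.congr_fun hθW f
    simp only [LinearMap.sum_apply, Module.End.mul_apply, Module.End.one_apply,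
      fun g => (hmem f).1 hf g] at this
    simp only [av, LinearMap.sum_apply, Module.End.mul_apply]
    rw [← Equiv.sum_comp (Equiv.inv G) fun x => lin x (θW f)]
    exact this
  let bW : Basis (Fin dY × Fin dN) (ZMod p) (N →ₗ[ZMod p] Y) :=
    (Matrix.stdBasis (ZMod p) (Fin dY) (Fin dN)).map (LinearMap.toMatrix bN bY).symm
  let τ : G →* Matrix (Fin dY × Fin dN) (Fin dY × Fin dN) (ZMod p) :=
    ((LinearMap.toMatrixAlgEquiv bW).toRingEquiv.toMonoidHom).comp lin
  have hτ : ∀ g, τ g
      = (LinearMap.toMatrix bY bY (σ g)) ⊗ₖ (LinearMap.toMatrix bN bN (ρ g⁻¹)).transpose := by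
    intro g
    ext ⟨i, j⟩ ⟨i', j'⟩
    show LinearMap.toMatrix bW bW (lin g) (i, j) (i', j') = _
    rw [LinearMap.toMatrix_apply]
    simp only [bW, Basis.map_apply, Basis.map_repr, LinearEquiv.trans_apply,
      LinearEquiv.symm_symm, Matrix.stdBasis_eq_single]
    have : lin g ((LinearMap.toMatrix bN bY).symm (Matrix.single i' j' 1))
        = σ g ∘ₗ (LinearMap.toMatrix bN bY).symm (Matrix.single i' j' 1) ∘ₗ ρ g⁻¹ := rfl
    rw [this, LinearMap.toMatrix_comp bN bY bY, LinearMap.toMatrix_comp bN bN bY,
      LinearEquiv.apply_symm_apply]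
    have hrep : ∀ M : Matrix (Fin dY) (Fin dN) (ZMod p),
        (Matrix.stdBasis (ZMod p) (Fin dY) (Fin dN)).repr M (i, j) = M i j := fun M => by
      simp [Matrix.stdBasis]
    rw [hrep, Matrix.kronecker_apply, Matrix.transpose_apply, Matrix.mul_apply,
      Finset.sum_eq_single i', Matrix.mul_apply, Finset.sum_eq_single j']
    · simp
    all_goals simp +contextual [Matrix.mul_apply, Matrix.single_apply, eq_comm]
  let bI := Module.finBasis (ZMod p) (homG ρ σ)
  have key := card_mul_rank_eq_sum_trace τ (LinearMap.toMatrix bW bW θW)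
    (by
      have := congr_arg (LinearMap.toMatrixAlgEquiv bW) hθW
      simp only [map_sum, map_mul, map_one] at this
      exact this)
    (LinearMap.toMatrix bI bW (homG ρ σ).subtype)
    (LinearMap.toMatrix bW bI (av.codRestrict (homG ρ σ) hav))
    (by
      rw [← LinearMap.toMatrix_comp bW bI bW, LinearMap.subtype_comp_codRestrict]
      simp only [av, map_sum]
      exact Finset.sum_congr rfl fun g _ => LinearMap.toMatrix_mul bW _ _)
    (by
      rw [← LinearMap.toMatrix_comp bI bW bI, ← LinearMap.toMatrix_id bI]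
      congr 1
      ext f : 2
      exact hid f f.2)
    (fun g => intLift (LinearMap.toMatrix bY bY (σ g))
      ⊗ₖ (intLift (LinearMap.toMatrix bN bN (ρ g⁻¹))).transpose)
    (fun g => by
      rw [hτ]
      ext ⟨i, j⟩ ⟨i', j'⟩
      simp [intLift])
    hG hm hk hN
  rw [key]
  refine Finset.sum_congr rfl fun s _ => ?_
  rw [pow_kronecker, Matrix.trace_kronecker, ← Matrix.transpose_pow, Matrix.trace_transpose]

omit [Fintype G] [DecidableEq G] in
/-- For modules with trivial `H¹` on a Sylow subgroup, `dim Hom_G(N, -)` only depends on the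
characteristic polynomials of the elements of order prime to `p`. -/
theorem finrank_homG_eq [Finite G] {Y' : Type} [AddCommGroup Y'] [Module (ZMod p) Y']
    [FiniteDimensional (ZMod p) Y'] (P : Sylow p G) {σ : Representation (ZMod p) G Y}
    {σ' : Representation (ZMod p) G Y'} (h : H1Trivial σ P) (h' : H1Trivial σ' P)
    (hcp : ∀ g : G, (orderOf g).Coprime p →
      LinearMap.charpoly (σ g) = LinearMap.charpoly (σ' g))
    (ρ : Representation (ZMod p) G N) :
    finrank (ZMod p) (homG ρ σ) = finrank (ZMod p) (homG ρ σ') := by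
  classical
  let _ := Fintype.ofFinite G
  have hp : p.Prime := Fact.out
  set r := finrank (ZMod p) (homG ρ σ)
  set r' := finrank (ZMod p) (homG ρ σ')
  obtain ⟨a, m, hm, hG⟩ := Nat.exists_eq_pow_mul_and_not_dvd (Fintype.card_ne_zero (α := G)) p
    hp.ne_one
  have hmc : m.Coprime p := ((Nat.Prime.coprime_iff_not_dvd hp).2 hm).symm
  have hm0 : 0 < m := Nat.pos_of_ne_zero fun h0 => hm (h0 ▸ dvd_zero p)
  set k := Fintype.card G * (r + r') + 1 with hk_def
  set n := Nat.totient m * (k + a)
  have hkn : k + a ≤ n := Nat.le_mul_of_pos_left _ (Nat.totient_pos.2 hm0)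
  have hN : ∀ s : G, (orderOf s).Coprime p → s ^ p ^ n = s := by
    intro s hs
    have hsm : orderOf s ∣ m :=
      (Nat.Coprime.pow_right a hs).dvd_of_dvd_mul_left (hG ▸ orderOf_dvd_card)
    conv_rhs => rw [← pow_one s]
    rw [pow_eq_pow_iff_modEq]
    refine Nat.ModEq.of_dvd hsm ?_
    have := (Nat.ModEq.pow_totient hmc.symm).pow (k + a)
    rwa [one_pow, ← pow_mul] at this
  have e := card_mul_finrank_homG P h ρ (finBasis (ZMod p) Y) (finBasis (ZMod p) N) hG hmc hkn hN
  have e' := card_mul_finrank_homG P h' ρ (finBasis (ZMod p) Y') (finBasis (ZMod p) N) hG hmc hkn hN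
  have hsum : (((Fintype.card G * r : ℕ) : ℤ) : ZMod (p ^ k))
      = (((Fintype.card G * r' : ℕ) : ℤ) : ZMod (p ^ k)) := by
    rw [e, e']
    refine Finset.sum_congr rfl fun s hs => ?_
    rw [Int.cast_mul, Int.cast_mul]
    congr 1
    refine cast_congr_of_le (n := n) (by omega) (trace_pow_congr_of_charpoly n ?_)
    rw [intLift_map, intLift_map, LinearMap.charpoly_toMatrix, LinearMap.charpoly_toMatrix]
    exact hcp s (Finset.mem_filter.1 hs).2
  simp only [Int.cast_natCast, ZMod.natCast_eq_natCast_iff'] at hsum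
  have hbig : k < p ^ k := Nat.lt_pow_self hp.one_lt
  rw [Nat.mod_eq_of_lt (by rw [hk_def, Nat.mul_add] at hbig ⊢; omega),
    Nat.mod_eq_of_lt (by rw [hk_def, Nat.mul_add] at hbig ⊢; omega)] at hsum
  exact Nat.eq_of_mul_eq_mul_left Fintype.card_pos hsum

end Fermat.Agent.TW.RepAlgebra
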