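/-
Characteristic polynomials in short exact sequences, and of automorphisms of finite order of
lattices in terms of the ranks of the fixed sublattices of their powers.
-/
import Mathlib

set_option autoImplicit false

noncomputable section

namespace Fermat.Agent.TW.RepAlgebra

open Module Polynomial

/-- The characteristic polynomial is multiplicative in short exact sequences. -/
theorem charpoly_eq_mul_of_exact {K A B C : Type*} [Field K] [AddCommGroup A] [Module K A]
    [FiniteDimensional K A] [AddCommGroup B] [Module K B] [FiniteDimensional K B]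
    [AddCommGroup C] [Module K C] [FiniteDimensional K C]
    (i : A →ₗ[K] B) (q : B →ₗ[K] C) (hi : Function.Injective i) (hq : Function.Surjective q)
    (hiq : LinearMap.range i = LinearMap.ker q)
    (a : A →ₗ[K] A) (b : B →ₗ[K] B) (c : C →ₗ[K] C)
    (ha : b ∘ₗ i = i ∘ₗ a) (hc : c ∘ₗ q = q ∘ₗ b) :
    LinearMap.charpoly b = LinearMap.charpoly a * LinearMap.charpoly c := by
  obtain ⟨s, hs⟩ := q.exists_rightInverse_of_surjective (LinearMap.range_eq_top.2 hq)
  have hqs : ∀ x, q (s x) = x := fun x => LinearMap.congr_fun hs x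
  have hqi : ∀ x, q (i x) = 0 := fun x =>
    LinearMap.mem_ker.1 (hiq ▸ LinearMap.mem_range_self i x)
  have hbij : Function.Bijective (i.coprod s) := by
    constructor
    · rintro ⟨x, y⟩ ⟨x', y'⟩ hxy
      simp only [LinearMap.coprod_apply] at hxy
      have hy : y = y' := by simpa [hqi, hqs] using congr_arg q hxy
      subst hy
      rw [add_left_inj] at hxy
      rw [hi hxy]
    · intro v
      have : v - s (q v) ∈ LinearMap.range i := by
        rw [hiq, LinearMap.mem_ker, map_sub, hqs, sub_self]
      obtain ⟨x, hx⟩ := this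
      exact ⟨(x, q v), by simp [hx]⟩
  let e : (A × C) ≃ₗ[K] B := LinearEquiv.ofBijective (i.coprod s) hbij
  let bA := Module.finBasis K A
  let bC := Module.finBasis K C
  let bB := (bA.prod bC).map e
  rw [← LinearMap.charpoly_toMatrix b bB, ← LinearMap.charpoly_toMatrix a bA,
    ← LinearMap.charpoly_toMatrix c bC]
  have hrepr : ∀ x y, bB.repr (i x + s y) = (bA.prod bC).repr (x, y) := by
    intro x y
    have : i x + s y = e (x, y) := by simp [e]
    rw [this]
    simp [bB]
  have hdec : ∀ v, v = i ((e.symm v).1) + s ((e.symm v).2) := by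
    intro v
    conv_lhs => rw [← e.apply_symm_apply v]
    rfl
  have hsnd : ∀ v, (e.symm v).2 = q v := by
    intro v
    conv_rhs => rw [hdec v]
    simp [hqi, hqs]
  have hfst : ∀ x, (e.symm (i x)).1 = x := by
    intro x
    have : i x = e (x, 0) := by simp [e]
    rw [this, e.symm_apply_apply]
  have hblock : LinearMap.toMatrix bB bB b = Matrix.fromBlocks (LinearMap.toMatrix bA bA a)
      (Matrix.of fun j k => bA.repr (e.symm (b (s (bC k)))).1 j) 0
      (LinearMap.toMatrix bC bC c) := by
    have hA : ∀ k, b (bB (Sum.inl k)) = i (a (bA k)) := by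
      intro k
      have : bB (Sum.inl k) = i (bA k) := by simp [bB, e]
      rw [this]
      exact LinearMap.congr_fun ha (bA k)
    have hC : ∀ k, bB (Sum.inr k) = s (bC k) := fun k => by simp [bB, e]
    ext (j | j) (k | k)
    · rw [LinearMap.toMatrix_apply, hA, hdec (i (a (bA k))), hrepr]
      simp [hfst, LinearMap.toMatrix_apply]
    · rw [LinearMap.toMatrix_apply, hC, hdec (b (s (bC k))), hrepr]
      simp [← hdec]
    · rw [LinearMap.toMatrix_apply, hA, hdec (i (a (bA k))), hrepr]
      simp [hsnd, hqi]
    · rw [LinearMap.toMatrix_apply, hC, hdec (b (s (bC k))), hrepr]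
      have := LinearMap.congr_fun hc (s (bC k))
      simp only [LinearMap.comp_apply, hqs] at this
      simp [← hdec, hsnd, LinearMap.toMatrix_apply, this]
  rw [hblock, Matrix.charpoly_fromBlocks_zero₂₁]

/-- A monic polynomial all of whose roots are roots of a monic irreducible `Φ` is a power
of `Φ`. -/
theorem eq_pow_of_forall_isRoot {Φ : ℚ[X]} (hΦ : Φ.Monic) (hirr : Irreducible Φ) {P : ℚ[X]}
    (hP : P.Monic) (h : ∀ μ : AlgebraicClosure ℚ, aeval μ P = 0 → aeval μ Φ = 0) :
    ∃ c, P = Φ ^ c := by
  induction hd : P.natDegree using Nat.strong_induction_on generalizing P with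
  | _ d ih =>
    by_cases h0 : P.natDegree = 0
    · exact ⟨0, by rw [pow_zero, hP.natDegree_eq_zero.1 h0]⟩
    obtain ⟨μ, hμ⟩ := IsAlgClosed.exists_aeval_eq_zero (AlgebraicClosure ℚ) P (fun hdeg =>
      h0 (natDegree_eq_of_degree_eq_some hdeg))
    have hmin : Φ = minpoly ℚ μ := minpoly.eq_of_irreducible_of_monic hirr (h μ hμ) hΦ
    obtain ⟨P', rfl⟩ : Φ ∣ P := hmin ▸ minpoly.dvd ℚ μ hμ
    have hP' : P'.Monic := hΦ.of_mul_monic_left hP
    have hlt : P'.natDegree < d := by
      rw [← hd, hΦ.natDegree_mul hP']
      have := hirr.natDegree_pos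
      omega
    obtain ⟨c, hc⟩ := ih _ hlt hP' (fun ν hν => h ν (by simp [hν])) rfl
    exact ⟨c + 1, by rw [hc, pow_succ']⟩

universe u

/-- The dimension of the kernel of a product of pairwise coprime polynomials. -/
theorem finrank_ker_aeval_prod {V : Type u} [AddCommGroup V] [Module ℚ V] [FiniteDimensional ℚ V]
    (f : Module.End ℚ V) (s : Finset ℕ) :
    finrank ℚ (LinearMap.ker (aeval f (∏ e ∈ s, cyclotomic e ℚ)))
      = ∑ e ∈ s, finrank ℚ (LinearMap.ker (aeval f (cyclotomic e ℚ))) := by
  classical
  induction s using Finset.induction_on with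
  | empty => rw [Finset.prod_empty, Finset.sum_empty, map_one, Module.End.one_eq_id, LinearMap.ker_id,
      finrank_bot]
  | insert e s he ih =>
    have hcop : IsCoprime (cyclotomic e ℚ) (∏ x ∈ s, cyclotomic x ℚ) :=
      IsCoprime.prod_right fun x hx =>
        Polynomial.cyclotomic.isCoprime_rat fun hex : e = x => he (hex ▸ hx)
    rw [Finset.prod_insert he, Finset.sum_insert he, ← ih,
      ← Polynomial.sup_ker_aeval_eq_ker_aeval_mul_of_coprime f hcop,
      ← Submodule.finrank_sup_add_finrank_inf_eq,
      (Polynomial.disjoint_ker_aeval_of_isCoprime f hcop).eq_bot, finrank_bot, add_zero]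

/-- Restriction to a stable subspace and evaluation of polynomials. -/
theorem aeval_restrict {K : Type*} [Field K] {V : Type u} [AddCommGroup V] [Module K V]
    (f : Module.End K V) (W : Submodule K V) (hW : ∀ v ∈ W, f v ∈ W) (q : K[X]) (w : W) :
    ((aeval (LinearMap.restrict f hW) q) w : V) = aeval f q (w : V) := by
  induction q using Polynomial.induction_on' with
  | add q r hq hr => simp [hq, hr]
  | monomial j t =>
    simp only [aeval_monomial, Algebra.algebraMap_eq_smul_one, smul_mul_assoc, one_mul,
      LinearMap.smul_apply, Submodule.coe_smul]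
    congr 1
    induction j generalizing w with
    | zero => rfl
    | succ j ihj => rw [pow_succ, pow_succ, Module.End.mul_apply, Module.End.mul_apply, ihj]; rfl

/-- An endomorphism killed by a product of distinct cyclotomic polynomials has its characteristic
polynomial determined by the dimensions of their kernels. -/
theorem charpoly_eq_prod_cyclotomic (s : Finset ℕ) (hs : ∀ e ∈ s, 0 < e) :
    ∀ {V : Type u} [AddCommGroup V] [Module ℚ V] [FiniteDimensional ℚ V] (f : Module.End ℚ V),
      aeval f (∏ e ∈ s, cyclotomic e ℚ) = 0 →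
      f.charpoly = ∏ e ∈ s, cyclotomic e ℚ ^
        (finrank ℚ (LinearMap.ker (aeval f (cyclotomic e ℚ))) / Nat.totient e) := by
  classical
  induction s using Finset.induction_on with
  | empty =>
    intro V _ _ _ f h
    rw [Finset.prod_empty, map_one] at h
    have : Subsingleton V := ⟨fun v w => by
      have hv := LinearMap.congr_fun h v
      have hw := LinearMap.congr_fun h w
      simp only [Module.End.one_apply, LinearMap.zero_apply] at hv hw
      rw [hv, hw]⟩
    rw [Finset.prod_empty]
    exact f.charpoly_monic.natDegree_eq_zero.1 (by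
      rw [LinearMap.charpoly_natDegree]; exact finrank_zero_of_subsingleton)
  | insert e s he ih =>
    intro V _ _ _ f hkill
    have hcop : IsCoprime (cyclotomic e ℚ) (∏ x ∈ s, cyclotomic x ℚ) :=
      IsCoprime.prod_right fun x hx =>
        Polynomial.cyclotomic.isCoprime_rat fun hex : e = x => he (hex ▸ hx)
    set Φ := cyclotomic e ℚ with hΦdef
    set Q := ∏ x ∈ s, cyclotomic x ℚ with hQdef
    have hstab : ∀ q : ℚ[X], ∀ v ∈ LinearMap.ker (aeval f q), f v ∈ LinearMap.ker (aeval f q) := by
      intro q v hv
      have hcomm : aeval f q * f = f * aeval f q := by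
        simpa using ((Commute.all q X).map (aeval f)).eq
      rw [LinearMap.mem_ker] at hv ⊢
      rw [← Module.End.mul_apply, hcomm, Module.End.mul_apply, hv, map_zero]
    let f₁ := LinearMap.restrict f (hstab Φ)
    let f₂ := LinearMap.restrict f (hstab Q)
    have hcompl : IsCompl (LinearMap.ker (aeval f Φ)) (LinearMap.ker (aeval f Q)) := by
      refine ⟨Polynomial.disjoint_ker_aeval_of_isCoprime f hcop, codisjoint_iff.2 ?_⟩
      rw [Polynomial.sup_ker_aeval_eq_ker_aeval_mul_of_coprime f hcop, ← Finset.prod_insert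
        (f := fun x => cyclotomic x ℚ) he, hkill, LinearMap.ker_zero]
    have hsplit : f.charpoly = f₁.charpoly * f₂.charpoly := by
      rw [← LinearMap.charpoly_prodMap, ← LinearEquiv.charpoly_conj
        (Submodule.prodEquivOfIsCompl _ _ hcompl) (f₁.prodMap f₂)]
      congr 1
      refine LinearMap.ext fun v => ?_
      obtain ⟨⟨x, y⟩, rfl⟩ := (Submodule.prodEquivOfIsCompl _ _ hcompl).surjective v
      simp [LinearEquiv.conj_apply, f₁, f₂]
    have he0 : 0 < e := hs e (Finset.mem_insert_self _ _)
    have hirr : Irreducible Φ := cyclotomic.irreducible_rat he0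
    obtain ⟨c, hc⟩ := eq_pow_of_forall_isRoot (cyclotomic.monic e ℚ) hirr f₁.charpoly_monic (by
      intro μ hμ
      let b := Module.finBasis ℚ (LinearMap.ker (aeval f Φ))
      let M := LinearMap.toMatrixAlgEquiv b f₁
      let Mk := (algebraMap ℚ (AlgebraicClosure ℚ)).mapMatrix M
      have hk : aeval Mk Φ = 0 := by
        have h0 : aeval M Φ = 0 := by
          have h00 : aeval f₁ Φ = 0 := by
            refine LinearMap.ext fun w => Subtype.ext ?_
            rw [aeval_restrict f _ (hstab Φ)]
            exact w.2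
          rw [aeval_algHom_apply, h00, map_zero]
        have := congr_arg (Algebra.ofId ℚ (AlgebraicClosure ℚ)).mapMatrix h0
        rw [← aeval_algHom_apply, map_zero] at this
        exact this
      have hmem : μ ∈ spectrum (AlgebraicClosure ℚ) Mk := by
        rw [Matrix.mem_spectrum_iff_isRoot_charpoly]
        show IsRoot (M.map _).charpoly μ
        rw [Matrix.charpoly_map, IsRoot, eval_map, ← aeval_def]
        rw [← LinearMap.charpoly_toMatrix f₁ b] at hμ
        exact hμ
      have := spectrum.subset_polynomial_aeval Mk (Φ.map (algebraMap ℚ (AlgebraicClosure ℚ)))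
        ⟨μ, hmem, rfl⟩
      rw [aeval_map_algebraMap, hk] at this
      have hne : Nonempty (Fin (finrank ℚ (LinearMap.ker (aeval f Φ)))) := by
        by_contra hempty
        rw [not_nonempty_iff] at hempty
        exact hmem (isUnit_of_subsingleton _)
      simp only [spectrum.zero_eq, Set.mem_singleton_iff, eval_map, ← aeval_def] at this
      exact this)
    have hdeg : c * Nat.totient e = finrank ℚ (LinearMap.ker (aeval f Φ)) := by
      rw [← LinearMap.charpoly_natDegree f₁, hc, natDegree_pow, natDegree_cyclotomic]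
    have hc' : c = finrank ℚ (LinearMap.ker (aeval f Φ)) / Nat.totient e := by
      rw [← hdeg, Nat.mul_div_cancel _ (Nat.totient_pos.2 he0)]
    rw [hsplit, hc, hc', Finset.prod_insert he, ← hΦdef]
    congr 1
    rw [ih (fun x hx => hs x (Finset.mem_insert_of_mem hx)) f₂ (by
      refine LinearMap.ext fun w => Subtype.ext ?_
      rw [aeval_restrict f _ (hstab Q)]
      exact w.2)]
    refine Finset.prod_congr rfl fun x hx => ?_
    congr 2
    have hle : LinearMap.ker (aeval f (cyclotomic x ℚ)) ≤ LinearMap.ker (aeval f Q) := by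
      intro v hv
      obtain ⟨R, hR⟩ : cyclotomic x ℚ ∣ Q := Finset.dvd_prod_of_mem _ hx
      rw [LinearMap.mem_ker] at hv ⊢
      rw [hR, mul_comm, map_mul, Module.End.mul_apply, hv, map_zero]
    rw [← (Submodule.comapSubtypeEquivOfLe hle).finrank_eq]
    refine congr_arg (fun S : Submodule ℚ _ => finrank ℚ S) ?_
    ext w
    simp only [Submodule.mem_comap, Submodule.subtype_apply, LinearMap.mem_ker]
    rw [← aeval_restrict f _ (hstab Q), ZeroMemClass.coe_eq_zero]

/-- Finite order automorphisms of rational vector spaces with fixed spaces of the same dimensions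
for all their powers have the same characteristic polynomial. -/
theorem charpoly_eq_of_finrank_fixed_eq_rat {V V' : Type u} [AddCommGroup V] [Module ℚ V]
    [FiniteDimensional ℚ V] [AddCommGroup V'] [Module ℚ V'] [FiniteDimensional ℚ V']
    (f : Module.End ℚ V) (f' : Module.End ℚ V') {n : ℕ} (hn : 0 < n) (hf : f ^ n = 1)
    (hf' : f' ^ n = 1)
    (hrk : ∀ d : ℕ,
      finrank ℚ (LinearMap.ker (f ^ d - 1)) = finrank ℚ (LinearMap.ker (f' ^ d - 1))) :
    f.charpoly = f'.charpoly := by
  have hker : ∀ e, 0 < e → finrank ℚ (LinearMap.ker (aeval f (cyclotomic e ℚ)))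
      = finrank ℚ (LinearMap.ker (aeval f' (cyclotomic e ℚ))) := by
    intro e
    induction e using Nat.strong_induction_on with
    | _ e ih =>
      intro he
      have h1 := finrank_ker_aeval_prod f e.divisors
      have h2 := finrank_ker_aeval_prod f' e.divisors
      rw [prod_cyclotomic_eq_X_pow_sub_one he] at h1 h2
      rw [map_sub, map_pow, aeval_X, map_one] at h1 h2
      rw [hrk e, h2, ← Finset.sum_erase_add _ _ (Nat.mem_divisors_self e he.ne'),
        ← Finset.sum_erase_add _ _ (Nat.mem_divisors_self e he.ne')] at h1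
      have hrest : ∀ x ∈ e.divisors.erase e,
          finrank ℚ (LinearMap.ker (aeval f (cyclotomic x ℚ)))
            = finrank ℚ (LinearMap.ker (aeval f' (cyclotomic x ℚ))) := by
        intro x hx
        obtain ⟨hxe, hxd⟩ := Finset.mem_erase.1 hx
        exact ih x (lt_of_le_of_ne (Nat.divisor_le hxd) hxe) (Nat.pos_of_mem_divisors hxd)
      rw [Finset.sum_congr rfl hrest] at h1
      omega
  have hkill : ∀ {W : Type u} [AddCommGroup W] [Module ℚ W] (g : Module.End ℚ W), g ^ n = 1 →
      aeval g (∏ e ∈ n.divisors, cyclotomic e ℚ) = 0 := by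
    intro W _ _ g hg
    simp [prod_cyclotomic_eq_X_pow_sub_one hn, hg]
  have hpos : ∀ e ∈ n.divisors, 0 < e := fun e he => Nat.pos_of_mem_divisors he
  rw [charpoly_eq_prod_cyclotomic _ hpos f (hkill f hf),
    charpoly_eq_prod_cyclotomic _ hpos f' (hkill f' hf')]
  exact Finset.prod_congr rfl fun e he => by rw [hker e (hpos e he)]

/-- An integer matrix has kernels of the same rank over `ℤ` and over `ℚ`. -/
theorem finrank_ker_toLin'_map {d : ℕ} (M : Matrix (Fin d) (Fin d) ℤ) :
    finrank ℚ (LinearMap.ker (Matrix.toLin' (M.map (Int.castRingHom ℚ))))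
      = finrank ℤ (LinearMap.ker (Matrix.toLin' M)) := by
  classical
  let j : (Fin d → ℤ) →ₗ[ℤ] (Fin d → ℚ) := LinearMap.compLeft (Algebra.linearMap ℤ ℚ) (Fin d)
  have hjM : ∀ v, Matrix.toLin' (M.map (Int.castRingHom ℚ)) (j v) = j (Matrix.toLin' M v) := by
    intro v
    ext i
    simp [j, Matrix.mulVec, dotProduct]
  have hjinj : Function.Injective j := fun v w h => funext fun i => by
    have := congr_fun h i
    simpa [j] using this
  let b := Module.Free.chooseBasis ℤ (LinearMap.ker (Matrix.toLin' M))
  let vec := fun i => j (b i : Fin d → ℤ)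
  have hli : LinearIndependent ℚ vec := by
    rw [← LinearIndependent.iff_fractionRing ℤ ℚ]
    exact b.linearIndependent.map' (j ∘ₗ (LinearMap.ker (Matrix.toLin' M)).subtype)
      (LinearMap.ker_eq_bot.2 (hjinj.comp Subtype.val_injective))
  have hspan : Submodule.span ℚ (Set.range vec)
      = LinearMap.ker (Matrix.toLin' (M.map (Int.castRingHom ℚ))) := by
    refine le_antisymm (Submodule.span_le.2 ?_) fun v hv => ?_
    · rintro x ⟨i, rfl⟩
      show Matrix.toLin' (M.map (Int.castRingHom ℚ)) (j (b i : Fin d → ℤ)) = 0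
      rw [hjM, (b i).2, map_zero]
    let N : ℕ := ∏ i, (v i).den
    have hN : (N : ℚ) ≠ 0 := by
      exact_mod_cast Finset.prod_ne_zero_iff.2 fun i _ => (v i).den_nz
    let w : Fin d → ℤ := fun i => (v i).num * ∏ k ∈ Finset.univ.erase i, ((v k).den : ℤ)
    have hw : j w = (N : ℚ) • v := by
      ext i
      have h1 : ((v i).num : ℚ) = v i * (v i).den := (Rat.mul_den_eq_num _).symm
      simp only [j, w, N, LinearMap.compLeft_apply, Function.comp_apply, Algebra.linearMap_apply,
        eq_intCast, Pi.smul_apply, smul_eq_mul]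
      push_cast
      rw [← Finset.mul_prod_erase _ _ (Finset.mem_univ i), h1]
      ring
    have hwker : w ∈ LinearMap.ker (Matrix.toLin' M) := by
      rw [LinearMap.mem_ker] at hv ⊢
      apply hjinj
      rw [← hjM, hw, map_smul, hv, smul_zero, map_zero]
    have hjw : j w ∈ Submodule.span ℚ (Set.range vec) := by
      have h2 := congr_arg (j ∘ₗ (LinearMap.ker (Matrix.toLin' M)).subtype)
        (b.sum_repr ⟨w, hwker⟩)
      simp only [map_sum, map_smul, LinearMap.comp_apply, Submodule.subtype_apply] at h2
      rw [← h2]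
      refine sum_mem fun i _ => ?_
      exact Submodule.smul_of_tower_mem _ _ (Submodule.subset_span ⟨i, rfl⟩)
    rw [hw] at hjw
    exact (Submodule.smul_mem_iff _ hN).1 hjw
  rw [← hspan, finrank_span_eq_card hli, Module.finrank_eq_card_chooseBasisIndex]

theorem toLin'_pow_map {W : Type*} [AddCommGroup W] {d : ℕ} (bW : Basis (Fin d) ℤ W)
    (g : W →ₗ[ℤ] W) (k : ℕ) :
    (Matrix.toLin' ((LinearMap.toMatrix bW bW g).map (Int.castRingHom ℚ))) ^ k
      = Matrix.toLin' ((LinearMap.toMatrix bW bW (g ^ k)).map (Int.castRingHom ℚ)) := by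
  rw [← Matrix.toLin'_pow, ← Matrix.map_pow, LinearMap.toMatrix_pow]

/-- The rank of the fixed sublattice of a power, in rational matrices. -/
theorem finrank_fixed_pow {W : Type*} [AddCommGroup W] {d : ℕ} (bW : Basis (Fin d) ℤ W)
    (g : W →ₗ[ℤ] W) (k : ℕ) :
    finrank ℤ (LinearMap.ker (g ^ k - 1)) = finrank ℚ (LinearMap.ker
      ((Matrix.toLin' ((LinearMap.toMatrix bW bW g).map (Int.castRingHom ℚ))) ^ k - 1)) := by
  have h1 : (Matrix.toLin' ((LinearMap.toMatrix bW bW g).map (Int.castRingHom ℚ))) ^ k - 1
      = Matrix.toLin' ((LinearMap.toMatrix bW bW (g ^ k - 1)).map (Int.castRingHom ℚ)) := by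
    rw [toLin'_pow_map, Module.End.one_eq_id, ← Matrix.toLin'_one, ← map_sub]
    congr 1
    rw [map_sub, LinearMap.toMatrix_one, Matrix.map_sub _ (fun x y => map_sub _ x y),
      Matrix.map_one _ (map_zero _) (map_one _)]
  rw [h1, finrank_ker_toLin'_map]
  have h2 : LinearMap.ker (Matrix.toLin' (LinearMap.toMatrix bW bW (g ^ k - 1)))
      = (LinearMap.ker (g ^ k - 1)).map bW.equivFun.toLinearMap := by
    ext v
    obtain ⟨x, rfl⟩ := bW.equivFun.surjective v
    rw [LinearMap.mem_ker, Submodule.mem_map_equiv, LinearEquiv.symm_apply_apply,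
      LinearMap.mem_ker, Matrix.toLin'_apply, bW.equivFun_apply, LinearMap.toMatrix_mulVec_repr]
    constructor
    · intro h
      refine bW.repr.injective (DFunLike.coe_injective (h.trans ?_))
      simp
    · intro h
      simp [h]
  rw [h2, LinearEquiv.finrank_map_eq]

/-- Two automorphisms of finite order of lattices with fixed sublattices of the same ranks for
all their powers have the same characteristic polynomial. -/
theorem charpoly_eq_of_finrank_fixed_eq {L L' : Type*} [AddCommGroup L] [Module.Free ℤ L]
    [Module.Finite ℤ L] [AddCommGroup L'] [Module.Free ℤ L'] [Module.Finite ℤ L']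
    (f : L →ₗ[ℤ] L) (f' : L' →ₗ[ℤ] L') {n : ℕ} (hn : 0 < n) (hf : f ^ n = 1) (hf' : f' ^ n = 1)
    (hrk : ∀ d : ℕ, finrank ℤ (LinearMap.ker (f ^ d - 1)) = finrank ℤ (LinearMap.ker (f' ^ d - 1))) :
    LinearMap.charpoly f = LinearMap.charpoly f' := by
  classical
  let b := Module.finBasis ℤ L
  let b' := Module.finBasis ℤ L'
  have hQ := charpoly_eq_of_finrank_fixed_eq_rat
    (Matrix.toLin' ((LinearMap.toMatrix b b f).map (Int.castRingHom ℚ)))
    (Matrix.toLin' ((LinearMap.toMatrix b' b' f').map (Int.castRingHom ℚ))) hn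
    (by rw [toLin'_pow_map, hf, LinearMap.toMatrix_one, Matrix.map_one _ (map_zero _) (map_one _),
      Matrix.toLin'_one, Module.End.one_eq_id])
    (by rw [toLin'_pow_map, hf', LinearMap.toMatrix_one, Matrix.map_one _ (map_zero _) (map_one _),
      Matrix.toLin'_one, Module.End.one_eq_id])
    (fun d => by rw [← finrank_fixed_pow b f d, ← finrank_fixed_pow b' f' d]; exact hrk d)
  rw [Matrix.charpoly_toLin', Matrix.charpoly_toLin', Matrix.charpoly_map, Matrix.charpoly_map,
    LinearMap.charpoly_toMatrix, LinearMap.charpoly_toMatrix] at hQ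
  exact Polynomial.map_injective _ Int.cast_injective hQ

end Fermat.Agent.TW.RepAlgebra
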