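/-
Representation algebra over `ZMod p` for the global bound of the Taylor-Wiles argument.

* `RepAlgebraExtend`: `H1Trivial`, `homG`, `exists_extend` (extension of intertwiners into modules
  with trivial `H¹` on a Sylow subgroup).
* `RepAlgebraHom`: `finrank_homG_eq` (invariance of `dim Hom_G(N, Y)` for such modules in terms of
  characteristic polynomials), via `RepAlgebraTrace` and `RepAlgebraCount`.
* `RepAlgebraLattice`: `charpoly_eq_mul_of_exact`, `charpoly_eq_of_finrank_fixed_eq`.
-/
import Fermat.Agent.TW.RepAlgebraHom
import Fermat.Agent.TW.RepAlgebraLattice
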