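/-
`X[p]` and `X/p` with the characteristic polynomials of an endomorphism, and their behaviour in
short exact sequences.
-/
import Fermat.Agent.TW.RepAlgebra
import Mathlib.Algebra.Module.ZMod
import Mathlib.LinearAlgebra.Charpoly.Basic

set_option autoImplicit false

noncomputable section

namespace Fermat.Agent.TW

open RepAlgebra

section Split

variable {K A B : Type*} [Field K] [AddCommGroup A] [Module K A] [FiniteDimensional K A]
  [AddCommGroup B] [Module K B] [FiniteDimensional K B]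

/-- The characteristic polynomial on a stable subspace. -/
def subPoly (a : A →ₗ[K] A) (S : Submodule K A) (h : ∀ x ∈ S, a x ∈ S) : Polynomial K :=
  (a.restrict h).charpoly

theorem subPoly_congr (a : A →ₗ[K] A) {S S' : Submodule K A} (e : S = S')
    (h : ∀ x ∈ S, a x ∈ S) (h' : ∀ x ∈ S', a x ∈ S') : subPoly a S h = subPoly a S' h' := by
  subst e; rfl

/-- Kernel and image. -/
theorem charpoly_eq_ker_mul_range (f : A →ₗ[K] B) (a : A →ₗ[K] A) (b : B →ₗ[K] B)
    (h : ∀ x, f (a x) = b (f x)) :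
    a.charpoly = subPoly a (LinearMap.ker f) (fun x hx => by
        rw [LinearMap.mem_ker, h, LinearMap.mem_ker.1 hx, map_zero]) *
      subPoly b (LinearMap.range f) (fun y ⟨x, hx⟩ => ⟨a x, by rw [h, hx]⟩) := by
  refine charpoly_eq_mul_of_exact (LinearMap.ker f).subtype f.rangeRestrict
    (Submodule.injective_subtype _) f.surjective_rangeRestrict ?_ _ _ _ ?_ ?_
  · rw [Submodule.range_subtype, LinearMap.ker_rangeRestrict]
  · exact LinearMap.ext fun x => rfl
  · exact LinearMap.ext fun x => Subtype.ext (h x).symm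

theorem subPoly_ker_of_injective (f : A →ₗ[K] B) (hf : Function.Injective f) (a : A →ₗ[K] A)
    (h : ∀ x ∈ LinearMap.ker f, a x ∈ LinearMap.ker f) :
    subPoly a (LinearMap.ker f) h = 1 := by
  haveI : Subsingleton (LinearMap.ker f) := by
    rw [LinearMap.ker_eq_bot.2 hf]; infer_instance
  have h1 := (a.restrict h).charpoly_natDegree
  rw [Module.finrank_zero_of_subsingleton] at h1
  exact (LinearMap.charpoly_monic _).natDegree_eq_zero.1 h1

theorem subPoly_range_of_surjective (f : A →ₗ[K] B) (hf : Function.Surjective f) (b : B →ₗ[K] B)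
    (h : ∀ y ∈ LinearMap.range f, b y ∈ LinearMap.range f) :
    subPoly b (LinearMap.range f) h = b.charpoly := by
  have e : LinearMap.range f = ⊤ := LinearMap.range_eq_top.2 hf
  rw [subPoly_congr b e h fun _ _ => trivial, subPoly]
  rw [← LinearEquiv.charpoly_conj (Submodule.topEquiv (R := K) (M := B)) (b.restrict fun _ _ => trivial)]
  congr 1

/-- The alternating product in an exact sequence of six terms. -/
theorem charpoly_six {A₁ A₂ A₃ A₄ A₅ A₆ : Type*}
    [AddCommGroup A₁] [Module K A₁] [FiniteDimensional K A₁]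
    [AddCommGroup A₂] [Module K A₂] [FiniteDimensional K A₂]
    [AddCommGroup A₃] [Module K A₃] [FiniteDimensional K A₃]
    [AddCommGroup A₄] [Module K A₄] [FiniteDimensional K A₄]
    [AddCommGroup A₅] [Module K A₅] [FiniteDimensional K A₅]
    [AddCommGroup A₆] [Module K A₆] [FiniteDimensional K A₆]
    (f₁ : A₁ →ₗ[K] A₂) (f₂ : A₂ →ₗ[K] A₃) (f₃ : A₃ →ₗ[K] A₄) (f₄ : A₄ →ₗ[K] A₅) (f₅ : A₅ →ₗ[K] A₆)
    (hinj : Function.Injective f₁) (h₁ : LinearMap.ker f₂ = LinearMap.range f₁)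
    (h₂ : LinearMap.ker f₃ = LinearMap.range f₂) (h₃ : LinearMap.ker f₄ = LinearMap.range f₃)
    (h₄ : LinearMap.ker f₅ = LinearMap.range f₄) (hsurj : Function.Surjective f₅)
    (a₁ : A₁ →ₗ[K] A₁) (a₂ : A₂ →ₗ[K] A₂) (a₃ : A₃ →ₗ[K] A₃)
    (a₄ : A₄ →ₗ[K] A₄) (a₅ : A₅ →ₗ[K] A₅) (a₆ : A₆ →ₗ[K] A₆)
    (c₁ : ∀ x, f₁ (a₁ x) = a₂ (f₁ x)) (c₂ : ∀ x, f₂ (a₂ x) = a₃ (f₂ x))
    (c₃ : ∀ x, f₃ (a₃ x) = a₄ (f₃ x)) (c₄ : ∀ x, f₄ (a₄ x) = a₅ (f₄ x))
    (c₅ : ∀ x, f₅ (a₅ x) = a₆ (f₅ x)) :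
    a₁.charpoly * a₃.charpoly * a₅.charpoly = a₂.charpoly * a₄.charpoly * a₆.charpoly := by
  rw [charpoly_eq_ker_mul_range f₁ a₁ a₂ c₁, subPoly_ker_of_injective f₁ hinj, one_mul,
    charpoly_eq_ker_mul_range f₂ a₂ a₃ c₂, charpoly_eq_ker_mul_range f₃ a₃ a₄ c₃,
    charpoly_eq_ker_mul_range f₄ a₄ a₅ c₄, charpoly_eq_ker_mul_range f₅ a₅ a₆ c₅,
    subPoly_range_of_surjective f₅ hsurj,
    subPoly_congr a₂ h₁ _ (fun y ⟨x, hx⟩ => ⟨a₁ x, by rw [c₁, hx]⟩),
    subPoly_congr a₃ h₂ _ (fun y ⟨x, hx⟩ => ⟨a₂ x, by rw [c₂, hx]⟩),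
    subPoly_congr a₄ h₃ _ (fun y ⟨x, hx⟩ => ⟨a₃ x, by rw [c₃, hx]⟩),
    subPoly_congr a₅ h₄ _ (fun y ⟨x, hx⟩ => ⟨a₄ x, by rw [c₄, hx]⟩)]
  ring

end Split

section TorQuo

variable (p : ℕ) (X : Type) [AddCommGroup X]

/-- `X[p]`. -/
def TorP : Type := ↥(nsmulAddMonoidHom p : X →+ X).ker

/-- `X/p`. -/
def QuoP : Type := X ⧸ (nsmulAddMonoidHom p : X →+ X).range

instance : AddCommGroup (TorP p X) :=
  inferInstanceAs (AddCommGroup ↥(nsmulAddMonoidHom p : X →+ X).ker)

instance : AddCommGroup (QuoP p X) :=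
  inferInstanceAs (AddCommGroup (X ⧸ (nsmulAddMonoidHom p : X →+ X).range))

variable {p} {X}

/-- The inclusion. -/
def torVal : TorP p X →+ X := (nsmulAddMonoidHom p : X →+ X).ker.subtype

/-- The quotient map. -/
def quoMk : X →+ QuoP p X := QuotientAddGroup.mk' _

theorem torVal_injective : Function.Injective (torVal : TorP p X →+ X) := Subtype.coe_injective

theorem quoMk_surjective : Function.Surjective (quoMk : X →+ QuoP p X) :=
  QuotientAddGroup.mk'_surjective _

theorem nsmul_torVal (x : TorP p X) : p • torVal x = 0 := x.2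

theorem exists_torVal {x : X} (hx : p • x = 0) : ∃ t : TorP p X, torVal t = x := ⟨⟨x, hx⟩, rfl⟩

theorem quoMk_eq_zero_iff {x : X} : (quoMk x : QuoP p X) = 0 ↔ ∃ y, p • y = x :=
  QuotientAddGroup.eq_zero_iff x

theorem quoMk_nsmul (x : X) : (quoMk (p • x) : QuoP p X) = 0 := quoMk_eq_zero_iff.2 ⟨x, rfl⟩

variable (p) (X)

instance : Module (ZMod p) (TorP p X) := AddCommGroup.zmodModule fun x =>
  torVal_injective (by rw [map_nsmul, nsmul_torVal, map_zero])

instance : Module (ZMod p) (QuoP p X) := AddCommGroup.zmodModule fun y => by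
  obtain ⟨x, rfl⟩ := quoMk_surjective y
  rw [← map_nsmul, quoMk_nsmul]

/-- Both `X[p]` and `X/p` are finite. -/
structure FinModP : Prop where
  tor : Finite (TorP p X)
  quo : Finite (QuoP p X)

variable {p} {X}
variable {Y Z : Type} [AddCommGroup Y] [AddCommGroup Z]

/-- Functoriality of `X[p]`, additively. -/
def torMapHom (f : X →+ Y) : TorP p X →+ TorP p Y :=
  (f.comp torVal).codRestrict _ fun x => by
    show p • f (torVal x) = 0
    rw [← map_nsmul, nsmul_torVal, map_zero]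

/-- Functoriality of `X/p`, additively. -/
def quoMapHom (f : X →+ Y) : QuoP p X →+ QuoP p Y :=
  QuotientAddGroup.map _ _ f fun _ ⟨y, hy⟩ => ⟨f y, by
    rw [← hy]; exact (map_nsmul f p y).symm⟩

/-- Functoriality of `X[p]`. -/
def torMap (f : X →+ Y) : TorP p X →ₗ[ZMod p] TorP p Y := (torMapHom f).toZModLinearMap p

/-- Functoriality of `X/p`. -/
def quoMap (f : X →+ Y) : QuoP p X →ₗ[ZMod p] QuoP p Y := (quoMapHom f).toZModLinearMap p

@[simp] theorem torVal_torMap (f : X →+ Y) (x : TorP p X) :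
    torVal (torMap f x) = f (torVal x) := rfl

@[simp] theorem quoMap_mk (f : X →+ Y) (x : X) :
    quoMap f (quoMk x : QuoP p X) = quoMk (f x) := rfl

variable (i : X →+ Y) (q : Y →+ Z) (hi : Function.Injective i) (hq : Function.Surjective q)
  (hex : ∀ y, q y = 0 ↔ ∃ x, i x = y)

/-- The connecting map `Z[p] → X/p`. -/
def torDelta : TorP p Z →ₗ[ZMod p] QuoP p X :=
  have h : ∀ z : TorP p Z, ∃ x, i x = p • Function.surjInv hq (torVal z) := fun z =>
    (hex _).1 (by rw [map_nsmul, Function.surjInv_eq hq, nsmul_torVal])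
  (AddMonoidHom.mk' (fun z => quoMk (h z).choose) fun z z' => by
    rw [← map_add, eq_comm, ← sub_eq_zero, ← map_sub, quoMk_eq_zero_iff]
    obtain ⟨x, hx⟩ := (hex (Function.surjInv hq (torVal z) + Function.surjInv hq (torVal z')
      - Function.surjInv hq (torVal (z + z')))).1 (by
        rw [map_sub, map_add, Function.surjInv_eq hq, Function.surjInv_eq hq,
          Function.surjInv_eq hq, map_add, sub_self])
    refine ⟨x, hi ?_⟩
    rw [map_nsmul, hx, map_sub i, map_add i, (h z).choose_spec, (h z').choose_spec,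
      (h (z + z')).choose_spec, smul_sub, smul_add] : TorP p Z →+ QuoP p X).toZModLinearMap p

include hi in
theorem torDelta_eq (z : TorP p Z) (y : Y) (hy : q y = torVal z) (x : X) (hx : i x = p • y) :
    torDelta i q hi hq hex z = quoMk x := by
  have h : ∀ z : TorP p Z, ∃ x, i x = p • Function.surjInv hq (torVal z) := fun z =>
    (hex _).1 (by rw [map_nsmul, Function.surjInv_eq hq, nsmul_torVal])
  show quoMk (h z).choose = quoMk x
  rw [← sub_eq_zero, ← map_sub, quoMk_eq_zero_iff]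
  obtain ⟨x', hx'⟩ := (hex (Function.surjInv hq (torVal z) - y)).1 (by
    rw [map_sub, Function.surjInv_eq hq, hy, sub_self])
  exact ⟨x', hi (by rw [map_nsmul, hx', map_sub, (h z).choose_spec, hx, smul_sub])⟩

include hex in
theorem exact_torMap (hi : Function.Injective i) :
    LinearMap.ker (torMap q : TorP p Y →ₗ[ZMod p] TorP p Z) = LinearMap.range (torMap i) := by
  ext y
  rw [LinearMap.mem_ker, LinearMap.mem_range]
  constructor
  · intro h
    obtain ⟨x, hx⟩ := (hex (torVal y)).1 (by rw [← torVal_torMap, h, map_zero])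
    obtain ⟨t, ht⟩ := exists_torVal (p := p) (x := x) (hi (by
      rw [map_nsmul, hx, nsmul_torVal, map_zero]))
    exact ⟨t, torVal_injective (by rw [torVal_torMap, ht, hx])⟩
  · rintro ⟨x, rfl⟩
    exact torVal_injective (by rw [torVal_torMap, torVal_torMap, map_zero, (hex _).2 ⟨_, rfl⟩])

theorem exact_torDelta :
    LinearMap.ker (torDelta i q hi hq hex : TorP p Z →ₗ[ZMod p] QuoP p X) =
      LinearMap.range (torMap q) := by
  ext z
  rw [LinearMap.mem_ker, LinearMap.mem_range]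
  obtain ⟨y, hy⟩ := hq (torVal z)
  obtain ⟨x, hx⟩ := (hex (p • y)).1 (by rw [map_nsmul, hy, nsmul_torVal])
  rw [torDelta_eq i q hi hq hex z y hy x hx, quoMk_eq_zero_iff]
  constructor
  · rintro ⟨x', rfl⟩
    obtain ⟨t, ht⟩ := exists_torVal (p := p) (x := y - i x') (by
      rw [smul_sub, ← map_nsmul i p x', hx, sub_self])
    exact ⟨t, torVal_injective (by
      rw [torVal_torMap, ht, map_sub, (hex _).2 ⟨_, rfl⟩, sub_zero, hy])⟩
  · rintro ⟨t, rfl⟩
    obtain ⟨x', hx'⟩ := (hex (y - torVal t)).1 (by rw [map_sub, hy, torVal_torMap, sub_self])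
    exact ⟨x', hi (by rw [map_nsmul, hx', smul_sub, nsmul_torVal, sub_zero, hx])⟩

theorem exact_quoMap :
    LinearMap.ker (quoMap i : QuoP p X →ₗ[ZMod p] QuoP p Y) =
      LinearMap.range (torDelta i q hi hq hex) := by
  ext x
  obtain ⟨x, rfl⟩ := quoMk_surjective x
  rw [LinearMap.mem_ker, quoMap_mk, quoMk_eq_zero_iff, LinearMap.mem_range]
  constructor
  · rintro ⟨y, hy⟩
    obtain ⟨t, ht⟩ := exists_torVal (p := p) (x := q y) (by
      rw [← map_nsmul, hy, (hex _).2 ⟨_, rfl⟩])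
    exact ⟨t, torDelta_eq i q hi hq hex t y ht.symm x hy.symm⟩
  · rintro ⟨z, hz⟩
    obtain ⟨y, hy⟩ := hq (torVal z)
    obtain ⟨x', hx'⟩ := (hex (p • y)).1 (by rw [map_nsmul, hy, nsmul_torVal])
    rw [torDelta_eq i q hi hq hex z y hy x' hx', ← sub_eq_zero, ← map_sub, quoMk_eq_zero_iff] at hz
    obtain ⟨w, hw⟩ := hz
    refine ⟨y - i w, ?_⟩
    rw [smul_sub, ← map_nsmul i p w, hw, map_sub, hx', sub_sub_cancel]

include hq hex in
theorem exact_quoMap' :
    LinearMap.ker (quoMap q : QuoP p Y →ₗ[ZMod p] QuoP p Z) = LinearMap.range (quoMap i) := by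
  ext y
  obtain ⟨y, rfl⟩ := quoMk_surjective y
  rw [LinearMap.mem_ker, quoMap_mk, quoMk_eq_zero_iff, LinearMap.mem_range]
  constructor
  · rintro ⟨z, hz⟩
    obtain ⟨y', rfl⟩ := hq z
    obtain ⟨x, hx⟩ := (hex (y - p • y')).1 (by rw [map_sub, map_nsmul, hz, sub_self])
    exact ⟨quoMk x, by rw [quoMap_mk, hx, map_sub, quoMk_nsmul, sub_zero]⟩
  · rintro ⟨x, hx⟩
    obtain ⟨x, rfl⟩ := quoMk_surjective x
    rw [quoMap_mk, ← sub_eq_zero, ← map_sub, quoMk_eq_zero_iff] at hx
    obtain ⟨w, hw⟩ := hx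
    exact ⟨-q w, by rw [smul_neg, ← map_nsmul, hw, map_sub, (hex _).2 ⟨_, rfl⟩, zero_sub, neg_neg]⟩

include hq in
theorem quoMap_surjective : Function.Surjective (quoMap q : QuoP p Y →ₗ[ZMod p] QuoP p Z) := by
  intro z
  obtain ⟨z, rfl⟩ := quoMk_surjective z
  obtain ⟨y, rfl⟩ := hq z
  exact ⟨quoMk y, rfl⟩

include hi in
theorem torMap_injective : Function.Injective (torMap i : TorP p X →ₗ[ZMod p] TorP p Y) :=
  fun a b h => torVal_injective (hi (congrArg torVal h))

variable [hp : Fact p.Prime]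

include hi hq hex in
/-- Extensions of finite-mod-`p` groups are finite mod `p`. -/
theorem FinModP.of_exact (hX : FinModP p X) (hZ : FinModP p Z) : FinModP p Y := by
  haveI := hX.tor; haveI := hX.quo; haveI := hZ.tor; haveI := hZ.quo
  constructor
  · haveI : Finite (LinearMap.ker (torMap q : TorP p Y →ₗ[ZMod p] TorP p Z)) := by
      rw [exact_torMap i q hex hi]
      exact Finite.of_surjective _ (torMap i).surjective_rangeRestrict
    haveI : Finite ((torMap q : TorP p Y →ₗ[ZMod p] TorP p Z).toAddMonoidHom.ker) := ‹Finite (LinearMap.ker (torMap q : TorP p Y →ₗ[ZMod p] TorP p Z))›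
    haveI : Finite (TorP p Y ⧸ (torMap q : TorP p Y →ₗ[ZMod p] TorP p Z).toAddMonoidHom.ker) :=
      Finite.of_equiv _ (QuotientAddGroup.quotientKerEquivRange (torMap q : TorP p Y →ₗ[ZMod p] TorP p Z).toAddMonoidHom).symm.toEquiv
    exact Finite.of_addSubgroup_quotient (torMap q : TorP p Y →ₗ[ZMod p] TorP p Z).toAddMonoidHom.ker
  · haveI : Finite (LinearMap.ker (quoMap q : QuoP p Y →ₗ[ZMod p] QuoP p Z)) := by
      rw [exact_quoMap' i q hq hex]
      exact Finite.of_surjective _ (quoMap i).surjective_rangeRestrict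
    haveI : Finite ((quoMap q : QuoP p Y →ₗ[ZMod p] QuoP p Z).toAddMonoidHom.ker) := ‹Finite (LinearMap.ker (quoMap q : QuoP p Y →ₗ[ZMod p] QuoP p Z))›
    haveI : Finite (QuoP p Y ⧸ (quoMap q : QuoP p Y →ₗ[ZMod p] QuoP p Z).toAddMonoidHom.ker) :=
      Finite.of_equiv _ (QuotientAddGroup.quotientKerEquivRange (quoMap q : QuoP p Y →ₗ[ZMod p] QuoP p Z).toAddMonoidHom).symm.toEquiv
    exact Finite.of_addSubgroup_quotient (quoMap q : QuoP p Y →ₗ[ZMod p] QuoP p Z).toAddMonoidHom.ker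

/-- The characteristic polynomial on `X[p]`. -/
def torPoly (σ : X →+ X) [Finite (TorP p X)] : Polynomial (ZMod p) :=
  (torMap σ : TorP p X →ₗ[ZMod p] TorP p X).charpoly

/-- The characteristic polynomial on `X/p`. -/
def quoPoly (σ : X →+ X) [Finite (QuoP p X)] : Polynomial (ZMod p) :=
  (quoMap σ : QuoP p X →ₗ[ZMod p] QuoP p X).charpoly

include hi hq hex in
/-- Multiplicativity of `X/p - X[p]` in short exact sequences. -/
theorem quoPoly_mul_torPoly [Finite (TorP p X)] [Finite (QuoP p X)] [Finite (TorP p Y)]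
    [Finite (QuoP p Y)] [Finite (TorP p Z)] [Finite (QuoP p Z)]
    (σX : X →+ X) (σY : Y →+ Y) (σZ : Z →+ Z) (hiσ : ∀ x, i (σX x) = σY (i x))
    (hqσ : ∀ y, q (σY y) = σZ (q y)) :
    torPoly (p := p) σX * torPoly (p := p) σZ * quoPoly (p := p) σY =
      torPoly (p := p) σY * quoPoly (p := p) σX * quoPoly (p := p) σZ := by
  refine charpoly_six (torMap i) (torMap q) (torDelta i q hi hq hex) (quoMap i) (quoMap q)
    (torMap_injective i hi) (exact_torMap i q hex hi) (exact_torDelta i q hi hq hex)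
    (exact_quoMap i q hi hq hex) (exact_quoMap' i q hq hex) (quoMap_surjective q hq)
    _ _ _ _ _ _ (fun x => torVal_injective (hiσ _)) (fun x => torVal_injective (hqσ _))
    (fun z => ?_) (fun x => ?_) (fun y => ?_)
  · obtain ⟨y, hy⟩ := hq (torVal z)
    obtain ⟨x, hx⟩ := (hex (p • y)).1 (by rw [map_nsmul, hy, nsmul_torVal])
    rw [torDelta_eq i q hi hq hex z y hy x hx, quoMap_mk]
    refine torDelta_eq i q hi hq hex _ (σY y) ?_ (σX x) ?_
    · rw [torVal_torMap, hqσ, hy]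
    · rw [hiσ, hx, map_nsmul]
  · obtain ⟨x, rfl⟩ := quoMk_surjective x
    simp [hiσ]
  · obtain ⟨y, rfl⟩ := quoMk_surjective y
    simp [hqσ]

end TorQuo

end Fermat.Agent.TW
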