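/-
The local layers are class modules, and their value groups are finite mod `p`.
-/
import Fermat.Agent.TW.EulerPoly
import Fermat.Agent.PoitouTate.ClassApi
import Fermat.Agent.PoitouTate.ClassLevels
import Fermat.Agent.PoitouTate.LocalClassConstruct
import Fermat.Agent.PoitouTate.IdeleBaseField
import Mathlib.LinearAlgebra.LinearIndependent.Basic

set_option autoImplicit false
set_option linter.style.haveILetI false

noncomputable section

namespace Fermat.Agent.TW

open PoitouTate groupCohomology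

variable {q : Nat.Primes}

/-- Hilbert 90 for a finite, not necessarily cyclic, layer of local values. -/
theorem exists_locAct_sub_eq {M K : Subgroup (LocGal q)} (hM : IsLocLevel M) (hle : M ≤ K)
    (b : LocGal q → LocVal q) (hb : ∀ a, ∀ s ∈ M, b (a * s) = b a)
    (hcross : ∀ s ∈ K, ∀ t ∈ K, b (s * t) = locAct q s (b t) + b s) :
    ∃ x ∈ fixedVal q M, ∀ s ∈ K, locAct q s x - x = b s := by
  classical
  haveI : M.FiniteIndex := ⟨hM.index_ne_zero⟩
  haveI : Finite (↥K ⧸ M.subgroupOf K) := inferInstance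
  letI := Fintype.ofFinite (↥K ⧸ M.subgroupOf K)
  let χ : ↥K ⧸ M.subgroupOf K → ((locField q M) →* PadicAlgCl (q : ℕ)) := fun g =>
    ((g.out : LocGal q) : PadicAlgCl (q : ℕ) →* PadicAlgCl (q : ℕ)).comp
      ((locField q M).val : (locField q M) →* PadicAlgCl (q : ℕ))
  have hχ : ∀ g t, χ g t = (g.out : LocGal q) (t : PadicAlgCl (q : ℕ)) := fun _ _ => rfl
  have hinj : Function.Injective χ := fun g g' e => by
    rw [← QuotientGroup.out_eq' g, ← QuotientGroup.out_eq' g']
    refine QuotientGroup.eq.2 ?_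
    rw [Subgroup.mem_subgroupOf]
    push_cast
    refine hM.fixingSubgroup_locField.le ((IntermediateField.mem_fixingSubgroup_iff _ _).2 ?_)
    intro t ht
    have h := DFunLike.congr_fun e ⟨t, ht⟩
    rw [hχ, hχ] at h
    rw [AlgEquiv.mul_apply]
    show (g.out : LocGal q).symm _ = _
    rw [AlgEquiv.symm_apply_eq]
    exact h.symm
  obtain ⟨t, ht⟩ : ∃ t : locField q M,
      ∑ g, locNum (b (g.out : LocGal q)) * χ g t ≠ 0 := by
    by_contra hne
    simp only [not_exists, ne_eq, not_not] at hne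
    have hli := (linearIndependent_monoidHom (locField q M) (PadicAlgCl (q : ℕ))).comp χ hinj
    have h0 := Fintype.linearIndependent_iff.1 hli (fun g => locNum (b (g.out : LocGal q)))
      (funext fun t => by simpa [Finset.sum_apply] using hne t)
      (QuotientGroup.mk (1 : K))
    exact Units.ne_zero _ h0
  set S := ∑ g, locNum (b (g.out : LocGal q)) * χ g t with hS
  let F : LocGal q → PadicAlgCl (q : ℕ) := fun a => locNum (b a) * a (t : PadicAlgCl (q : ℕ))
  have hFinv : ∀ a, ∀ s ∈ M, F (a * s) = F a := fun a s hs => by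
    simp only [F, AlgEquiv.mul_apply]
    rw [hb a s hs, mem_locField.1 t.2 s hs]
  have hkey : ∀ s ∈ K, locNum (b s) * s S = S := by
    intro s hs
    rw [hS, map_sum, Finset.mul_sum]
    refine Fintype.sum_equiv (MulAction.toPerm (⟨s, hs⟩ : K)) _ _ fun g => ?_
    have e1 : locNum (b (s * (g.out : LocGal q))) =
        s (locNum (b (g.out : LocGal q))) * locNum (b s) := by
      rw [hcross s hs _ g.out.2]
      rfl
    obtain ⟨j, hj, hj'⟩ : ∃ j ∈ M,
        (((MulAction.toPerm (⟨s, hs⟩ : K)) g).out : LocGal q) = s * (g.out : LocGal q) * j := by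
      have h := QuotientGroup.eq.1 (show (QuotientGroup.mk ((⟨s, hs⟩ : K) * g.out) :
          ↥K ⧸ M.subgroupOf K) = QuotientGroup.mk ((MulAction.toPerm (⟨s, hs⟩ : K)) g).out by
        rw [QuotientGroup.out_eq']
        conv_rhs => rw [← QuotientGroup.out_eq' g]
        rfl)
      rw [Subgroup.mem_subgroupOf] at h
      exact ⟨_, h, by push_cast; group⟩
    show _ = F _
    rw [hj', hFinv _ j hj]
    simp only [F]
    rw [e1, map_mul, hχ, AlgEquiv.mul_apply]
    ring
  have hb0 : ∀ s ∈ M, b s = 0 := fun s hs => by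
    have h1 : b 1 = 0 := by
      have e := hcross 1 K.one_mem 1 K.one_mem
      rw [one_mul] at e
      have e' : locAct q 1 (b 1) = b 1 := locVal_ext rfl
      rw [e'] at e
      simpa using e
    have h2 := hb 1 s hs
    rwa [one_mul, h1] at h2
  let z : LocVal q := Additive.ofMul (Units.mk0 S ht)
  have hz : ∀ s ∈ K, b s + locAct q s z = z := fun s hs => locVal_ext (hkey s hs)
  refine ⟨-z, (fixedVal q M).neg_mem fun s hs => ?_, fun s hs => ?_⟩
  · have e := hz s (hle hs)
    rwa [hb0 s hs, zero_add] at e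
  · rw [map_neg]
    linear_combination (norm := abel) -hz s hs

/-- The digit character of `LocGal q` through the roots of unity of order `q ^ n - 1`. -/
theorem exists_unramified_character (q : Nat.Primes) {n : ℕ} [NeZero n] :
    ∃ θ : LocGal q →* Multiplicative (ZMod n),
      (∀ (τ : LocGal q) (i : ℕ),
        (∀ μ : PadicAlgCl (q : ℕ), μ ^ ((q : ℕ) ^ n - 1) = 1 → τ μ = μ ^ ((q : ℕ) ^ i)) →
        θ τ = Multiplicative.ofAdd (i • (1 : ZMod n))) ∧
      rootFixer q ((q : ℕ) ^ n - 1) ≤ θ.ker ∧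
      Function.Surjective θ ∧
      ∀ x ∈ fixedVal q θ.ker, ∃ m : ℤ, x - m • primeVal q ∈ unitVal q := by
  classical
  have hn := NeZero.pos n
  have h1lt : 1 < (q : ℕ) ^ n := Nat.one_lt_pow hn.ne' q.2.one_lt
  set M := (q : ℕ) ^ n - 1 with hMdef
  have hM0 : M ≠ 0 := by omega
  have hMq : (q : ℕ).Coprime M := by
    refine (q.2.coprime_iff_not_dvd).2 fun h => ?_
    have h1 : (q : ℕ) ∣ (q : ℕ) ^ n := dvd_pow_self _ hn.ne'
    have h2 := Nat.dvd_sub h1 h
    rw [hMdef, Nat.sub_sub_self h1lt.le, Nat.dvd_one] at h2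
    exact q.2.ne_one h2
  haveI : NeZero M := ⟨hM0⟩
  haveI : NeZero ((M : ℕ) : PadicAlgCl (q : ℕ)) := ⟨Nat.cast_ne_zero.2 hM0⟩
  obtain ⟨ζ, hζ⟩ := HasEnoughRootsOfUnity.exists_primitiveRoot (PadicAlgCl (q : ℕ)) M
  have hex : ∀ τ : LocGal q, ∃ i : ℕ,
      ∀ μ : PadicAlgCl (q : ℕ), μ ^ M = 1 → τ μ = μ ^ ((q : ℕ) ^ i) := fun τ =>
    exists_frobenius_pow q τ hMq
  choose e he using hex
  have huniq : ∀ i j : ℕ, ζ ^ ((q : ℕ) ^ i) = ζ ^ ((q : ℕ) ^ j) → (i : ZMod n) = (j : ZMod n) := by
    have key : ∀ i j : ℕ, i ≤ j → ζ ^ ((q : ℕ) ^ i) = ζ ^ ((q : ℕ) ^ j) →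
        (i : ZMod n) = (j : ZMod n) := fun i j hij h => by
      have h1 := modEq_of_pow_eq hζ hM0 h
      obtain ⟨d, rfl⟩ := Nat.exists_eq_add_of_le hij
      rw [pow_add] at h1
      have h2 : 1 ≡ (q : ℕ) ^ d [MOD M] := Nat.ModEq.cancel_left_of_coprime
        (c := (q : ℕ) ^ i) (Nat.Coprime.pow_left i hMq).symm (by rwa [mul_one])
      have h3 : n ∣ d := dvd_of_pow_modEq_one q.2.two_le hn h2.symm
      rw [Nat.cast_add, show (d : ZMod n) = 0 from (ZMod.natCast_eq_zero_iff _ _).2 h3, add_zero]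
    intro i j h
    rcases le_total i j with hij | hij
    · exact key i j hij h
    · exact (key j i hij h.symm).symm
  let θ : LocGal q →* Multiplicative (ZMod n) := MonoidHom.mk'
    (fun τ => Multiplicative.ofAdd (e τ : ZMod n)) fun a b => by
      rw [← ofAdd_add, ← Nat.cast_add]
      refine congrArg _ (huniq _ _ ?_)
      rw [← he (a * b) ζ hζ.pow_eq_one, AlgEquiv.mul_apply, he b ζ hζ.pow_eq_one, map_pow,
        he a ζ hζ.pow_eq_one, ← pow_mul, pow_add]
  have hθ : ∀ (τ : LocGal q) (i : ℕ),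
      (∀ μ : PadicAlgCl (q : ℕ), μ ^ M = 1 → τ μ = μ ^ ((q : ℕ) ^ i)) →
      θ τ = Multiplicative.ofAdd (i • (1 : ZMod n)) := fun τ i hi => by
    rw [nsmul_one]
    exact congrArg Multiplicative.ofAdd (huniq _ _ ((he τ ζ hζ.pow_eq_one).symm.trans (hi ζ hζ.pow_eq_one)))
  have hroot : rootFixer q M ≤ θ.ker := fun τ hτ => by
    rw [MonoidHom.mem_ker, hθ τ 0 fun μ hμ => by rw [pow_zero, pow_one]; exact hτ μ hμ,
      zero_smul, ofAdd_zero]
  have hlev : IsLocLevel θ.ker := (isLocLevel_rootFixer hM0).mono hroot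
  -- the kernel fixes the roots of unity
  have hker : θ.ker ≤ rootFixer q M := fun τ hτ μ hμ => by
    have h0 : (e τ : ZMod n) = 0 := Multiplicative.ofAdd.injective (MonoidHom.mem_ker.1 hτ)
    obtain ⟨d, hd⟩ := (ZMod.natCast_eq_zero_iff _ _).1 h0
    have hpow : ∀ k : ℕ, μ ^ ((q : ℕ) ^ (n * k)) = μ := fun k => by
      induction k with
      | zero => simp
      | succ k ih =>
        rw [mul_add, mul_one, pow_add, pow_mul, ih,
          show (q : ℕ) ^ n = M + 1 by omega, pow_succ, hμ, one_mul]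
    rw [he τ μ hμ, hd, hpow]
  obtain ⟨E⟩ := nonempty_levelData hlev
  have hf : n ∣ E.f := by
    refine dvd_of_pow_modEq_one q.2.two_le hn ?_
    refine Nat.ModEq.symm ((Nat.modEq_iff_dvd' (Nat.one_le_pow _ _ q.2.pos)).2 ?_)
    exact hζ.dvd_of_pow_eq_one _ (E.pow_eq_one hMq hζ.pow_eq_one
      fun τ hτ => hker hτ ζ hζ.pow_eq_one)
  have hle : θ.ker.index ≤ n := by
    rw [Subgroup.index_ker]
    refine (Subgroup.card_le_card_group _).trans (le_of_eq ?_)
    rw [Nat.card_congr Multiplicative.toAdd, Nat.card_zmod]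
  have he0 : 0 < E.e := Nat.pos_of_ne_zero fun h => by
    have := E.norm_eq
    rw [h, pow_zero] at this
    exact (norm_natCast_prime_lt_one q).ne this.symm
  have h1 : n ≤ E.f := Nat.le_of_dvd E.f_pos hf
  have h2 : E.e * E.f = θ.ker.index := E.mul_eq
  have he1 : E.e = 1 := by nlinarith
  have hidx : θ.ker.index = n := by
    rw [he1, one_mul] at h2
    omega
  refine ⟨θ, hθ, hroot, MonoidHom.range_eq_top.1 (Subgroup.eq_top_of_card_eq _ ?_), fun x hx => ?_⟩
  · rw [← Subgroup.index_ker, hidx, Nat.card_congr Multiplicative.toAdd, Nat.card_zmod]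
  · obtain ⟨m, hm⟩ := E.exists_val x hx
    refine ⟨m, ?_⟩
    have h := E.prime_val
    rw [he1, Nat.cast_one, one_smul] at h
    rw [show x - m • primeVal q = (x - m • E.pi) - m • (primeVal q - E.pi) by
      rw [zsmul_sub]; abel]
    exact (unitVal q).sub_mem hm ((unitVal q).zsmul_mem h m)

/-- The multiples of the prime which are units vanish. -/
theorem eq_zero_of_zsmul_primeVal_mem {k : ℤ} (h : k • primeVal q ∈ unitVal q) : k = 0 := by
  rw [mem_unitVal_iff_locNum, locNum_zsmul, norm_zpow] at h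
  have h0 : 0 < ‖locNum (primeVal q)‖ := norm_pos_iff.2 (Units.ne_zero _)
  exact (zpow_eq_one_iff_right₀ h0.le (norm_natCast_prime_lt_one q).ne).1 h

/-- The local layer of a normal level is a class module. -/
theorem exists_isClassModule_local {p : ℕ} [Fact p.Prime] (Nv : Subgroup (LocGal q)) [Nv.Normal]
    (hNv : IsLocLevel Nv) :
    ∃ w : (LocGal q ⧸ Nv) × (LocGal q ⧸ Nv) → ↥(fixedPts Nv (LocVal q)),
      IsClassModule p (LocGal q ⧸ Nv) ↥(fixedPts Nv (LocVal q)) w := by
  classical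
  have hp := (Fact.out : p.Prime)
  haveI : Nv.FiniteIndex := ⟨hNv.index_ne_zero⟩
  haveI : Finite (LocGal q ⧸ Nv) := inferInstance
  have hlayers : CyclicLayers p (LocGal q ⧸ Nv) ↥(fixedPts Nv (LocVal q)) := by
    refine cyclicLayersIdx_quot Nv p p (fun U σ hU _ hσ hσp hnorm c hc hsum => ?_)
      fun U σ hU _ hσ hσp hnorm => ?_
    · refine (IsCycLayer.of_prime hp (hNv.mono hU) hnorm hσ hσp).exists_sub_of_normVal_eq_zero
        hc ?_
      rw [normVal, AddMonoidHom.finsetSum_apply]
      exact hsum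
    · exact (IsCycLayer.of_prime hp (hNv.mono hU) hnorm hσ hσp).relIndex_normVal
  let P : Sylow p (LocGal q ⧸ Nv) := default
  set a := (Nat.card (LocGal q ⧸ Nv)).factorization p with ha
  set n := p ^ a with hndef
  haveI : NeZero n := ⟨pow_ne_zero _ hp.ne_zero⟩
  have hn : n ≠ 0 := NeZero.ne n
  obtain ⟨θ, hθ, hroot, hsurj, hval⟩ := exists_unramified_character q (n := n)
  have h1lt : 1 < (q : ℕ) ^ n := Nat.one_lt_pow hn q.2.one_lt
  set M := (q : ℕ) ^ n - 1 with hMdef
  have hM : (q : ℕ).Coprime M := by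
    refine (q.2.coprime_iff_not_dvd).2 fun h => ?_
    have h1 : (q : ℕ) ∣ (q : ℕ) ^ n := dvd_pow_self _ hn
    have h2 := Nat.dvd_sub h1 h
    rw [hMdef, Nat.sub_sub_self h1lt.le, Nat.dvd_one] at h2
    exact q.2.ne_one h2
  have hM0 : M ≠ 0 := by omega
  have hΛ : Nv.index • (1 : ZMod n) = 0 := by
    rw [nsmul_one, ZMod.natCast_eq_zero_iff, Subgroup.index_eq_card]
    exact Nat.ordProj_dvd _ _
  obtain ⟨w, y, hw, hwinv, hwfix, hyfix, hyinv, hwy⟩ := exists_local_cocycle hNv hM θ hθ hΛ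
  let u : (LocGal q ⧸ Nv) × (LocGal q ⧸ Nv) → ↥(fixedPts Nv (LocVal q)) := fun x =>
    ⟨w x.1.out x.2.out, hwfix _ _⟩
  have hu : ∀ g h : LocGal q, ((u (QuotientGroup.mk g, QuotientGroup.mk h) :
      fixedPts Nv (LocVal q)) : LocVal q) = w g h := by
    intro g h
    obtain ⟨k, hk, hk'⟩ : ∃ k ∈ Nv, (QuotientGroup.mk g : LocGal q ⧸ Nv).out = g * k :=
      ⟨_, QuotientGroup.eq.1 (QuotientGroup.out_eq' _).symm, (mul_inv_cancel_left g _).symm⟩
    obtain ⟨j, hj, hj'⟩ : ∃ j ∈ Nv, (QuotientGroup.mk h : LocGal q ⧸ Nv).out = h * j :=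
      ⟨_, QuotientGroup.eq.1 (QuotientGroup.out_eq' _).symm, (mul_inv_cancel_left h _).symm⟩
    show w _ _ = _
    rw [hk', hj', (hwinv g (h * j) k hk).1, (hwinv g h j hj).2]
  have huc : IsCocycle₂ u := by
    intro g h j
    induction g using QuotientGroup.induction_on with | H g => ?_
    induction h using QuotientGroup.induction_on with | H h => ?_
    induction j using QuotientGroup.induction_on with | H j => ?_
    refine Subtype.ext ?_
    rw [← QuotientGroup.mk_mul, ← QuotientGroup.mk_mul]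
    simp only [AddSubgroup.coe_add, coe_quot_smul, hu, locVal_smul_def]
    exact hw g h j
  refine ⟨u, hlayers.isClassModule (u := ⟨u, huc⟩) P fun k hk => ?_⟩
  rw [P.card_eq_multiplicity, ← ha, ← hndef]
  rcases eq_or_ne n 1 with hn1 | hn1
  · rw [hn1, Nat.cast_one]; exact one_dvd _
  obtain ⟨x, hx⟩ := hk
  -- the carry is a coboundary on the layer
  set Mv := Nv ⊓ θ.ker with hMv
  have hMvlev : IsLocLevel Mv :=
    (isLocLevel_inf hNv (isLocLevel_rootFixer hM0)).mono (inf_le_inf_left _ hroot)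
  let b : LocGal q → LocVal q := fun g => k • y g + (x (QuotientGroup.mk g) : LocVal q)
  have hbinv : ∀ g, ∀ s ∈ Mv, b (g * s) = b g := fun g s hs => by
    have e : (QuotientGroup.mk (g * s) : LocGal q ⧸ Nv) = QuotientGroup.mk g :=
      QuotientGroup.eq.2 (by simpa using hs.1)
    simp only [b, hyinv g s hs, e]
  have hbeq : ∀ g h, locAct q g (b h) - b (g * h) + b g = (k * thetaCarry θ g h) • primeVal q := by
    intro g h
    have e1 := congrArg Subtype.val (hx (QuotientGroup.mk g) (QuotientGroup.mk h))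
    rw [← QuotientGroup.mk_mul] at e1
    simp only [AddSubgroup.coe_add, AddSubgroup.coe_sub, AddSubgroup.coe_zsmul, coe_quot_smul, hu,
      locVal_smul_def] at e1
    have e2 := congrArg (k • ·) (hwy g h)
    simp only [zsmul_sub, zsmul_add, ← mul_smul] at e2
    simp only [b, map_add, map_zsmul]
    linear_combination (norm := abel) e1 - e2
  let d : Digits (LocGal q) n :=
    { e := fun g => (Multiplicative.toAdd (θ g)).val
      lt := fun g => ZMod.val_lt _
      hom := fun g h => by rw [map_mul, toAdd_mul, ZMod.val_add] }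
  have hd : ∀ g h, thetaCarry θ g h = d.carry g h := fun _ _ => rfl
  have hdker : ∀ s ∈ θ.ker, d.e s = 0 := fun s hs => by
    show (Multiplicative.toAdd (θ s)).val = 0
    rw [MonoidHom.mem_ker.1 hs, toAdd_one, ZMod.val_zero]
  have hcl : ∀ s ∈ θ.ker, ∀ g, d.carry s g = 0 ∧ d.carry g s = 0 := fun s hs g => by
    have e := Nat.div_eq_of_lt (d.lt g)
    simp only [Digits.carry, hdker s hs, zero_add, add_zero, e]
    exact ⟨rfl, rfl⟩
  have hcross : ∀ s ∈ θ.ker, ∀ t ∈ θ.ker, b (s * t) = locAct q s (b t) + b s := by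
    intro s hs t _
    have e := hbeq s t
    rw [hd, (hcl s hs t).1, mul_zero, zero_smul] at e
    linear_combination (norm := abel) -e
  obtain ⟨x₀, hx₀, hx₀'⟩ :=
    exists_locAct_sub_eq hMvlev inf_le_right b hbinv hcross
  let c : LocGal q → LocVal q := fun g => b g - (locAct q g x₀ - x₀)
  have hceq : ∀ g h, locAct q g (c h) - c (g * h) + c g = (k * d.carry g h) • primeVal q := by
    intro g h
    rw [← hd, ← hbeq]
    have e : locAct q (g * h) x₀ = locAct q g (locAct q h x₀) := locVal_ext rfl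
    simp only [c, map_sub, e]
    abel
  have hc0 : ∀ s ∈ θ.ker, c s = 0 := fun s hs => sub_eq_zero.2 (hx₀' s hs).symm
  have hcinv : ∀ g, ∀ s ∈ θ.ker, c (g * s) = c g := fun g s hs => by
    have e := hceq g s
    rw [hc0 s hs, map_zero, (hcl s hs g).2, mul_zero, zero_smul] at e
    linear_combination (norm := abel) -e
  have hcfix : ∀ g, c g ∈ fixedVal q θ.ker := fun g s hs => by
    have e := hceq s g
    have e' : c (s * g) = c g := by
      have h := hcinv g (g⁻¹ * s * g) (by
        simpa using θ.normal_ker.conj_mem s hs g⁻¹)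
      rw [← h]; congr 1; group
    rw [hc0 s hs, e', add_zero, (hcl s hs g).1, mul_zero, zero_smul] at e
    exact sub_eq_zero.1 e
  obtain ⟨σ, hσ⟩ := hsurj (Multiplicative.ofAdd 1)
  have hσe : d.e σ = 1 % n := by
    show (Multiplicative.toAdd (θ σ)).val = _
    rw [hσ, toAdd_ofAdd, ← Nat.cast_one, ZMod.val_natCast]
  have hσn : σ ^ n ∈ θ.ker := by
    rw [MonoidHom.mem_ker, map_pow, hσ, ← ofAdd_nsmul, nsmul_one, ZMod.natCast_self, ofAdd_zero]
  have hsum : normVal q σ n (c σ) = k • primeVal q := by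
    have e : ∀ i ∈ Finset.range n, locAct q (σ ^ i) (c σ) =
        (k * d.carry (σ ^ i) σ) • primeVal q + (c (σ ^ (i + 1)) - c (σ ^ i)) := fun i _ => by
      rw [← hceq, ← pow_succ]; abel
    rw [normVal, AddMonoidHom.finsetSum_apply, Finset.sum_congr rfl e, Finset.sum_add_distrib,
      Finset.sum_range_sub (fun i => c (σ ^ i)), hc0 _ hσn, pow_zero, hc0 _ (one_mem _),
      sub_self, add_zero]
    rw [show (∑ i ∈ Finset.range n, (k * d.carry (σ ^ i) σ) • primeVal q) =
      (∑ i ∈ Finset.range n, k * d.carry (σ ^ i) σ) • primeVal q from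
        (map_sum (zmultiplesHom (LocVal q) (primeVal q)) _ _).symm,
      ← Finset.mul_sum, d.sum_carry hn hn1 hσe, mul_one]
  obtain ⟨m, hm⟩ := hval (c σ) (hcfix σ)
  refine ⟨m, ?_⟩
  refine sub_eq_zero.1 (eq_zero_of_zsmul_primeVal_mem (q := q) ?_)
  have hu2 : normVal q σ n (c σ - m • primeVal q) ∈ unitVal q := by
    rw [normVal, AddMonoidHom.finsetSum_apply]
    refine AddSubgroup.sum_mem _ fun i _ => ?_
    rw [mem_unitVal_iff_locNum] at hm ⊢
    exact (norm_locGal (σ ^ i) _).trans hm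
  have e3 : normVal q σ n (m • primeVal q) = ((n : ℤ) * m) • primeVal q := by
    rw [normVal, AddMonoidHom.finsetSum_apply]
    simp only [map_zsmul, locAct_primeVal, Finset.sum_const, Finset.card_range]
    rw [← natCast_zsmul, ← mul_smul]
  rw [map_sub, hsum, e3, ← sub_smul] at hu2
  exact hu2

/-- The value groups of a level containing the `p`-th roots of unity are finite mod `p`. -/
theorem finModP_fixedVal {p : ℕ} [Fact p.Prime] {H : Subgroup (LocGal q)} (hH : IsLocLevel H)
    {ζ : PadicAlgCl (q : ℕ)} (hζ : IsPrimitiveRoot ζ p) (hfix : ∀ τ ∈ H, τ ζ = ζ) :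
    FinModP p ↥(fixedVal q H) := by
  have hp := (Fact.out : p.Prime)
  haveI : NeZero p := ⟨hp.ne_zero⟩
  constructor
  · refine Finite.of_injective
      (fun t : TorP p ↥(fixedVal q H) =>
        (⟨Additive.toMul ((torVal t : fixedVal q H) : LocVal q), ?_⟩ :
          rootsOfUnity p (PadicAlgCl (q : ℕ)))) fun t t' e => ?_
    · rw [mem_rootsOfUnity, ← toMul_nsmul]
      have e := congrArg Subtype.val (nsmul_torVal t)
      rw [AddSubmonoidClass.coe_nsmul, AddSubgroup.coe_zero] at e
      rw [e, toMul_zero]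
    · exact torVal_injective (Subtype.ext (Additive.toMul.injective (Subtype.ext_iff.1 e :)))
  · have hidx : ((nsmulAddMonoidHom p : fixedVal q H →+ fixedVal q H).range).index ≠ 0 := by
      have e : (nsmulAddMonoidHom p : fixedVal q H →+ fixedVal q H).range =
          ((fixedVal q H).map (nsmulAddMonoidHom p)).addSubgroupOf (fixedVal q H) := by
        ext z
        constructor
        · rintro ⟨y, rfl⟩
          exact ⟨y, y.2, rfl⟩
        · rintro ⟨y, hy, he⟩
          exact ⟨⟨y, hy⟩, Subtype.ext he⟩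
      rw [e]
      show ((fixedVal q H).map (nsmulAddMonoidHom p)).relIndex (fixedVal q H) ≠ 0
      rw [relIndex_nsmul_fixedVal hH hp hζ hfix]
      refine mul_ne_zero (pow_ne_zero _ hp.ne_zero) ?_
      split_ifs
      · exact pow_ne_zero _ q.2.ne_zero
      · exact one_ne_zero
    haveI : (nsmulAddMonoidHom p : fixedVal q H →+ fixedVal q H).range.FiniteIndex := ⟨hidx⟩
    exact inferInstanceAs (Finite (↥(fixedVal q H) ⧸ _))

/-- For a layer on which the cyclotomic character is trivial, every completion is a class module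
with values finite mod `p`. -/
theorem exists_localClassModule (p : ℕ) [Fact p.Prime] (T : Finset Nat.Primes)
    (hpT : ExtCitation.pPrime p ∈ T) (L : IntermediateField ℚ (AlgebraicClosure ℚ))
    (hL : IsLvl T L) (hcyc : ∀ s ∈ L.fixingSubgroup, ExtCitation.cycloChar p s = 1) (q : ↥T) :
    letI Nv : Subgroup (LocGal q.1) := L.fixingSubgroup.comap (loc q.1)
    haveI : Nv.Normal := Subgroup.Normal.comap hL.normal (loc q.1)
    FinModP p ↥(fixedPts Nv (LocVal q.1)) ∧
      ∃ w : (LocGal q.1 ⧸ Nv) × (LocGal q.1 ⧸ Nv) → ↥(fixedPts Nv (LocVal q.1)),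
        IsClassModule p (LocGal q.1 ⧸ Nv) ↥(fixedPts Nv (LocVal q.1)) w := by
  set Nv : Subgroup (LocGal q.1) := L.fixingSubgroup.comap (loc q.1) with hNvdef
  haveI := hL.unramified.1
  haveI : Nv.Normal := Subgroup.Normal.comap hL.normal (loc q.1)
  have hlev : IsLocLevel Nv :=
    (isLocLevel_locSub (q := q.1) le_rfl (1 : GQ)).mono fun τ hτ => by
      have h := mem_locSub.1 hτ
      rw [inv_one, one_mul, mul_one] at h
      exact h
  haveI : NeZero p := ⟨(Fact.out : p.Prime).ne_zero⟩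
  obtain ⟨ζ, hζ⟩ := HasEnoughRootsOfUnity.exists_primitiveRoot (AlgebraicClosure ℚ) p
  refine ⟨finModP_fixedVal hlev
    (hζ.map_of_injective (f := padicEmbedding (q.1 : ℕ)) (padicEmbedding (q.1 : ℕ)).injective)
    fun τ hτ => ?_, exists_isClassModule_local Nv hlev⟩
  rw [← padicEmbedding_loc, apply_eq_self_of_cycloChar_eq_one (hcyc _ hτ) hζ.pow_eq_one]

end Fermat.Agent.TW
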