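/-
`Ext¹` of a finite `p`-torsion module of a finite group, computed by the standard free
presentation, with the long exact sequence and its consequence for cardinalities.
-/
import Mathlib.Data.Finsupp.Basic
import Mathlib.Algebra.Module.ZMod
import Mathlib.GroupTheory.Coset.Card
import Mathlib.GroupTheory.QuotientGroup.Basic
import Mathlib.RepresentationTheory.Basic

set_option autoImplicit false

noncomputable section

namespace Fermat.Agent.TW.ExtOne

variable {p : ℕ} {G : Type} [Group G] {N : Type} [AddCommGroup N] [Module (ZMod p) N]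
variable (ρ : Representation (ZMod p) G N)

/-- The free module on `N`. -/
abbrev FreeMod (G N : Type) : Type := (G × N) →₀ ℤ

/-- The action on the free module. -/
def freeAct (σ : G) : FreeMod G N →+ FreeMod G N :=
  Finsupp.mapDomain.addMonoidHom fun x => (σ * x.1, x.2)

omit [AddCommGroup N] in
@[simp] theorem freeAct_single (σ g : G) (n : N) (m : ℤ) :
    freeAct σ (Finsupp.single (g, n) m) = Finsupp.single (σ * g, n) m :=
  Finsupp.mapDomain_single

/-- The presentation `FreeMod G N → N`. -/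
def freeMap : FreeMod G N →+ N :=
  Finsupp.liftAddHom fun x => zmultiplesHom N (ρ x.1 x.2)

@[simp] theorem freeMap_single (g : G) (n : N) (m : ℤ) :
    freeMap ρ (Finsupp.single (g, n) m) = m • ρ g n := by
  simp [freeMap]

theorem freeMap_act (σ : G) (x : FreeMod G N) :
    freeMap ρ (freeAct σ x) = ρ σ (freeMap ρ x) := by
  suffices h : (freeMap ρ).comp (freeAct σ) = (ρ σ).toAddMonoidHom.comp (freeMap ρ) from
    DFunLike.congr_fun h x
  refine Finsupp.addHom_ext fun x m => ?_
  obtain ⟨g, n⟩ := x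
  simp [map_zsmul, map_mul]

theorem freeMap_surjective : Function.Surjective (freeMap ρ) :=
  fun n => ⟨Finsupp.single (1, n) 1, by simp⟩

/-- The relations. -/
abbrev relMod : AddSubgroup (FreeMod G N) := (freeMap ρ).ker

/-- The action on the relations. -/
def relAct (σ : G) (r : relMod ρ) : relMod ρ :=
  ⟨freeAct σ r, by rw [AddMonoidHom.mem_ker, freeMap_act, r.2, map_zero]⟩

@[simp] theorem coe_relAct (σ : G) (r : relMod ρ) :
    ((relAct ρ σ r : relMod ρ) : FreeMod G N) = freeAct σ r := rfl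

theorem nsmul_mem_relMod (x : FreeMod G N) : p • x ∈ relMod ρ := by
  rw [AddMonoidHom.mem_ker, map_nsmul, ← Nat.cast_smul_eq_nsmul (ZMod p), ZMod.natCast_self,
    zero_smul]

variable (X : Type) [AddCommGroup X] [DistribMulAction G X]

/-- Equivariant maps out of the relations. -/
def homRel : AddSubgroup (↥(relMod ρ) →+ X) where
  carrier := {f | ∀ σ r, f (relAct ρ σ r) = σ • f r}
  zero_mem' σ r := by simp
  add_mem' hf hg σ r := by simp [hf σ r, hg σ r]
  neg_mem' hf σ r := by simp [hf σ r]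

/-- Equivariant maps out of `N`. -/
def homN : AddSubgroup (N →+ X) where
  carrier := {f | ∀ σ n, f (ρ σ n) = σ • f n}
  zero_mem' σ n := by simp
  add_mem' hf hg σ n := by simp [hf σ n, hg σ n]
  neg_mem' hf σ n := by simp [hf σ n]

variable {ρ} {X}

theorem mem_homRel {f : ↥(relMod ρ) →+ X} :
    f ∈ homRel ρ X ↔ ∀ σ r, f (relAct ρ σ r) = σ • f r := Iff.rfl

theorem mem_homN {f : N →+ X} : f ∈ homN ρ X ↔ ∀ σ n, f (ρ σ n) = σ • f n := Iff.rfl

/-- The equivariant map out of the free module with given values on the generators. -/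
def freeHom (b : N → X) : FreeMod G N →+ X :=
  Finsupp.liftAddHom fun x => zmultiplesHom X (x.1 • b x.2)

omit [AddCommGroup N] in
@[simp] theorem freeHom_single (b : N → X) (g : G) (n : N) (m : ℤ) :
    freeHom b (Finsupp.single (g, n) m) = m • (g • b n) := by
  simp [freeHom]

omit [AddCommGroup N] in
theorem freeHom_act (b : N → X) (σ : G) (x : FreeMod G N) :
    freeHom b (freeAct σ x) = σ • freeHom b x := by
  suffices h : (freeHom b).comp (freeAct σ)
      = (DistribSMul.toAddMonoidHom X σ).comp (freeHom (G := G) b) from DFunLike.congr_fun h x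
  refine Finsupp.addHom_ext fun x m => ?_
  obtain ⟨g, n⟩ := x
  simp [mul_smul, smul_comm σ m]

omit [AddCommGroup N] in
/-- Every equivariant map out of the free module is determined by its values at the generators. -/
theorem eq_freeHom (ψ : FreeMod G N →+ X) (hψ : ∀ σ x, ψ (freeAct σ x) = σ • ψ x) :
    ψ = freeHom fun n => ψ (Finsupp.single (1, n) 1) := by
  refine Finsupp.addHom_ext fun x m => ?_
  obtain ⟨g, n⟩ := x
  rw [freeHom_single, ← hψ, freeAct_single, mul_one, ← map_zsmul, Finsupp.smul_single, smul_eq_mul,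
    mul_one]

variable (ρ) (X)

/-- Restriction from the free module. -/
def resRel : (N → X) →+ homRel ρ X where
  toFun b := ⟨(freeHom b).comp (relMod ρ).subtype, fun σ r => freeHom_act b σ r⟩
  map_zero' := by
    refine Subtype.ext (DFunLike.ext _ _ fun r => ?_)
    show freeHom (0 : N → X) (r : FreeMod G N) = 0
    rw [show freeHom (G := G) (0 : N → X) = 0 from Finsupp.addHom_ext fun x m => by
      obtain ⟨g, n⟩ := x; simp]
    rfl
  map_add' b b' := by
    refine Subtype.ext (DFunLike.ext _ _ fun r => ?_)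
    show freeHom (b + b') (r : FreeMod G N) = freeHom b (r : FreeMod G N) + freeHom b' (r : FreeMod G N)
    rw [show freeHom (G := G) (b + b') = freeHom b + freeHom b' from
      Finsupp.addHom_ext fun x m => by obtain ⟨g, n⟩ := x; simp]
    rfl

@[simp] theorem resRel_apply (b : N → X) (r : relMod ρ) :
    (resRel ρ X b : ↥(relMod ρ) →+ X) r = freeHom b (r : FreeMod G N) := rfl

/-- `Ext¹(N, X)`. -/
abbrev Ext1 : Type := homRel ρ X ⧸ (resRel ρ X).range

/-- The class of an equivariant map on the relations. -/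
abbrev extMk : homRel ρ X →+ Ext1 ρ X := QuotientAddGroup.mk' _

variable {X}

theorem extMk_eq_zero_iff (f : homRel ρ X) :
    extMk ρ X f = 0 ↔ ∃ b : N → X, resRel ρ X b = f := QuotientAddGroup.eq_zero_iff f

/-- `Ext¹` is killed by `p`. -/
theorem nsmul_ext1_eq_zero (x : Ext1 ρ X) : p • x = 0 := by
  obtain ⟨f, rfl⟩ := QuotientAddGroup.mk'_surjective _ x
  rw [← map_nsmul, extMk_eq_zero_iff]
  let ψ : FreeMod G N →+ X :=
    (f : ↥(relMod ρ) →+ X).comp
      ((nsmulAddMonoidHom p).codRestrict (relMod ρ) fun x => nsmul_mem_relMod ρ x)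
  have hψ : ∀ σ x, ψ (freeAct σ x) = σ • ψ x := fun σ x => by
    show (f : ↥(relMod ρ) →+ X) ⟨p • freeAct σ x, _⟩ = σ • _
    rw [show (⟨p • freeAct σ x, nsmul_mem_relMod ρ _⟩ : relMod ρ)
      = relAct ρ σ ⟨p • x, nsmul_mem_relMod ρ x⟩ from Subtype.ext (map_nsmul _ _ _).symm, f.2]
    rfl
  refine ⟨fun n => ψ (Finsupp.single (1, n) 1), Subtype.ext (DFunLike.ext _ _ fun r => ?_)⟩
  rw [resRel_apply, ← eq_freeHom ψ hψ]
  show (f : ↥(relMod ρ) →+ X) ⟨p • (r : FreeMod G N), _⟩ = p • (f : ↥(relMod ρ) →+ X) r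
  rw [← map_nsmul]
  rfl

variable {Y : Type} [AddCommGroup Y] [DistribMulAction G Y]

/-- Functoriality of `Hom`. -/
def homNMap (q : X →+[G] Y) : homN ρ X →+ homN ρ Y where
  toFun f := ⟨q.toAddMonoidHom.comp f, fun σ n => by simp [f.2 σ n]⟩
  map_zero' := Subtype.ext (DFunLike.ext _ _ fun n => map_zero q)
  map_add' f g := Subtype.ext (DFunLike.ext _ _ fun n => map_add q _ _)

@[simp] theorem homNMap_apply (q : X →+[G] Y) (f : homN ρ X) (n : N) :
    (homNMap ρ q f : N →+ Y) n = q ((f : N →+ X) n) := rfl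

/-- Functoriality of the maps on relations. -/
def homRelMap (q : X →+[G] Y) : homRel ρ X →+ homRel ρ Y where
  toFun f := ⟨q.toAddMonoidHom.comp f, fun σ r => by simp [f.2 σ r]⟩
  map_zero' := Subtype.ext (DFunLike.ext _ _ fun n => map_zero q)
  map_add' f g := Subtype.ext (DFunLike.ext _ _ fun n => map_add q _ _)

@[simp] theorem homRelMap_apply (q : X →+[G] Y) (f : homRel ρ X) (r : relMod ρ) :
    (homRelMap ρ q f : ↥(relMod ρ) →+ Y) r = q ((f : ↥(relMod ρ) →+ X) r) := rfl

omit [AddCommGroup N] in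
theorem comp_freeHom (q : X →+[G] Y) (b : N → X) (x : FreeMod G N) :
    q (freeHom b x) = freeHom (fun n => q (b n)) x := by
  suffices h : q.toAddMonoidHom.comp (freeHom (G := G) b) = freeHom fun n => q (b n) from
    DFunLike.congr_fun h x
  refine Finsupp.addHom_ext fun x m => ?_
  obtain ⟨g, n⟩ := x
  simp [map_zsmul]

theorem homRelMap_resRel (q : X →+[G] Y) (b : N → X) :
    homRelMap ρ q (resRel ρ X b) = resRel ρ Y fun n => q (b n) :=
  Subtype.ext (DFunLike.ext _ _ fun r => by simp [comp_freeHom])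

/-- Functoriality of `Ext¹`. -/
def ext1Map (q : X →+[G] Y) : Ext1 ρ X →+ Ext1 ρ Y :=
  QuotientAddGroup.map _ _ (homRelMap ρ q) fun f ⟨b, hb⟩ =>
    ⟨fun n => q (b n), by rw [← hb, homRelMap_resRel]⟩

@[simp] theorem ext1Map_mk (q : X →+[G] Y) (f : homRel ρ X) :
    ext1Map ρ q (extMk ρ X f) = extMk ρ Y (homRelMap ρ q f) := rfl

variable {Z : Type} [AddCommGroup Z] [DistribMulAction G Z]

/-- A short exact sequence of modules. -/
structure IsShortExact (i : X →+[G] Y) (q : Y →+[G] Z) : Prop where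
  injective : Function.Injective i
  surjective : Function.Surjective q
  exact : ∀ y, q y = 0 ↔ ∃ x, i x = y

namespace IsShortExact

variable {ρ} {i : X →+[G] Y} {q : Y →+[G] Z} (h : IsShortExact i q)
include h

omit ρ in
theorem comp_eq_zero (x : X) : q (i x) = 0 := (h.exact _).2 ⟨x, rfl⟩

theorem ext1Map_exact (z : Ext1 ρ Y) : ext1Map ρ q z = 0 ↔ ∃ y, ext1Map ρ i y = z := by
  constructor
  · intro hz
    obtain ⟨f, rfl⟩ := QuotientAddGroup.mk'_surjective _ z
    change extMk ρ Z (homRelMap ρ q f) = 0 at hz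
    obtain ⟨c, hc⟩ := (extMk_eq_zero_iff ρ _).1 hz
    have hb : ∀ n, ∃ y, q y = c n := fun n => h.surjective (c n)
    choose b hb using hb
    have hmem : ∀ r, q (((f - resRel ρ Y b : homRel ρ Y) : ↥(relMod ρ) →+ Y) r) = 0 := fun r => by
      have e := DFunLike.congr_fun (congrArg Subtype.val hc) r
      rw [resRel_apply, homRelMap_apply] at e
      simp [comp_freeHom, hb, ← e]
    choose g hg using fun r => (h.exact _).1 (hmem r)
    let g' : ↥(relMod ρ) →+ X :=
      { toFun := g
        map_zero' := h.injective (by rw [hg, map_zero, map_zero])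
        map_add' := fun r s => h.injective (by rw [map_add, hg, hg, hg, map_add]) }
    have hg' : g' ∈ homRel ρ X := fun σ r => h.injective (by
      show i (g (relAct ρ σ r)) = i (σ • g r)
      rw [map_smul, hg, hg, ((f - resRel ρ Y b : homRel ρ Y)).2 σ r])
    refine ⟨extMk ρ X ⟨g', hg'⟩, ?_⟩
    have hgg : homRelMap ρ i ⟨g', hg'⟩ = f - resRel ρ Y b :=
      Subtype.ext (DFunLike.ext _ _ hg)
    rw [ext1Map_mk, hgg, map_sub, (extMk_eq_zero_iff ρ _).2 ⟨b, rfl⟩, sub_zero]
  · rintro ⟨y, rfl⟩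
    obtain ⟨f, rfl⟩ := QuotientAddGroup.mk'_surjective _ y
    change extMk ρ Z (homRelMap ρ q (homRelMap ρ i f)) = 0
    rw [show homRelMap ρ q (homRelMap ρ i f) = 0 from
      Subtype.ext (DFunLike.ext _ _ fun r => h.comp_eq_zero _), map_zero]

theorem homNMap_injective : Function.Injective (homNMap ρ i) := fun f g e =>
  Subtype.ext (DFunLike.ext _ _ fun n =>
    h.injective (DFunLike.congr_fun (congrArg Subtype.val e) n))

theorem homNMap_exact (z : homN ρ Y) : homNMap ρ q z = 0 ↔ ∃ y, homNMap ρ i y = z := by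
  constructor
  · intro hz
    choose g hg using fun n => (h.exact _).1 (DFunLike.congr_fun (congrArg Subtype.val hz) n)
    let g' : N →+ X :=
      { toFun := g
        map_zero' := h.injective (by rw [hg, map_zero, map_zero])
        map_add' := fun r s => h.injective (by rw [map_add, hg, hg, hg, map_add]) }
    exact ⟨⟨g', fun σ n => h.injective (by
      show i (g (ρ σ n)) = i (σ • g n)
      rw [map_smul, hg, hg, z.2 σ n])⟩, Subtype.ext (DFunLike.ext _ _ hg)⟩
  · rintro ⟨y, rfl⟩
    exact Subtype.ext (DFunLike.ext _ _ fun n => h.comp_eq_zero _)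

/-- The connecting map, as a relation: `ψ : N → Z` lifts to `freeHom b`, whose restriction to
the relations takes values in `X`. -/
theorem exists_delta_value (ψ : homN ρ Z) (b : N → Y) (hb : ∀ n, q (b n) = (ψ : N →+ Z) n) :
    ∃ f : homRel ρ X, ∀ r, i ((f : ↥(relMod ρ) →+ X) r) = freeHom b (r : FreeMod G N) := by
  have hq : ∀ x, q (freeHom b x) = (ψ : N →+ Z) (freeMap ρ x) := fun x => by
    rw [comp_freeHom]
    suffices e : freeHom (G := G) (fun n => q (b n)) = (ψ : N →+ Z).comp (freeMap ρ) from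
      DFunLike.congr_fun e x
    refine Finsupp.addHom_ext fun x m => ?_
    obtain ⟨g, n⟩ := x
    simp [hb, map_zsmul, ψ.2 g n]
  choose g hg using fun r : relMod ρ => (h.exact _).1 (by
    rw [hq, r.2, map_zero] : q (freeHom b (r : FreeMod G N)) = 0)
  refine ⟨⟨{ toFun := g
             map_zero' := h.injective (by rw [hg, map_zero]; simp)
             map_add' := fun r s => h.injective (by rw [map_add, hg, hg, hg]; simp) },
    fun σ r => h.injective ?_⟩, hg⟩
  show i (g (relAct ρ σ r)) = i (σ • g r)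
  rw [map_smul, hg, hg, coe_relAct, freeHom_act]

omit ρ in
theorem freeHom_sub (b b' : N → Y) :
    (freeHom (G := G) fun n => b n - b' n) = freeHom b - freeHom b' :=
  Finsupp.addHom_ext fun x m => by obtain ⟨g, n⟩ := x; simp [smul_sub]

/-- The connecting map does not depend on the choices. -/
theorem extMk_eq_of_lifts {b b' : N → Y} {f f' : homRel ρ X} (hbb : ∀ n, q (b n) = q (b' n))
    (hf : ∀ r, i ((f : ↥(relMod ρ) →+ X) r) = freeHom b (r : FreeMod G N))
    (hf' : ∀ r, i ((f' : ↥(relMod ρ) →+ X) r) = freeHom b' (r : FreeMod G N)) :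
    extMk ρ X f = extMk ρ X f' := by
  rw [← sub_eq_zero, ← map_sub, extMk_eq_zero_iff]
  choose d hd using fun n => (h.exact (b n - b' n)).1 (by rw [map_sub, hbb, sub_self])
  refine ⟨d, Subtype.ext (DFunLike.ext _ _ fun r => h.injective ?_)⟩
  rw [resRel_apply, comp_freeHom, AddSubgroup.coe_sub, AddMonoidHom.sub_apply, map_sub, hf, hf']
  simp only [hd]
  rw [h.freeHom_sub, AddMonoidHom.sub_apply]

/-- The connecting map `Hom(N, Z) → Ext¹(N, X)`. -/
def delta : homN ρ Z →+ Ext1 ρ X :=
  AddMonoidHom.mk' (fun ψ => extMk ρ X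
    (h.exists_delta_value ψ _ fun n => Function.surjInv_eq h.surjective ((ψ : N →+ Z) n)).choose)
    fun ψ ψ' => by
      rw [← map_add]
      refine h.extMk_eq_of_lifts (b' := fun n => Function.surjInv h.surjective ((ψ : N →+ Z) n)
        + Function.surjInv h.surjective ((ψ' : N →+ Z) n)) ?_
        (h.exists_delta_value (ψ + ψ') _
          fun n => Function.surjInv_eq h.surjective (((ψ + ψ' : homN ρ Z) : N →+ Z) n)).choose_spec
        fun r => ?_
      · intro n
        rw [Function.surjInv_eq h.surjective, map_add, Function.surjInv_eq h.surjective,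
          Function.surjInv_eq h.surjective]
        rfl
      · rw [AddSubgroup.coe_add, AddMonoidHom.add_apply, map_add,
          (h.exists_delta_value ψ _ fun n =>
            Function.surjInv_eq h.surjective ((ψ : N →+ Z) n)).choose_spec,
          (h.exists_delta_value ψ' _ fun n =>
            Function.surjInv_eq h.surjective ((ψ' : N →+ Z) n)).choose_spec]
        exact (DFunLike.congr_fun (Finsupp.addHom_ext fun x m => by
          obtain ⟨g, n⟩ := x; simp) (r : FreeMod G N)).symm.trans (AddMonoidHom.add_apply _ _ _) |>.symm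

theorem delta_spec (ψ : homN ρ Z) : ∃ (b : N → Y) (f : homRel ρ X),
    (∀ n, q (b n) = (ψ : N →+ Z) n) ∧ (∀ r, i ((f : ↥(relMod ρ) →+ X) r)
      = freeHom b (r : FreeMod G N)) ∧ h.delta ψ = extMk ρ X f :=
  ⟨_, _, fun n => Function.surjInv_eq h.surjective ((ψ : N →+ Z) n),
    (h.exists_delta_value ψ _ fun n =>
      Function.surjInv_eq h.surjective ((ψ : N →+ Z) n)).choose_spec, rfl⟩

theorem ker_delta_le (ψ : homN ρ Z) (hψ : h.delta ψ = 0) : ∃ φ, homNMap ρ q φ = ψ := by
  obtain ⟨b, f, hb, hf, he⟩ := h.delta_spec ψ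
  rw [he, extMk_eq_zero_iff] at hψ
  obtain ⟨d, hd⟩ := hψ
  -- `b - i d` vanishes on the relations
  have hvan : ∀ r : relMod ρ, freeHom (fun n => b n - i (d n)) (r : FreeMod G N) = 0 := fun r => by
    have e1 := hf r
    rw [← hd, resRel_apply, comp_freeHom] at e1
    rw [show (freeHom (G := G) fun n => b n - i (d n)) = freeHom b - freeHom fun n => i (d n) from
      Finsupp.addHom_ext fun x m => by obtain ⟨g, n⟩ := x; simp [smul_sub, zsmul_sub]]
    rw [AddMonoidHom.sub_apply, e1, sub_self]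
  let F : FreeMod G N →+ Y := freeHom fun n => b n - i (d n)
  let φ : N →+ Y := AddMonoidHom.mk' (fun n => F (Finsupp.single (1, n) 1)) fun n n' => by
    rw [← map_add, ← sub_eq_zero, ← map_sub]
    exact hvan ⟨_, by simp⟩
  have hφmap : ∀ x, φ (freeMap ρ x) = F x := fun x => by
    rw [← sub_eq_zero, show φ (freeMap ρ x) = F (Finsupp.single (1, freeMap ρ x) 1) from rfl,
      ← map_sub]
    exact hvan ⟨_, by simp⟩
  refine ⟨⟨φ, fun σ n => ?_⟩, Subtype.ext (DFunLike.ext _ _ fun n => ?_)⟩
  · have e := hφmap (Finsupp.single (σ, n) 1)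
    rw [freeMap_single, one_smul] at e
    rw [e, show Finsupp.single (σ, n) (1 : ℤ) = freeAct σ (Finsupp.single (1, n) 1) by simp]
    exact freeHom_act _ _ _
  · rw [homNMap_apply]
    simp [φ, F, hb, h.comp_eq_zero]

theorem range_delta_le (z : Ext1 ρ X) (hz : z ∈ h.delta.range) : ext1Map ρ i z = 0 := by
  obtain ⟨ψ, rfl⟩ := hz
  obtain ⟨b, f, -, hf, he⟩ := h.delta_spec ψ
  rw [he, ext1Map_mk, extMk_eq_zero_iff]
  exact ⟨b, Subtype.ext (DFunLike.ext _ _ fun r => (hf r).symm)⟩

theorem ker_ext1Map_le (z : Ext1 ρ X) (hz : ext1Map ρ i z = 0) : z ∈ h.delta.range := by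
  obtain ⟨g, rfl⟩ := QuotientAddGroup.mk'_surjective _ z
  change extMk ρ Y (homRelMap ρ i g) = 0 at hz
  obtain ⟨b, hb⟩ := (extMk_eq_zero_iff ρ _).1 hz
  have hgr : ∀ r : relMod ρ, freeHom b (r : FreeMod G N) = i ((g : ↥(relMod ρ) →+ X) r) :=
    fun r => DFunLike.congr_fun (congrArg Subtype.val hb) r
  let F : FreeMod G N →+ Z := q.toAddMonoidHom.comp (freeHom b)
  have hF : ∀ r : relMod ρ, F r = 0 := fun r => by
    show q (freeHom b (r : FreeMod G N)) = 0
    rw [hgr, h.comp_eq_zero]
  let ψ : N →+ Z := AddMonoidHom.mk' (fun n => F (Finsupp.single (1, n) 1)) fun n n' => by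
    rw [← map_add, ← sub_eq_zero, ← map_sub]
    exact hF ⟨_, by simp⟩
  have hψmap : ∀ x, ψ (freeMap ρ x) = F x := fun x => by
    rw [← sub_eq_zero, show ψ (freeMap ρ x) = F (Finsupp.single (1, freeMap ρ x) 1) from rfl,
      ← map_sub]
    exact hF ⟨_, by simp⟩
  have hψ : ψ ∈ homN ρ Z := fun σ n => by
    have e := hψmap (Finsupp.single (σ, n) 1)
    rw [freeMap_single, one_smul] at e
    rw [e]
    show q (freeHom b _) = σ • q (freeHom b _)
    simp
  refine ⟨⟨ψ, hψ⟩, ?_⟩
  obtain ⟨b', f', hb', hf', he⟩ := h.delta_spec ⟨ψ, hψ⟩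
  rw [he]
  refine h.extMk_eq_of_lifts (fun n => ?_) hf' fun r => (hgr r).symm
  rw [hb']
  show q (freeHom b _) = q (b n)
  simp

end IsShortExact

theorem natCard_eq_ker_mul_range {A B : Type*} [AddCommGroup A] [AddCommGroup B] (f : A →+ B) :
    Nat.card A = Nat.card f.ker * Nat.card f.range := by
  rw [← Nat.card_congr (QuotientAddGroup.quotientKerEquivRange f).toEquiv, mul_comm]
  exact AddSubgroup.card_eq_card_quotient_mul_card_addSubgroup f.ker

/-- The fundamental inequality of the long exact sequence. -/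
theorem card_ext1_bound {i : X →+[G] Y} {q : Y →+[G] Z} (h : IsShortExact i q)
    [Finite (homN ρ Y)] [Finite (homN ρ Z)] [Finite (Ext1 ρ Y)] [Finite (Ext1 ρ Z)] :
    Finite (Ext1 ρ X) ∧
      Nat.card (homN ρ X) * Nat.card (homN ρ Z) * Nat.card (Ext1 ρ Y) ≤
        Nat.card (homN ρ Y) * Nat.card (Ext1 ρ X) * Nat.card (Ext1 ρ Z) := by
  have hd1 : (h.delta (ρ := ρ)).ker = (homNMap ρ q).range := by
    ext ψ
    rw [AddMonoidHom.mem_ker]
    refine ⟨h.ker_delta_le ψ, ?_⟩
    rintro ⟨φ, rfl⟩
    obtain ⟨b, f, hb, hf, he⟩ := h.delta_spec (homNMap ρ q φ)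
    rw [he, extMk_eq_zero_iff]
    have e1 : ∀ n, q (b n - (φ : N →+ Y) n) = 0 := fun n => by simp [hb]
    choose d hd using fun n => (h.exact _).1 (e1 n)
    refine ⟨d, Subtype.ext (DFunLike.ext _ _ fun r => h.injective ?_)⟩
    rw [resRel_apply, comp_freeHom, hf]
    have hφ : freeHom (G := G) (fun n => (φ : N →+ Y) n) = (φ : N →+ Y).comp (freeMap ρ) :=
      Finsupp.addHom_ext fun x m => by obtain ⟨g, n⟩ := x; simp [map_zsmul, φ.2 g n]
    rw [show (freeHom (G := G) fun n => i (d n)) = freeHom b - freeHom fun n => (φ : N →+ Y) n from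
      Finsupp.addHom_ext fun x m => by obtain ⟨g, n⟩ := x; simp [hd, smul_sub, zsmul_sub],
      AddMonoidHom.sub_apply, hφ, AddMonoidHom.comp_apply, r.2, map_zero, sub_zero]
  have hd2 : (ext1Map ρ i).ker = (h.delta (ρ := ρ)).range :=
    le_antisymm (fun z hz => h.ker_ext1Map_le z hz) fun z hz => h.range_delta_le z hz
  have hd3 : (ext1Map ρ q).ker = (ext1Map ρ i).range := by
    ext z
    rw [AddMonoidHom.mem_ker]
    exact h.ext1Map_exact z
  have hd4 : (homNMap ρ q).ker = (homNMap ρ i).range := by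
    ext z
    rw [AddMonoidHom.mem_ker]
    exact h.homNMap_exact z
  haveI : Finite (h.delta (ρ := ρ)).range :=
    Finite.of_surjective _ (AddMonoidHom.rangeRestrict_surjective (h.delta (ρ := ρ)))
  haveI : Finite (ext1Map ρ i).ker := by rw [hd2]; infer_instance
  haveI : Finite (ext1Map ρ i).range := inferInstance
  haveI hfin : Finite (Ext1 ρ X) := by
    haveI : Finite (Ext1 ρ X ⧸ (ext1Map ρ i).ker) :=
      Finite.of_equiv _ (QuotientAddGroup.quotientKerEquivRange _).symm.toEquiv
    exact Finite.of_addSubgroup_quotient (ext1Map ρ i).ker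
  refine ⟨hfin, ?_⟩
  have c1 := natCard_eq_ker_mul_range (homNMap ρ q)
  have c2 := natCard_eq_ker_mul_range (h.delta (ρ := ρ))
  have c3 := natCard_eq_ker_mul_range (ext1Map ρ i)
  have c4 := natCard_eq_ker_mul_range (ext1Map ρ q)
  have c5 : Nat.card (homN ρ X) = Nat.card (homNMap ρ i).range := by
    exact Nat.card_congr (AddMonoidHom.ofInjective h.homNMap_injective).toEquiv
  rw [hd1] at c2
  rw [hd2] at c3
  rw [hd3] at c4
  rw [hd4, ← c5] at c1
  have hle : Nat.card (ext1Map ρ q).range ≤ Nat.card (Ext1 ρ Z) :=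
    Nat.card_le_card_of_injective _ Subtype.val_injective
  rw [c1, c3, c2, c4]
  calc _ = Nat.card (homN ρ X) * (Nat.card (homNMap ρ q).range *
        Nat.card (h.delta (ρ := ρ)).range * Nat.card (ext1Map ρ i).range) *
        Nat.card (ext1Map ρ q).range := by ring
    _ ≤ Nat.card (homN ρ X) * (Nat.card (homNMap ρ q).range *
        Nat.card (h.delta (ρ := ρ)).range * Nat.card (ext1Map ρ i).range) *
        Nat.card (Ext1 ρ Z) := Nat.mul_le_mul_left _ hle
    _ = _ := by ring

end Fermat.Agent.TW.ExtOne
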