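/-
The splitting module of a fundamental class, and the two vanishing properties used in the global
bound: `H¹(P, B) = 0` and `B^P = N_P B` for `p`-subgroups `P`.
-/
import Fermat.Agent.TW.ExtOne
import Fermat.Agent.PoitouTate.Cochain
import Mathlib.GroupTheory.IndexNormal
import Mathlib.GroupTheory.Sylow
import Mathlib.GroupTheory.SpecificGroups.Cyclic.Basic
import Mathlib.Tactic.Group

set_option autoImplicit false

noncomputable section

namespace Fermat.Agent.TW.Splitting

open groupCohomology Fermat.Agent.PoitouTate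

variable (G : Type) [Group G] [Fintype G]

/-- The augmentation ideal as functions. -/
def Aug : AddSubgroup (G → ℤ) where
  carrier := {a | ∑ x, a x = 0}
  zero_mem' := by simp
  add_mem' {a b} (ha : ∑ x, a x = 0) (hb : ∑ x, b x = 0) := by
    show ∑ x, (a + b) x = 0
    simp [Finset.sum_add_distrib, ha, hb]
  neg_mem' {a} (ha : ∑ x, a x = 0) := by
    show ∑ x, (-a) x = 0
    simp [ha]

variable {G}

/-- Left translation of functions. -/
def transl (σ : G) (a : G → ℤ) : G → ℤ := fun x => a (σ⁻¹ * x)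

theorem sum_transl (σ : G) (a : G → ℤ) : ∑ x, transl σ a x = ∑ x, a x :=
  Fintype.sum_equiv (Equiv.mulLeft σ⁻¹) _ _ fun _ => rfl

instance : SMul G (Aug G) :=
  ⟨fun σ a => ⟨transl σ a.1, show ∑ x, transl σ a.1 x = 0 by rw [sum_transl]; exact a.2⟩⟩

@[simp] theorem coe_smul_aug (σ : G) (a : Aug G) (x : G) :
    ((σ • a : Aug G) : G → ℤ) x = (a : G → ℤ) (σ⁻¹ * x) := rfl

instance : DistribMulAction G (Aug G) where
  one_smul a := Subtype.ext (funext fun x => by simp)
  mul_smul σ τ a := Subtype.ext (funext fun x => by simp [mul_assoc])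
  smul_zero σ := Subtype.ext (funext fun x => by simp)
  smul_add σ a b := Subtype.ext (funext fun x => by simp)

variable {C : Type} [AddCommGroup C] [DistribMulAction G C] {u : G × G → C}

omit [Fintype G] in
theorem cocycle_one_fst (hu : IsCocycle₂ u) (h : G) : u (1, h) = u (1, 1) := by
  have e := hu 1 1 h
  simp only [one_mul, one_smul, add_right_inj] at e
  exact e.symm

omit [Fintype G] in
theorem cocycle_one_snd (hu : IsCocycle₂ u) (g : G) : u (g, 1) = g • u (1, 1) := by
  have e := hu g 1 1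
  simp only [mul_one, add_left_inj] at e
  exact e

/-- The splitting module of a two cocycle: `C × Aug G` with a twisted action. -/
def SplitMod (_hu : IsCocycle₂ u) : Type := C × Aug G

variable (hu : IsCocycle₂ u)

instance : AddCommGroup (SplitMod hu) := inferInstanceAs (AddCommGroup (C × Aug G))

/-- Pair constructor. -/
def mk (c : C) (a : Aug G) : SplitMod hu := (c, a)

/-- The twist. -/
def twist (σ : G) (a : Aug G) : C := ∑ h, (a : G → ℤ) h • u (σ, h)

instance : SMul G (SplitMod hu) :=
  ⟨fun σ b => mk hu (σ • b.1 + twist (u := u) σ b.2) (σ • b.2)⟩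

theorem smul_mk (σ : G) (c : C) (a : Aug G) :
    σ • mk hu c a = mk hu (σ • c + twist (u := u) σ a) (σ • a) := rfl

theorem twist_add (σ : G) (a b : Aug G) :
    twist (u := u) σ (a + b) = twist (u := u) σ a + twist (u := u) σ b := by
  simp [twist, add_smul, Finset.sum_add_distrib]

include hu in
theorem twist_mul (σ τ : G) (a : Aug G) :
    twist (u := u) (σ * τ) a = σ • twist (u := u) τ a + twist (u := u) σ (τ • a) := by
  have h1 : twist (u := u) σ (τ • a) = ∑ h, (a : G → ℤ) h • u (σ, τ * h) := by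
    refine (Fintype.sum_equiv (Equiv.mulLeft τ) _ _ fun h => ?_).symm
    simp
  have h2 : σ • twist (u := u) τ a = ∑ h, (a : G → ℤ) h • σ • u (τ, h) := by
    rw [twist, Finset.smul_sum]
    exact Finset.sum_congr rfl fun h _ => smul_comm _ _ _
  rw [h1, h2, ← Finset.sum_add_distrib]
  have e : ∀ h, (a : G → ℤ) h • σ • u (τ, h) + (a : G → ℤ) h • u (σ, τ * h)
      = (a : G → ℤ) h • u (σ * τ, h) + (a : G → ℤ) h • u (σ, τ) := fun h => by
    rw [← smul_add, ← smul_add, hu σ τ h]
  rw [Finset.sum_congr rfl fun h _ => e h, Finset.sum_add_distrib, ← Finset.sum_smul,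
    show ∑ x, (a : G → ℤ) x = 0 from a.2, zero_smul, add_zero]
  rfl

instance : DistribMulAction G (SplitMod hu) where
  one_smul b := by
    obtain ⟨c, a⟩ := b
    show mk hu ((1 : G) • c + twist (u := u) 1 a) ((1 : G) • a) = mk hu c a
    rw [one_smul, one_smul, twist, Finset.sum_congr rfl fun h _ => by rw [cocycle_one_fst hu h],
      ← Finset.sum_smul, show ∑ x, (a : G → ℤ) x = 0 from a.2, zero_smul, add_zero]
  mul_smul σ τ b := by
    obtain ⟨c, a⟩ := b
    show mk hu ((σ * τ) • c + twist (u := u) (σ * τ) a) ((σ * τ) • a)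
      = mk hu (σ • (τ • c + twist (u := u) τ a) + twist (u := u) σ (τ • a)) (σ • τ • a)
    rw [twist_mul hu, mul_smul, mul_smul, smul_add, add_assoc]
  smul_zero σ := by
    show mk hu (σ • (0 : C) + twist (u := u) σ 0) (σ • (0 : Aug G)) = mk hu 0 0
    simp [twist]
  smul_add σ b b' := by
    obtain ⟨c, a⟩ := b
    obtain ⟨c', a'⟩ := b'
    show mk hu (σ • (c + c') + twist (u := u) σ (a + a')) (σ • (a + a'))
      = mk hu (σ • c + twist (u := u) σ a + (σ • c' + twist (u := u) σ a')) (σ • a + σ • a')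
    rw [twist_add, smul_add, smul_add]
    congr 1
    abel

/-- The inclusion. -/
def incl : C →+[G] SplitMod hu where
  toFun c := mk hu c 0
  map_smul' σ c := by
    show mk hu (σ • c) 0 = mk hu (σ • c + twist (u := u) σ 0) (σ • (0 : Aug G))
    simp [twist]
  map_zero' := rfl
  map_add' c c' := by
    show mk hu (c + c') 0 = mk hu (c + c') (0 + 0)
    rw [add_zero]

/-- The projection to the augmentation ideal. -/
def proj : SplitMod hu →+[G] Aug G where
  toFun b := b.2
  map_smul' _ _ := rfl
  map_zero' := rfl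
  map_add' _ _ := rfl

@[simp] theorem incl_apply (c : C) : incl hu c = mk hu c 0 := rfl
@[simp] theorem proj_mk (c : C) (a : Aug G) : proj hu (mk hu c a) = a := rfl

theorem isShortExact : ExtOne.IsShortExact (incl hu) (proj hu) where
  injective c c' h := congrArg Prod.fst h
  surjective a := ⟨mk hu 0 a, rfl⟩
  exact b := by
    constructor
    · intro h
      exact ⟨b.1, Prod.ext rfl h.symm⟩
    · rintro ⟨c, rfl⟩
      rfl

/-- `δ_g - δ_1`. -/
def augElt [DecidableEq G] (g : G) : Aug G :=
  ⟨(Pi.single g 1 - Pi.single 1 1 : G → ℤ), by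
    show ∑ x, (Pi.single g 1 - Pi.single 1 1 : G → ℤ) x = 0
    simp [Finset.sum_sub_distrib]⟩

theorem twist_augElt [DecidableEq G] (σ g : G) :
    twist (u := u) σ (augElt g) = u (σ, g) - u (σ, 1) := by
  simp [twist, augElt, sub_smul, Finset.sum_sub_distrib, Pi.single_apply]

include hu in
/-- The cocycle becomes a coboundary in the splitting module. -/
theorem incl_cocycle_eq [DecidableEq G] (g h : G) :
    incl hu (u (g, h)) = g • (mk hu (u (1, 1)) (augElt h)) - mk hu (u (1, 1)) (augElt (g * h))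
      + mk hu (u (1, 1)) (augElt g) := by
  rw [smul_mk, twist_augElt, ← cocycle_one_snd hu]
  show mk hu (u (g, h)) 0 = mk hu
    (u (g, 1) + (u (g, h) - u (g, 1)) - u (1, 1) + u (1, 1))
    (g • augElt h - augElt (g * h) + augElt g)
  congr 1
  · abel
  · ext x
    simp [augElt, Pi.single_apply, eq_inv_mul_iff_mul_eq, inv_mul_eq_iff_eq_mul]

section Subgroups

variable (P : Subgroup G)

/-- A representative of the right coset of `x`. -/
def rep (x : G) : G := (Quotient.mk (QuotientGroup.rightRel P) x).out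

/-- The `P`-part of `x`. -/
def head (x : G) : P :=
  ⟨x * (rep P x)⁻¹, QuotientGroup.rightRel_apply.1
    (Quotient.mk_out (s := QuotientGroup.rightRel P) x)⟩

omit [Fintype G] in
theorem head_mul_rep (x : G) : (head P x : G) * rep P x = x := by simp [head]

omit [Fintype G] in
theorem rep_mul (π : P) (x : G) : rep P ((π : G) * x) = rep P x := by
  rw [rep, rep]
  congr 1
  apply Quotient.sound
  show QuotientGroup.rightRel P _ _
  rw [QuotientGroup.rightRel_apply]
  simpa using inv_mem π.2

omit [Fintype G] in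
theorem head_mul (π : P) (x : G) : head P ((π : G) * x) = π * head P x := by
  apply Subtype.ext
  simp [head, rep_mul, mul_assoc]

omit [Fintype G] in
theorem exists_transl_of_cocycle₁ (a : P → G → ℤ)
    (ha : ∀ g h : P, a (g * h) = a g + transl (g : G) (a h)) :
    ∃ A : G → ℤ, ∀ g : P, a g = transl (g : G) A - A := by
  refine ⟨fun x => a (head P x)⁻¹ (rep P x), fun g => funext fun x => ?_⟩
  have e1 : rep P ((g : G)⁻¹ * x) = rep P x := rep_mul P g⁻¹ x
  have e2 : head P ((g : G)⁻¹ * x) = g⁻¹ * head P x := head_mul P g⁻¹ x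
  have e := congrFun (ha (head P x)⁻¹ g) (rep P x)
  simp only [Pi.add_apply, transl, InvMemClass.coe_inv, inv_inv, head_mul_rep] at e
  simp only [Pi.sub_apply, transl, e1, e2, mul_inv_rev, inv_inv, e]
  ring

omit [Fintype G] in
theorem exists_transl_of_cocycle₂ (f : P → P → G → ℤ)
    (hf : ∀ g h j : P, f (g * h) j + f g h = transl (g : G) (f h j) + f g (h * j)) :
    ∃ X : P → G → ℤ, ∀ g h : P, f g h = transl (g : G) (X h) - X (g * h) + X g := by
  refine ⟨fun g x => f (head P x)⁻¹ g (rep P x), fun g h => funext fun x => ?_⟩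
  have e1 : rep P ((g : G)⁻¹ * x) = rep P x := rep_mul P g⁻¹ x
  have e2 : head P ((g : G)⁻¹ * x) = g⁻¹ * head P x := head_mul P g⁻¹ x
  have e := congrFun (hf (head P x)⁻¹ g h) (rep P x)
  simp only [Pi.add_apply, transl, InvMemClass.coe_inv, inv_inv, head_mul_rep] at e
  simp only [Pi.sub_apply, Pi.add_apply, transl, e1, e2, mul_inv_rev, inv_inv]
  linarith

omit [Fintype G] in
theorem hom_int_eq_zero [Finite P] (e : P → ℤ) (he : ∀ g h, e (g * h) = e g + e h) (g : P) :
    e g = 0 := by
  have h1 : e 1 = 0 := by simpa using he 1 1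
  have hn : ∀ n : ℕ, e (g ^ n) = n * e g := fun n => by
    induction n with
    | zero => simpa using h1
    | succ n ih => rw [pow_succ, he, ih]; push_cast; ring
  have := hn (orderOf g)
  rw [pow_orderOf_eq_one, h1] at this
  rcases mul_eq_zero.1 this.symm with h | h
  · exact absurd (by exact_mod_cast h) (orderOf_pos g).ne'
  · exact h

variable {p : ℕ} [hp : Fact p.Prime] (hC : IsClassModule p G C u) (hP : IsPGroup p P)
include hC hP

/-- `H¹(P, B) = 0`. -/
theorem h1_eq_zero (c : P → SplitMod hu)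
    (hc : ∀ g h : P, c (g * h) = c g + (g : G) • c h) :
    ∃ b, ∀ g : P, c g = (g : G) • b - b := by
  classical
  obtain ⟨A, hA⟩ := exists_transl_of_cocycle₁ P (fun g => ((proj hu (c g) : Aug G) : G → ℤ))
    fun g h => funext fun x => by simp [hc, transl]
  set s := ∑ x, A x with hs
  let A' : Aug G := ⟨A - s • Pi.single 1 1, by
    show ∑ x, (A - s • (Pi.single 1 1 : G → ℤ)) x = 0
    simp [Finset.sum_sub_distrib, ← hs, Pi.single_apply]⟩
  let c' : P → SplitMod hu := fun g => c g - ((g : G) • mk hu 0 A' - mk hu 0 A')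
  have hc' : ∀ g h : P, c' (g * h) = c' g + (g : G) • c' h := fun g h => by
    simp only [c', hc, Subgroup.coe_mul, mul_smul, smul_sub]
    abel
  have hpr : ∀ g : P, proj hu (c' g) = s • augElt (g : G) := fun g => by
    simp only [c', map_sub, map_smul, proj_mk]
    ext x
    have e := congrFun (hA g) x
    simp only [Pi.sub_apply, transl] at e
    simp only [AddSubgroup.coe_sub, Pi.sub_apply, coe_smul_aug, e, A', Pi.smul_apply, smul_eq_mul,
      AddSubgroup.coe_zsmul, augElt, Pi.single_apply, inv_mul_eq_iff_eq_mul, mul_one]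
    ring
  let z : P → C := fun g => (c' g).1
  have hz : ∀ g, c' g = mk hu (z g) (s • augElt (g : G)) := fun g =>
    Prod.ext rfl (hpr g)
  have hzc : ∀ g h : P, z (g * h)
      = z g + ((g : G) • z h + s • (u ((g : G), (h : G)) - u ((g : G), 1))) := fun g h => by
    have e := congrArg Prod.fst (hc' g h)
    rw [hz g, hz h, smul_mk] at e
    have : twist (u := u) (g : G) (s • augElt (h : G))
        = s • (u ((g : G), (h : G)) - u ((g : G), 1)) := by
      rw [← twist_augElt]
      simp [twist, Finset.smul_sum, mul_smul]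
    rw [this] at e
    exact e
  obtain ⟨t, ht⟩ := (hC.order P hP s).1 ⟨fun g => -z g + s • u (1, 1), fun g h => by
    simp only [hzc, smul_add, smul_neg, smul_comm (g : G) s, ← cocycle_one_snd hu, smul_sub]
    abel⟩
  let v : Aug G := t • ⟨(Nat.card P : ℤ) • Pi.single 1 1 - fun x => if x ∈ P then (1 : ℤ) else 0, by
    show ∑ x, ((Nat.card P : ℤ) • (Pi.single 1 1 : G → ℤ) - fun x => if x ∈ P then (1 : ℤ) else 0) x = 0
    simp [Finset.sum_sub_distrib, Pi.single_apply, Finset.sum_boole, Nat.card_eq_fintype_card,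
      Fintype.card_subtype]⟩
  have hv : ∀ g : P, (g : G) • v - v = s • augElt (g : G) := fun g => by
    ext x
    have hmem : ((g : G)⁻¹ * x ∈ P) ↔ x ∈ P := P.mul_mem_cancel_left (inv_mem g.2)
    simp [v, augElt, ht, hmem, Pi.single_apply, inv_mul_eq_iff_eq_mul]
    split_ifs <;> ring
  let c'' : P → C := fun g => (c' g - ((g : G) • mk hu 0 v - mk hu 0 v)).1
  have hc'' : ∀ g, incl hu (c'' g) = c' g - ((g : G) • mk hu 0 v - mk hu 0 v) := fun g => by
    refine Prod.ext rfl ?_
    show (0 : Aug G) = proj hu (c' g - ((g : G) • mk hu 0 v - mk hu 0 v))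
    simp [hpr, hv]
  obtain ⟨x, hx⟩ := hC.h1 P hP c'' fun g h => (isShortExact hu).injective (by
    rw [map_add, map_smul]
    simp only [hc'', hc', Subgroup.coe_mul, mul_smul, smul_sub]
    abel)
  refine ⟨incl hu x + mk hu 0 A' + mk hu 0 v, fun g => ?_⟩
  have e := congrArg (incl hu) (hx g)
  rw [map_sub, map_smul, hc''] at e
  rw [smul_add, smul_add]
  calc c g = c' g + ((g : G) • mk hu 0 A' - mk hu 0 A') := by simp [c']
    _ = _ := by
      rw [show c' g = ((g : G) • incl hu x - incl hu x) + ((g : G) • mk hu 0 v - mk hu 0 v) by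
        rw [e]; abel]
      abel

/-- Two cocycles on `P` with values in `B` are coboundaries. -/
theorem h2_eq_zero (f : P → P → SplitMod hu)
    (hf : ∀ g h j : P, f (g * h) j + f g h = (g : G) • f h j + f g (h * j)) :
    ∃ x : P → SplitMod hu, ∀ g h : P, f g h = (g : G) • x h - x (g * h) + x g := by
  classical
  obtain ⟨X, hX⟩ := exists_transl_of_cocycle₂ P
    (fun g h => ((proj hu (f g h) : Aug G) : G → ℤ)) fun g h j => funext fun x => by
      have e := congrFun (congrArg Subtype.val (congrArg (proj hu) (hf g h j))) x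
      simpa [transl] using e
  have hXs : ∀ g, ∑ x, X g x = 0 := hom_int_eq_zero P _ fun g h => by
    have e : ∑ x, ((proj hu (f g h) : Aug G) : G → ℤ) x = 0 := (proj hu (f g h)).2
    simp only [congrFun (hX g h), Pi.add_apply, Pi.sub_apply, Finset.sum_add_distrib,
      Finset.sum_sub_distrib, sum_transl] at e
    linarith
  let y : P → SplitMod hu := fun g => mk hu 0 ⟨X g, hXs g⟩
  let z : P → P → C := fun g h => (f g h - ((g : G) • y h - y (g * h) + y g)).1
  have hz : ∀ g h, incl hu (z g h) = f g h - ((g : G) • y h - y (g * h) + y g) := fun g h => by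
    refine Prod.ext rfl ?_
    show (0 : Aug G) = proj hu (f g h - ((g : G) • y h - y (g * h) + y g))
    ext x
    simp [y, congrFun (hX g h) x, transl]
  obtain ⟨k, x, hx⟩ := hC.generates P hP (fun a => z a.1 a.2) fun g h j =>
    (isShortExact hu).injective (by
      rw [map_add, map_add, map_smul, hz, hz, hz, hz]
      simp only [smul_sub, smul_add, Subgroup.coe_mul, mul_smul, mul_assoc]
      have e := hf g h j
      rw [← sub_eq_zero] at e ⊢
      rw [← e]
      abel)
  refine ⟨fun g => y g + k • mk hu (u (1, 1)) (augElt (g : G)) + incl hu (x g), fun g h => ?_⟩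
  have e : incl hu (z g h) - k • incl hu (u ((g : G), (h : G)))
      = (g : G) • incl hu (x h) - incl hu (x (g * h)) + incl hu (x g) := by
    have e0 := congrArg (incl hu) (hx g h)
    simp only [map_sub, map_add, map_zsmul, map_smul] at e0
    exact e0
  rw [incl_cocycle_eq, hz, smul_add k, smul_sub, ← Subgroup.coe_mul] at e
  rw [smul_add, smul_add, smul_comm (g : G) k, ← sub_eq_zero]
  rw [← sub_eq_zero] at e
  rw [← e]
  simp only [smul_add, neg_add_rev, neg_sub, sub_eq_add_neg]
  abel

omit hP in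
open scoped Classical in
/-- `B^P = N_P B`. -/
theorem mem_norm_of_fixed {Q : Subgroup G} (hQ : IsPGroup p Q) (b : SplitMod hu)
    (hb : ∀ g ∈ Q, g • b = b) : ∃ d, b = ∑ g : Q, (g : G) • d := by
  classical
  obtain ⟨m, hm⟩ := IsPGroup.iff_card.1 hQ
  induction m generalizing Q b with
  | zero =>
    haveI : Subsingleton Q := (Nat.card_eq_one_iff_unique.1 (by rw [hm, pow_zero])).1
    haveI : Unique Q := uniqueOfSubsingleton 1
    exact ⟨b, by rw [Fintype.sum_unique, Subsingleton.elim (default : Q) 1,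
      OneMemClass.coe_one, one_smul]⟩
  | succ m ih =>
    obtain ⟨K₀, hK₀⟩ := Sylow.exists_subgroup_card_pow_prime p (G := Q) (n := m)
      (by rw [hm]; exact pow_dvd_pow p m.le_succ)
    have hidx : K₀.index = p := by
      have h := K₀.card_mul_index
      rw [hK₀, hm, pow_succ] at h
      exact Nat.eq_of_mul_eq_mul_left (pow_pos hp.out.pos m) h
    haveI : K₀.Normal := Subgroup.normal_of_index_eq_minFac_card (by
      rw [hidx, hm, Nat.pow_minFac m.succ_ne_zero, hp.out.minFac_eq])
    obtain ⟨σ, hσ⟩ : ∃ σ : Q, σ ∉ K₀ := by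
      by_contra h
      push Not at h
      rw [show K₀ = ⊤ from eq_top_iff.2 fun x _ => h x, Subgroup.index_top] at hidx
      exact hp.out.one_lt.ne hidx
    have hcard : Nat.card (Q ⧸ K₀) = p := hidx
    have hσ1 : (σ : Q ⧸ K₀) ≠ 1 := fun h => hσ ((QuotientGroup.eq_one_iff σ).1 h)
    have hord : orderOf (σ : Q ⧸ K₀) = p :=
      ((Nat.dvd_prime hp.out).1 (hcard ▸ orderOf_dvd_natCard _)).resolve_left
        fun h => hσ1 (orderOf_eq_one_iff.1 h)
    have hex : ∀ g : Q, ∃ i : ℕ, i < p ∧ (σ : Q ⧸ K₀) ^ i = g := fun g => by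
      obtain ⟨i, hi⟩ := Submonoid.mem_powers_iff _ _ |>.1
        (mem_powers_of_prime_card hcard hσ1 (g' := (g : Q ⧸ K₀)))
      exact ⟨i % p, Nat.mod_lt _ hp.out.pos, by rw [← hord, pow_mod_orderOf, hi]⟩
    choose i hi hpow using hex
    have huniq : ∀ g : Q, ∀ j < p, (σ : Q ⧸ K₀) ^ j = g → i g = j := fun g j hj h => by
      have e := (hpow g).trans h.symm
      rw [pow_inj_mod, hord, Nat.mod_eq_of_lt (hi g), Nat.mod_eq_of_lt hj] at e
      exact e
    have imul : ∀ g h : Q, i (g * h) = (i g + i h) % p := fun g h =>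
      huniq _ _ (Nat.mod_lt _ hp.out.pos) (by
        rw [← hord, pow_mod_orderOf, pow_add, hpow, hpow, QuotientGroup.mk_mul])
    have iK : ∀ g ∈ K₀, i g = 0 := fun g hg =>
      huniq g 0 hp.out.pos (by rw [pow_zero, eq_comm, QuotientGroup.eq_one_iff]; exact hg)
    have ipow : ∀ j < p, i (σ ^ j) = j := fun j hj => huniq _ j hj (QuotientGroup.mk_pow K₀ σ j).symm
    let f : Q → Q → SplitMod hu := fun g h => ((i g + i h) / p) • b
    have hf : ∀ g h j : Q, f (g * h) j + f g h = (g : G) • f h j + f g (h * j) := fun g h j => by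
      simp only [f, smul_comm (g : G), hb _ g.2, ← add_smul, imul]
      congr 1
      have k1 := Nat.div_add_mod (i g + i h) p
      have k2 := Nat.div_add_mod (i h + i j) p
      have k3 := Nat.div_add_mod ((i g + i h) % p + i j) p
      have k4 := Nat.div_add_mod (i g + (i h + i j) % p) p
      have k5 : ((i g + i h) % p + i j) % p = (i g + (i h + i j) % p) % p := by
        rw [Nat.mod_add_mod, Nat.add_mod_mod, add_assoc]
      apply Nat.eq_of_mul_eq_mul_left hp.out.pos
      rw [mul_add, mul_add]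
      omega
    obtain ⟨x, hx⟩ := h2_eq_zero hu Q hC hQ f hf
    let K : Subgroup G := K₀.map Q.subtype
    have hKQ : ∀ g ∈ K, g ∈ Q := by rintro g ⟨q, -, rfl⟩; exact q.2
    have hKp : IsPGroup p K := hQ.to_le hKQ
    have hK₀K : ∀ g : K, (⟨g, hKQ g g.2⟩ : Q) ∈ K₀ := by
      rintro ⟨g, q, hq, rfl⟩
      exact hq
    obtain ⟨v, hv⟩ := h1_eq_zero hu K hC hKp (fun g => x ⟨g, hKQ g g.2⟩) fun g h => by
      have e := hx ⟨g, hKQ g g.2⟩ ⟨h, hKQ h h.2⟩
      simp only [f, iK _ (hK₀K g), iK _ (hK₀K h), add_zero, Nat.zero_div, zero_smul] at e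
      rw [add_comm (x _)]
      calc x ⟨((g * h : K) : G), _⟩ = x (⟨g, hKQ g g.2⟩ * ⟨h, hKQ h h.2⟩) := rfl
        _ = _ := by
          have e' : x (⟨g, hKQ g g.2⟩ * ⟨h, hKQ h h.2⟩)
              = (g : G) • x ⟨h, hKQ h h.2⟩ + x ⟨g, hKQ g g.2⟩ := by
            rw [← sub_eq_zero, ← neg_eq_zero, e]; abel
          exact e'
    let x' : Q → SplitMod hu := fun g => x g - ((g : G) • v - v)
    have hx' : ∀ g h : Q, x' (g * h) = x' g + (g : G) • x' h - f g h := fun g h => by
      simp only [x', hx g h, Subgroup.coe_mul, mul_smul, smul_sub]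
      abel
    have hx0 : ∀ g ∈ K₀, x' g = 0 := fun g hg => by
      simp only [x', sub_eq_zero]
      exact hv ⟨g, g, hg, rfl⟩
    have ht : ∀ j ≤ p, x' (σ ^ j) + (j / p) • b
        = ∑ l ∈ Finset.range j, (σ : G) ^ l • x' σ := by
      intro j
      induction j with
      | zero => intro; simp [hx0 1 K₀.one_mem]
      | succ j ihj =>
        intro hj
        have e0 := ihj (by omega)
        rw [Nat.div_eq_of_lt (show j < p by omega), zero_smul, add_zero] at e0
        have i1 : i σ = 1 := by simpa using ipow 1 hp.out.one_lt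
        rw [Finset.sum_range_succ, ← e0, pow_succ, hx']
        simp only [f, ipow j (show j < p by omega), i1, SubmonoidClass.coe_pow]
        abel
    have hσp : σ ^ p ∈ K₀ := by
      rw [← QuotientGroup.eq_one_iff, QuotientGroup.mk_pow, ← hord, pow_orderOf_eq_one]
    have hbsum := ht p le_rfl
    rw [hx0 _ hσp, zero_add, Nat.div_self hp.out.pos, one_smul] at hbsum
    have hfix : ∀ g ∈ K, g • x' σ = x' σ := by
      rintro g ⟨q, hq, rfl⟩
      have hq' : σ⁻¹ * q * σ ∈ K₀ := by
        simpa using Subgroup.Normal.conj_mem (H := K₀) inferInstance q hq σ⁻¹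
      have e1 := hx' q σ
      have e2 := hx' σ (σ⁻¹ * q * σ)
      rw [show σ * (σ⁻¹ * q * σ) = q * σ by group, e1] at e2
      have i1 : i σ = 1 := by simpa using ipow 1 hp.out.one_lt
      simp only [f, iK q hq, iK _ hq', i1, hx0 q hq, hx0 _ hq', zero_add, add_zero,
        Nat.div_eq_of_lt hp.out.one_lt, zero_smul, smul_zero, sub_zero] at e2
      exact e2
    obtain ⟨d, hd⟩ := ih hKp (x' σ) hfix
      (by rw [Nat.card_congr (K₀.equivMapOfInjective Q.subtype Q.subtype_injective).toEquiv.symm,
        hK₀])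
    refine ⟨d, ?_⟩
    rw [hbsum, hd]
    simp only [Finset.smul_sum, ← mul_smul]
    rw [Finset.sum_range fun l => ∑ n : K, ((σ : G) ^ l * n) • d, ← Fintype.sum_prod_type']
    refine Fintype.sum_bijective (fun a : Fin p × K => σ ^ (a.1 : ℕ) * ⟨a.2, hKQ a.2 a.2.2⟩) ?_ _ _
      fun a => by simp
    constructor
    · rintro ⟨j, n⟩ ⟨j', n'⟩ h
      have hj : ∀ (j : Fin p) (n : K), i (σ ^ (j : ℕ) * ⟨n, hKQ n n.2⟩) = j := fun j n => by
        rw [imul, ipow j j.2, iK _ (hK₀K n), add_zero, Nat.mod_eq_of_lt j.2]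
      have e := congrArg i h
      rw [hj, hj] at e
      obtain rfl : j = j' := Fin.ext e
      simp only [mul_right_inj, Subtype.mk.injEq] at h
      exact Prod.ext rfl (Subtype.ext h)
    · intro g
      have hmem : (σ ^ i g)⁻¹ * g ∈ K₀ := by
        rw [← QuotientGroup.eq_one_iff, QuotientGroup.mk_mul, QuotientGroup.mk_inv,
          QuotientGroup.mk_pow, hpow, inv_mul_cancel]
      refine ⟨⟨⟨i g, hi g⟩, ⟨((σ ^ i g)⁻¹ * g : Q), _, hmem, rfl⟩⟩, ?_⟩
      ext
      simp

end Subgroups

end Fermat.Agent.TW.Splitting
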