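/-
Coinduced modules along an injective homomorphism, and the two properties used for the cone.
-/
import Fermat.Agent.TW.ExtOne
import Fermat.Agent.TW.Splitting

set_option autoImplicit false

noncomputable section

namespace Fermat.Agent.TW

open ExtOne

variable {G D : Type} [Group G] [Group D] (ι : D →* G)

section Basic

variable (X : Type) [AddCommGroup X] [DistribMulAction D X]

/-- The equivariant functions. -/
def coindSub : AddSubgroup (G → X) where
  carrier := {φ | ∀ d g, φ (ι d * g) = d • φ g}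
  add_mem' hf hg d g := by simp [hf d g, hg d g]
  zero_mem' d g := by simp
  neg_mem' hf d g := by simp [hf d g]

/-- The coinduced module. -/
def Coind : Type := ↥(coindSub ι X)

instance : AddCommGroup (Coind ι X) := inferInstanceAs (AddCommGroup ↥(coindSub ι X))

namespace Coind

variable {ι} {X}

/-- The values. -/
def val : Coind ι X →+ (G → X) := (coindSub ι X).subtype

/-- An equivariant function as an element. -/
def mk (φ : G → X) (h : ∀ d g, φ (ι d * g) = d • φ g) : Coind ι X := ⟨φ, h⟩

@[simp] theorem val_mk (φ : G → X) (h : ∀ d g, φ (ι d * g) = d • φ g) : val (mk φ h) = φ := rfl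

theorem val_equivariant (f : Coind ι X) (d : D) (g : G) : val f (ι d * g) = d • val f g := f.2 d g

@[ext] theorem ext {f f' : Coind ι X} (h : ∀ g, val f g = val f' g) : f = f' :=
  Subtype.ext (funext h)

instance : SMul G (Coind ι X) :=
  ⟨fun σ f => mk (fun g => val f (g * σ)) fun d g => by rw [mul_assoc, val_equivariant]⟩

@[simp] theorem val_smul (σ : G) (f : Coind ι X) (g : G) : val (σ • f) g = val f (g * σ) := rfl

instance : DistribMulAction G (Coind ι X) where
  one_smul f := ext fun g => by simp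
  mul_smul σ τ f := ext fun g => by simp [mul_assoc]
  smul_zero σ := ext fun g => by simp
  smul_add σ f f' := ext fun g => by simp

instance [Finite G] [Finite X] : Finite (Coind ι X) := Finite.of_injective
  (fun f => (val f : G → X)) fun _ _ h => ext (congrFun h)

variable {Y : Type} [AddCommGroup Y] [DistribMulAction D Y]

/-- Functoriality. -/
def map (q : X →+[D] Y) : Coind ι X →+[G] Coind ι Y where
  toFun f := mk (fun g => q (val f g)) fun d g => by rw [val_equivariant, map_smul]
  map_smul' σ f := ext fun g => rfl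
  map_zero' := ext fun g => by simp
  map_add' f f' := ext fun g => by simp

@[simp] theorem val_map (q : X →+[D] Y) (f : Coind ι X) (g : G) :
    val (map q f) g = q (val f g) := rfl

variable (hι : Function.Injective ι)

/-- The `D`-part of an element with respect to chosen coset representatives. -/
def dpart (g : G) : D :=
  (MonoidHom.ofInjective hι).symm (Splitting.head ι.range g)

theorem ι_dpart_mul_rep (g : G) : ι (dpart hι g) * Splitting.rep ι.range g = g := by
  have h : ι (dpart hι g) = (Splitting.head ι.range g : G) := by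
    conv_rhs => rw [← (MonoidHom.ofInjective hι).apply_symm_apply (Splitting.head ι.range g)]
    rfl
  rw [h, Splitting.head_mul_rep]

theorem rep_ι_mul (d : D) (g : G) :
    Splitting.rep ι.range (ι d * g) = Splitting.rep ι.range g :=
  Splitting.rep_mul ι.range ⟨ι d, d, rfl⟩ g

theorem dpart_mul (d : D) (g : G) : dpart hι (ι d * g) = d * dpart hι g := by
  apply hι
  have h1 := ι_dpart_mul_rep hι (ι d * g)
  rw [rep_ι_mul] at h1
  rw [map_mul]
  apply mul_right_cancel (b := Splitting.rep ι.range g)
  rw [mul_assoc, h1, ι_dpart_mul_rep hι g]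

include hι in
theorem isShortExact_map {Z : Type} [AddCommGroup Z] [DistribMulAction D Z] {i : X →+[D] Y}
    {q : Y →+[D] Z} (h : IsShortExact i q) : IsShortExact (map (ι := ι) i) (map q) where
  injective f f' e := ext fun g => h.injective (congrFun (congrArg val e) g)
  surjective f := by
    choose b hb using fun g => h.surjective (val f g)
    refine ⟨mk (fun g => dpart hι g • b (Splitting.rep ι.range g)) fun d g => ?_, ext fun g => ?_⟩
    · rw [dpart_mul, rep_ι_mul, mul_smul]
    · rw [val_map, val_mk, map_smul, hb, ← val_equivariant, ι_dpart_mul_rep hι]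
  exact f := by
    constructor
    · intro hf
      choose b hb using fun g => (h.exact (val f g)).1 (congrFun (congrArg val hf) g)
      exact ⟨mk b fun d g => h.injective (by rw [map_smul, hb, hb, val_equivariant]), ext hb⟩
    · rintro ⟨a, rfl⟩
      exact ext fun g => h.comp_eq_zero (val a g)

end Coind

end Basic

section Cohomological

variable {p : ℕ} [hp : Fact p.Prime] {X : Type} [AddCommGroup X] [DistribMulAction D X]
variable (hι : Function.Injective ι) (P : Subgroup G)

/-- The double coset relation of `ι D` and `P`. -/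
def dosetRel : Setoid G where
  r g g' := ∃ d : D, ∃ π ∈ P, g' = ι d * g * π
  iseqv := by
    refine ⟨fun g => ⟨1, 1, P.one_mem, by simp⟩, ?_, ?_⟩
    · rintro g g' ⟨d, π, hπ, rfl⟩
      exact ⟨d⁻¹, π⁻¹, P.inv_mem hπ, by simp [mul_assoc]⟩
    · rintro g g' g'' ⟨d, π, hπ, rfl⟩ ⟨d', π', hπ', rfl⟩
      exact ⟨d' * d, π * π', P.mul_mem hπ hπ', by simp [mul_assoc]⟩

/-- A representative of the double coset. -/
def dosetRep (g : G) : G := (Quotient.mk (dosetRel ι P) g).out

theorem exists_eq_dosetRep (g : G) : ∃ d : D, ∃ π ∈ P, g = ι d * dosetRep ι P g * π :=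
  Quotient.mk_out (s := dosetRel ι P) g

theorem dosetRep_eq {g g' : G} {d : D} {π : G} (hπ : π ∈ P) (h : g' = ι d * g * π) :
    dosetRep ι P g' = dosetRep ι P g := by
  rw [dosetRep, dosetRep]
  congr 1
  exact (Quotient.sound (s := dosetRel ι P) ⟨d, π, hπ, h⟩).symm

/-- The stabiliser in `D` of the coset `x P`. -/
def stab (x : G) : Subgroup D := (P.comap (MulAut.conj x⁻¹).toMonoidHom).comap ι

theorem mem_stab {x : G} {e : D} : e ∈ stab ι P x ↔ x⁻¹ * ι e * x ∈ P := by
  simp [stab, Subgroup.mem_comap]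

include hι in
theorem isPGroup_stab (hP : IsPGroup p P) (x : G) : IsPGroup p (stab ι P x) :=
  (hP.comap_of_injective _ (MulAut.conj x⁻¹).injective).comap_of_injective _ hι

include hι in
/-- `H¹(P, Coind X) = 0` if `H¹(Q, X) = 0` for all `p`-subgroups `Q`. -/
theorem coind_h1 (hP : IsPGroup p P)
    (hX : ∀ Q : Subgroup D, IsPGroup p Q → ∀ c : Q → X,
      (∀ g h : Q, c (g * h) = c g + (g : D) • c h) → ∃ b, ∀ g : Q, c g = (g : D) • b - b)
    (c : P → Coind ι X) (hc : ∀ g h : P, c (g * h) = c g + (g : G) • c h) :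
    ∃ b, ∀ g : P, c g = (g : G) • b - b := by
  -- the stabiliser cocycles
  let toP : ∀ x : G, stab ι P x → P := fun x e => ⟨x⁻¹ * ι e * x, (mem_stab ι P).1 e.2⟩
  have htoP : ∀ (x : G) (e e' : stab ι P x), toP x (e * e') = toP x e * toP x e' :=
    fun x e e' => Subtype.ext (by simp [toP, mul_assoc])
  choose b hb using fun x : G => hX (stab ι P x) (isPGroup_stab ι hι P hP x)
    (fun e => Coind.val (c (toP x e)) x) fun e e' => by
      rw [htoP, hc, map_add, Pi.add_apply, Coind.val_smul]
      congr 1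
      rw [show x * ((toP x e : P) : G) = ι (e : D) * x from by simp [toP, mul_assoc],
        Coind.val_equivariant]
  -- the value at `ι d * x * π`
  have well : ∀ (x : G) (d d' : D) (π π' : P), ι d * x * π = ι d' * x * π' →
      d • (b x + Coind.val (c π) x) = d' • (b x + Coind.val (c π') x) := by
    intro x d d' π π' h
    have he : x⁻¹ * ι (d⁻¹ * d') * x = ((π * π'⁻¹ : P) : G) := by
      rw [map_mul, map_inv, Subgroup.coe_mul, Subgroup.coe_inv]
      calc x⁻¹ * ((ι d)⁻¹ * ι d') * x = (x⁻¹ * (ι d)⁻¹) * (ι d' * x * π') * (π' : G)⁻¹ := by group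
        _ = _ := by rw [← h]; group
    let e : stab ι P x := ⟨d⁻¹ * d', (mem_stab ι P).2 (he ▸ (π * π'⁻¹).2)⟩
    have hπ : π = toP x e * π' := by
      have : toP x e = π * π'⁻¹ := Subtype.ext he
      rw [this, inv_mul_cancel_right]
    have hd : d' = d * (e : D) := by simp [e]
    clear_value e
    rw [hπ, hc, map_add, Pi.add_apply, Coind.val_smul,
      show x * ((toP x e : P) : G) = ι (e : D) * x from by simp [toP, mul_assoc],
      Coind.val_equivariant, hb x e, hd, mul_smul]
    simp only [smul_add, smul_sub]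
    abel
  choose d π hπ hg using exists_eq_dosetRep ι P
  let φ : G → X := fun g => d g • (b (dosetRep ι P g) + Coind.val (c ⟨π g, hπ g⟩) (dosetRep ι P g))
  have key : ∀ (g : G) (d' : D) (π' : P), g = ι d' * dosetRep ι P g * π' →
      φ g = d' • (b (dosetRep ι P g) + Coind.val (c π') (dosetRep ι P g)) :=
    fun g d' π' h => well _ _ _ ⟨π g, hπ g⟩ π' ((hg g).symm.trans h)
  refine ⟨Coind.mk φ fun d0 g => ?_, fun σ => Coind.ext fun g => ?_⟩
  · have hx : dosetRep ι P (ι d0 * g) = dosetRep ι P g :=
      dosetRep_eq ι P P.one_mem (mul_one _).symm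
    rw [key (ι d0 * g) (d0 * d g) ⟨π g, hπ g⟩ (by
      rw [hx, map_mul]
      conv_lhs => rw [hg g]
      simp only [mul_assoc]), hx, mul_smul]
  · have hx : dosetRep ι P (g * σ) = dosetRep ι P g :=
      dosetRep_eq ι P (d := 1) σ.2 (by simp)
    rw [map_sub, Pi.sub_apply, Coind.val_smul, Coind.val_mk, key (g * σ) (d g) (⟨π g, hπ g⟩ * σ) (by
        rw [hx, Subgroup.coe_mul]
        conv_lhs => rw [hg g]
        simp only [mul_assoc]), hx, hc, map_add, Pi.add_apply, Coind.val_smul]
    simp only [φ, smul_add]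
    have e1 : Coind.val (c σ) g = d g • Coind.val (c σ) (dosetRep ι P g * π g) := by
      conv_lhs => rw [hg g]
      rw [mul_assoc, Coind.val_equivariant]
    rw [e1]
    abel

include hι in
open scoped Classical in
/-- Fixed elements are norms in `Coind X` if this holds in `X` for all `p`-subgroups. -/
theorem coind_norm [Finite G] [Fintype P] (hP : IsPGroup p P)
    (hX : ∀ Q : Subgroup D, IsPGroup p Q → ∀ x : X, (∀ g ∈ Q, g • x = x) →
      ∃ (h : Fintype Q) (d : X), x = ∑ g : Q, (g : D) • d)
    (f : Coind ι X) (hf : ∀ g ∈ P, g • f = f) :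
    ∃ ψ : Coind ι X, f = ∑ g : P, (g : G) • ψ := by
  classical
  have hfix : ∀ (g : G) (π : G), π ∈ P → Coind.val f (g * π) = Coind.val f g := fun g π hπ => by
    rw [← Coind.val_smul, hf π hπ]
  choose inst δ hδ using fun x : G => hX (stab ι P x) (isPGroup_stab ι hι P hP x)
    (Coind.val f x) fun e he => by
      rw [← Coind.val_equivariant, ← hfix x _ ((mem_stab ι P).1 he)]
      congr 1
      group
  let ψ : G → X := fun g =>
    if h : ∃ d : D, g = ι d * dosetRep ι P g then h.choose • δ (dosetRep ι P g) else 0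
  have hψ : ∀ (g : G) (d : D), g = ι d * dosetRep ι P g → ψ g = d • δ (dosetRep ι P g) :=
    fun g d h => by
      have h' : ∃ d : D, g = ι d * dosetRep ι P g := ⟨d, h⟩
      simp only [ψ, dif_pos h']
      congr 1
      exact hι (mul_right_cancel (h'.choose_spec.symm.trans h))
  have hψ0 : ∀ g : G, (¬ ∃ d : D, g = ι d * dosetRep ι P g) → ψ g = 0 := fun g h => dif_neg h
  have hψe : ∀ d0 g, ψ (ι d0 * g) = d0 • ψ g := fun d0 g => by
    have hx : dosetRep ι P (ι d0 * g) = dosetRep ι P g :=
      dosetRep_eq ι P P.one_mem (mul_one _).symm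
    by_cases h : ∃ d : D, g = ι d * dosetRep ι P g
    · obtain ⟨d, hd⟩ := h
      have hd' : ι d0 * g = ι (d0 * d) * dosetRep ι P (ι d0 * g) := by
        rw [hx, map_mul, mul_assoc, ← hd]
      rw [hψ _ _ hd', hψ _ _ hd, hx, mul_smul]
    · rw [hψ0 g h, smul_zero, hψ0]
      rintro ⟨d, hd⟩
      exact h ⟨d0⁻¹ * d, by rw [map_mul, map_inv, mul_assoc, ← hx, ← hd, inv_mul_cancel_left]⟩
  refine ⟨Coind.mk ψ hψe, Coind.ext fun g => ?_⟩
  rw [map_sum, Finset.sum_apply]
  simp only [Coind.val_smul, Coind.val_mk]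
  obtain ⟨d, π, hπ, hg⟩ := exists_eq_dosetRep ι P g
  set x := dosetRep ι P g with hxdef
  have hrep : ∀ σ : P, dosetRep ι P (g * σ) = x := fun σ =>
    dosetRep_eq ι P (d := 1) σ.2 (by simp)
  have hsum : ∑ σ : P, ψ (g * σ) = ∑ σ : P, ψ (ι d * (x * σ)) :=
    Fintype.sum_equiv (Equiv.mulLeft ⟨π, hπ⟩) _ _ fun σ => by
      simp only [Equiv.coe_mulLeft, Subgroup.coe_mul]
      rw [hg]
      simp only [mul_assoc]
  have hx' : ∀ σ : P, dosetRep ι P (x * σ) = x := fun σ => by
    refine dosetRep_eq ι P (d := d⁻¹) (π := π⁻¹ * σ) (P.mul_mem (P.inv_mem hπ) σ.2) ?_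
    rw [hg, map_inv]
    group
  rw [hsum]
  simp only [hψe]
  rw [← Finset.smul_sum]
  have hval : Coind.val f g = d • Coind.val f x := by
    rw [hg, mul_assoc, Coind.val_equivariant, hfix x π hπ]
  rw [hval]
  congr 1
  rw [hδ x, ← Finset.sum_filter_of_ne (s := (Finset.univ : Finset P))
    (p := fun σ : P => ∃ e : D, x * σ = ι e * x) fun σ _ hne => by
      by_contra hno
      exact hne (hψ0 _ (by rwa [hx' σ]))]
  refine Finset.sum_bij (fun (e : stab ι P x) _ => (⟨x⁻¹ * ι e * x, (mem_stab ι P).1 e.2⟩ : P))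
    (fun e _ => Finset.mem_filter.2 ⟨Finset.mem_univ _, e, by simp [mul_assoc]⟩) ?_ ?_ ?_
  · intro e _ e' _ h
    exact Subtype.ext (hι (mul_left_cancel (mul_right_cancel (congrArg Subtype.val h))))
  · intro σ hσ
    obtain ⟨e, he⟩ := (Finset.mem_filter.1 hσ).2
    have hmem : e ∈ stab ι P x := (mem_stab ι P).2 (by
      rw [mul_assoc, ← he, inv_mul_cancel_left]; exact σ.2)
    exact ⟨⟨e, hmem⟩, Finset.mem_univ _, Subtype.ext (by
      show x⁻¹ * ι e * x = σ
      rw [mul_assoc, ← he, inv_mul_cancel_left])⟩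
  · intro e _
    have h : x * ((⟨x⁻¹ * ι e * x, (mem_stab ι P).1 e.2⟩ : P) : G) = ι (e : D) * x := by
      simp [mul_assoc]
    rw [hψ _ (e : D) (by rw [hx']; exact h), hx']

end Cohomological

end Fermat.Agent.TW
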