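/-
A finite model of the reduction mod `p` of a module with trivial `H¹` and `Ĥ⁰` on `p`-subgroups,
and the resulting formula for `Ext¹(N, B)`.
-/
import Fermat.Agent.TW.Splitting
import Fermat.Agent.TW.RepAlgebra

set_option autoImplicit false

noncomputable section

namespace Fermat.Agent.TW.Cone

open ExtOne Fermat.Agent.TW.RepAlgebra

variable (p : ℕ) (G : Type) [Group G] [Fintype G] (m : ℕ)

/-- Free modules as functions. -/
def Free : Type := Fin m → G → ℤ

instance : AddCommGroup (Free G m) := inferInstanceAs (AddCommGroup (Fin m → G → ℤ))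

instance : SMul G (Free G m) := ⟨fun σ a i x => a i (σ⁻¹ * x)⟩

variable {p} {G} {m}

omit [Fintype G] in
@[simp] theorem free_smul_apply (σ : G) (a : Free G m) (i : Fin m) (x : G) :
    (σ • a) i x = a i (σ⁻¹ * x) := rfl

instance : DistribMulAction G (Free G m) where
  one_smul a := funext fun i => funext fun x => by simp
  mul_smul σ τ a := funext fun i => funext fun x => by simp [mul_assoc]
  smul_zero σ := rfl
  smul_add σ a b := rfl

variable {B : Type} [AddCommGroup B] [DistribMulAction G B] (β : Fin m → B)

/-- The map out of the free module. -/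
def freeTo : Free G m →+[G] B where
  toFun a := ∑ i, ∑ x, a i x • (x • β i)
  map_smul' σ a := by
    rw [Finset.smul_sum]
    refine Finset.sum_congr rfl fun i _ => ?_
    rw [Finset.smul_sum]
    refine Fintype.sum_equiv (Equiv.mulLeft σ⁻¹) _ _ fun x => ?_
    simp [smul_comm σ, ← mul_smul]
  map_zero' := by
    refine Finset.sum_eq_zero fun i _ => Finset.sum_eq_zero fun x _ => ?_
    exact zero_smul ℤ _
  map_add' a b := by
    rw [← Finset.sum_add_distrib]
    refine Finset.sum_congr rfl fun i _ => ?_
    rw [← Finset.sum_add_distrib]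
    exact Finset.sum_congr rfl fun x _ => add_smul (a i x) (b i x) _

variable (p) (G)

/-- `π a = p b`. -/
def pairs : AddSubgroup (Free G m × B) where
  carrier := {w | freeTo β w.1 = p • w.2}
  zero_mem' := by simp
  add_mem' {a b} (ha : freeTo β a.1 = p • a.2) (hb : freeTo β b.1 = p • b.2) := by
    show freeTo β (a.1 + b.1) = p • (a.2 + b.2)
    rw [map_add, ha, hb, smul_add]
  neg_mem' {a} (ha : freeTo β a.1 = p • a.2) := by
    show freeTo β (-a.1) = p • (-a.2)
    rw [map_neg, ha, smul_neg]

theorem mem_pairs {w : Free G m × B} : w ∈ pairs p G β ↔ freeTo β w.1 = p • w.2 := Iff.rfl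

theorem smul_mem_pairs (σ : G) {w : Free G m × B} (hw : w ∈ pairs p G β) :
    (σ • w.1, σ • w.2) ∈ pairs p G β := by
  show freeTo β (σ • w.1) = p • σ • w.2
  rw [map_smul, hw]
  exact map_nsmul (DistribSMul.toAddMonoidHom B σ) p w.2

instance : SMul G (pairs p G β) := ⟨fun σ w => ⟨_, smul_mem_pairs p G β σ w.2⟩⟩

theorem coe_smul_pairs (σ : G) (w : pairs p G β) :
    ((σ • w : pairs p G β) : Free G m × B) = (σ • (w : Free G m × B).1, σ • (w : Free G m × B).2) :=
  rfl

instance : DistribMulAction G (pairs p G β) where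
  one_smul w := Subtype.ext (by rw [coe_smul_pairs, one_smul, one_smul])
  mul_smul σ τ w := Subtype.ext (by
    simp only [coe_smul_pairs, mul_smul])
  smul_zero σ := Subtype.ext (by simp [coe_smul_pairs])
  smul_add σ v w := Subtype.ext (by simp [coe_smul_pairs, Prod.ext_iff, smul_add])

/-- `z ↦ (p z, π z)`. -/
def trivialPair : Free G m →+[G] pairs p G β where
  toFun z := ⟨(p • z, freeTo β z), by rw [mem_pairs, map_nsmul]⟩
  map_smul' σ z := Subtype.ext (Prod.ext
    (map_nsmul (DistribSMul.toAddMonoidHom (Free G m) σ) p z).symm (map_smul _ σ z))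
  map_zero' := Subtype.ext (Prod.ext (smul_zero _) (map_zero _))
  map_add' a b := Subtype.ext (Prod.ext (smul_add _ _ _) (map_add _ _ _))

/-- The cone. -/
def Cone : Type := pairs p G β ⧸ (trivialPair p G β).toAddMonoidHom.range

instance : AddCommGroup (Cone p G β) :=
  inferInstanceAs (AddCommGroup (pairs p G β ⧸ (trivialPair p G β).toAddMonoidHom.range))

/-- The quotient map. -/
def coneMk : pairs p G β →+ Cone p G β :=
  QuotientAddGroup.mk' (trivialPair p G β).toAddMonoidHom.range

theorem coneMk_surjective : Function.Surjective (coneMk p G β) := QuotientAddGroup.mk'_surjective _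

theorem coneMk_eq_zero_iff {w : pairs p G β} : coneMk p G β w = 0 ↔ ∃ z, trivialPair p G β z = w :=
  QuotientAddGroup.eq_zero_iff w

/-- The action of an element on the cone. -/
def coneAct (σ : G) : Cone p G β →+ Cone p G β :=
  QuotientAddGroup.map _ _ (DistribSMul.toAddMonoidHom (pairs p G β) σ) fun _ ⟨z, hz⟩ =>
    ⟨σ • z, by
      show trivialPair p G β (σ • z) = σ • _
      rw [map_smul, ← hz]
      rfl⟩

theorem nsmul_cone_eq_zero (y : Cone p G β) : p • y = 0 := by
  obtain ⟨w, rfl⟩ := coneMk_surjective p G β y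
  rw [← map_nsmul, coneMk_eq_zero_iff]
  exact ⟨(w : Free G m × B).1, Subtype.ext (Prod.ext rfl w.2)⟩

instance : Module (ZMod p) (Cone p G β) := AddCommGroup.zmodModule (nsmul_cone_eq_zero p G β)

instance : DistribMulAction G (Cone p G β) where
  smul σ y := coneAct p G β σ y
  one_smul y := by
    obtain ⟨w, rfl⟩ := coneMk_surjective p G β y
    exact congrArg (coneMk p G β) (one_smul G w)
  mul_smul σ τ y := by
    obtain ⟨w, rfl⟩ := coneMk_surjective p G β y
    exact congrArg (coneMk p G β) (mul_smul σ τ w)
  smul_zero σ := map_zero (coneAct p G β σ)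
  smul_add σ a b := map_add (coneAct p G β σ) a b

theorem smul_coneMk (σ : G) (w : pairs p G β) : σ • coneMk p G β w = coneMk p G β (σ • w) := rfl

/-- The representation on the cone. -/
def coneRep : Representation (ZMod p) G (Cone p G β) where
  toFun σ := (coneAct p G β σ).toZModLinearMap p
  map_one' := LinearMap.ext fun y => one_smul G y
  map_mul' σ τ := LinearMap.ext fun y => mul_smul σ τ y

theorem coneRep_apply (σ : G) (y : Cone p G β) : coneRep p G β σ y = σ • y := rfl

variable (m)

/-- Free modules mod `p`. -/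
abbrev FreeModP : Type := Fin m → G → ZMod p

/-- Translation on free modules mod `p`. -/
def freeRep : Representation (ZMod p) G (FreeModP p G m) where
  toFun σ :=
    { toFun := fun a i x => a i (σ⁻¹ * x)
      map_add' := fun a b => rfl
      map_smul' := fun t a => rfl }
  map_one' := LinearMap.ext fun a => funext fun i => funext fun x => by simp
  map_mul' σ τ := LinearMap.ext fun a => funext fun i => funext fun x => by simp [mul_assoc]

variable {m}

omit [Fintype G] in
@[simp] theorem freeRep_apply (σ : G) (a : FreeModP p G m) (i : Fin m) (x : G) :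
    freeRep p G m σ a i x = a i (σ⁻¹ * x) := rfl

/-- Reduction mod `p`. -/
def redFree : Free G m →+ FreeModP p G m where
  toFun a i x := (a i x : ZMod p)
  map_zero' := funext fun i => funext fun x => Int.cast_zero
  map_add' a b := funext fun i => funext fun x => Int.cast_add _ _

omit [Fintype G] in
theorem redFree_smul (σ : G) (a : Free G m) :
    redFree p G (σ • a) = freeRep p G m σ (redFree p G a) := rfl

omit [Fintype G] in
theorem redFree_eq_zero_iff (a : Free G m) : redFree p G a = 0 ↔ ∃ z, a = p • z := by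
  constructor
  · intro h
    choose z hz using fun i x => (ZMod.intCast_zmod_eq_zero_iff_dvd (a i x) p).1
      (congrFun (congrFun h i) x)
    refine ⟨z, funext fun i => funext fun x => ?_⟩
    rw [hz i x]
    show _ = (p • z) i x
    erw [Pi.smul_apply, Pi.smul_apply]
    simp
  · rintro ⟨z, rfl⟩
    rw [map_nsmul, ← Nat.cast_smul_eq_nsmul (ZMod p), ZMod.natCast_self, zero_smul]

omit [Fintype G] in
theorem redFree_surjective [NeZero p] : Function.Surjective (redFree (m := m) p G) :=
  fun a => ⟨fun i x => ((a i x).val : ℤ), funext fun i => funext fun x => by simp [redFree]⟩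

/-- The projection of the cone to the free module mod `p`. -/
def coneProj : Cone p G β →+ FreeModP p G m :=
  QuotientAddGroup.lift _
    ((redFree p G).comp ((AddMonoidHom.fst (Free G m) B).comp (pairs p G β).subtype))
    fun w ⟨z, hz⟩ => by
      rw [AddMonoidHom.mem_ker, ← hz]
      show redFree p G (p • z) = 0
      exact (redFree_eq_zero_iff p G _).2 ⟨z, rfl⟩

@[simp] theorem coneProj_mk (w : pairs p G β) :
    coneProj p G β (coneMk p G β w) = redFree p G (w : Free G m × B).1 := rfl

theorem coneProj_smul (σ : G) (y : Cone p G β) :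
    coneProj p G β (σ • y) = freeRep p G m σ (coneProj p G β y) := by
  obtain ⟨w, rfl⟩ := coneMk_surjective p G β y
  rfl

theorem coneProj_ker (y : Cone p G β) (h : coneProj p G β y = 0) :
    ∃ b : B, p • b = 0 ∧ ∃ hb : ((0, b) : Free G m × B) ∈ pairs p G β,
      y = coneMk p G β ⟨(0, b), hb⟩ := by
  obtain ⟨⟨⟨a, b⟩, hw⟩, rfl⟩ := coneMk_surjective p G β y
  obtain ⟨z, hz⟩ := (redFree_eq_zero_iff p G a).1 h
  have hp : p • (b - freeTo β z) = 0 := by
    rw [smul_sub, ← map_nsmul, ← hz, sub_eq_zero]
    exact (mem_pairs p G β).1 hw |>.symm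
  refine ⟨b - freeTo β z, hp, by rw [mem_pairs]; simp [hp], ?_⟩
  rw [← sub_eq_zero, ← map_sub, coneMk_eq_zero_iff]
  refine ⟨z, Subtype.ext (Prod.ext ?_ ?_)⟩
  · show p • z = a - 0
    rw [sub_zero, hz]
  · show freeTo β z = b - (b - freeTo β z)
    rw [sub_sub_cancel]

theorem finite_cone [NeZero p] (hB : {b : B | p • b = 0}.Finite) : Finite (Cone p G β) := by
  haveI : Finite {b : B | p • b = 0} := hB.to_subtype
  haveI : Finite (coneProj p G β).ker := by
    refine Finite.of_surjective (α := {b : B | p • b = 0}) (fun b =>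
      ⟨coneMk p G β ⟨(0, (b : B)), by rw [mem_pairs]; simpa using b.2.symm⟩,
        by simp⟩) ?_
    rintro ⟨y, hy⟩
    obtain ⟨b, hb, hb', rfl⟩ := coneProj_ker p G β y hy
    exact ⟨⟨b, hb⟩, rfl⟩
  haveI : Finite (Cone p G β ⧸ (coneProj p G β).ker) :=
    Finite.of_equiv _ (QuotientAddGroup.quotientKerEquivRange _).symm.toEquiv
  exact Finite.of_addSubgroup_quotient (coneProj p G β).ker

section Vanishing

open scoped Classical in
/-- `H¹(P, Cone) = 0`. -/
theorem h1Trivial_cone [hp : Fact p.Prime] (P : Subgroup G)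
    (h1 : ∀ c : P → B, (∀ g h : P, c (g * h) = c g + (g : G) • c h) →
      ∃ b, ∀ g : P, c g = (g : G) • b - b)
    (h0 : ∀ b : B, (∀ g ∈ P, g • b = b) → ∃ d, b = ∑ g : P, (g : G) • d)
    (hsurj : ∀ b : B, ∃ (a : Free G m) (b' : B), b = freeTo β a + p • b') : H1Trivial (coneRep p G β) P := by
  intro c hc
  choose w hw using fun g : P => coneMk_surjective p G β (c g)
  have hd : ∀ g h : P, ∃ z, trivialPair p G β z = w g + (g : G) • w h - w (g * h) := fun g h => by
    rw [← coneMk_eq_zero_iff p G β, map_sub, map_add, hw, hw, ← smul_coneMk, hw, hc, coneRep_apply,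
      sub_self]
  choose z hz using hd
  have hinj : Function.Injective (trivialPair p G β) := fun a b e => by
    have e' : p • a = p • b := congrArg (fun w => ((w : pairs p G β) : Free G m × B).1) e
    refine funext fun i => funext fun x => ?_
    have e'' : p • a i x = p • b i x := congrFun (congrFun e' i) x
    simpa [hp.out.ne_zero] using e''
  have hzc : ∀ g h j : P, z (g * h) j + z g h = (g : G) • z h j + z g (h * j) := fun g h j =>
    hinj (by
      simp only [map_add, map_smul, hz, Subgroup.coe_mul, mul_smul, smul_add, smul_sub, mul_assoc]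
      abel)
  choose X hX using fun i : Fin m =>
    Splitting.exists_transl_of_cocycle₂ P (fun g h => z g h i) fun g h j => by
      exact congrFun (hzc g h j) i
  let X' : P → Free G m := fun g i => X i g
  let w' : P → pairs p G β := fun g => w g - trivialPair p G β (X' g)
  have hw' : ∀ g h : P, w' (g * h) = w' g + (g : G) • w' h := fun g h => by
    have e : z g h = (g : G) • X' h - X' (g * h) + X' g := funext fun i => hX i g h
    have e2 := hz g h
    rw [e, map_add, map_sub, map_smul] at e2
    simp only [w', smul_sub]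
    calc _ = w g + (g : G) • w h - trivialPair p G β (X' (g * h))
          - (w g + (g : G) • w h - w (g * h)) := by abel
      _ = _ := by rw [← e2]; abel
  choose A hA using fun i : Fin m => Splitting.exists_transl_of_cocycle₁ P
    (fun g => (w' g : Free G m × B).1 i) fun g h => by
      exact congrFun (congrArg (fun v => ((v : pairs p G β) : Free G m × B).1) (hw' g h)) i
  obtain ⟨b, hb⟩ := h1 (fun g => (w' g : Free G m × B).2) fun g h =>
    congrArg (fun v => ((v : pairs p G β) : Free G m × B).2) (hw' g h)
  let A' : Free G m := A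
  have hA' : ∀ g : P, (w' g : Free G m × B).1 = (g : G) • A' - A' := fun g =>
    funext fun i => hA i g
  obtain ⟨d, hd⟩ := h0 (freeTo β A' - p • b) fun g hg => by
    have e := (w' ⟨g, hg⟩).2
    rw [mem_pairs, hA', hb, map_sub, map_smul, smul_sub] at e
    have e1 : g • (p • b) = p • g • b := map_nsmul (DistribSMul.toAddMonoidHom B g) p b
    rw [smul_sub, e1, ← sub_eq_zero]
    rw [← sub_eq_zero] at e
    rw [← e]
    abel
  obtain ⟨a₀, b₀, rfl⟩ := hsurj d
  have hsum : freeTo β A' - p • b
      = freeTo β (∑ g : P, (g : G) • a₀) + p • ∑ g : P, (g : G) • b₀ := by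
    rw [hd, map_sum, Finset.smul_sum, ← Finset.sum_add_distrib]
    refine Finset.sum_congr rfl fun g _ => ?_
    rw [smul_add, map_smul]
    congr 1
    exact map_nsmul (DistribSMul.toAddMonoidHom B (g : G)) p b₀
  set Na := ∑ g : P, (g : G) • a₀
  set Nb := ∑ g : P, (g : G) • b₀
  have hfixa : ∀ g : P, (g : G) • Na = Na := fun g => by
    rw [Finset.smul_sum]
    exact Fintype.sum_equiv (Equiv.mulLeft g) _ _ fun x => (mul_smul _ _ _).symm
  have hfixb : ∀ g : P, (g : G) • Nb = Nb := fun g => by
    rw [Finset.smul_sum]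
    exact Fintype.sum_equiv (Equiv.mulLeft g) _ _ fun x => (mul_smul _ _ _).symm
  have hmem : (A' - Na, b + Nb) ∈ pairs p G β := by
    rw [mem_pairs, map_sub, smul_add, ← sub_eq_zero]
    rw [← sub_eq_zero] at hsum
    rw [← hsum]
    abel
  refine ⟨coneMk p G β ⟨_, hmem⟩, fun g => ?_⟩
  rw [coneRep_apply, smul_coneMk, ← map_sub, ← hw, ← sub_eq_zero, ← map_sub, coneMk_eq_zero_iff]
  refine ⟨X' g, ?_⟩
  rw [eq_sub_iff_add_eq, add_comm, ← eq_sub_iff_add_eq]
  refine Subtype.ext (Prod.ext ?_ ?_)
  · show (g : G) • (A' - Na) - (A' - Na) = (w' g : Free G m × B).1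
    rw [hA', smul_sub, hfixa]
    abel
  · show (g : G) • (b + Nb) - (b + Nb) = (w' g : Free G m × B).2
    rw [hb, smul_add, hfixb]
    abel

end Vanishing

end Fermat.Agent.TW.Cone
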