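/-
`#Ext¹(N, B) * #Hom(N, Cone) = #Hom(N, B) * #Hom(N, free module mod p)`.
-/
import Fermat.Agent.TW.Cone

set_option autoImplicit false

noncomputable section

namespace Fermat.Agent.TW.Cone

open ExtOne Fermat.Agent.TW.RepAlgebra

variable (p : ℕ) [hp : Fact p.Prime] (G : Type) [Group G] [Fintype G] {m : ℕ}
variable {B : Type} [AddCommGroup B] [DistribMulAction G B] (β : Fin m → B)
variable {N : Type} [AddCommGroup N] [Module (ZMod p) N] (ρ : Representation (ZMod p) G N)

variable {p} {G} in
/-- Equivariant maps out of the free module as a combination of the generators. -/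
theorem freeHom_eq_zero_of_forall {X : Type} [AddCommGroup X] [DistribMulAction G X] {b : N → X}
    (hb : ∀ n, b n = 0) (x : FreeMod G N) : freeHom b x = 0 := by
  have : freeHom (G := G) b = 0 := Finsupp.addHom_ext fun x j => by
    obtain ⟨g, n⟩ := x; simp [hb]
  rw [this]; rfl

variable {p} {G} in
omit [Fintype G] in
theorem map_eq_of_rel_zero {X : Type} [AddCommGroup X] [DistribMulAction G X] (b : N → X)
    (hvan : ∀ r : relMod ρ, freeHom b (r : FreeMod G N) = 0) :
    ∃ ψ : homN ρ X, ∀ x, (ψ : N →+ X) (freeMap ρ x) = freeHom b x := by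
  let ψ : N →+ X := AddMonoidHom.mk' (fun n => freeHom b (Finsupp.single ((1 : G), n) 1))
    fun n n' => by
      rw [← map_add, ← sub_eq_zero, ← map_sub]
      exact hvan ⟨_, by simp⟩
  have hψ : ∀ x, ψ (freeMap ρ x) = freeHom b x := fun x => by
    rw [← sub_eq_zero, show ψ (freeMap ρ x)
      = freeHom b (Finsupp.single ((1 : G), freeMap ρ x) 1) from rfl, ← map_sub]
    exact hvan ⟨_, by simp⟩
  refine ⟨⟨ψ, fun σ n => ?_⟩, hψ⟩
  have e := hψ (Finsupp.single (σ, n) 1)
  rw [freeMap_single, one_smul] at e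
  rw [e]
  show freeHom b _ = σ • freeHom b _
  simp

/-- `B[p] → Cone`. -/
def torsionToCone : {b : B // p • b = 0} → Cone p G β := fun b =>
  coneMk p G β ⟨(0, (b : B)), by rw [mem_pairs]; simp [b.2]⟩

theorem nsmul_homN_apply (ψ : homN ρ B) (n : N) : p • (ψ : N →+ B) n = 0 := by
  rw [← map_nsmul, ← Nat.cast_smul_eq_nsmul (ZMod p), ZMod.natCast_self, zero_smul, map_zero]

/-- `Hom(N, B) → Hom(N, Cone)`. -/
def homToCone : homN ρ B →+ homN ρ (Cone p G β) where
  toFun ψ := ⟨AddMonoidHom.mk' (fun n => torsionToCone p G β ⟨_, nsmul_homN_apply p G ρ ψ n⟩)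
      fun a b => by
        rw [torsionToCone, torsionToCone, torsionToCone, ← map_add]
        exact congrArg _ (Subtype.ext (Prod.ext (add_zero 0).symm (map_add _ a b))),
    fun σ n => by
      show torsionToCone p G β _ = σ • torsionToCone p G β _
      rw [torsionToCone, torsionToCone, smul_coneMk]
      exact congrArg _ (Subtype.ext (Prod.ext (smul_zero σ).symm (ψ.2 σ n)))⟩
  map_zero' := by
    refine Subtype.ext (DFunLike.ext _ _ fun n => ?_)
    exact map_zero (coneMk p G β)
  map_add' ψ φ := by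
    refine Subtype.ext (DFunLike.ext _ _ fun n => ?_)
    show torsionToCone p G β _ = torsionToCone p G β _ + torsionToCone p G β _
    rw [torsionToCone, torsionToCone, torsionToCone, ← map_add]
    exact congrArg _ (Subtype.ext (Prod.ext (add_zero 0).symm rfl))

/-- Equivariant maps into the free module mod `p`. -/
abbrev homFree (m : ℕ) : Submodule (ZMod p) (N →ₗ[ZMod p] FreeModP p G m) :=
  homG ρ (freeRep p G m)

/-- `Hom(N, Cone) → Hom(N, free mod p)`. -/
def homConeProj : homN ρ (Cone p G β) →+ homFree p G ρ m where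
  toFun ψ := ⟨((coneProj p G β).comp (ψ : N →+ Cone p G β)).toZModLinearMap p, fun g n => by
    show coneProj p G β ((ψ : N →+ Cone p G β) (ρ g n)) = _
    rw [ψ.2 g n, coneProj_smul]
    rfl⟩
  map_zero' := Subtype.ext (LinearMap.ext fun n => map_zero (coneProj p G β))
  map_add' ψ φ := Subtype.ext (LinearMap.ext fun n => map_add (coneProj p G β) _ _)

theorem homToCone_injective : Function.Injective (homToCone p G β ρ) := by
  rw [injective_iff_map_eq_zero]
  intro ψ hψ
  refine Subtype.ext (DFunLike.ext _ _ fun n => ?_)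
  have e : torsionToCone p G β ⟨_, nsmul_homN_apply p G ρ ψ n⟩ = 0 :=
    DFunLike.congr_fun (congrArg Subtype.val hψ) n
  obtain ⟨z, hz⟩ := (coneMk_eq_zero_iff p G β).1 e
  have h1 : p • z = 0 := congrArg (fun w => ((w : pairs p G β) : Free G m × B).1) hz
  have h2 : freeTo β z = (ψ : N →+ B) n :=
    congrArg (fun w => ((w : pairs p G β) : Free G m × B).2) hz
  have hz0 : z = 0 := funext fun i => funext fun x => by
    have e' : p • z i x = 0 := congrFun (congrFun h1 i) x
    exact (smul_eq_zero.1 e').resolve_left hp.out.ne_zero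
  rw [← h2, hz0, map_zero]
  rfl

theorem range_homToCone : (homToCone p G β ρ).range = (homConeProj p G β ρ).ker := by
  refine le_antisymm ?_ fun ψ hψ => ?_
  · rintro _ ⟨ψ, rfl⟩
    rw [AddMonoidHom.mem_ker]
    refine Subtype.ext (LinearMap.ext fun n => ?_)
    exact (redFree_eq_zero_iff p G _).2 ⟨0, (smul_zero p).symm⟩
  have hψ' : ∀ n, coneProj p G β ((ψ : N →+ Cone p G β) n) = 0 := fun n =>
    LinearMap.congr_fun (congrArg Subtype.val hψ) n
  choose b hb hb' hby using fun n => coneProj_ker p G β _ (hψ' n)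
  have hinj : ∀ v w : B, ∀ hv : ((0, v) : Free G m × B) ∈ pairs p G β,
      ∀ hw : ((0, w) : Free G m × B) ∈ pairs p G β,
      coneMk p G β ⟨_, hv⟩ = coneMk p G β ⟨_, hw⟩ → v = w := fun v w hv hw e => by
    rw [← sub_eq_zero, ← map_sub, coneMk_eq_zero_iff] at e
    obtain ⟨z, hz⟩ := e
    have h1 : p • z = 0 - 0 := congrArg (fun w => ((w : pairs p G β) : Free G m × B).1) hz
    have h2 : freeTo β z = v - w := congrArg (fun w => ((w : pairs p G β) : Free G m × B).2) hz
    have hz0 : z = 0 := funext fun i => funext fun x => by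
      rw [sub_zero] at h1
      exact (smul_eq_zero.1 (congrFun (congrFun h1 i) x : p • z i x = 0)).resolve_left
        hp.out.ne_zero
    rwa [hz0, map_zero, eq_comm, sub_eq_zero] at h2
  refine ⟨⟨AddMonoidHom.mk' b fun x y => hinj _ _ (hb' (x + y))
      (by simpa using add_mem (hb' x) (hb' y)) ?_, fun σ n => hinj _ _ (hb' _)
      (by simpa using smul_mem_pairs p G β σ (hb' n)) ?_⟩,
    Subtype.ext (DFunLike.ext _ _ fun n => (hby n).symm)⟩
  · refine ((hby (x + y)).symm.trans (map_add _ x y)).trans ?_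
    rw [hby, hby, ← map_add]
    exact congrArg _ (Subtype.ext (Prod.ext (add_zero 0) rfl))
  · refine ((hby (ρ σ n)).symm.trans (ψ.2 σ n)).trans ?_
    rw [hby, smul_coneMk]
    exact congrArg _ (Subtype.ext (Prod.ext (smul_zero σ) rfl))

/-- The value of the map to `Ext¹` for a chosen integral lift. -/
theorem exists_phi_value (g : homFree p G ρ m) (a : N → Free G m)
    (ha : ∀ n, redFree p G (a n) = (g : N →ₗ[ZMod p] FreeModP p G m) n) :
    ∃ φ : homRel ρ B, ∀ r : relMod ρ, ∃ z, freeHom a (r : FreeMod G N) = p • z ∧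
      (φ : ↥(relMod ρ) →+ B) r = freeTo β z := by
  have hred : ∀ x, redFree p G (freeHom a x)
      = (g : N →ₗ[ZMod p] FreeModP p G m) (freeMap ρ x) := fun x => by
    suffices e : (redFree p G).comp (freeHom a)
        = (g : N →ₗ[ZMod p] FreeModP p G m).toAddMonoidHom.comp (freeMap ρ) from
      DFunLike.congr_fun e x
    refine Finsupp.addHom_ext fun x j => ?_
    obtain ⟨σ, n⟩ := x
    simp [map_zsmul, redFree_smul, ha, g.2 σ n]
  choose z hz using fun r : relMod ρ => (redFree_eq_zero_iff p G _).1 (by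
    rw [hred, r.2, map_zero] : redFree p G (freeHom a (r : FreeMod G N)) = 0)
  have hinj : ∀ {v w : Free G m}, p • v = p • w → v = w := fun {v w} h =>
    funext fun i => funext fun x => by
      have e : p • v i x = p • w i x := congrFun (congrFun h i) x
      simpa [hp.out.ne_zero] using e
  refine ⟨⟨(freeTo β).toAddMonoidHom.comp (AddMonoidHom.mk' z fun r s => hinj ?_),
    fun σ r => ?_⟩, fun r => ⟨z r, hz r, rfl⟩⟩
  · rw [← hz, smul_add, ← hz, ← hz, AddSubgroup.coe_add, map_add]
  · show freeTo β (z (relAct ρ σ r)) = σ • freeTo β (z r)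
    rw [← map_smul]
    congr 1
    refine hinj ?_
    rw [← hz, coe_relAct, freeHom_act, hz]
    exact map_nsmul (DistribSMul.toAddMonoidHom (Free G m) σ) p (z r)

/-- Independence of the lift. -/
theorem extMk_phi_eq {g : homFree p G ρ m} {a a' : N → Free G m}
    (ha : ∀ n, redFree p G (a n) = (g : N →ₗ[ZMod p] FreeModP p G m) n)
    (ha' : ∀ n, redFree p G (a' n) = (g : N →ₗ[ZMod p] FreeModP p G m) n) {φ φ' : homRel ρ B}
    (hφ : ∀ r : relMod ρ, ∃ z, freeHom a (r : FreeMod G N) = p • z ∧
      (φ : ↥(relMod ρ) →+ B) r = freeTo β z)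
    (hφ' : ∀ r : relMod ρ, ∃ z, freeHom a' (r : FreeMod G N) = p • z ∧
      (φ' : ↥(relMod ρ) →+ B) r = freeTo β z) : extMk ρ B φ = extMk ρ B φ' := by
  rw [← sub_eq_zero, ← map_sub, extMk_eq_zero_iff]
  choose d hd using fun n => (redFree_eq_zero_iff p G (a n - a' n)).1 (by
    rw [map_sub, ha, ha', sub_self])
  refine ⟨fun n => freeTo β (d n), Subtype.ext (DFunLike.ext _ _ fun r => ?_)⟩
  obtain ⟨z, hz, hzφ⟩ := hφ r
  obtain ⟨z', hz', hzφ'⟩ := hφ' r
  rw [resRel_apply, ← comp_freeHom (freeTo β), AddSubgroup.coe_sub, AddMonoidHom.sub_apply, hzφ,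
    hzφ', ← map_sub]
  congr 1
  have e : p • freeHom d (r : FreeMod G N) = p • (z - z') := by
    rw [smul_sub, ← hz, ← hz', ← AddMonoidHom.sub_apply, ← nsmulAddMonoidHom_apply,
      ← AddMonoidHom.comp_apply]
    congr 1
    refine Finsupp.addHom_ext fun x j => ?_
    obtain ⟨σ, n⟩ := x
    have e' : σ • (p • d n) = p • σ • d n :=
      map_nsmul (DistribSMul.toAddMonoidHom (Free G m) σ) p (d n)
    simp only [AddMonoidHom.comp_apply, AddMonoidHom.sub_apply, freeHom_single,
      nsmulAddMonoidHom_apply]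
    rw [← smul_sub, ← smul_sub, hd, e', smul_comm]
  refine funext fun i => funext fun x => ?_
  have e' : p • freeHom d (r : FreeMod G N) i x = p • (z - z') i x := congrFun (congrFun e i) x
  simpa [hp.out.ne_zero] using e'

/-- `Hom(N, free mod p) → Ext¹(N, B)`. -/
def phi : homFree p G ρ m →+ Ext1 ρ B :=
  AddMonoidHom.mk' (fun g => extMk ρ B (exists_phi_value p G β ρ g _
    fun n => Function.surjInv_eq (redFree_surjective (m := m) p G)
      ((g : N →ₗ[ZMod p] FreeModP p G m) n)).choose) fun g g' => by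
    rw [← map_add]
    set hs := redFree_surjective (m := m) p G
    refine extMk_phi_eq p G β ρ (g := g + g') (fun n => Function.surjInv_eq hs _)
      (a' := fun n => Function.surjInv hs ((g : N →ₗ[ZMod p] FreeModP p G m) n)
        + Function.surjInv hs ((g' : N →ₗ[ZMod p] FreeModP p G m) n)) ?_
      (exists_phi_value p G β ρ (g + g') _ fun n => Function.surjInv_eq hs _).choose_spec ?_
    · intro n
      rw [map_add, Function.surjInv_eq hs, Function.surjInv_eq hs]
      rfl
    · intro r
      obtain ⟨z, hz, hzφ⟩ := (exists_phi_value p G β ρ g _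
        fun n => Function.surjInv_eq hs _).choose_spec r
      obtain ⟨z', hz', hzφ'⟩ := (exists_phi_value p G β ρ g' _
        fun n => Function.surjInv_eq hs _).choose_spec r
      refine ⟨z + z', ?_, ?_⟩
      · rw [smul_add, ← hz, ← hz', ← AddMonoidHom.add_apply]
        congr 1
        refine Finsupp.addHom_ext fun x j => ?_
        obtain ⟨σ, n⟩ := x
        simp
      · rw [AddSubgroup.coe_add, AddMonoidHom.add_apply, hzφ, hzφ', map_add]

theorem phi_spec (g : homFree p G ρ m) : ∃ (a : N → Free G m) (φ : homRel ρ B),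
    (∀ n, redFree p G (a n) = (g : N →ₗ[ZMod p] FreeModP p G m) n) ∧
    (∀ r : relMod ρ, ∃ z, freeHom a (r : FreeMod G N) = p • z ∧
      (φ : ↥(relMod ρ) →+ B) r = freeTo β z) ∧ phi p G β ρ g = extMk ρ B φ :=
  ⟨fun n => Function.surjInv (redFree_surjective (m := m) p G)
      ((g : N →ₗ[ZMod p] FreeModP p G m) n), _,
    fun n => Function.surjInv_eq (redFree_surjective (m := m) p G)
      ((g : N →ₗ[ZMod p] FreeModP p G m) n),
    (exists_phi_value p G β ρ g _ fun n =>
      Function.surjInv_eq (redFree_surjective (m := m) p G)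
        ((g : N →ₗ[ZMod p] FreeModP p G m) n)).choose_spec, rfl⟩

theorem range_homConeProj : (homConeProj p G β ρ).range = (phi p G β ρ).ker := by
  refine le_antisymm ?_ fun g hg => ?_
  · rintro _ ⟨y, rfl⟩
    rw [AddMonoidHom.mem_ker]
    choose w hw using fun n => coneMk_surjective p G β ((y : N →+ Cone p G β) n)
    let a : N → Free G m := fun n => (w n : Free G m × B).1
    have ha : ∀ n, redFree p G (a n)
        = ((homConeProj p G β ρ y : homFree p G ρ m) : N →ₗ[ZMod p] FreeModP p G m) n :=
      fun n => by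
        show _ = coneProj p G β ((y : N →+ Cone p G β) n)
        rw [← hw]
        rfl
    obtain ⟨a', φ, ha', hφ', he⟩ := phi_spec p G β ρ (homConeProj p G β ρ y)
    obtain ⟨φ₀, hφ₀⟩ := exists_phi_value p G β ρ _ a ha
    rw [he, extMk_phi_eq p G β ρ ha' ha hφ' hφ₀, extMk_eq_zero_iff]
    refine ⟨fun n => (w n : Free G m × B).2, Subtype.ext (DFunLike.ext _ _ fun r => ?_)⟩
    obtain ⟨z, hz, hzφ⟩ := hφ₀ r
    rw [resRel_apply, hzφ]
    -- both components of the lift vanish in the cone
    have hpair : ∀ x : FreeMod G N, ((freeHom a x, freeHom (fun n => (w n : Free G m × B).2) x)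
        : Free G m × B) = ((freeHom w x : pairs p G β) : Free G m × B) := fun x => by
      suffices e : (freeHom a).prod (freeHom fun n => (w n : Free G m × B).2)
          = (pairs p G β).subtype.comp (freeHom w) from DFunLike.congr_fun e x
      refine Finsupp.addHom_ext fun x j => ?_
      obtain ⟨σ, n⟩ := x
      simp [a, coe_smul_pairs]
    have hzero : coneMk p G β (freeHom w (r : FreeMod G N)) = 0 := by
      have e : (coneMk p G β).comp (freeHom (G := G) w) = (y : N →+ Cone p G β).comp (freeMap ρ) :=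
        Finsupp.addHom_ext fun x j => by
          obtain ⟨σ, n⟩ := x
          simp [map_zsmul, ← smul_coneMk, hw, y.2 σ n]
      have e' := DFunLike.congr_fun e (r : FreeMod G N)
      rw [AddMonoidHom.comp_apply, AddMonoidHom.comp_apply, r.2, map_zero] at e'
      exact e'
    obtain ⟨z', hz'⟩ := (coneMk_eq_zero_iff p G β).1 hzero
    have e := hpair r
    rw [← hz'] at e
    have e1 : p • z' = freeHom a (r : FreeMod G N) := (congrArg Prod.fst e).symm
    have e2 : freeTo β z' = freeHom (fun n => (w n : Free G m × B).2) (r : FreeMod G N) :=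
      (congrArg Prod.snd e).symm
    rw [← e2]
    congr 1
    rw [hz] at e1
    refine funext fun i => funext fun x => ?_
    have e' : p • z' i x = p • z i x := congrFun (congrFun e1 i) x
    simpa [hp.out.ne_zero] using e'
  · rw [AddMonoidHom.mem_ker] at hg
    obtain ⟨a, φ, ha, hφ, he⟩ := phi_spec p G β ρ g
    rw [he, extMk_eq_zero_iff] at hg
    obtain ⟨b, hb⟩ := hg
    have hmem : ∀ n, (a n, b n) ∈ pairs p G β := fun n => by
      obtain ⟨z, hz, hzφ⟩ := hφ ⟨_, nsmul_mem_relMod ρ (Finsupp.single (1, n) 1)⟩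
      rw [← hb, resRel_apply] at hzφ
      simp only [map_nsmul, freeHom_single, one_smul] at hz hzφ
      have hzn : z = a n := funext fun i => funext fun x => by
        have e' : p • a n i x = p • z i x := congrFun (congrFun hz i) x
        simpa [hp.out.ne_zero] using e'.symm
      rw [mem_pairs, ← hzn, ← hzφ]
    let w : N → pairs p G β := fun n => ⟨_, hmem n⟩
    have hpair : ∀ x : FreeMod G N, ((freeHom w x : pairs p G β) : Free G m × B)
        = (freeHom a x, freeHom b x) := fun x => by
      suffices e : (pairs p G β).subtype.comp (freeHom w) = (freeHom a).prod (freeHom b) from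
        DFunLike.congr_fun e x
      refine Finsupp.addHom_ext fun x j => ?_
      obtain ⟨σ, n⟩ := x
      simp [w, coe_smul_pairs]
    have hcone : ∀ x, coneMk p G β (freeHom w x)
        = freeHom (fun n => coneMk p G β (w n)) x := fun x => by
      suffices e : (coneMk p G β).comp (freeHom (G := G) w)
          = freeHom fun n => coneMk p G β (w n) from DFunLike.congr_fun e x
      refine Finsupp.addHom_ext fun x j => ?_
      obtain ⟨σ, n⟩ := x
      simp [map_zsmul, smul_coneMk]
    obtain ⟨y, hy⟩ := map_eq_of_rel_zero ρ (fun n => coneMk p G β (w n)) fun r => by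
      rw [← hcone, coneMk_eq_zero_iff]
      obtain ⟨z, hz, hzφ⟩ := hφ r
      rw [← hb, resRel_apply] at hzφ
      exact ⟨z, Subtype.ext ((Prod.ext hz.symm hzφ.symm).trans (hpair r).symm)⟩
    refine ⟨y, Subtype.ext (LinearMap.ext fun n => ?_)⟩
    show coneProj p G β ((y : N →+ Cone p G β) n) = _
    have e := hy (Finsupp.single (1, n) 1)
    simp only [freeMap_single, freeHom_single, one_smul, map_one, Module.End.one_apply] at e
    rw [e, coneProj_mk, ← ha]

theorem phi_surjective [Finite N] (P : Sylow p G) [Finite (Cone p G β)]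
    (hY : H1Trivial (coneRep p G β) P)
    (hsurj : ∀ b : B, ∃ (a : Free G m) (b' : B), b = freeTo β a + p • b') :
    Function.Surjective (phi p G β ρ) := by
  intro z
  obtain ⟨φ, rfl⟩ := QuotientAddGroup.mk'_surjective _ z
  choose a b' hab using fun n : N => hsurj ((φ : ↥(relMod ρ) →+ B)
    ⟨_, nsmul_mem_relMod ρ (Finsupp.single (1, n) 1)⟩)
  let b : N → B := fun n => -b' n
  have hπ : ∀ x : FreeMod G N, freeTo β (freeHom a x)
      = (φ : ↥(relMod ρ) →+ B) ⟨_, nsmul_mem_relMod ρ x⟩ + p • freeHom b x := fun x => by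
    let F : FreeMod G N →+ B := (φ : ↥(relMod ρ) →+ B).comp
      ((nsmulAddMonoidHom p).codRestrict (relMod ρ) fun y => nsmul_mem_relMod ρ y)
    suffices e : (freeTo β).toAddMonoidHom.comp (freeHom (G := G) a)
        = F + (nsmulAddMonoidHom p).comp (freeHom b) from DFunLike.congr_fun e x
    refine Finsupp.addHom_ext fun x j => ?_
    obtain ⟨σ, n⟩ := x
    have e1 : (⟨p • Finsupp.single (σ, n) j, nsmul_mem_relMod ρ _⟩ : relMod ρ)
        = j • relAct ρ σ ⟨_, nsmul_mem_relMod ρ (Finsupp.single (1, n) 1)⟩ :=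
      Subtype.ext (by simp [Finsupp.smul_single, mul_comm])
    have e2 := congrArg (φ : ↥(relMod ρ) →+ B) e1
    rw [map_zsmul, φ.2] at e2
    show freeTo β (freeHom a _) = (φ : ↥(relMod ρ) →+ B) ⟨p • Finsupp.single (σ, n) j, _⟩
      + p • freeHom b _
    rw [e2, freeHom_single, freeHom_single, map_zsmul, map_smul, smul_comm p j,
      ← smul_add, show p • σ • b n = σ • (p • b n) from
        (map_nsmul (DistribSMul.toAddMonoidHom B σ) p (b n)).symm, ← smul_add, hab n]
    simp [b]
  have hmem : ∀ r : relMod ρ, (freeHom a (r : FreeMod G N),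
      (φ : ↥(relMod ρ) →+ B) r + freeHom b (r : FreeMod G N)) ∈ pairs p G β := fun r => by
    rw [mem_pairs, hπ, smul_add]
    exact congrArg (· + _) (map_nsmul (φ : ↥(relMod ρ) →+ B) p r)
  let c : relMod ρ →+ Cone p G β := (coneMk p G β).comp (AddMonoidHom.mk'
    (fun r => (⟨_, hmem r⟩ : pairs p G β)) fun r s => Subtype.ext (by simp [add_add_add_comm]))
  have hc : ∀ σ r, c (relAct ρ σ r) = σ • c r := fun σ r => by
    show coneMk p G β _ = σ • coneMk p G β _
    rw [smul_coneMk]
    refine congrArg _ (Subtype.ext ?_)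
    simp [coe_smul_pairs, freeHom_act, φ.2 σ r, smul_add]
  have hc0 : ∀ x, c ⟨_, nsmul_mem_relMod ρ x⟩ = 0 := fun x => by
    show coneMk p G β _ = 0
    rw [coneMk_eq_zero_iff]
    refine ⟨freeHom a x, Subtype.ext (Prod.ext (map_nsmul _ p x).symm ?_)⟩
    show freeTo β _ = _ + _
    rw [hπ]
    simp [map_nsmul]
  -- the reduction of the free module mod `p`
  let NN : Type := G × N → ZMod p
  let red : FreeMod G N →+ NN :=
    AddMonoidHom.mk' (fun x i => (x i : ZMod p)) fun x y => funext fun i => by
      show (((x + y) i : ℤ) : ZMod p) = (x i : ZMod p) + (y i : ZMod p)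
      rw [Finsupp.add_apply, Int.cast_add]
  let ρN : Representation (ZMod p) G NN :=
    { toFun := fun σ =>
        { toFun := fun f x => f (σ⁻¹ * x.1, x.2)
          map_add' := fun f g => rfl
          map_smul' := fun t f => rfl }
      map_one' := LinearMap.ext fun f => funext fun x => by simp
      map_mul' := fun σ τ => LinearMap.ext fun f => funext fun x => by simp [mul_assoc] }
  have hredact : ∀ σ x, red (freeAct σ x) = ρN σ (red x) := fun σ x => by
    suffices e : red.comp (freeAct σ) = (ρN σ).toAddMonoidHom.comp red from DFunLike.congr_fun e x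
    refine Finsupp.addHom_ext fun y j => funext fun i => ?_
    obtain ⟨g, n⟩ := y
    obtain ⟨g', n'⟩ := i
    simp only [AddMonoidHom.comp_apply, freeAct_single]
    show ((Finsupp.single (σ * g, n) j (g', n') : ℤ) : ZMod p)
      = ((Finsupp.single (g, n) j (σ⁻¹ * g', n') : ℤ) : ZMod p)
    classical
    simp [Finsupp.single_apply, Prod.ext_iff, eq_inv_mul_iff_mul_eq]
  have hredsurj : Function.Surjective red := fun f => by
    haveI : Fintype N := Fintype.ofFinite N
    refine ⟨Finsupp.equivFunOnFinite.symm fun i => ((f i).val : ℤ), funext fun i => ?_⟩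
    show ((Finsupp.equivFunOnFinite.symm (fun i => ((f i).val : ℤ)) i : ℤ) : ZMod p) = f i
    simp
  have hredker : ∀ x, red x = 0 → ∃ y, x = p • y := fun x hx => by
    haveI : Fintype N := Fintype.ofFinite N
    choose y hy using fun i => (ZMod.intCast_zmod_eq_zero_iff_dvd (x i) p).1 (congrFun hx i)
    refine ⟨Finsupp.equivFunOnFinite.symm y, Finsupp.ext fun i => ?_⟩
    simp [hy i]
  let S : Submodule (ZMod p) NN := AddSubgroup.toZModSubmodule p ((relMod ρ).map red)
  have hS : ∀ s : S, ∃ r : relMod ρ, red r = s := fun s => by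
    obtain ⟨r, hr, hrs⟩ := s.2
    exact ⟨⟨r, hr⟩, hrs⟩
  choose lift hlift using hS
  have hwd : ∀ r r' : relMod ρ, red r = red r' → c r = c r' := fun r r' e => by
    obtain ⟨y, hy⟩ := hredker ((r : FreeMod G N) - r') (by rw [map_sub, e, sub_self])
    rw [← sub_eq_zero, ← map_sub]
    have : r - r' = ⟨_, nsmul_mem_relMod ρ y⟩ := Subtype.ext hy
    rw [this, hc0]
  have hlinadd : ∀ s t : S, c (lift (s + t)) = c (lift s) + c (lift t) := fun s t => by
    rw [← map_add]
    exact hwd _ _ (by rw [AddSubgroup.coe_add, map_add, hlift, hlift, hlift]; rfl)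
  let f : S →ₗ[ZMod p] Cone p G β :=
    (AddMonoidHom.mk' (fun s => c (lift s)) hlinadd).toZModLinearMap p
  have hSst : ∀ σ, ∀ v ∈ S, ρN σ v ∈ S := fun σ v hv => by
    obtain ⟨r, hr, hrv⟩ := hv
    exact ⟨freeAct σ r, (relAct ρ σ ⟨r, hr⟩).2, by rw [hredact, hrv]⟩
  haveI : FiniteDimensional (ZMod p) (Cone p G β) := Module.Finite.of_finite
  haveI : Finite NN := Pi.finite
  obtain ⟨F, hF, hFS⟩ := exists_extend P hY ρN S hSst f fun σ s => by
    show c (lift _) = σ • c (lift s)
    rw [← hc]
    exact hwd _ _ (by rw [hlift, coe_relAct, hredact, hlift])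
  choose w hw using fun n : N => coneMk_surjective p G β (F (red (Finsupp.single (1, n) 1)))
  let a' : N → Free G m := fun n => a n - (w n : Free G m × B).1
  let b'' : N → B := fun n => b n - (w n : Free G m × B).2
  have hFr : ∀ x, F (red x) = freeHom (fun n => coneMk p G β (w n)) x := fun x => by
    suffices e : F.toAddMonoidHom.comp red = freeHom fun n => coneMk p G β (w n) from
      DFunLike.congr_fun e x
    refine Finsupp.addHom_ext fun y j => ?_
    obtain ⟨σ, n⟩ := y
    show F (red (Finsupp.single (σ, n) j)) = _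
    rw [freeHom_single, hw, show Finsupp.single (σ, n) j
      = j • freeAct σ (Finsupp.single ((1 : G), n) (1 : ℤ)) by simp [Finsupp.smul_single],
      map_zsmul, map_zsmul, hredact, hF]
    rfl
  have hsub : ∀ {X : Type} [AddCommGroup X] [DistribMulAction G X] (u v : N → X),
      (freeHom (G := G) fun n => u n - v n) = freeHom u - freeHom v := fun u v =>
    Finsupp.addHom_ext fun y j => by obtain ⟨σ, n⟩ := y; simp [smul_sub]
  have hrel : ∀ r : relMod ρ, ∃ z, freeHom a' (r : FreeMod G N) = p • z ∧
      freeTo β z = (φ : ↥(relMod ρ) →+ B) r + freeHom b'' (r : FreeMod G N) := fun r => by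
    have e0 : coneMk p G β (⟨_, hmem r⟩ : pairs p G β)
        = coneMk p G β (freeHom w (r : FreeMod G N)) := by
      have e1 : c r = F (red r) := by
        rw [show F (red r) = f ⟨red r, r, r.2, rfl⟩ from hFS ⟨red r, r, r.2, rfl⟩]
        exact (hwd _ _ (hlift ⟨red r, r, r.2, rfl⟩)).symm
      rw [hFr] at e1
      refine e1.trans ?_
      suffices e : freeHom (G := G) (fun n => coneMk p G β (w n))
          = (coneMk p G β).comp (freeHom w) from DFunLike.congr_fun e (r : FreeMod G N)
      refine Finsupp.addHom_ext fun y j => ?_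
      obtain ⟨σ, n⟩ := y
      simp [map_zsmul, smul_coneMk]
    rw [← sub_eq_zero, ← map_sub, coneMk_eq_zero_iff] at e0
    obtain ⟨z, hz⟩ := e0
    have hpair : ((freeHom w (r : FreeMod G N) : pairs p G β) : Free G m × B)
        = (freeHom (fun n => (w n : Free G m × B).1) (r : FreeMod G N),
           freeHom (fun n => (w n : Free G m × B).2) (r : FreeMod G N)) := by
      suffices e : (pairs p G β).subtype.comp (freeHom (G := G) w)
          = (freeHom fun n => (w n : Free G m × B).1).prod
            (freeHom fun n => (w n : Free G m × B).2) from DFunLike.congr_fun e (r : FreeMod G N)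
      refine Finsupp.addHom_ext fun y j => ?_
      obtain ⟨σ, n⟩ := y
      simp [coe_smul_pairs]
    have h1 := congrArg (fun v => ((v : pairs p G β) : Free G m × B).1) hz
    have h2 := congrArg (fun v => ((v : pairs p G β) : Free G m × B).2) hz
    simp only [AddSubgroup.coe_sub, Prod.fst_sub, Prod.snd_sub, hpair] at h1 h2
    refine ⟨z, ?_, ?_⟩
    · rw [hsub, AddMonoidHom.sub_apply]; exact h1.symm
    · rw [hsub, AddMonoidHom.sub_apply, ← add_sub_assoc]; exact h2
  obtain ⟨gN, hgN⟩ : ∃ g : homFree p G ρ m,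
      ∀ n, redFree p G (a' n) = (g : N →ₗ[ZMod p] FreeModP p G m) n := by
    let q : FreeMod G N →+ FreeModP p G m := (redFree p G).comp (freeHom a')
    have hq : ∀ r : relMod ρ, q r = 0 := fun r => by
      obtain ⟨z, hz, -⟩ := hrel r
      exact (redFree_eq_zero_iff p G _).2 ⟨z, hz⟩
    let g : N →+ FreeModP p G m := AddMonoidHom.mk' (fun n => q (Finsupp.single (1, n) 1))
      fun n n' => by
        rw [← map_add, ← sub_eq_zero, ← map_sub]
        exact hq ⟨_, by simp⟩
    refine ⟨⟨g.toZModLinearMap p, fun σ n => ?_⟩, fun n => ?_⟩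
    · show q (Finsupp.single (1, ρ σ n) 1) = freeRep p G m σ (q (Finsupp.single (1, n) 1))
      have : q (Finsupp.single (σ, n) 1) = q (Finsupp.single (1, ρ σ n) 1) := by
        rw [← sub_eq_zero, ← map_sub]
        exact hq ⟨_, by simp⟩
      rw [← this]
      simp [q, redFree_smul]
    · show _ = q (Finsupp.single (1, n) 1)
      simp [q]
  refine ⟨gN, ?_⟩
  obtain ⟨a'', φ'', ha'', hφ'', he⟩ := phi_spec p G β ρ gN
  obtain ⟨φ₁, hφ₁⟩ := exists_phi_value p G β ρ gN a' hgN
  rw [he, extMk_phi_eq p G β ρ ha'' hgN hφ'' hφ₁]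
  show extMk ρ B φ₁ = extMk ρ B φ
  rw [← sub_eq_zero, ← map_sub, extMk_eq_zero_iff]
  refine ⟨b'', Subtype.ext (DFunLike.ext _ _ fun r => ?_)⟩
  obtain ⟨z, hz, hzr⟩ := hrel r
  obtain ⟨z₁, hz₁, hzr₁⟩ := hφ₁ r
  have hzz : z₁ = z := funext fun i => funext fun x => by
    have e' : p • z₁ i x = p • z i x := congrFun (congrFun (hz₁.symm.trans hz) i) x
    simpa [hp.out.ne_zero] using e'
  rw [resRel_apply, AddSubgroup.coe_sub, AddMonoidHom.sub_apply, hzr₁, hzz, hzr]
  abel

/-- The cardinality identity. -/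
theorem card_ext1 [Finite N] (P : Sylow p G) [Finite (Cone p G β)]
    (hY : H1Trivial (coneRep p G β) P)
    (hsurj : ∀ b : B, ∃ (a : Free G m) (b' : B), b = freeTo β a + p • b') :
    Nat.card (Ext1 ρ B) * Nat.card (homN ρ (Cone p G β))
      = Nat.card (homN ρ B) * Nat.card (homFree p G ρ m) := by
  have h1 := natCard_eq_ker_mul_range (homConeProj p G β ρ)
  have h2 := natCard_eq_ker_mul_range (phi p G β ρ)
  have h3 : Nat.card (homN ρ B) = Nat.card (homToCone p G β ρ).range :=
    Nat.card_congr (AddMonoidHom.ofInjective (homToCone_injective p G β ρ)).toEquiv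
  have h4 : Nat.card (phi p G β ρ).range = Nat.card (Ext1 ρ B) := by
    rw [AddMonoidHom.range_eq_top.2 (phi_surjective p G β ρ P hY hsurj)]
    exact Nat.card_congr AddSubgroup.topEquiv.toEquiv
  rw [← range_homToCone, ← h3] at h1
  rw [← range_homConeProj, h4] at h2
  rw [h1, h2]
  ring

end Fermat.Agent.TW.Cone
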