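/-
The mod `p` invariants of `Ext¹(N, X)` for a torsion-free `X`, and the size of the image of
`Ext¹(N, B) → Ext¹(N, X)`.
-/
import Fermat.Agent.TW.ConeExt
import Fermat.Agent.TW.Coind
import Mathlib.LinearAlgebra.Dual.Lemmas
import Mathlib.GroupTheory.Sylow

set_option autoImplicit false

noncomputable section

namespace Fermat.Agent.TW.Invariant

open ExtOne

variable {p : ℕ} [hp : Fact p.Prime] {G : Type} [Group G]
variable {N : Type} [AddCommGroup N] [Module (ZMod p) N] (ρ : Representation (ZMod p) G N)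
variable {X : Type} [AddCommGroup X] [DistribMulAction G X]

/-- `p` times a generator. -/
def pGen (n : N) : relMod ρ := ⟨p • Finsupp.single ((1 : G), n) 1, nsmul_mem_relMod ρ _⟩

/-- The relation `[g, n] - [1, g n]`. -/
def moveRel (g : G) (n : N) : relMod ρ :=
  ⟨Finsupp.single (g, n) 1 - Finsupp.single ((1 : G), ρ g n) 1, by
    simp [AddMonoidHom.mem_ker]⟩

theorem relAct_pGen (g : G) (n : N) :
    relAct ρ g (pGen ρ n) = pGen ρ (ρ g n) + p • moveRel ρ g n := by
  refine Subtype.ext ?_
  show freeAct g (p • Finsupp.single ((1 : G), n) 1) = p • Finsupp.single ((1 : G), ρ g n) 1 +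
    p • (Finsupp.single (g, n) 1 - Finsupp.single ((1 : G), ρ g n) 1)
  rw [map_nsmul, freeAct_single, mul_one, ← nsmul_add, add_sub_cancel]

theorem intCast_nsmul_eq_zero (x : ℤ) : ((p • x : ℤ) : ZMod p) = 0 := by
  rw [nsmul_eq_mul, Int.cast_mul, Int.cast_natCast, ZMod.natCast_self, zero_mul]

/-- The invariant of an equivariant map on the relations. -/
def invHom (ev : X →+ ℤ) : homRel ρ X →+ Module.Dual (ZMod p) N where
  toFun f := (AddMonoidHom.mk' (fun n => ((ev ((f : ↥(relMod ρ) →+ X) (pGen ρ n)) : ℤ) : ZMod p))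
    fun a b => by
      let r : relMod ρ := ⟨Finsupp.single ((1 : G), a + b) 1 - Finsupp.single ((1 : G), a) 1
        - Finsupp.single ((1 : G), b) 1, by simp [AddMonoidHom.mem_ker]⟩
      have e : pGen ρ (a + b) = pGen ρ a + pGen ρ b + p • r := by
        refine Subtype.ext ?_
        show p • Finsupp.single ((1 : G), a + b) (1 : ℤ) =
          p • Finsupp.single ((1 : G), a) 1 + p • Finsupp.single ((1 : G), b) 1 + p • (_ - _ - _)
        rw [← nsmul_add, ← nsmul_add]
        congr 1
        abel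
      rw [e, map_add, map_add, map_nsmul, map_add, map_add, map_nsmul, Int.cast_add, Int.cast_add,
        intCast_nsmul_eq_zero, add_zero]).toZModLinearMap p
  map_zero' := LinearMap.ext fun n => by simp
  map_add' f f' := LinearMap.ext fun n => by simp

@[simp] theorem invHom_apply (ev : X →+ ℤ) (f : homRel ρ X) (n : N) :
    invHom ρ ev f n = ((ev ((f : ↥(relMod ρ) →+ X) (pGen ρ n)) : ℤ) : ZMod p) := rfl

/-- The invariant of a class. -/
def invariant (ev : X →+ ℤ) : Ext1 ρ X →+ Module.Dual (ZMod p) N :=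
  QuotientAddGroup.lift _ (invHom ρ ev) fun f ⟨b, hb⟩ => LinearMap.ext fun n => by
    rw [← hb, invHom_apply, resRel_apply]
    show ((ev (freeHom b (p • Finsupp.single ((1 : G), n) 1)) : ℤ) : ZMod p) = 0
    rw [map_nsmul, map_nsmul, intCast_nsmul_eq_zero]

@[simp] theorem invariant_mk (ev : X →+ ℤ) (f : homRel ρ X) :
    invariant ρ ev (extMk ρ X f) = invHom ρ ev f := rfl

/-- A class all of whose invariants vanish is zero. -/
theorem eq_zero_of_invariant {ι : Type*} (htf : ∀ x : X, p • x = 0 → x = 0) (ev : ι → X →+ ℤ)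
    (hev : ∀ y : X, (∀ i (g : G), (p : ℤ) ∣ ev i (g • y)) → ∃ z, y = p • z)
    (z : Ext1 ρ X) (hz : ∀ i, invariant ρ (ev i) z = 0) : z = 0 := by
  obtain ⟨f, rfl⟩ := QuotientAddGroup.mk'_surjective _ z
  have hdiv : ∀ n, ∃ y, (f : ↥(relMod ρ) →+ X) (pGen ρ n) = p • y := fun n => by
    refine hev _ fun i g => ?_
    rw [← (mem_homRel.1 f.2), relAct_pGen, map_add, map_nsmul, map_add, map_nsmul]
    refine dvd_add ?_ ⟨_, by rw [nsmul_eq_mul]⟩
    rw [← ZMod.intCast_zmod_eq_zero_iff_dvd]
    exact LinearMap.congr_fun (hz i) _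
  choose b hb using hdiv
  rw [extMk_eq_zero_iff]
  refine ⟨b, Subtype.ext (DFunLike.ext _ _ fun r => ?_)⟩
  let ψ : FreeMod G N →+ X :=
    (f : ↥(relMod ρ) →+ X).comp
      ((nsmulAddMonoidHom p).codRestrict (relMod ρ) fun x => nsmul_mem_relMod ρ x)
  have hψ : ∀ σ x, ψ (freeAct σ x) = σ • ψ x := fun σ x => by
    show (f : ↥(relMod ρ) →+ X) ⟨p • freeAct σ x, _⟩ = σ • _
    rw [show (⟨p • freeAct σ x, nsmul_mem_relMod ρ _⟩ : relMod ρ)
      = relAct ρ σ ⟨p • x, nsmul_mem_relMod ρ x⟩ from Subtype.ext (map_nsmul _ _ _).symm, f.2]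
    rfl
  have hψb : ψ = (nsmulAddMonoidHom p).comp (freeHom b) := by
    rw [eq_freeHom ψ hψ]
    refine Finsupp.addHom_ext fun x j => ?_
    obtain ⟨g, n⟩ := x
    rw [AddMonoidHom.comp_apply, freeHom_single, freeHom_single, nsmulAddMonoidHom_apply,
      show ψ (Finsupp.single ((1 : G), n) 1) = p • b n from hb n]
    rw [smul_comm p j]
    congr 1
    exact map_nsmul (DistribSMul.toAddMonoidHom X g) p (b n)
  refine sub_eq_zero.1 (htf _ ?_)
  rw [smul_sub, sub_eq_zero, resRel_apply]
  refine (DFunLike.congr_fun hψb (r : FreeMod G N)).symm.trans ?_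
  rw [← map_nsmul]
  rfl

section Upper

variable [Finite N]
variable {Y : Type} [AddCommGroup Y] [DistribMulAction G Y]

/-- The image has at most `∏ p ^ codim` elements when the invariants kill the subspaces. -/
theorem card_range_le {ι : Type*} [Fintype ι] (htf : ∀ x : X, p • x = 0 → x = 0)
    (ev : ι → X →+ ℤ) (hev : ∀ y : X, (∀ i (g : G), (p : ℤ) ∣ ev i (g • y)) → ∃ z, y = p • z)
    (π : Y →+[G] X) (M : ι → Submodule (ZMod p) N)
    (hkill : ∀ i, ∀ f : homRel ρ Y, ∀ m ∈ M i,
      (p : ℤ) ∣ ev i (π ((f : ↥(relMod ρ) →+ Y) (pGen ρ m)))) :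
    Finite (ext1Map ρ π).range ∧ Nat.card (ext1Map ρ π).range ≤
      ∏ i, p ^ (Module.finrank (ZMod p) N - Module.finrank (ZMod p) (M i)) := by
  classical
  haveI : Finite (Module.Dual (ZMod p) N) := Module.finite_of_finite (ZMod p)
  let F : (ext1Map ρ π).range → ∀ i, (M i).dualAnnihilator := fun z i =>
    ⟨invariant ρ (ev i) z, (Submodule.mem_dualAnnihilator _).2 fun m hm => by
      obtain ⟨y, hy⟩ := z.2
      obtain ⟨f, rfl⟩ := QuotientAddGroup.mk'_surjective _ y
      rw [← hy]
      show ((ev i (π ((f : ↥(relMod ρ) →+ Y) (pGen ρ m))) : ℤ) : ZMod p) = 0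
      rw [ZMod.intCast_zmod_eq_zero_iff_dvd]
      exact hkill i f m hm⟩
  have hF : Function.Injective F := fun a b h => Subtype.ext (sub_eq_zero.1
    (eq_zero_of_invariant ρ htf ev hev _ fun i => by
      rw [map_sub, sub_eq_zero]
      exact congrArg Subtype.val (congrFun h i)))
  refine ⟨Finite.of_injective F hF, (Nat.card_le_card_of_injective F hF).trans (le_of_eq ?_)⟩
  rw [Nat.card_pi]
  refine Finset.prod_congr rfl fun i _ => ?_
  rw [Module.natCard_eq_pow_finrank (K := ZMod p), Nat.card_zmod]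
  congr 1
  have := Subspace.finrank_add_finrank_dualAnnihilator_eq (M i)
  omega

end Upper

section Lower

variable [Fintype G] [Finite N] {B : Type} [AddCommGroup B] [DistribMulAction G B] {m : ℕ}
  (β : Fin m → B)

open Cone

/-- If every functional is the invariant of a lift of an equivariant map into the free module,
the image has at least `p ^ dim N` elements. -/
theorem le_card_range (ev : X →+ ℤ) (π : B →+[G] X) [Finite (ext1Map ρ π).range]
    (hsurj : ∀ l : Module.Dual (ZMod p) N, ∃ (g : homFree p G ρ m) (a : N → Free G m),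
      (∀ n, redFree p G (a n) = (g : N →ₗ[ZMod p] FreeModP p G m) n) ∧
        ∀ n, ((ev (π (freeTo β (a n))) : ℤ) : ZMod p) = l n) :
    p ^ Module.finrank (ZMod p) N ≤ Nat.card (ext1Map ρ π).range := by
  haveI : Finite (Module.Dual (ZMod p) N) := Module.finite_of_finite (ZMod p)
  have h : Function.Surjective fun z : (ext1Map ρ π).range => invariant ρ ev z := fun l => by
    obtain ⟨g, a, ha, hl⟩ := hsurj l
    obtain ⟨φ, hφ⟩ := exists_phi_value p G β ρ g a ha
    refine ⟨⟨_, extMk ρ B φ, rfl⟩, LinearMap.ext fun n => ?_⟩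
    rw [← hl n]
    obtain ⟨z, hz, hzφ⟩ := hφ (pGen ρ n)
    have hza : z = a n := funext fun i => funext fun x => by
      have e : freeHom a (p • Finsupp.single ((1 : G), n) 1) = p • z := hz
      rw [map_nsmul, freeHom_single, one_smul, one_smul] at e
      have e' : p • a n i x = p • z i x := congrFun (congrFun e i) x
      exact (smul_right_injective ℤ hp.out.ne_zero e').symm
    show ((ev (π ((φ : ↥(relMod ρ) →+ B) (pGen ρ n))) : ℤ) : ZMod p) = _
    rw [hzφ, hza]
  have := Nat.card_le_card_of_surjective _ h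
  rwa [Module.natCard_eq_pow_finrank (K := ZMod p), Nat.card_zmod,
    Subspace.dual_finrank_eq] at this

open scoped Classical in
/-- For lifts of all `δ_g - δ_1` among the `β` every functional is reached, if `N` has no fixed
vectors. -/
theorem exists_lift_functional (π : B →+[G] Splitting.Aug G) (idx : G → Fin m)
    (hidx : ∀ h, π (β (idx h)) = Splitting.augElt h) (hfix : ∀ n, (∀ g, ρ g n = n) → n = 0)
    (l : Module.Dual (ZMod p) N) :
    ∃ (g : homFree p G ρ m) (a : N → Free G m),
      (∀ n, redFree p G (a n) = (g : N →ₗ[ZMod p] FreeModP p G m) n) ∧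
        ∀ n, ((((π (freeTo β (a n)) : Splitting.Aug G) : G → ℤ) 1 : ℤ) : ZMod p) = l n := by
  haveI : NeZero p := ⟨hp.out.ne_zero⟩
  let Δ : N →ₗ[ZMod p] (G → N) := LinearMap.pi fun g => ρ g - LinearMap.id
  have hΔ : Function.Injective Δ := by
    rw [injective_iff_map_eq_zero]
    exact fun n hn => hfix n fun g => sub_eq_zero.1 (congrFun hn g)
  obtain ⟨φ, hφ⟩ := LinearMap.dualMap_surjective_of_injective hΔ l
  let ψ : G → Module.Dual (ZMod p) N := fun h => φ.comp (LinearMap.single (ZMod p) (fun _ => N) h)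
  have hl : ∀ n, l n = ∑ h, (ψ h (ρ h n) - ψ h n) := fun n => by
    rw [← hφ, LinearMap.dualMap_apply]
    conv_lhs => rw [← Finset.univ_sum_single (Δ n), map_sum]
    refine Finset.sum_congr rfl fun h _ => ?_
    rw [← map_sub]
    rfl
  let a : N → Free G m := fun n i x => ∑ h, if idx h = i then ((ψ h (ρ x⁻¹ n)).val : ℤ) else 0
  have hred : ∀ n i x, redFree p G (a n) i x = ∑ h, if idx h = i then ψ h (ρ x⁻¹ n) else 0 :=
    fun n i x => by
      show ((∑ h, _ : ℤ) : ZMod p) = _
      rw [Int.cast_sum]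
      refine Finset.sum_congr rfl fun h _ => ?_
      split_ifs <;> simp
  let g : N →ₗ[ZMod p] FreeModP p G m :=
    LinearMap.pi fun i => LinearMap.pi fun x =>
      ∑ h, if idx h = i then (ψ h).comp (ρ x⁻¹) else 0
  have hg : ∀ n, redFree p G (a n) = g n := fun n => funext fun i => funext fun x => by
    rw [hred]
    simp only [g, LinearMap.pi_apply, LinearMap.sum_apply]
    refine Finset.sum_congr rfl fun h _ => ?_
    split_ifs <;> rfl
  refine ⟨⟨g, fun σ n => funext fun i => funext fun x => ?_⟩, a, hg, fun n => ?_⟩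
  · rw [freeRep_apply, ← hg, ← hg, hred, hred]
    simp [mul_inv_rev, map_mul]
  · rw [hl]
    have e : ((π (freeTo β (a n)) : Splitting.Aug G) : G → ℤ) 1 =
        ∑ i, ∑ x, a n i x * ((π (β i) : Splitting.Aug G) : G → ℤ) x⁻¹ := by
      show ((π (∑ i, ∑ x, a n i x • (x • β i)) : Splitting.Aug G) : G → ℤ) 1 = _
      simp only [map_sum, map_zsmul, map_smul, AddSubgroup.val_finsetSum, Finset.sum_apply,
        AddSubgroup.coe_zsmul, Pi.smul_apply, smul_eq_mul, Splitting.coe_smul_aug, mul_one]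
    have e2 : ∀ h, ∑ x, ((ψ h (ρ x⁻¹ n)).val : ℤ) *
        ((Splitting.augElt h : Splitting.Aug G) : G → ℤ) x⁻¹ =
          ((ψ h (ρ h n)).val : ℤ) - (ψ h n).val := fun h => by
      simp [Splitting.augElt, Pi.single_apply, mul_sub, Finset.sum_sub_distrib, inv_eq_iff_eq_inv,
        map_one]
    have e3 : ((π (freeTo β (a n)) : Splitting.Aug G) : G → ℤ) 1 =
        ∑ h, (((ψ h (ρ h n)).val : ℤ) - (ψ h n).val) := by
      rw [e]
      simp only [a, Finset.sum_mul, ite_mul, zero_mul]
      rw [Finset.sum_congr rfl fun i _ => Finset.sum_comm, Finset.sum_comm]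
      refine Finset.sum_congr rfl fun h _ => ?_
      rw [← e2 h, Finset.sum_comm]
      refine Finset.sum_congr rfl fun x _ => ?_
      rw [Finset.sum_ite_eq Finset.univ (idx h), if_pos (Finset.mem_univ _), hidx]
    rw [e3, Int.cast_sum]
    simp

end Lower

end Fermat.Agent.TW.Invariant
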