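/-
Finiteness mod `p`, the characteristic polynomials of the cone, and its intertwiner counts.
-/
import Fermat.Agent.TW.EulerPoly
import Fermat.Agent.TW.Coind
import Fermat.Agent.TW.ConeExt

set_option autoImplicit false

noncomputable section

namespace Fermat.Agent.TW

open ExtOne RepAlgebra

variable {p : ℕ} [hp : Fact p.Prime]

/-- An element killed by `p`, as an element of `X[p]`. -/
def torMk {X : Type} [AddCommGroup X] (x : X) (hx : p • x = 0) : TorP p X := ⟨x, hx⟩

omit hp in
@[simp] theorem torVal_torMk {X : Type} [AddCommGroup X] (x : X) (hx : p • x = 0) :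
    torVal (torMk x hx) = x := rfl

theorem finModP_of_finite (p : ℕ) (X : Type) [AddCommGroup X] [Finite X] : FinModP p X :=
  ⟨inferInstanceAs (Finite ↥(nsmulAddMonoidHom p : X →+ X).ker),
    Finite.of_surjective _ quoMk_surjective⟩

theorem finModP_of_fg (X : Type) [AddCommGroup X] [hX : Module.Finite ℤ X] : FinModP p X := by
  haveI : IsNoetherian ℤ X := isNoetherian_of_isNoetherianRing_of_finite ℤ X
  constructor
  · haveI : Module.Finite ℤ (TorP p X) := Module.Finite.of_injective
      (torVal (p := p) (X := X)).toIntLinearMap torVal_injective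
    haveI : Module.Finite (ZMod p) (TorP p X) := Module.Finite.of_restrictScalars_finite ℤ _ _
    exact Module.finite_of_finite (ZMod p)
  · haveI : Module.Finite ℤ (QuoP p X) :=
      Module.Finite.of_surjective (quoMk (p := p) (X := X)).toIntLinearMap quoMk_surjective
    haveI : Module.Finite (ZMod p) (QuoP p X) := Module.Finite.of_restrictScalars_finite ℤ _ _
    exact Module.finite_of_finite (ZMod p)

omit hp in
theorem finModP_pi {T : Type} [Finite T] (X : T → Type) [∀ v, AddCommGroup (X v)]
    (h : ∀ v, FinModP p (X v)) : FinModP p (∀ v, X v) := by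
  haveI := fun v => (h v).tor
  haveI := fun v => (h v).quo
  constructor
  · refine Finite.of_injective
      (fun (t : TorP p (∀ v, X v)) (v : T) => (torMk (torVal t v) (congrFun (nsmul_torVal t) v) : TorP p (X v)))
      fun a b hab => torVal_injective (funext fun v => congrArg torVal (congrFun hab v))
  · refine Finite.of_injective
      (fun (t : QuoP p (∀ v, X v)) (v : T) =>
        quoMapHom (Pi.evalAddMonoidHom X v) t) fun a b hab => ?_
    obtain ⟨a, rfl⟩ := quoMk_surjective a
    obtain ⟨b, rfl⟩ := quoMk_surjective b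
    rw [← sub_eq_zero, ← map_sub, quoMk_eq_zero_iff]
    choose y hy using fun v => quoMk_eq_zero_iff.1
      (show (quoMk ((a - b) v) : QuoP p (X v)) = 0 by
        rw [Pi.sub_apply, map_sub, sub_eq_zero]; exact congrFun hab v)
    exact ⟨y, funext hy⟩

omit hp in
theorem finModP_coind {G D : Type} [Group G] [Finite G] [Group D] {ι : D →* G}
    (hι : Function.Injective ι) {X : Type} [AddCommGroup X] [DistribMulAction D X]
    (h : FinModP p X) : FinModP p (Coind ι X) := by
  haveI := h.tor
  haveI := h.quo
  constructor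
  · refine Finite.of_injective (fun (t : TorP p (Coind ι X)) (g : G) =>
      (torMk (Coind.val (torVal t) g) (by
        rw [← Pi.smul_apply, ← map_nsmul, nsmul_torVal, map_zero, Pi.zero_apply]) : TorP p X))
      fun a b hab => ?_
    exact torVal_injective (Coind.ext fun g => congrArg torVal (congrFun hab g))
  · let ev : G → (Coind ι X →+ X) := fun g => (Pi.evalAddMonoidHom _ g).comp Coind.val
    refine Finite.of_injective (fun (t : QuoP p (Coind ι X)) (g : G) => quoMapHom (ev g) t)
      fun a b hab => ?_
    obtain ⟨a, rfl⟩ := quoMk_surjective a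
    obtain ⟨b, rfl⟩ := quoMk_surjective b
    rw [← sub_eq_zero, ← map_sub, quoMk_eq_zero_iff]
    choose y hy using fun g => quoMk_eq_zero_iff.1
      (show (quoMk (ev g (a - b)) : QuoP p X) = 0 by
        rw [map_sub, map_sub, sub_eq_zero]; exact congrFun hab g)
    refine ⟨Coind.mk (fun g => Coind.dpart hι g • y (Splitting.rep ι.range g)) fun d g => by
      rw [Coind.dpart_mul, Coind.rep_ι_mul, mul_smul], Coind.ext fun g => ?_⟩
    rw [map_nsmul, Pi.smul_apply, Coind.val_mk]
    refine (map_nsmul (DistribSMul.toAddMonoidHom X (Coind.dpart hι g)) p _).symm.trans ?_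
    show Coind.dpart hι g • (p • y (Splitting.rep ι.range g)) = _
    rw [hy, show ev (Splitting.rep ι.range g) (a - b) = Coind.val (a - b) (Splitting.rep ι.range g)
      from rfl, ← Coind.val_equivariant, Coind.ι_dpart_mul_rep]

/-- The endomorphism given by a group element. -/
abbrev actHom {G : Type} [Monoid G] (B : Type) [AddCommGroup B] [DistribMulAction G B] (s : G) :
    B →+ B := DistribSMul.toAddMonoidHom B s

section Cone

open Cone

variable {G : Type} [Group G] [Fintype G] {B : Type} [AddCommGroup B] [DistribMulAction G B]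

/-- The two cohomological properties of a module used for its cone. -/
structure ConeReady (p : ℕ) (B : Type) [AddCommGroup B] [DistribMulAction G B] (P : Subgroup G) :
    Prop where
  h1 : ∀ c : P → B, (∀ g h : P, c (g * h) = c g + (g : G) • c h) →
    ∃ b, ∀ g : P, c g = (g : G) • b - b
  norm : ∀ b : B, (∀ g ∈ P, g • b = b) → ∃ (_ : Fintype P) (d : B), b = ∑ g : P, (g : G) • d
  fin : FinModP p B

/-- Generators of a module modulo `p`, containing prescribed elements. -/
theorem exists_generators (h : FinModP p B) {S : Type} [Finite S] (b : S → B) :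
    ∃ (m : ℕ) (β : Fin m → B) (idx : S → Fin m), (∀ s, β (idx s) = b s) ∧
      ∀ x : B, ∃ (a : Free G m) (b' : B), x = freeTo β a + p • b' := by
  classical
  haveI := h.quo
  letI : Fintype (S ⊕ QuoP p B) := Fintype.ofFinite _
  let e := Fintype.equivFin (S ⊕ QuoP p B)
  refine ⟨_, fun i => Sum.elim b (Function.surjInv quoMk_surjective) (e.symm i),
    fun s => e (Sum.inl s), fun s => by simp, fun x => ?_⟩
  obtain ⟨y, hy⟩ := quoMk_eq_zero_iff.1
    (show (quoMk (x - Function.surjInv quoMk_surjective (quoMk x : QuoP p B)) : QuoP p B) = 0 by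
      rw [map_sub, Function.surjInv_eq quoMk_surjective, sub_self])
  refine ⟨fun i g => if i = e (Sum.inr (quoMk x)) ∧ g = 1 then 1 else 0, y, ?_⟩
  rw [hy]
  show x = (∑ i : Fin (Fintype.card (S ⊕ QuoP p B)), ∑ g : G,
    (if i = e (Sum.inr (quoMk x : QuoP p B)) ∧ g = 1 then (1 : ℤ) else 0) •
      (g • Sum.elim b (Function.surjInv quoMk_surjective) (e.symm i))) + _
  rw [Finset.sum_eq_single (e (Sum.inr (quoMk x : QuoP p B))), Finset.sum_eq_single (1 : G)]
  · simp
  · intro g _ hg
    simp [hg]
  · simp
  · intro i _ hi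
    simp [hi]
  · simp

variable {m : ℕ} (β : Fin m → B)

omit [Fintype G] in
theorem ConeReady.h1Trivial_cone [Fintype G] {P : Subgroup G} (h : ConeReady p B P)
    (hβ : ∀ x : B, ∃ (a : Free G m) (b' : B), x = freeTo β a + p • b') :
    H1Trivial (coneRep p G β) P :=
  Cone.h1Trivial_cone p G β P h.h1 (fun b hb => by
    obtain ⟨i, d, hd⟩ := h.norm b hb
    exact ⟨d, hd.trans (by congr; exact Subsingleton.elim _ _)⟩) hβ

theorem ConeReady.finite_cone {P : Subgroup G} (h : ConeReady p B P) : Finite (Cone p G β) := by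
  haveI : NeZero p := ⟨hp.out.ne_zero⟩
  haveI := h.fin.tor
  refine Cone.finite_cone p G β ((Set.finite_range (torVal : TorP p B → B)).subset fun b hb => ?_)
  exact exists_torVal hb

/-- `P(cone) * P(B/p) = P(B[p]) * P(free)`. -/
theorem charpoly_cone [Finite (Cone p G β)] [Finite (TorP p B)] [Finite (QuoP p B)]
    (hβ : ∀ x : B, ∃ (a : Free G m) (b' : B), x = freeTo β a + p • b') (s : G) :
    (coneRep p G β s).charpoly * quoPoly (p := p) (actHom B s) =
      torPoly (p := p) (actHom B s) * (freeRep p G m s).charpoly := by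
  haveI : NeZero p := ⟨hp.out.ne_zero⟩
  let incHom : TorP p B →+ Cone p G β := AddMonoidHom.mk'
    (fun t => coneMk p G β ⟨(0, torVal t), by rw [mem_pairs, map_zero]; exact (nsmul_torVal t).symm⟩)
    fun a b => by
      rw [← map_add]
      exact congrArg _ (Subtype.ext (Prod.ext (add_zero 0).symm (map_add _ a b)))
  let inc : TorP p B →ₗ[ZMod p] Cone p G β := incHom.toZModLinearMap p
  let proj : Cone p G β →ₗ[ZMod p] FreeModP p G m := (coneProj p G β).toZModLinearMap p
  let toQuoHom : FreeModP p G m →+ QuoP p B := AddMonoidHom.mk'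
    (fun a => quoMk (freeTo β (Function.surjInv (redFree_surjective (m := m) p G) a)))
    fun a b => by
      set hs := redFree_surjective (m := m) p G
      rw [← map_add quoMk, eq_comm, ← sub_eq_zero, ← map_sub, quoMk_eq_zero_iff, ← map_add,
        ← map_sub]
      obtain ⟨z, hz⟩ := (redFree_eq_zero_iff p G
        (Function.surjInv hs a + Function.surjInv hs b - Function.surjInv hs (a + b))).1 (by
          rw [map_sub, map_add, Function.surjInv_eq hs, Function.surjInv_eq hs,
            Function.surjInv_eq hs, sub_self])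
      exact ⟨freeTo β z, by rw [hz, map_nsmul]⟩
  have htoQuo : ∀ a : Free G m, toQuoHom (redFree p G a) = quoMk (freeTo β a) := fun a => by
    set hs := redFree_surjective (m := m) p G
    show quoMk (freeTo β (Function.surjInv hs (redFree p G a))) = _
    rw [← sub_eq_zero, ← map_sub, quoMk_eq_zero_iff, ← map_sub]
    obtain ⟨z, hz⟩ := (redFree_eq_zero_iff p G (Function.surjInv hs (redFree p G a) - a)).1 (by
      rw [map_sub, Function.surjInv_eq hs, sub_self])
    exact ⟨freeTo β z, by rw [hz, map_nsmul]⟩
  let toQuo : FreeModP p G m →ₗ[ZMod p] QuoP p B := toQuoHom.toZModLinearMap p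
  have hinc : Function.Injective inc := by
    rw [injective_iff_map_eq_zero]
    intro t ht
    obtain ⟨z, hz⟩ := (coneMk_eq_zero_iff p G β).1 ht
    have h1 : p • z = 0 := congrArg (fun w => ((w : pairs p G β) : Free G m × B).1) hz
    have h2 : freeTo β z = torVal t := congrArg (fun w => ((w : pairs p G β) : Free G m × B).2) hz
    have hz0 : z = 0 := funext fun i => funext fun x => by
      have e' : p • z i x = 0 := congrFun (congrFun h1 i) x
      exact (smul_eq_zero.1 e').resolve_left hp.out.ne_zero
    exact torVal_injective (by rw [← h2, hz0, map_zero, map_zero])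
  have hker : LinearMap.range inc = LinearMap.ker proj := by
    ext y
    rw [LinearMap.mem_range, LinearMap.mem_ker]
    constructor
    · rintro ⟨t, rfl⟩
      exact (redFree_eq_zero_iff p G _).2 ⟨0, (smul_zero p).symm⟩
    · intro hy
      obtain ⟨b, hb, hb', rfl⟩ := coneProj_ker p G β y hy
      exact ⟨⟨b, hb⟩, rfl⟩
  have hker2 : LinearMap.range proj = LinearMap.ker toQuo := by
    ext a
    rw [LinearMap.mem_range, LinearMap.mem_ker]
    constructor
    · rintro ⟨y, rfl⟩
      obtain ⟨⟨⟨a, b⟩, hw⟩, rfl⟩ := coneMk_surjective p G β y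
      show toQuoHom (coneProj p G β (coneMk p G β _)) = 0
      rw [coneProj_mk]
      show toQuoHom (redFree p G a) = 0
      rw [htoQuo, show freeTo β a = p • b from hw, quoMk_nsmul]
    · intro ha
      obtain ⟨a, rfl⟩ := redFree_surjective (m := m) p G a
      change toQuoHom (redFree p G a) = 0 at ha
      rw [htoQuo, quoMk_eq_zero_iff] at ha
      obtain ⟨b, hb⟩ := ha
      exact ⟨coneMk p G β ⟨(a, b), hb.symm⟩, coneProj_mk p G β _⟩
  have hsurj : Function.Surjective toQuo := fun y => by
    obtain ⟨x, rfl⟩ := quoMk_surjective y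
    obtain ⟨a, b', rfl⟩ := hβ x
    exact ⟨redFree p G a, by rw [map_add, quoMk_nsmul, add_zero]; exact htoQuo a⟩
  have ci : ∀ t, inc (torMap (actHom B s) t) = coneRep p G β s (inc t) := fun t => by
    show coneMk p G β _ = s • coneMk p G β _
    rw [smul_coneMk]
    exact congrArg _ (Subtype.ext (Prod.ext (smul_zero s).symm rfl))
  have cp : ∀ y, proj (coneRep p G β s y) = freeRep p G m s (proj y) := coneProj_smul p G β s
  have cq : ∀ a, toQuo (freeRep p G m s a) = quoMap (actHom B s) (toQuo a) := fun a => by
    obtain ⟨a, rfl⟩ := redFree_surjective (m := m) p G a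
    show toQuoHom (freeRep p G m s (redFree p G a)) = quoMap (actHom B s) (toQuoHom (redFree p G a))
    rw [← redFree_smul, htoQuo, htoQuo, map_smul, quoMap_mk]
    rfl
  rw [charpoly_eq_ker_mul_range proj (coneRep p G β s) (freeRep p G m s) cp,
    charpoly_eq_ker_mul_range toQuo (freeRep p G m s) (quoMap (actHom B s)) cq,
    subPoly_range_of_surjective toQuo hsurj,
    subPoly_congr _ hker2.symm _ (fun y ⟨x, hx⟩ => ⟨coneRep p G β s x, by rw [cp, hx]⟩),
    subPoly_congr _ hker.symm _ (fun y ⟨x, hx⟩ => ⟨torMap (actHom B s) x, by rw [ci, hx]⟩)]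
  have h1 := charpoly_eq_ker_mul_range inc (torMap (actHom B s)) (coneRep p G β s) ci
  rw [subPoly_ker_of_injective inc hinc, one_mul] at h1
  rw [← h1]
  unfold quoPoly torPoly
  ring

variable {N : Type} [AddCommGroup N] [Module (ZMod p) N] [Finite N]
  (ρ : Representation (ZMod p) G N)

omit [Fintype G] in
theorem card_homN_eq [Fintype G] [Finite (Cone p G β)] :
    Nat.card (homN ρ (Cone p G β)) = p ^ Module.finrank (ZMod p) (homG ρ (coneRep p G β)) := by
  haveI : Finite (N →ₗ[ZMod p] Cone p G β) := Finite.of_injective _ DFunLike.coe_injective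
  have h := Module.natCard_eq_pow_finrank (K := ZMod p) (V := homG ρ (coneRep p G β))
  rw [Nat.card_zmod] at h
  rw [← h]
  refine Nat.card_congr
    { toFun := fun f => ⟨(f : N →+ Cone p G β).toZModLinearMap p, fun g n => f.2 g n⟩
      invFun := fun f => ⟨(f : N →ₗ[ZMod p] Cone p G β).toAddMonoidHom, fun g n => f.2 g n⟩
      left_inv := fun f => Subtype.ext (AddMonoidHom.ext fun n => rfl)
      right_inv := fun f => Subtype.ext (LinearMap.ext fun n => rfl) }

/-- The Euler count of a cone-ready module. -/
theorem ConeReady.card_ext1 (P : Sylow p G) (h : ConeReady p B (P : Subgroup G))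
    (hβ : ∀ x : B, ∃ (a : Free G m) (b' : B), x = freeTo β a + p • b') :
    Finite (homN ρ B) ∧ Finite (Ext1 ρ B) ∧
      Nat.card (Ext1 ρ B) * p ^ Module.finrank (ZMod p) (homG ρ (coneRep p G β)) =
        Nat.card (homN ρ B) * p ^ Module.finrank (ZMod p) (homFree p G ρ m) := by
  haveI := h.finite_cone β
  haveI := h.fin.tor
  haveI : Finite (homN ρ B) := Finite.of_injective
    (fun f : homN ρ B => fun n => (torMk ((f : N →+ B) n) (Cone.nsmul_homN_apply p G ρ f n) : TorP p B))
    fun a b hab => Subtype.ext (AddMonoidHom.ext fun n => congrArg torVal (congrFun hab n))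
  have e := Cone.card_ext1 p G β ρ P (h.h1Trivial_cone β hβ) hβ
  haveI : Finite (N →ₗ[ZMod p] FreeModP p G m) := Finite.of_injective _ DFunLike.coe_injective
  have hF : Nat.card (homFree p G ρ m) = p ^ Module.finrank (ZMod p) (homFree p G ρ m) := by
    rw [Module.natCard_eq_pow_finrank (K := ZMod p), Nat.card_zmod]
  rw [card_homN_eq, hF] at e
  refine ⟨inferInstance, Nat.finite_of_card_ne_zero fun h0 => ?_, e⟩
  rw [h0, zero_mul, eq_comm, mul_eq_zero] at e
  rcases e with e | e
  · exact Nat.card_pos.ne' e
  · exact pow_ne_zero _ hp.out.ne_zero e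

end Cone

end Fermat.Agent.TW
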