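/-
The algebraic half of the global lower bound: for a short exact sequence
`0 → E → ⊕ Coind X_v → C → 0` with class modules `X_v` and `C`, `#Ext¹(N, E)` is bounded below.
-/
import Fermat.Agent.TW.ModP
import Fermat.Agent.TW.Invariant

set_option autoImplicit false

noncomputable section

namespace Fermat.Agent.TW

open ExtOne RepAlgebra Splitting PoitouTate groupCohomology

variable {p : ℕ} [hp : Fact p.Prime] {G : Type} [Group G]

section Misc

/-- The free module mod `p` has trivial `H¹` on every subgroup. -/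
theorem h1Trivial_freeRep [Fintype G] (m : ℕ) (P : Subgroup G) :
    H1Trivial (Cone.freeRep p G m) P := by
  intro c hc
  refine ⟨fun i x => c (Splitting.head P x)⁻¹ i (Splitting.rep P x), fun g =>
    funext fun i => funext fun x => ?_⟩
  have e1 : Splitting.rep P ((g : G)⁻¹ * x) = Splitting.rep P x := Splitting.rep_mul P g⁻¹ x
  have e2 : Splitting.head P ((g : G)⁻¹ * x) = g⁻¹ * Splitting.head P x :=
    Splitting.head_mul P g⁻¹ x
  have e := congrFun (congrFun (hc (Splitting.head P x)⁻¹ g) i) (Splitting.rep P x)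
  simp only [Pi.add_apply, Cone.freeRep_apply, InvMemClass.coe_inv, inv_inv,
    Splitting.head_mul_rep] at e
  simp only [Pi.sub_apply, Cone.freeRep_apply, e1, e2, mul_inv_rev, inv_inv, e]
  abel

/-- The product of two representations. -/
def prodRep {k : Type} [CommRing k] {Y Z : Type} [AddCommGroup Y] [Module k Y] [AddCommGroup Z]
    [Module k Z] (σ : Representation k G Y) (τ : Representation k G Z) :
    Representation k G (Y × Z) where
  toFun g := (σ g).prodMap (τ g)
  map_one' := by simp only [map_one]; rfl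
  map_mul' g h := by simp only [map_mul]; rfl

variable {Y Z N : Type} [AddCommGroup Y] [Module (ZMod p) Y] [AddCommGroup Z] [Module (ZMod p) Z]
  [AddCommGroup N] [Module (ZMod p) N]

theorem h1Trivial_prod {σ : Representation (ZMod p) G Y} {τ : Representation (ZMod p) G Z}
    {P : Subgroup G} (h : H1Trivial σ P) (h' : H1Trivial τ P) : H1Trivial (prodRep σ τ) P := by
  intro c hc
  obtain ⟨y, hy⟩ := h (fun g => (c g).1) fun g g' => congrArg Prod.fst (hc g g')
  obtain ⟨z, hz⟩ := h' (fun g => (c g).2) fun g g' => congrArg Prod.snd (hc g g')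
  exact ⟨(y, z), fun g => Prod.ext (hy g) (hz g)⟩

theorem finrank_homG_prod [Finite N] [Finite Y] [Finite Z] (ρ : Representation (ZMod p) G N)
    (σ : Representation (ZMod p) G Y) (τ : Representation (ZMod p) G Z) :
    Module.finrank (ZMod p) (homG ρ (prodRep σ τ)) =
      Module.finrank (ZMod p) (homG ρ σ) + Module.finrank (ZMod p) (homG ρ τ) := by
  haveI : Finite (N →ₗ[ZMod p] Y) := Finite.of_injective _ DFunLike.coe_injective
  haveI : Finite (N →ₗ[ZMod p] Z) := Finite.of_injective _ DFunLike.coe_injective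
  rw [← Module.finrank_prod]
  exact LinearEquiv.finrank_eq
    { toFun := fun f => (⟨(LinearMap.fst _ _ _).comp f.1, fun g n => congrArg Prod.fst (f.2 g n)⟩,
        ⟨(LinearMap.snd _ _ _).comp f.1, fun g n => congrArg Prod.snd (f.2 g n)⟩)
      map_add' := fun f f' => rfl
      map_smul' := fun t f => rfl
      invFun := fun f => ⟨f.1.1.prod f.2.1, fun g n => Prod.ext (f.1.2 g n) (f.2.2 g n)⟩
      left_inv := fun f => rfl
      right_inv := fun f => rfl }

theorem charpoly_prodRep [Finite Y] [Finite Z] (σ : Representation (ZMod p) G Y)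
    (τ : Representation (ZMod p) G Z) (g : G) :
    (prodRep σ τ g).charpoly = (σ g).charpoly * (τ g).charpoly := LinearMap.charpoly_prodMap _ _

variable {T : Type} {A B C : T → Type} [∀ v, AddCommGroup (A v)] [∀ v, AddCommGroup (B v)]
  [∀ v, AddCommGroup (C v)] [∀ v, DistribMulAction G (A v)] [∀ v, DistribMulAction G (B v)]
  [∀ v, DistribMulAction G (C v)]

/-- Products of equivariant maps. -/
def piHom (f : ∀ v, A v →+[G] B v) : (∀ v, A v) →+[G] ∀ v, B v where
  toFun a v := f v (a v)
  map_smul' σ a := funext fun v => map_smul (f v) σ (a v)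
  map_zero' := funext fun v => map_zero (f v)
  map_add' a a' := funext fun v => map_add (f v) _ _

theorem isShortExact_pi {i : ∀ v, A v →+[G] B v} {q : ∀ v, B v →+[G] C v}
    (h : ∀ v, IsShortExact (i v) (q v)) : IsShortExact (piHom i) (piHom q) where
  injective a a' e := funext fun v => (h v).injective (congrFun e v)
  surjective c := by
    choose b hb using fun v => (h v).surjective (c v)
    exact ⟨b, funext hb⟩
  exact b := by
    constructor
    · intro hb
      choose a ha using fun v => ((h v).exact (b v)).1 (congrFun hb v)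
      exact ⟨a, funext ha⟩
    · rintro ⟨a, rfl⟩
      exact funext fun v => (h v).comp_eq_zero (a v)

end Misc

section Ready

variable [Fintype G]

theorem finModP_aug (p : ℕ) [Fact p.Prime] (G : Type) [Group G] [Fintype G] :
    FinModP p (Aug G) := by
  haveI : Module.Finite ℤ (Aug G) :=
    Module.Finite.of_injective ((Splitting.Aug G).subtype).toIntLinearMap Subtype.coe_injective
  exact finModP_of_fg _

variable {C : Type} [AddCommGroup C] [DistribMulAction G C] {u : G × G → C}

theorem coneReady_splitMod (hC : IsClassModule p G C u) (hfin : FinModP p C) {P : Subgroup G}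
    (hP : IsPGroup p P) : ConeReady p (SplitMod hC.cocycle) P := by
  classical
  refine ⟨fun c hc => h1_eq_zero hC.cocycle P hC hP c hc, fun b hb => ?_, ?_⟩
  · obtain ⟨d, hd⟩ := mem_norm_of_fixed hC.cocycle hC hP b hb
    exact ⟨_, d, hd⟩
  · exact FinModP.of_exact (incl hC.cocycle).toAddMonoidHom (proj hC.cocycle).toAddMonoidHom
      (isShortExact hC.cocycle).injective (isShortExact hC.cocycle).surjective
      (isShortExact hC.cocycle).exact hfin (finModP_aug p G)

theorem coneReady_coind {D : Type} [Group D] {ι : D →* G} (hι : Function.Injective ι)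
    {X : Type} [AddCommGroup X] [DistribMulAction D X]
    (hX : ∀ Q : Subgroup D, IsPGroup p Q → ConeReady p X Q) {P : Subgroup G} (hP : IsPGroup p P)
    (hfin : FinModP p X) :
    ConeReady p (Coind ι X) P := by
  classical
  refine ⟨fun c hc => coind_h1 ι hι P hP (fun Q hQ => (hX Q hQ).h1) c hc, fun f hf => ?_,
    finModP_coind hι hfin⟩
  obtain ⟨ψ, hψ⟩ := coind_norm ι hι P hP (fun Q hQ x hx => by
    obtain ⟨i, d, hd⟩ := (hX Q hQ).norm x hx
    exact ⟨i, d, hd⟩) f hf
  exact ⟨_, ψ, hψ⟩

omit hp [Fintype G] in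
theorem coneReady_pi {T : Type} [Finite T] {B : T → Type} [∀ v, AddCommGroup (B v)]
    [∀ v, DistribMulAction G (B v)] {P : Subgroup G} [Finite P] (h : ∀ v, ConeReady p (B v) P) :
    ConeReady p (∀ v, B v) P := by
  refine ⟨fun c hc => ?_, fun b hb => ?_, finModP_pi B fun v => (h v).fin⟩
  · choose y hy using fun v => (h v).h1 (fun g => c g v) fun g g' => congrFun (hc g g') v
    exact ⟨y, fun g => funext fun v => hy v g⟩
  · choose i d hd using fun v => (h v).norm (b v) fun g hg => congrFun (hb g hg) v
    letI : Fintype P := Fintype.ofFinite P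
    refine ⟨Fintype.ofFinite P, d, funext fun v => ?_⟩
    rw [Finset.sum_apply, hd v]
    exact Finset.sum_congr (by ext; simp) fun g _ => rfl

end Ready

section Counting

variable {N : Type} [AddCommGroup N] [Module (ZMod p) N] (ρ : Representation (ZMod p) G N)
variable {X B I : Type} [AddCommGroup X] [DistribMulAction G X] [AddCommGroup B]
  [DistribMulAction G B] [AddCommGroup I] [DistribMulAction G I]

theorem homN_subsingleton (htf : ∀ x : I, p • x = 0 → x = 0) : Subsingleton (homN ρ I) :=
  ⟨fun a b => Subtype.ext (AddMonoidHom.ext fun n => sub_eq_zero.1 (htf _ (by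
    rw [← AddMonoidHom.sub_apply, ← map_nsmul, ← Nat.cast_smul_eq_nsmul (ZMod p),
      ZMod.natCast_self, zero_smul, map_zero])))⟩

/-- A submodule with torsion-free quotient. -/
theorem card_ext1_of_torsionFree {i : X →+[G] B} {π : B →+[G] I} (h : IsShortExact i π)
    (htf : ∀ x : I, p • x = 0 → x = 0) [Finite (Ext1 ρ B)] [Finite (homN ρ B)] :
    Finite (Ext1 ρ X) ∧ Finite (homN ρ X) ∧ Nat.card (homN ρ X) = Nat.card (homN ρ B) ∧
      Nat.card (Ext1 ρ B) = Nat.card (Ext1 ρ X) * Nat.card (ext1Map ρ π).range := by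
  haveI := homN_subsingleton ρ htf
  have hinj : Function.Injective (ext1Map ρ i) := by
    rw [injective_iff_map_eq_zero]
    intro z hz
    obtain ⟨ψ, rfl⟩ := h.ker_ext1Map_le z hz
    rw [Subsingleton.elim ψ 0, map_zero]
  have hbij : Function.Bijective (homNMap ρ i) :=
    ⟨h.homNMap_injective, fun z => (h.homNMap_exact z).1 (Subsingleton.elim _ _)⟩
  have hker : (ext1Map ρ π).ker = (ext1Map ρ i).range := by
    ext z
    rw [AddMonoidHom.mem_ker]
    exact h.ext1Map_exact z
  refine ⟨Finite.of_injective _ hinj, Finite.of_injective _ hbij.1,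
    Nat.card_congr (Equiv.ofBijective _ hbij), ?_⟩
  rw [natCard_eq_ker_mul_range (ext1Map ρ π), hker,
    Nat.card_congr (AddMonoidHom.ofInjective hinj).toEquiv]

end Counting

section Kill

variable {D : Type} [Group D] [Fintype D]

/-- A function on `D` with sum zero, invariant under a Sylow subgroup, cannot be a constant
prime to `p` modulo `p`. -/
theorem dvd_of_aug_fixed (P : Sylow p D) (a : Aug D) (hfix : ∀ g ∈ (P : Subgroup D), g • a = a)
    (hmod : ∀ x, (p : ℤ) ∣ (a : D → ℤ) x - (a : D → ℤ) 1) : (p : ℤ) ∣ (a : D → ℤ) 1 := by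
  classical
  choose b hb using hmod
  have hbfix : ∀ (g : (P : Subgroup D)) x, b ((g : D)⁻¹ * x) = b x := fun g x => by
    have e1 := hb ((g : D)⁻¹ * x)
    rw [← coe_smul_aug, hfix g g.2, hb x] at e1
    exact (mul_left_cancel₀ (by exact_mod_cast hp.out.ne_zero) e1).symm
  have hdiv : (Nat.card (P : Subgroup D) : ℤ) ∣ ∑ x, b x := by
    letI : Setoid D := QuotientGroup.rightRel (P : Subgroup D)
    letI : Fintype (Quotient (QuotientGroup.rightRel (P : Subgroup D))) := Fintype.ofFinite _
    let e : ↥(P : Subgroup D) × Quotient (QuotientGroup.rightRel (P : Subgroup D)) ≃ D :=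
      { toFun := fun y => (y.1 : D) * y.2.out
        invFun := fun x => (Splitting.head (P : Subgroup D) x, Quotient.mk _ x)
        left_inv := fun y => by
          have hr : Splitting.rep (P : Subgroup D) (y.2.out) = y.2.out := by
            rw [Splitting.rep, Quotient.out_eq]
          have hq : Quotient.mk (QuotientGroup.rightRel (P : Subgroup D)) ((y.1 : D) * y.2.out) =
              y.2 := by
            conv_rhs => rw [← Quotient.out_eq y.2]
            apply Quotient.sound
            show QuotientGroup.rightRel _ _ _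
            rw [QuotientGroup.rightRel_apply]
            simpa using inv_mem y.1.2
          refine Prod.ext (Subtype.ext ?_) hq
          simp [Splitting.head, Splitting.rep_mul, hr]
        right_inv := fun x => Splitting.head_mul_rep (P : Subgroup D) x }
    rw [← e.sum_comp, Fintype.sum_prod_type, Nat.card_eq_fintype_card]
    refine ⟨∑ q : Quotient (QuotientGroup.rightRel (P : Subgroup D)), b q.out, ?_⟩
    have hconst : ∀ (g : (P : Subgroup D)) (q : Quotient (QuotientGroup.rightRel (P : Subgroup D))),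
        b (e (g, q)) = b q.out := fun g q => by
      have := hbfix g⁻¹ q.out
      simpa [e] using this
    simp only [hconst, Finset.sum_const, Finset.card_univ, nsmul_eq_mul]
  obtain ⟨t, ht⟩ := hdiv
  have hsum : (0 : ℤ) = Nat.card D * (a : D → ℤ) 1 + p * ∑ x, b x := by
    rw [Finset.mul_sum, Nat.card_eq_fintype_card, ← Finset.card_univ, ← nsmul_eq_mul,
      ← Finset.sum_const, ← Finset.sum_add_distrib]
    exact a.2.symm.trans (Finset.sum_congr rfl fun x _ => by linarith [hb x])
  rw [ht, ← (P : Subgroup D).card_mul_index, Nat.cast_mul] at hsum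
  have h2 : (Nat.card (P : Subgroup D) : ℤ) ≠ 0 := by exact_mod_cast Nat.card_pos.ne'
  have h3 : ((P : Subgroup D).index : ℤ) * (a : D → ℤ) 1 = (p : ℤ) * (-t) :=
    mul_left_cancel₀ h2 (by linarith)
  refine (Int.Prime.dvd_mul' hp.out ⟨-t, h3⟩).resolve_left fun hd => ?_
  exact P.not_dvd_index (Int.natCast_dvd_natCast.1 hd)

variable {N : Type} [AddCommGroup N] [Module (ZMod p) N] (ρ : Representation (ZMod p) G N)
variable {ι : D →* G} {X : Type} [AddCommGroup X] [DistribMulAction D X] {w : D × D → X}

/-- The local invariant kills the fixed vectors of the decomposition group. -/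
theorem dvd_invariant_of_fixed (hw : IsClassModule p D X w) {Y : Type} [AddCommGroup Y]
    [DistribMulAction G Y] (comp : Y →+[G] Coind ι (SplitMod hw.cocycle)) (f : homRel ρ Y) (m : N)
    (hm : ∀ d, ρ (ι d) m = m) :
    (p : ℤ) ∣ ((proj hw.cocycle (Coind.val (comp ((f : ↥(relMod ρ) →+ Y)
      (Invariant.pGen ρ m))) 1) : Aug D) : D → ℤ) 1 := by
  classical
  set F : ↥(relMod ρ) → SplitMod hw.cocycle :=
    fun r => Coind.val (comp ((f : ↥(relMod ρ) →+ Y) r)) 1 with hF
  have hFadd : ∀ r r', F (r + r') = F r + F r' := fun r r' => by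
    simp only [hF, map_add, Pi.add_apply]
  have hFnsmul : ∀ (n : ℕ) r, F (n • r) = n • F r := fun n r => by
    simp only [hF, map_nsmul, Pi.smul_apply]
  have hFact : ∀ (d : D) r, F (relAct ρ (ι d) r) = d • F r := fun d r => by
    simp only [hF]
    rw [mem_homRel.1 f.2, map_smul, Coind.val_smul, one_mul]
    conv_lhs => rw [← mul_one (ι d)]
    rw [Coind.val_equivariant]
  set c : D → SplitMod hw.cocycle := fun d => F (Invariant.moveRel ρ (ι d) m) with hc
  have hcoc : ∀ d e, c (d * e) = c d + d • c e := fun d e => by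
    simp only [hc]
    rw [← hFact, ← hFadd]
    congr 1
    refine Subtype.ext ?_
    show Finsupp.single (ι (d * e), m) (1 : ℤ) - Finsupp.single ((1 : G), ρ (ι (d * e)) m) 1 =
      (Finsupp.single (ι d, m) (1 : ℤ) - Finsupp.single ((1 : G), ρ (ι d) m) 1) +
        freeAct (ι d) (Finsupp.single (ι e, m) 1 - Finsupp.single ((1 : G), ρ (ι e) m) 1)
    rw [map_sub, freeAct_single, freeAct_single, hm, hm, hm, mul_one, map_mul]
    abel
  obtain ⟨P⟩ : Nonempty (Sylow p D) := inferInstance
  obtain ⟨b, hb⟩ := h1_eq_zero hw.cocycle (P : Subgroup D) hw P.2 (fun g => c g) fun g h => hcoc g h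
  have hy : ∀ d, d • F (Invariant.pGen ρ m) = F (Invariant.pGen ρ m) + p • c d := fun d => by
    rw [← hFact, Invariant.relAct_pGen, hm, hFadd, hFnsmul]
  set y := F (Invariant.pGen ρ m) with hydef
  have hfix : ∀ g ∈ (P : Subgroup D), g • (proj hw.cocycle (y - p • b)) = proj hw.cocycle (y - p • b) :=
    fun g hg => by
      rw [← map_smul, smul_sub, hy g,
        show g • (p • b) = p • (g • b) from map_nsmul (DistribSMul.toAddMonoidHom _ g) p b,
        show c g = g • b - b from hb ⟨g, hg⟩, nsmul_sub]
      congr 1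
      abel
  have hval : ∀ x, ((proj hw.cocycle (y - p • b) : Aug D) : D → ℤ) x =
      ((proj hw.cocycle y : Aug D) : D → ℤ) x - p * ((proj hw.cocycle b : Aug D) : D → ℤ) x :=
    fun x => by
      rw [map_sub, map_nsmul, AddSubgroup.coe_sub, Pi.sub_apply, AddSubgroup.coe_nsmul,
        Pi.smul_apply, nsmul_eq_mul]
  have hmod : ∀ x, (p : ℤ) ∣ ((proj hw.cocycle y : Aug D) : D → ℤ) x -
      ((proj hw.cocycle y : Aug D) : D → ℤ) 1 := fun x => by
    have e := congrArg (fun z => ((proj hw.cocycle z : Aug D) : D → ℤ) x) (hy x)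
    simp only [map_smul, coe_smul_aug, inv_mul_cancel, map_add, map_nsmul, AddSubgroup.coe_add,
      Pi.add_apply, AddSubgroup.coe_nsmul, Pi.smul_apply, nsmul_eq_mul, Pi.mul_apply,
      Pi.natCast_apply] at e
    rw [e]
    exact ⟨-((proj hw.cocycle (c x) : Aug D) : D → ℤ) x, by ring⟩
  have h := dvd_of_aug_fixed P _ hfix fun x => by
    rw [hval, hval, sub_sub_sub_comm, ← mul_sub]
    exact dvd_sub (hmod x) (dvd_mul_right _ _)
  rw [hval] at h
  simpa using dvd_add h (dvd_mul_right (p : ℤ) (((proj hw.cocycle b : Aug D) : D → ℤ) 1))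

end Kill

section Main

variable [Fintype G] {N : Type} [AddCommGroup N] [Module (ZMod p) N] [Finite N]
  (ρ : Representation (ZMod p) G N)

/-- The vectors fixed by a homomorphism. -/
def fixedBy {D : Type} [Group D] (ι : D →* G) : Submodule (ZMod p) N :=
  ⨅ d : D, LinearMap.ker (ρ (ι d) - LinearMap.id)

omit [Fintype G] [Finite N] in
theorem mem_fixedBy {D : Type} [Group D] {ι : D →* G} {m : N} :
    m ∈ fixedBy ρ ι ↔ ∀ d, ρ (ι d) m = m := by
  simp [fixedBy, sub_eq_zero]

/-- The algebraic lower bound for `Ext¹(N, E)`. -/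
theorem card_ext1_ge (P : Sylow p G) {T : Type} [Fintype T] {D : T → Type} [∀ v, Group (D v)]
    [∀ v, Fintype (D v)] {ι : ∀ v, D v →* G} (hι : ∀ v, Function.Injective (ι v))
    {X : T → Type} [∀ v, AddCommGroup (X v)] [∀ v, DistribMulAction (D v) (X v)]
    {w : ∀ v, D v × D v → X v} (hw : ∀ v, IsClassModule p (D v) (X v) (w v))
    (hXf : ∀ v, FinModP p (X v))
    {C : Type} [AddCommGroup C] [DistribMulAction G C] {u : G × G → C}
    (hu : IsClassModule p G C u) (hCf : FinModP p C)
    {E : Type} [AddCommGroup E] [DistribMulAction G E] [Finite (TorP p E)] [Finite (QuoP p E)]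
    (i : E →+[G] ∀ v, Coind (ι v) (X v)) (q : (∀ v, Coind (ι v) (X v)) →+[G] C)
    (h : IsShortExact i q)
    [Finite (QuoP p (∀ v, Coind (ι v) (Aug (D v))))] [Finite (QuoP p (Aug G))]
    {R : Type} [AddCommGroup R] [Module (ZMod p) R] [Finite R] (σR : Representation (ZMod p) G R)
    (hR : H1Trivial σR (P : Subgroup G))
    (hfix : ∀ n, (∀ g, ρ g n = n) → n = 0)
    (hpoly : ∀ s : G, (orderOf s).Coprime p →
      quoPoly (p := p) (actHom E s) *
          quoPoly (p := p) (actHom (∀ v, Coind (ι v) (Aug (D v))) s) =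
        torPoly (p := p) (actHom E s) * quoPoly (p := p) (actHom (Aug G) s) * (σR s).charpoly) :
    Finite (Ext1 ρ E) ∧
      p ^ (Module.finrank (ZMod p) (homG ρ σR) + Module.finrank (ZMod p) N) ≤
        Nat.card (Ext1 ρ E) *
          ∏ v, p ^ (Module.finrank (ZMod p) N - Module.finrank (ZMod p) (fixedBy ρ (ι v))) := by
  classical
  haveI : NeZero p := ⟨hp.out.ne_zero⟩
  -- the splitting modules
  have hsJ : IsShortExact
      (piHom fun v => Coind.map (ι := ι v) (incl (hw v).cocycle))
      (piHom fun v => Coind.map (ι := ι v) (proj (hw v).cocycle)) :=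
    isShortExact_pi fun v => Coind.isShortExact_map (hι v) (Splitting.isShortExact (hw v).cocycle)
  set iJ : (∀ v, Coind (ι v) (X v)) →+[G] ∀ v, Coind (ι v) (SplitMod (hw v).cocycle) :=
    piHom fun v => Coind.map (ι := ι v) (incl (hw v).cocycle)
  set πJ : (∀ v, Coind (ι v) (SplitMod (hw v).cocycle)) →+[G] ∀ v, Coind (ι v) (Aug (D v)) :=
    piHom fun v => Coind.map (ι := ι v) (proj (hw v).cocycle)
  have hsC := Splitting.isShortExact hu.cocycle
  have htfA : ∀ {H : Type} [Group H] [Fintype H] (x : Aug H), p • x = 0 → x = 0 :=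
    fun {H} _ _ x hx => Subtype.ext (funext fun y => (smul_eq_zero.1
      (show p • ((x : H → ℤ) y) = 0 from congrFun (congrArg Subtype.val hx) y)).resolve_left
        hp.out.ne_zero)
  have htfJ : ∀ x : ∀ v, Coind (ι v) (Aug (D v)), p • x = 0 → x = 0 := fun x hx =>
    funext fun v => Coind.ext fun g => by
      rw [Pi.zero_apply, map_zero, Pi.zero_apply]
      refine htfA _ ?_
      rw [← Pi.smul_apply p (Coind.val (x v)) g, ← map_nsmul, ← Pi.smul_apply, hx,
        Pi.zero_apply, map_zero, Pi.zero_apply]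
  -- cone readiness and generators
  have hrJ : ConeReady p (∀ v, Coind (ι v) (SplitMod (hw v).cocycle)) (P : Subgroup G) :=
    coneReady_pi fun v => coneReady_coind (hι v)
      (fun Q hQ => coneReady_splitMod (hw v) (hXf v) hQ) P.2
      (coneReady_splitMod (hw v) (hXf v) (IsPGroup.of_bot (p := p) (G := D v))).fin
  have hrC : ConeReady p (SplitMod hu.cocycle) (P : Subgroup G) :=
    coneReady_splitMod hu hCf P.2
  obtain ⟨mJ, βJ, -, -, hβJ⟩ := exists_generators (G := G) hrJ.fin
    (Empty.elim : Empty → ∀ v, Coind (ι v) (SplitMod (hw v).cocycle))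
  obtain ⟨mC, βC, idx, hidx, hβC⟩ := exists_generators (G := G) hrC.fin
    fun g : G => Splitting.mk hu.cocycle 0 (augElt g)
  -- the four counts
  obtain ⟨hfeBJ, hffBJ, hEJ⟩ := hrJ.card_ext1 βJ ρ P hβJ
  obtain ⟨hfeBC, hffBC, hEC⟩ := hrC.card_ext1 βC ρ P hβC
  obtain ⟨hffJ, hfeJ, heJ, hfJ⟩ := card_ext1_of_torsionFree ρ hsJ htfJ
  obtain ⟨hffC, hfeC, heC, hfC⟩ := card_ext1_of_torsionFree ρ hsC htfA
  -- the images
  obtain ⟨himJfin, himJ⟩ := Invariant.card_range_le ρ htfJ
    (fun v => AddMonoidHom.mk' (fun y => ((Coind.val (y v) 1 : Aug (D v)) : D v → ℤ) 1)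
      fun a b => by simp)
    (fun y hy => by
      have hdiv : ∀ v g x, (p : ℤ) ∣ ((Coind.val (y v) g : Aug (D v)) : D v → ℤ) x := fun v g x => by
        have e := hy v (ι v x⁻¹ * g)
        change (p : ℤ) ∣ ((Coind.val (((ι v x⁻¹ * g) • y) v) 1 : Aug (D v)) : D v → ℤ) 1 at e
        rw [Pi.smul_apply, Coind.val_smul, one_mul, Coind.val_equivariant, coe_smul_aug,
          inv_inv, mul_one] at e
        exact e
      choose z hz using hdiv
      have hp0 : (p : ℤ) ≠ 0 := by exact_mod_cast hp.out.ne_zero
      let zA : ∀ v, G → Aug (D v) := fun v g => ⟨z v g, by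
        show ∑ x, z v g x = 0
        have := (Coind.val (y v) g).2
        change ∑ x, ((Coind.val (y v) g : Aug (D v)) : D v → ℤ) x = 0 at this
        simp only [hz, ← Finset.mul_sum] at this
        exact (mul_eq_zero.1 this).resolve_left hp0⟩
      refine ⟨fun v => Coind.mk (zA v) fun d g => Subtype.ext (funext fun x => ?_),
        funext fun v => Coind.ext fun g => Subtype.ext (funext fun x => ?_)⟩
      · refine mul_left_cancel₀ hp0 ?_
        show (p : ℤ) * z v (ι v d * g) x = p * z v g (d⁻¹ * x)
        rw [← hz, ← hz, Coind.val_equivariant, coe_smul_aug]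
      · rw [Pi.smul_apply, map_nsmul, Pi.smul_apply, AddSubgroup.coe_nsmul, Pi.smul_apply,
          nsmul_eq_mul, hz]
        rfl)
    πJ (fun v => fixedBy ρ (ι v))
    fun v f m hm => by
      let compv : (∀ v, Coind (ι v) (SplitMod (hw v).cocycle)) →+[G]
          Coind (ι v) (SplitMod (hw v).cocycle) :=
        { toFun := fun y => y v
          map_smul' := fun σ y => rfl
          map_zero' := rfl
          map_add' := fun a b => rfl }
      exact dvd_invariant_of_fixed ρ (hw v) compv f m ((mem_fixedBy ρ).1 hm)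
  haveI : Finite (ext1Map ρ (proj hu.cocycle)).range :=
    Finite.of_surjective _ (ext1Map ρ (proj hu.cocycle)).rangeRestrict_surjective
  have himC : p ^ Module.finrank (ZMod p) N ≤ Nat.card (ext1Map ρ (proj hu.cocycle)).range :=
    Invariant.le_card_range ρ βC
      (AddMonoidHom.mk' (fun y : Aug G => (y : G → ℤ) 1) fun a b => rfl) (proj hu.cocycle)
      (Invariant.exists_lift_functional ρ βC (proj hu.cocycle) idx
        (fun g => by rw [hidx, proj_mk]) hfix)
  -- the six term inequality
  obtain ⟨hfE, hbound⟩ := card_ext1_bound (ρ := ρ) h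
  refine ⟨hfE, ?_⟩
  haveI : Finite (homN ρ E) := Finite.of_injective _ h.homNMap_injective
  -- the comparison of the cones
  haveI := hrJ.finite_cone βJ
  haveI := hrC.finite_cone βC
  haveI := hrJ.fin.tor
  haveI := hrJ.fin.quo
  haveI := hrC.fin.tor
  haveI := hrC.fin.quo
  haveI := (finModP_pi (p := p) _ fun v => finModP_coind (hι v) (hXf v)).tor
  haveI := (finModP_pi (p := p) _ fun v => finModP_coind (hι v) (hXf v)).quo
  haveI := hCf.tor
  haveI := hCf.quo
  haveI : Subsingleton (TorP p (∀ v, Coind (ι v) (Aug (D v)))) :=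
    ⟨fun a b => torVal_injective (by rw [htfJ _ (nsmul_torVal a), htfJ _ (nsmul_torVal b)])⟩
  haveI : Subsingleton (TorP p (Aug G)) :=
    ⟨fun a b => torVal_injective (by rw [htfA _ (nsmul_torVal a), htfA _ (nsmul_torVal b)])⟩
  have hrank := finrank_homG_eq P
    (h1Trivial_prod (h1Trivial_freeRep mJ (P : Subgroup G)) (hrC.h1Trivial_cone βC hβC))
    (h1Trivial_prod (h1Trivial_prod (h1Trivial_freeRep mC (P : Subgroup G))
      (hrJ.h1Trivial_cone βJ hβJ)) hR)
    (fun s hs => by
      have hnz : ∀ {V : Type} [AddCommGroup V] [Module (ZMod p) V] [Finite V]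
          (f : V →ₗ[ZMod p] V), f.charpoly ≠ 0 := fun f => (LinearMap.charpoly_monic f).ne_zero
      have hone : ∀ {V : Type} [AddCommGroup V] [Module (ZMod p) V] [Subsingleton V]
          [Finite V] (f : V →ₗ[ZMod p] V), f.charpoly = 1 := fun {V} _ _ _ _ f => by
        have h1 := f.charpoly_natDegree
        rw [Module.finrank_zero_of_subsingleton] at h1
        exact (LinearMap.charpoly_monic _).natDegree_eq_zero.1 h1
      have hA := quoPoly_mul_torPoly (p := p) i.toAddMonoidHom q.toAddMonoidHom h.injective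
        h.surjective h.exact (actHom E s) (actHom (∀ v, Coind (ι v) (X v)) s) (actHom C s)
        (fun x => map_smul i s x) (fun x => map_smul q s x)
      have hB := quoPoly_mul_torPoly (p := p) iJ.toAddMonoidHom πJ.toAddMonoidHom hsJ.injective
        hsJ.surjective hsJ.exact (actHom (∀ v, Coind (ι v) (X v)) s)
        (actHom (∀ v, Coind (ι v) (SplitMod (hw v).cocycle)) s)
        (actHom (∀ v, Coind (ι v) (Aug (D v))) s)
        (fun x => map_smul iJ s x) (fun x => map_smul πJ s x)
      have hC := quoPoly_mul_torPoly (p := p) (incl hu.cocycle).toAddMonoidHom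
        (proj hu.cocycle).toAddMonoidHom hsC.injective hsC.surjective hsC.exact (actHom C s)
        (actHom (SplitMod hu.cocycle) s) (actHom (Aug G) s)
        (fun x => map_smul (incl hu.cocycle) s x) (fun x => map_smul (proj hu.cocycle) s x)
      have hD := hpoly s hs
      rw [show torPoly (p := p) (actHom (∀ v, Coind (ι v) (Aug (D v))) s) = 1 from hone _,
        mul_one] at hB
      rw [show torPoly (p := p) (actHom (Aug G) s) = 1 from hone _, mul_one] at hC
      have e1 := charpoly_cone βJ hβJ s
      have e2 := charpoly_cone βC hβC s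
      simp only [charpoly_prodRep]
      set tE := torPoly (p := p) (actHom E s)
      set qE := quoPoly (p := p) (actHom E s)
      set tJ := torPoly (p := p) (actHom (∀ v, Coind (ι v) (X v)) s)
      set qJ := quoPoly (p := p) (actHom (∀ v, Coind (ι v) (X v)) s)
      set tC := torPoly (p := p) (actHom C s)
      set qC := quoPoly (p := p) (actHom C s)
      set qI := quoPoly (p := p) (actHom (Aug G) s)
      set qIJ := quoPoly (p := p) (actHom (∀ v, Coind (ι v) (Aug (D v))) s)
      set tBJ := torPoly (p := p) (actHom (∀ v, Coind (ι v) (SplitMod (hw v).cocycle)) s)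
      set qBJ := quoPoly (p := p) (actHom (∀ v, Coind (ι v) (SplitMod (hw v).cocycle)) s)
      set tBC := torPoly (p := p) (actHom (SplitMod hu.cocycle) s)
      set qBC := quoPoly (p := p) (actHom (SplitMod hu.cocycle) s)
      set cJ := (Cone.coneRep p G βJ s).charpoly
      set cC := (Cone.coneRep p G βC s).charpoly
      set fJ := (Cone.freeRep p G mJ s).charpoly
      set fC := (Cone.freeRep p G mC s).charpoly
      set R' := (σR s).charpoly
      have key : tBC * qBJ = tBJ * qBC * R' := by
        refine mul_right_cancel₀ (b := tJ * qC * qI * qE)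
          (mul_ne_zero (mul_ne_zero (mul_ne_zero (hnz _) (hnz _)) (hnz _)) (hnz _)) ?_
        calc tBC * qBJ * (tJ * qC * qI * qE) = (tBC * qC * qI) * (tJ * qBJ) * qE := by ring
          _ = (tC * qBC) * (tBJ * qJ * qIJ) * qE := by rw [← hC, hB]
          _ = tBJ * qBC * tC * qJ * (qE * qIJ) := by ring
          _ = tBJ * qBC * qI * R' * (tE * tC * qJ) := by rw [hD]; ring
          _ = tBJ * qBC * qI * R' * (tJ * qE * qC) := by rw [hA]
          _ = _ := by ring
      refine mul_right_cancel₀ (b := qBJ * qBC) (mul_ne_zero (hnz _) (hnz _)) ?_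
      calc fJ * cC * (qBJ * qBC) = fJ * (cC * qBC) * qBJ := by ring
        _ = fJ * fC * (tBC * qBJ) := by rw [e2]; ring
        _ = fJ * fC * (tBJ * qBC * R') := by rw [key]
        _ = fC * (tBJ * fJ) * qBC * R' := by ring
        _ = _ := by rw [← e1]; ring)
    ρ
  rw [finrank_homG_prod, finrank_homG_prod, finrank_homG_prod] at hrank
  -- putting everything together
  set a := Module.finrank (ZMod p) (homG ρ (Cone.freeRep p G mJ))
  set b := Module.finrank (ZMod p) (homG ρ (Cone.coneRep p G βC))
  set c := Module.finrank (ZMod p) (homG ρ (Cone.freeRep p G mC))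
  set d := Module.finrank (ZMod p) (homG ρ (Cone.coneRep p G βJ))
  set nE := Module.finrank (ZMod p) N
  change Nat.card (Ext1 ρ _) * p ^ d = Nat.card (homN ρ _) * p ^ a at hEJ
  change Nat.card (Ext1 ρ _) * p ^ b = Nat.card (homN ρ _) * p ^ c at hEC
  rw [← heJ, hfJ] at hEJ
  rw [← heC, hfC] at hEC
  have hne : ∀ {V : Type} [Finite V] [Nonempty V], 0 < Nat.card V := Nat.card_pos
  haveI : Nonempty (homN ρ E) := ⟨0⟩
  set eE := Nat.card (homN ρ E)
  set eJ := Nat.card (homN ρ (∀ v, Coind (ι v) (X v)))
  set eC := Nat.card (homN ρ C)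
  set fE := Nat.card (Ext1 ρ E)
  set fJ := Nat.card (Ext1 ρ (∀ v, Coind (ι v) (X v)))
  set fC := Nat.card (Ext1 ρ C)
  set iJc := Nat.card (ext1Map ρ πJ).range
  set iCc := Nat.card (ext1Map ρ (proj hu.cocycle)).range
  set M := ∏ v, p ^ (nE - Module.finrank (ZMod p) (fixedBy ρ (ι v)))
  have hE1 : 1 ≤ eE := Nat.card_pos
  refine Nat.le_of_mul_le_mul_left ?_
    (show 0 < eJ * eC * p ^ (c + d) from
      Nat.mul_pos (Nat.mul_pos Nat.card_pos Nat.card_pos) (pow_pos hp.out.pos _))
  have e : p ^ a * p ^ b = p ^ (c + d) * p ^ Module.finrank (ZMod p) (homG ρ σR) := by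
    rw [← pow_add, hrank, pow_add]
  calc eJ * eC * p ^ (c + d) * p ^ (Module.finrank (ZMod p) (homG ρ σR) + nE)
      = eJ * eC * (p ^ (c + d) * p ^ Module.finrank (ZMod p) (homG ρ σR)) * p ^ nE := by
        rw [pow_add p _ nE]; ring
    _ = eJ * p ^ a * (eC * p ^ b) * p ^ nE := by rw [← e]; ring
    _ ≤ eJ * p ^ a * (eC * p ^ b) * iCc := Nat.mul_le_mul_left _ himC
    _ = 1 * eC * fJ * iJc * (p ^ d * p ^ b * iCc) := by rw [← hEJ]; ring
    _ ≤ eE * eC * fJ * M * (p ^ d * p ^ b * iCc) := by gcongr
    _ ≤ eJ * fE * fC * M * (p ^ d * p ^ b * iCc) := by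
        have : eE * eC * fJ ≤ eJ * fE * fC := hbound
        gcongr
    _ = eJ * fE * M * p ^ d * (fC * iCc * p ^ b) := by ring
    _ = _ := by rw [hEC, pow_add]; ring

end Main

end Fermat.Agent.TW
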