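/-
Linear algebra of 2 x 2 matrices and of the adjoint action of a matrix representation,
used for the Taylor-Wiles group theory.
-/
import Mathlib

set_option autoImplicit false

namespace Fermat.Agent.TW

open Matrix

local notation "M₂" k => Matrix (Fin 2) (Fin 2) k

section Elementary

variable {R : Type*} [CommRing R]

theorem anticomm_fin_two (X Y : M₂ R) :
    X * Y + Y * X = X.trace • Y + Y.trace • X + ((X * Y).trace - X.trace * Y.trace) • 1 := by
  ext i j
  fin_cases i <;> fin_cases j <;>
    simp [Matrix.mul_apply, Matrix.trace, Fin.sum_univ_two] <;> ring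

theorem sq_eq_fin_two (X : M₂ R) : X * X = X.trace • X - X.det • 1 := by
  ext i j
  fin_cases i <;> fin_cases j <;>
    simp [Matrix.mul_apply, Matrix.trace, Fin.sum_univ_two, Matrix.det_fin_two] <;> ring

theorem adjugate_eq_fin_two (X : M₂ R) : X.adjugate = X.trace • 1 - X := by
  rw [Matrix.adjugate_fin_two]
  ext i j
  fin_cases i <;> fin_cases j <;> simp [Matrix.trace, Fin.sum_univ_two]

end Elementary

variable {k : Type*} [Field k]

theorem eq_zero_of_forall_trace_mul_eq_zero (X : M₂ k) (h : ∀ Y : M₂ k, (X * Y).trace = 0) :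
    X = 0 := by
  ext i j
  have := h (Matrix.single j i 1)
  fin_cases i <;> fin_cases j <;>
    simpa [Matrix.mul_apply, Matrix.trace, Fin.sum_univ_two, Matrix.single] using this

/-- Two nilpotent 2 x 2 matrices which are orthogonal for the trace form are proportional. -/
theorem exists_smul_of_trace_mul_eq_zero {N M : M₂ k} (hN : N ≠ 0) (hNt : N.trace = 0)
    (hNd : N.det = 0) (hMt : M.trace = 0) (hMd : M.det = 0) (h : (N * M).trace = 0) :
    ∃ t : k, M = t • N := by
  rw [Matrix.trace_fin_two] at hNt hMt
  rw [Matrix.det_fin_two] at hNd hMd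
  simp only [Matrix.trace_fin_two, Matrix.mul_apply, Fin.sum_univ_two] at h
  have hN11 : N 1 1 = -N 0 0 := by linear_combination hNt
  have hM11 : M 1 1 = -M 0 0 := by linear_combination hMt
  rw [hN11] at hNd h
  rw [hM11] at hMd h
  by_cases hb : N 0 1 = 0
  · have ha : N 0 0 = 0 := by
      have : N 0 0 * N 0 0 = 0 := by rw [hb] at hNd; linear_combination -hNd
      exact mul_self_eq_zero.1 this
    have hd : N 1 0 ≠ 0 := by
      intro hd
      apply hN
      ext i j
      fin_cases i <;> fin_cases j <;> simp [ha, hb, hd, hN11]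
    have hy : M 0 1 = 0 := by
      rw [ha, hb] at h
      exact (mul_eq_zero.1 (show N 1 0 * M 0 1 = 0 by linear_combination h)).resolve_left hd
    have hx : M 0 0 = 0 := by
      rw [hy] at hMd
      exact mul_self_eq_zero.1 (show M 0 0 * M 0 0 = 0 by linear_combination -hMd)
    refine ⟨M 1 0 / N 1 0, ?_⟩
    ext i j
    fin_cases i <;> fin_cases j <;> simp [ha, hb, hy, hx, hN11, hM11, hd]
  · have hd : N 1 0 = -(N 0 0 ^ 2) / N 0 1 := by
      field_simp
      linear_combination -hNd
    have hz : M 1 0 = (N 0 0 ^ 2 * M 0 1 / N 0 1 - 2 * N 0 0 * M 0 0) / N 0 1 := by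
      rw [hd] at h
      field_simp at h ⊢
      linear_combination h
    have hx : M 0 0 = M 0 1 / N 0 1 * N 0 0 := by
      rw [hz] at hMd
      have : (M 0 0 - M 0 1 / N 0 1 * N 0 0) * (M 0 0 - M 0 1 / N 0 1 * N 0 0) = 0 := by
        field_simp at hMd ⊢
        linear_combination -hMd
      linear_combination mul_self_eq_zero.1 this
    refine ⟨M 0 1 / N 0 1, ?_⟩
    ext i j
    fin_cases i <;> fin_cases j <;> simp [hb, hx, hz, hd, hN11, hM11] <;> field_simp <;> ring

section Rep

variable {Γ : Type*} [Group Γ] (r : Γ →* M₂ k)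

theorem rep_mul_inv (g : Γ) : r g * r g⁻¹ = 1 := by rw [← map_mul, mul_inv_cancel, map_one]

theorem rep_inv_mul (g : Γ) : r g⁻¹ * r g = 1 := by rw [← map_mul, inv_mul_cancel, map_one]

theorem rep_inv_mul_cancel_left (g : Γ) (X : M₂ k) : r g⁻¹ * (r g * X) = X := by
  rw [← mul_assoc, rep_inv_mul, one_mul]

theorem rep_mul_inv_cancel_left (g : Γ) (X : M₂ k) : r g * (r g⁻¹ * X) = X := by
  rw [← mul_assoc, rep_mul_inv, one_mul]

theorem rep_inv_eq_of_det_eq_one (g : Γ) (hg : (r g).det = 1) :
    r g⁻¹ = (r g).trace • 1 - r g := by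
  have h : (r g).adjugate * r g = 1 := by rw [Matrix.adjugate_mul, hg, one_smul]
  calc r g⁻¹ = ((r g).adjugate * r g) * r g⁻¹ := by rw [h, one_mul]
    _ = (r g).adjugate := by rw [mul_assoc, rep_mul_inv, mul_one]
    _ = _ := adjugate_eq_fin_two _

theorem trace_conj (g : Γ) (X : M₂ k) : (r g * X * r g⁻¹).trace = X.trace := by
  rw [Matrix.trace_mul_cycle, rep_inv_mul, one_mul]

/-- The conjugation action on trace-free matrices has no stable line, provided that the
representation is absolutely irreducible on every subgroup of index two. -/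
theorem eq_zero_of_forall_conj_mem_line (h2 : (2 : k) ≠ 0)
    (hspan : Submodule.span k (Set.range r) = ⊤)
    (hTW : ∀ G : Subgroup Γ, G.index = 2 → Submodule.span k (r '' (G : Set Γ)) = ⊤)
    (X : M₂ k) (hX : X.trace = 0) (h : ∀ g, ∃ t : k, r g * X * r g⁻¹ = t • X) : X = 0 := by
  by_contra hX0
  have huniq : ∀ {s t : k}, s • X = t • X → s = t := fun {s t} hst => by
    by_contra hne
    exact hX0 ((smul_eq_zero.1 (show (s - t) • X = 0 by rw [sub_smul, hst, sub_self])).resolve_left
      (sub_ne_zero.2 hne))
  choose t ht using h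
  have hmul : ∀ g g', t (g * g') = t g * t g' := fun g g' => huniq <| by
    rw [← ht, mul_smul, map_mul, _root_.mul_inv_rev, map_mul]
    calc r g * r g' * X * (r g'⁻¹ * r g⁻¹) = r g * (r g' * X * r g'⁻¹) * r g⁻¹ := by
          simp only [mul_assoc]
      _ = t g' • (t g • X) := by rw [ht g', mul_smul_comm, smul_mul_assoc, ht g]
      _ = _ := smul_comm _ _ _
  have hone : t 1 = 1 := huniq <| by rw [← ht, one_smul, map_one, one_mul, inv_one, map_one, mul_one]
  have hcom : ∀ g, r g * X = t g • (X * r g) := fun g => by
    rw [← smul_mul_assoc, ← ht g, mul_assoc _ (r g⁻¹), rep_inv_mul, mul_one]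
  by_cases hdet : X.det = 0
  · -- nilpotent case: `X * Y * X = 0` for every `Y`
    have hsq : X * X = 0 := by rw [sq_eq_fin_two, hX, hdet]; simp
    have key : ∀ Y : M₂ k, X * Y * X = 0 := fun Y => by
      have hY : Y ∈ Submodule.span k (Set.range r) := hspan ▸ Submodule.mem_top
      induction hY using Submodule.span_induction with
      | mem Z hZ =>
        obtain ⟨g, rfl⟩ := hZ
        rw [mul_assoc, hcom, mul_smul_comm, ← mul_assoc, hsq, zero_mul, smul_zero]
      | zero => simp
      | add Y Z _ _ hy hz => rw [mul_add, add_mul, hy, hz, add_zero]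
      | smul a Y _ hy => rw [mul_smul_comm, smul_mul_assoc, hy, smul_zero]
    apply hX0
    ext i j
    have := congr_fun (congr_fun (key (Matrix.single j i 1)) i) j
    fin_cases i <;> fin_cases j <;>
      simpa [Matrix.mul_apply, Fin.sum_univ_two, Matrix.single] using this
  · have hsq : X * X = (-X.det) • (1 : M₂ k) := by
      rw [sq_eq_fin_two, hX, zero_smul, zero_sub, neg_smul]
    have ht2 : ∀ g, t g = 1 ∨ t g = -1 := fun g => by
      have e : (-X.det) • (1 : M₂ k) = (t g * t g * -X.det) • 1 := by
        calc (-X.det) • (1 : M₂ k) = r g * (X * X) * r g⁻¹ := by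
              rw [hsq, mul_smul_comm, mul_one, smul_mul_assoc, rep_mul_inv]
          _ = (r g * X * r g⁻¹) * (r g * X * r g⁻¹) := by
              simp only [mul_assoc, rep_inv_mul_cancel_left]
          _ = _ := by rw [ht, smul_mul_assoc, mul_smul_comm, hsq, smul_smul, smul_smul]
      have e' := congr_fun (congr_fun e 0) 0
      simp only [Matrix.smul_apply, Matrix.one_apply_eq, smul_eq_mul, mul_one] at e'
      have : (t g - 1) * (t g + 1) * X.det = 0 := by linear_combination e'
      rcases mul_eq_zero.1 ((mul_eq_zero.1 this).resolve_right hdet) with h' | h'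
      · exact .inl (sub_eq_zero.1 h')
      · exact .inr (eq_neg_of_add_eq_zero_left h')
    let K : Subgroup Γ :=
      { carrier := {g | t g = 1}
        one_mem' := hone
        mul_mem' := fun {a b} (ha : t a = 1) (hb : t b = 1) => by
          show t (a * b) = 1
          rw [hmul, ha, hb, one_mul]
        inv_mem' := fun {a} (ha : t a = 1) => by
          have := hmul a a⁻¹
          rw [mul_inv_cancel, hone, ha, one_mul] at this
          exact this.symm }
    have hKspan : Submodule.span k (r '' (K : Set Γ)) = ⊤ := by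
      by_cases hK : ∀ g, t g = 1
      · rw [show (K : Set Γ) = Set.univ from Set.eq_univ_of_forall hK, Set.image_univ, hspan]
      · push Not at hK
        obtain ⟨a, ha⟩ := hK
        refine hTW K (Subgroup.index_eq_two_iff.2 ⟨a, fun b => ?_⟩)
        have hta : t a = -1 := (ht2 a).resolve_left ha
        have hne : (-1 : k) ≠ 1 := fun h => h2 (by linear_combination -h)
        show Xor (t (b * a) = 1) (t b = 1)
        rw [hmul, hta]
        rcases ht2 b with hb | hb <;> rw [hb]
        · exact .inr ⟨rfl, by simpa using hne⟩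
        · exact .inl ⟨by ring, hne⟩
    have key : ∀ Y : M₂ k, Y * X = X * Y := fun Y => by
      have hY : Y ∈ Submodule.span k (r '' (K : Set Γ)) := hKspan ▸ Submodule.mem_top
      induction hY using Submodule.span_induction with
      | mem Z hZ =>
        obtain ⟨g, hg, rfl⟩ := hZ
        rw [hcom, show t g = 1 from hg, one_smul]
      | zero => simp
      | add Y Z _ _ hy hz => rw [add_mul, mul_add, hy, hz]
      | smul a Y _ hy => rw [smul_mul_assoc, mul_smul_comm, hy]
    apply hX0
    have h01 := congr_fun (congr_fun (key (Matrix.single 0 1 1)) 0) 1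
    have h10 := congr_fun (congr_fun (key (Matrix.single 1 0 1)) 1) 0
    have h00 := congr_fun (congr_fun (key (Matrix.single 0 1 1)) 0) 0
    have h00' := congr_fun (congr_fun (key (Matrix.single 1 0 1)) 0) 0
    simp [Matrix.mul_apply, Fin.sum_univ_two, Matrix.single] at h01 h10 h00 h00'
    rw [Matrix.trace_fin_two] at hX
    have hh : X 0 0 = 0 := by
      have : (2 : k) * X 0 0 = 0 := by linear_combination hX - h01
      exact (mul_eq_zero.1 this).resolve_left h2
    ext i j
    fin_cases i <;> fin_cases j
    · exact hh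
    · simp; first | exact h00' | exact h00'.symm
    · simp; first | exact h00 | exact h00.symm
    · have : X 1 1 = 0 := by linear_combination hX - hh
      simpa using this

end Rep

end Fermat.Agent.TW
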