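/-
The adjoint representation (trace-free matrices) is irreducible for a representation which is
absolutely irreducible on all subgroups of index at most two.
-/
import Fermat.Agent.TW.AdjointBasic

set_option autoImplicit false

namespace Fermat.Agent.TW

open Matrix Module

local notation "M₂" k => Matrix (Fin 2) (Fin 2) k

variable (k : Type*) [Field k]

/-- Trace-free 2 x 2 matrices. -/
noncomputable def traceFree : Submodule k (M₂ k) :=
  LinearMap.ker (Matrix.traceLinearMap (Fin 2) k k)

variable {k}

theorem mem_traceFree {X : M₂ k} : X ∈ traceFree k ↔ X.trace = 0 := by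
  simp [traceFree]

theorem finrank_traceFree : finrank k (traceFree k) = 3 := by
  have h := LinearMap.finrank_range_add_finrank_ker (Matrix.traceLinearMap (Fin 2) k k)
  have hsurj : LinearMap.range (Matrix.traceLinearMap (Fin 2) k k) = ⊤ :=
    LinearMap.range_eq_top.2 fun x => ⟨Matrix.single 0 0 x, by simp [Matrix.trace_fin_two]⟩
  rw [hsurj, finrank_top, Module.finrank_self, Module.finrank_matrix] at h
  simp only [Fintype.card_fin, Module.finrank_self] at h
  change 1 + finrank k (traceFree k) = _ at h
  omega

/-- The trace pairing from trace-free matrices to functionals on a subspace of them. -/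
noncomputable def traceForm : traceFree k →ₗ[k] Module.Dual k (traceFree k) :=
  LinearMap.mk₂ k (fun Y X => ((Y : M₂ k) * (X : M₂ k)).trace)
    (fun a b x => by simp [add_mul]) (fun t a x => by simp)
    (fun a x y => by simp [mul_add]) (fun t a x => by simp)

theorem traceForm_injective (h2 : (2 : k) ≠ 0) : Function.Injective (traceForm (k := k)) := by
  rw [injective_iff_map_eq_zero]
  intro Y hY
  ext1
  refine eq_zero_of_forall_trace_mul_eq_zero _ fun Z => ?_
  have hZ : Z - (Z.trace / 2) • (1 : M₂ k) ∈ traceFree k := by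
    rw [mem_traceFree]
    simp [Matrix.trace_fin_two]
    field_simp
    ring
  have e := LinearMap.congr_fun hY ⟨_, hZ⟩
  simpa [traceForm, mul_sub, mem_traceFree.1 Y.2] using e

variable {Γ : Type*} [Group Γ] (r : Γ →* M₂ k)

/-- A nonzero conjugation-stable subspace of trace-free matrices is everything. -/
theorem eq_traceFree_of_conj_stable (h2 : (2 : k) ≠ 0)
    (hspan : Submodule.span k (Set.range r) = ⊤)
    (hTW : ∀ G : Subgroup Γ, G.index = 2 → Submodule.span k (r '' (G : Set Γ)) = ⊤)
    (U : Submodule k (M₂ k)) (hU : U ≤ traceFree k)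
    (hst : ∀ g, ∀ X ∈ U, r g * X * r g⁻¹ ∈ U) (hne : U ≠ ⊥) : U = traceFree k := by
  have hline : ∀ W : Submodule k (M₂ k), W ≤ traceFree k →
      (∀ g, ∀ X ∈ W, r g * X * r g⁻¹ ∈ W) → finrank k W ≠ 1 := by
    intro W hW hWst hW1
    obtain ⟨⟨X, hX⟩, hX0, hspanX⟩ := finrank_eq_one_iff'.1 hW1
    refine hX0 (Subtype.ext (eq_zero_of_forall_conj_mem_line r h2 hspan hTW X
      (mem_traceFree.1 (hW hX)) fun g => ?_))
    obtain ⟨t, ht⟩ := hspanX ⟨_, hWst g X hX⟩
    exact ⟨t, congrArg Subtype.val ht.symm⟩
  have h3 : finrank k U ≤ 3 := finrank_traceFree (k := k) ▸ Submodule.finrank_mono hU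
  have h0 : finrank k U ≠ 0 := fun h => hne (Submodule.finrank_eq_zero.1 h)
  have h1 := hline U hU hst
  rcases (show finrank k U = 3 ∨ finrank k U = 2 by omega) with h | h
  · exact Submodule.eq_of_le_of_finrank_eq hU (by rw [h, finrank_traceFree])
  exfalso
  let f : traceFree k →ₗ[k] Module.Dual k U :=
    (Submodule.inclusion hU).dualMap.comp traceForm
  have hf : Function.Surjective f := by
    have hb : Function.Surjective (traceForm (k := k)) :=
      (LinearMap.injective_iff_surjective_of_finrank_eq_finrank
        (Subspace.dual_finrank_eq).symm).1 (traceForm_injective h2)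
    exact (LinearMap.dualMap_surjective_of_injective (Submodule.inclusion_injective hU)).comp hb
  have hk : finrank k (LinearMap.ker f) = 1 := by
    have := LinearMap.finrank_range_add_finrank_ker f
    have hd : finrank k (Module.Dual k U) = 2 := Subspace.dual_finrank_eq.trans h
    rw [LinearMap.range_eq_top.2 hf, finrank_top, finrank_traceFree] at this
    omega
  let P : Submodule k (M₂ k) := (LinearMap.ker f).map (traceFree k).subtype
  have hP : P ≤ traceFree k := Submodule.map_subtype_le _ _
  refine hline P hP ?_ ?_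
  · rintro g _ ⟨Y, hY, rfl⟩
    refine ⟨⟨r g * (Y : M₂ k) * r g⁻¹, mem_traceFree.2 ?_⟩, ?_, rfl⟩
    · rw [trace_conj, mem_traceFree.1 Y.2]
    · rw [SetLike.mem_coe, LinearMap.mem_ker] at hY ⊢
      ext ⟨X, hX⟩
      have hX' : r g⁻¹ * (X : M₂ k) * r g ∈ U := by
        simpa using hst g⁻¹ X hX
      have e := LinearMap.congr_fun hY ⟨_, hX'⟩
      change ((Y : M₂ k) * (r g⁻¹ * (X : M₂ k) * r g)).trace = 0 at e
      show (r g * (Y : M₂ k) * r g⁻¹ * (X : M₂ k)).trace = 0
      rw [← trace_conj r g] at e
      simpa only [mul_assoc, rep_mul_inv, mul_one] using e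
  · rw [Submodule.finrank_map_subtype_eq, hk]

end Fermat.Agent.TW
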