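/-
The `T`-units of a layer and the permutation modules, for the comparison of characteristic
polynomials.
-/
import Fermat.Agent.TW.EulerPoly
import Fermat.Agent.PoitouTate.Sha2Rel
import Mathlib.RepresentationTheory.Basic

set_option autoImplicit false

noncomputable section

namespace Fermat.Agent.TW

open PoitouTate

section Perm

variable (p : ℕ) (G S : Type) [Group G] [MulAction G S]

/-- The permutation representation on functions: `(σ f) s = f (σ⁻¹ s)`. -/
def permRep : Representation (ZMod p) G (S → ZMod p) where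
  toFun σ := LinearMap.funLeft (ZMod p) (ZMod p) fun s => σ⁻¹ • s
  map_one' := LinearMap.ext fun f => funext fun s => by simp [LinearMap.funLeft_apply]
  map_mul' σ τ := LinearMap.ext fun f => funext fun s => by
    simp [LinearMap.funLeft_apply, mul_smul]

@[simp] theorem permRep_apply (σ : G) (f : S → ZMod p) (s : S) :
    permRep p G S σ f s = f (σ⁻¹ • s) := rfl

end Perm

variable (T : Finset Nat.Primes) (L : IntermediateField ℚ (AlgebraicClosure ℚ))

/-- The `T`-units of the layer `L`. -/
def TUnits : AddSubgroup Qu where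
  carrier := {x | x ∈ EU T ∧ ∀ s ∈ L.fixingSubgroup, s • x = x}
  zero_mem' := ⟨zero_mem _, fun s _ => smul_zero s⟩
  add_mem' hx hy := ⟨add_mem hx.1 hy.1, fun s hs => by rw [smul_add, hx.2 s hs, hy.2 s hs]⟩
  neg_mem' hx := ⟨neg_mem hx.1, fun s hs => by rw [smul_neg, hx.2 s hs]⟩

theorem smul_mem_TUnits [hn : L.fixingSubgroup.Normal] (σ : GQ) {x : Qu} (hx : x ∈ TUnits T L) :
    σ • x ∈ TUnits T L := by
  refine ⟨smul_mem_EU σ hx.1, fun s hs => ?_⟩
  calc s • σ • x = σ • (σ⁻¹ * s * σ) • x := by rw [← mul_smul, ← mul_smul]; congr 1; group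
    _ = σ • x := by rw [hx.2 _ (by simpa using hn.conj_mem s hs σ⁻¹)]

/-- The action of an element of the Galois group on the `T`-units of a layer. -/
def tUnitsHom [L.fixingSubgroup.Normal] (σ : GQ) : ↥(TUnits T L) →+ ↥(TUnits T L) :=
  AddMonoidHom.mk' (fun x => ⟨σ • (x : Qu), smul_mem_TUnits T L σ x.2⟩)
    fun x y => Subtype.ext (smul_add σ (x : Qu) (y : Qu))

end Fermat.Agent.TW
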