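/-
The exact sequence `0 → E_T → ∏_{v ∈ T} Coind_{D_v} X_v → C_T → 0` of a level, when `T` contains
representatives of the ideal classes.
-/
import Fermat.Agent.TW.UnitsPolyDefs
import Fermat.Agent.TW.ModP
import Fermat.Agent.PoitouTate.ClassApi
import Fermat.Agent.PoitouTate.IdeleDiv
import Fermat.Agent.PoitouTate.LocalLower

set_option autoImplicit false

noncomputable section

namespace Fermat.Agent.TW

open PoitouTate ExtOne

local notation "Qb" => AlgebraicClosure ℚ

/-- For `T` large, every fixed idele is equivalent to one supported at `T`. -/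
theorem exists_finset_supported {T0 : Finset Nat.Primes} {L : IntermediateField ℚ Qb}
    (hL : IsLvl T0 L) :
    ∃ A : Finset Nat.Primes, (∀ a ∈ A, a ∉ T0) ∧
      ∀ T : Finset Nat.Primes, T0 ∪ A ⊆ T → T0.Nonempty →
        ∀ f : J T, (∀ s ∈ L.fixingSubgroup, s • f = f) →
          ∃ f' ∈ Jfin T, (∀ s ∈ L.fixingSubgroup, s • f' = f') ∧ clsMk T f' = clsMk T f := by
  classical
  haveI := finite_quotient_unitJ_sup_prinLev hL (U := L.fixingSubgroup) le_rfl
  let N := (unitJ L.fixingSubgroup ⊔ prinLev L.fixingSubgroup).addSubgroupOf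
    (fixedPts L.fixingSubgroup (J T0))
  let Q := ↥(fixedPts L.fixingSubgroup (J T0)) ⧸ N
  have hsupp : (⋃ c : Q, Subtype.val '' {q : {q : Nat.Primes // q ∉ T0} |
      ∃ g, (((Quotient.out c : ↥(fixedPts L.fixingSubgroup (J T0))) : J T0) : Amb T0).ord q g
        ≠ 0}).Finite :=
    Set.finite_iUnion fun c =>
      ((Quotient.out c : ↥(fixedPts L.fixingSubgroup (J T0))) : J T0).2.2.2.2.image _
  refine ⟨hsupp.toFinset, fun a ha => ?_, fun T hT hT0 f hf => ?_⟩
  · obtain ⟨c, q, -, rfl⟩ := Set.mem_iUnion.1 (hsupp.mem_toFinset.1 ha)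
    exact q.2
  have hTT : T0 ⊆ T := Finset.union_subset_left hT
  let fl : lowerable T0 T := ⟨f, L, hL, hf⟩
  have hflfix : ∀ s ∈ L.fixingSubgroup, s • lower hTT fl = lower hTT fl := fun s hs => by
    rw [← lower_smul]
    exact congrArg (lower hTT) (Subtype.ext (hf s hs))
  let c : Q := QuotientAddGroup.mk ⟨lower hTT fl, hflfix⟩
  set r : ↥(fixedPts L.fixingSubgroup (J T0)) := Quotient.out c with hr
  have hmem : (-(r : J T0) + lower hTT fl : J T0) ∈
      unitJ L.fixingSubgroup ⊔ prinLev L.fixingSubgroup := by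
    have h : (QuotientAddGroup.mk r : Q) = c := QuotientAddGroup.out_eq' c
    exact (QuotientAddGroup.eq (s := N)).1 h
  obtain ⟨u, hu, P, hP, hsum⟩ := AddSubgroup.mem_sup.1 hmem
  obtain ⟨hPfix, x, hx⟩ := hP
  have hxfix : ∀ s ∈ L.fixingSubgroup, s x = x := fun s hs =>
    hx.apply_eq_self hT0 (congrArg Subtype.val (hPfix s hs))
  have hxL : x ∈ L := by
    rw [← InfiniteGalois.fixedField_fixingSubgroup L, IntermediateField.mem_fixedField_iff]
    exact hxfix
  obtain ⟨P', hP', hP'0, hP'fix⟩ := exists_principal (hL.mono hTT) hxL hx.ne_zero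
  refine ⟨f - P', fun q g => ?_, fun s hs => by rw [smul_sub, hf s hs, hP'fix s (hxfix s hs)],
    by rw [map_sub, hP'0, sub_zero]⟩
  have hq0 : q.1 ∉ T0 := fun h => q.2 (hTT h)
  have hq : ∀ g, ((r : J T0) : Amb T0).ord ⟨q.1, hq0⟩ g = 0 := fun g => by
    by_contra hne
    exact q.2 (hT (Finset.mem_union_right _ (hsupp.mem_toFinset.2
      (Set.mem_iUnion.2 ⟨c, ⟨q.1, hq0⟩, ⟨g, hne⟩, rfl⟩))))
  have e : (lower hTT fl : J T0) = (r : J T0) + (u + P) := by
    rw [hsum, add_neg_cancel_left]
  have e2 : (f : Amb T).ord q g = (P : Amb T0).ord ⟨q.1, hq0⟩ g := by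
    have e1 := congrArg (fun z : J T0 => (z : Amb T0).ord ⟨q.1, hq0⟩ g) e
    simp only [coe_lower, AddSubgroup.coe_add, Amb.ord_add, hq g, hu.2.1 _ g, zero_add] at e1
    rw [lowerAmb_ord_of_not_mem hTT _ ⟨q.1, hq0⟩ q.2 g] at e1
    exact e1
  have e3 : (P' : Amb T).ord q g = (P : Amb T0).ord ⟨q.1, hq0⟩ g :=
    ord_eq_of_zpow_eq (q := q.1) ((hP'.ord_eq q g).symm.trans (hx.ord_eq ⟨q.1, hq0⟩ g))
  rw [AddSubgroup.coe_sub, Amb.ord_sub, e2, e3, sub_self]

/-- A set of primes with a level. -/
structure Setting where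
  /-- The primes. -/
  T : Finset Nat.Primes
  /-- The level. -/
  F : IntermediateField ℚ Qb
  lvl : IsLvl T F
  ne : T.Nonempty

namespace Setting

variable (S : Setting)

/-- The kernel of the level. -/
abbrev N : Subgroup GQ := S.F.fixingSubgroup

instance normal_N : S.F.fixingSubgroup.Normal := S.lvl.normal

instance finite_G : Finite (GQ ⧸ S.F.fixingSubgroup) := S.lvl.finite_quotient

/-- The Galois group of the level. -/
abbrev G : Type := GQ ⧸ S.F.fixingSubgroup

variable (v : ↥S.T)

/-- The kernel in the local group. -/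
abbrev Nv : Subgroup (LocGal v.1) := S.F.fixingSubgroup.comap (loc v.1)

instance normal_Nv : (S.Nv v).Normal := Subgroup.Normal.comap S.lvl.normal (loc v.1)

/-- The local group of the level. -/
abbrev D : Type := LocGal v.1 ⧸ S.Nv v

/-- The decomposition map. -/
def emb : S.D v →* S.G := QuotientGroup.map (S.Nv v) S.F.fixingSubgroup (loc v.1) le_rfl

@[simp] theorem emb_mk (τ : LocGal v.1) :
    S.emb v (QuotientGroup.mk τ) = QuotientGroup.mk (loc v.1 τ) := rfl

theorem emb_injective : Function.Injective (S.emb v) := by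
  refine (injective_iff_map_eq_one _).2 fun x hx => ?_
  induction x using QuotientGroup.induction_on with | H τ => ?_
  exact (QuotientGroup.eq_one_iff τ).2 ((QuotientGroup.eq_one_iff (N := S.F.fixingSubgroup) _).1 hx)

instance finite_D : Finite (S.D v) := Finite.of_injective _ (S.emb_injective v)

theorem range_emb :
    (S.emb v).range = (loc v.1).range.map (QuotientGroup.mk' S.F.fixingSubgroup) := by
  ext x
  constructor
  · rintro ⟨d, rfl⟩
    induction d using QuotientGroup.induction_on with | H τ => ?_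
    exact ⟨loc v.1 τ, ⟨τ, rfl⟩, rfl⟩
  · rintro ⟨_, ⟨τ, rfl⟩, rfl⟩
    exact ⟨QuotientGroup.mk τ, rfl⟩

/-- The local values of the level. -/
abbrev X : Type := ↥(fixedPts (S.Nv v) (LocVal v.1))

/-- The local ideles of the level. -/
abbrev JT : Type := ∀ v : ↥S.T, Coind (S.emb v) (S.X v)

/-- The classes of the level. -/
abbrev C : Type := ↥(fixedPts S.F.fixingSubgroup (Cls S.T))

theorem mk_mul_of_mem (g : GQ) {s : GQ} (hs : s ∈ S.F.fixingSubgroup) :
    (QuotientGroup.mk (g * s) : S.G) = QuotientGroup.mk g :=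
  QuotientGroup.eq.2 (by simpa using hs)

/-- The family of a local idele. -/
def amb : S.JT →+ Amb S.T :=
  AddMonoidHom.mk' (fun f => (fun q g => ((Coind.val (f q) (QuotientGroup.mk g) : S.X q) :
      LocVal q.1), fun _ _ => 0))
    fun f f' => Amb.ext (fun q g => by
      show ((Coind.val ((f + f') q) _ : S.X q) : LocVal q.1) =
        ((Coind.val (f q) _ : S.X q) : LocVal q.1) + ((Coind.val (f' q) _ : S.X q) : LocVal q.1)
      rw [Pi.add_apply, map_add]; rfl) fun q g => (add_zero 0).symm

theorem amb_fin (f : S.JT) (q : ↥S.T) (g : GQ) :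
    (S.amb f).fin q g = ((Coind.val (f q) (QuotientGroup.mk g) : S.X q) : LocVal q.1) := rfl

theorem amb_smul (σ : GQ) (f : S.JT) : S.amb ((QuotientGroup.mk σ : S.G) • f) = σ • S.amb f :=
  Amb.ext (fun q g => rfl) fun q g => rfl

theorem amb_fixed (f : S.JT) {s : GQ} (hs : s ∈ S.F.fixingSubgroup) : s • S.amb f = S.amb f := by
  rw [← amb_smul, (QuotientGroup.eq_one_iff s).2 hs, one_smul]

theorem amb_mem_J (f : S.JT) : S.amb f ∈ J S.T := by
  refine ⟨fun q τ g => ?_, fun _ _ _ => rfl, ⟨S.F, S.lvl, fun s hs => S.amb_fixed f hs⟩, ?_⟩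
  · rw [amb_fin, amb_fin, ← locVal_smul_def, ← coe_quot_smul (S.Nv q) τ]
    exact congrArg Subtype.val (Coind.val_equivariant (f q) (QuotientGroup.mk τ) (QuotientGroup.mk g))
  · refine Set.finite_empty.subset ?_
    rintro q ⟨g, hg⟩
    exact hg rfl

/-- The idele of a local idele. -/
def toJ : S.JT →+ J S.T := S.amb.codRestrict _ S.amb_mem_J

theorem toJ_mem_Jfin (f : S.JT) : S.toJ f ∈ Jfin S.T := fun _ _ => rfl

theorem smul_toJ (σ : GQ) (f : S.JT) :
    S.toJ ((QuotientGroup.mk σ : S.G) • f) = σ • S.toJ f := Subtype.ext (S.amb_smul σ f)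

theorem toJ_fixed (f : S.JT) {s : GQ} (hs : s ∈ S.F.fixingSubgroup) : s • S.toJ f = S.toJ f :=
  Subtype.ext (S.amb_fixed f hs)

theorem exists_toJ_eq (f : J S.T) (hf : f ∈ Jfin S.T)
    (hfix : ∀ s ∈ S.F.fixingSubgroup, s • f = f) : ∃ f' : S.JT, S.toJ f' = f := by
  have hinv : ∀ (q : ↥S.T) (g : GQ), ∀ s ∈ S.F.fixingSubgroup,
      (f : Amb S.T).fin q (g * s) = (f : Amb S.T).fin q g := fun q g s hs => fin_apply_mul hfix q g hs
  have hval : ∀ (q : ↥S.T) (g : GQ), (f : Amb S.T).fin q g ∈ fixedPts (S.Nv q) (LocVal q.1) := by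
    intro q g τ hτ
    rw [locVal_smul_def, ← f.2.1 q τ g, show loc q.1 τ * g = g * (g⁻¹ * loc q.1 τ * g) by group]
    exact hinv q g _ (by simpa using S.lvl.normal.conj_mem _ hτ g⁻¹)
  let val : ∀ q : ↥S.T, S.G → S.X q := fun q c => Quotient.liftOn' c
    (fun g => ⟨_, hval q g⟩) fun a b h => Subtype.ext (by
      rw [QuotientGroup.leftRel_apply] at h
      show (f : Amb S.T).fin q a = (f : Amb S.T).fin q b
      rw [← hinv q a _ h, mul_inv_cancel_left])
  refine ⟨fun q => Coind.mk (val q) fun d c => ?_,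
    Subtype.ext (Amb.ext (fun q g => rfl) fun q g => (hf q g).symm)⟩
  induction d using QuotientGroup.induction_on with | H τ => ?_
  induction c using QuotientGroup.induction_on with | H g => ?_
  exact Subtype.ext (f.2.1 q τ g)

/-- The classes of the local ideles. -/
def qMap : S.JT →+[S.G] S.C where
  toFun f := ⟨clsMk S.T (S.toJ f), fun s hs => by rw [smul_clsMk, S.toJ_fixed f hs]⟩
  map_smul' c f := by
    induction c using QuotientGroup.induction_on with | H σ => ?_
    refine Subtype.ext ?_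
    show clsMk S.T (S.toJ _) = σ • clsMk S.T (S.toJ f)
    rw [S.smul_toJ, smul_clsMk]
  map_zero' := Subtype.ext (by simp)
  map_add' f f' := Subtype.ext (by simp)

theorem qMap_surjective (hsupp : ∀ f : J S.T, (∀ s ∈ S.F.fixingSubgroup, s • f = f) →
      ∃ f' ∈ Jfin S.T, (∀ s ∈ S.F.fixingSubgroup, s • f' = f') ∧
        clsMk S.T f' = clsMk S.T f) :
    Function.Surjective S.qMap := by
  intro c
  obtain ⟨f, hf, hfc⟩ := levelRepresentatives S.ne S.F S.lvl _ le_rfl _ c.2
  obtain ⟨f', hf', hfix, he⟩ := hsupp f hf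
  obtain ⟨f'', hf''⟩ := S.exists_toJ_eq f' hf' hfix
  exact ⟨f'', Subtype.ext ((congrArg (clsMk S.T) hf'').trans (he.trans hfc))⟩

end Setting

/-- The action of the Galois group of a level on its units. -/
def tUnitsAct (T : Finset Nat.Primes) (L : IntermediateField ℚ Qb) [L.fixingSubgroup.Normal]
    (c : GQ ⧸ L.fixingSubgroup) (x : ↥(TUnits T L)) : ↥(TUnits T L) :=
  Quotient.liftOn' c (fun σ => tUnitsHom T L σ x) fun a b h => Subtype.ext (by
    rw [QuotientGroup.leftRel_apply] at h
    show a • (x : Qu) = b • (x : Qu)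
    conv_rhs => rw [← mul_inv_cancel_left a b, mul_smul, x.2.2 _ h])

instance tUnitsSMul (T : Finset Nat.Primes) (L : IntermediateField ℚ Qb)
    [L.fixingSubgroup.Normal] : SMul (GQ ⧸ L.fixingSubgroup) ↥(TUnits T L) :=
  ⟨tUnitsAct T L⟩

@[simp] theorem coe_smul_tUnits (T : Finset Nat.Primes) (L : IntermediateField ℚ Qb)
    [L.fixingSubgroup.Normal] (σ : GQ) (x : ↥(TUnits T L)) :
    (((QuotientGroup.mk σ : GQ ⧸ L.fixingSubgroup) • x : ↥(TUnits T L)) : Qu) = σ • (x : Qu) :=
  rfl

instance tUnitsAction (T : Finset Nat.Primes) (L : IntermediateField ℚ Qb)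
    [L.fixingSubgroup.Normal] : DistribMulAction (GQ ⧸ L.fixingSubgroup) ↥(TUnits T L) where
  one_smul x := Subtype.ext (one_smul GQ (x : Qu))
  mul_smul c d x := by
    induction c using QuotientGroup.induction_on with | H σ => ?_
    induction d using QuotientGroup.induction_on with | H τ => ?_
    exact Subtype.ext (mul_smul σ τ (x : Qu))
  smul_zero c := by
    induction c using QuotientGroup.induction_on with | H σ => ?_
    exact Subtype.ext (smul_zero σ)
  smul_add c x y := by
    induction c using QuotientGroup.induction_on with | H σ => ?_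
    exact Subtype.ext (smul_add σ (x : Qu) (y : Qu))

theorem actHom_tUnits (T : Finset Nat.Primes) (L : IntermediateField ℚ Qb)
    [L.fixingSubgroup.Normal] (σ : GQ) :
    actHom ↥(TUnits T L) (QuotientGroup.mk σ : GQ ⧸ L.fixingSubgroup) = tUnitsHom T L σ :=
  AddMonoidHom.ext fun _ => Subtype.ext rfl

namespace Setting

variable (S : Setting)

/-- The units of the level. -/
abbrev E : Type := ↥(TUnits S.T S.F)

theorem embU_fixed (v : ↥S.T) (x : S.E) (g : GQ) :
    embU v.1 (g • (x : Qu)) ∈ fixedPts (S.Nv v) (LocVal v.1) := by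
  intro τ hτ
  rw [locVal_smul_def, locAct_embU, (smul_mem_TUnits S.T S.F g x.2).2 _ hτ]

/-- The local ideles of a unit. -/
def iMap : S.E →+[S.G] S.JT where
  toFun x v := Coind.mk (fun c => Quotient.liftOn' c
      (fun g => (⟨embU v.1 (g • (x : Qu)), S.embU_fixed v x g⟩ : S.X v))
      fun a b h => Subtype.ext (by
        rw [QuotientGroup.leftRel_apply] at h
        show embU v.1 (a • (x : Qu)) = embU v.1 (b • (x : Qu))
        conv_rhs => rw [← mul_inv_cancel_left a b, mul_smul, x.2.2 _ h]))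
    fun d c => by
      induction d using QuotientGroup.induction_on with | H τ => ?_
      induction c using QuotientGroup.induction_on with | H g => ?_
      refine Subtype.ext ?_
      show embU v.1 ((loc v.1 τ * g) • (x : Qu)) = τ • embU v.1 (g • (x : Qu))
      rw [locVal_smul_def, locAct_embU, mul_smul]
  map_smul' c x := funext fun v => Coind.ext fun d => by
    induction c using QuotientGroup.induction_on with | H σ => ?_
    induction d using QuotientGroup.induction_on with | H g => ?_
    refine Subtype.ext ?_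
    show embU v.1 (g • (σ • (x : Qu))) = embU v.1 ((g * σ) • (x : Qu))
    rw [mul_smul]
  map_zero' := funext fun v => Coind.ext fun d => by
    induction d using QuotientGroup.induction_on with | H g => ?_
    refine Subtype.ext ?_
    show embU v.1 (g • (0 : Qu)) = 0
    rw [smul_zero, map_zero]
  map_add' x y := funext fun v => Coind.ext fun d => by
    induction d using QuotientGroup.induction_on with | H g => ?_
    refine Subtype.ext ?_
    show embU v.1 (g • ((x : Qu) + (y : Qu))) = embU v.1 (g • (x : Qu)) + embU v.1 (g • (y : Qu))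
    rw [smul_add, map_add]

theorem toJ_iMap_fin (x : S.E) (v : ↥S.T) (g : GQ) :
    (S.toJ (S.iMap x) : Amb S.T).fin v g = embU v.1 (g • (x : Qu)) := rfl

theorem isPrinU_iMap (x : S.E) : IsPrinU S.T (S.toJ (S.iMap x)) (x : Qu) := by
  obtain ⟨f, hf, hfx⟩ := x.2.1
  suffices h : S.toJ (S.iMap x) = f by rw [h]; exact hfx
  exact Subtype.ext (Amb.ext (fun q g => (S.toJ_iMap_fin x q g).trans (hfx.fin_eq q g).symm)
    fun q g => (hf q g).symm)

theorem toJ_injective : Function.Injective S.toJ := fun f f' h => funext fun v => Coind.ext fun c =>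
  Subtype.ext (by
    induction c using QuotientGroup.induction_on with | H g => ?_
    exact congrArg (fun z : J S.T => (z : Amb S.T).fin v g) h)

theorem isShortExact (hsupp : ∀ f : J S.T, (∀ s ∈ S.F.fixingSubgroup, s • f = f) →
      ∃ f' ∈ Jfin S.T, (∀ s ∈ S.F.fixingSubgroup, s • f' = f') ∧
        clsMk S.T f' = clsMk S.T f) :
    IsShortExact S.iMap S.qMap where
  injective x y h := by
    have hy := S.isPrinU_iMap y
    rw [← h] at hy
    exact Subtype.ext ((S.isPrinU_iMap x).elem_eq S.ne hy)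
  surjective := S.qMap_surjective hsupp
  exact f := by
    constructor
    · intro hf
      obtain ⟨x, hx⟩ := exists_isPrinU_of_clsMk_eq_zero (congrArg Subtype.val hf)
      have hxE : x ∈ TUnits S.T S.F := by
        refine ⟨⟨_, S.toJ_mem_Jfin f, hx⟩, fun s hs => ?_⟩
        have h' := hx.smul s
        rw [S.toJ_fixed f hs] at h'
        exact h'.elem_eq S.ne hx
      exact ⟨⟨x, hxE⟩, S.toJ_injective ((S.isPrinU_iMap ⟨x, hxE⟩).eq hx)⟩
    · rintro ⟨x, rfl⟩
      exact Subtype.ext (S.isPrinU_iMap x).clsMk_eq_zero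

end Setting

/-- A quotient of a group finite mod `p` by one with finite `X/p` is finite mod `p`. -/
theorem finModP_of_quotient {p : ℕ} {X Y Z : Type} [AddCommGroup X] [AddCommGroup Y]
    [AddCommGroup Z] (i : X →+ Y) (q : Y →+ Z) (hi : Function.Injective i)
    (hq : Function.Surjective q) (hex : ∀ y, q y = 0 ↔ ∃ x, i x = y) [Finite (QuoP p X)]
    (hY : FinModP p Y) : FinModP p Z := by
  haveI := hY.tor
  haveI := hY.quo
  refine ⟨?_, Finite.of_surjective _ (quoMap_surjective (p := p) q hq)⟩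
  let δ := torDelta (p := p) i q hi hq hex
  haveI : Finite δ.toAddMonoidHom.ker := by
    have h : LinearMap.ker δ = LinearMap.range (torMap q) := exact_torDelta i q hi hq hex
    haveI : Finite (LinearMap.range (torMap q : TorP p Y →ₗ[ZMod p] TorP p Z)) :=
      Finite.of_surjective _ (torMap q : TorP p Y →ₗ[ZMod p] TorP p Z).surjective_rangeRestrict
    exact (h.symm ▸ inferInstance : Finite (LinearMap.ker δ))
  haveI : Finite (TorP p Z ⧸ δ.toAddMonoidHom.ker) :=
    Finite.of_equiv _ (QuotientAddGroup.quotientKerEquivRange δ.toAddMonoidHom).symm.toEquiv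
  exact Finite.of_addSubgroup_quotient δ.toAddMonoidHom.ker

end Fermat.Agent.TW
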