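/-
The twisted adjoint cocycles `ad⁰ ρ̄ ⊗ det ρ̄` of a residual representation.
-/
import Fermat.Agent.TW.GlobalDefs
import Fermat.Prelude.Def_GaloisRep_LocalConditions

set_option autoImplicit false

noncomputable section

namespace Fermat.Agent.TW

local notation "Γℚ" => AlgebraicClosure ℚ ≃ₐ[ℚ] AlgebraicClosure ℚ

section Local

variable {G : Type*} [Group G] {k : Type*} [Field k]
  (r : G →* Matrix (Fin 2) (Fin 2) k)

/-- `M ↦ det (r g) • r g * M * r g⁻¹`. -/
def twConj (g : G) : Matrix (Fin 2) (Fin 2) k →ₗ[k] Matrix (Fin 2) (Fin 2) k :=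
  (r g).det • adConj r g

@[simp] theorem twConj_apply (g : G) (M : Matrix (Fin 2) (Fin 2) k) :
    twConj r g M = (r g).det • (r g * M * r g⁻¹) := rfl

/-- One-cocycles with values in the twisted trace zero adjoint; no continuity. -/
def twCocycles : Submodule k (G → Matrix (Fin 2) (Fin 2) k) where
  carrier := {c | (∀ g, (c g).trace = 0) ∧ ∀ g h, c (g * h) = c g + twConj r g (c h)}
  add_mem' {a b} ha hb := by
    refine ⟨fun g => by simp [Matrix.trace_add, ha.1 g, hb.1 g], fun g h => ?_⟩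
    simp only [Pi.add_apply, ha.2 g h, hb.2 g h, map_add]
    abel
  zero_mem' := ⟨fun g => by simp, fun g h => by simp⟩
  smul_mem' t a ha := by
    refine ⟨fun g => by simp [Matrix.trace_smul, ha.1 g], fun g h => ?_⟩
    simp only [Pi.smul_apply, ha.2 g h, smul_add, map_smul]

theorem mem_twCocycles_iff (c : G → Matrix (Fin 2) (Fin 2) k) :
    c ∈ twCocycles r ↔ (∀ g, (c g).trace = 0) ∧ ∀ g h, c (g * h) = c g + twConj r g (c h) :=
  Iff.rfl

/-- `M ↦ (g ↦ twConj r g M - M)`. -/
def twD : Matrix (Fin 2) (Fin 2) k →ₗ[k] (G → Matrix (Fin 2) (Fin 2) k) :=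
  LinearMap.pi fun g => twConj r g - LinearMap.id

@[simp] theorem twD_apply (M : Matrix (Fin 2) (Fin 2) k) (g : G) :
    twD r M g = twConj r g M - M := rfl

/-- Coboundaries of trace zero matrices. -/
def twCoboundaries : Submodule k (G → Matrix (Fin 2) (Fin 2) k) :=
  (trZero k).map (twD r)

end Local

variable {k : Type} [Field k] (ρ : ResidualGaloisRep k)

/-- The global twisted cocycles: finite level, unramified outside `T`. -/
def dualCocycles (T : Finset ℕ) : Submodule k (Γℚ → Matrix (Fin 2) (Fin 2) k) where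
  carrier := {c | c ∈ twCocycles (matRep ρ) ⊓ globalFiniteLevel k ∧
    ∀ q : ℕ, q.Prime → q ∉ T → ∀ P : ValuationSubring (AlgebraicClosure ℚ), P.LiesOverPrime q →
      ∀ σ ∈ P.inertiaSubgroupIn ℚ, c σ = 0}
  add_mem' ha hb := ⟨add_mem ha.1 hb.1, fun q hq hqT P hP σ hσ => by
    simp [ha.2 q hq hqT P hP σ hσ, hb.2 q hq hqT P hP σ hσ]⟩
  zero_mem' := ⟨zero_mem _, fun _ _ _ _ _ _ _ => rfl⟩
  smul_mem' t a ha := ⟨Submodule.smul_mem _ t ha.1, fun q hq hqT P hP σ hσ => by
    simp [ha.2 q hq hqT P hP σ hσ]⟩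

/-- `dim H⁰` of the adjoint at `q` (junk `0` if `q` is not prime). -/
def locInvDim (q : ℕ) : ℕ :=
  if hq : q.Prime then
    haveI := Fact.mk hq
    Module.finrank k (adInvariants (locRep ρ q))
  else 0

theorem locInvDim_eq (q : ℕ) [hq : Fact q.Prime] :
    locInvDim ρ q = Module.finrank k (adInvariants (locRep ρ q)) := by
  rw [locInvDim, dif_pos hq.out]

/-- The standing hypotheses on a residual representation in the Taylor-Wiles argument. -/
structure TWHyp (p : ℕ) {k : Type} [Field k] (ρ : ResidualGaloisRep k) : Prop where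
  two_ne : p ≠ 2
  absIrr : ρ.IsAbsolutelyIrreducible
  det : (GaloisRepAdic.ofResidualGaloisRep ρ).DetIsCyclotomic p
  split : ∀ σ : Γℚ, ∃ α β : k,
    LinearMap.charpoly (ρ.ρ σ) = (Polynomial.X - Polynomial.C α) * (Polynomial.X - Polynomial.C β)
  index_two : ∀ (K : Type) [Field K] [Algebra k K] (G : Subgroup Γℚ), G.index = 2 →
    ∀ V : Submodule K (ρ.baseChange K).V,
      (∀ σ ∈ G, ∀ x ∈ V, (ρ.baseChange K).ρ σ x ∈ V) → V = ⊥ ∨ V = ⊤

end Fermat.Agent.TW
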