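/-
The level cut out by a residual representation.
-/
import Fermat.Agent.TW.DualDefs
import Fermat.Agent.PoitouTate.Defs
import Mathlib.FieldTheory.Galois.Infinite

set_option autoImplicit false

noncomputable section

namespace Fermat.Agent.TW

open PoitouTate

local notation "Qb" => AlgebraicClosure ℚ

variable {k : Type} [Field k] (ρ : ResidualGaloisRep k)

/-- A finite set of natural numbers as a set of primes. -/
def toPrimes (S : Finset ℕ) : Finset Nat.Primes := S.subtype Nat.Prime

theorem mem_toPrimes {S : Finset ℕ} {q : Nat.Primes} : q ∈ toPrimes S ↔ (q : ℕ) ∈ S :=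
  Finset.mem_subtype

theorem toPrimes_mono {S S' : Finset ℕ} (h : S ⊆ S') : toPrimes S ⊆ toPrimes S' := fun _ hq =>
  mem_toPrimes.2 (h (mem_toPrimes.1 hq))

theorem pPrime_mem_toPrimes {S : Finset ℕ} {p : ℕ} [Fact p.Prime] (h : p ∈ S) :
    ExtCitation.pPrime p ∈ toPrimes S := mem_toPrimes.2 h

/-- The field cut out by the representation. -/
def repLevel : IntermediateField ℚ Qb := IntermediateField.fixedField (matRep ρ).ker

theorem fixingSubgroup_repLevel : (repLevel ρ).fixingSubgroup = (matRep ρ).ker := by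
  obtain ⟨L, hL, hker⟩ := matRep_factorsThroughFiniteLevel ρ
  haveI := hL
  have hle : L.fixingSubgroup ≤ (matRep ρ).ker := fun s hs =>
    hker s ((IntermediateField.mem_fixingSubgroup_iff _ _).1 hs)
  exact InfiniteGalois.fixingSubgroup_fixedField ⟨(matRep ρ).ker, Subgroup.isClosed_of_isOpen _
    (Subgroup.isOpen_mono hle (IntermediateField.fixingSubgroup_isOpen L))⟩

instance normal_repLevel : (repLevel ρ).fixingSubgroup.Normal := by
  rw [fixingSubgroup_repLevel]; infer_instance

theorem mem_fixingSubgroup_repLevel {s : GQ} :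
    s ∈ (repLevel ρ).fixingSubgroup ↔ matRep ρ s = 1 := by
  rw [fixingSubgroup_repLevel, MonoidHom.mem_ker]

theorem isLvl_repLevel (S : Finset ℕ)
    (hram : ∀ q : ℕ, q.Prime → q ∉ S → ρ.IsUnramifiedAt q) :
    IsLvl (toPrimes S) (repLevel ρ) := by
  refine ⟨⟨?_, fun q hq A hA σ hσ => ?_⟩, inferInstance⟩
  · obtain ⟨L, hL, hker⟩ := matRep_factorsThroughFiniteLevel ρ
    haveI := hL
    have hle : repLevel ρ ≤ L := by
      conv_rhs => rw [← InfiniteGalois.fixedField_fixingSubgroup L]
      intro x hx
      rw [IntermediateField.mem_fixedField_iff]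
      intro s hs
      exact (IntermediateField.mem_fixedField_iff _ _).1 hx s
        (hker s ((IntermediateField.mem_fixingSubgroup_iff _ _).1 hs))
    exact FiniteDimensional.of_injective (IntermediateField.inclusion hle).toLinearMap
      (IntermediateField.inclusion_injective hle)
  · rw [mem_fixingSubgroup_repLevel, matRep_eq_one_iff]
    exact hram q q.2 (fun h => hq (mem_toPrimes.2 h)) A hA σ hσ

/-- The determinant is the cyclotomic character. -/
theorem det_matRep_eq_cyclo {p : ℕ} [Fact p.Prime] [CharP k p]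
    (hdet : (GaloisRepAdic.ofResidualGaloisRep ρ).DetIsCyclotomic p) (σ : GQ) :
    (matRep ρ σ).det = ((ExtCitation.cycloChar p σ : ZMod p).val : k) := by
  haveI : NeZero p := ⟨(Fact.out : p.Prime).ne_zero⟩
  have h := hdet.2 1 σ (ExtCitation.cycloChar p σ : ZMod p).val (by
    intro μ hμ
    rw [pow_one] at hμ
    have hμ0 : μ ≠ 0 := by
      rintro rfl
      rw [zero_pow (Fact.out : p.Prime).ne_zero] at hμ
      exact zero_ne_one hμ
    exact modularCyclotomicCharacter.spec Qb (ExtCitation.card_rootsOfUnity_eq_self p)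
      (σ : Qb ≃+* Qb) (t := Units.mk0 μ hμ0) (by
        rw [mem_rootsOfUnity]; exact Units.ext (by simpa using hμ)))
  rw [pow_one, CharP.cast_eq_zero, Ideal.mem_span_singleton, zero_dvd_iff, sub_eq_zero] at h
  rw [det_matRep]
  exact h

theorem cycloChar_eq_one_of_mem {p : ℕ} [Fact p.Prime] [CharP k p]
    (hdet : (GaloisRepAdic.ofResidualGaloisRep ρ).DetIsCyclotomic p) {s : GQ}
    (hs : s ∈ (repLevel ρ).fixingSubgroup) : ExtCitation.cycloChar p s = 1 := by
  have h := det_matRep_eq_cyclo ρ hdet s
  rw [(mem_fixingSubgroup_repLevel ρ).1 hs, Matrix.det_one] at h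
  have hinj : Function.Injective (ZMod.castHom (dvd_refl p) k) := (ZMod.castHom _ k).injective
  refine Units.ext (hinj ?_)
  rw [ZMod.castHom_apply, ← ZMod.natCast_val, ← h, Units.val_one, map_one]

end Fermat.Agent.TW
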