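/-
Permutation modules mod `p`: characteristic polynomials of the augmentation modules, vanishing of
`H¹` on freely acting subgroups, and counting of intertwiners.
-/
import Fermat.Agent.TW.UnitsPolyDefs
import Fermat.Agent.TW.ModP
import Fermat.Agent.TW.Splitting

set_option autoImplicit false

noncomputable section

namespace Fermat.Agent.TW

open RepAlgebra

section PiPoly

variable {K : Type} [Field K] {I : Type} [Fintype I] {V : I → Type} [∀ i, AddCommGroup (V i)]
  [∀ i, Module K (V i)] [∀ i, FiniteDimensional K (V i)]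

/-- Characteristic polynomials of products. -/
theorem charpoly_piMap_eq_prod (f : ∀ i, V i →ₗ[K] V i) :
    (LinearMap.pi fun i => (f i).comp (LinearMap.proj i) : (∀ i, V i) →ₗ[K] ∀ i, V i).charpoly =
      ∏ i, (f i).charpoly := by
  classical
  set F := (LinearMap.pi fun i => (f i).comp (LinearMap.proj i) : (∀ i, V i) →ₗ[K] ∀ i, V i)
  let W : Finset I → Submodule K (∀ i, V i) := fun s =>
    { carrier := {x | ∀ i ∉ s, x i = 0}
      add_mem' := fun hx hy i hi => by simp [hx i hi, hy i hi]
      zero_mem' := fun i _ => rfl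
      smul_mem' := fun t x hx i hi => by simp [hx i hi] }
  have hW : ∀ s, ∀ x ∈ W s, F x ∈ W s := fun s x hx i hi => by
    show f i (x i) = 0
    rw [hx i hi, map_zero]
  have key : ∀ s, subPoly F (W s) (hW s) = ∏ i ∈ s, (f i).charpoly := by
    intro s
    induction s using Finset.induction_on with
    | empty =>
      haveI : Subsingleton (W ∅) := ⟨fun a b => Subtype.ext (funext fun i => by
        rw [a.2 i (Finset.notMem_empty i), b.2 i (Finset.notMem_empty i)])⟩
      have h1 := (F.restrict (hW ∅)).charpoly_natDegree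
      rw [Module.finrank_zero_of_subsingleton] at h1
      rw [Finset.prod_empty]
      exact (LinearMap.charpoly_monic _).natDegree_eq_zero.1 h1
    | @insert a s ha ih =>
      have hle : W s ≤ W (insert a s) := fun x hx i hi => hx i fun h => hi (Finset.mem_insert_of_mem h)
      let π : W (insert a s) →ₗ[K] V a := (LinearMap.proj a).comp (W (insert a s)).subtype
      have hπ : Function.Surjective π := fun y => ⟨⟨Pi.single a y, fun i hi => Pi.single_eq_of_ne
        (fun h => hi (by rw [h]; exact Finset.mem_insert_self a s)) y⟩, Pi.single_eq_same a y⟩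
      have hex : LinearMap.range (Submodule.inclusion hle) = LinearMap.ker π := by
        ext x
        constructor
        · rintro ⟨y, rfl⟩
          exact y.2 a ha
        · intro hx
          refine ⟨⟨x.1, fun i hi => ?_⟩, rfl⟩
          by_cases h : i = a
          · subst h; exact hx
          · exact x.2 i fun hm => (Finset.mem_insert.1 hm).elim h hi
      rw [Finset.prod_insert ha, mul_comm, ← ih]
      exact charpoly_eq_mul_of_exact (Submodule.inclusion hle) π (Submodule.inclusion_injective hle)
        hπ hex (F.restrict (hW s)) _ (f a) (LinearMap.ext fun x => rfl) (LinearMap.ext fun x => rfl)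
  rw [← key Finset.univ]
  have e : W Finset.univ = ⊤ := eq_top_iff.2 fun x _ i hi => absurd (Finset.mem_univ i) hi
  rw [subPoly_congr F e (hW _) fun _ _ => trivial]
  unfold subPoly
  rw [← LinearEquiv.charpoly_conj (Submodule.topEquiv (R := K) (M := ∀ i, V i))
      (F.restrict fun _ _ => trivial)]
  congr 1

end PiPoly

variable {p : ℕ} [hp : Fact p.Prime]

section Quo

variable {I : Type} [Fintype I] {X : I → Type} [∀ i, AddCommGroup (X i)]

/-- `quoPoly` of a product. -/
theorem quoPoly_pi (σ : ∀ i, X i →+ X i) (τ : (∀ i, X i) →+ ∀ i, X i)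
    (hτ : ∀ x i, τ x i = σ i (x i)) [Finite (QuoP p (∀ i, X i))] [∀ i, Finite (QuoP p (X i))] :
    quoPoly (p := p) τ = ∏ i, quoPoly (p := p) (σ i) := by
  classical
  let e : QuoP p (∀ i, X i) →ₗ[ZMod p] ∀ i, QuoP p (X i) :=
    LinearMap.pi fun i => quoMap (Pi.evalAddMonoidHom X i)
  have hinj : Function.Injective e := by
    rw [injective_iff_map_eq_zero]
    intro a ha
    obtain ⟨a, rfl⟩ := quoMk_surjective a
    choose y hy using fun i => quoMk_eq_zero_iff.1
      (show (quoMk (a i) : QuoP p (X i)) = 0 from congrFun ha i)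
    exact quoMk_eq_zero_iff.2 ⟨y, funext hy⟩
  have hsurj : Function.Surjective e := fun y => by
    choose x hx using fun i => quoMk_surjective (y i)
    exact ⟨quoMk x, funext hx⟩
  have h : (LinearEquiv.ofBijective e ⟨hinj, hsurj⟩).conj (quoMap τ) =
      LinearMap.pi fun i => (quoMap (σ i)).comp (LinearMap.proj i) := by
    refine LinearMap.ext fun y => ?_
    obtain ⟨a, rfl⟩ := hsurj y
    obtain ⟨a, rfl⟩ := quoMk_surjective a
    rw [LinearEquiv.conj_apply_apply,
      show (LinearEquiv.ofBijective e ⟨hinj, hsurj⟩).symm (e (quoMk a)) = quoMk a from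
        (LinearEquiv.ofBijective e ⟨hinj, hsurj⟩).symm_apply_apply _]
    exact funext fun i => congrArg quoMk (hτ a i)
  rw [quoPoly, ← LinearEquiv.charpoly_conj (LinearEquiv.ofBijective e ⟨hinj, hsurj⟩), h,
    charpoly_piMap_eq_prod]
  rfl

/-- `quoPoly` is invariant under isomorphisms. -/
theorem quoPoly_congr {A B : Type} [AddCommGroup A] [AddCommGroup B] (e : A ≃+ B) (σ : A →+ A)
    (τ : B →+ B) (h : ∀ a, e (σ a) = τ (e a)) [Finite (QuoP p A)] [Finite (QuoP p B)] :
    quoPoly (p := p) σ = quoPoly (p := p) τ := by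
  let f : QuoP p A ≃ₗ[ZMod p] QuoP p B :=
    { quoMap (p := p) e.toAddMonoidHom with
      invFun := quoMap e.symm.toAddMonoidHom
      left_inv := fun a => by
        obtain ⟨a, rfl⟩ := quoMk_surjective a
        simp
      right_inv := fun b => by
        obtain ⟨b, rfl⟩ := quoMk_surjective b
        simp }
  rw [quoPoly, ← LinearEquiv.charpoly_conj f]
  refine congrArg LinearMap.charpoly (LinearMap.ext fun b => ?_)
  obtain ⟨b, rfl⟩ := quoMk_surjective b
  rw [LinearEquiv.conj_apply_apply]
  show quoMk (e (σ (e.symm b))) = quoMk (τ b)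
  rw [h, e.apply_symm_apply]

end Quo

section Perm

variable {G : Type} [Group G]

theorem charpoly_freeRep [Finite G] (m : ℕ) (s : G) :
    (Cone.freeRep p G m s).charpoly = (permRep p G G s).charpoly ^ m := by
  have h : Cone.freeRep p G m s = LinearMap.pi fun i => (permRep p G G s).comp (LinearMap.proj i) :=
    LinearMap.ext fun a => rfl
  rw [h, charpoly_piMap_eq_prod (fun _ : Fin m => permRep p G G s), Finset.prod_const,
    Finset.card_univ, Fintype.card_fin]

theorem charpoly_permRep_congr {H H' : Subgroup G} (h : H = H') (s : G) [Finite G] :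
    (permRep p G (G ⧸ H) s).charpoly = (permRep p G (G ⧸ H') s).charpoly := by
  subst h; rfl

theorem charpoly_permRep_top [Finite G] (s : G) :
    (permRep p G (G ⧸ (⊤ : Subgroup G)) s).charpoly = Polynomial.X - Polynomial.C 1 := by
  haveI : Subsingleton (G ⧸ (⊤ : Subgroup G)) := QuotientGroup.subsingleton_quotient_top
  letI : Fintype (G ⧸ (⊤ : Subgroup G)) := Fintype.ofFinite _
  have h : permRep p G (G ⧸ (⊤ : Subgroup G)) s = LinearMap.id :=
    LinearMap.ext fun f => funext fun x => congrArg f (Subsingleton.elim _ _)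
  rw [h, ← Module.End.one_eq_id, LinearMap.charpoly_one, Module.finrank_fintype_fun_eq_card,
    Fintype.card_eq_one_iff.2 ⟨QuotientGroup.mk 1, fun y => Subsingleton.elim _ _⟩, pow_one,
    map_one]

variable [Fintype G] {D : Type} [Group D] [Fintype D]

/-- `Coind Aug + Perm(G/D) = Perm(G)` mod `p`. -/
theorem quoPoly_coind_aug (ι : D →* G) (hι : Function.Injective ι)
    [Finite (QuoP p (Coind ι (Splitting.Aug D)))] (s : G) :
    quoPoly (p := p) (actHom (Coind ι (Splitting.Aug D)) s) *
        (permRep p G (G ⧸ ι.range) s).charpoly = (permRep p G G s).charpoly := by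
  classical
  letI : Fintype (G ⧸ ι.range) := Fintype.ofFinite _
  haveI : NeZero p := ⟨hp.out.ne_zero⟩
  have hp0 : (p : ℤ) ≠ 0 := by exact_mod_cast hp.out.ne_zero
  -- the reduction map
  let red0 : Coind ι (Splitting.Aug D) →+ (G → ZMod p) :=
    AddMonoidHom.mk' (fun f x => (((Coind.val f x⁻¹ : Splitting.Aug D) : D → ℤ) 1 : ZMod p))
      fun a b => funext fun x => by simp
  have hred0 : ∀ f, red0 (p • f) = 0 := fun f => by
    rw [map_nsmul]; exact funext fun x => by simp
  let red1 : QuoP p (Coind ι (Splitting.Aug D)) →+ (G → ZMod p) :=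
    QuotientAddGroup.lift _ red0 (by rintro _ ⟨f, rfl⟩; exact hred0 f)
  let red : QuoP p (Coind ι (Splitting.Aug D)) →ₗ[ZMod p] (G → ZMod p) := red1.toZModLinearMap p
  have hredmk : ∀ f, red (quoMk f) = red0 f := fun f => rfl
  have hinj : Function.Injective red := by
    rw [injective_iff_map_eq_zero]
    intro a ha
    obtain ⟨f, rfl⟩ := quoMk_surjective a
    rw [hredmk] at ha
    have hdiv : ∀ (g : G) (d : D),
        (p : ℤ) ∣ ((Coind.val f g : Splitting.Aug D) : D → ℤ) d := fun g d => by
      have e := congrFun ha (g⁻¹ * ι d)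
      simp only [red0, AddMonoidHom.mk'_apply, Pi.zero_apply, mul_inv_rev, inv_inv, ← map_inv,
        Coind.val_equivariant, Splitting.coe_smul_aug, mul_one] at e
      exact (ZMod.intCast_zmod_eq_zero_iff_dvd _ p).1 e
    choose z hz using hdiv
    let zA : G → Splitting.Aug D := fun g => ⟨z g, by
      show ∑ x, z g x = 0
      have := (Coind.val f g).2
      change ∑ x, ((Coind.val f g : Splitting.Aug D) : D → ℤ) x = 0 at this
      simp only [hz, ← Finset.mul_sum] at this
      exact (mul_eq_zero.1 this).resolve_left hp0⟩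
    refine quoMk_eq_zero_iff.2 ⟨Coind.mk zA fun d g => Subtype.ext (funext fun x => ?_),
      Coind.ext fun g => Subtype.ext (funext fun x => ?_)⟩
    · refine mul_left_cancel₀ hp0 ?_
      show (p : ℤ) * z (ι d * g) x = p * z g (d⁻¹ * x)
      rw [← hz, ← hz, Coind.val_equivariant, Splitting.coe_smul_aug]
    · rw [map_nsmul, Pi.smul_apply, AddSubgroup.coe_nsmul, Pi.smul_apply, nsmul_eq_mul, hz]
      rfl
  -- the coset sums
  let sums : (G → ZMod p) →ₗ[ZMod p] (G ⧸ ι.range → ZMod p) :=
    LinearMap.pi fun c => ∑ d : D, LinearMap.proj (c.out * ι d)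
  have hsums : ∀ φ (g : G), sums φ (QuotientGroup.mk g) = ∑ d : D, φ (g * ι d) := fun φ g => by
    obtain ⟨⟨h, d₀, hd₀⟩, hh⟩ := QuotientGroup.mk_out_eq_mul ι.range g
    simp only [sums, LinearMap.pi_apply, LinearMap.sum_apply, LinearMap.proj_apply]
    refine Fintype.sum_equiv (Equiv.mulLeft d₀) _ _ fun d => ?_
    rw [hh, Equiv.coe_mulLeft, map_mul, hd₀, mul_assoc]
  have hsurj : Function.Surjective sums := fun ψ => by
    refine ⟨fun x => if x = (QuotientGroup.mk x : G ⧸ ι.range).out then ψ (QuotientGroup.mk x) else 0,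
      funext fun c => ?_⟩
    have hmk : ∀ d, (QuotientGroup.mk (c.out * ι d) : G ⧸ ι.range) = c := fun d => by
      conv_rhs => rw [← QuotientGroup.out_eq' c]
      exact QuotientGroup.eq.2 ⟨d⁻¹, by simp [mul_assoc]⟩
    simp only [sums, LinearMap.pi_apply, LinearMap.sum_apply, LinearMap.proj_apply, hmk]
    rw [Finset.sum_eq_single (1 : D) (fun d _ hd => if_neg fun e => hd (hι (by
      rw [map_one]; exact mul_left_cancel (e.trans (mul_one _).symm))))
      (fun h => absurd (Finset.mem_univ _) h), map_one, mul_one, if_pos rfl]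
  have hex : LinearMap.range red = LinearMap.ker sums := by
    ext φ
    constructor
    · rintro ⟨a, rfl⟩
      obtain ⟨f, rfl⟩ := quoMk_surjective a
      rw [LinearMap.mem_ker]
      refine funext fun c => ?_
      induction c using QuotientGroup.induction_on with | H g => ?_
      rw [hsums, hredmk, Pi.zero_apply]
      simp only [red0, AddMonoidHom.mk'_apply, mul_inv_rev, ← map_inv, Coind.val_equivariant,
        Splitting.coe_smul_aug, inv_inv, mul_one]
      rw [← Int.cast_sum, show ∑ d, ((Coind.val f g⁻¹ : Splitting.Aug D) : D → ℤ) d = 0 from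
        (Coind.val f g⁻¹).2, Int.cast_zero]
    · intro hφ
      have hz : ∀ g : G, ((∑ d : D, ((φ (g * ι d)).val : ℤ) : ℤ) : ZMod p) = 0 := fun g => by
        rw [Int.cast_sum]
        simp only [Int.cast_natCast, ZMod.natCast_zmod_val]
        rw [← hsums]
        exact congrFun hφ _
      -- lift with coset sums zero
      let Φ : G → ℤ := fun x => (φ x).val -
        if x = (QuotientGroup.mk x : G ⧸ ι.range).out then ∑ d : D, ((φ (x * ι d)).val : ℤ) else 0
      have hΦmod : ∀ x, (Φ x : ZMod p) = φ x := fun x => by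
        simp only [Φ]
        split_ifs with h
        · rw [Int.cast_sub, hz, sub_zero, Int.cast_natCast, ZMod.natCast_zmod_val]
        · simp
      have hΦsum : ∀ g : G, ∑ d : D, Φ (g * ι d) = 0 := fun g => by
        obtain ⟨⟨h, d₀, hd₀⟩, hh⟩ := QuotientGroup.mk_out_eq_mul ι.range g
        have hmk : ∀ d, (QuotientGroup.mk (g * ι d) : G ⧸ ι.range) = QuotientGroup.mk g := fun d =>
          QuotientGroup.eq.2 ⟨d⁻¹, by simp [mul_assoc]⟩
        simp only [Φ, hmk, hh, Finset.sum_sub_distrib]
        rw [sub_eq_zero, Finset.sum_eq_single d₀ (fun d _ hd => if_neg fun e => hd (hι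
          ((mul_left_cancel e).trans hd₀.symm))) (fun h => absurd (Finset.mem_univ _) h),
          if_pos (by rw [hd₀])]
        refine Fintype.sum_equiv (Equiv.mulLeft d₀⁻¹) _ _ fun d => ?_
        rw [Equiv.coe_mulLeft, mul_assoc, ← map_mul, mul_inv_cancel_left]
      let zA : G → Splitting.Aug D := fun g => ⟨fun d => Φ (g⁻¹ * ι d), hΦsum g⁻¹⟩
      refine ⟨quoMk (Coind.mk zA fun e g => Subtype.ext (funext fun x => ?_)), ?_⟩
      · show Φ ((ι e * g)⁻¹ * ι x) = Φ (g⁻¹ * ι (e⁻¹ * x))
        rw [map_mul, map_inv, mul_inv_rev, mul_assoc]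
      · rw [hredmk]
        refine funext fun x => ?_
        show ((Φ ((x⁻¹)⁻¹ * ι 1) : ℤ) : ZMod p) = φ x
        rw [map_one, mul_one, inv_inv, hΦmod]
  refine (charpoly_eq_mul_of_exact red sums hinj hsurj hex _ _ _
    (LinearMap.ext fun a => ?_) (LinearMap.ext fun φ => ?_)).symm
  · obtain ⟨f, rfl⟩ := quoMk_surjective a
    refine funext fun x => ?_
    show red (quoMk f) (s⁻¹ • x) = red (quoMk (s • f)) x
    rw [hredmk, hredmk]
    show ((((Coind.val f (s⁻¹ * x)⁻¹ : Splitting.Aug D) : D → ℤ) 1 : ℤ) : ZMod p) = _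
    rw [mul_inv_rev, inv_inv]
    rfl
  · refine funext fun c => ?_
    induction c using QuotientGroup.induction_on with | H g => ?_
    show sums φ (QuotientGroup.mk (s⁻¹ * g)) = sums (permRep p G G s φ) (QuotientGroup.mk g)
    rw [hsums, hsums]
    exact Finset.sum_congr rfl fun d _ => by rw [permRep_apply, smul_eq_mul, mul_assoc]

/-- `Aug + 1 = Perm(G)` mod `p`. -/
theorem quoPoly_aug [Finite (QuoP p (Splitting.Aug G))] (s : G) :
    quoPoly (p := p) (actHom (Splitting.Aug G) s) * (Polynomial.X - Polynomial.C 1) =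
      (permRep p G G s).charpoly := by
  have hid : Function.Injective (MonoidHom.id G) := Function.injective_id
  haveI := (finModP_coind (p := p) hid
    (show FinModP p (Splitting.Aug G) from ⟨by
      haveI : Module.Finite ℤ (Splitting.Aug G) :=
        Module.Finite.of_injective ((Splitting.Aug G).subtype).toIntLinearMap Subtype.coe_injective
      exact (finModP_of_fg _).tor, inferInstance⟩)).quo
  let e : Coind (MonoidHom.id G) (Splitting.Aug G) ≃+ Splitting.Aug G :=
    { toFun := fun f => Coind.val f 1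
      invFun := fun a => Coind.mk (fun g => g • a) fun d g => by rw [MonoidHom.id_apply, mul_smul]
      left_inv := fun f => Coind.ext fun g => by
        rw [Coind.val_mk, ← Coind.val_equivariant, MonoidHom.id_apply, mul_one]
      right_inv := fun a => one_smul G a
      map_add' := fun f f' => by simp }
  have h := quoPoly_coind_aug (p := p) (MonoidHom.id G) hid s
  rw [charpoly_permRep_congr (MonoidHom.range_eq_top.2 Function.surjective_id), charpoly_permRep_top,
    quoPoly_congr e _ (actHom (Splitting.Aug G) s) fun f => by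
      show Coind.val (s • f) 1 = s • Coind.val f 1
      rw [Coind.val_smul, one_mul, ← Coind.val_equivariant, MonoidHom.id_apply, mul_one]] at h
  exact h

end Perm

section Vanish

variable {G S : Type} [Group G] [MulAction G S]

/-- A permutation module on which `P` acts freely has trivial `H¹` on `P`. -/
theorem h1Trivial_permRep (P : Subgroup G) (hfree : ∀ g ∈ P, ∀ x : S, g • x = x → g = 1) :
    H1Trivial (permRep p G S) P := by
  intro c hc
  letI R : Setoid S := MulAction.orbitRel P S
  let r : S → S := fun x => (Quotient.mk R x).out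
  have hex : ∀ x : S, ∃ h : P, (h : G) • r x = x := fun x =>
    MulAction.orbitRel_apply.1 (R.symm (Quotient.mk_out x))
  choose head hhead using hex
  have hr : ∀ (g : P) (x : S), r ((g : G) • x) = r x := fun g x =>
    congrArg Quotient.out (Quotient.sound (MulAction.orbitRel_apply.2 ⟨g, rfl⟩))
  have hh : ∀ (g : P) (x : S), head ((g : G) • x) = g * head x := fun g x => by
    have e1 := hhead ((g : G) • x)
    rw [hr] at e1
    have e2 : ((g * head x : P) : G) • r x = (g : G) • x := by
      rw [Subgroup.coe_mul, mul_smul, hhead]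
    refine (Subtype.ext (inv_mul_eq_one.1 (hfree _
      (P.mul_mem (P.inv_mem (g * head x).2) (head ((g : G) • x)).2) (r x) ?_))).symm
    rw [mul_smul, e1, ← e2, inv_smul_smul]
  refine ⟨fun x => c (head x)⁻¹ (r x), fun g => funext fun x => ?_⟩
  have e1 : r ((g : G)⁻¹ • x) = r x := hr g⁻¹ x
  have e2 : head ((g : G)⁻¹ • x) = g⁻¹ * head x := hh g⁻¹ x
  have e := congrFun (hc (head x)⁻¹ g) (r x)
  simp only [Pi.add_apply, permRep_apply, InvMemClass.coe_inv, inv_inv, hhead] at e
  simp only [Pi.sub_apply, permRep_apply, e1, e2, mul_inv_rev, inv_inv, e]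
  abel

/-- A subgroup of order at most two meets a conjugate of an odd `p`-group trivially. -/
theorem free_on_involution_quotient (hp2 : p ≠ 2) {P : Subgroup G} (hP : IsPGroup p P) {c : G}
    (hc : c * c = 1) :
    ∀ g ∈ P, ∀ x : G ⧸ Subgroup.zpowers c, g • x = x → g = 1 := by
  intro g hg x hx
  induction x using QuotientGroup.induction_on with | H a => ?_
  have h : (g * a)⁻¹ * a ∈ Subgroup.zpowers c := QuotientGroup.eq.1 hx
  obtain ⟨i, hi⟩ := h
  have h2 : g ^ 2 = 1 := by
    have h3 : (a⁻¹ * g⁻¹ * a) ^ 2 = 1 := by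
      rw [show a⁻¹ * g⁻¹ * a = c ^ i by rw [show c ^ i = _ from hi]; group, ← zpow_natCast,
        ← zpow_mul, mul_comm, zpow_mul, zpow_natCast, pow_two, hc, one_zpow]
    have h4 : (g⁻¹) ^ 2 = 1 := by
      have e : g⁻¹ = a * (a⁻¹ * g⁻¹ * a) * a⁻¹ := by group
      rw [e, conj_pow, h3]; group
    rwa [inv_pow, inv_eq_one] at h4
  obtain ⟨j, hj⟩ := hP ⟨g, hg⟩
  have hj' : g ^ p ^ j = 1 := congrArg Subtype.val hj
  obtain ⟨m, hm⟩ := ((Fact.out : p.Prime).odd_of_ne_two hp2).pow (n := j)
  rwa [hm, pow_succ, pow_mul, h2, one_pow, one_mul] at hj'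

end Vanish

section Count

variable {G : Type} [Group G] [Finite G] {N : Type} [AddCommGroup N] [Module (ZMod p) N] [Finite N]
  (ρ : Representation (ZMod p) G N)

omit hp [Finite G] [Finite N] in
/-- Intertwiners into permutation modules are invariant functionals. -/
def homGPermEquiv (H : Subgroup G) :
    homG ρ (permRep p G (G ⧸ H)) ≃
      {l : Module.Dual (ZMod p) N // ∀ h ∈ H, ∀ n, l (ρ h n) = l n} where
  toFun f := ⟨(LinearMap.proj (R := ZMod p) (φ := fun _ : G ⧸ H => ZMod p)
      (QuotientGroup.mk (1 : G))).comp f.1, fun h hh n => by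
    show f.1 (ρ h n) (QuotientGroup.mk (1 : G)) = _
    rw [f.2 h n, permRep_apply]
    refine congrArg _ (QuotientGroup.eq.2 ?_)
    simpa using hh⟩
  invFun l := ⟨LinearMap.pi fun c => l.1.comp (ρ c.out⁻¹), fun g n => funext fun c => by
    show l.1 (ρ c.out⁻¹ (ρ g n)) = l.1 (ρ (g⁻¹ • c).out⁻¹ n)
    induction c using QuotientGroup.induction_on with | H a => ?_
    obtain ⟨h, hh⟩ := QuotientGroup.mk_out_eq_mul H a
    obtain ⟨h', hh'⟩ := QuotientGroup.mk_out_eq_mul H (g⁻¹ * a)
    have e : ∀ (h : H) (x : G), l.1 (ρ (x * h)⁻¹ n) = l.1 (ρ x⁻¹ n) := fun h x => by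
      rw [mul_inv_rev, map_mul]
      exact l.2 _ (H.inv_mem h.2) _
    rw [show g⁻¹ • (QuotientGroup.mk a : G ⧸ H) = QuotientGroup.mk (g⁻¹ * a) from rfl, hh', e, hh,
      mul_inv_rev g⁻¹ a, inv_inv]
    show l.1 ((ρ _ * ρ g) n) = _
    rw [← map_mul, mul_inv_rev (a : G), mul_assoc, map_mul]
    exact l.2 _ (H.inv_mem h.2) _⟩
  left_inv f := Subtype.ext (LinearMap.ext fun n => funext fun c => by
    show f.1 (ρ c.out⁻¹ n) (QuotientGroup.mk (1 : G)) = _
    rw [f.2, permRep_apply, inv_inv]
    refine congrArg _ ?_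
    conv_rhs => rw [← QuotientGroup.out_eq' c]
    show QuotientGroup.mk (c.out * 1) = _
    rw [mul_one])
  right_inv l := Subtype.ext (LinearMap.ext fun n => by
    show l.1 (ρ (QuotientGroup.mk (1 : G) : G ⧸ H).out⁻¹ n) = l.1 n
    obtain ⟨h, hh⟩ := QuotientGroup.mk_out_eq_mul H 1
    rw [hh, one_mul]
    exact l.2 _ (H.inv_mem h.2) _)

/-- Intertwiners into free modules. -/
theorem card_homG_freeRep (m : ℕ) :
    Nat.card (homG ρ (Cone.freeRep p G m)) = Nat.card N ^ m := by
  haveI : NeZero p := ⟨hp.out.ne_zero⟩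
  letI : Fintype G := Fintype.ofFinite G
  haveI : Finite (Module.Dual (ZMod p) N) := Finite.of_injective _ DFunLike.coe_injective
  have hdual : Nat.card (Module.Dual (ZMod p) N) = Nat.card N := by
    rw [Module.natCard_eq_pow_finrank (K := ZMod p), Subspace.dual_finrank_eq,
      ← Module.natCard_eq_pow_finrank]
  let e : homG ρ (Cone.freeRep p G m) ≃ (Fin m → Module.Dual (ZMod p) N) :=
    { toFun := fun f i =>
        ((LinearMap.proj (R := ZMod p) (φ := fun _ : G => ZMod p) (1 : G)).comp
          (LinearMap.proj (R := ZMod p) (φ := fun _ : Fin m => G → ZMod p) i)).comp f.1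
      invFun := fun l => ⟨LinearMap.pi fun i => LinearMap.pi fun x => (l i).comp (ρ x⁻¹),
        fun g n => funext fun i => funext fun x => by
          show l i (ρ x⁻¹ (ρ g n)) = l i (ρ (g⁻¹ * x)⁻¹ n)
          rw [mul_inv_rev, inv_inv, map_mul]
          rfl⟩
      left_inv := fun f => Subtype.ext (LinearMap.ext fun n => funext fun i => funext fun x => by
        show f.1 (ρ x⁻¹ n) i 1 = _
        rw [f.2, Cone.freeRep_apply, inv_inv, mul_one])
      right_inv := fun l => funext fun i => LinearMap.ext fun n => by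
        show l i (ρ (1 : G)⁻¹ n) = _
        rw [inv_one, map_one]
        rfl }
  rw [Nat.card_congr e, Nat.card_fun, hdual, Nat.card_fin]

/-- Intertwiners into `Perm(G/⟨c⟩)` are at least as many as the vectors fixed by `c`. -/
theorem card_ker_le_card_homG_perm (c : G) :
    Nat.card (LinearMap.ker (ρ c - LinearMap.id)) ≤
      Nat.card (homG ρ (permRep p G (G ⧸ Subgroup.zpowers c))) := by
  haveI : NeZero p := ⟨hp.out.ne_zero⟩
  rw [Nat.card_congr (homGPermEquiv ρ (Subgroup.zpowers c))]
  set f : N →ₗ[ZMod p] N := ρ c - LinearMap.id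
  haveI : Finite (Module.Dual (ZMod p) N) := Finite.of_injective _ DFunLike.coe_injective
  have hker : Nat.card (LinearMap.ker f) = Nat.card (LinearMap.range f).dualAnnihilator := by
    have e1 := Subspace.finrank_add_finrank_dualAnnihilator_eq (LinearMap.range f)
    have e2 := LinearMap.finrank_range_add_finrank_ker f
    rw [Module.natCard_eq_pow_finrank (K := ZMod p) (V := LinearMap.ker f),
      Module.natCard_eq_pow_finrank (K := ZMod p) (V := (LinearMap.range f).dualAnnihilator)]
    congr 1
    omega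
  rw [hker]
  refine Nat.card_le_card_of_injective (fun l => ⟨l.1, ?_⟩)
    fun a b h => Subtype.ext (congrArg (fun z => z.1) h)
  have hl : ∀ n, l.1 (ρ c n) = l.1 n := fun n => by
    have := (Submodule.mem_dualAnnihilator _).1 l.2 (f n) ⟨n, rfl⟩
    rw [show f n = ρ c n - n from rfl, map_sub, sub_eq_zero] at this
    exact this
  intro h hh
  obtain ⟨i, rfl⟩ : ∃ i : ℕ, c ^ i = h := by
    obtain ⟨z, rfl⟩ := hh
    exact (isOfFinOrder_of_finite c).mem_powers_iff_mem_zpowers.2 ⟨z, rfl⟩
  induction i with
  | zero => intro n; simp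
  | succ i ih =>
    intro n
    rw [pow_succ, map_mul]
    exact (ih (Subgroup.pow_mem _ (Subgroup.mem_zpowers c) i) (ρ c n)).trans (hl n)

end Count

end Fermat.Agent.TW
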