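/-
Consequences of the standing hypotheses on a residual representation which are used for the
choice of auxiliary primes.
-/
import Fermat.Agent.TW.DualDefs
import Fermat.Agent.TW.AdjointBasic
import Fermat.Agent.RepLemmas.Galois
import Fermat.Agent.Datum.Roots
import Fermat.Agent.Galois.QbarInstances
import Mathlib.RingTheory.ZMod.UnitsCyclic
import Mathlib.RingTheory.Polynomial.Cyclotomic.Roots
import Mathlib.FieldTheory.IsAlgClosed.Basic

set_option autoImplicit false

noncomputable section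

open Polynomial
open scoped TensorProduct

namespace Fermat.Agent.TW.Places

local notation "Qb" => AlgebraicClosure ℚ
local notation "Γℚ" => AlgebraicClosure ℚ ≃ₐ[ℚ] AlgebraicClosure ℚ

variable {k : Type} [Field k] {p : ℕ} (ρ : ResidualGaloisRep k)

/-- Irreducibility over the algebraic closure on a subgroup gives that the matrices span. -/
theorem span_image_eq_top (H : Subgroup Γℚ)
    (h : ∀ W : Submodule (AlgebraicClosure k) (ρ.baseChange (AlgebraicClosure k)).V,
      (∀ σ ∈ H, ∀ x ∈ W, (ρ.baseChange (AlgebraicClosure k)).ρ σ x ∈ W) → W = ⊥ ∨ W = ⊤) :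
    Submodule.span k (matRep ρ '' (H : Set Γℚ)) = ⊤ := by
  let K := AlgebraicClosure k
  let b := residualBasis ρ
  let ρH : H →* Module.End K (ρ.baseChange K).V := (ρ.baseChange K).ρ.comp H.subtype
  have hirr : RepLemmas.IsIrred ρH :=
    ⟨Module.nontrivial_of_finrank_eq_succ (ρ.baseChange K).finrank_eq,
      fun W hW => h W fun σ hσ x hx => hW ⟨σ, hσ⟩ x hx⟩
  have h1 := (RepLemmas.span_range_toMatrixHom_eq_top_iff (Algebra.TensorProduct.basis K b) ρH).mpr
    (RepLemmas.span_range_eq_top_of_isIrred hirr)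
  have h2 : ∀ g : H, RepLemmas.toMatrixHom (Algebra.TensorProduct.basis K b) ρH g =
      (matRep ρ g).map (algebraMap k K) :=
    fun g => LinearMap.toMatrix_baseChange K (ρ.ρ g) b b
  rw [Set.image_eq_range]
  refine RepLemmas.span_eq_top_of_map_span_eq_top (algebraMap k K) _ ?_
  rw [show (fun g : (H : Set Γℚ) => (matRep ρ (g : Γℚ)).map (algebraMap k K)) =
    fun g : H => RepLemmas.toMatrixHom (Algebra.TensorProduct.basis K b) ρH g
      from funext fun g => (h2 g).symm]
  exact h1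

theorem span_range_matRep (h : TWHyp p ρ) : Submodule.span k (Set.range (matRep ρ)) = ⊤ := by
  have := span_image_eq_top ρ ⊤ fun W hW =>
    h.absIrr W fun σ x hx => hW σ (Subgroup.mem_top σ) x hx
  rwa [Subgroup.coe_top, Set.image_univ] at this

theorem span_image_index_two (h : TWHyp p ρ) (G : Subgroup Γℚ) (hG : G.index = 2) :
    Submodule.span k (matRep ρ '' (G : Set Γℚ)) = ⊤ :=
  span_image_eq_top ρ G fun W hW => h.index_two (AlgebraicClosure k) G hG W hW

theorem two_ne_zero_of_hyp [Fact p.Prime] [CharP k p] (h : TWHyp p ρ) : (2 : k) ≠ 0 := fun h2 =>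
  h.two_ne (((Nat.prime_dvd_prime_iff_eq (Fact.out : p.Prime) Nat.prime_two).1
    ((CharP.cast_eq_zero_iff k p 2).1 (by exact_mod_cast h2))))

theorem exists_add_mul_eq (h : TWHyp p ρ) (σ : Γℚ) :
    ∃ a b : k, a + b = (matRep ρ σ).trace ∧ a * b = (matRep ρ σ).det := by
  obtain ⟨α, β, hαβ⟩ := h.split σ
  rw [← charpoly_matRep, Matrix.charpoly_fin_two] at hαβ
  have h1 := congr_arg (fun P => Polynomial.eval 1 P) hαβ
  have h0 := congr_arg (fun P => Polynomial.eval 0 P) hαβ
  simp only [eval_add, eval_sub, eval_mul, eval_pow, eval_X, eval_C] at h1 h0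
  exact ⟨α, β, by linear_combination h1 - h0, by linear_combination (-1 : k) * h0⟩

theorem det_matRep_eq_cast [Fact p.Prime] [CharP k p] (h : TWHyp p ρ) (σ : Γℚ) (a : ℕ)
    (ha : ∀ μ : Qb, μ ^ p = 1 → σ μ = μ ^ a) : (matRep ρ σ).det = (a : k) := by
  have := h.det.2 1 σ a (by simpa using ha)
  rw [pow_one, CharP.cast_eq_zero k p, Ideal.span_singleton_eq_bot.2 rfl, Ideal.mem_bot,
    sub_eq_zero] at this
  rw [det_matRep]
  exact this

/-- The determinant of the residual representation as a character. -/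
def detChar : Γℚ →* k := (Matrix.detMonoidHom).comp (matRep ρ)

theorem detChar_apply (σ : Γℚ) : detChar ρ σ = (matRep ρ σ).det := rfl

theorem det_eq_one_of_fixes_roots [Fact p.Prime] [CharP k p] (h : TWHyp p ρ) {σ : Γℚ}
    (hσ : ∀ μ : Qb, μ ^ p = 1 → σ μ = μ) : (matRep ρ σ).det = 1 := by
  simpa using det_matRep_eq_cast ρ h σ 1 (by simpa using hσ)

theorem exists_det_sq_ne_one [Fact p.Prime] [CharP k p] (h : TWHyp p ρ) (hp5 : p = 5) :
    ∃ g, detChar ρ g ^ 2 ≠ 1 := by
  subst hp5
  obtain ⟨ζ, hζ⟩ := HasEnoughRootsOfUnity.exists_primitiveRoot Qb 5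
  have hζ2 : IsPrimitiveRoot (ζ ^ 2) 5 := hζ.pow_of_coprime 2 (by norm_num)
  have hroot : Polynomial.aeval (ζ ^ 2) (minpoly ℚ ζ) = 0 := by
    rw [← cyclotomic_eq_minpoly_rat hζ (by norm_num), cyclotomic_eq_minpoly_rat hζ2 (by norm_num)]
    exact minpoly.aeval _ _
  obtain ⟨g, hg⟩ := minpoly.exists_algEquiv_of_root' (K := ℚ) (L := Qb) (x := ζ ^ 2) (y := ζ)
    (Algebra.IsAlgebraic.isAlgebraic ζ) hroot
  refine ⟨g, ?_⟩
  have hdet : (matRep ρ g).det = ((2 : ℕ) : k) := det_matRep_eq_cast ρ h g 2 fun μ hμ => by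
    obtain ⟨i, -, rfl⟩ := hζ.eq_pow_of_pow_eq_one hμ
    rw [map_pow, hg, ← pow_mul, ← pow_mul, mul_comm]
  rw [detChar_apply, hdet]
  intro h4
  have : ((3 : ℕ) : k) = 0 := by push_cast at h4 ⊢; linear_combination h4
  rw [CharP.cast_eq_zero_iff k 5] at this
  norm_num at this

end Fermat.Agent.TW.Places
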