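/-
The trace-zero adjoint as a finite module over the group of the level of the representation.
-/
import Fermat.Agent.TW.LowerLevel
import Fermat.Agent.TW.LowerPerm
import Fermat.Agent.TW.LowerIdeles
import Fermat.Agent.TW.LowerAlgebra
import Fermat.Agent.TW.PrimesRep
import Fermat.Agent.TW.AdjointIrreducible
import Mathlib.LinearAlgebra.Dual.Lemmas

set_option autoImplicit false

noncomputable section

namespace Fermat.Agent.TW

open PoitouTate RepAlgebra

/-- Trace zero matrices, as a module over `ZMod p`. -/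
def AdN (_p : ℕ) (k : Type) [Field k] : Type := ↥(trZero k)

variable {p : ℕ} {k : Type} [Field k]

instance : AddCommGroup (AdN p k) := inferInstanceAs (AddCommGroup ↥(trZero k))

instance [Finite k] : Finite (AdN p k) := inferInstanceAs (Finite ↥(trZero k))

namespace AdN

/-- The matrix. -/
def mat : AdN p k →+ Matrix (Fin 2) (Fin 2) k := (trZero k).subtype.toAddMonoidHom

/-- A trace zero matrix as an element. -/
def mk (M : Matrix (Fin 2) (Fin 2) k) (h : M.trace = 0) : AdN p k := ⟨M, h⟩

@[simp] theorem mat_mk (M : Matrix (Fin 2) (Fin 2) k) (h : M.trace = 0) :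
    mat (mk (p := p) M h) = M := rfl

theorem mat_injective : Function.Injective (mat : AdN p k →+ _) := Subtype.val_injective

theorem trace_mat (n : AdN p k) : (mat n).trace = 0 := n.2

theorem card_eq [Finite k] : Nat.card (AdN p k) = Nat.card k ^ 3 := by
  show Nat.card ↥(trZero k) = _
  rw [Module.natCard_eq_pow_finrank (K := k)]
  congr 1
  have e : trZero k = traceFree k := by
    ext X
    rw [mem_traceFree]
    rfl
  rw [e, finrank_traceFree]

theorem nsmul_eq_zero [CharP k p] (n : AdN p k) : p • n = 0 := mat_injective (by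
  ext i j
  rw [map_nsmul, Matrix.smul_apply, nsmul_eq_mul, CharP.cast_eq_zero, zero_mul, map_zero,
    Matrix.zero_apply])

instance [CharP k p] : Module (ZMod p) (AdN p k) := AddCommGroup.zmodModule nsmul_eq_zero

/-- Conjugation by a representation. -/
def conjHom {G : Type} [Group G] (r : G →* Matrix (Fin 2) (Fin 2) k) (g : G) :
    AdN p k →+ AdN p k :=
  AddMonoidHom.mk' (fun n => mk (adConj r g (mat n)) (by
      rw [adConj_apply, trace_conj, trace_mat]))
    fun a b => mat_injective (by
      show adConj r g (mat (a + b)) = adConj r g (mat a) + adConj r g (mat b)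
      rw [map_add, map_add])

@[simp] theorem mat_conjHom {G : Type} [Group G] (r : G →* Matrix (Fin 2) (Fin 2) k) (g : G)
    (n : AdN p k) : mat (conjHom r g n) = r g * mat n * r g⁻¹ := rfl

end AdN

variable [Fact p.Prime] [CharP k p] (ρ : ResidualGaloisRep k)

/-- The adjoint action of the absolute Galois group. -/
def adjHom : GQ →* Module.End (ZMod p) (AdN p k) where
  toFun σ := (AdN.conjHom (matRep ρ) σ).toZModLinearMap p
  map_one' := LinearMap.ext fun n => AdN.mat_injective (by
    show matRep ρ 1 * AdN.mat n * matRep ρ 1⁻¹ = AdN.mat n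
    rw [inv_one, map_one, one_mul, mul_one])
  map_mul' σ τ := LinearMap.ext fun n => AdN.mat_injective (by
    show matRep ρ (σ * τ) * AdN.mat n * matRep ρ (σ * τ)⁻¹ =
      matRep ρ σ * (matRep ρ τ * AdN.mat n * matRep ρ τ⁻¹) * matRep ρ σ⁻¹
    rw [mul_inv_rev, map_mul, map_mul]
    simp only [mul_assoc])

/-- The adjoint action of the Galois group of the level. -/
def adjRep : Representation (ZMod p) (GQ ⧸ (repLevel ρ).fixingSubgroup) (AdN p k) :=
  QuotientGroup.lift (repLevel ρ).fixingSubgroup (adjHom (p := p) ρ) fun s hs => by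
    refine LinearMap.ext fun n => AdN.mat_injective ?_
    show matRep ρ s * AdN.mat n * matRep ρ s⁻¹ = AdN.mat n
    rw [(mem_fixingSubgroup_repLevel ρ).1 hs,
      (mem_fixingSubgroup_repLevel ρ).1 (inv_mem hs), one_mul, mul_one]

@[simp] theorem mat_adjRep (σ : GQ) (n : AdN p k) :
    AdN.mat (adjRep (p := p) ρ (QuotientGroup.mk σ) n) =
      matRep ρ σ * AdN.mat n * matRep ρ σ⁻¹ := rfl

/-- No invariants. -/
theorem adjRep_fixed_eq_zero (h : TWHyp p ρ) (n : AdN p k)
    (hn : ∀ g, adjRep (p := p) ρ g n = n) : n = 0 := by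
  refine AdN.mat_injective ?_
  rw [map_zero]
  refine eq_zero_of_forall_conj_mem_line (r := matRep ρ) (Places.two_ne_zero_of_hyp ρ h)
    (Places.span_range_matRep ρ h) (Places.span_image_index_two ρ h) _ (AdN.trace_mat n)
    fun σ => ⟨1, ?_⟩
  rw [← mat_adjRep, hn, one_smul]

theorem twD_injective (h : TWHyp p ρ) (M : Matrix (Fin 2) (Fin 2) k) (hM : M.trace = 0)
    (h0 : twD (matRep ρ) M = 0) : M = 0 := by
  refine eq_zero_of_forall_conj_mem_line (r := matRep ρ) (Places.two_ne_zero_of_hyp ρ h)
    (Places.span_range_matRep ρ h) (Places.span_image_index_two ρ h) _ hM fun σ => ?_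
  have e := congrFun h0 σ
  rw [twD_apply, Pi.zero_apply, sub_eq_zero, twConj_apply] at e
  have hdet : (matRep ρ σ).det ≠ 0 := fun hd => by
    have := congrArg Matrix.det (rep_mul_inv (r := matRep ρ) σ)
    rw [Matrix.det_mul, hd, zero_mul, Matrix.det_one] at this
    exact zero_ne_one this
  refine ⟨(matRep ρ σ).det⁻¹, ?_⟩
  conv_rhs => rw [← e, smul_smul, inv_mul_cancel₀ hdet, one_smul]

/-- An involution fixes at least a line. -/
theorem card_le_card_ker_of_involution [Finite k] (h : TWHyp p ρ) {c : GQ} (hc : c * c = 1) :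
    Nat.card k ≤ Nat.card (LinearMap.ker
      (adjRep (p := p) ρ (QuotientGroup.mk c) - LinearMap.id)) := by
  set A := matRep ρ c with hA
  have hinv : c⁻¹ = c := inv_eq_of_mul_eq_one_right hc
  have hA2 : A * A = 1 := by rw [hA, ← map_mul, hc, map_one]
  obtain ⟨M₀, hM₀, hM₀0, hfix⟩ : ∃ M : Matrix (Fin 2) (Fin 2) k,
      M.trace = 0 ∧ M ≠ 0 ∧ A * M * A = M := by
    by_cases ht : A.trace = 0
    · refine ⟨A, ht, fun h0 => ?_, by rw [hA2, one_mul]⟩
      rw [h0, mul_zero] at hA2
      exact zero_ne_one hA2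
    · refine ⟨!![1, 0; 0, -1], by simp [Matrix.trace_fin_two], fun h0 => ?_, ?_⟩
      · exact one_ne_zero (congrFun (congrFun h0 0) 0)
      · have e := sq_eq_fin_two A
        rw [hA2] at e
        have hsc : A = (A.trace⁻¹ * (1 + A.det)) • (1 : Matrix (Fin 2) (Fin 2) k) := by
          rw [mul_smul, add_smul, one_smul]
          conv_rhs => arg 2; arg 1; rw [e]
          rw [sub_add_cancel, smul_smul, inv_mul_cancel₀ ht, one_smul]
        rw [hsc] at hA2 ⊢
        simp only [smul_mul_assoc, one_mul, mul_one, mul_smul_comm, smul_smul] at hA2 ⊢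
        have e2 := congrFun (congrFun hA2 0) 0
        simp only [Matrix.smul_apply, Matrix.one_apply_eq, smul_eq_mul, mul_one] at e2
        rw [e2, one_smul]
  let f : k → LinearMap.ker (adjRep (p := p) ρ (QuotientGroup.mk c) - LinearMap.id) := fun a =>
    ⟨AdN.mk (a • M₀) (by rw [Matrix.trace_smul, hM₀, smul_zero]), by
      rw [LinearMap.mem_ker, LinearMap.sub_apply, LinearMap.id_apply, sub_eq_zero]
      refine AdN.mat_injective ?_
      rw [mat_adjRep, AdN.mat_mk, hinv, ← hA, mul_smul_comm, smul_mul_assoc, hfix]⟩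
  refine Nat.card_le_card_of_injective f fun a b hab => ?_
  have := congrArg AdN.mat (congrArg Subtype.val hab)
  simp only [f, AdN.mat_mk] at this
  by_contra hne
  exact hM₀0 ((smul_eq_zero.1 (show (a - b) • M₀ = 0 by rw [sub_smul, this, sub_self])).resolve_left
    (sub_ne_zero.2 hne))

/-- The vectors fixed by a decomposition group. -/
theorem card_fixedBy_emb [Finite k] (S : Setting) (v : ↥S.T)
    (ρS : Representation (ZMod p) S.G (AdN p k))
    (hρS : ∀ (σ : GQ) n, AdN.mat (ρS (QuotientGroup.mk σ) n) =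
      matRep ρ σ * AdN.mat n * matRep ρ σ⁻¹) :
    Nat.card (fixedBy ρS (S.emb v)) = Nat.card k ^ locInvDim ρ (v.1 : ℕ) := by
  rw [locInvDim_eq, ← Module.natCard_eq_pow_finrank]
  have hiff : ∀ (M : Matrix (Fin 2) (Fin 2) k) (σ : GQ),
      matRep ρ σ * M * matRep ρ σ⁻¹ = M ↔ matRep ρ σ * M = M * matRep ρ σ := fun M σ => by
    constructor
    · intro h
      conv_rhs => rw [← h, mul_assoc, rep_inv_mul, mul_one]
    · intro h
      rw [h, mul_assoc, rep_mul_inv, mul_one]
  refine Nat.card_congr
    { toFun := fun n => ⟨AdN.mat n.1, AdN.trace_mat n.1, fun τ => ?_⟩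
      invFun := fun M => ⟨AdN.mk M.1 M.2.1, (mem_fixedBy ρS).2 fun d => ?_⟩
      left_inv := fun n => rfl
      right_inv := fun M => rfl }
  · refine (hiff _ (loc v.1 τ)).1 ?_
    rw [← hρS]
    exact congrArg AdN.mat ((mem_fixedBy ρS).1 n.2 (QuotientGroup.mk τ))
  · induction d using QuotientGroup.induction_on with | H τ => ?_
    refine AdN.mat_injective ?_
    rw [Setting.emb_mk, hρS, AdN.mat_mk]
    exact (hiff _ _).2 (M.2.2 τ)

section Pairing

/-- `n ↦ l (trace (M n))`. -/
def tracePairing (l : k →+ ZMod p) : AdN p k →+ (AdN p k →+ ZMod p) :=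
  AddMonoidHom.mk' (fun M => AddMonoidHom.mk' (fun n => l (AdN.mat M * AdN.mat n).trace)
      fun a b => by rw [map_add, mul_add, Matrix.trace_add, map_add])
    fun M M' => AddMonoidHom.ext fun n => by
      show l (AdN.mat (M + M') * AdN.mat n).trace =
        l (AdN.mat M * AdN.mat n).trace + l (AdN.mat M' * AdN.mat n).trace
      rw [map_add, add_mul, Matrix.trace_add, map_add]

@[simp] theorem tracePairing_apply (l : k →+ ZMod p) (M n : AdN p k) :
    tracePairing l M n = l (AdN.mat M * AdN.mat n).trace := rfl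

theorem exists_addHom_ne_zero (p : ℕ) [Fact p.Prime] (k : Type) [Field k] [CharP k p] :
    ∃ l : k →+ ZMod p, l 1 ≠ 0 := by
  letI : Algebra (ZMod p) k := ZMod.algebra k p
  by_contra hcon
  push Not at hcon
  exact one_ne_zero ((Module.forall_dual_apply_eq_zero_iff (ZMod p) (1 : k)).1
    fun φ => hcon φ.toAddMonoidHom)

theorem tracePairing_bijective [Finite k] (h2 : (2 : k) ≠ 0) {l : k →+ ZMod p} (hl : l 1 ≠ 0) :
    Function.Bijective (tracePairing l : AdN p k →+ _) := by
  haveI : NeZero p := ⟨(Fact.out : p.Prime).ne_zero⟩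
  have hinj : Function.Injective (tracePairing l : AdN p k →+ _) := by
    rw [injective_iff_map_eq_zero]
    intro M hM
    have ht : ∀ n : AdN p k, (AdN.mat M * AdN.mat n).trace = 0 := fun n => by
      by_contra hne
      refine hl ?_
      have := DFunLike.congr_fun hM (AdN.mk ((AdN.mat M * AdN.mat n).trace⁻¹ • AdN.mat n)
        (by rw [Matrix.trace_smul, AdN.trace_mat, smul_zero]))
      rwa [tracePairing_apply, AdN.mat_mk, mul_smul_comm, Matrix.trace_smul, smul_eq_mul,
        inv_mul_cancel₀ hne, AddMonoidHom.zero_apply] at this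
    have h0 : (⟨AdN.mat M, mem_traceFree.2 (AdN.trace_mat M)⟩ : traceFree k) = 0 :=
      traceForm_injective h2 (by
        rw [map_zero]
        exact LinearMap.ext fun Y => ht (AdN.mk Y.1 (mem_traceFree.1 Y.2)))
    exact AdN.mat_injective (congrArg Subtype.val h0)
  haveI : Finite (AdN p k →+ ZMod p) := Finite.of_injective _ DFunLike.coe_injective
  have hcard : Nat.card (AdN p k →+ ZMod p) = Nat.card (AdN p k) := by
    let e : (AdN p k →+ ZMod p) ≃ Module.Dual (ZMod p) (AdN p k) :=
      { toFun := fun f => f.toZModLinearMap p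
        invFun := fun f => f.toAddMonoidHom
        left_inv := fun f => AddMonoidHom.ext fun _ => rfl
        right_inv := fun f => LinearMap.ext fun _ => rfl }
    rw [Nat.card_congr e, Module.natCard_eq_pow_finrank (K := ZMod p) (V := Module.Dual (ZMod p) (AdN p k)),
      Subspace.dual_finrank_eq, ← Module.natCard_eq_pow_finrank]
  exact hinj.bijective_of_nat_card_le hcard.le

end Pairing

end Fermat.Agent.TW
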