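/-
A cocycle with values in the adjoint of an absolutely irreducible representation whose
associated infinitesimal deformation has constant traces is a coboundary.
-/
import Fermat.Agent.TW.AdjointBasic

set_option autoImplicit false

namespace Fermat.Agent.TW

open Matrix

local notation "M₂" k => Matrix (Fin 2) (Fin 2) k

variable {k : Type*} [Field k] {Γ : Type*} [Group Γ] (r : Γ →* M₂ k)

theorem cocycle_one {c : Γ → M₂ k} (hc : ∀ g h, c (g * h) = c g + r g * c h * r g⁻¹) :
    c 1 = 0 := by
  simpa using hc 1 1

theorem cocycle_inv {c : Γ → M₂ k} (hc : ∀ g h, c (g * h) = c g + r g * c h * r g⁻¹) (g : Γ) :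
    c g⁻¹ = -(r g⁻¹ * c g * r g) := by
  have h := hc g⁻¹ g
  rw [inv_mul_cancel, cocycle_one r hc, inv_inv] at h
  exact eq_neg_of_add_eq_zero_left h.symm

/-- The trace trick. -/
theorem exists_coboundary_of_trace_mul_eq_zero (h2 : (2 : k) ≠ 0)
    (hspan : Submodule.span k (Set.range r) = ⊤) (c : Γ → M₂ k)
    (hc : ∀ g h, c (g * h) = c g + r g * c h * r g⁻¹) (htr : ∀ g, (c g * r g).trace = 0) :
    ∃ m : M₂ k, m.trace = 0 ∧ ∀ g, c g = r g * m * r g⁻¹ - m := by
  classical
  let Φ : (Γ →₀ k) →ₗ[k] M₂ k := Finsupp.linearCombination k r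
  let Ψ : (Γ →₀ k) →ₗ[k] M₂ k := Finsupp.linearCombination k (fun g => c g * r g)
  have hΦ : Function.Surjective Φ := by
    rw [← LinearMap.range_eq_top, Finsupp.range_linearCombination, hspan]
  have htr2 : ∀ a h, (Ψ a * r h).trace = -(Φ a * (c h * r h)).trace := fun a h => by
    induction a using Finsupp.induction_linear with
    | zero => simp
    | add a b ha hb => simp [add_mul, ha, hb, add_comm]
    | single g t =>
      have e := htr (g * h)
      rw [hc, map_mul, add_mul, Matrix.trace_add] at e
      rw [show (r g * c h * r g⁻¹) * (r g * r h) = r g * (c h * r h) by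
        simp only [mul_assoc, rep_inv_mul_cancel_left]] at e
      simp only [Φ, Ψ, Finsupp.linearCombination_single, smul_mul_assoc, Matrix.trace_smul,
        smul_eq_mul]
      rw [mul_assoc (c g) (r g) (r h)]
      linear_combination t * e
  have hker : LinearMap.ker Φ ≤ LinearMap.ker Ψ := fun a ha => by
    rw [LinearMap.mem_ker] at ha ⊢
    refine eq_zero_of_forall_trace_mul_eq_zero _ fun Y => ?_
    have hY : Y ∈ Submodule.span k (Set.range r) := hspan ▸ Submodule.mem_top
    induction hY using Submodule.span_induction with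
    | mem Z hZ => obtain ⟨h, rfl⟩ := hZ; rw [htr2, ha, zero_mul, Matrix.trace_zero, neg_zero]
    | zero => simp
    | add Y Z _ _ hy hz => rw [mul_add, Matrix.trace_add, hy, hz, add_zero]
    | smul a Y _ hy => rw [mul_smul_comm, Matrix.trace_smul, hy, smul_zero]
  let L : (M₂ k) →ₗ[k] M₂ k :=
    (Submodule.liftQ (LinearMap.ker Φ) Ψ hker).comp
      (LinearMap.quotKerEquivOfSurjective Φ hΦ).symm.toLinearMap
  have hL : ∀ g, L (r g) = c g * r g := fun g => by
    have : (LinearMap.quotKerEquivOfSurjective Φ hΦ).symm (r g)
        = Submodule.Quotient.mk (Finsupp.single g 1) := by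
      rw [LinearEquiv.symm_apply_eq]
      simp [Φ]
    show Submodule.liftQ (LinearMap.ker Φ) Ψ hker
      ((LinearMap.quotKerEquivOfSurjective Φ hΦ).symm (r g)) = _
    rw [this]
    simp [Ψ]
  have hmul : ∀ Y X, L (Y * X) = L Y * X + Y * L X := fun Y X => by
    have hY : Y ∈ Submodule.span k (Set.range r) := hspan ▸ Submodule.mem_top
    induction hY using Submodule.span_induction with
    | mem Z hZ =>
      obtain ⟨g, rfl⟩ := hZ
      have hX : X ∈ Submodule.span k (Set.range r) := hspan ▸ Submodule.mem_top
      induction hX using Submodule.span_induction with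
      | mem W hW =>
        obtain ⟨h, rfl⟩ := hW
        rw [← map_mul, hL, hL, hL, hc, add_mul, map_mul]
        simp only [mul_assoc, rep_inv_mul_cancel_left]
      | zero => simp
      | add X Z _ _ hy hz => simp only [mul_add, map_add, hy, hz]; abel
      | smul a X _ hy => simp only [mul_smul_comm, map_smul, hy, smul_add]
    | zero => simp
    | add Y Z _ _ hy hz => simp only [add_mul, map_add, hy, hz]; abel
    | smul a Y _ hy => simp only [smul_mul_assoc, map_smul, hy, smul_add]
  let n : M₂ k := L (single 0 0 1) * single 0 0 1 + L (single 1 0 1) * single 0 1 1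
  have hone : single 0 0 1 + single 1 1 1 = (1 : M₂ k) := by
    ext i j; fin_cases i <;> fin_cases j <;> simp [Matrix.single]
  have hin : ∀ X, L X = n * X - X * n := fun X => by
    have e1 : X * single 0 0 1 = X 0 0 • single 0 0 1 + X 1 0 • single 1 0 1 := by
      ext i j; fin_cases i <;> fin_cases j <;>
        simp [Matrix.mul_apply, Fin.sum_univ_two, Matrix.single]
    have e2 : X * single 1 0 1 = X 0 1 • single 0 0 1 + X 1 1 • single 1 0 1 := by
      ext i j; fin_cases i <;> fin_cases j <;>
        simp [Matrix.mul_apply, Fin.sum_univ_two, Matrix.single]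
    have f1 : (single 0 0 1 : M₂ k) * X = X 0 0 • single 0 0 1 + X 0 1 • single 0 1 1 := by
      ext i j; fin_cases i <;> fin_cases j <;>
        simp [Matrix.mul_apply, Fin.sum_univ_two, Matrix.single]
    have f2 : (single 0 1 1 : M₂ k) * X = X 1 0 • single 0 0 1 + X 1 1 • single 0 1 1 := by
      ext i j; fin_cases i <;> fin_cases j <;>
        simp [Matrix.mul_apply, Fin.sum_univ_two, Matrix.single]
    have g1 : (single 0 0 1 : M₂ k) * single 0 0 1 = single 0 0 1 := by
      ext i j; fin_cases i <;> fin_cases j <;>
        simp [Matrix.mul_apply, Fin.sum_univ_two, Matrix.single]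
    have g2 : (single 1 0 1 : M₂ k) * single 0 1 1 = single 1 1 1 := by
      ext i j; fin_cases i <;> fin_cases j <;>
        simp [Matrix.mul_apply, Fin.sum_univ_two, Matrix.single]
    have k1 : L (X * single 0 0 1) * single 0 0 1 + L (X * single 1 0 1) * single 0 1 1 = n * X := by
      rw [e1, e2, map_add, map_add, map_smul, map_smul, map_smul, map_smul]
      simp only [n, add_mul, mul_assoc, f1, f2, mul_add, smul_mul_assoc, mul_smul_comm]
      abel
    have k2 : L (X * single 0 0 1) * single 0 0 1 + L (X * single 1 0 1) * single 0 1 1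
        = L X + X * n := by
      rw [hmul, hmul]
      simp only [add_mul, mul_assoc, g1, g2, n, mul_add]
      calc _ = L X * (single 0 0 1 + single 1 1 1) + (X * (L (single 0 0 1) * single 0 0 1)
            + X * (L (single 1 0 1) * single 0 1 1)) := by rw [mul_add]; abel
        _ = _ := by rw [hone, mul_one]
    rw [k1] at k2
    rw [k2, add_sub_cancel_right]
  refine ⟨-n + (n.trace / 2) • 1, by simp [Matrix.trace_fin_two]; field_simp; ring, fun g => ?_⟩
  have e := hin (r g)
  rw [hL] at e
  calc c g = (c g * r g) * r g⁻¹ := by rw [mul_assoc, rep_mul_inv, mul_one]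
    _ = n - r g * n * r g⁻¹ := by rw [e, sub_mul, mul_assoc n, rep_mul_inv, mul_one]
    _ = _ := by
      simp only [mul_add, add_mul, mul_neg, neg_mul, mul_smul_comm, smul_mul_assoc, mul_one,
        rep_mul_inv]
      abel

end Fermat.Agent.TW
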