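/-
Pairs of unipotent elements in a two dimensional representation; existence of elements with
distinct eigenvalues in a normal subgroup with cyclic quotient.
-/
import Fermat.Agent.TW.AdjointIrreducible

set_option autoImplicit false

namespace Fermat.Agent.TW

open Matrix

local notation "M₂" k => Matrix (Fin 2) (Fin 2) k

variable {k : Type*} [Field k] {Γ : Type*} [Group Γ] (r : Γ →* M₂ k)

/-- `nilPart r u = r u - 1`, used for `u` unipotent. -/
def nilPart (u : Γ) : M₂ k := r u - 1

theorem trace_nilPart {u : Γ} (ht : (r u).trace = 2) : (nilPart r u).trace = 0 := by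
  rw [nilPart, Matrix.trace_sub, ht, Matrix.trace_one]; simp

theorem det_nilPart {u : Γ} (hd : (r u).det = 1) (ht : (r u).trace = 2) :
    (nilPart r u).det = 0 := by
  rw [Matrix.det_fin_two] at hd
  rw [Matrix.trace_fin_two] at ht
  rw [nilPart, Matrix.det_fin_two]
  simp
  linear_combination hd - ht

theorem nilPart_sq {u : Γ} (hd : (r u).det = 1) (ht : (r u).trace = 2) :
    nilPart r u * nilPart r u = 0 := by
  rw [sq_eq_fin_two, trace_nilPart r ht, det_nilPart r hd ht]
  simp

theorem rep_pow_of_unipotent {v : Γ} (hd : (r v).det = 1) (ht : (r v).trace = 2) (i : ℕ) :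
    r (v ^ i) = 1 + (i : k) • nilPart r v := by
  induction i with
  | zero => simp
  | succ i ih =>
    rw [pow_succ, map_mul, ih, show r v = 1 + nilPart r v by simp [nilPart], add_mul, mul_add,
      one_mul, smul_mul_assoc, mul_add, mul_one, nilPart_sq r hd ht, add_zero, Nat.cast_succ,
      add_smul, one_smul, one_mul]
    abel

/-- The trace of the product of the nilpotent parts. -/
def pairing₂ (u v : Γ) : k := (nilPart r u * nilPart r v).trace

theorem trace_mul_pow {u v : Γ} (htu : (r u).trace = 2) (hdv : (r v).det = 1)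
    (htv : (r v).trace = 2) (i : ℕ) :
    (r (u * v ^ i)).trace = 2 + (i : k) * pairing₂ r u v := by
  rw [map_mul, rep_pow_of_unipotent r hdv htv, show r u = 1 + nilPart r u by simp [nilPart],
    add_mul, mul_add, mul_add, one_mul, one_mul, mul_one, mul_smul_comm]
  simp [trace_nilPart r htu, trace_nilPart r htv, pairing₂, Matrix.trace_one]

theorem nilPart_conj (g u : Γ) : nilPart r (g * u * g⁻¹) = r g * nilPart r u * r g⁻¹ := by
  rw [nilPart, nilPart, map_mul, map_mul, mul_sub, sub_mul, mul_one, rep_mul_inv]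

theorem det_conj (g : Γ) (X : M₂ k) : (r g * X * r g⁻¹).det = X.det := by
  have h : (r g).det * (r g⁻¹).det = 1 := by rw [← Matrix.det_mul, rep_mul_inv, Matrix.det_one]
  rw [Matrix.det_mul, Matrix.det_mul]
  linear_combination X.det * h

/-- For every nontrivial unipotent element some conjugate is not in the same unipotent group. -/
theorem exists_pairing₂_conj_ne_zero (h2 : (2 : k) ≠ 0)
    (hspan : Submodule.span k (Set.range r) = ⊤)
    (hTW : ∀ G : Subgroup Γ, G.index = 2 → Submodule.span k (r '' (G : Set Γ)) = ⊤)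
    {u : Γ} (hd : (r u).det = 1) (ht : (r u).trace = 2) (hN : nilPart r u ≠ 0) :
    ∃ g, pairing₂ r u (g * u * g⁻¹) ≠ 0 := by
  by_contra h
  push Not at h
  refine hN (eq_zero_of_forall_conj_mem_line r h2 hspan hTW _ (trace_nilPart r ht) fun g => ?_)
  refine exists_smul_of_trace_mul_eq_zero hN (trace_nilPart r ht) (det_nilPart r hd ht) ?_ ?_ ?_
  · rw [trace_conj, trace_nilPart r ht]
  · rw [det_conj, det_nilPart r hd ht]
  · rw [← nilPart_conj]; exact h g

theorem rep_normal_conj_mem_span (K : Subgroup Γ) [K.Normal] (g : Γ) {X : M₂ k}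
    (hX : X ∈ Submodule.span k (r '' (K : Set Γ))) :
    r g * X * r g⁻¹ ∈ Submodule.span k (r '' (K : Set Γ)) := by
  induction hX using Submodule.span_induction with
  | mem Z hZ =>
    obtain ⟨κ, hκ, rfl⟩ := hZ
    exact Submodule.subset_span
      ⟨g * κ * g⁻¹, Subgroup.Normal.conj_mem inferInstance κ hκ g, by rw [map_mul, map_mul]⟩
  | zero => simp
  | add Y Z _ _ hy hz => rw [mul_add, add_mul]; exact add_mem hy hz
  | smul a Y _ hy => rw [mul_smul_comm, smul_mul_assoc]; exact Submodule.smul_mem _ _ hy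

theorem exists_scalar_of_trace_part_eq_zero {X : M₂ k} (h : X - (X.trace / 2) • 1 = 0) :
    ∃ a : k, X = a • 1 :=
  ⟨_, sub_eq_zero.1 h⟩

/-- A normal subgroup with cyclic quotient still spans all matrices. -/
theorem span_normal_eq_top (h2 : (2 : k) ≠ 0)
    (hspan : Submodule.span k (Set.range r) = ⊤)
    (hTW : ∀ G : Subgroup Γ, G.index = 2 → Submodule.span k (r '' (G : Set Γ)) = ⊤)
    (K : Subgroup Γ) [K.Normal] (hcyc : ∃ x : Γ, ∀ g, ∃ i : ℤ, ∃ κ ∈ K, g = x ^ i * κ) :
    Submodule.span k (r '' (K : Set Γ)) = ⊤ := by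
  set A := Submodule.span k (r '' (K : Set Γ)) with hA
  have h1 : (1 : M₂ k) ∈ A := Submodule.subset_span ⟨1, K.one_mem, map_one r⟩
  have hdec : ∀ X ∈ A, X - (X.trace / 2) • (1 : M₂ k) ∈ A ⊓ traceFree k := fun X hX =>
    ⟨sub_mem hX (A.smul_mem _ h1), mem_traceFree.2 (by
      simp [Matrix.trace_fin_two]; field_simp; ring)⟩
  by_cases hU : A ⊓ traceFree k = ⊥
  · exfalso
    have hsc : ∀ κ ∈ K, ∃ a : k, r κ = a • 1 := fun κ hκ => by
      refine exists_scalar_of_trace_part_eq_zero ?_
      have := hdec (r κ) (Submodule.subset_span ⟨κ, hκ, rfl⟩)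
      rwa [hU, Submodule.mem_bot] at this
    obtain ⟨x, hx⟩ := hcyc
    have hc : ∀ g g', r g * r g' = r g' * r g := fun g g' => by
      obtain ⟨i, κ, hκ, rfl⟩ := hx g
      obtain ⟨j, κ', hκ', rfl⟩ := hx g'
      obtain ⟨a, ha⟩ := hsc κ hκ
      obtain ⟨b, hb⟩ := hsc κ' hκ'
      simp only [map_mul, ha, hb, mul_smul_comm, mul_one, smul_mul_assoc, one_mul, smul_smul]
      rw [← map_mul, ← map_mul, ← _root_.zpow_add, ← _root_.zpow_add, add_comm i j, mul_comm a b]
    have key : ∀ X Y : M₂ k, X * Y = Y * X := fun X Y => by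
      have hX : X ∈ Submodule.span k (Set.range r) := hspan ▸ Submodule.mem_top
      induction hX using Submodule.span_induction with
      | mem Z hZ =>
        obtain ⟨g, rfl⟩ := hZ
        have hY : Y ∈ Submodule.span k (Set.range r) := hspan ▸ Submodule.mem_top
        induction hY using Submodule.span_induction with
        | mem W hW => obtain ⟨g', rfl⟩ := hW; exact hc g g'
        | zero => simp
        | add A' B' _ _ ha hb => rw [mul_add, add_mul, ha, hb]
        | smul a A' _ ha => rw [mul_smul_comm, smul_mul_assoc, ha]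
      | zero => simp
      | add A' B' _ _ ha hb => rw [mul_add, add_mul, ha, hb]
      | smul a A' _ ha => rw [mul_smul_comm, smul_mul_assoc, ha]
    have := congr_fun (congr_fun (key (Matrix.single 0 1 1) (Matrix.single 1 0 1)) 0) 0
    simp [Matrix.mul_apply, Fin.sum_univ_two, Matrix.single] at this
  · have hall : A ⊓ traceFree k = traceFree k := by
      refine eq_traceFree_of_conj_stable r h2 hspan hTW _ inf_le_right (fun g X hX => ⟨?_, ?_⟩) hU
      · exact rep_normal_conj_mem_span r K g hX.1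
      · rw [SetLike.mem_coe, mem_traceFree, trace_conj, mem_traceFree.1 hX.2]
    rw [eq_top_iff]
    intro X _
    have hX : X - (X.trace / 2) • (1 : M₂ k) ∈ traceFree k := mem_traceFree.2 (by
      simp [Matrix.trace_fin_two]; field_simp; ring)
    rw [← hall] at hX
    simpa using add_mem hX.1 (A.smul_mem (X.trace / 2) h1)

/-- In a normal subgroup of determinant one with cyclic quotient there is an element with two
distinct eigenvalues. -/
theorem exists_trace_ne (h2 : (2 : k) ≠ 0)
    (hspan : Submodule.span k (Set.range r) = ⊤)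
    (hTW : ∀ G : Subgroup Γ, G.index = 2 → Submodule.span k (r '' (G : Set Γ)) = ⊤)
    (K : Subgroup Γ) [K.Normal] (hdet : ∀ κ ∈ K, (r κ).det = 1)
    (hcyc : ∃ x : Γ, ∀ g, ∃ i : ℤ, ∃ κ ∈ K, g = x ^ i * κ) :
    ∃ κ ∈ K, (r κ).trace ≠ 2 ∧ (r κ).trace ≠ -2 := by
  by_contra hcon
  push Not at hcon
  have htr : ∀ κ ∈ K, (r κ).trace = 2 ∨ (r κ).trace = -2 := fun κ hκ => by
    rcases eq_or_ne (r κ).trace 2 with h | h
    · exact .inl h
    · exact .inr (hcon κ hκ h)
  have hsq : ∀ κ ∈ K, (r (κ * κ)).trace = 2 := fun κ hκ => by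
    rw [map_mul, sq_eq_fin_two, hdet κ hκ]
    rcases htr κ hκ with h | h <;> simp [h, Matrix.trace_one] <;> norm_num
  have h4 : (4 : k) ≠ 0 := by
    have : (4 : k) = 2 * 2 := by norm_num
    rw [this]; exact mul_ne_zero h2 h2
  have hpair : ∀ a ∈ K, ∀ b ∈ K, (r a).trace = 2 → (r b).trace = 2 → pairing₂ r a b = 0 := by
    intro a ha b hb hta htb
    by_contra hc
    have e1 := trace_mul_pow r (u := a) hta (hdet b hb) htb 1
    have e2 := trace_mul_pow r (u := a) hta (hdet b hb) htb 2
    rw [Nat.cast_one, one_mul] at e1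
    rw [Nat.cast_two] at e2
    have hc4 : pairing₂ r a b = -4 := by
      rcases htr _ (K.mul_mem ha (K.pow_mem hb 1)) with h | h <;> rw [e1] at h
      · exact absurd (by linear_combination h) hc
      · linear_combination h
    rcases htr _ (K.mul_mem ha (K.pow_mem hb 2)) with h | h <;> rw [e2, hc4] at h
    · exact mul_ne_zero h4 h2 (by linear_combination -h)
    · exact h4 (by linear_combination -h)
  by_cases hall : ∀ κ ∈ K, nilPart r (κ * κ) = 0
  · have hsc : ∀ κ ∈ K, ∃ a : k, r κ = a • 1 := fun κ hκ => by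
      have e := hall κ hκ
      rw [nilPart, sub_eq_zero, map_mul, sq_eq_fin_two, hdet κ hκ, one_smul] at e
      have ht : (r κ).trace ≠ 0 := by
        rcases htr κ hκ with h | h <;> rw [h] <;> simpa using h2
      refine ⟨(r κ).trace⁻¹ * 2, ?_⟩
      have e' : (r κ).trace • r κ = (2 : k) • (1 : M₂ k) := by
        rw [two_smul]; exact sub_eq_iff_eq_add.1 e
      rw [mul_smul, ← e', inv_smul_smul₀ ht]
    have htop := span_normal_eq_top r h2 hspan hTW K hcyc
    have hle : Submodule.span k (r '' (K : Set Γ)) ≤ Submodule.span k {(1 : M₂ k)} := by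
      rw [Submodule.span_le]
      rintro _ ⟨κ, hκ, rfl⟩
      obtain ⟨a, ha⟩ := hsc κ hκ
      exact Submodule.mem_span_singleton.2 ⟨a, ha.symm⟩
    rw [htop] at hle
    obtain ⟨a, ha⟩ := Submodule.mem_span_singleton.1 (hle (x := Matrix.single 0 1 1) trivial)
    have := congr_fun (congr_fun ha 0) 1
    simp [Matrix.single] at this
  · push Not at hall
    obtain ⟨κ, hκ, hN⟩ := hall
    have hκ2 : κ * κ ∈ K := K.mul_mem hκ hκ
    obtain ⟨g, hg⟩ := exists_pairing₂_conj_ne_zero r h2 hspan hTW (hdet _ hκ2) (hsq κ hκ) hN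
    have hgK : g * (κ * κ) * g⁻¹ ∈ K := Subgroup.Normal.conj_mem inferInstance _ hκ2 g
    refine hg (hpair _ hκ2 _ hgK (hsq κ hκ) ?_)
    rw [map_mul, map_mul, trace_conj, hsq κ hκ]

end Fermat.Agent.TW
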