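/-
The infinitesimal trace `g ↦ tr (c g * r g)` of an adjoint cocycle, and its behaviour on pairs of
unipotent elements.
-/
import Fermat.Agent.TW.Unipotent
import Fermat.Agent.TW.TraceTrick

set_option autoImplicit false

namespace Fermat.Agent.TW

open Matrix

local notation "M₂" k => Matrix (Fin 2) (Fin 2) k

variable {k : Type*} [Field k] {Γ : Type*} [Group Γ] (r : Γ →* M₂ k)

/-- Cocycles on the adjoint twisted by a scalar function, killing the kernel of the
representation. -/
structure IsTwistedCocycle (ω : Γ →* k) (c : Γ → M₂ k) : Prop where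
  trace_eq_zero : ∀ g, (c g).trace = 0
  cocycle : ∀ g h, c (g * h) = c g + ω g • (r g * c h * r g⁻¹)
  ker : ∀ g, r g = 1 → c g = 0

variable {r}
variable {ω : Γ →* k} {c : Γ → M₂ k}

/-- The infinitesimal trace. -/
def infTrace (r : Γ →* M₂ k) (c : Γ → M₂ k) (g : Γ) : k := (c g * r g).trace

namespace IsTwistedCocycle

variable (hc : IsTwistedCocycle r ω c)
include hc

theorem map_one' : c 1 = 0 := hc.ker 1 (map_one r)

theorem mul_ker (a : Γ) {z : Γ} (hz : r z = 1) : c (a * z) = c a := by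
  rw [hc.cocycle, hc.ker z hz]; simp

theorem infTrace_mul_ker (a : Γ) {z : Γ} (hz : r z = 1) :
    infTrace r c (a * z) = infTrace r c a := by
  rw [infTrace, infTrace, hc.mul_ker a hz, map_mul, hz, mul_one]

theorem apply_inv {b : Γ} (hωb : ω b = 1) : c b⁻¹ = -(r b⁻¹ * c b * r b) := by
  have h := hc.cocycle b b⁻¹
  rw [mul_inv_cancel, hc.map_one', hωb, one_smul] at h
  have h' : r b * c b⁻¹ * r b⁻¹ = -c b := eq_neg_of_add_eq_zero_right h.symm
  calc c b⁻¹ = r b⁻¹ * (r b * c b⁻¹ * r b⁻¹) * r b := by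
        simp only [mul_assoc, rep_inv_mul_cancel_left, rep_inv_mul, mul_one]
    _ = _ := by rw [h']; simp

/-- The infinitesimal version of `tr (ab) + tr (ab⁻¹) = tr a * tr b`. -/
theorem infTrace_mul_add {a b : Γ} (hωa : ω a = 1) (hωb : ω b = 1) (hdb : (r b).det = 1) :
    infTrace r c (a * b) + infTrace r c (a * b⁻¹)
      = infTrace r c a * (r b).trace + (r a).trace * infTrace r c b := by
  set τb := infTrace r c b with hτb
  have hb' : r b⁻¹ = (r b).trace • 1 - r b := rep_inv_eq_of_det_eq_one r b hdb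
  have hbb : r b + r b⁻¹ = (r b).trace • 1 := by rw [hb']; abel
  have e1 : c (a * b) * r (a * b) = c a * r a * r b + r a * (c b * r b) := by
    rw [hc.cocycle, hωa, one_smul, add_mul, map_mul]
    simp only [mul_assoc, rep_inv_mul_cancel_left]
  have e2 : c (a * b⁻¹) * r (a * b⁻¹) = c a * r a * r b⁻¹ - r a * (r b⁻¹ * c b) := by
    rw [hc.cocycle, hωa, one_smul, hc.apply_inv hωb, add_mul, map_mul]
    simp only [mul_assoc, rep_inv_mul_cancel_left, mul_neg, neg_mul, rep_mul_inv, mul_one]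
    abel
  have e3 : c b * r b - r b⁻¹ * c b = τb • 1 := by
    have h := anticomm_fin_two (c b) (r b)
    rw [hc.trace_eq_zero, zero_smul, zero_add, zero_mul, sub_zero] at h
    rw [hb', sub_mul, smul_mul_assoc, one_mul]
    calc _ = c b * r b + r b * c b - (r b).trace • c b := by abel
      _ = _ := by rw [h, hτb, infTrace]; abel
  show (c (a * b) * r (a * b)).trace + (c (a * b⁻¹) * r (a * b⁻¹)).trace = _
  rw [e1, e2, ← Matrix.trace_add]
  rw [show c a * r a * r b + r a * (c b * r b) + (c a * r a * r b⁻¹ - r a * (r b⁻¹ * c b))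
      = c a * r a * (r b + r b⁻¹) + r a * (c b * r b - r b⁻¹ * c b) by
    rw [mul_add, mul_sub]; abel]
  rw [hbb, e3]
  simp [infTrace]
  ring

theorem infTrace_conj {g u : Γ} (hωu : ω u = 1) :
    infTrace r c (g * u * g⁻¹) = ω g * infTrace r c u := by
  have h1 : ω g * ω g⁻¹ = 1 := by rw [← map_mul, mul_inv_cancel, map_one]
  have h2 : ω (g * u) = ω g := by rw [map_mul, hωu, mul_one]
  have hginv : ω g • (r g * c g⁻¹ * r g⁻¹) = -c g := by
    have h := hc.cocycle g g⁻¹
    rw [mul_inv_cancel, hc.map_one'] at h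
    exact eq_neg_of_add_eq_zero_right h.symm
  have e : c (g * u * g⁻¹) = c g + ω g • (r g * c u * r g⁻¹)
      - r (g * u * g⁻¹) * c g * r (g * u * g⁻¹)⁻¹ := by
    rw [hc.cocycle (g * u) g⁻¹, hc.cocycle g u, h2, sub_eq_add_neg]
    congr 1
    have : c g⁻¹ = -(ω g⁻¹ • (r g⁻¹ * c g * r g)) := by
      calc c g⁻¹ = (ω g * ω g⁻¹) • (r g⁻¹ * (r g * c g⁻¹ * r g⁻¹) * r g) := by
            rw [h1, one_smul]
            simp only [mul_assoc, rep_inv_mul_cancel_left, rep_inv_mul, mul_one]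
        _ = ω g⁻¹ • (r g⁻¹ * (ω g • (r g * c g⁻¹ * r g⁻¹)) * r g) := by
            rw [mul_smul_comm, smul_mul_assoc, smul_smul, mul_comm (ω g⁻¹)]
        _ = _ := by rw [hginv]; simp
    rw [this, mul_neg, neg_mul, smul_neg, mul_smul_comm, smul_mul_assoc, smul_smul, h1, one_smul]
    simp only [map_mul, _root_.mul_inv_rev, inv_inv, mul_assoc]
  show (c (g * u * g⁻¹) * r (g * u * g⁻¹)).trace = _
  rw [e, sub_mul, add_mul, Matrix.trace_sub, Matrix.trace_add]
  have k1 : (r (g * u * g⁻¹) * c g * r (g * u * g⁻¹)⁻¹ * r (g * u * g⁻¹)).trace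
      = (c g * r (g * u * g⁻¹)).trace := by
    rw [mul_assoc _ (r (g * u * g⁻¹)⁻¹), rep_inv_mul, mul_one, Matrix.trace_mul_comm]
  have k2 : (ω g • (r g * c u * r g⁻¹) * r (g * u * g⁻¹)).trace = ω g * infTrace r c u := by
    rw [smul_mul_assoc, Matrix.trace_smul, smul_eq_mul]
    congr 1
    rw [map_mul, map_mul, infTrace, show r g * c u * r g⁻¹ * (r g * r u * r g⁻¹)
      = r g * (c u * r u) * r g⁻¹ by simp only [mul_assoc, rep_inv_mul_cancel_left], trace_conj]
  rw [k1, k2]
  ring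

end IsTwistedCocycle

end Fermat.Agent.TW
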