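/-
The first cohomology of the image of a two dimensional absolutely irreducible representation in
its adjoint twisted by the determinant vanishes.
-/
import Fermat.Agent.TW.TraceFunction

set_option autoImplicit false

namespace Fermat.Agent.TW

open Matrix

local notation "M₂" k => Matrix (Fin 2) (Fin 2) k

variable {k : Type*} [Field k] {Γ : Type*} [Group Γ] {r : Γ →* M₂ k}
variable {ω : Γ →* k} {c : Γ → M₂ k}

theorem sq_eq_of_unipotent_pair (p : ℕ) [hp : Fact p.Prime] [CharP k p] (h2 : p ≠ 2)
    (hc : IsTwistedCocycle r ω c) {u v : Γ}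
    (hωu : ω u = 1) (hωv : ω v = 1) (hdu : (r u).det = 1) (htu : (r u).trace = 2)
    (hdv : (r v).det = 1) (htv : (r v).trace = 2) (hne : pairing₂ r u v ≠ 0)
    (hzero : ∀ i : ℕ, (r (u * v ^ i)).trace ≠ 2 → (r (u * v ^ i)).trace ≠ -2 →
      infTrace r c (u * v ^ i) = 0) :
    infTrace r c v = 0 ∨ (p = 5 ∧ infTrace r c u ^ 2 = infTrace r c v ^ 2) := by
  -- reduce to the case of pairing `-4` or `-2`
  suffices H : ∀ w : Γ, ω w = 1 → (r w).det = 1 → (r w).trace = 2 →
      infTrace r c w = infTrace r c v → (∀ i : ℕ, (r (u * w ^ i)).trace ≠ 2 →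
        (r (u * w ^ i)).trace ≠ -2 → infTrace r c (u * w ^ i) = 0) →
      (pairing₂ r u w = -4 ∨ pairing₂ r u w = -2 ∨
        (pairing₂ r u w ≠ 4 ∧ pairing₂ r u w ≠ 2 ∧ pairing₂ r u w ≠ -4 ∧ pairing₂ r u w ≠ -2
          ∧ pairing₂ r u w ≠ 0)) →
      infTrace r c v = 0 ∨ (p = 5 ∧ infTrace r c u ^ 2 = infTrace r c v ^ 2) by
    by_cases h4 : pairing₂ r u v = 4 ∨ pairing₂ r u v = 2
    · -- replace `v` by `v⁻¹`
      have hvinv : r v⁻¹ = 1 + (-1 : k) • nilPart r v := by
        rw [rep_inv_eq_of_det_eq_one r v hdv, htv, nilPart, two_smul, neg_one_smul]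
        abel
      have hdv' : (r v⁻¹).det = 1 := by
        have h : (r v).det * (r v⁻¹).det = 1 := by
          rw [← Matrix.det_mul, rep_mul_inv, Matrix.det_one]
        rwa [hdv, one_mul] at h
      have htv' : (r v⁻¹).trace = 2 := by
        rw [hvinv]; simp [trace_nilPart r htv]
      have hωv' : ω v⁻¹ = 1 := by
        have h : ω v * ω v⁻¹ = 1 := by rw [← map_mul, mul_inv_cancel, map_one]
        rwa [hωv, one_mul] at h
      have hτ : infTrace r c v⁻¹ = infTrace r c v := by
        have h := hc.infTrace_mul_add (a := 1) (map_one ω) hωv hdv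
        rw [one_mul, one_mul, map_one, Matrix.trace_one] at h
        simp [infTrace, hc.map_one'] at h ⊢
        linear_combination h
      have hpow : ∀ i : ℕ, ∃ j : ℕ, r (v⁻¹ ^ i) = r (v ^ j) ∧
          (∃ z, r z = 1 ∧ v⁻¹ ^ i = v ^ j * z) := fun i => by
        have hvp : r (v ^ p) = 1 := by
          rw [rep_pow_of_unipotent r hdv htv, CharP.cast_eq_zero, zero_smul, add_zero]
        refine ⟨(p - 1) * i, ?_⟩
        have hz : v⁻¹ ^ i = v ^ ((p - 1) * i) * ((v ^ p) ^ i)⁻¹ := by
          rw [inv_pow, ← pow_mul, eq_mul_inv_iff_mul_eq, inv_mul_eq_iff_eq_mul, ← pow_add]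
          congr 1
          have : p = (p - 1) + 1 := (Nat.sub_add_cancel hp.out.pos).symm
          conv_lhs => rw [this]
          ring
        have hz1 : r ((v ^ p) ^ i)⁻¹ = 1 := by
          have h := rep_mul_inv r ((v ^ p) ^ i)
          rwa [map_pow, hvp, one_pow, one_mul] at h
        exact ⟨by rw [hz, map_mul, hz1, mul_one], _, hz1, hz⟩
      refine H v⁻¹ hωv' hdv' htv' hτ (fun i ha hb => ?_) ?_
      · obtain ⟨j, hj, z, hz, hvj⟩ := hpow i
        rw [map_mul, hj, ← map_mul] at ha hb
        rw [hvj, ← mul_assoc, hc.infTrace_mul_ker _ hz]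
        exact hzero j ha hb
      · have hp' : pairing₂ r u v⁻¹ = -pairing₂ r u v := by
          rw [pairing₂, pairing₂, show nilPart r v⁻¹ = -nilPart r v by
            rw [nilPart, hvinv]; simp, mul_neg, Matrix.trace_neg]
        rcases h4 with h4 | h4 <;> rw [hp', h4]
        · exact .inl rfl
        · exact .inr (.inl rfl)
    · push Not at h4
      refine H v hωv hdv htv rfl hzero ?_
      by_cases ha : pairing₂ r u v = -4
      · exact .inl ha
      by_cases hb : pairing₂ r u v = -2
      · exact .inr (.inl hb)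
      exact .inr (.inr ⟨h4.1, h4.2, ha, hb, hne⟩)
  intro w hωw hdw htw hτw hzero hcases
  set C := pairing₂ r u w
  set τ := infTrace r c v
  let f : ℕ → k := fun i => infTrace r c (u * w ^ i)
  have hf0 : f 0 = infTrace r c u := by simp [f]
  have hwp : r (w ^ p) = 1 := by
    rw [rep_pow_of_unipotent r hdw htw, CharP.cast_eq_zero, zero_smul, add_zero]
  have hper : ∀ i, f (i + p) = f i := fun i => by
    simp only [f]
    rw [pow_add, ← mul_assoc, hc.infTrace_mul_ker _ hwp]
  have hrec : ∀ i : ℕ, f (i + 2) + f i = 2 * f (i + 1) + (2 + ((i + 1 : ℕ) : k) * C) * τ := by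
    intro i
    have hωa : ω (u * w ^ (i + 1)) = 1 := by rw [map_mul, map_pow, hωu, hωw, one_pow, one_mul]
    have h := hc.infTrace_mul_add (b := w) hωa hωw hdw
    rw [htw, trace_mul_pow r htu hdw htw, hτw] at h
    have e1 : u * w ^ (i + 1) * w = u * w ^ (i + 2) := by rw [mul_assoc, ← pow_succ]
    have e2 : u * w ^ (i + 1) * w⁻¹ = u * w ^ i := by
      rw [mul_assoc, pow_succ, mul_inv_cancel_right]
    rw [e1, e2] at h
    simp only [f]
    linear_combination h
  have hz : ∀ i : ℕ, (i : k) * C ≠ 0 → (i : k) * C ≠ -4 → f i = 0 := fun i ha hb => by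
    apply hzero
    · rw [trace_mul_pow r htu hdw htw]; intro h; exact ha (by linear_combination h)
    · rw [trace_mul_pow r htu hdw htw]; intro h; exact hb (by linear_combination h)
  have hcast : ∀ m : ℕ, 0 < m → m < p → (m : k) ≠ 0 := fun m hm0 hmp h => by
    rw [CharP.cast_eq_zero_iff k p] at h
    exact absurd (Nat.le_of_dvd hm0 h) (not_le.2 hmp)
  have h2k : (2 : k) ≠ 0 := by
    have h' := hp.out.two_le
    simpa using hcast 2 (by norm_num) (by omega)
  have hp5 : p = 3 ∨ p = 5 ∨ 7 ≤ p := by
    rcases (show p = 3 ∨ p = 4 ∨ p = 5 ∨ p = 6 ∨ 7 ≤ p by have := hp.out.two_le; omega)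
      with h | h | h | h | h
    · exact .inl h
    · exact absurd (h ▸ hp.out) (by norm_num)
    · exact .inr (.inl h)
    · exact absurd (h ▸ hp.out) (by norm_num)
    · exact .inr (.inr h)
  rcases hcases with hC | hC | ⟨h4, h2', h4', h2'', h0⟩
  · -- pairing -4
    rcases hp5 with rfl | rfl | hp7
    · have h3 : (3 : k) = 0 := by simpa using CharP.cast_eq_zero k 3
      have f2 : f 2 = 0 := by
        refine hz 2 ?_ ?_ <;> rw [hC] <;> push_cast <;> intro h
        · exact h2k (by linear_combination (-1 : k) * h + (-2 : k) * h3)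
        · exact h2k (by linear_combination h + (2 : k) * h3)
      have e0 := hrec 0
      have e1 := hrec 1
      rw [hper 0] at e1
      rw [f2, hC] at e0 e1
      push_cast at e0 e1
      left
      linear_combination (-1 : k) * e0 + (-2 : k) * e1 + (f 0 + 5 * τ) * h3
    · have h5 : (5 : k) = 0 := by simpa using CharP.cast_eq_zero k 5
      refine .inr ⟨rfl, ?_⟩
      have hz' : ∀ m : ℕ, 0 < m → m < 4 → (m : k) ≠ 0 := fun m a b => hcast m a (by omega)
      have hf : ∀ m : ℕ, m = 2 ∨ m = 4 → f m = 0 := by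
        intro m hm
        refine hz m ?_ ?_ <;> rw [hC] <;> intro h <;> rcases hm with rfl | rfl <;> push_cast at h
        · exact hz' 2 (by norm_num) (by norm_num) (by push_cast; linear_combination h + (2 : k) * h5)
        · exact hz' 1 (by norm_num) (by norm_num) (by push_cast; linear_combination (-1 : k) * h + (-3 : k) * h5)
        · exact hz' 1 (by norm_num) (by norm_num) (by push_cast; linear_combination h + (1 : k) * h5)
        · exact hz' 3 (by norm_num) (by norm_num) (by push_cast; linear_combination h + (3 : k) * h5)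
      have e0 := hrec 0
      have e4 := hrec 4
      have f6 : f 6 = f 1 := hper 1
      have f5 : f 5 = f 0 := hper 0
      rw [f6, f5, hf 4 (.inr rfl), hC] at e4
      rw [hf 2 (.inl rfl), hC] at e0
      push_cast at e0 e4
      have : f 0 = τ := by
        have : (2 : k) * (f 0 - τ) = 0 := by
          linear_combination e0 + (2 : k) * e4 + (f 0 + (-8:k) * τ) * h5
        exact sub_eq_zero.1 ((mul_eq_zero.1 this).resolve_left h2k)
      rw [← hf0, this]
    · left
      have hzz : ∀ m : ℕ, 2 ≤ m → m < p → f m = 0 := fun m hm hmp => by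
        refine hz m ?_ ?_ <;> rw [hC] <;> intro h
        · exact mul_ne_zero (mul_ne_zero (hcast m (by omega) hmp) h2k) h2k
            (by linear_combination (-1 : k) * h)
        · apply hcast (m - 1) (by omega) (by omega)
          rw [Nat.cast_sub (by omega), Nat.cast_one]
          have : ((m : k) - 1) * (2 * 2) = 0 := by linear_combination (-1 : k) * h
          exact (mul_eq_zero.1 this).resolve_right (mul_ne_zero h2k h2k)
      have e := hrec 2
      rw [hzz 4 (by norm_num) (by omega), hzz 3 (by norm_num) (by omega),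
        hzz 2 (by norm_num) (by omega), hC] at e
      push_cast at e
      have h10 : (10 : k) ≠ 0 := by
        have h5 := hcast 5 (by norm_num) (by omega)
        have : (10 : k) = 2 * ((5 : ℕ) : k) := by push_cast; norm_num
        rw [this]; exact mul_ne_zero h2k h5
      have : (10 : k) * τ = 0 := by linear_combination e
      exact (mul_eq_zero.1 this).resolve_left h10
  · -- pairing -2
    rcases hp5 with rfl | rfl | hp7
    · have h3 : (3 : k) = 0 := by simpa using CharP.cast_eq_zero k 3
      have f1 : f 1 = 0 := by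
        refine hz 1 ?_ ?_ <;> rw [hC] <;> push_cast <;> intro h
        · exact h2k (by linear_combination (-1 : k) * h)
        · exact h2k (by linear_combination h)
      have e0 := hrec 0
      have e2 := hrec 2
      rw [f1, hC] at e0
      rw [hper 1, hper 0, f1, hC] at e2
      push_cast at e0 e2
      left
      linear_combination e2 - e0 + (f 0 - τ) * h3
    · have h5 : (5 : k) = 0 := by simpa using CharP.cast_eq_zero k 5
      refine .inr ⟨rfl, ?_⟩
      have hz' : ∀ m : ℕ, 0 < m → m < 4 → (m : k) ≠ 0 := fun m a b => hcast m a (by omega)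
      have hf : ∀ m : ℕ, m = 1 ∨ m = 4 → f m = 0 := by
        intro m hm
        refine hz m ?_ ?_ <;> rw [hC] <;> intro h <;> rcases hm with rfl | rfl <;> push_cast at h
        · exact h2k (by linear_combination (-1 : k) * h)
        · exact hz' 3 (by norm_num) (by norm_num) (by push_cast; linear_combination (-1 : k) * h + (-1 : k) * h5)
        · exact h2k (by linear_combination h)
        · exact hz' 1 (by norm_num) (by norm_num) (by push_cast; linear_combination h + (1 : k) * h5)
      have e4 := hrec 4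
      have f6 : f 6 = f 1 := hper 1
      have f5 : f 5 = f 0 := hper 0
      rw [f6, f5, hf 4 (.inr rfl), hf 1 (.inl rfl), hC] at e4
      push_cast at e4
      have : f 0 = -τ := by
        have : (2 : k) * (f 0 + τ) = 0 := by linear_combination (-1 : k) * e4 + (2 * τ) * h5
        exact eq_neg_of_add_eq_zero_left ((mul_eq_zero.1 this).resolve_left h2k)
      rw [← hf0, this, neg_sq]
    · left
      have hzz : ∀ m : ℕ, 3 ≤ m → m < p → f m = 0 := fun m hm hmp => by
        refine hz m ?_ ?_ <;> rw [hC] <;> intro h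
        · exact mul_ne_zero (hcast m (by omega) hmp) h2k (by linear_combination (-1 : k) * h)
        · apply hcast (m - 2) (by omega) (by omega)
          rw [Nat.cast_sub (by omega), Nat.cast_two]
          have : ((m : k) - 2) * 2 = 0 := by linear_combination (-1 : k) * h
          exact (mul_eq_zero.1 this).resolve_right h2k
      have e := hrec 3
      rw [hzz 5 (by norm_num) (by omega), hzz 4 (by norm_num) (by omega),
        hzz 3 le_rfl (by omega), hC] at e
      push_cast at e
      have h6 : (6 : k) ≠ 0 := by simpa using hcast 6 (by norm_num) (by omega)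
      have : (6 : k) * τ = 0 := by linear_combination e
      exact (mul_eq_zero.1 this).resolve_left h6
  · -- general position
    left
    have hm : ∀ m : ℕ, ((m : k) = 1 ∨ (m : k) = 2 ∨ (m : k) = -1 ∨ (m : k) = -2) → f m = 0 := by
      intro m hm
      refine hz m ?_ ?_ <;> intro h <;> rcases hm with e | e | e | e <;> rw [e] at h
      · exact h0 (by linear_combination h)
      · exact mul_ne_zero h2k h0 h
      · exact h0 (by linear_combination (-1 : k) * h)
      · exact mul_ne_zero h2k h0 (by linear_combination (-1 : k) * h)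
      · exact h4' (by linear_combination h)
      · exact h2'' (mul_left_cancel₀ h2k (by linear_combination h))
      · exact h4 (by linear_combination (-1 : k) * h)
      · exact h2' (mul_left_cancel₀ h2k (by linear_combination (-1 : k) * h))
    obtain ⟨q, rfl⟩ : ∃ q, p = q + 2 := ⟨p - 2, by have := hp.out.two_le; omega⟩
    have hq : ((q : ℕ) : k) = -2 := by
      have := CharP.cast_eq_zero k (q + 2)
      push_cast at this
      linear_combination this
    have f1 : f 1 = 0 := hm 1 (.inl Nat.cast_one)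
    have f2 : f 2 = 0 := hm 2 (.inr (.inl Nat.cast_two))
    have fq : f q = 0 := hm q (.inr (.inr (.inr hq)))
    have fq1 : f (q + 1) = 0 := hm (q + 1) (.inr (.inr (.inl (by push_cast; rw [hq]; ring))))
    have e0 := hrec 0
    have eq := hrec q
    rw [show f (q + 2) = f 0 by simpa using hper 0, fq, fq1] at eq
    rw [f2, f1] at e0
    push_cast at e0 eq
    rw [hq] at eq
    have : (2 * C) * τ = 0 := by linear_combination eq - e0
    exact (mul_eq_zero.1 this).resolve_left (mul_ne_zero h2k h0)

variable (p : ℕ) [hp : Fact p.Prime] [CharP k p] [Finite k]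

theorem exists_smul_proj {X : M₂ k} (hsplit : ∃ a b : k, a + b = X.trace ∧ a * b = X.det)
    (hdet : X.det = 1) (h2 : X.trace ≠ 2) (h2' : X.trace ≠ -2) :
    X ^ (Nat.card k - 1) = 1 := by
  obtain ⟨a, b, hab, hmul⟩ := hsplit
  haveI := Fintype.ofFinite k
  rw [hdet] at hmul
  have hne : a ≠ b := by
    rintro rfl
    rcases mul_self_eq_one_iff.1 hmul with rfl | rfl
    · exact h2 (by rw [← hab]; norm_num)
    · exact h2' (by rw [← hab]; norm_num)
  set P : M₂ k := (a - b)⁻¹ • (X - b • 1) with hP
  have hXsq : X * X = (a + b) • X - (1 : M₂ k) := by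
    rw [sq_eq_fin_two, hab, hdet, one_smul]
  have hd : a - b ≠ 0 := sub_ne_zero.2 hne
  have hPP : P * P = P := by
    have e : (X - b • (1 : M₂ k)) * (X - b • 1) = (a - b) • (X - b • 1) := by
      simp only [sub_mul, mul_sub, smul_mul_assoc, one_mul, mul_smul_comm, mul_one, hXsq]
      ext i j
      simp only [Matrix.sub_apply, Matrix.smul_apply, smul_eq_mul]
      linear_combination ((1 : M₂ k) i j) * hmul
    rw [hP, smul_mul_assoc, mul_smul_comm, e, smul_smul, smul_smul, mul_assoc,
      inv_mul_cancel₀ hd, mul_one]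
  have hX : X = b • (1 : M₂ k) + (a - b) • P := by
    rw [hP, smul_smul, mul_inv_cancel₀ hd, one_smul]; abel
  have hpow : ∀ n : ℕ, X ^ n = b ^ n • (1 : M₂ k) + (a ^ n - b ^ n) • P := fun n => by
    induction n with
    | zero => simp
    | succ n ih =>
      rw [pow_succ, ih, hX]
      simp only [add_mul, mul_add, smul_mul_assoc, mul_smul_comm, one_mul, mul_one, hPP,
        smul_add, smul_smul]
      ext i j
      simp only [Matrix.add_apply, Matrix.smul_apply, smul_eq_mul]
      ring
  have ha : a ≠ 0 := fun h => by simp [h] at hmul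
  have hb : b ≠ 0 := fun h => by simp [h] at hmul
  rw [hpow, Nat.card_eq_fintype_card, FiniteField.pow_card_sub_one_eq_one a ha,
    FiniteField.pow_card_sub_one_eq_one b hb]
  simp

/-- Infinitesimal traces of semisimple elements vanish. -/
theorem infTrace_eq_zero_of_semisimple (hc : IsTwistedCocycle r ω c) {g : Γ} (hωg : ω g = 1)
    (hpow : r (g ^ (Nat.card k - 1)) = 1) : infTrace r c g = 0 := by
  haveI := Fintype.ofFinite k
  set n := Nat.card k - 1
  set S := ∑ i ∈ Finset.range n, c (g ^ i) with hS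
  have hn : (n : k) = -1 := by
    have hc1 : 1 ≤ Nat.card k := Nat.card_pos
    rw [Nat.cast_sub hc1, Nat.cast_one, Nat.card_eq_fintype_card, FiniteField.cast_card_eq_zero]
    ring
  have e : (n : k) • c g + r g * S * r g⁻¹ = S := by
    have h1 : ∑ i ∈ Finset.range n, c (g ^ (i + 1)) = (n : k) • c g + r g * S * r g⁻¹ := by
      have : ∀ i, c (g ^ (i + 1)) = c g + r g * c (g ^ i) * r g⁻¹ := fun i => by
        rw [pow_succ', hc.cocycle, hωg, one_smul]
      rw [Finset.sum_congr rfl fun i _ => this i, Finset.sum_add_distrib, Finset.sum_const,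
        Finset.card_range, hS, Finset.mul_sum, Finset.sum_mul, Nat.cast_smul_eq_nsmul k]
    have h2 := Finset.sum_range_succ' (fun i => c (g ^ i)) n
    rw [Finset.sum_range_succ, hc.ker _ hpow, pow_zero, hc.map_one', add_zero, add_zero, h1] at h2
    exact h2.symm
  have e' : c g = r g * S * r g⁻¹ - S := by
    rw [hn, neg_one_smul, neg_add_eq_iff_eq_add] at e
    rw [e]; abel
  rw [infTrace, e', sub_mul, Matrix.trace_sub, mul_assoc _ (r g⁻¹), rep_inv_mul, mul_one,
    Matrix.trace_mul_comm, sub_self]

/-- Twisted adjoint cocycles of the image are coboundaries. -/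
theorem exists_twisted_coboundary (hp2 : p ≠ 2)
    (hdet : ∀ g, (r g).det = ω g)
    (hspan : Submodule.span k (Set.range r) = ⊤)
    (hTW : ∀ G : Subgroup Γ, G.index = 2 → Submodule.span k (r '' (G : Set Γ)) = ⊤)
    (hsplit : ∀ g, ∃ a b : k, a + b = (r g).trace ∧ a * b = (r g).det)
    (hcyc : ∃ x : Γ, ∀ g, ∃ i : ℤ, ∃ κ : Γ, ω κ = 1 ∧ g = x ^ i * κ)
    (hω5 : p = 5 → ∃ g, ω g ^ 2 ≠ 1)
    (hc : IsTwistedCocycle r ω c) :
    ∃ m : M₂ k, m.trace = 0 ∧ ∀ g, c g = ω g • (r g * m * r g⁻¹) - m := by
  have h2 : (2 : k) ≠ 0 := fun h => hp2 (by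
    have h' : ((2 : ℕ) : k) = 0 := by simpa using h
    exact (Nat.prime_dvd_prime_iff_eq hp.out Nat.prime_two).1
      ((CharP.cast_eq_zero_iff k p 2).1 h'))
  let H : Subgroup Γ :=
    { carrier := {g | ω g = 1}
      one_mem' := map_one ω
      mul_mem' := fun {a b} (ha : ω a = 1) (hb : ω b = 1) => by
        show ω (a * b) = 1
        rw [map_mul, ha, hb, one_mul]
      inv_mem' := fun {a} (ha : ω a = 1) => by
        have h : ω a * ω a⁻¹ = 1 := by rw [← map_mul, mul_inv_cancel, map_one]
        show ω a⁻¹ = 1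
        rwa [ha, one_mul] at h }
  haveI : H.Normal := ⟨fun n (hn : ω n = 1) g => by
    show ω (g * n * g⁻¹) = 1
    rw [map_mul, map_mul, hn, mul_one, ← map_mul, mul_inv_cancel, map_one]⟩
  have hdH : ∀ g, ω g = 1 → (r g).det = 1 := fun g hg => by rw [hdet, hg]
  have hconj : ∀ g u : Γ, ω u = 1 → ω (g * u * g⁻¹) = 1 := fun g u hu =>
    Subgroup.Normal.conj_mem (H := H) inferInstance u hu g
  have hsemi : ∀ g, ω g = 1 → (r g).trace ≠ 2 → (r g).trace ≠ -2 → infTrace r c g = 0 :=
    fun g hg h h' => infTrace_eq_zero_of_semisimple hc hg (by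
      rw [map_pow]; exact exists_smul_proj (hsplit g) (hdH g hg) h h')
  have huni : ∀ u, ω u = 1 → (r u).trace = 2 → infTrace r c u = 0 := fun u hωu htu => by
    by_contra hτ
    by_cases hN : nilPart r u = 0
    · exact hτ (by rw [infTrace, hc.ker u (sub_eq_zero.1 hN)]; simp)
    have key : ∀ g, pairing₂ r u (g * u * g⁻¹) ≠ 0 → p = 5 ∧ ω g ^ 2 = 1 := fun g hg => by
      have hωv := hconj g u hωu
      have htv : (r (g * u * g⁻¹)).trace = 2 := by rw [map_mul, map_mul, trace_conj, htu]
      have hτv := hc.infTrace_conj (g := g) hωu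
      rcases sq_eq_of_unipotent_pair p hp2 hc hωu hωv (hdH u hωu) htu (hdH _ hωv) htv hg
        (fun i h h' => hsemi _ (by rw [map_mul, map_pow, hωu, hωv, one_pow, one_mul]) h h')
        with h | ⟨h5, h⟩
      · rw [hτv, mul_eq_zero] at h
        rcases h with h | h
        · exact absurd h (left_ne_zero_of_mul_eq_one (b := ω g⁻¹)
            (by rw [← map_mul, mul_inv_cancel, map_one]))
        · exact absurd h hτ
      · refine ⟨h5, ?_⟩
        rw [hτv, mul_pow] at h
        have : (ω g ^ 2 - 1) * infTrace r c u ^ 2 = 0 := by linear_combination -h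
        exact sub_eq_zero.1 ((mul_eq_zero.1 this).resolve_right (pow_ne_zero 2 hτ))
    obtain ⟨g₁, hg₁⟩ := exists_pairing₂_conj_ne_zero r h2 hspan hTW (hdH u hωu) htu hN
    obtain ⟨h5, -⟩ := key g₁ hg₁
    obtain ⟨g₂, hg₂⟩ := hω5 h5
    -- `g₂` and `g₁ * g₂` fix the line of `u`
    have hline : ∀ g, pairing₂ r u (g * u * g⁻¹) = 0 → ∃ t : k,
        r g * nilPart r u * r g⁻¹ = t • nilPart r u := fun g hg => by
      refine exists_smul_of_trace_mul_eq_zero hN (trace_nilPart r htu)
        (det_nilPart r (hdH u hωu) htu) ?_ ?_ ?_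
      · rw [trace_conj, trace_nilPart r htu]
      · rw [det_conj, det_nilPart r (hdH u hωu) htu]
      · rw [← nilPart_conj]; exact hg
    have e2 : pairing₂ r u (g₂ * u * g₂⁻¹) = 0 := by_contra fun h => hg₂ (key g₂ h).2
    obtain ⟨t, ht⟩ := hline g₂ e2
    have e12 : pairing₂ r u (g₁ * g₂ * u * (g₁ * g₂)⁻¹) = 0 := by_contra fun h => by
      have h12 := (key (g₁ * g₂) h).2
      rw [map_mul, mul_pow, (key g₁ hg₁).2, one_mul] at h12
      exact hg₂ h12
    refine hg₁ ?_
    have e : r (g₁ * g₂) * nilPart r u * r (g₁ * g₂)⁻¹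
        = t • (r g₁ * nilPart r u * r g₁⁻¹) := by
      rw [_root_.mul_inv_rev, map_mul, map_mul,
        show r g₁ * r g₂ * nilPart r u * (r g₂⁻¹ * r g₁⁻¹)
          = r g₁ * (r g₂ * nilPart r u * r g₂⁻¹) * r g₁⁻¹ by simp only [mul_assoc],
        ht, mul_smul_comm, smul_mul_assoc]
    have ht0 : t ≠ 0 := fun h0 => hN (by
      rw [h0, zero_smul] at ht
      calc nilPart r u = r g₂⁻¹ * (r g₂ * nilPart r u * r g₂⁻¹) * r g₂ := by
            simp only [mul_assoc, rep_inv_mul_cancel_left, rep_inv_mul, mul_one]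
        _ = 0 := by rw [ht]; simp)
    rw [pairing₂, nilPart_conj, e, mul_smul_comm, Matrix.trace_smul, smul_eq_mul] at e12
    rw [pairing₂, nilPart_conj]
    exact (mul_eq_zero.1 e12).resolve_left ht0
  have hall : ∀ g : H, infTrace r c g = 0 := fun ⟨g, (hg : ω g = 1)⟩ => by
    by_cases ht : (r g).trace = 2
    · exact huni g hg ht
    by_cases ht' : (r g).trace = -2
    swap; · exact hsemi g hg ht ht'
    -- `g ^ p` maps to `-1`
    have hN : (-r g - 1 : M₂ k) * (-r g - 1) = 0 := by
      have hsq : r g * r g = (-2 : k) • r g - (1 : M₂ k) := by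
        rw [sq_eq_fin_two, ht', hdH g hg, one_smul]
      simp only [sub_mul, mul_sub, neg_mul, mul_neg, neg_neg, one_mul, mul_one, hsq]
      simp only [neg_smul, two_smul]
      abel
    have hpow : ∀ i : ℕ, (-r g) ^ i = 1 + (i : k) • (-r g - 1) := fun i => by
      induction i with
      | zero => simp
      | succ i ih =>
        rw [pow_succ, ih]
        nth_rewrite 2 [show -r g = 1 + (-r g - 1) by abel]
        rw [add_mul, mul_add, one_mul, one_mul, smul_mul_assoc, mul_add, mul_one, hN, add_zero,
          Nat.cast_succ, add_smul, one_smul]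
        abel
    have hgp : r (g ^ p) = -1 := by
      have h := hpow p
      rw [CharP.cast_eq_zero, zero_smul, add_zero,
        (hp.out.odd_of_ne_two hp2).neg_pow] at h
      rw [map_pow, ← h, neg_neg]
    have hc0 : c (g ^ p) = 0 := by
      have h := hc.cocycle (g ^ p) (g ^ p)
      have h1 : r (g ^ p * g ^ p) = 1 := by rw [map_mul, hgp]; simp
      rw [hc.ker _ h1] at h
      have hωp : ω (g ^ p) = 1 := by rw [map_pow, hg, one_pow]
      have hi : r (g ^ p)⁻¹ = -1 := by
        have e := rep_mul_inv r (g ^ p)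
        rw [hgp] at e
        rw [← neg_neg (r (g ^ p)⁻¹)]
        congr 1
        simpa using e
      rw [hωp, one_smul, hgp, hi] at h
      simp only [neg_mul, one_mul, mul_neg, mul_one, neg_neg] at h
      have h' : (2 : k) • c (g ^ p) = 0 := by rw [two_smul]; exact h.symm
      exact (smul_eq_zero.1 h').resolve_left h2
    have hω' : ω (g * g ^ p) = 1 := by rw [map_mul, map_pow, hg, one_pow, one_mul]
    have ht2 : (r (g * g ^ p)).trace = 2 := by
      rw [map_mul, hgp, mul_neg, mul_one, Matrix.trace_neg, ht', neg_neg]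
    have h := huni _ hω' ht2
    rw [infTrace, hc.cocycle, hc0, map_mul, hgp] at h
    simpa [infTrace] using h
  have hcH : ∀ a b : H, c ((a : Γ) * b)
      = c (a : Γ) + r.comp H.subtype a * c (b : Γ) * r.comp H.subtype a⁻¹ := fun a b => by
    rw [hc.cocycle, show ω (a : Γ) = 1 from a.2, one_smul]
    rfl
  have hspanH : Submodule.span k (r '' (H : Set Γ)) = ⊤ := by
    refine span_normal_eq_top r h2 hspan hTW H ?_
    obtain ⟨x, hx⟩ := hcyc
    exact ⟨x, fun g => let ⟨i, κ, hκ, h⟩ := hx g; ⟨i, κ, hκ, h⟩⟩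
  obtain ⟨m, hm0, hm⟩ := exists_coboundary_of_trace_mul_eq_zero (r.comp H.subtype) h2
    (by rw [MonoidHom.coe_comp, Set.range_comp, H.coe_subtype, Subtype.range_coe]; exact hspanH)
    (fun a : H => c a) hcH hall
  refine ⟨m, hm0, fun g => ?_⟩
  set d := c g - (ω g • (r g * m * r g⁻¹) - m) with hd
  suffices d = 0 by rwa [hd, sub_eq_zero] at this
  have hdtr : d.trace = 0 := by
    rw [hd, Matrix.trace_sub, Matrix.trace_sub, Matrix.trace_smul, trace_conj, hc.trace_eq_zero,
      hm0]
    simp
  have hcomm : ∀ h, ω h = 1 → r h * d = d * r h := fun h hh => by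
    have hh' : ω (g⁻¹ * h * g) = 1 := by simpa using hconj g⁻¹ h hh
    have e1 := hc.cocycle h g
    have e2 := hc.cocycle g (g⁻¹ * h * g)
    rw [show g * (g⁻¹ * h * g) = h * g by group, e1, hh, one_smul] at e2
    rw [show c h = r h * m * r h⁻¹ - m from hm ⟨h, hh⟩,
      show c (g⁻¹ * h * g) = r (g⁻¹ * h * g) * m * r (g⁻¹ * h * g)⁻¹ - m from hm ⟨_, hh'⟩] at e2
    have e3 : r g * (r (g⁻¹ * h * g) * m * r (g⁻¹ * h * g)⁻¹) * r g⁻¹
        = r h * (r g * m * r g⁻¹) * r h⁻¹ := by
      simp only [map_mul, _root_.mul_inv_rev, inv_inv, mul_assoc, rep_mul_inv_cancel_left,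
        rep_mul_inv, mul_one]
    rw [mul_sub, sub_mul, e3, smul_sub] at e2
    have : r h * d * r h⁻¹ = d := by
      rw [hd, mul_sub, sub_mul, mul_sub, sub_mul, mul_smul_comm, smul_mul_assoc]
      calc _ = (r h * m * r h⁻¹ - m + r h * c g * r h⁻¹) + m
            - ω g • (r h * (r g * m * r g⁻¹) * r h⁻¹) := by abel
        _ = _ := by rw [e2]; abel
    conv_rhs => rw [← this, mul_assoc, rep_inv_mul, mul_one]
  have hall' : ∀ X : M₂ k, X * d = d * X := fun X => by
    have hX : X ∈ Submodule.span k (r '' (H : Set Γ)) := hspanH ▸ Submodule.mem_top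
    induction hX using Submodule.span_induction with
    | mem Z hZ => obtain ⟨h, hh, rfl⟩ := hZ; exact hcomm h hh
    | zero => simp
    | add A B _ _ ha hb => rw [mul_add, add_mul, ha, hb]
    | smul a A _ ha => rw [smul_mul_assoc, mul_smul_comm, ha]
  refine eq_zero_of_forall_conj_mem_line r h2 hspan hTW d hdtr fun g' => ⟨1, ?_⟩
  rw [hall' (r g'), mul_assoc, rep_mul_inv, mul_one, one_smul]

end Fermat.Agent.TW
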