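/-
Detection of global adjoint classes by elements with distinct eigenvalues fixing given roots of
unity: the group theoretical input of the choice of Taylor-Wiles primes.
-/
import Fermat.Agent.TW.TwistVanishing

set_option autoImplicit false

namespace Fermat.Agent.TW

open Matrix

local notation "M₂" k => Matrix (Fin 2) (Fin 2) k

variable {k : Type*} [Field k] {Γ : Type*} [Group Γ] (r : Γ →* M₂ k)

theorem exists_zpow_mul_of_cyclic {C : Type*} [CommGroup C] (χ : Γ →* C) [IsCyclic χ.range] :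
    ∃ x : Γ, ∀ g, ∃ i : ℤ, ∃ κ ∈ χ.ker, g = x ^ i * κ := by
  obtain ⟨⟨y, x, rfl⟩, hy⟩ := IsCyclic.exists_generator (α := χ.range)
  refine ⟨x, fun g => ?_⟩
  obtain ⟨i, hi⟩ := Subgroup.mem_zpowers_iff.1 (hy ⟨χ g, g, rfl⟩)
  refine ⟨i, (x ^ i)⁻¹ * g, ?_, by group⟩
  have hi' : χ x ^ i = χ g := congrArg Subtype.val hi
  rw [MonoidHom.mem_ker, map_mul, map_inv, map_zpow, hi', inv_mul_cancel]

/-- An untwisted class which is not trivial has nonzero infinitesimal trace somewhere. -/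
theorem exists_infTrace_ne_zero (h2 : (2 : k) ≠ 0)
    (hspan : Submodule.span k (Set.range r) = ⊤) (c : Γ → M₂ k)
    (hc : ∀ g h, c (g * h) = c g + r g * c h * r g⁻¹)
    (hne : ¬ ∃ m : M₂ k, m.trace = 0 ∧ ∀ g, c g = r g * m * r g⁻¹ - m) :
    ∃ σ, infTrace r c σ ≠ 0 := by
  by_contra h
  push Not at h
  exact hne (exists_coboundary_of_trace_mul_eq_zero r h2 hspan c hc h)

/-- A twisted class which is not trivial is detected by an element of the kernel of `χ` with two
distinct eigenvalues. -/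
theorem exists_detecting {C : Type*} [CommGroup C] (χ : Γ →* C) [IsCyclic χ.range]
    (p : ℕ) [Fact p.Prime] [CharP k p] [Finite k] (hp2 : p ≠ 2) (ω : Γ →* k)
    (hdet : ∀ g, (r g).det = ω g) (hχω : ∀ g, χ g = 1 → ω g = 1)
    (hspan : Submodule.span k (Set.range r) = ⊤)
    (hTW : ∀ G : Subgroup Γ, G.index = 2 → Submodule.span k (r '' (G : Set Γ)) = ⊤)
    (hsplit : ∀ g, ∃ a b : k, a + b = (r g).trace ∧ a * b = (r g).det)
    (hω5 : p = 5 → ∃ g, ω g ^ 2 ≠ 1)
    (c : Γ → M₂ k) (htr : ∀ g, (c g).trace = 0)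
    (hc : ∀ g h, c (g * h) = c g + ω g • (r g * c h * r g⁻¹))
    (hne : ¬ ∃ m : M₂ k, m.trace = 0 ∧ ∀ g, c g = ω g • (r g * m * r g⁻¹) - m) :
    ∃ σ, χ σ = 1 ∧ (r σ).trace ≠ 2 ∧ (r σ).trace ≠ -2 ∧ infTrace r c σ ≠ 0 := by
  have h2 : (2 : k) ≠ 0 := fun h => hp2 (by
    have h' : ((2 : ℕ) : k) = 0 := by simpa using h
    exact (Nat.prime_dvd_prime_iff_eq Fact.out Nat.prime_two).1
      ((CharP.cast_eq_zero_iff k p 2).1 h'))
  have hcyc := exists_zpow_mul_of_cyclic χ
  obtain ⟨σ₀, hσ₀, ht, ht'⟩ := exists_trace_ne r h2 hspan hTW χ.ker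
    (fun κ hκ => by rw [hdet, hχω κ hκ]) hcyc
  have hc1 : c 1 = 0 := by simpa using hc 1 1
  have hωker : ∀ g, r g = 1 → ω g = 1 := fun g hg => by rw [← hdet, hg, Matrix.det_one]
  have hconj : ∀ g τ, r τ = 1 → c (g * τ * g⁻¹) = ω g • (r g * c τ * r g⁻¹) := fun g τ hτ => by
    have e : c g + ω g • (r g * c g⁻¹ * r g⁻¹) = 0 := by
      rw [← hc, mul_inv_cancel, hc1]
    have hτi : r τ⁻¹ = 1 := by simpa [hτ] using rep_mul_inv r τ
    rw [mul_assoc, hc, hc τ, hωker τ hτ, one_smul, hτ, hτi, one_mul, mul_one, mul_add, add_mul,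
      smul_add]
    calc _ = ω g • (r g * c τ * r g⁻¹) + (c g + ω g • (r g * c g⁻¹ * r g⁻¹)) := by abel
      _ = _ := by rw [e, add_zero]
  by_cases hA : ∀ τ, r τ = 1 → χ τ = 1 → c τ = 0
  · exfalso
    refine hne (exists_twisted_coboundary p hp2 hdet hspan hTW hsplit ?_ hω5
      ⟨htr, hc, fun τ hτ => ?_⟩)
    · obtain ⟨x, hx⟩ := hcyc
      exact ⟨x, fun g => let ⟨i, κ, hκ, h⟩ := hx g; ⟨i, κ, hχω κ hκ, h⟩⟩
    have hfix : ∀ g, χ g = 1 → r g * c τ * r g⁻¹ = c τ := fun g hg => by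
      have hz : r (g * τ * g⁻¹ * τ⁻¹) = 1 := by
        have hτi : r τ⁻¹ = 1 := by simpa [hτ] using rep_mul_inv r τ
        rw [map_mul, map_mul, map_mul, hτ, mul_one, rep_mul_inv, hτi, one_mul]
      have hz0 := hA _ hz (by simp [map_mul, mul_comm, mul_assoc])
      have e := hc (g * τ * g⁻¹ * τ⁻¹) τ
      have hzi : r (g * τ * g⁻¹ * τ⁻¹)⁻¹ = 1 := by
        simpa [hz] using rep_mul_inv r (g * τ * g⁻¹ * τ⁻¹)
      rw [inv_mul_cancel_right, hz0, hωker _ hz, one_smul, hz, hzi, one_mul, mul_one, zero_add,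
        hconj g τ hτ, hχω g hg, one_smul] at e
      exact e
    have hK := span_normal_eq_top r h2 hspan hTW χ.ker hcyc
    have hall : ∀ X : M₂ k, X * c τ = c τ * X := fun X => by
      have hX : X ∈ Submodule.span k (r '' (χ.ker : Set Γ)) := hK ▸ Submodule.mem_top
      induction hX using Submodule.span_induction with
      | mem Z hZ =>
        obtain ⟨g, hg, rfl⟩ := hZ
        conv_rhs => rw [← hfix g hg, mul_assoc, rep_inv_mul, mul_one]
      | zero => simp
      | add A B _ _ ha hb => rw [mul_add, add_mul, ha, hb]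
      | smul a A _ ha => rw [smul_mul_assoc, mul_smul_comm, ha]
    refine eq_zero_of_forall_conj_mem_line r h2 hspan hTW _ (htr τ) fun g' => ⟨1, ?_⟩
    rw [hall (r g'), mul_assoc, rep_mul_inv, mul_one, one_smul]
  · push Not at hA
    obtain ⟨τ₁, hτ₁, hχ₁, hc₁⟩ := hA
    let W : Submodule k (M₂ k) := Submodule.span k {X | ∃ τ, r τ = 1 ∧ χ τ = 1 ∧ c τ = X}
    have hWall : W = traceFree k := by
      refine eq_traceFree_of_conj_stable r h2 hspan hTW W ?_ ?_ ?_
      · rw [Submodule.span_le]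
        rintro _ ⟨τ, -, -, rfl⟩
        exact mem_traceFree.2 (htr τ)
      · intro g X hX
        induction hX using Submodule.span_induction with
        | mem Z hZ =>
          obtain ⟨τ, hτ, hχ, rfl⟩ := hZ
          have e : r g * c τ * r g⁻¹ = ω g⁻¹ • c (g * τ * g⁻¹) := by
            rw [hconj g τ hτ, smul_smul, ← map_mul, inv_mul_cancel, map_one, one_smul]
          rw [e]
          refine W.smul_mem _ (Submodule.subset_span ⟨_, ?_, ?_, rfl⟩)
          · rw [map_mul, map_mul, hτ, mul_one, rep_mul_inv]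
          · simp [map_mul, hχ]
        | zero => simp
        | add A B _ _ ha hb => rw [mul_add, add_mul]; exact add_mem ha hb
        | smul a A _ ha => rw [mul_smul_comm, smul_mul_assoc]; exact W.smul_mem a ha
      · intro h
        exact hc₁ ((Submodule.mem_bot k).1 (h ▸ Submodule.subset_span ⟨τ₁, hτ₁, hχ₁, rfl⟩))
    obtain ⟨τ, hτ, hχτ, hne'⟩ : ∃ τ, r τ = 1 ∧ χ τ = 1 ∧ (c τ * r σ₀).trace ≠ 0 := by
      by_contra h
      push Not at h
      set Y := r σ₀ - ((r σ₀).trace / 2) • (1 : M₂ k) with hY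
      have hYW : Y ∈ W := by
        rw [hWall, mem_traceFree, hY, Matrix.trace_sub, Matrix.trace_smul, Matrix.trace_one]
        simp only [Fintype.card_fin, Nat.cast_ofNat, smul_eq_mul]
        field_simp
        ring
      have h0 : ∀ X ∈ W, (X * r σ₀).trace = 0 := fun X hX => by
        induction hX using Submodule.span_induction with
        | mem Z hZ => obtain ⟨τ, h1, h2, rfl⟩ := hZ; exact h τ h1 h2
        | zero => simp
        | add A B _ _ ha hb => rw [add_mul, Matrix.trace_add, ha, hb, add_zero]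
        | smul a A _ ha => rw [smul_mul_assoc, Matrix.trace_smul, ha, smul_zero]
      have e := h0 Y hYW
      rw [hY, sub_mul, smul_mul_assoc, one_mul, Matrix.trace_sub, Matrix.trace_smul, sq_eq_fin_two,
        Matrix.trace_sub, Matrix.trace_smul, Matrix.trace_smul, Matrix.trace_one,
        hdet, hχω σ₀ hσ₀] at e
      simp only [Fintype.card_fin, Nat.cast_ofNat, smul_eq_mul] at e
      field_simp at e
      have : ((r σ₀).trace - 2) * ((r σ₀).trace + 2) = 0 := by linear_combination e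
      rcases mul_eq_zero.1 this with h' | h'
      · exact ht (sub_eq_zero.1 h')
      · exact ht' (eq_neg_of_add_eq_zero_left h')
    by_cases h0 : infTrace r c σ₀ = 0
    · have hr : r (τ * σ₀) = r σ₀ := by rw [map_mul, hτ, one_mul]
      refine ⟨τ * σ₀, by rw [map_mul, hχτ, MonoidHom.mem_ker.1 hσ₀, one_mul], by rwa [hr],
        by rwa [hr], ?_⟩
      have hτi : r τ⁻¹ = 1 := by simpa [hτ] using rep_mul_inv r τ
      rw [infTrace, hr, hc, hωker τ hτ, one_smul, hτ, hτi, one_mul, mul_one, add_mul,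
        Matrix.trace_add, show (c σ₀ * r σ₀).trace = 0 from h0, add_zero]
      exact hne'
    · exact ⟨σ₀, hσ₀, ht, ht', h0⟩

end Fermat.Agent.TW
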