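/-
Restriction of global adjoint cocycles to a place where the residual representation is
unramified.
-/
import Fermat.Agent.TW.DualDefs
import Fermat.Agent.TW.LocalCondBAlgebra
import Fermat.Agent.Galois.TameGenerator
import Fermat.Agent.Reducible.Places
import Fermat.Agent.PoitouTate.GlobalLocalConj

set_option autoImplicit false

noncomputable section

open scoped Pointwise

namespace Fermat.Agent.TW.Places

local notation "Qb" => AlgebraicClosure ℚ
local notation "Γℚ" => AlgebraicClosure ℚ ≃ₐ[ℚ] AlgebraicClosure ℚ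

section Place

variable (q : ℕ) [hq : Fact q.Prime]

theorem padicPlace_over : (padicPlace q).LiesOverPrime q := by
  show (q : Qb) ∈ (padicPlace q).nonunits
  rw [ValuationSubring.mem_nonunits_iff_or]
  refine Or.inr fun h => ?_
  rw [mem_padicPlace_iff, map_inv₀, map_natCast,
    ← map_natCast (algebraMap ℚ_[q] (PadicAlgCl q)), nnnorm_inv, nnnorm_algebraMap',
    ← NNReal.coe_le_coe, NNReal.coe_inv, coe_nnnorm, Padic.norm_p, inv_inv, NNReal.coe_one] at h
  exact absurd h (not_le.mpr (by exact_mod_cast hq.out.one_lt))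

theorem mem_nonunits_padicPlace_iff {x : Qb} :
    x ∈ (padicPlace q).nonunits ↔ ‖padicEmbedding q x‖ < 1 := by
  rw [ValuationSubring.mem_nonunits_iff_or, mem_padicPlace_iff]
  constructor
  · rintro (rfl | h)
    · simp
    · rw [map_inv₀, nnnorm_inv, not_le] at h
      have hx : padicEmbedding q x ≠ 0 := fun h0 => by simp [h0] at h
      have h' : ‖padicEmbedding q x‖₊ < 1 := (one_lt_inv₀ (nnnorm_pos.2 hx)).1 h
      exact_mod_cast h'
  · intro h
    rcases eq_or_ne x 0 with hx | hx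
    · exact Or.inl hx
    · refine Or.inr ?_
      rw [map_inv₀, nnnorm_inv, not_le]
      have hx' : padicEmbedding q x ≠ 0 := fun h0 => hx ((map_eq_zero _).1 h0)
      exact (one_lt_inv₀ (nnnorm_pos.2 hx')).2 (by exact_mod_cast h)

/-- A decomposition element agrees on a finite layer with a local automorphism. -/
theorem exists_local_mul {σ : Γℚ} (hσ : σ ∈ (padicPlace q).decompositionSubgroup ℚ)
    (L : IntermediateField ℚ Qb) [FiniteDimensional ℚ L] :
    ∃ τ : GalQp q, ∃ s : Γℚ, (∀ x ∈ L, s x = x) ∧ σ = localGaloisToGlobal q τ * s := by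
  have hnorm : ∀ x ∈ L, ‖padicEmbedding q ((1 : Γℚ) x)‖ = ‖padicEmbedding q (σ x)‖ := by
    refine PoitouTate.norm_eq_of_lt_one_iff q fun x _ => ?_
    rw [← mem_nonunits_padicPlace_iff, ← mem_nonunits_padicPlace_iff, AlgEquiv.one_apply]
    constructor
    · exact Galois.map_mem_nonunits hσ
    · intro h
      have := Galois.map_mem_nonunits (inv_mem hσ) h
      rwa [← AlgEquiv.mul_apply, inv_mul_cancel, AlgEquiv.one_apply] at this
  obtain ⟨τ, s, hs, h⟩ := PoitouTate.exists_local_of_norm_eq q hnorm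
  rw [IntermediateField.mem_fixingSubgroup_iff] at hs
  exact ⟨τ, s, hs, by rw [h, mul_one]⟩

theorem inertia_le_decomposition (A : ValuationSubring Qb) :
    A.inertiaSubgroupIn ℚ ≤ A.decompositionSubgroup ℚ := Subgroup.map_subtype_le _

theorem exists_smul_padicPlace {P : ValuationSubring Qb} (hP : P.LiesOverPrime q) :
    ∃ g : Γℚ, g • padicPlace q = P :=
  Galois.exists_smul_eq_of_liesOverPrime hq.out (padicPlace_over q) hP

end Place

section Cocycles

variable {k : Type} [Field k] (ρ : ResidualGaloisRep k)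

theorem matRep_eq_one_of_inertia {q : ℕ} (hq : ρ.IsUnramifiedAt q) {P : ValuationSubring Qb}
    (hP : P.LiesOverPrime q) {σ : Γℚ} (hσ : σ ∈ P.inertiaSubgroupIn ℚ) : matRep ρ σ = 1 :=
  (matRep_eq_one_iff ρ σ).2 (hq P hP σ hσ)

theorem matRep_inv_eq_one {σ : Γℚ} (h : matRep ρ σ = 1) : matRep ρ σ⁻¹ = 1 := by
  have := LocalCondB.rep_inv_mul_self (matRep ρ) σ
  rwa [h, mul_one] at this

/-- A function of finite level is constant on the cosets of the fixer of a finite Galois layer
which also trivialises `ρ`. -/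
theorem exists_common_level {c : Γℚ → Matrix (Fin 2) (Fin 2) k} (hc : c ∈ globalFiniteLevel k) :
    ∃ L : IntermediateField ℚ Qb, FiniteDimensional ℚ L ∧ Normal ℚ L ∧
      ∀ g s : Γℚ, (∀ x ∈ L, s x = x) → c (g * s) = c g ∧ matRep ρ (g * s) = matRep ρ g := by
  obtain ⟨E, hE, hc⟩ := hc
  obtain ⟨F, hF, hr⟩ := matRep_factorsThroughFiniteLevel ρ
  have : FiniteDimensional ℚ (E ⊔ F : IntermediateField ℚ Qb) :=
    IntermediateField.finiteDimensional_sup E F
  refine ⟨IntermediateField.normalClosure ℚ (E ⊔ F : IntermediateField ℚ Qb) Qb,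
    normalClosure.is_finiteDimensional ℚ _ _, normalClosure.normal ℚ _ _, fun g s hs => ⟨?_, ?_⟩⟩
  · exact hc g s fun x hx => hs x (IntermediateField.le_normalClosure _ ((le_sup_left : E ≤ E ⊔ F) hx))
  · rw [map_mul, hr s fun x hx =>
      hs x (IntermediateField.le_normalClosure _ ((le_sup_right : F ≤ E ⊔ F) hx)), mul_one]

/-- An adjoint cocycle which is locally a coboundary vanishes on inertia at that place. -/
theorem globalCocycles_erase {q : ℕ} [Fact q.Prime] (hq : ρ.IsUnramifiedAt q)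
    {T : Finset ℕ} {c : Γℚ → Matrix (Fin 2) (Fin 2) k} (hc : c ∈ globalCocycles ρ T)
    (hloc : resLoc q c ∈ adCoboundaries (locRep ρ q)) :
    c ∈ globalCocycles ρ (T.erase q) := by
  refine ⟨hc.1, fun q' hq' hT P hP σ hσ => ?_⟩
  by_cases hqq : q' = q
  swap
  · exact hc.2 q' hq' (fun h => hT (Finset.mem_erase.2 ⟨hqq, h⟩)) P hP σ hσ
  subst hqq
  obtain ⟨hco, hlev⟩ := hc.1
  obtain ⟨-, hmul⟩ := (mem_adCocycles_iff _ _).1 hco
  obtain ⟨g, rfl⟩ := exists_smul_padicPlace q' hP
  set σ' := g⁻¹ * σ * g with hσ'def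
  have hσ' : σ' ∈ (padicPlace q').inertiaSubgroupIn ℚ := by
    have := Reducible.conj_mem_inertia (g := g⁻¹) hσ
    rwa [inv_smul_smul, inv_inv] at this
  obtain ⟨L, hLfin, -, hL⟩ := exists_common_level ρ hlev
  obtain ⟨τ, s, hs, hτ⟩ := exists_local_mul q' (inertia_le_decomposition _ hσ') L
  have hr1 : matRep ρ σ' = 1 := matRep_eq_one_of_inertia ρ hq (padicPlace_over q') hσ'
  have hrτ : matRep ρ (localGaloisToGlobal q' τ) = 1 := by rw [← (hL _ s hs).2, ← hτ, hr1]
  obtain ⟨M, -, hM⟩ := hloc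
  have hcσ' : c σ' = 0 := by
    rw [hτ, (hL _ s hs).1]
    have h := congr_fun hM τ
    simp only [adD_apply, resLoc, LinearMap.funLeft_apply, locRep, MonoidHom.comp_apply, map_inv,
      hrτ, matRep_inv_eq_one ρ hrτ, one_mul, mul_one, sub_self] at h
    exact h.symm
  have h1 : c 1 = 0 := by simpa using hmul 1 1
  have e : c g + matRep ρ g * c g⁻¹ * matRep ρ g⁻¹ = 0 := by rw [← hmul, mul_inv_cancel, h1]
  rw [show σ = g * (σ' * g⁻¹) by rw [hσ'def]; group, hmul, hmul, hcσ', hr1,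
    matRep_inv_eq_one ρ hr1, one_mul, mul_one, zero_add]
  exact e

/-- A twisted cocycle which is locally a coboundary vanishes on inertia at that place. -/
theorem dualCocycles_erase {q : ℕ} [Fact q.Prime] (hq : ρ.IsUnramifiedAt q)
    {T : Finset ℕ} {c : Γℚ → Matrix (Fin 2) (Fin 2) k} (hc : c ∈ dualCocycles ρ T)
    (hloc : resLoc q c ∈ twCoboundaries (locRep ρ q)) :
    c ∈ dualCocycles ρ (T.erase q) := by
  refine ⟨hc.1, fun q' hq' hT P hP σ hσ => ?_⟩
  by_cases hqq : q' = q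
  swap
  · exact hc.2 q' hq' (fun h => hT (Finset.mem_erase.2 ⟨hqq, h⟩)) P hP σ hσ
  subst hqq
  obtain ⟨hco, hlev⟩ := hc.1
  obtain ⟨-, hmul⟩ := (mem_twCocycles_iff _ _).1 hco
  obtain ⟨g, rfl⟩ := exists_smul_padicPlace q' hP
  set σ' := g⁻¹ * σ * g with hσ'def
  have hσ' : σ' ∈ (padicPlace q').inertiaSubgroupIn ℚ := by
    have := Reducible.conj_mem_inertia (g := g⁻¹) hσ
    rwa [inv_smul_smul, inv_inv] at this
  obtain ⟨L, hLfin, -, hL⟩ := exists_common_level ρ hlev
  obtain ⟨τ, s, hs, hτ⟩ := exists_local_mul q' (inertia_le_decomposition _ hσ') L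
  have hr1 : matRep ρ σ' = 1 := matRep_eq_one_of_inertia ρ hq (padicPlace_over q') hσ'
  have hrτ : matRep ρ (localGaloisToGlobal q' τ) = 1 := by rw [← (hL _ s hs).2, ← hτ, hr1]
  obtain ⟨M, -, hM⟩ := hloc
  have hcσ' : c σ' = 0 := by
    rw [hτ, (hL _ s hs).1]
    have h := congr_fun hM τ
    simp only [twD_apply, twConj_apply, resLoc, LinearMap.funLeft_apply, locRep,
      MonoidHom.comp_apply, map_inv, hrτ, matRep_inv_eq_one ρ hrτ, Matrix.det_one, one_smul,
      one_mul, mul_one, sub_self] at h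
    exact h.symm
  have h1 : c 1 = 0 := by simpa using hmul 1 1
  have e : c g + twConj (matRep ρ) g (c g⁻¹) = 0 := by rw [← hmul, mul_inv_cancel, h1]
  rw [show σ = g * (σ' * g⁻¹) by rw [hσ'def]; group, hmul, hmul, hcσ', zero_add,
    twConj_apply _ σ', hr1, matRep_inv_eq_one ρ hr1, Matrix.det_one, one_smul, one_mul, mul_one]
  exact e

/-- The adjoint cocycles unramified at the chosen place over `a`. -/
def unramifiedCocycles (a : ℕ) [Fact a.Prime] :
    Submodule k (Γℚ → Matrix (Fin 2) (Fin 2) k) where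
  carrier := {c | c ∈ adCocycles (matRep ρ) ⊓ globalFiniteLevel k ∧
    ∀ σ ∈ (padicPlace a).inertiaSubgroupIn ℚ, c σ = 0}
  add_mem' ha hb := ⟨add_mem ha.1 hb.1, fun σ hσ => by simp [ha.2 σ hσ, hb.2 σ hσ]⟩
  zero_mem' := ⟨zero_mem _, fun _ _ => rfl⟩
  smul_mem' t c hc := ⟨Submodule.smul_mem _ t hc.1, fun σ hσ => by simp [hc.2 σ hσ]⟩

theorem adD_mem_adCocycles {G : Type*} [Group G] (r : G →* Matrix (Fin 2) (Fin 2) k)
    {M : Matrix (Fin 2) (Fin 2) k} (hM : M.trace = 0) : adD r M ∈ adCocycles r := by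
  rw [mem_adCocycles_iff]
  refine ⟨fun g => ?_, fun g h => ?_⟩
  · rw [adD_apply, Matrix.trace_sub, Matrix.trace_mul_comm, ← mul_assoc,
      LocalCondB.rep_inv_mul_self, one_mul, sub_self]
  · simp only [adD_apply, map_mul, mul_inv_rev, mul_sub, sub_mul, mul_assoc]
    abel

/-- The local classes at an auxiliary prime outside `T`: at most `h⁰` of them. -/
theorem exists_unramified_local {a : ℕ} [Fact a.Prime] (ha : ρ.IsUnramifiedAt a)
    (T : Finset ℕ) (haT : a ∉ T) :
    ∃ L : Submodule k (GalQp a → Matrix (Fin 2) (Fin 2) k),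
      adCoboundaries (locRep ρ a) ≤ L ∧ FiniteDimensional k L ∧ Module.finrank k L ≤ 3 ∧
        ∀ c ∈ globalCocycles ρ T, resLoc a c ∈ L := by
  set Z := unramifiedCocycles ρ a
  refine ⟨Z.map (resLoc a), ?_, ?_⟩
  · rintro _ ⟨M, hM, rfl⟩
    refine ⟨adD (matRep ρ) M, ⟨⟨adD_mem_adCocycles _ hM, ?_⟩, fun σ hσ => ?_⟩, ?_⟩
    · obtain ⟨F, hF, hr⟩ := matRep_factorsThroughFiniteLevel ρ
      refine ⟨F, hF, fun g s hs => ?_⟩
      simp only [adD_apply, mul_inv_rev, map_mul, hr s hs, matRep_inv_eq_one ρ (hr s hs), mul_one,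
        one_mul]
    · have h1 := matRep_eq_one_of_inertia ρ ha (padicPlace_over a) hσ
      simp [adD_apply, h1, matRep_inv_eq_one ρ h1]
    · funext g
      simp [resLoc, LinearMap.funLeft_apply, adD_apply, locRep, map_inv]
  obtain ⟨φ, hφ⟩ := Galois.exists_isFrobeniusAt (Fact.out : a.Prime) (padicPlace_over a)
  let ev : Z →ₗ[k] trZero k :=
    ((LinearMap.proj φ).comp Z.subtype).codRestrict _ fun c =>
      ((mem_adCocycles_iff _ _).1 c.2.1.1).1 φ
  let res : Z →ₗ[k] (GalQp a → Matrix (Fin 2) (Fin 2) k) := (resLoc a).comp Z.subtype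
  have hker : LinearMap.ker ev ≤ LinearMap.ker res := by
    intro c hc
    have hcφ : (c : Γℚ → Matrix (Fin 2) (Fin 2) k) φ = 0 := congr_arg Subtype.val hc
    obtain ⟨hco, hlev⟩ := c.2.1
    obtain ⟨-, hmul⟩ := (mem_adCocycles_iff _ _).1 hco
    have h1 : (c : Γℚ → Matrix (Fin 2) (Fin 2) k) 1 = 0 := by simpa using hmul 1 1
    have hpow : ∀ j : ℕ, (c : Γℚ → Matrix (Fin 2) (Fin 2) k) (φ ^ j) = 0 := fun j => by
      induction j with
      | zero => simpa using h1
      | succ j ih => rw [pow_succ, hmul, ih, hcφ, mul_zero, zero_mul, add_zero]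
    obtain ⟨L, hLfin, hLn, hL⟩ := exists_common_level ρ hlev
    funext τ
    obtain ⟨j, h, hh, hgh⟩ := Galois.exists_decomposition_eq (L := L) (Fact.out : a.Prime)
      (padicPlace_over a) hφ (localGaloisToGlobal_mem_decompositionSubgroup a τ)
    have hs : ∀ x ∈ L, ((φ ^ j * h)⁻¹ * localGaloisToGlobal a τ) x = x := fun x hx => by
      rw [AlgEquiv.mul_apply, hgh x hx, ← AlgEquiv.mul_apply, inv_mul_cancel, AlgEquiv.one_apply]
    show (c : Γℚ → Matrix (Fin 2) (Fin 2) k) (localGaloisToGlobal a τ) = 0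
    rw [← mul_inv_cancel_left (φ ^ j * h) (localGaloisToGlobal a τ), (hL _ _ hs).1, hmul, hpow j,
      c.2.2 h hh, mul_zero, zero_mul, add_zero]
  have hmap : Z.map (resLoc a) = LinearMap.range ((LinearMap.ker ev).liftQ res hker) := by
    rw [Submodule.range_liftQ, LinearMap.range_comp, Submodule.range_subtype]
  have hq : FiniteDimensional k (Z ⧸ LinearMap.ker ev) :=
    Module.Finite.equiv ev.quotKerEquivRange.symm
  refine ⟨?_, ?_, fun c hc => ⟨c, ⟨hc.1, hc.2 a Fact.out haT _ (padicPlace_over a)⟩, rfl⟩⟩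
  · rw [hmap]; infer_instance
  · rw [hmap]
    refine (LinearMap.finrank_range_le _).trans ?_
    rw [ev.quotKerEquivRange.finrank_eq]
    exact (Submodule.finrank_le _).trans LocalCondB.finrank_trZero.le

end Cocycles

end Fermat.Agent.TW.Places
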