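/-
Finiteness of global cocycles unramified outside a finite set, and their detection at Frobenius
elements.
-/
import Fermat.Agent.TW.PrimesLocal
import Fermat.Agent.TW.PrimesRep
import Fermat.Agent.TW.Detection
import Fermat.Agent.MW.WeakUnramified
import Fermat.Agent.Density.Main

set_option autoImplicit false

noncomputable section

open scoped Pointwise

namespace Fermat.Agent.TW.Places

local notation "Qb" => AlgebraicClosure ℚ
local notation "Γℚ" => AlgebraicClosure ℚ ≃ₐ[ℚ] AlgebraicClosure ℚ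

variable {k : Type} [Field k] (ρ : ResidualGaloisRep k)

local notation "M₂k" => Matrix (Fin 2) (Fin 2) k

/-- One layer is a level of all cocycles unramified outside `S`. -/
theorem exists_uniform_level [Finite k] (Ψ : Γℚ → (M₂k →ₗ[k] M₂k))
    (hΨ : ∀ s, matRep ρ s = 1 → ∀ X, Ψ s X = X) (S : Finset ℕ)
    (hram : ∀ q : ℕ, q.Prime → q ∉ S → ρ.IsUnramifiedAt q) :
    ∃ L : IntermediateField ℚ Qb, FiniteDimensional ℚ L ∧
      ∀ c : Γℚ → M₂k, (∀ g h, c (g * h) = c g + Ψ g (c h)) → c ∈ globalFiniteLevel k →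
        (∀ q : ℕ, q.Prime → q ∉ S → ∀ P : ValuationSubring Qb, P.LiesOverPrime q →
          ∀ σ ∈ P.inertiaSubgroupIn ℚ, c σ = 0) →
        ∀ g s : Γℚ, (∀ x ∈ L, s x = x) → c (g * s) = c g := by
  obtain ⟨U, hU, hle⟩ := MW.exists_isOpen_le_of_isUnramifiedOutside S (Nat.card (M₂k × M₂k))
  obtain ⟨L, hL, hLU⟩ :=
    (krullTopology_mem_nhds_one_iff ℚ Qb (U : Set Γℚ)).1 (hU.mem_nhds U.one_mem)
  refine ⟨L, hL, fun c hc hlev hunr g s hs => ?_⟩
  have h1 : c 1 = 0 := by
    have := hc 1 1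
    rw [mul_one, hΨ 1 (map_one _)] at this
    simpa using this
  let H : Subgroup Γℚ :=
    { carrier := {a | matRep ρ a = 1 ∧ c a = 0}
      one_mem' := ⟨map_one _, h1⟩
      mul_mem' := fun {a b} ha hb => ⟨by rw [map_mul, ha.1, hb.1, one_mul],
        by rw [hc, ha.2, hΨ a ha.1, hb.2, add_zero]⟩
      inv_mem' := fun {a} ha => ⟨matRep_inv_eq_one ρ ha.1, by
        have := hc a a⁻¹
        rw [mul_inv_cancel, h1, ha.2, hΨ a ha.1, zero_add] at this
        exact this.symm⟩ }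
  have hH : H.Normal := ⟨fun a ha h => by
    refine ⟨by rw [map_mul, map_mul, ha.1, mul_one, LocalCondB.rep_mul_inv_self], ?_⟩
    have e : c h + Ψ h (c h⁻¹) = 0 := by rw [← hc, mul_inv_cancel, h1]
    rw [mul_assoc, hc, hc a, ha.2, hΨ a ha.1, zero_add]
    exact e⟩
  have hopen : IsOpen (H : Set Γℚ) := by
    obtain ⟨E, hE, -, hEc⟩ := exists_common_level ρ hlev
    refine Subgroup.isOpen_mono (H₁ := E.fixingSubgroup) ?_ E.fixingSubgroup_isOpen
    intro a ha
    rw [IntermediateField.mem_fixingSubgroup_iff] at ha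
    obtain ⟨ec, er⟩ := hEc 1 a ha
    rw [one_mul] at ec er
    exact ⟨er.trans (map_one _), ec.trans h1⟩
  have hindex : H.index ≤ Nat.card (M₂k × M₂k) := by
    rw [Subgroup.index_eq_card]
    refine Nat.card_le_card_of_injective
      (fun x => (matRep ρ (Quotient.out x), c (Quotient.out x))) fun x y hxy => ?_
    simp only [Prod.mk.injEq] at hxy
    set a := Quotient.out x
    set b := Quotient.out y
    rw [← Quotient.out_eq x, ← Quotient.out_eq y]
    refine QuotientGroup.eq.2 ⟨?_, ?_⟩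
    · rw [map_mul, ← hxy.1, LocalCondB.rep_inv_mul_self]
    · have e := hc a⁻¹ b
      rw [← hxy.2, ← hc a⁻¹ a, inv_mul_cancel, h1] at e
      exact e
  have hs' : s ∈ H := hle H hH hopen hindex (fun q hq hqS P hP σ hσ =>
    ⟨matRep_eq_one_of_inertia ρ (hram q hq hqS) hP hσ, hunr q hq hqS P hP σ hσ⟩)
    (hLU (by rwa [SetLike.mem_coe, IntermediateField.mem_fixingSubgroup_iff]))
  rw [hc, hs'.2, map_zero, add_zero]

/-- A space of cocycles with a uniform level is finite dimensional. -/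
theorem finiteDimensional_of_level [Finite k] (Z : Submodule k (Γℚ → M₂k))
    (L : IntermediateField ℚ Qb) [FiniteDimensional ℚ L]
    (h : ∀ c ∈ Z, ∀ g s : Γℚ, (∀ x ∈ L, s x = x) → c (g * s) = c g) :
    FiniteDimensional k Z := by
  have : Finite (Γℚ ⧸ L.fixingSubgroup) :=
    Subgroup.quotient_finite_of_isOpen _ L.fixingSubgroup_isOpen
  refine FiniteDimensional.of_injective
    ((LinearMap.funLeft k M₂k (Quotient.out : Γℚ ⧸ L.fixingSubgroup → Γℚ)).comp Z.subtype) ?_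
  intro a b hab
  refine Subtype.ext (funext fun g => ?_)
  set o := Quotient.out (QuotientGroup.mk g : Γℚ ⧸ L.fixingSubgroup) with ho
  have hs : o⁻¹ * g ∈ L.fixingSubgroup := QuotientGroup.eq.1 (Quotient.out_eq _)
  rw [IntermediateField.mem_fixingSubgroup_iff] at hs
  have key : ∀ c ∈ Z, c g = c o := fun c hc => by
    rw [← h c hc o _ hs, mul_inv_cancel_left]
  rw [key _ a.2, key _ b.2]
  exact congr_fun hab (QuotientGroup.mk g)

theorem exists_uniform_level_adjoint [Finite k] (S : Finset ℕ)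
    (hram : ∀ q : ℕ, q.Prime → q ∉ S → ρ.IsUnramifiedAt q) :
    ∃ L : IntermediateField ℚ Qb, FiniteDimensional ℚ L ∧
      ∀ c ∈ globalCocycles ρ S, ∀ g s : Γℚ, (∀ x ∈ L, s x = x) → c (g * s) = c g := by
  obtain ⟨L, hL, h⟩ := exists_uniform_level ρ (adConj (matRep ρ)) (fun s hs X => by
    rw [adConj_apply, hs, matRep_inv_eq_one ρ hs, one_mul, mul_one]) S hram
  exact ⟨L, hL, fun c hc =>
    h c (fun g g' => ((mem_adCocycles_iff _ _).1 hc.1.1).2 g g') hc.1.2 hc.2⟩

theorem finiteDimensional_globalCocycles [Finite k] (S : Finset ℕ)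
    (hram : ∀ q : ℕ, q.Prime → q ∉ S → ρ.IsUnramifiedAt q) :
    FiniteDimensional k (globalCocycles ρ S) := by
  obtain ⟨L, hL, h⟩ := exists_uniform_level_adjoint ρ S hram
  exact finiteDimensional_of_level _ L h

theorem finiteDimensional_dualCocycles [Finite k] (S : Finset ℕ)
    (hram : ∀ q : ℕ, q.Prime → q ∉ S → ρ.IsUnramifiedAt q) :
    FiniteDimensional k (dualCocycles ρ S) := by
  obtain ⟨L, hL, h⟩ := exists_uniform_level ρ (twConj (matRep ρ)) (fun s hs X => by
    rw [twConj_apply, hs, matRep_inv_eq_one ρ hs, Matrix.det_one, one_smul, one_mul, mul_one])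
    S hram
  exact finiteDimensional_of_level _ L fun c hc =>
    h c ((mem_twCocycles_iff _ _).1 hc.1.1).2 hc.1.2 hc.2

/-! ### Frobenius elements -/

/-- Automorphisms with the same values on `L` differ by a fixer of `L`. -/
theorem exists_mul_of_eqOn {a b : Γℚ} {L : IntermediateField ℚ Qb} (h : ∀ x ∈ L, a x = b x) :
    ∃ s : Γℚ, (∀ x ∈ L, s x = x) ∧ a = b * s :=
  ⟨b⁻¹ * a, fun x hx => by
    rw [AlgEquiv.mul_apply, h x hx, ← AlgEquiv.mul_apply, inv_mul_cancel, AlgEquiv.one_apply],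
    (mul_inv_cancel_left b a).symm⟩

/-- Two Frobenius elements at one place differ by inertia. -/
theorem frobenius_inv_mul_mem_inertia {A : ValuationSubring Qb} {φ φ' : Γℚ} {q : ℕ}
    (h : A.IsFrobeniusAt φ q) (h' : A.IsFrobeniusAt φ' q) :
    φ'⁻¹ * φ ∈ A.inertiaSubgroupIn ℚ := by
  obtain ⟨hφ, hx⟩ := h
  obtain ⟨hφ', hx'⟩ := h'
  refine ⟨(⟨φ', hφ'⟩ : A.decompositionSubgroup ℚ)⁻¹ * ⟨φ, hφ⟩, ?_, rfl⟩
  rw [ValuationSubring.inertiaSubgroup, SetLike.mem_coe, MonoidHom.mem_ker]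
  refine RingEquiv.ext fun y => ?_
  show ((⟨φ', hφ'⟩ : A.decompositionSubgroup ℚ)⁻¹ * ⟨φ, hφ⟩) • y = y
  rw [mul_smul, inv_smul_eq_iff, hx, hx']

/-- Every element agrees on a finite Galois layer with a conjugate of a power of a Frobenius
element at one of the chosen places, and conversely. -/
theorem exists_frobenius_conj (σ : Γℚ) (L : IntermediateField ℚ Qb) [FiniteDimensional ℚ L]
    [Normal ℚ L] (S : Finset ℕ) :
    ∃ ℓ : ℕ, ∃ _ : Fact ℓ.Prime, ℓ ∉ S ∧ ∃ τ h : Γℚ, (padicPlace ℓ).IsFrobeniusAt τ ℓ ∧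
      (∃ j : ℕ, ∀ x ∈ L, σ x = (h * τ ^ j * h⁻¹) x) ∧
      ∃ j : ℕ, ∀ x ∈ L, τ x = (h⁻¹ * σ ^ j * h) x := by
  obtain ⟨ℓ, hℓ, hS, A, hA, τ, hτ, ⟨j, hj⟩, j', hj'⟩ := Density.exists_frobenius_pow σ L S
  have hℓF := Fact.mk hℓ
  obtain ⟨h, rfl⟩ := exists_smul_padicPlace ℓ hA
  refine ⟨ℓ, hℓF, hS, h⁻¹ * τ * h, h, ?_, ⟨j, fun x hx => ?_⟩, j', fun x hx => ?_⟩
  · have := Density.isFrobeniusAt_conj hτ h⁻¹
    rwa [inv_smul_smul, inv_inv] at this
  · rw [hj x hx]
    congr 1
    have : (h⁻¹ * τ * h) ^ j = h⁻¹ * τ ^ j * h := by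
      simpa using conj_pow (i := j) (a := h⁻¹) (b := τ)
    rw [this]
    group
  · simp only [AlgEquiv.mul_apply]
    rw [hj' _ (by rw [Galois.layer_coe_apply h (⟨x, hx⟩ : L)]; exact SetLike.coe_mem _)]

/-! ### The infinitesimal trace -/

theorem infTrace_adD (M : M₂k) (g : Γℚ) : infTrace (matRep ρ) (adD (matRep ρ) M) g = 0 := by
  rw [infTrace, adD_apply, sub_mul, mul_assoc, LocalCondB.rep_inv_mul_self, mul_one,
    Matrix.trace_sub, Matrix.trace_mul_comm, sub_self]

theorem infTrace_twD {M : M₂k} {g : Γℚ} (hg : (matRep ρ g).det = 1) :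
    infTrace (matRep ρ) (twD (matRep ρ) M) g = 0 := by
  rw [infTrace, twD_apply, twConj_apply, hg, one_smul, sub_mul, mul_assoc,
    LocalCondB.rep_inv_mul_self, mul_one, Matrix.trace_sub, Matrix.trace_mul_comm, sub_self]

theorem infTrace_conj_adjoint {c : Γℚ → M₂k} (hc : c ∈ adCocycles (matRep ρ)) (g h : Γℚ) :
    infTrace (matRep ρ) c (h * g * h⁻¹) = infTrace (matRep ρ) c g := by
  obtain ⟨-, hmul⟩ := (mem_adCocycles_iff _ _).1 hc
  set r := matRep ρ
  have h1 : c 1 = 0 := by simpa using hmul 1 1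
  have e : r h * c h⁻¹ * r h⁻¹ = -c h := by
    refine eq_neg_of_add_eq_zero_right ?_
    rw [← hmul, mul_inv_cancel, h1]
  have e' : c h⁻¹ = -(r h⁻¹ * c h * r h) := by
    have := congr_arg (fun X => r h⁻¹ * X * r h) e
    simp only [mul_assoc, LocalCondB.rep_inv_mul_self, mul_one, mul_neg, neg_mul] at this
    rw [← mul_assoc, LocalCondB.rep_inv_mul_self, one_mul] at this
    rw [this, mul_assoc]
  set R := r h * (r g * r h⁻¹)
  set R' := r h * (r g⁻¹ * r h⁻¹)
  have hR : r (h * g * h⁻¹) = R := by rw [map_mul, map_mul, mul_assoc]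
  have hc' : c (h * g * h⁻¹) = c h + r h * c g * r h⁻¹ - R * c h * R' := by
    rw [mul_assoc, hmul, hmul g, e']
    simp only [R, R', mul_add, add_mul, mul_neg, neg_mul, mul_assoc]
    abel
  have hR'R : R' * R = 1 := by
    rw [← hR, show R' = r (h * g⁻¹ * h⁻¹) by rw [map_mul, map_mul, mul_assoc], ← map_mul,
      show h * g⁻¹ * h⁻¹ * (h * g * h⁻¹) = 1 by group, map_one]
  rw [infTrace, infTrace, hR, hc', sub_mul, add_mul, Matrix.trace_sub, Matrix.trace_add,
    mul_assoc (R * c h) R', hR'R, mul_one, Matrix.trace_mul_comm R (c h)]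
  have : (r h * c g * r h⁻¹ * R).trace = (c g * r g).trace := by
    rw [Matrix.trace_mul_comm]
    simp only [R, mul_assoc]
    rw [← mul_assoc (r h⁻¹) (r h), LocalCondB.rep_inv_mul_self, one_mul, Matrix.trace_mul_comm]
    simp only [mul_assoc]
    rw [LocalCondB.rep_inv_mul_self, mul_one, Matrix.trace_mul_comm]
  rw [this]
  ring

theorem infTrace_conj_twisted {c : Γℚ → M₂k} (hc : c ∈ twCocycles (matRep ρ)) {g : Γℚ}
    (hg : (matRep ρ g).det = 1) (h : Γℚ) :
    infTrace (matRep ρ) c (h * g * h⁻¹) = (matRep ρ h).det * infTrace (matRep ρ) c g := by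
  obtain ⟨-, hmul⟩ := (mem_twCocycles_iff _ _).1 hc
  set r := matRep ρ
  have hdd : (r h).det * (r h⁻¹).det = 1 := by
    rw [← Matrix.det_mul, LocalCondB.rep_mul_inv_self, Matrix.det_one]
  have h1 : c 1 = 0 := by simpa using hmul 1 1
  have e : (r h).det • (r h * c h⁻¹ * r h⁻¹) = -c h := by
    refine eq_neg_of_add_eq_zero_right ?_
    rw [← twConj_apply, ← hmul, mul_inv_cancel, h1]
  have e' : c h⁻¹ = -((r h⁻¹).det • (r h⁻¹ * c h * r h)) := by
    have := congr_arg (fun X => (r h⁻¹).det • (r h⁻¹ * X * r h)) e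
    simp only [mul_assoc, mul_smul_comm, smul_mul_assoc, smul_smul, LocalCondB.rep_inv_mul_self,
      mul_one, mul_neg, neg_mul, smul_neg, mul_comm (r h⁻¹).det, hdd, one_smul] at this
    rw [← mul_assoc, LocalCondB.rep_inv_mul_self, one_mul] at this
    rw [this, mul_assoc]
  set R := r h * (r g * r h⁻¹)
  set R' := r h * (r g⁻¹ * r h⁻¹)
  have hR : r (h * g * h⁻¹) = R := by rw [map_mul, map_mul, mul_assoc]
  have hc' : c (h * g * h⁻¹) =
      c h + (r h).det • (r h * c g * r h⁻¹) - R * c h * R' := by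
    rw [mul_assoc, hmul, twConj_apply, hmul g, twConj_apply, hg, one_smul, e']
    simp only [R, R', mul_add, add_mul, mul_neg, neg_mul, mul_assoc, mul_smul_comm, smul_mul_assoc,
      smul_neg, smul_add, smul_smul, hdd, one_smul]
    abel
  have hR'R : R' * R = 1 := by
    rw [← hR, show R' = r (h * g⁻¹ * h⁻¹) by rw [map_mul, map_mul, mul_assoc], ← map_mul,
      show h * g⁻¹ * h⁻¹ * (h * g * h⁻¹) = 1 by group, map_one]
  rw [infTrace, infTrace, hR, hc', sub_mul, add_mul, Matrix.trace_sub, Matrix.trace_add,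
    smul_mul_assoc, Matrix.trace_smul, mul_assoc (R * c h) R', hR'R, mul_one,
    Matrix.trace_mul_comm R (c h)]
  have : (r h * c g * r h⁻¹ * R).trace = (c g * r g).trace := by
    rw [Matrix.trace_mul_comm]
    simp only [R, mul_assoc]
    rw [← mul_assoc (r h⁻¹) (r h), LocalCondB.rep_inv_mul_self, one_mul, Matrix.trace_mul_comm]
    simp only [mul_assoc]
    rw [LocalCondB.rep_inv_mul_self, mul_one, Matrix.trace_mul_comm]
  rw [this, smul_eq_mul]
  ring

/-- Adjoint cocycles unramified outside `S0` are detected at a finite set of primes outside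
`S0`. -/
theorem exists_detecting_finset [Finite k] {p : ℕ} [Fact p.Prime] [CharP k p] (h : TWHyp p ρ)
    (S0 : Finset ℕ) (hram : ∀ q : ℕ, q.Prime → q ∉ S0 → ρ.IsUnramifiedAt q) :
    ∃ A : Finset ℕ, (∀ a ∈ A, a.Prime ∧ a ∉ S0) ∧
      ∀ c ∈ globalCocycles ρ S0,
        (∀ (a : ℕ) [Fact a.Prime], a ∈ A → resLoc a c ∈ adCoboundaries (locRep ρ a)) →
          c ∈ adCoboundaries (matRep ρ) := by
  classical
  have h2 := two_ne_zero_of_hyp ρ h
  have hspan := span_range_matRep ρ h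
  have hfd := finiteDimensional_globalCocycles ρ S0 hram
  have : Finite (globalCocycles ρ S0) := Module.finite_of_finite k
  let _ := Fintype.ofFinite (globalCocycles ρ S0)
  have key : ∀ c : globalCocycles ρ S0, ∃ a : ℕ, a.Prime ∧ a ∉ S0 ∧
      ((∀ _ : Fact a.Prime, resLoc a (c : Γℚ → M₂k) ∈ adCoboundaries (locRep ρ a)) →
        (c : Γℚ → M₂k) ∈ adCoboundaries (matRep ρ)) := by
    intro c
    by_cases hB : (c : Γℚ → M₂k) ∈ adCoboundaries (matRep ρ)
    · obtain ⟨a, ha, hprime⟩ := Nat.exists_infinite_primes (S0.sup id + 1)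
      refine ⟨a, hprime, fun hmem => ?_, fun _ => hB⟩
      have := Finset.le_sup (f := id) hmem
      simp only [id_eq] at this
      omega
    obtain ⟨hco, hmul⟩ := (mem_adCocycles_iff _ _).1 c.2.1.1
    obtain ⟨σ, hσ⟩ := exists_infTrace_ne_zero (matRep ρ) h2 hspan (c : Γℚ → M₂k) hmul
      (by rintro ⟨m, hm, hm'⟩; exact hB ⟨m, hm, funext fun g => (hm' g).symm⟩)
    obtain ⟨L, hL, hLn, hlevel⟩ := exists_common_level ρ c.2.1.2
    obtain ⟨ℓ, hℓ, hS, τ, g, hτ, ⟨j, hj⟩, -⟩ := exists_frobenius_conj σ L S0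
    refine ⟨ℓ, hℓ.out, hS, fun hloc => absurd ?_ hσ⟩
    obtain ⟨M, -, hM⟩ := hloc hℓ
    obtain ⟨s, hs, hσs⟩ := exists_mul_of_eqOn hj
    obtain ⟨t, s', hs', ht⟩ :=
      exists_local_mul ℓ (pow_mem hτ.mem_decompositionSubgroup j) L
    rw [hσs, infTrace, (hlevel _ s hs).1, (hlevel _ s hs).2]
    show infTrace (matRep ρ) _ _ = 0
    rw [infTrace_conj_adjoint ρ c.2.1.1, infTrace, ht, (hlevel _ s' hs').1, (hlevel _ s' hs').2]
    have hMt := congr_fun hM t
    simp only [adD_apply, resLoc, LinearMap.funLeft_apply, locRep, MonoidHom.comp_apply,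
      map_inv] at hMt
    rw [← hMt]
    exact infTrace_adD ρ M (localGaloisToGlobal ℓ t)
  choose a ha1 ha2 ha3 using key
  refine ⟨Finset.univ.image a, fun x hx => ?_, fun c hc hloc => ?_⟩
  · obtain ⟨c, -, rfl⟩ := Finset.mem_image.1 hx
    exact ⟨ha1 c, ha2 c⟩
  · exact ha3 ⟨c, hc⟩ fun hF => @hloc _ hF (Finset.mem_image_of_mem a (Finset.mem_univ _))

end Fermat.Agent.TW.Places
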