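/-
`Ext¹(ad⁰, E_T)` injects into the twisted cocycles unramified outside `T` modulo coboundaries
(Kummer theory with equivariance built in).
-/
import Fermat.Agent.TW.LowerModule
import Fermat.Agent.TW.PrimesDetect
import Fermat.Agent.PoitouTate.Sha2Rel

set_option autoImplicit false

noncomputable section

namespace Fermat.Agent.TW

open PoitouTate ExtOne

local notation "Qb" => AlgebraicClosure ℚ

variable {p : ℕ} [Fact p.Prime] {k : Type} [Field k] [CharP k p] (ρ : ResidualGaloisRep k)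

omit [Fact p.Prime] in
/-- Maps into the divisible group `Qu` extend. -/
theorem exists_extension_qu {X : Type} [AddCommGroup X] (H : AddSubgroup X) (K : AddSubgroup Qu)
    (g : ↥H →+ ↥K) : ∃ ψ : X →+ Qu, ∀ r : H, ψ (r : X) = ((g r : K) : Qu) := by
  obtain ⟨ψ, hψ⟩ := (Module.Baer.of_divisible Qu).extension_property_addMonoidHom H.subtype
    Subtype.val_injective (K.subtype.comp g)
  exact ⟨ψ, fun r => DFunLike.congr_fun hψ r⟩

/-- The free module of the adjoint. -/
abbrev AdFree (p : ℕ) {k : Type} [Field k] (ρ : ResidualGaloisRep k) : Type :=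
  FreeMod (GQ ⧸ (repLevel ρ).fixingSubgroup) (AdN p k)

/-- The failure of equivariance of a map to the multiplicative group. -/
def difHom (ψ : AdFree p ρ →+ Qu) (σ : GQ) : AdFree p ρ →+ Qu :=
  (DistribSMul.toAddMonoidHom Qu σ).comp (ψ.comp (freeAct (QuotientGroup.mk σ)⁻¹)) - ψ

omit [Fact p.Prime] [CharP k p] in
theorem difHom_apply (ψ : AdFree p ρ →+ Qu) (σ : GQ) (x : AdFree p ρ) :
    difHom ρ ψ σ x = σ • ψ (freeAct (QuotientGroup.mk σ)⁻¹ x) - ψ x := rfl

omit [Fact p.Prime] [CharP k p] in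
theorem freeAct_mul {G N : Type} [Group G] (σ τ : G) (x : FreeMod G N) :
    freeAct (σ * τ) x = freeAct σ (freeAct τ x) := by
  suffices h : freeAct (σ * τ) = (freeAct σ).comp (freeAct (N := N) τ) from DFunLike.congr_fun h x
  exact Finsupp.addHom_ext fun y m => by
    obtain ⟨g, n⟩ := y
    simp [mul_assoc]

omit [Fact p.Prime] [CharP k p] in
theorem freeAct_one {G N : Type} [Group G] (x : FreeMod G N) : freeAct (1 : G) x = x := by
  suffices h : freeAct (1 : G) = AddMonoidHom.id (FreeMod G N) from DFunLike.congr_fun h x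
  exact Finsupp.addHom_ext fun y m => by
    obtain ⟨g, n⟩ := y
    simp

/-- The cochain attached to a map to the multiplicative group, in matrix form. -/
def IsKummerOf (l : k →+ ZMod p) (ψ : AdFree p ρ →+ Qu)
    (c : GQ → Matrix (Fin 2) (Fin 2) k) : Prop :=
  (∀ σ, (c σ).trace = 0) ∧ ∀ (σ : GQ) (n : AdN p k),
    zHom p (l (c σ * AdN.mat n).trace) = difHom ρ ψ σ (Finsupp.single (1, n) 1)

theorem IsKummerOf.sub {l : k →+ ZMod p} {ψ ψ' : AdFree p ρ →+ Qu}
    {c c' : GQ → Matrix (Fin 2) (Fin 2) k} (h : IsKummerOf ρ l ψ c) (h' : IsKummerOf ρ l ψ' c') :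
    IsKummerOf ρ l (ψ - ψ') (c - c') := by
  refine ⟨fun σ => by rw [Pi.sub_apply, Matrix.trace_sub, h.1, h'.1, sub_zero], fun σ n => ?_⟩
  rw [Pi.sub_apply, sub_mul, Matrix.trace_sub, map_sub, map_sub, h.2, h'.2]
  simp only [difHom_apply, AddMonoidHom.sub_apply, smul_sub]
  abel

theorem eq_zero_of_zHom_trace [Finite k] (h2 : (2 : k) ≠ 0) {l : k →+ ZMod p} (hl : l 1 ≠ 0)
    {M : Matrix (Fin 2) (Fin 2) k} (hM : M.trace = 0)
    (h : ∀ n : AdN p k, zHom p (l (M * AdN.mat n).trace) = 0) : M = 0 := by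
  have h0 : AdN.mk (p := p) M hM = 0 := (tracePairing_bijective h2 hl).1 (by
    rw [map_zero]
    exact AddMonoidHom.ext fun n => (torsGen_zHom p).injective (by
      rw [AddMonoidHom.zero_apply, map_zero, tracePairing_apply, AdN.mat_mk]
      exact h n))
  exact congrArg AdN.mat h0

variable (T : Finset ℕ)

/-- The units of the level of the representation. -/
abbrev RepUnits : Type := ↥(TUnits (toPrimes T) (repLevel ρ))

/-- Multiplication of the twisted conjugations. -/
theorem twConj_mul (σ τ : GQ) (M : Matrix (Fin 2) (Fin 2) k) :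
    twConj (matRep ρ) (σ * τ) M = twConj (matRep ρ) σ (twConj (matRep ρ) τ M) := by
  simp only [twConj_apply, map_mul, mul_inv_rev, Matrix.det_mul, mul_smul_comm, smul_mul_assoc,
    smul_smul, mul_assoc]

theorem twD_mem_dualCocycles (hram : ∀ q : ℕ, q.Prime → q ∉ T → ρ.IsUnramifiedAt q)
    {M : Matrix (Fin 2) (Fin 2) k} (hM : M.trace = 0) :
    twD (matRep ρ) M ∈ dualCocycles ρ T := by
  have hL := isLvl_repLevel ρ T hram
  have hker : ∀ s ∈ (repLevel ρ).fixingSubgroup, twConj (matRep ρ) s M = M := fun s hs => by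
    rw [twConj_apply, (mem_fixingSubgroup_repLevel ρ).1 hs,
      (mem_fixingSubgroup_repLevel ρ).1 (inv_mem hs), Matrix.det_one, one_smul, one_mul, mul_one]
  refine ⟨⟨(mem_twCocycles_iff _ _).2 ⟨fun σ => ?_, fun σ τ => ?_⟩,
    repLevel ρ, hL.unramified.1, fun g s hs => ?_⟩, fun q hq hqT P hP σ hσ => ?_⟩
  · rw [twD_apply, Matrix.trace_sub, twConj_apply, Matrix.trace_smul, trace_conj, hM, smul_zero,
      sub_zero]
  · rw [twD_apply, twD_apply, twD_apply, twConj_mul, map_sub]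
    abel
  · rw [twD_apply, twD_apply, twConj_mul,
      hker s ((IntermediateField.mem_fixingSubgroup_iff _ _).2 hs)]
  · rw [twD_apply, hker σ (hL.unramified.2 ⟨q, hq⟩ (fun h => hqT (mem_toPrimes.1 h)) P hP hσ),
      sub_self]

variable {T}
variable {l : k →+ ZMod p} {f : ExtOne.homRel (adjRep (p := p) ρ) (RepUnits ρ T)}
  {ψ : AdFree p ρ →+ Qu}
  (hψ : ∀ r : relMod (adjRep (p := p) ρ),
    ψ (r : AdFree p ρ) = (((f : ↥(relMod (adjRep (p := p) ρ)) →+ RepUnits ρ T) r : RepUnits ρ T) : Qu))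

include hψ in
theorem difHom_eq_zero (σ : GQ) (r : relMod (adjRep (p := p) ρ)) :
    difHom ρ ψ σ (r : AdFree p ρ) = 0 := by
  rw [difHom_apply, sub_eq_zero, ← coe_relAct, hψ, mem_homRel.1 f.2, hψ, ← QuotientGroup.mk_inv,
    coe_smul_tUnits, smul_inv_smul]

include hψ in
theorem difHom_congr (σ : GQ) (x : AdFree p ρ) :
    difHom ρ ψ σ x = difHom ρ ψ σ (Finsupp.single (1, freeMap (adjRep (p := p) ρ) x) 1) := by
  rw [← sub_eq_zero, ← map_sub]
  exact difHom_eq_zero ρ hψ σ ⟨x - Finsupp.single (1, freeMap (adjRep (p := p) ρ) x) 1, by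
    simp [AddMonoidHom.mem_ker]⟩

include hψ in
theorem mem_EU_of_isExt (hpT : p ∈ T) (x : AdFree p ρ) : ψ x ∈ EU (toPrimes T) := by
  refine mem_EU_of_nsmul_mem ⟨_, pPrime_mem_toPrimes hpT⟩ (pPrime_mem_toPrimes hpT) ?_
  rw [← map_nsmul, hψ ⟨p • x, nsmul_mem_relMod _ x⟩]
  exact (((f : ↥(relMod (adjRep (p := p) ρ)) →+ RepUnits ρ T) _).2).1

include hψ in
theorem exists_isKummerOf [Finite k] (h : TWHyp p ρ) (hl : l 1 ≠ 0) (hpT : p ∈ T)
    (hram : ∀ q : ℕ, q.Prime → q ∉ T → ρ.IsUnramifiedAt q) :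
    ∃ c ∈ dualCocycles ρ T, IsKummerOf ρ l ψ c := by
  classical
  have h2 := Places.two_ne_zero_of_hyp ρ h
  have hval : ∀ σ (n : AdN p k), ∃ a, zHom p a = difHom ρ ψ σ (Finsupp.single (1, n) 1) :=
    fun σ n => (torsGen_zHom p).surjective _ (by
      rw [← map_nsmul]
      exact difHom_eq_zero ρ hψ σ ⟨_, nsmul_mem_relMod _ _⟩)
  choose lam hlam using hval
  have hadd : ∀ σ a b, lam σ (a + b) = lam σ a + lam σ b := fun σ a b =>
    (torsGen_zHom p).injective (by
      rw [map_add, hlam, hlam, hlam, ← map_add, ← sub_eq_zero, ← map_sub]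
      exact difHom_eq_zero ρ hψ σ ⟨_, by simp [AddMonoidHom.mem_ker]⟩)
  choose C hC using fun σ => (tracePairing_bijective h2 hl).2 (AddMonoidHom.mk' (lam σ) (hadd σ))
  have hCdef : IsKummerOf ρ l ψ fun σ => AdN.mat (C σ) := by
    refine ⟨fun σ => AdN.trace_mat _, fun σ n => ?_⟩
    rw [← hlam, ← tracePairing_apply, hC]
    rfl
  obtain ⟨htr, hC'⟩ := hCdef
  set c : GQ → Matrix (Fin 2) (Fin 2) k := fun σ => AdN.mat (C σ)
  have hcoc : ∀ σ τ, c (σ * τ) = c σ + twConj (matRep ρ) σ (c τ) := by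
    intro σ τ
    refine sub_eq_zero.1 (eq_zero_of_zHom_trace (p := p) h2 hl ?_ fun n => ?_)
    · rw [Matrix.trace_sub, Matrix.trace_add, htr, htr, twConj_apply, Matrix.trace_smul,
        trace_conj, htr, smul_zero, add_zero, sub_zero]
    · rw [sub_mul, add_mul, Matrix.trace_sub, Matrix.trace_add, map_sub, map_add, map_sub, map_add,
        hC', hC', sub_eq_zero]
      have hchi : zHom p (l (twConj (matRep ρ) σ (c τ) * AdN.mat n).trace) =
          σ • difHom ρ ψ τ (Finsupp.single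
            (1, adjRep (p := p) ρ (QuotientGroup.mk σ)⁻¹ n) 1) := by
        rw [← hC', smul_zHom, ← QuotientGroup.mk_inv, mat_adjRep, inv_inv, twConj_apply,
          smul_mul_assoc, Matrix.trace_smul, det_matRep_eq_cyclo ρ h.det, smul_eq_mul,
          ← nsmul_eq_mul, map_nsmul, nsmul_eq_mul, ZMod.natCast_zmod_val]
        congr 3
        rw [mul_assoc (matRep ρ σ * c τ), mul_assoc (matRep ρ σ),
          Matrix.trace_mul_comm (matRep ρ σ)]
        simp only [mul_assoc]
      rw [hchi]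
      have e := difHom_congr ρ hψ τ (Finsupp.single ((QuotientGroup.mk σ)⁻¹, n) 1)
      rw [freeMap_single, one_smul] at e
      rw [← e, difHom_apply, difHom_apply, difHom_apply, smul_sub, ← mul_smul, QuotientGroup.mk_mul,
        mul_inv_rev, freeAct_mul]
      simp only [freeAct_single, mul_one]
      abel
  -- the level
  haveI := (isLvl_repLevel ρ T hram).finite_quotient
  have hne : (toPrimes T).Nonempty := ⟨_, pPrime_mem_toPrimes hpT⟩
  obtain ⟨L, hL, hfix⟩ := exists_lvl_fixes hne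
    (Set.finite_range fun y : (GQ ⧸ (repLevel ρ).fixingSubgroup) × AdN p k =>
      ψ (Finsupp.single y 1))
    (by rintro _ ⟨y, rfl⟩; exact mem_EU_of_isExt ρ hψ hpT _)
  have hL' := (isLvl_repLevel ρ T hram).sup hL
  have hzero : ∀ s ∈ (repLevel ρ ⊔ L).fixingSubgroup, c s = 0 := fun s hs => by
    refine eq_zero_of_zHom_trace (p := p) h2 hl (htr s) fun n => ?_
    rw [hC', difHom_apply,
      (QuotientGroup.eq_one_iff s).2 (IntermediateField.fixingSubgroup_antitone le_sup_left hs),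
      inv_one, freeAct_one,
      hfix s (IntermediateField.fixingSubgroup_antitone le_sup_right hs) _ ⟨(1, n), rfl⟩, sub_self]
  refine ⟨c, ⟨⟨(mem_twCocycles_iff _ _).2 ⟨htr, hcoc⟩, repLevel ρ ⊔ L, hL'.unramified.1,
    fun g s hs => ?_⟩, fun q hq hqT P hP σ hσ => ?_⟩, htr, hC'⟩
  · rw [hcoc, hzero s ((IntermediateField.mem_fixingSubgroup_iff _ _).2 hs), map_zero, add_zero]
  · exact hzero σ (hL'.unramified.2 ⟨q, hq⟩ (fun h => hqT (mem_toPrimes.1 h)) P hP hσ)

include hψ in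
theorem mem_range_resRel_of_twD (h : TWHyp p ρ) (hpT : p ∈ T)
    {M : Matrix (Fin 2) (Fin 2) k}
    (hk : IsKummerOf ρ l ψ (twD (matRep ρ) M)) :
    f ∈ (resRel (adjRep (p := p) ρ) (RepUnits ρ T)).range := by
  obtain ⟨h₀, hh₀⟩ : ∃ h₀ : AdN p k →+ Qu, ∀ n, h₀ n = zHom p (l (M * AdN.mat n).trace) :=
    ⟨(zHom p).comp (l.comp (AddMonoidHom.mk' (fun n => (M * AdN.mat n).trace) fun a b => by
      rw [map_add, mul_add, Matrix.trace_add])), fun _ => rfl⟩
  let ψ' : AdFree p ρ →+ Qu := ψ - h₀.comp (freeMap (adjRep (p := p) ρ))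
  have hrel : ∀ r : relMod (adjRep (p := p) ρ), ψ' r = ψ r := fun r => by
    rw [AddMonoidHom.sub_apply, AddMonoidHom.comp_apply, r.2, map_zero, sub_zero]
  have hequiv : ∀ (σ : GQ) x, ψ' (freeAct (QuotientGroup.mk σ) x) = σ • ψ' x := by
    intro σ x
    have key : ∀ (σ : GQ) x, σ • ψ' (freeAct (QuotientGroup.mk σ)⁻¹ x) = ψ' x := by
      intro σ x
      have e := difHom_congr ρ hψ σ x
      rw [← hk.2, difHom_apply, twD_apply, sub_mul, Matrix.trace_sub, map_sub, map_sub, ← hh₀] at e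
      have hsm : σ • h₀ (freeMap (adjRep (p := p) ρ) (freeAct (QuotientGroup.mk σ)⁻¹ x)) =
          zHom p (l (twConj (matRep ρ) σ M *
            AdN.mat (freeMap (adjRep (p := p) ρ) x)).trace) := by
        set n := freeMap (adjRep (p := p) ρ) x with hn
        rw [freeMap_act, ← hn]
        rw [hh₀]
        rw [smul_zHom, ← QuotientGroup.mk_inv, mat_adjRep, inv_inv, twConj_apply,
          smul_mul_assoc, Matrix.trace_smul, det_matRep_eq_cyclo ρ h.det, smul_eq_mul,
          ← nsmul_eq_mul, map_nsmul, nsmul_eq_mul, ZMod.natCast_zmod_val]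
        congr 3
        rw [mul_assoc (matRep ρ σ * M), mul_assoc (matRep ρ σ),
          Matrix.trace_mul_comm (matRep ρ σ)]
        simp only [mul_assoc]
      rw [AddMonoidHom.sub_apply, AddMonoidHom.sub_apply, AddMonoidHom.comp_apply,
        AddMonoidHom.comp_apply, smul_sub, hsm]
      have e' : σ • ψ (freeAct (QuotientGroup.mk σ)⁻¹ x) =
          ψ x + (zHom p (l (twConj (matRep ρ) σ M * AdN.mat (freeMap (adjRep (p := p) ρ) x)).trace)
            - h₀ (freeMap (adjRep (p := p) ρ) x)) := eq_add_of_sub_eq' e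
      rw [e']
      abel
    rw [← key σ (freeAct (QuotientGroup.mk σ) x), ← freeAct_mul, inv_mul_cancel, freeAct_one]
  have hmem : ∀ n, ψ' (Finsupp.single (1, n) 1) ∈ TUnits (toPrimes T) (repLevel ρ) := fun n => by
    refine ⟨mem_EU_of_nsmul_mem ⟨_, pPrime_mem_toPrimes hpT⟩ (pPrime_mem_toPrimes hpT) ?_,
      fun s hs => ?_⟩
    · rw [← map_nsmul, hrel ⟨_, nsmul_mem_relMod _ _⟩, hψ ⟨_, nsmul_mem_relMod _ _⟩]
      exact (((f : ↥(relMod (adjRep (p := p) ρ)) →+ RepUnits ρ T) _).2).1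
    · rw [← hequiv, (QuotientGroup.eq_one_iff s).2 hs, freeAct_one]
  refine ⟨fun n => ⟨_, hmem n⟩, Subtype.ext (AddMonoidHom.ext fun r => Subtype.ext ?_)⟩
  rw [resRel_apply, ← hψ, ← hrel]
  suffices e : (TUnits (toPrimes T) (repLevel ρ)).subtype.comp
      (freeHom fun n => (⟨_, hmem n⟩ : RepUnits ρ T)) = ψ' from DFunLike.congr_fun e _
  refine Finsupp.addHom_ext fun y m => ?_
  obtain ⟨g, n⟩ := y
  induction g using QuotientGroup.induction_on with | H σ => ?_
  rw [AddMonoidHom.comp_apply, freeHom_single, map_zsmul, AddSubgroup.subtype_apply,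
    coe_smul_tUnits, ← hequiv, freeAct_single, mul_one, ← map_zsmul, Finsupp.smul_single,
    smul_eq_mul, mul_one]

omit hψ
set_option maxHeartbeats 1000000 in
variable (T) in
/-- The classes and the coboundaries inject into the twisted cocycles. -/
theorem card_ext1_mul_le [Finite k] (h : TWHyp p ρ) (hpT : p ∈ T)
    (hram : ∀ q : ℕ, q.Prime → q ∉ T → ρ.IsUnramifiedAt q) :
    FiniteDimensional k (dualCocycles ρ T) ∧
      Nat.card (Ext1 (adjRep (p := p) ρ) (RepUnits ρ T)) * Nat.card k ^ 3 ≤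
        Nat.card k ^ Module.finrank k (dualCocycles ρ T) := by
  classical
  haveI := Places.finiteDimensional_dualCocycles ρ T hram
  refine ⟨inferInstance, ?_⟩
  obtain ⟨l, hl⟩ := exists_addHom_ne_zero p k
  have hex : ∀ z : Ext1 (adjRep (p := p) ρ) (RepUnits ρ T),
      ∃ (f : ExtOne.homRel (adjRep (p := p) ρ) (RepUnits ρ T)) (ψ : AdFree p ρ →+ Qu)
        (c : GQ → Matrix (Fin 2) (Fin 2) k),
        extMk _ _ f = z ∧ c ∈ dualCocycles ρ T ∧ IsKummerOf ρ l ψ c ∧
        ∀ r : relMod (adjRep (p := p) ρ), ψ (r : AdFree p ρ) =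
          (((f : ↥(relMod (adjRep (p := p) ρ)) →+ RepUnits ρ T) r : RepUnits ρ T) : Qu) := by
    intro z
    obtain ⟨f, rfl⟩ := QuotientAddGroup.mk'_surjective _ z
    obtain ⟨ψ', hψ'⟩ := exists_extension_qu (relMod (adjRep (p := p) ρ))
      (TUnits (toPrimes T) (repLevel ρ)) f.1
    obtain ⟨c, hc, hck⟩ := exists_isKummerOf ρ (f := f) (ψ := ψ') hψ' h hl hpT hram
    refine ⟨f, ψ', c, ?_, ?_, ?_, ?_⟩
    · exact rfl
    · exact hc
    · exact hck
    · exact hψ'
  choose F Ψ Cz hF hCz hK hΨ using hex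
  have hΘ : ∀ (z : Ext1 (adjRep (p := p) ρ) (RepUnits ρ T)) (M : Matrix (Fin 2) (Fin 2) k),
      M.trace = 0 → Cz z + twD (matRep ρ) M ∈ dualCocycles ρ T := fun z M hM =>
    (dualCocycles ρ T).add_mem (hCz z) (twD_mem_dualCocycles ρ T hram hM)
  let Θ : Ext1 (adjRep (p := p) ρ) (RepUnits ρ T) × ↥(trZero k) → ↥(dualCocycles ρ T) := fun y =>
    ⟨Cz y.1 + twD (matRep ρ) y.2.1, hΘ y.1 y.2.1 (LinearMap.mem_ker.1 y.2.2)⟩
  have hinj : Function.Injective Θ := by
    rintro ⟨z, M⟩ ⟨z', M'⟩ e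
    have e' : Cz z + twD (matRep ρ) M.1 = Cz z' + twD (matRep ρ) M'.1 := congrArg Subtype.val e
    have hd : Cz z - Cz z' = twD (matRep ρ) (M'.1 - M.1) := by
      rw [map_sub, sub_eq_sub_iff_add_eq_add, e', add_comm]
    have hk := IsKummerOf.sub ρ (hK z) (hK z')
    rw [hd] at hk
    have hr := mem_range_resRel_of_twD ρ (f := F z - F z') (ψ := Ψ z - Ψ z') (fun r => by
      rw [AddMonoidHom.sub_apply, hΨ, hΨ]; rfl) h hpT hk
    obtain rfl : z = z' := by
      have h0 : extMk (adjRep (p := p) ρ) (RepUnits ρ T) (F z - F z') = 0 :=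
        (QuotientAddGroup.eq_zero_iff _).2 hr
      rwa [map_sub, hF, hF, sub_eq_zero] at h0
    have h0 : twD (matRep ρ) (M'.1 - M.1) = 0 := by rw [← hd, sub_self]
    have hM := twD_injective (p := p) ρ h (M'.1 - M.1) (M' - M).2 h0
    exact Prod.ext rfl (Subtype.ext (sub_eq_zero.1 hM).symm)
  haveI : Finite ↥(dualCocycles ρ T) := Module.finite_of_finite k
  have hle := Nat.card_le_card_of_injective Θ hinj
  rw [Nat.card_prod, Module.natCard_eq_pow_finrank (K := k) (V := dualCocycles ρ T)] at hle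
  rwa [show Nat.card ↥(trZero k) = Nat.card k ^ 3 from AdN.card_eq (p := p)] at hle

end Fermat.Agent.TW
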