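/-
The count of `Ext¹(ad⁰, E_T)` for the level of the representation, given the local and the global
class modules and the Galois module structure of the `T`-units.
-/
import Fermat.Agent.TW.LowerExt
import Fermat.Agent.TW.LowerAlgebra

set_option autoImplicit false

noncomputable section

open Polynomial

namespace Fermat.Agent.TW

open PoitouTate ExtOne RepAlgebra

variable {p : ℕ} [Fact p.Prime]

theorem pow_finrank_eq_natCard (V : Type) [AddCommGroup V] [Module (ZMod p) V] [Finite V] :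
    p ^ Module.finrank (ZMod p) V = Nat.card V := by
  rw [Module.natCard_eq_pow_finrank (K := ZMod p) (V := V), Nat.card_zmod]

variable (p) in
/-- The hypothesis on the units of a level: `E/p - E[p] + 1 = Perm(G/⟨c⟩) + ∑ Perm(G/D_v)`. -/
def UnitsPolyAt (S : Setting) (c : GQ) : Prop :=
  ∃ (_ : Finite (TorP p S.E)) (_ : Finite (QuoP p S.E)), ∀ s : GQ,
    quoPoly (p := p) (tUnitsHom S.T S.F s) * (X - C 1) =
      torPoly (p := p) (tUnitsHom S.T S.F s) *
        (permRep p S.G (S.G ⧸ Subgroup.zpowers (QuotientGroup.mk c : S.G))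
          (QuotientGroup.mk s)).charpoly *
        ∏ q : ↥S.T, (permRep p S.G
          (S.G ⧸ (loc q.1).range.map (QuotientGroup.mk' S.F.fixingSubgroup))
          (QuotientGroup.mk s)).charpoly

/-- The comparison of characteristic polynomials. -/
theorem hpoly_of_units (S : Setting) [Fintype S.G] [∀ v, Fintype (S.D v)] {c : GQ}
    [Finite (TorP p S.E)] [Finite (QuoP p S.E)]
    [Finite (QuoP p (∀ v, Coind (S.emb v) (Splitting.Aug (S.D v))))]
    [Finite (QuoP p (Splitting.Aug S.G))]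
    (hu : UnitsPolyAt p S c) (m : ℕ) (hm : S.T.card = m + 1) (s : S.G) :
    quoPoly (p := p) (actHom S.E s) *
        quoPoly (p := p) (actHom (∀ v, Coind (S.emb v) (Splitting.Aug (S.D v))) s) =
      torPoly (p := p) (actHom S.E s) * quoPoly (p := p) (actHom (Splitting.Aug S.G) s) *
        (prodRep (permRep p S.G (S.G ⧸ Subgroup.zpowers (QuotientGroup.mk c : S.G)))
          (Cone.freeRep p S.G m) s).charpoly := by
  haveI : ∀ v, Finite (QuoP p (Coind (S.emb v) (Splitting.Aug (S.D v)))) := fun v =>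
    (finModP_coind (p := p) (S.emb_injective v) (finModP_aug p (S.D v))).quo
  induction s using QuotientGroup.induction_on with | H σ => ?_
  obtain ⟨_, _, hu⟩ := hu
  have hU := hu σ
  have hJ : quoPoly (p := p) (actHom (∀ v, Coind (S.emb v) (Splitting.Aug (S.D v)))
        (QuotientGroup.mk σ : S.G)) *
      ∏ q : ↥S.T, (permRep p S.G (S.G ⧸ (loc q.1).range.map (QuotientGroup.mk' S.F.fixingSubgroup))
        (QuotientGroup.mk σ)).charpoly =
      (permRep p S.G S.G (QuotientGroup.mk σ)).charpoly ^ (m + 1) := by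
    rw [quoPoly_pi (fun v => actHom (Coind (S.emb v) (Splitting.Aug (S.D v))) (QuotientGroup.mk σ))
      _ (fun x i => Pi.smul_apply (QuotientGroup.mk σ : S.G) x i), ← Finset.prod_mul_distrib]
    refine (Finset.prod_congr rfl fun q _ => ?_).trans
      (show ∏ _q : ↥S.T, (permRep p S.G S.G (QuotientGroup.mk σ)).charpoly = _ by
        rw [Finset.prod_const, Finset.card_univ, Fintype.card_coe, hm])
    rw [charpoly_permRep_congr (S.range_emb q).symm]
    exact quoPoly_coind_aug (S.emb q) (S.emb_injective q) _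
  have hI := quoPoly_aug (p := p) (G := S.G) (QuotientGroup.mk σ)
  rw [charpoly_prodRep, charpoly_freeRep, actHom_tUnits]
  refine mul_right_cancel₀ (b := X - C 1) (X_sub_C_ne_zero 1) ?_
  set qIJ := quoPoly (p := p) (actHom (∀ v, Coind (S.emb v) (Splitting.Aug (S.D v)))
    (QuotientGroup.mk σ : S.G))
  set qI := quoPoly (p := p) (actHom (Splitting.Aug S.G) (QuotientGroup.mk σ : S.G))
  set Reg := (permRep p S.G S.G (QuotientGroup.mk σ)).charpoly
  set Pc := (permRep p S.G (S.G ⧸ Subgroup.zpowers (QuotientGroup.mk c : S.G))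
    (QuotientGroup.mk σ)).charpoly
  set Pv := ∏ q : ↥S.T, (permRep p S.G
    (S.G ⧸ (loc q.1).range.map (QuotientGroup.mk' S.F.fixingSubgroup)) (QuotientGroup.mk σ)).charpoly
  set qE := quoPoly (p := p) (tUnitsHom S.T S.F σ)
  set tE := torPoly (p := p) (tUnitsHom S.T S.F σ)
  calc qE * qIJ * (X - C 1) = tE * Pc * (qIJ * Pv) := by rw [mul_right_comm, hU]; ring
    _ = tE * Pc * Reg ^ (m + 1) := by rw [hJ]
    _ = tE * Pc * Reg ^ m * (qI * (X - C 1)) := by rw [pow_succ, hI]; ring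
    _ = _ := by ring

variable {k : Type} [Field k] [Finite k] [CharP k p]

/-- The lower bound on `Ext¹(ad⁰, E_T)`. -/
theorem card_ext1_repUnits_ge (ρ : ResidualGaloisRep k) (h : TWHyp p ρ) (T : Finset ℕ)
    (hT : ∀ q ∈ T, q.Prime) (hpT : p ∈ T)
    (hL : IsLvl (toPrimes T) (repLevel ρ)) {c : GQ} (hc : c * c = 1)
    (hu : UnitsPolyAt p ⟨toPrimes T, repLevel ρ, hL, ⟨_, pPrime_mem_toPrimes hpT⟩⟩ c)
    (hloc : ∀ v : ↥(toPrimes T),
      FinModP p (Setting.X ⟨toPrimes T, repLevel ρ, hL, ⟨_, pPrime_mem_toPrimes hpT⟩⟩ v) ∧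
      ∃ w, IsClassModule p (Setting.D ⟨toPrimes T, repLevel ρ, hL, ⟨_, pPrime_mem_toPrimes hpT⟩⟩ v)
        (Setting.X ⟨toPrimes T, repLevel ρ, hL, ⟨_, pPrime_mem_toPrimes hpT⟩⟩ v) w)
    (hglob : LayerClassModule p (toPrimes T))
    (hsupp : ∀ f : J (toPrimes T), (∀ s ∈ (repLevel ρ).fixingSubgroup, s • f = f) →
      ∃ f' ∈ Jfin (toPrimes T), (∀ s ∈ (repLevel ρ).fixingSubgroup, s • f' = f') ∧
        clsMk (toPrimes T) f' = clsMk (toPrimes T) f) :
    Finite (Ext1 (adjRep (p := p) ρ) (RepUnits ρ T)) ∧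
      Nat.card k ^ (∑ q ∈ T, locInvDim ρ q + 1) ≤
        Nat.card (Ext1 (adjRep (p := p) ρ) (RepUnits ρ T)) := by
  classical
  haveI : NeZero p := ⟨(Fact.out : p.Prime).ne_zero⟩
  set S : Setting := ⟨toPrimes T, repLevel ρ, hL, ⟨_, pPrime_mem_toPrimes hpT⟩⟩ with hS
  haveI : Finite S.G := S.finite_G
  haveI : ∀ v, Finite (S.D v) := S.finite_D
  letI : Fintype S.G := Fintype.ofFinite _
  letI : ∀ v, Fintype (S.D v) := fun v => Fintype.ofFinite _
  obtain ⟨u, hu'⟩ := hglob (repLevel ρ) hL fun s hs => cycloChar_eq_one_of_mem ρ h.det hs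
  choose hXf w hw using hloc
  obtain ⟨hET, hEQ, -⟩ := id hu
  have hse := S.isShortExact hsupp
  have hJf : FinModP p S.JT :=
    finModP_pi _ fun v => finModP_coind (S.emb_injective v) (hXf v)
  have hCf : FinModP p S.C :=
    finModP_of_quotient S.iMap.toAddMonoidHom S.qMap.toAddMonoidHom hse.injective hse.surjective
      hse.exact hJf
  haveI := (finModP_pi (p := p) (fun v => Coind (S.emb v) (Splitting.Aug (S.D v)))
    fun v => finModP_coind (S.emb_injective v) (finModP_aug p (S.D v))).quo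
  haveI := (finModP_aug p S.G).quo
  obtain ⟨P⟩ : Nonempty (Sylow p S.G) := inferInstance
  obtain ⟨m, hm⟩ : ∃ m, S.T.card = m + 1 :=
    ⟨S.T.card - 1, (Nat.succ_pred_eq_of_pos (Finset.card_pos.2 S.ne)).symm⟩
  set cb : S.G := QuotientGroup.mk c with hcb
  have hcb2 : cb * cb = 1 := by rw [hcb, ← QuotientGroup.mk_mul, hc, QuotientGroup.mk_one]
  set ρN : Representation (ZMod p) S.G (AdN p k) := adjRep (p := p) ρ with hρN
  set σR := prodRep (permRep p S.G (S.G ⧸ Subgroup.zpowers cb)) (Cone.freeRep p S.G m) with hσR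
  obtain ⟨hfin, hle⟩ := card_ext1_ge ρN P (D := S.D) (ι := S.emb) S.emb_injective (X := S.X)
    (w := w) hw hXf (C := S.C) (u := u) hu' hCf (E := S.E) S.iMap S.qMap hse σR
    (h1Trivial_prod (h1Trivial_permRep _ (free_on_involution_quotient h.two_ne P.2 hcb2))
      (h1Trivial_freeRep m _))
    (adjRep_fixed_eq_zero ρ h) fun s _ => hpoly_of_units S hu m hm s
  refine ⟨hfin, ?_⟩
  -- the dimensions
  haveI : ∀ (Y : Type) [AddCommGroup Y] [Module (ZMod p) Y] [Finite Y]
      (σ : Representation (ZMod p) S.G Y), Finite (homG ρN σ) := fun Y _ _ _ σ => by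
    haveI : Finite (AdN p k →ₗ[ZMod p] Y) := Finite.of_injective _ DFunLike.coe_injective
    infer_instance
  rw [pow_add, finrank_homG_prod, pow_add, pow_finrank_eq_natCard, pow_finrank_eq_natCard,
    pow_finrank_eq_natCard, card_homG_freeRep, AdN.card_eq] at hle
  set q := Nat.card k
  have hq : 1 < q := Finite.one_lt_card
  have h1 : q ≤ Nat.card (homG ρN (permRep p S.G (S.G ⧸ Subgroup.zpowers cb))) :=
    (card_le_card_ker_of_involution ρ h hc).trans (card_ker_le_card_homG_perm ρN cb)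
  set E1 := Nat.card (Ext1 ρN S.E)
  set dn := Module.finrank (ZMod p) (AdN p k) with hdn
  have hprod : (∏ v : ↥S.T, p ^ (dn - Module.finrank (ZMod p) (fixedBy ρN (S.emb v)))) *
      q ^ (∑ v : ↥S.T, locInvDim ρ (v.1 : ℕ)) = (q ^ 3) ^ (m + 1) := by
    rw [← Finset.prod_pow_eq_pow_sum, ← Finset.prod_mul_distrib,
      Finset.prod_congr rfl (g := fun _ => q ^ 3) fun v _ => ?_, Finset.prod_const, Finset.card_univ,
      Fintype.card_coe, hm]
    rw [← card_fixedBy_emb ρ S v ρN (fun σ n => rfl), ← pow_finrank_eq_natCard (p := p), ← pow_add,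
      Nat.sub_add_cancel (Submodule.finrank_le _), pow_finrank_eq_natCard, AdN.card_eq]
  have hsum : ∑ v : ↥S.T, locInvDim ρ (v.1 : ℕ) = ∑ q ∈ T, locInvDim ρ q := by
    rw [Finset.sum_coe_sort S.T (fun v : Nat.Primes => locInvDim ρ (v : ℕ))]
    exact Finset.sum_subtype_of_mem (fun q => locInvDim ρ q) hT
  rw [← hsum]
  set sh := ∑ v : ↥S.T, locInvDim ρ (v.1 : ℕ)
  refine Nat.le_of_mul_le_mul_right (c := (q ^ 3) ^ (m + 1)) ?_ (pow_pos (pow_pos (by omega) _) _)
  calc q ^ (sh + 1) * (q ^ 3) ^ (m + 1) = q * (q ^ 3) ^ m * q ^ 3 * q ^ sh := by ring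
    _ ≤ Nat.card (homG ρN (permRep p S.G (S.G ⧸ Subgroup.zpowers cb))) *
          (q ^ 3) ^ m * q ^ 3 * q ^ sh := by gcongr
    _ ≤ E1 * (∏ v : ↥S.T, p ^ (dn - Module.finrank (ZMod p) (fixedBy ρN (S.emb v)))) * q ^ sh :=
        Nat.mul_le_mul_right _ hle
    _ = E1 * (q ^ 3) ^ (m + 1) := by rw [mul_assoc, hprod]

end Fermat.Agent.TW
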