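/-
A finitely generated module with an endomorphism which, rationally and after adding a trivial
line, is a permutation module: the comparison of the characteristic polynomials mod `p`.
-/
import Fermat.Agent.TW.EulerPoly

set_option autoImplicit false

noncomputable section

open Polynomial Module

namespace Fermat.Agent.TW

section PermMatrix

variable (R : Type*) [CommRing R] {S : Type*} [DecidableEq S]

/-- The matrix of `f ↦ f ∘ π`. -/
def permMat (π : S → S) : Matrix S S R := Matrix.of fun i j => if π i = j then 1 else 0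

theorem permMat_map {R' : Type*} [CommRing R'] (φ : R →+* R') (π : S → S) :
    (permMat R π).map φ = permMat R' π := by
  ext i j
  simp [permMat, Matrix.map_apply, apply_ite φ]

variable [Fintype S]

theorem charpoly_funLeft [Nontrivial R] (π : S → S) :
    (LinearMap.funLeft R R π).charpoly = (permMat R π).charpoly := by
  rw [← LinearMap.charpoly_toMatrix (LinearMap.funLeft R R π) (Pi.basisFun R S)]
  congr 1
  ext i j
  simp [LinearMap.toMatrix_apply, permMat, LinearMap.funLeft_apply, Pi.single_apply]

theorem charpoly_permMat_sigma {ι : Type*} [Fintype ι] [DecidableEq ι] {A : ι → Type*}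
    [∀ i, Fintype (A i)] [∀ i, DecidableEq (A i)] (π : ∀ i, A i → A i) :
    (permMat R (Sigma.map id π : (Σ i, A i) → Σ i, A i)).charpoly =
      ∏ i, (permMat R (π i)).charpoly := by
  classical
  letI : LinearOrder ι := LinearOrder.lift' (Fintype.equivFin ι) (Fintype.equivFin ι).injective
  have h : (permMat R (Sigma.map id π : (Σ i, A i) → Σ i, A i)).BlockTriangular Sigma.fst := by
    intro x y hxy
    have hne : Sigma.map id π x ≠ y := fun he => by
      have h1 := congrArg Sigma.fst he
      exact hxy.ne' h1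
    simp [permMat, hne]
  rw [Matrix.charpoly, h.charmatrix.det_fintype]
  refine Finset.prod_congr rfl fun k _ => ?_
  rw [Matrix.charpoly]
  rw [← Matrix.det_submatrix_equiv_self (Equiv.sigmaSubtype (β := A) k).symm]
  congr 1
  ext x y
  have he : (Sigma.map id π ⟨k, x⟩ = (⟨k, y⟩ : Σ i, A i)) ↔ π k x = y := by
    simp [Sigma.map]
  have hxy : ((⟨k, x⟩ : Σ i, A i) = ⟨k, y⟩) ↔ x = y := by simp
  by_cases hd : x = y
  · subst hd
    simp [Matrix.charmatrix_apply, Matrix.toSquareBlock_def, permMat, Equiv.sigmaSubtype, he]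
  · simp [Matrix.charmatrix_apply, Matrix.toSquareBlock_def, permMat, Equiv.sigmaSubtype, he, hxy,
      hd]

end PermMatrix

section Scalar

theorem charpoly_smul_id {K V : Type*} [Field K] [AddCommGroup V] [Module K V]
    [FiniteDimensional K V] (c : K) :
    (c • LinearMap.id : V →ₗ[K] V).charpoly = (X - C c) ^ Module.finrank K V := by
  classical
  rw [← LinearMap.charpoly_toMatrix _ (Module.finBasis K V)]
  have h : LinearMap.toMatrix (Module.finBasis K V) (Module.finBasis K V)
      (c • LinearMap.id : V →ₗ[K] V) = Matrix.diagonal fun _ => c := by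
    rw [map_smul, LinearMap.toMatrix_id, Matrix.smul_one_eq_diagonal]
  rw [h, Matrix.charpoly_diagonal]
  simp

end Scalar

variable {p : ℕ} [hp : Fact p.Prime] {X' : Type} [AddCommGroup X']

/-- A finite cyclic group contributes trivially. -/
theorem quoPoly_eq_torPoly_of_isAddCyclic [Finite X'] [IsAddCyclic X'] [Finite (TorP p X')]
    [Finite (QuoP p X')] (σ : X' →+ X') : quoPoly (p := p) σ = torPoly (p := p) σ := by
  obtain ⟨m, hm⟩ := AddMonoidHom.map_addCyclic σ
  have ht : (torMap σ : TorP p X' →ₗ[ZMod p] TorP p X') = (m : ZMod p) • LinearMap.id := by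
    refine LinearMap.ext fun x => torVal_injective ?_
    rw [torVal_torMap, hm, LinearMap.smul_apply, LinearMap.id_apply, Int.cast_smul_eq_zsmul,
      map_zsmul]
  have hq : (quoMap σ : QuoP p X' →ₗ[ZMod p] QuoP p X') = (m : ZMod p) • LinearMap.id := by
    refine LinearMap.ext fun x => ?_
    obtain ⟨x, rfl⟩ := quoMk_surjective x
    rw [quoMap_mk, hm, LinearMap.smul_apply, LinearMap.id_apply, Int.cast_smul_eq_zsmul,
      map_zsmul]
  have hcard : Nat.card (TorP p X') = Nat.card (QuoP p X') := by
    let f : X' →+ X' := nsmulAddMonoidHom p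
    have h1 := f.ker.card_mul_index
    have h2 := f.range.card_mul_index
    rw [AddSubgroup.index_ker] at h1
    have hpos : 0 < Nat.card f.range := Nat.card_pos
    have : Nat.card f.ker = f.range.index := by nlinarith
    exact this
  have hfr : Module.finrank (ZMod p) (TorP p X') = Module.finrank (ZMod p) (QuoP p X') := by
    rw [Module.natCard_eq_pow_finrank (K := ZMod p) (V := TorP p X'),
      Module.natCard_eq_pow_finrank (K := ZMod p) (V := QuoP p X'), Nat.card_zmod] at hcard
    exact Nat.pow_right_injective hp.out.two_le hcard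
  rw [quoPoly, torPoly, ht, hq, charpoly_smul_id, charpoly_smul_id, hfr]

section Free

variable {ι : Type} [Fintype ι] [DecidableEq ι] (b : Basis ι ℤ X')

/-- Reduction of coordinates mod `p`. -/
def redCoord : X' →+ (ι → ZMod p) where
  toFun x i := (b.repr x i : ZMod p)
  map_zero' := by funext i; simp
  map_add' x y := by funext i; simp

theorem bijective_redCoord_lift :
    ∃ e : QuoP p X' ≃ₗ[ZMod p] (ι → ZMod p), ∀ x i, e (quoMk x) i = (b.repr x i : ZMod p) := by
  have hker : (nsmulAddMonoidHom p : X' →+ X').range ≤ (redCoord (p := p) b).ker := by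
    rintro _ ⟨y, rfl⟩
    rw [AddMonoidHom.mem_ker]
    funext i
    simp [redCoord, nsmulAddMonoidHom_apply]
  let φ : QuoP p X' →+ (ι → ZMod p) := QuotientAddGroup.lift _ (redCoord b) hker
  have hφ : ∀ x i, φ (quoMk x) i = (b.repr x i : ZMod p) := fun x i => rfl
  have hbij : Function.Bijective φ := by
    constructor
    · refine (injective_iff_map_eq_zero φ).2 fun z hz => ?_
      obtain ⟨x, rfl⟩ := quoMk_surjective z
      rw [quoMk_eq_zero_iff]
      have : ∀ i, (p : ℤ) ∣ b.repr x i := fun i =>
        (ZMod.intCast_zmod_eq_zero_iff_dvd _ p).1 ((hφ x i).symm.trans (congrFun hz i))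
      choose w hw using this
      refine ⟨∑ i, w i • b i, b.repr.injective (Finsupp.ext fun i => ?_)⟩
      rw [map_nsmul, Finsupp.smul_apply, b.repr_sum_self, hw i, nsmul_eq_mul]
    · intro f
      refine ⟨quoMk (∑ i, ((f i).cast : ℤ) • b i : X'), funext fun i => ?_⟩
      rw [hφ, b.repr_sum_self, ZMod.intCast_zmod_cast]
  exact ⟨LinearEquiv.ofBijective (φ.toZModLinearMap p) hbij, hφ⟩

include b in
theorem finite_quoP_of_basis : Finite (QuoP p X') := by
  obtain ⟨e, -⟩ := bijective_redCoord_lift (p := p) b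
  exact Finite.of_equiv _ e.symm.toEquiv

include b in
theorem subsingleton_torP_of_basis : Subsingleton (TorP p X') := by
  refine ⟨fun x y => torVal_injective ?_⟩
  have h : ∀ z : TorP p X', torVal z = 0 := fun z => by
    refine b.repr.injective (Finsupp.ext fun i => ?_)
    have h1 := congrArg (fun w => b.repr w i) (nsmul_torVal z)
    simp only [map_nsmul, Finsupp.smul_apply, map_zero, Finsupp.zero_apply, nsmul_eq_mul] at h1
    simpa [hp.out.ne_zero] using h1
  rw [h, h]

theorem quoPoly_of_basis [Finite (QuoP p X')] (σ : X' →+ X') :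
    quoPoly (p := p) σ =
      ((LinearMap.toMatrix b b σ.toIntLinearMap).map (Int.castRingHom (ZMod p))).charpoly := by
  obtain ⟨e, he⟩ := bijective_redCoord_lift (p := p) b
  rw [quoPoly, ← LinearEquiv.charpoly_conj e (quoMap σ), ← Matrix.charpoly_toLin']
  congr 1
  refine LinearMap.ext fun f => ?_
  obtain ⟨z, rfl⟩ := e.surjective f
  obtain ⟨x, rfl⟩ := quoMk_surjective z
  funext i
  rw [LinearEquiv.conj_apply, LinearMap.comp_apply, LinearMap.comp_apply, LinearEquiv.coe_coe,
    LinearEquiv.coe_coe, LinearEquiv.symm_apply_apply, quoMap_mk, he, Matrix.toLin'_apply]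
  have h1 := congrFun (LinearMap.toMatrix_mulVec_repr b b σ.toIntLinearMap x) i
  rw [show (σ x) = σ.toIntLinearMap x from rfl, ← h1]
  simp only [Matrix.mulVec, dotProduct, Matrix.map_apply, he, Int.cast_sum, Int.cast_mul,
    Int.coe_castRingHom]

end Free

/-- A finitely generated group with cyclic torsion which, over `ℝ` and after adding a fixed
vector, spans a permutation module of larger rank. -/
theorem quoPoly_mul_eq_of_realisation {E : Type} [AddCommGroup E] [Module.Finite ℤ E]
    (hcyc : IsAddCyclic (Submodule.torsion ℤ E))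
    {S : Type} [Fintype S] [DecidableEq S] (π : S → S) (σ : E →+ E)
    (lam : E →+ (S → ℝ)) (hlam : ∀ x s, lam (σ x) s = lam x (π s))
    (v : S → ℝ) (hv : ∀ s, v (π s) = v s)
    (hspan : ⊤ ≤ Submodule.span ℝ (insert v (Set.range lam)))
    (hrank : Module.finrank ℤ E < Fintype.card S) :
    ∃ (_ : Finite (TorP p E)) (_ : Finite (QuoP p E)),
      quoPoly (p := p) σ * (Polynomial.X - Polynomial.C 1) =
        torPoly (p := p) σ * (permMat (ZMod p) π).charpoly := by
  classical
  set N := Submodule.torsion ℤ E with hN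
  haveI : IsAddCyclic N := hcyc
  haveI : Finite N := Module.finite_of_fg_torsion N fun x => by
    obtain ⟨a, ha⟩ := x.2
    exact ⟨a, Subtype.ext ha⟩
  obtain ⟨n, b⟩ := Module.basisOfFiniteTypeTorsionFree' (R := ℤ) (M := E ⧸ N)
  have hn : n + 1 ≤ Fintype.card S := by
    have h1 := Submodule.finrank_quotient_le (R := ℤ) N
    rw [Module.finrank_eq_card_basis b, Fintype.card_fin] at h1
    omega
  -- the sequence
  let i : N →+ E := N.subtype.toAddMonoidHom
  let q : E →+ E ⧸ N := N.mkQ.toAddMonoidHom
  have hi : Function.Injective i := Subtype.val_injective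
  have hq : Function.Surjective q := N.mkQ_surjective
  have hex : ∀ y, q y = 0 ↔ ∃ x, i x = y := fun y =>
    (Submodule.Quotient.mk_eq_zero N).trans ⟨fun h => ⟨⟨y, h⟩, rfl⟩, fun ⟨x, hx⟩ => hx ▸ x.2⟩
  have hstab : ∀ x ∈ N, σ.toIntLinearMap x ∈ N := by
    rintro x ⟨a, ha⟩
    refine ⟨a, ?_⟩
    rw [Submonoid.smul_def, ← map_smul, ← Submonoid.smul_def, ha, map_zero]
  let σX : N →+ N := (σ.toIntLinearMap.restrict hstab).toAddMonoidHom
  let σZ : E ⧸ N →ₗ[ℤ] E ⧸ N := N.mapQ N σ.toIntLinearMap hstab
  haveI : Finite (TorP p N) := inferInstanceAs (Finite ↥(nsmulAddMonoidHom p : N →+ N).ker)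
  haveI : Finite (QuoP p N) := Finite.of_surjective _ quoMk_surjective
  haveI := subsingleton_torP_of_basis (p := p) b
  haveI : Finite (TorP p (E ⧸ N)) := Finite.of_subsingleton
  haveI := finite_quoP_of_basis (p := p) b
  have hfin : FinModP p E := FinModP.of_exact i q hi hq hex ⟨‹_›, ‹_›⟩ ⟨‹_›, ‹_›⟩
  haveI := hfin.tor
  haveI := hfin.quo
  refine ⟨hfin.tor, hfin.quo, ?_⟩
  have hσZ : torPoly (p := p) σZ.toAddMonoidHom = 1 :=
    (LinearMap.charpoly_monic _).natDegree_eq_zero.1 (by
      rw [LinearMap.charpoly_natDegree]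
      exact Module.finrank_zero_of_subsingleton)
  have hsix := quoPoly_mul_torPoly (p := p) i q hi hq hex σX σ σZ.toAddMonoidHom
    (fun x => rfl) (fun y => rfl)
  rw [hσZ, mul_one, quoPoly_eq_torPoly_of_isAddCyclic σX, mul_comm (torPoly (p := p) σ),
    mul_assoc] at hsix
  have hE : quoPoly (p := p) σ = torPoly (p := p) σ * quoPoly (p := p) σZ.toAddMonoidHom :=
    mul_left_cancel₀ (LinearMap.charpoly_monic _).ne_zero hsix
  -- the real realisation
  have hker : N ≤ LinearMap.ker lam.toIntLinearMap := by
    rintro x ⟨a, ha⟩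
    have h1 := congrArg lam.toIntLinearMap ha
    rw [Submonoid.smul_def, map_smul, map_zero] at h1
    exact (smul_eq_zero.1 h1).resolve_left (nonZeroDivisors.coe_ne_zero a)
  let μ : E ⧸ N →ₗ[ℤ] (S → ℝ) := N.liftQ lam.toIntLinearMap hker
  let w : Fin n ⊕ Unit → (S → ℝ) := Sum.elim (fun j => μ (b j)) fun _ => v
  have hw : ⊤ ≤ Submodule.span ℝ (Set.range w) := by
    refine hspan.trans (Submodule.span_le.2 (Set.insert_subset_iff.2
      ⟨Submodule.subset_span ⟨Sum.inr (), rfl⟩, ?_⟩))
    rintro _ ⟨x, rfl⟩
    show μ (N.mkQ x) ∈ Submodule.span ℝ (Set.range w)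
    rw [← b.sum_repr (N.mkQ x), map_sum]
    refine sum_mem fun j _ => ?_
    rw [map_zsmul]
    exact zsmul_mem (Submodule.subset_span (s := Set.range w) ⟨Sum.inl j, rfl⟩) _
  have hcard : Fintype.card (Fin n ⊕ Unit) = Module.finrank ℝ (S → ℝ) := by
    refine le_antisymm (by simpa [Module.finrank_fintype_fun_eq_card] using hn) ?_
    have h1 := finrank_range_le_card (R := ℝ) w
    rw [Set.finrank, eq_top_iff.2 hw, finrank_top] at h1
    exact h1
  let B : Basis (Fin n ⊕ Unit) ℝ (S → ℝ) := basisOfTopLeSpanOfCardEqFinrank w hw hcard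
  have hB : ∀ j, B j = w j := fun j => by rw [coe_basisOfTopLeSpanOfCardEqFinrank]
  set M := LinearMap.toMatrix b b σZ with hM
  have hμ : ∀ z s, μ (σZ z) s = μ z (π s) := by
    intro z s
    obtain ⟨x, rfl⟩ := N.mkQ_surjective z
    exact hlam x s
  have hblock : LinearMap.toMatrix B B (LinearMap.funLeft ℝ ℝ π) =
      Matrix.fromBlocks (M.map (Int.castRingHom ℝ)) 0 0 1 := by
    ext k j
    rw [LinearMap.toMatrix_apply]
    rcases j with j | ⟨⟩
    · have h1 : LinearMap.funLeft ℝ ℝ π (B (Sum.inl j)) =
          ∑ t, ((M t j : ℤ) : ℝ) • B (Sum.inl t) := by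
        have h2 := congrArg μ (b.sum_repr (σZ (b j)))
        simp only [map_sum, map_zsmul] at h2
        funext s
        rw [LinearMap.funLeft_apply, hB]
        show μ (b j) (π s) = _
        rw [← hμ, ← h2, Finset.sum_apply, Finset.sum_apply]
        refine Finset.sum_congr rfl fun t _ => ?_
        rw [hB, Pi.smul_apply, Pi.smul_apply, zsmul_eq_mul, smul_eq_mul, hM,
          LinearMap.toMatrix_apply]
        rfl
      rw [h1, map_sum, Finsupp.finsetSum_apply]
      simp only [map_smul, B.repr_self, Finsupp.smul_single, smul_eq_mul, mul_one,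
        Finsupp.single_apply]
      rcases k with k | ⟨⟩ <;> simp
    · have h1 : LinearMap.funLeft ℝ ℝ π (B (Sum.inr ())) = B (Sum.inr ()) := by
        rw [hB]
        funext s
        exact hv s
      rw [h1, B.repr_self]
      rcases k with k | ⟨⟩ <;> simp
  have hR : (permMat ℝ π).charpoly =
      (M.map (Int.castRingHom ℝ)).charpoly * (Polynomial.X - Polynomial.C 1) := by
    rw [← charpoly_funLeft, ← LinearMap.charpoly_toMatrix _ B, hblock,
      Matrix.charpoly_fromBlocks_zero₂₁, Matrix.charpoly_one]
    simp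
  have hZ : (permMat ℤ π).charpoly = M.charpoly * (Polynomial.X - Polynomial.C 1) := by
    refine Polynomial.map_injective (Int.castRingHom ℝ) Int.cast_injective ?_
    rw [← Matrix.charpoly_map, permMat_map, hR, Polynomial.map_mul, ← Matrix.charpoly_map]
    simp
  have hp' : (permMat (ZMod p) π).charpoly =
      quoPoly (p := p) σZ.toAddMonoidHom * (Polynomial.X - Polynomial.C 1) := by
    rw [quoPoly_of_basis b, ← permMat_map ℤ (Int.castRingHom (ZMod p)), Matrix.charpoly_map, hZ,
      Polynomial.map_mul, Matrix.charpoly_map,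
      show σZ.toAddMonoidHom.toIntLinearMap = σZ from LinearMap.ext fun _ => rfl]
    simp [hM]
  rw [hE, hp', mul_assoc]

end Fermat.Agent.TW

end
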