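/-
The logarithmic embedding of the `T`-units of a layer in the functions on its places.
-/
import Fermat.Agent.TW.UnitsPolyAlg
import Fermat.Agent.TW.UnitsPolyDefs
import Fermat.Agent.PoitouTate.IdeleIntegral
import Fermat.Agent.PoitouTate.IdeleUnits
import Fermat.Agent.PoitouTate.GlobalClassFinite
import Fermat.Prelude.Def_GaloisRep_ComplexConjugation

set_option autoImplicit false
set_option maxHeartbeats 800000

noncomputable section

open NumberField

namespace Fermat.Agent.TW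

open PoitouTate

local notation "Qb" => AlgebraicClosure ℚ

theorem complexConjugation_ne_one : (complexConjugation : GQ) ≠ 1 := by
  intro h
  obtain ⟨i, hi⟩ := IsAlgClosed.exists_pow_nat_eq (-1 : Qb) (two_pos : 0 < 2)
  have h1 := complexEmbedding_complexConjugation i
  rw [h, AlgEquiv.one_apply] at h1
  obtain ⟨r, hr⟩ := Complex.conj_eq_iff_real.1 h1.symm
  have h2 := congrArg complexEmbedding hi
  rw [map_pow, hr, map_neg, map_one] at h2
  have h3 : r ^ 2 = -1 := by exact_mod_cast h2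
  nlinarith [sq_nonneg r]

theorem norm_complexEmbedding_conj (x : Qb) :
    ‖complexEmbedding (complexConjugation x)‖ = ‖complexEmbedding x‖ := by
  rw [complexEmbedding_complexConjugation, RCLike.norm_conj]

theorem norm_padicEmbedding_loc (q : Nat.Primes) (τ : LocGal q) (x : Qb) :
    ‖padicEmbedding (q : ℕ) (loc q τ x)‖ = ‖padicEmbedding (q : ℕ) x‖ := by
  rw [padicEmbedding_loc, ← PadicAlgCl.spectralNorm_eq, ← PadicAlgCl.spectralNorm_eq]
  exact (spectralNorm_eq_of_equiv τ _).symm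

variable (T : Finset Nat.Primes) (L : IntermediateField ℚ Qb) [L.fixingSubgroup.Normal]

/-- The absolute value at the base place of each kind. -/
def placeAbs : Option ↥T → Qb → ℝ
  | none => fun x => ‖complexEmbedding x‖
  | some q => fun x => ‖padicEmbedding (q.1 : ℕ) x‖

theorem placeAbs_mul (i : Option ↥T) (x y : Qb) :
    placeAbs T i (x * y) = placeAbs T i x * placeAbs T i y := by
  rcases i with _ | q <;> simp [placeAbs]

theorem placeAbs_ne_zero (i : Option ↥T) {x : Qb} (hx : x ≠ 0) : placeAbs T i x ≠ 0 := by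
  rcases i with _ | q <;> simp [placeAbs, hx]

/-- The decomposition group of the base place, in the group of the layer. -/
def placeGrp : Option ↥T → Subgroup (GQ ⧸ L.fixingSubgroup)
  | none => Subgroup.zpowers (QuotientGroup.mk complexConjugation)
  | some q => (loc q.1).range.map (QuotientGroup.mk' L.fixingSubgroup)

/-- The places of the layer over `∞` and over `T`. -/
abbrev PlaceSet : Type := Σ i : Option ↥T, (GQ ⧸ L.fixingSubgroup) ⧸ placeGrp T L i

theorem exists_lift_mem_placeGrp (i : Option ↥T) {δ : GQ ⧸ L.fixingSubgroup}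
    (hδ : δ ∈ placeGrp T L i) :
    ∃ d : GQ, (QuotientGroup.mk d : GQ ⧸ L.fixingSubgroup) = δ ∧
      ∀ x : Qb, placeAbs T i (d⁻¹ x) = placeAbs T i x := by
  rcases i with _ | q
  · obtain ⟨k, rfl⟩ := Subgroup.mem_zpowers_iff.1 hδ
    refine ⟨complexConjugation ^ k, QuotientGroup.mk_zpow _ _ _, fun x => ?_⟩
    rcases Int.even_or_odd k with ⟨m, rfl⟩ | ⟨m, rfl⟩
    · rw [← two_mul, zpow_mul, zpow_two, complexConjugation_mul_self, one_zpow, inv_one,
        AlgEquiv.one_apply]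
    · rw [zpow_add, zpow_mul, zpow_two, complexConjugation_mul_self, one_zpow, one_mul, zpow_one,
        complexConjugation_inv]
      exact norm_complexEmbedding_conj x
  · obtain ⟨d, ⟨τ, rfl⟩, rfl⟩ := hδ
    refine ⟨loc q.1 τ, rfl, fun x => ?_⟩
    rw [← map_inv]
    exact norm_padicEmbedding_loc q.1 τ⁻¹ x

/-- The logarithms of the absolute values at all the places. -/
def logPlaces : ↥(TUnits T L) →+ (PlaceSet T L → ℝ) where
  toFun x s := Real.log (placeAbs T s.1 (uval (s.2.out.out⁻¹ • (x : Qu))))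
  map_zero' := by
    funext s
    rcases s with ⟨_ | q, s⟩ <;> simp [placeAbs]
  map_add' x y := by
    funext s
    simp only [Pi.add_apply, AddSubgroup.coe_add, smul_add, uval_add, placeAbs_mul]
    exact Real.log_mul (placeAbs_ne_zero T _ (uval_ne_zero _))
      (placeAbs_ne_zero T _ (uval_ne_zero _))

theorem logPlaces_mk (x : ↥(TUnits T L)) (i : Option ↥T) (g : GQ) :
    logPlaces T L x ⟨i, QuotientGroup.mk (QuotientGroup.mk g)⟩ =
      Real.log (placeAbs T i (g⁻¹ (uval (x : Qu)))) := by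
  obtain ⟨⟨δ, hδ⟩, hout⟩ := QuotientGroup.mk_out_eq_mul (placeGrp T L i)
    (QuotientGroup.mk g : GQ ⧸ L.fixingSubgroup)
  obtain ⟨d, rfl, hd⟩ := exists_lift_mem_placeGrp T L i hδ
  obtain ⟨u, hu⟩ := QuotientGroup.mk_out_eq_mul L.fixingSubgroup (g * d)
  show Real.log (placeAbs T i (uval ((_ : GQ)⁻¹ • (x : Qu)))) = _
  rw [hout, ← QuotientGroup.mk_mul, hu, mul_inv_rev, mul_smul,
    (smul_mem_TUnits T L (g * d)⁻¹ x.2).2 _ (inv_mem u.2), mul_inv_rev, mul_smul, uval_smul, hd,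
    uval_smul]

theorem exists_mk_mk_eq (i : Option ↥T) (s : (GQ ⧸ L.fixingSubgroup) ⧸ placeGrp T L i) :
    ∃ g : GQ, QuotientGroup.mk (QuotientGroup.mk g) = s :=
  ⟨s.out.out, by rw [QuotientGroup.out_eq', QuotientGroup.out_eq']⟩

/-- The permutation of the places given by `σ⁻¹`. -/
def placePerm (σ : GQ) : PlaceSet T L → PlaceSet T L :=
  Sigma.map id fun _ s => (QuotientGroup.mk σ : GQ ⧸ L.fixingSubgroup)⁻¹ • s

theorem logPlaces_tUnitsHom (σ : GQ) (x : ↥(TUnits T L)) (s : PlaceSet T L) :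
    logPlaces T L (tUnitsHom T L σ x) s = logPlaces T L x (placePerm T L σ s) := by
  obtain ⟨i, s⟩ := s
  obtain ⟨g, rfl⟩ := exists_mk_mk_eq T L i s
  show _ = logPlaces T L x ⟨i, QuotientGroup.mk
    ((QuotientGroup.mk σ : GQ ⧸ L.fixingSubgroup)⁻¹ * QuotientGroup.mk g)⟩
  rw [← QuotientGroup.mk_inv, ← QuotientGroup.mk_mul, logPlaces_mk, logPlaces_mk, mul_inv_rev,
    inv_inv, AlgEquiv.mul_apply]
  rfl

section Arith

variable {T L} (hL : IsLvl T L)

theorem uval_mem_level (x : ↥(TUnits T L)) : uval (x : Qu) ∈ L := by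
  have hfix : ∀ s ∈ L.fixingSubgroup, s (uval (x : Qu)) = uval (x : Qu) := fun s hs => by
    rw [← uval_smul, x.2.2 s hs]
  generalize uval (x : Qu) = z at hfix ⊢
  rw [← InfiniteGalois.fixedField_fixingSubgroup L, IntermediateField.mem_fixedField_iff]
  exact hfix

include hL in
theorem umk_mem_TUnits {x : Qb} (hx : x ∈ L) (hx0 : x ≠ 0)
    (h : ∀ q : Nat.Primes, q ∉ T → ∀ g : GQ, ‖padicEmbedding (q : ℕ) (g x)‖ = 1) :
    umk x hx0 ∈ TUnits T L := by
  obtain ⟨f, hf, -, -⟩ := exists_principal hL hx hx0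
  refine ⟨⟨f, fun q g => ord_eq_of_zpow_eq (q := q.1) ?_, hf⟩, fun s hs => Qu.ext ?_⟩
  · rw [← hf.ord_eq, h q.1 q.2 g, neg_zero, zpow_zero]
  · rw [uval_smul, uval_umk]
    exact (IntermediateField.mem_fixingSubgroup_iff _ _).1 hs x hx

theorem norm_uval_eq_one_of_notMem (x : ↥(TUnits T L)) {q : Nat.Primes} (hq : q ∉ T) (g : GQ) :
    ‖padicEmbedding (q : ℕ) (g (uval (x : Qu)))‖ = 1 := by
  obtain ⟨f, hf, h⟩ := x.2.1
  rw [IsPrincipalOf.ord_eq h ⟨q, hq⟩ g, show (f : Amb T).ord ⟨q, hq⟩ g = 0 from hf _ g, neg_zero,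
    zpow_zero]

omit [L.fixingSubgroup.Normal] in
theorem log_norm_padicEmbedding_eq [FiniteDimensional ℚ L] (q : Nat.Primes) (g : GQ) {x : Qb}
    (hx : x ∈ L) (hx0 : x ≠ 0) :
    ∃ k : ℤ, Real.log ‖padicEmbedding (q : ℕ) (g x)‖ =
      k * (Real.log ((q : ℕ) : ℝ) / (Nat.factorial (Module.finrank ℚ L) : ℝ)) := by
  set a := padicEmbedding (q : ℕ) (g x) with ha
  have hint : IsIntegral ℚ_[(q : ℕ)] a := Algebra.IsIntegral.isIntegral a
  have hintx : IsIntegral ℚ (g x) := Algebra.IsIntegral.isIntegral _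
  have hd : (minpoly ℚ_[(q : ℕ)] a).natDegree ≤ Module.finrank ℚ L := by
    have h1 : minpoly ℚ_[(q : ℕ)] a ∣ (minpoly ℚ (g x)).map (algebraMap ℚ ℚ_[(q : ℕ)]) := by
      refine minpoly.dvd _ _ ?_
      rw [Polynomial.aeval_map_algebraMap, ha, Polynomial.aeval_algHom_apply, minpoly.aeval,
        map_zero]
    have h2 := Polynomial.natDegree_le_of_dvd h1
      (((minpoly.monic hintx).map _).ne_zero)
    rw [Polynomial.natDegree_map, minpoly.algEquiv_eq g x] at h2
    refine h2.trans ?_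
    rw [show x = ((⟨x, hx⟩ : L) : Qb) from rfl, ← IntermediateField.minpoly_eq]
    exact minpoly.natDegree_le _
  have hd0 : 0 < (minpoly ℚ_[(q : ℕ)] a).natDegree := minpoly.natDegree_pos hint
  obtain ⟨e, he⟩ := Nat.dvd_factorial hd0 hd
  have hc : (minpoly ℚ_[(q : ℕ)] a).coeff 0 ≠ 0 :=
    minpoly.coeff_zero_ne_zero hint (by simp [ha, hx0])
  refine ⟨-((minpoly ℚ_[(q : ℕ)] a).coeff 0).valuation * (e : ℤ), ?_⟩
  have h2 : ‖a‖ = ‖(minpoly ℚ_[(q : ℕ)] a).coeff 0‖ ^
      (1 / (minpoly ℚ_[(q : ℕ)] a).natDegree : ℝ) := by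
    rw [← PadicAlgCl.spectralNorm_eq, spectralNorm.spectralNorm_eq_norm_coeff_zero_rpow]
  rw [h2, Real.log_rpow (norm_pos_iff.2 hc), Padic.norm_eq_zpow_neg_valuation hc, Real.log_zpow, he]
  push_cast
  have hd1 : ((minpoly ℚ_[(q : ℕ)] a).natDegree : ℝ) ≠ 0 := by exact_mod_cast hd0.ne'
  have he1 : (e : ℝ) ≠ 0 := by
    have := Nat.factorial_ne_zero (Module.finrank ℚ L)
    rw [he] at this
    exact_mod_cast right_ne_zero_of_mul this
  field_simp

variable (L) in
/-- The units of the layer as `T`-units. -/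
theorem exists_unitsHom :
    ∀ _ : IsLvl T L, ∃ ψ : Additive (𝓞 L)ˣ →+ ↥(TUnits T L),
      (∀ u, uval (ψ u : Qu) = (((u.toMul : (𝓞 L)ˣ) : L) : Qb)) ∧
      (∀ (u) (q : ↥T) (g : GQ), ‖padicEmbedding (q.1 : ℕ) (g (uval (ψ u : Qu)))‖ = 1) ∧
      ∀ x : ↥(TUnits T L),
        (∀ (q : ↥T) (g : GQ), ‖padicEmbedding (q.1 : ℕ) (g (uval (x : Qu)))‖ = 1) →
        ∃ u, ψ u = x := by
  intro hL
  haveI := hL.numberField
  have hnorm : ∀ (u : Additive (𝓞 L)ˣ) (q : Nat.Primes) (g : GQ),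
      ‖padicEmbedding (q : ℕ) (g (((u.toMul : (𝓞 L)ˣ) : L) : Qb))‖ = 1 := by
    intro u q g
    have h1 : ∀ v : Additive (𝓞 L)ˣ,
        ‖padicEmbedding (q : ℕ) (g (((v.toMul : (𝓞 L)ˣ) : L) : Qb))‖ ≤ 1 := fun v =>
      norm_coe_le_one q g L ((v.toMul : (𝓞 L)ˣ) : 𝓞 L)
    refine le_antisymm (h1 u) ?_
    have h2 : (((u.toMul : (𝓞 L)ˣ) : L) : Qb) * ((((-u).toMul : (𝓞 L)ˣ) : L) : Qb) = 1 := by
      simp
    have h3 := congrArg (fun t => ‖padicEmbedding (q : ℕ) (g t)‖) h2
    simp only [map_mul, map_one, norm_mul, norm_one] at h3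
    rw [← h3]
    exact mul_le_of_le_one_right (norm_nonneg _) (h1 (-u))
  have h0 : ∀ u : Additive (𝓞 L)ˣ, (((u.toMul : (𝓞 L)ˣ) : L) : Qb) ≠ 0 := fun u => by simp
  let ψ : Additive (𝓞 L)ˣ →+ ↥(TUnits T L) := AddMonoidHom.mk'
    (fun u => ⟨umk _ (h0 u), umk_mem_TUnits hL (SetLike.coe_mem _) (h0 u) fun q _ g => hnorm u q g⟩)
    fun u v => Subtype.ext (Qu.ext (by
      rw [AddSubgroup.coe_add, uval_add, uval_umk, uval_umk, uval_umk, toMul_add, Units.val_mul,
        map_mul]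
      rfl))
  have hψ : ∀ u, uval (ψ u : Qu) = (((u.toMul : (𝓞 L)ˣ) : L) : Qb) := fun u =>
    uval_umk _ (h0 u)
  clear_value ψ
  refine ⟨ψ, ?_, ?_, ?_⟩
  · exact hψ
  · intro u q g
    rw [hψ u]
    exact hnorm u q.1 g
  intro x hx
  have hone : ∀ (q : Nat.Primes) (g : GQ), ‖padicEmbedding (q : ℕ) (g (uval (x : Qu)))‖ = 1 := by
    intro q g
    by_cases hq : q ∈ T
    · exact hx ⟨q, hq⟩ g
    · exact norm_uval_eq_one_of_notMem x hq g
  have hint : ∀ y : L, IsIntegral ℤ (y : Qb) → IsIntegral ℤ y := fun y hy =>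
    (isIntegral_algHom_iff (L.val.restrictScalars ℤ) Subtype.val_injective).1 hy
  let a : 𝓞 L := ⟨⟨_, uval_mem_level x⟩,
    hint _ (isIntegral_of_forall_norm_le_one fun q g => (hone q g).le)⟩
  let b : 𝓞 L := ⟨(⟨_, uval_mem_level x⟩ : L)⁻¹,
    hint _ (isIntegral_of_forall_norm_le_one fun q g => le_of_eq (by
      show ‖padicEmbedding (q : ℕ) (g (uval (x : Qu))⁻¹)‖ = 1
      rw [map_inv₀, map_inv₀, norm_inv, hone, inv_one]))⟩
  have hx0 : (⟨_, uval_mem_level x⟩ : L) ≠ 0 := fun h =>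
    uval_ne_zero (x : Qu) (congrArg Subtype.val h)
  exact ⟨Additive.ofMul ⟨a, b, RingOfIntegers.coe_injective (mul_inv_cancel₀ hx0),
    RingOfIntegers.coe_injective (inv_mul_cancel₀ hx0)⟩, Subtype.ext (Qu.ext (hψ _))⟩

/-- The complex embedding of the layer attached to an element of the group. -/
def placeEmb (L : IntermediateField ℚ Qb) (g : GQ) : L →+* ℂ :=
  (complexEmbedding.comp ((g⁻¹ : GQ) : Qb →ₐ[ℚ] Qb)).toRingHom.comp (algebraMap L Qb)

omit [L.fixingSubgroup.Normal] in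
theorem placeEmb_apply (g : GQ) (y : L) :
    placeEmb L g y = complexEmbedding (g⁻¹ (y : Qb)) := rfl

include hL in
/-- The infinite places of the layer are the cosets of the decomposition group at infinity. -/
theorem exists_equiv_infinitePlace :
    ∃ e : ((GQ ⧸ L.fixingSubgroup) ⧸ placeGrp T L none) ≃ InfinitePlace L,
      ∀ (g : GQ) (y : L), e (QuotientGroup.mk (QuotientGroup.mk g)) y =
        ‖complexEmbedding (g⁻¹ (y : Qb))‖ := by
  haveI := hL.numberField
  haveI := hL.isGalois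
  let φ : (GQ ⧸ L.fixingSubgroup) ⧸ placeGrp T L none → InfinitePlace L := fun s =>
    InfinitePlace.mk (placeEmb L s.out.out)
  have hφ : ∀ g : GQ, φ (QuotientGroup.mk (QuotientGroup.mk g)) =
      InfinitePlace.mk (placeEmb L g) := by
    intro g
    ext y
    obtain ⟨⟨δ, hδ⟩, hout⟩ := QuotientGroup.mk_out_eq_mul (placeGrp T L none)
      (QuotientGroup.mk g : GQ ⧸ L.fixingSubgroup)
    obtain ⟨d, rfl, hd⟩ := exists_lift_mem_placeGrp T L none hδ
    obtain ⟨u, hu⟩ := QuotientGroup.mk_out_eq_mul L.fixingSubgroup (g * d)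
    show ‖placeEmb L _ y‖ = ‖placeEmb L g y‖
    rw [hout, ← QuotientGroup.mk_mul, hu, placeEmb_apply, placeEmb_apply]
    obtain ⟨u', hu', hgu⟩ : ∃ u' ∈ L.fixingSubgroup, (g * d * u)⁻¹ = d⁻¹ * g⁻¹ * u' :=
      ⟨g * d * (u : GQ)⁻¹ * (g * d)⁻¹, ‹L.fixingSubgroup.Normal›.conj_mem _ (inv_mem u.2) _,
        by group⟩
    rw [hgu, AlgEquiv.mul_apply, AlgEquiv.mul_apply,
      (IntermediateField.mem_fixingSubgroup_iff _ _).1 hu' _ y.2]
    exact hd _
  have hbij : Function.Bijective φ := by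
    constructor
    · intro s t hst
      obtain ⟨g, rfl⟩ := exists_mk_mk_eq T L none s
      obtain ⟨h, rfl⟩ := exists_mk_mk_eq T L none t
      rw [hφ, hφ, InfinitePlace.mk_eq_iff] at hst
      refine QuotientGroup.eq.2 ?_
      have key : ∀ d : GQ, (∀ y : L, g⁻¹ (y : Qb) = (d * h⁻¹) (y : Qb)) →
          (QuotientGroup.mk g : GQ ⧸ L.fixingSubgroup)⁻¹ * QuotientGroup.mk h =
            QuotientGroup.mk d := by
        intro d hd
        rw [← QuotientGroup.mk_inv, ← QuotientGroup.mk_mul, QuotientGroup.eq]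
        have hmem : (g⁻¹ * h)⁻¹ * d = h⁻¹ * (g * d * h⁻¹) * h := by group
        rw [hmem]
        have h2 : g * d * h⁻¹ ∈ L.fixingSubgroup := by
          rw [IntermediateField.mem_fixingSubgroup_iff]
          intro y hy
          rw [mul_assoc, AlgEquiv.mul_apply, ← hd ⟨y, hy⟩]
          exact g.apply_symm_apply y
        have h3 := ‹L.fixingSubgroup.Normal›.conj_mem _ h2 h⁻¹
        rwa [inv_inv] at h3
      rcases hst with hst | hst
      · rw [key 1 fun y => ?_]
        · exact one_mem _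
        · rw [one_mul]
          exact complexEmbedding.injective (RingHom.congr_fun hst y)
      · rw [key complexConjugation fun y => ?_]
        · exact Subgroup.mem_zpowers _
        · rw [AlgEquiv.mul_apply]
          apply complexEmbedding.injective
          show complexEmbedding (g⁻¹ (y : Qb)) = complexEmbedding (complexConjugation _)
          rw [complexEmbedding_complexConjugation, ← placeEmb_apply, ← placeEmb_apply, ← hst,
            ComplexEmbedding.conjugate_coe_eq, Complex.conj_conj]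
    · intro w
      obtain ⟨σ, rfl⟩ := InfinitePlace.exists_smul_eq_of_comap_eq (k := ℚ)
        (w := InfinitePlace.mk (placeEmb L 1)) (w' := w) (Subsingleton.elim _ _)
      refine ⟨QuotientGroup.mk (QuotientGroup.mk (σ.liftNormal Qb : GQ)), ?_⟩
      rw [hφ]
      ext y
      show ‖placeEmb L _ y‖ = ‖placeEmb L 1 (σ.symm y)‖
      rw [placeEmb_apply, placeEmb_apply, inv_one, AlgEquiv.one_apply]
      congr 2
      have h1 := AlgEquiv.liftNormal_commutes σ Qb (σ.symm y)
      rw [AlgEquiv.apply_symm_apply] at h1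
      apply (σ.liftNormal Qb).injective
      rw [show (σ.liftNormal Qb) ((σ.liftNormal Qb)⁻¹ (y : Qb)) = (y : Qb) from
        (σ.liftNormal Qb).apply_symm_apply _]
      exact h1.symm
  exact ⟨Equiv.ofBijective φ hbij, fun g y => by
    rw [Equiv.ofBijective_apply, hφ]; rfl⟩

end Arith

end Fermat.Agent.TW

end
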