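/-
The Galois module of the `T`-units of a layer up to semisimplification:
`E/p - E[p] + 1 = Perm(G/⟨c⟩) + ∑_{v ∈ T} Perm(G/D_v)`.
-/
import Fermat.Agent.TW.UnitsPolyDefs
import Fermat.Agent.TW.UnitsPolyLog
import Mathlib.NumberTheory.NumberField.Units.DirichletTheorem
import Mathlib.RingTheory.IntegralDomain

set_option autoImplicit false
set_option maxHeartbeats 800000

noncomputable section

open Polynomial NumberField

namespace Fermat.Agent.TW

open PoitouTate

local notation "Qb" => AlgebraicClosure ℚ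

variable {T : Finset Nat.Primes} {L : IntermediateField ℚ Qb} [L.fixingSubgroup.Normal]

/-- The weighted sums over the infinite places killing all units and the constants vanish. -/
theorem eq_zero_of_sum_log_units {K : Type*} [Field K] [NumberField K] (w : InfinitePlace K → ℝ)
    (hsum : ∑ v, w v = 0) (hu : ∀ u : (𝓞 K)ˣ, ∑ v, w v * Real.log (v (u : K)) = 0) : w = 0 := by
  classical
  set v₀ : InfinitePlace K := Units.dirichletUnitTheorem.w₀ with hv₀
  have hm : ∀ v : InfinitePlace K, (v.mult : ℝ) ≠ 0 := fun v => InfinitePlace.mult_coe_ne_zero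
  set t : ℝ := w v₀ / v₀.mult with ht
  let Φ : Units.dirichletUnitTheorem.logSpace K →ₗ[ℝ] ℝ :=
    ∑ v : {v : InfinitePlace K // v ≠ Units.dirichletUnitTheorem.w₀},
      (w v.1 / v.1.mult - t) • LinearMap.proj v
  have hΦ : Φ = 0 := by
    refine LinearMap.ext_on (Units.dirichletUnitTheorem.unitLattice_span_eq_top K) fun h hh => ?_
    obtain ⟨x, -, rfl⟩ := hh
    obtain ⟨u, rfl⟩ := Additive.ofMul.surjective x
    have h0 := hu u
    have h1 := Units.sum_mult_mul_log u
    rw [Fintype.sum_eq_add_sum_subtype_ne _ v₀] at h0 h1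
    simp only [Φ, LinearMap.sum_apply, LinearMap.smul_apply, LinearMap.proj_apply,
      LinearMap.zero_apply, smul_eq_mul]
    show ∑ v : {v : InfinitePlace K // v ≠ v₀},
      (w v.1 / v.1.mult - t) * Units.logEmbedding K (Additive.ofMul u) v = 0
    have e : ∀ v : {v : InfinitePlace K // v ≠ v₀},
        (w v.1 / v.1.mult - t) * Units.logEmbedding K (Additive.ofMul u) v =
          w v.1 * Real.log (v.1 (u : K)) - t * (v.1.mult * Real.log (v.1 (u : K))) := fun v => by
      rw [show Units.logEmbedding K (Additive.ofMul u) v =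
        (v.1.mult : ℝ) * Real.log (v.1 (u : K)) from rfl]
      field_simp [hm v.1]
    simp only [e, Finset.sum_sub_distrib, ← Finset.mul_sum]
    have ht' : t * v₀.mult = w v₀ := div_mul_cancel₀ _ (hm v₀)
    linear_combination h0 - t * h1 + (Real.log (v₀ (u : K))) * ht'
  have hw : ∀ v, w v = t * v.mult := by
    intro v
    by_cases hv : v = v₀
    · rw [hv]; exact (div_mul_cancel₀ _ (hm v₀)).symm
    · have h1 := LinearMap.congr_fun hΦ (Pi.single ⟨v, hv⟩ 1)
      simp only [Φ, LinearMap.sum_apply, LinearMap.smul_apply, LinearMap.proj_apply,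
        LinearMap.zero_apply, smul_eq_mul, Pi.single_apply, mul_ite, mul_one, mul_zero,
        Finset.sum_ite_eq', Finset.mem_univ, if_true] at h1
      rw [sub_eq_zero, div_eq_iff (hm v)] at h1
      exact h1
  simp only [hw, ← Finset.mul_sum] at hsum
  have hpos : (0 : ℝ) < ∑ v : InfinitePlace K, (v.mult : ℝ) :=
    Finset.sum_pos (fun v _ => lt_of_le_of_ne (Nat.cast_nonneg _) (hm v).symm)
      Finset.univ_nonempty
  have ht0 : t = 0 := (mul_eq_zero.1 hsum).resolve_right hpos.ne'
  funext v
  rw [hw, ht0, zero_mul, Pi.zero_apply]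

section Layer

variable (hL : IsLvl T L)

include hL in
theorem module_finite_and_finrank_tUnits :
    Module.Finite ℤ ↥(TUnits T L) ∧
      Module.finrank ℤ ↥(TUnits T L) < Nat.card (PlaceSet T L) := by
  classical
  haveI := hL.numberField
  haveI := hL.finite_quotient
  haveI : ∀ i, Fintype ((GQ ⧸ L.fixingSubgroup) ⧸ placeGrp T L i) := fun i => Fintype.ofFinite _
  obtain ⟨ψ, hψ, -, hker⟩ := exists_unitsHom L hL
  obtain ⟨e, -⟩ := exists_equiv_infinitePlace (T := T) hL
  set ST := Σ q : ↥T, (GQ ⧸ L.fixingSubgroup) ⧸ placeGrp T L (some q)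
  set N : ℝ := (Nat.factorial (Module.finrank ℚ L) : ℝ)
  let ν : ↥(TUnits T L) →ₗ[ℤ] (ST → ℝ) :=
    (AddMonoidHom.mk' (fun x (z : ST) => logPlaces T L x ⟨some z.1, z.2⟩) fun x y => by
      funext z; rw [map_add]; rfl).toIntLinearMap
  let sc : (ST → ℤ) →ₗ[ℤ] (ST → ℝ) :=
    (AddMonoidHom.mk' (fun f z => (f z : ℝ) * (Real.log ((z.1.1 : ℕ) : ℝ) / N)) fun f g => by
      funext z; simp [add_mul]).toIntLinearMap
  have hle : LinearMap.range ν ≤ LinearMap.range sc := by
    rintro _ ⟨x, rfl⟩
    have hk : ∀ z : ST, ∃ k : ℤ, ν x z = k * (Real.log ((z.1.1 : ℕ) : ℝ) / N) := fun z => by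
      obtain ⟨g, hg⟩ := exists_mk_mk_eq T L (some z.1) z.2
      obtain ⟨k, hk⟩ := log_norm_padicEmbedding_eq (L := L) z.1.1 g⁻¹ (uval_mem_level x)
        (uval_ne_zero _)
      refine ⟨k, ?_⟩
      show logPlaces T L x ⟨some z.1, z.2⟩ = _
      rw [← hg, logPlaces_mk]
      exact hk
    choose k hk using hk
    exact ⟨k, funext fun z => (hk z).symm⟩
  have hfgR : (LinearMap.range ν).FG := by
    have h2 : Module.Finite ℤ (LinearMap.range sc) := inferInstance
    haveI : IsNoetherian ℤ (LinearMap.range sc) := inferInstance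
    exact Submodule.FG.of_le (Module.Finite.iff_fg.1 h2) hle
  have hkerν : LinearMap.ker ν ≤ LinearMap.range ψ.toIntLinearMap := by
    intro x hx
    refine (hker x fun q g => ?_).imp fun u hu => hu
    have h1 := congrFun (LinearMap.mem_ker.1 hx) ⟨q, QuotientGroup.mk (QuotientGroup.mk g⁻¹)⟩
    change logPlaces T L x ⟨some q, QuotientGroup.mk (QuotientGroup.mk g⁻¹)⟩ = 0 at h1
    rw [logPlaces_mk, inv_inv, Real.log_eq_zero] at h1
    have h2 := placeAbs_ne_zero T (some q) (x := g (uval (x : Qu))) (by simp [uval_ne_zero])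
    simp only [placeAbs] at h1 h2
    have h3 := norm_nonneg (padicEmbedding (q.1 : ℕ) (g (uval (x : Qu))))
    rcases h1 with h1 | h1 | h1
    · exact absurd h1 h2
    · exact h1
    · linarith
  have hfgU : (LinearMap.range ψ.toIntLinearMap).FG :=
    Module.Finite.iff_fg.1 (Module.Finite.range ψ.toIntLinearMap)
  haveI hfin : Module.Finite ℤ ↥(TUnits T L) := by
    refine ⟨Submodule.fg_of_fg_map_of_fg_inf_ker ν (by rw [Submodule.map_top]; exact hfgR) ?_⟩
    rw [top_inf_eq]
    haveI : Module.Finite ℤ (LinearMap.range ψ.toIntLinearMap) := Module.Finite.iff_fg.2 hfgU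
    exact Submodule.FG.of_le hfgU hkerν
  refine ⟨hfin, ?_⟩
  have h1 := Submodule.finrank_quotient_add_finrank (LinearMap.ker ν)
  rw [LinearEquiv.finrank_eq ν.quotKerEquivRange] at h1
  haveI : Module.Finite ℤ (LinearMap.range sc) := inferInstance
  have h2 : Module.finrank ℤ (LinearMap.range ν) ≤ Fintype.card ST :=
    (Submodule.finrank_mono hle).trans ((LinearMap.finrank_range_le sc).trans
      (Module.finrank_fintype_fun_eq_card ℤ).le)
  haveI : Module.Finite ℤ (LinearMap.range ψ.toIntLinearMap) := Module.Finite.range _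
  have h3 : Module.finrank ℤ (LinearMap.ker ν) ≤ Units.rank L :=
    (Submodule.finrank_mono hkerν).trans
      ((LinearMap.finrank_range_le ψ.toIntLinearMap).trans finrank_units.le)
  have h4 : Fintype.card (InfinitePlace L) + Fintype.card ST = Nat.card (PlaceSet T L) := by
    rw [Nat.card_eq_fintype_card]
    rw [← Fintype.card_congr e, Fintype.card_sigma, Fintype.card_sigma, Fintype.sum_option]
  have h5 : 0 < Fintype.card (InfinitePlace L) := Fintype.card_pos
  rw [Units.rank] at h3
  omega

/-- The indicator of the places at infinity. -/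
def infVec (T : Finset Nat.Primes) (L : IntermediateField ℚ Qb) [L.fixingSubgroup.Normal]
    (s : PlaceSet T L) : ℝ := if s.1 = none then 1 else 0

theorem infVec_placePerm (σ : GQ) (s : PlaceSet T L) :
    infVec T L (placePerm T L σ s) = infVec T L s := rfl

include hL in
theorem span_logPlaces_eq_top :
    ⊤ ≤ Submodule.span ℝ (insert (infVec T L) (Set.range (logPlaces T L))) := by
  classical
  haveI := hL.numberField
  haveI := hL.finite_quotient
  haveI : ∀ i, Fintype ((GQ ⧸ L.fixingSubgroup) ⧸ placeGrp T L i) := fun i => Fintype.ofFinite _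
  obtain ⟨ψ, hψ, hψ1, -⟩ := exists_unitsHom L hL
  obtain ⟨e, he⟩ := exists_equiv_infinitePlace (T := T) hL
  set W := Submodule.span ℝ (insert (infVec T L) (Set.range (logPlaces T L))) with hW
  let δ : PlaceSet T L → (PlaceSet T L → ℝ) := fun s => Pi.single s 1
  have hmem : ∀ h : PlaceSet T L → ℝ, h = ∑ s, h s • δ s := fun h => by
    funext z
    simp [δ, Finset.sum_apply, Pi.single_apply]
  -- the places at infinity
  have hinf : ∀ s, δ ⟨none, s⟩ ∈ W := by
    intro s
    by_contra hs
    obtain ⟨f, hf, hfW⟩ := Submodule.exists_dual_map_eq_bot_of_notMem hs inferInstance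
    have hvan : ∀ h ∈ W, f h = 0 := fun h hh =>
      (Submodule.mem_bot ℝ).1 (hfW ▸ Submodule.mem_map_of_mem hh)
    let w : InfinitePlace L → ℝ := fun v => f (δ ⟨none, e.symm v⟩)
    have key : ∀ h : PlaceSet T L → ℝ, (∀ q z, h ⟨some q, z⟩ = 0) →
        f h = ∑ v, h ⟨none, e.symm v⟩ * w v := by
      intro h h0
      conv_lhs => rw [hmem h]
      rw [map_sum, Fintype.sum_sigma, Fintype.sum_option]
      simp only [h0, zero_smul, map_zero, Finset.sum_const_zero, add_zero]
      rw [← e.symm.sum_comp]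
      exact Finset.sum_congr rfl fun v _ => by rw [map_smul, smul_eq_mul]
    have hw : w = 0 := by
      refine eq_zero_of_sum_log_units w ?_ fun u => ?_
      · have h1 := key (infVec T L) fun q z => by simp [infVec]
        rw [hvan _ (Submodule.subset_span (Set.mem_insert _ _))] at h1
        simpa [infVec] using h1.symm
      · have hz : ∀ q z, logPlaces T L (ψ (Additive.ofMul u)) ⟨some q, z⟩ = 0 := fun q z => by
          obtain ⟨g, rfl⟩ := exists_mk_mk_eq T L (some q) z
          rw [logPlaces_mk]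
          show Real.log ‖padicEmbedding (q.1 : ℕ) (g⁻¹ _)‖ = 0
          rw [hψ1, Real.log_one]
        have h1 := key _ hz
        rw [hvan _ (Submodule.subset_span (Set.mem_insert_of_mem _ ⟨_, rfl⟩))] at h1
        rw [h1]
        refine Finset.sum_congr rfl fun v _ => ?_
        obtain ⟨g, hg⟩ := exists_mk_mk_eq T L none (e.symm v)
        rw [← hg, logPlaces_mk, mul_comm]
        congr 1
        show Real.log (v _) = Real.log ‖complexEmbedding (g⁻¹ _)‖
        rw [← e.apply_symm_apply v, ← hg, he, hψ]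
        rfl
    refine hf ?_
    have := congrFun hw (e s)
    simpa [w] using this
  -- the places over `T`
  have hfin : ∀ q z, δ ⟨some q, z⟩ ∈ W := by
    intro q z
    obtain ⟨g, rfl⟩ := exists_mk_mk_eq T L (some q) z
    obtain ⟨α, hαL, hα0, hlt, hsupp⟩ := exists_elt_supported_at L q.1 g⁻¹
    set x : ↥(TUnits T L) := ⟨umk α hα0, umk_mem_TUnits hL hαL hα0 fun q' hq' g' => by
      by_contra hne
      exact hq' ((hsupp q' g' hne).1 ▸ q.2)⟩
    set s : PlaceSet T L := ⟨some q, QuotientGroup.mk (QuotientGroup.mk g)⟩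
    have hzero : ∀ q' z', (⟨some q', z'⟩ : PlaceSet T L) ≠ s →
        logPlaces T L x ⟨some q', z'⟩ = 0 := by
      intro q' z' hne
      obtain ⟨g', rfl⟩ := exists_mk_mk_eq T L (some q') z'
      rw [logPlaces_mk]
      show Real.log ‖padicEmbedding (q'.1 : ℕ) (g'⁻¹ α)‖ = 0
      by_cases h1 : ‖padicEmbedding (q'.1 : ℕ) (g'⁻¹ α)‖ = 1
      · rw [h1, Real.log_one]
      obtain ⟨hq', τ, u, hu, hg'⟩ := hsupp q'.1 g'⁻¹ h1
      obtain rfl : q' = q := Subtype.ext hq'
      refine absurd ?_ hne
      have hu1 : (QuotientGroup.mk u : GQ ⧸ L.fixingSubgroup) = 1 :=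
        (QuotientGroup.eq_one_iff u).2 hu
      have hgg : g' = u⁻¹ * g * (loc q'.1 τ)⁻¹ := by
        rw [← inv_inv g', hg']
        group
      refine congrArg (Sigma.mk (some q')) (QuotientGroup.eq.2 ?_)
      rw [hgg, QuotientGroup.mk_mul, QuotientGroup.mk_mul, QuotientGroup.mk_inv, hu1, inv_one,
        one_mul, mul_inv_rev, mul_assoc, inv_mul_cancel, mul_one, QuotientGroup.mk_inv, inv_inv]
      exact ⟨_, ⟨τ, rfl⟩, rfl⟩
    have hc : logPlaces T L x s ≠ 0 := by
      rw [logPlaces_mk]
      show Real.log ‖padicEmbedding (q.1 : ℕ) (g⁻¹ α)‖ ≠ 0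
      refine (Real.log_neg (norm_pos_iff.2 ?_) hlt).ne
      simp [hα0]
    have hdec : δ s = (logPlaces T L x s)⁻¹ •
        (logPlaces T L x - ∑ t ∈ Finset.univ.erase s, logPlaces T L x t • δ t) := by
      have h1 := hmem (logPlaces T L x)
      rw [← Finset.add_sum_erase _ _ (Finset.mem_univ s)] at h1
      nth_rw 2 [h1]
      rw [add_sub_cancel_right, smul_smul, inv_mul_cancel₀ hc, one_smul]
    rw [hdec]
    refine W.smul_mem _ (W.sub_mem (Submodule.subset_span (Set.mem_insert_of_mem _ ⟨x, rfl⟩))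
      (W.sum_mem fun t ht => ?_))
    rcases t with ⟨_ | q', t⟩
    · exact W.smul_mem _ (hinf t)
    · rw [hzero q' t (Finset.ne_of_mem_erase ht), zero_smul]
      exact W.zero_mem
  intro h _
  rw [hmem h]
  refine W.sum_mem fun s _ => W.smul_mem _ ?_
  rcases s with ⟨_ | q, s⟩
  · exact hinf s
  · exact hfin q s

theorem isAddCyclic_torsion_tUnits [Module.Finite ℤ ↥(TUnits T L)] :
    IsAddCyclic (Submodule.torsion ℤ ↥(TUnits T L)) := by
  haveI : Finite (Submodule.torsion ℤ ↥(TUnits T L)) :=
    Module.finite_of_fg_torsion _ fun x => by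
      obtain ⟨a, ha⟩ := x.2
      exact ⟨a, Subtype.ext ha⟩
  let f : Multiplicative (Submodule.torsion ℤ ↥(TUnits T L)) →* Qb :=
    { toFun := fun x => uval ((((Multiplicative.toAdd x : Submodule.torsion ℤ ↥(TUnits T L)) :
        ↥(TUnits T L)) : Qu))
      map_one' := rfl
      map_mul' := fun x y => uval_add _ _ }
  have hf : Function.Injective f := fun x y h =>
    Multiplicative.toAdd.injective (Subtype.ext (Subtype.ext (Qu.ext h)))
  haveI := isCyclic_of_subgroup_isDomain f hf
  exact isCyclic_multiplicative_iff.1 inferInstance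

end Layer

/-- Dirichlet's unit theorem for `T`-units, equivariantly. -/
theorem exists_involution_quoPoly_tUnits (p : ℕ) [Fact p.Prime] (T : Finset Nat.Primes) :
    ∃ c : GQ, c * c = 1 ∧ c ≠ 1 ∧
      ∀ (L : IntermediateField ℚ (AlgebraicClosure ℚ)) (hL : IsLvl T L),
        haveI := hL.normal
        haveI := hL.finite_quotient
        ∃ (_ : Finite (TorP p ↥(TUnits T L))) (_ : Finite (QuoP p ↥(TUnits T L))), ∀ s : GQ,
          quoPoly (p := p) (tUnitsHom T L s) * (X - C 1) =
            torPoly (p := p) (tUnitsHom T L s) *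
              (permRep p (GQ ⧸ L.fixingSubgroup)
                ((GQ ⧸ L.fixingSubgroup) ⧸
                  Subgroup.zpowers (QuotientGroup.mk c : GQ ⧸ L.fixingSubgroup))
                (QuotientGroup.mk s)).charpoly *
              ∏ q : ↥T, (permRep p (GQ ⧸ L.fixingSubgroup)
                ((GQ ⧸ L.fixingSubgroup) ⧸ (loc q.1).range.map (QuotientGroup.mk' L.fixingSubgroup))
                (QuotientGroup.mk s)).charpoly := by
  classical
  refine ⟨complexConjugation, complexConjugation_mul_self, complexConjugation_ne_one,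
    fun L hL => ?_⟩
  haveI := hL.normal
  haveI := hL.finite_quotient
  haveI : ∀ i, Fintype ((GQ ⧸ L.fixingSubgroup) ⧸ placeGrp T L i) := fun i => Fintype.ofFinite _
  obtain ⟨hfin, hrank⟩ := module_finite_and_finrank_tUnits hL
  rw [Nat.card_eq_fintype_card] at hrank
  haveI := hfin
  have key : ∀ s : GQ, ∃ (_ : Finite (TorP p ↥(TUnits T L))) (_ : Finite (QuoP p ↥(TUnits T L))),
      quoPoly (p := p) (tUnitsHom T L s) * (X - C 1) =
        torPoly (p := p) (tUnitsHom T L s) * (permMat (ZMod p) (placePerm T L s)).charpoly :=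
    fun s => quoPoly_mul_eq_of_realisation (isAddCyclic_torsion_tUnits) (placePerm T L s)
      (tUnitsHom T L s) (logPlaces T L) (logPlaces_tUnitsHom T L s) (infVec T L)
      (infVec_placePerm s) (span_logPlaces_eq_top hL) hrank
  obtain ⟨h1, h2, -⟩ := key 1
  refine ⟨h1, h2, fun s => ?_⟩
  obtain ⟨_, _, h⟩ := key s
  rw [mul_assoc]
  refine h.trans (congrArg (torPoly (p := p) (tUnitsHom T L s) * ·) ?_)
  rw [placePerm, charpoly_permMat_sigma, Fintype.prod_option, ← charpoly_funLeft]
  congr 1
  refine Finset.prod_congr rfl fun q _ => ?_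
  rw [← charpoly_funLeft]
  rfl

end Fermat.Agent.TW

end
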