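/-
The lower bound `dim H¹_T(ad⁰ ⊗ det) ≥ ∑_{v ∈ T} h⁰_v(ad⁰) + 1` for large enough `T`.
-/
import Fermat.Agent.TW.LowerGlue
import Fermat.Agent.TW.UnitsPoly
import Fermat.Agent.TW.LocalClassModule
import Fermat.Agent.PoitouTate.ClassFundamental
import Fermat.Agent.PoitouTate.ClassCyclotomic
import Fermat.Agent.PoitouTate.IdeleCyclic

set_option autoImplicit false

noncomputable section

namespace Fermat.Agent.TW

open PoitouTate

/-- The global lower bound, in terms of cocycles. -/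
theorem exists_finset_le_finrank_dualCocycles {k : Type} [Field k] [Finite k] (p : ℕ)
    [Fact p.Prime] [CharP k p] (ρ : ResidualGaloisRep k) (h : TWHyp p ρ) (S0 : Finset ℕ)
    (hpS0 : p ∈ S0) (hprime : ∀ q ∈ S0, q.Prime)
    (hram : ∀ q : ℕ, q.Prime → q ∉ S0 → ρ.IsUnramifiedAt q) :
    ∃ A : Finset ℕ, (∀ a ∈ A, a.Prime ∧ a ∉ S0) ∧
      ∀ T : Finset ℕ, S0 ∪ A ⊆ T → (∀ q ∈ T, q.Prime) →
        FiniteDimensional k (dualCocycles ρ T) ∧
          ∑ q ∈ T, locInvDim ρ q + 4 ≤ Module.finrank k (dualCocycles ρ T) := by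
  classical
  have hL0 := isLvl_repLevel ρ S0 hram
  obtain ⟨A, hA, hAsupp⟩ := exists_finset_supported hL0
  refine ⟨A.image (fun a : Nat.Primes => (a : ℕ)), fun a ha => ?_, fun T hsub hT => ?_⟩
  · obtain ⟨a, haA, rfl⟩ := Finset.mem_image.1 ha
    exact ⟨a.2, fun hm => hA a haA (mem_toPrimes.2 hm)⟩
  have hTT : toPrimes S0 ∪ A ⊆ toPrimes T := fun a ha =>
    mem_toPrimes.2 (hsub ((Finset.mem_union.1 ha).elim
      (fun h => Finset.mem_union_left _ (mem_toPrimes.1 h))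
      fun h => Finset.mem_union_right _ (Finset.mem_image_of_mem _ h)))
  have hpT : p ∈ T := hsub (Finset.mem_union_left _ hpS0)
  have hL : IsLvl (toPrimes T) (repLevel ρ) := hL0.mono (Finset.union_subset_left hTT)
  have hramT : ∀ q : ℕ, q.Prime → q ∉ T → ρ.IsUnramifiedAt q := fun q hq hqT =>
    hram q hq fun h => hqT (hsub (Finset.mem_union_left _ h))
  have hpP := pPrime_mem_toPrimes hpT
  have hcyc : ∀ s ∈ (repLevel ρ).fixingSubgroup, ExtCitation.cycloChar p s = 1 := fun s hs =>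
    cycloChar_eq_one_of_mem ρ h.det hs
  obtain ⟨c, hc, -, hunits⟩ := exists_involution_quoPoly_tUnits p (toPrimes T)
  obtain ⟨hfin, hext⟩ := card_ext1_repUnits_ge ρ h T hT hpT hL hc (hunits (repLevel ρ) hL)
    (fun v => exists_localClassModule p (toPrimes T) hpP (repLevel ρ) hL hcyc v)
    (layerClassModule (cyclicH1 p (toPrimes T) h.two_ne hpP)
      (cyclicNormIndex p (toPrimes T) h.two_ne hpP) (nonempty_cyclotomicInvariant_pow h.two_ne hpP))
    (hAsupp (toPrimes T) hTT ⟨_, pPrime_mem_toPrimes hpS0⟩)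
  obtain ⟨hfd, hinj⟩ := card_ext1_mul_le ρ T h hpT hramT
  refine ⟨hfd, (Nat.pow_le_pow_iff_right (a := Nat.card k) Finite.one_lt_card).1 ?_⟩
  calc Nat.card k ^ (∑ q ∈ T, locInvDim ρ q + 4)
      = Nat.card k ^ (∑ q ∈ T, locInvDim ρ q + 1) * Nat.card k ^ 3 := by rw [← pow_add]
    _ ≤ _ := (Nat.mul_le_mul_right _ hext).trans hinj

end Fermat.Agent.TW
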