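/-
Taylor-Wiles primes detecting the twisted cocycles.
-/
import Fermat.Agent.TW.PrimesDetect

set_option autoImplicit false

noncomputable section

open Polynomial
open scoped Pointwise

namespace Fermat.Agent.TW.Places

local notation "Qb" => AlgebraicClosure ℚ
local notation "Γℚ" => AlgebraicClosure ℚ ≃ₐ[ℚ] AlgebraicClosure ℚ

variable {k : Type} [Field k] (ρ : ResidualGaloisRep k)

/-- A power of a matrix is affine in the matrix. -/
theorem exists_pow_eq_smul_add (X : Matrix (Fin 2) (Fin 2) k) (j : ℕ) :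
    ∃ u v : k, X ^ j = u • X + v • 1 := by
  induction j with
  | zero => exact ⟨0, 1, by simp⟩
  | succ j ih =>
    obtain ⟨u, v, h⟩ := ih
    refine ⟨u * X.trace + v, -(u * X.det), ?_⟩
    rw [pow_succ, h, add_mul, smul_mul_assoc, smul_mul_assoc, one_mul, sq_eq_fin_two, smul_sub,
      smul_smul, smul_smul, neg_smul, add_smul]
    abel

/-- Discriminant of the characteristic polynomial. -/
def disc (X : Matrix (Fin 2) (Fin 2) k) : k := X.trace ^ 2 - 4 * X.det

theorem disc_pow_eq_zero {X : Matrix (Fin 2) (Fin 2) k} (h : disc X = 0) (j : ℕ) :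
    disc (X ^ j) = 0 := by
  obtain ⟨u, v, hX⟩ := exists_pow_eq_smul_add X j
  rw [disc, Matrix.trace_fin_two, Matrix.det_fin_two] at h
  rw [hX, disc, Matrix.trace_fin_two, Matrix.det_fin_two]
  simp only [Matrix.add_apply, Matrix.smul_apply, Matrix.one_apply_eq, smul_eq_mul,
    Matrix.one_apply_ne (zero_ne_one' (Fin 2)), Matrix.one_apply_ne (one_ne_zero : (1 : Fin 2) ≠ 0),
    mul_one, mul_zero, add_zero]
  linear_combination u ^ 2 * h

theorem disc_conj {G : Type*} [Group G] (r : G →* Matrix (Fin 2) (Fin 2) k) (g h : G) :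
    disc (r (h * g * h⁻¹)) = disc (r g) := by
  rw [disc, disc, map_mul, map_mul, Matrix.trace_mul_cycle, LocalCondB.rep_inv_mul_self, one_mul,
    Matrix.det_mul, Matrix.det_mul, mul_right_comm, ← Matrix.det_mul,
    LocalCondB.rep_mul_inv_self, Matrix.det_one, one_mul]

theorem charpoly_conj_rep {G : Type*} [Group G] (r : G →* Matrix (Fin 2) (Fin 2) k) (g h : G) :
    (r (h * g * h⁻¹)).charpoly = (r g).charpoly := by
  rw [Matrix.charpoly_fin_two, Matrix.charpoly_fin_two, map_mul, map_mul, Matrix.trace_mul_cycle,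
    LocalCondB.rep_inv_mul_self, one_mul, Matrix.det_mul, Matrix.det_mul, mul_right_comm,
    ← Matrix.det_mul, LocalCondB.rep_mul_inv_self, Matrix.det_one, one_mul]

/-- A good prime: congruent to one, and every Frobenius element over it has distinct
eigenvalues. -/
def IsGoodPrime (M : ℕ) (q : ℕ) : Prop :=
  q.Prime ∧ M ∣ q - 1 ∧
    (∀ P : ValuationSubring Qb, P.LiesOverPrime q → ∀ φ : Γℚ, P.IsFrobeniusAt φ q →
      ∃ α β : k, α ≠ β ∧ LinearMap.charpoly (ρ.ρ φ) = (X - C α) * (X - C β)) ∧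
    ∀ (_ : Fact q.Prime), ∃ g : GalQp q, ∃ α β : k, α ≠ β ∧
      (locRep ρ q g).charpoly = (X - C α) * (X - C β)

variable {p : ℕ} [Fact p.Prime] [CharP k p] [Finite k]

/-- An element fixing the roots of unity of order `p ^ (n + 1)` with distinct eigenvalues gives a
good prime where the twisted classes it detects are nontrivial. -/
theorem exists_goodPrime (h : TWHyp p ρ) (S : Finset ℕ) (hpS : p ∈ S)
    (hram : ∀ q : ℕ, q.Prime → q ∉ S → ρ.IsUnramifiedAt q) (n : ℕ) (σ : Γℚ)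
    (hσ : ∀ μ : Qb, μ ^ p ^ (n + 1) = 1 → σ μ = μ)
    (hdisc : disc (matRep ρ σ) ≠ 0) (y : Γℚ → Matrix (Fin 2) (Fin 2) k)
    (hy : y ∈ twCocycles (matRep ρ) ⊓ globalFiniteLevel k) :
    ∃ q : ℕ, q ∉ S ∧ IsGoodPrime ρ (p ^ (n + 1)) q ∧
      ((∀ _ : Fact q.Prime, resLoc q y ∈ twCoboundaries (locRep ρ q)) →
        infTrace (matRep ρ) y σ = 0) := by
  have hp : p.Prime := Fact.out
  obtain ⟨hyco, hylev⟩ := hy
  obtain ⟨ζ, hζ⟩ := HasEnoughRootsOfUnity.exists_primitiveRoot Qb (p ^ (n + 1))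
  obtain ⟨L₁, hL₁, -, hlev₁⟩ := exists_common_level ρ hylev
  let L₂ : IntermediateField ℚ Qb := IntermediateField.adjoin ℚ {ζ}
  have : FiniteDimensional ℚ L₂ :=
    IntermediateField.adjoin.finiteDimensional (Algebra.IsIntegral.isIntegral ζ)
  have : FiniteDimensional ℚ (L₁ ⊔ L₂ : IntermediateField ℚ Qb) :=
    IntermediateField.finiteDimensional_sup L₁ L₂
  let L := IntermediateField.normalClosure ℚ (L₁ ⊔ L₂ : IntermediateField ℚ Qb) Qb
  have : FiniteDimensional ℚ L := normalClosure.is_finiteDimensional ℚ _ _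
  have : Normal ℚ L := normalClosure.normal ℚ _ _
  have hle₁ : L₁ ≤ L := le_sup_left.trans (IntermediateField.le_normalClosure _)
  have hζL : ζ ∈ L := (le_sup_right.trans (IntermediateField.le_normalClosure _) : L₂ ≤ L)
    (IntermediateField.mem_adjoin_simple_self ℚ ζ)
  have hlev : ∀ g s : Γℚ, (∀ x ∈ L, s x = x) → y (g * s) = y g ∧ matRep ρ (g * s) = matRep ρ g :=
    fun g s hs => hlev₁ g s fun x hx => hs x (hle₁ hx)
  obtain ⟨ℓ, hℓ, hS, τ, g, hτ, ⟨j, hj⟩, j', hj'⟩ := exists_frobenius_conj σ L S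
  obtain ⟨s, hs, hσs⟩ := exists_mul_of_eqOn hj
  have hdiscτ : disc (matRep ρ τ) ≠ 0 := fun h0 => hdisc (by
    rw [hσs, (hlev _ s hs).2, disc_conj, map_pow]
    exact disc_pow_eq_zero h0 j)
  have hℓp : ℓ ≠ p := fun e => hS (e ▸ hpS)
  have hcop : ℓ.Coprime (p ^ (n + 1)) :=
    Nat.Coprime.pow_right _ ((Nat.coprime_primes hℓ.out hp).2 hℓp)
  have hdvd : p ^ (n + 1) ∣ ℓ - 1 := by
    have e1 : τ ζ = ζ ^ ℓ := Datum.frobenius_apply_root (padicPlace_over ℓ) hτ hcop
      (pow_ne_zero _ hp.ne_zero) hζ.pow_eq_one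
    have hgζ : (g ζ) ^ p ^ (n + 1) = 1 := by rw [← map_pow, hζ.pow_eq_one, map_one]
    have hfix : ∀ i : ℕ, (σ ^ i) (g ζ) = g ζ := by
      intro i
      induction i with
      | zero => rfl
      | succ i ih => rw [pow_succ, AlgEquiv.mul_apply, hσ _ hgζ, ih]
    have e2 : τ ζ = ζ := by
      rw [hj' ζ hζL, AlgEquiv.mul_apply, AlgEquiv.mul_apply, hfix, ← AlgEquiv.mul_apply,
        inv_mul_cancel, AlgEquiv.one_apply]
    refine hζ.dvd_of_pow_eq_one _ ?_
    have h3 : ζ ^ (ℓ - 1) * ζ = 1 * ζ := by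
      rw [← pow_succ, Nat.sub_add_cancel hℓ.out.one_le, ← e1, e2, one_mul]
    exact mul_right_cancel₀ (hζ.ne_zero (pow_ne_zero _ hp.ne_zero)) h3
  have hsplit : ∀ u : Γℚ, disc (matRep ρ u) ≠ 0 →
      ∃ α β : k, α ≠ β ∧ (matRep ρ u).charpoly = (X - C α) * (X - C β) := by
    intro u hu
    obtain ⟨α, β, hsum, hprod⟩ := exists_add_mul_eq ρ h u
    refine ⟨α, β, fun hαβ => hu ?_, ?_⟩
    · rw [disc, ← hsum, ← hprod, hαβ]; ring
    · rw [Matrix.charpoly_fin_two, ← hsum, ← hprod, C_add, C_mul]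
      ring
  refine ⟨ℓ, hS, ⟨hℓ.out, hdvd, ?_, ?_⟩, ?_⟩
  · intro P hP φ hφ
    obtain ⟨u, rfl⟩ := exists_smul_padicPlace ℓ hP
    have hφ₀ : (padicPlace ℓ).IsFrobeniusAt (u⁻¹ * φ * u) ℓ := by
      have := Density.isFrobeniusAt_conj hφ u⁻¹
      rwa [inv_smul_smul, inv_inv] at this
    have hI := matRep_eq_one_of_inertia ρ (hram ℓ hℓ.out hS) (padicPlace_over ℓ)
      (frobenius_inv_mul_mem_inertia hφ₀ hτ)
    have hτφ : matRep ρ (u⁻¹ * φ * u) = matRep ρ τ := by
      rw [← mul_inv_cancel_left τ (u⁻¹ * φ * u), map_mul, hI, mul_one]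
    rw [← charpoly_matRep,
      show φ = u * (u⁻¹ * φ * u) * u⁻¹ by group, charpoly_conj_rep, hτφ]
    exact hsplit τ hdiscτ
  · intro hF
    obtain ⟨t, s', hs', ht⟩ := exists_local_mul ℓ hτ.mem_decompositionSubgroup L
    obtain ⟨α, β, hαβ, hchar⟩ := hsplit τ hdiscτ
    refine ⟨t, α, β, hαβ, ?_⟩
    rw [← hchar, ht, (hlev _ s' hs').2]
    rfl
  · intro hloc
    obtain ⟨M, -, hM⟩ := hloc hℓ
    obtain ⟨t, s', hs', ht⟩ := exists_local_mul ℓ (pow_mem hτ.mem_decompositionSubgroup j) L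
    have hσdet : (matRep ρ σ).det = 1 := det_eq_one_of_fixes_roots ρ h fun μ hμ => hσ μ (by
      rw [pow_succ', pow_mul, hμ, one_pow])
    have hdet : (matRep ρ (τ ^ j)).det = 1 := by
      rw [← hσdet, hσs, (hlev _ s hs).2, map_mul (matRep ρ) (g * τ ^ j), map_mul (matRep ρ) g,
        Matrix.det_mul, Matrix.det_mul, mul_right_comm, ← Matrix.det_mul,
        LocalCondB.rep_mul_inv_self, Matrix.det_one, one_mul]
    rw [hσs, infTrace, (hlev _ s hs).1, (hlev _ s hs).2]
    show infTrace (matRep ρ) _ _ = 0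
    have hzero : infTrace (matRep ρ) y (τ ^ j) = 0 := by
      rw [ht, (hlev _ s' hs').2] at hdet
      rw [infTrace, ht, (hlev _ s' hs').1, (hlev _ s' hs').2]
      have hMt := congr_fun hM t
      simp only [twD_apply, twConj_apply, resLoc, LinearMap.funLeft_apply, locRep,
        MonoidHom.comp_apply, map_inv] at hMt
      rw [← hMt]
      exact infTrace_twD ρ (M := M) (g := localGaloisToGlobal ℓ t) hdet
    rw [infTrace_conj_twisted ρ hyco hdet, hzero, mul_zero]

/-- The twisted cocycles which are locally trivial at the primes of `Q`. -/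
def dualKernel (S : Finset ℕ) (Q : Finset ℕ) : Submodule k (Γℚ → Matrix (Fin 2) (Fin 2) k) where
  carrier := {y | y ∈ dualCocycles ρ S ∧
    ∀ q ∈ Q, ∀ _ : Fact q.Prime, resLoc q y ∈ twCoboundaries (locRep ρ q)}
  add_mem' ha hb := ⟨add_mem ha.1 hb.1, fun q hq hF => by
    rw [map_add]; exact add_mem (ha.2 q hq hF) (hb.2 q hq hF)⟩
  zero_mem' := ⟨zero_mem _, fun q _ _ => by rw [map_zero]; exact zero_mem _⟩
  smul_mem' t y hy := ⟨Submodule.smul_mem _ t hy.1, fun q hq hF => by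
    rw [map_smul]; exact Submodule.smul_mem _ t (hy.2 q hq hF)⟩

theorem exists_dual_detecting (h : TWHyp p ρ) (S1 : Finset ℕ) (hpS1 : p ∈ S1)
    (hram : ∀ q : ℕ, q.Prime → q ∉ S1 → ρ.IsUnramifiedAt q) :
    ∃ r : ℕ, ∀ (n : ℕ) (avoid : Finset ℕ), ∃ qv : Fin r → ℕ, Function.Injective qv ∧
      (∀ i, (qv i).Prime ∧ qv i ∉ S1 ∪ avoid ∧ p ^ (n + 1) ∣ qv i - 1) ∧
      (∀ i, ∀ P : ValuationSubring (AlgebraicClosure ℚ), P.LiesOverPrime (qv i) →
        ∀ φ : Γℚ, P.IsFrobeniusAt φ (qv i) →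
          ∃ α β : k, α ≠ β ∧ LinearMap.charpoly (ρ.ρ φ) = (X - C α) * (X - C β)) ∧
      (∀ i, ∀ (_ : Fact (qv i).Prime), ∃ g : GalQp (qv i), ∃ α β : k, α ≠ β ∧
        (locRep ρ (qv i) g).charpoly = (X - C α) * (X - C β)) ∧
      ∀ y ∈ dualCocycles ρ S1,
        (∀ i, ∀ (_ : Fact (qv i).Prime), resLoc (qv i) y ∈ twCoboundaries (locRep ρ (qv i))) →
          y ∈ twCoboundaries (matRep ρ) := by
  classical
  have hp : p.Prime := Fact.out
  have h2 := two_ne_zero_of_hyp ρ h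
  have hspan := span_range_matRep ρ h
  have hfd := finiteDimensional_dualCocycles ρ S1 hram
  refine ⟨Module.finrank k (dualCocycles ρ S1), fun n avoid => ?_⟩
  have : NeZero (p ^ (n + 1)) := ⟨pow_ne_zero _ hp.ne_zero⟩
  let χ : Γℚ →* (ZMod (p ^ (n + 1)))ˣ := (Datum.chiMod (p ^ (n + 1))).toHomUnits
  have : IsCyclic (ZMod (p ^ (n + 1)))ˣ := ZMod.isCyclic_units_of_prime_pow p hp h.two_ne (n + 1)
  have hχfix : ∀ σ, χ σ = 1 → ∀ μ : Qb, μ ^ p ^ (n + 1) = 1 → σ μ = μ := by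
    intro σ hσ μ hμ
    have h1 : Datum.chiMod (p ^ (n + 1)) σ = 1 := congr_arg Units.val hσ
    have : Fact (1 < p ^ (n + 1)) := ⟨Nat.one_lt_pow n.succ_ne_zero hp.one_lt⟩
    rw [Datum.chiMod_spec (p ^ (n + 1)) σ hμ, h1, ZMod.val_one, pow_one]
  have hχω : ∀ σ, χ σ = 1 → detChar ρ σ = 1 := fun σ hσ =>
    det_eq_one_of_fixes_roots ρ h fun μ hμ => hχfix σ hσ μ (by rw [pow_succ', pow_mul, hμ, one_pow])
  have hdisc : ∀ σ, χ σ = 1 → (matRep ρ σ).trace ≠ 2 → (matRep ρ σ).trace ≠ -2 →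
      disc (matRep ρ σ) ≠ 0 := by
    intro σ hσ ht ht' h0
    have hd : (matRep ρ σ).det = 1 := hχω σ hσ
    rw [disc, hd] at h0
    have : ((matRep ρ σ).trace - 2) * ((matRep ρ σ).trace + 2) = 0 := by linear_combination h0
    rcases mul_eq_zero.1 this with h' | h'
    · exact ht (sub_eq_zero.1 h')
    · exact ht' (eq_neg_of_add_eq_zero_left h')
  have key : ∀ m : ℕ, ∃ Q : Finset ℕ, Q.card = m ∧
      (∀ q ∈ Q, IsGoodPrime ρ (p ^ (n + 1)) q ∧ q ∉ S1 ∪ avoid) ∧
      (dualKernel ρ S1 Q ≤ twCoboundaries (matRep ρ) ∨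
        Module.finrank k (dualKernel ρ S1 Q) + m ≤ Module.finrank k (dualCocycles ρ S1)) := by
    intro m
    induction m with
    | zero =>
      refine ⟨∅, rfl, by simp, Or.inr ?_⟩
      have h0 : dualKernel ρ S1 ∅ = dualCocycles ρ S1 := by
        ext y
        exact ⟨fun hy => hy.1, fun hy => ⟨hy, by simp⟩⟩
      rw [h0, add_zero]
    | succ m ih =>
      obtain ⟨Q, hcard, hgood, hQ⟩ := ih
      have hram' : ∀ q : ℕ, q.Prime → q ∉ S1 ∪ avoid ∪ Q → ρ.IsUnramifiedAt q := fun q hq hq' =>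
        hram q hq fun h' => hq' (Finset.mem_union_left _ (Finset.mem_union_left _ h'))
      have hp' : p ∈ S1 ∪ avoid ∪ Q := Finset.mem_union_left _ (Finset.mem_union_left _ hpS1)
      by_cases hK : dualKernel ρ S1 Q ≤ twCoboundaries (matRep ρ)
      · obtain ⟨σ, hσ, ht, ht'⟩ := exists_trace_ne (matRep ρ) h2 hspan
          (span_image_index_two ρ h) χ.ker (fun κ hκ => hχω κ hκ) (exists_zpow_mul_of_cyclic χ)
        obtain ⟨q, hq, hqgood, -⟩ := exists_goodPrime ρ h _ hp' hram' n σ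
          (hχfix σ hσ) (hdisc σ hσ ht ht') 0 (zero_mem _)
        simp only [Finset.mem_union, not_or] at hq
        refine ⟨insert q Q, by rw [Finset.card_insert_of_notMem hq.2, hcard], ?_, Or.inl ?_⟩
        · intro x hx
          rcases Finset.mem_insert.1 hx with rfl | hx
          · exact ⟨hqgood, by simp [hq.1.1, hq.1.2]⟩
          · exact hgood x hx
        · exact le_trans (fun y hy => show y ∈ dualKernel ρ S1 Q from
            ⟨hy.1, fun x hx => hy.2 x (Finset.mem_insert_of_mem hx)⟩) hK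
      · obtain ⟨y, hy, hyB⟩ := SetLike.not_le_iff_exists.1 hK
        obtain ⟨htr, hmul⟩ := (mem_twCocycles_iff _ _).1 hy.1.1.1
        obtain ⟨σ, hσ, ht, ht', hne⟩ := exists_detecting (matRep ρ) χ p h.two_ne (detChar ρ)
          (fun g => rfl) hχω hspan (span_image_index_two ρ h) (exists_add_mul_eq ρ h)
          (exists_det_sq_ne_one ρ h) y htr hmul
          (by rintro ⟨M, hM, hM'⟩; exact hyB ⟨M, hM, funext fun g => (hM' g).symm⟩)
        obtain ⟨q, hq, hqgood, hdet⟩ := exists_goodPrime ρ h _ hp' hram' n σ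
          (hχfix σ hσ) (hdisc σ hσ ht ht') y hy.1.1
        simp only [Finset.mem_union, not_or] at hq
        refine ⟨insert q Q, by rw [Finset.card_insert_of_notMem hq.2, hcard], ?_, ?_⟩
        · intro x hx
          rcases Finset.mem_insert.1 hx with rfl | hx
          · exact ⟨hqgood, by simp [hq.1.1, hq.1.2]⟩
          · exact hgood x hx
        right
        have hlt : dualKernel ρ S1 (insert q Q) < dualKernel ρ S1 Q := by
          refine lt_of_le_of_ne (fun z hz =>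
            ⟨hz.1, fun x hx => hz.2 x (Finset.mem_insert_of_mem hx)⟩) fun heq => hne ?_
          rw [← heq] at hy
          exact hdet fun hF => hy.2 q (Finset.mem_insert_self q Q) hF
        have : FiniteDimensional k (dualKernel ρ S1 Q) :=
          Submodule.finiteDimensional_of_le (S₂ := dualCocycles ρ S1) fun z hz => hz.1
        have := Submodule.finrank_lt_finrank_of_lt hlt
        rcases hQ with hQ | hQ
        · exact absurd hQ hK
        · omega
  obtain ⟨Q, hcard, hgood, hQ⟩ := key (Module.finrank k (dualCocycles ρ S1))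
  let e := (Finset.equivFinOfCardEq hcard).symm
  refine ⟨fun i => (e i : ℕ), fun i j hij => e.injective (Subtype.ext hij),
    fun i => ⟨(hgood _ (e i).2).1.1, (hgood _ (e i).2).2, (hgood _ (e i).2).1.2.1⟩,
    fun i => (hgood _ (e i).2).1.2.2.1, fun i => (hgood _ (e i).2).1.2.2.2, fun y hy hloc => ?_⟩
  have hyK : y ∈ dualKernel ρ S1 Q := ⟨hy, fun q hq hF => by
    obtain ⟨i, hi⟩ := e.surjective ⟨q, hq⟩
    have hiq : (e i : ℕ) = q := congr_arg Subtype.val hi
    subst hiq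
    exact hloc i hF⟩
  rcases hQ with hQ | hQ
  · exact hQ hyK
  · have : FiniteDimensional k (dualKernel ρ S1 Q) :=
      Submodule.finiteDimensional_of_le (S₂ := dualCocycles ρ S1) fun z hz => hz.1
    have h0 : dualKernel ρ S1 Q = ⊥ := Submodule.finrank_eq_zero.1 (by omega)
    rw [h0, Submodule.mem_bot] at hyK
    rw [hyK]
    exact zero_mem _

end Fermat.Agent.TW.Places
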