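/-
The choice of the auxiliary primes of the Taylor-Wiles argument.
-/
import Fermat.Agent.TW.DualDefs
import Fermat.Agent.TW.LocalConditions
import Fermat.Agent.TW.PrimesDual

set_option autoImplicit false

noncomputable section

open Polynomial

namespace Fermat.Agent.TW

local notation "Γℚ" => AlgebraicClosure ℚ ≃ₐ[ℚ] AlgebraicClosure ℚ

variable {k : Type} [Field k] [Finite k] (p : ℕ) [Fact p.Prime] [CharP k p]
  (ρ : ResidualGaloisRep k)

/-- Adjoint cocycles unramified outside `S0` are detected at a finite set of primes outside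
`S0`. -/
theorem exists_detecting_primes (h : TWHyp p ρ) (S0 : Finset ℕ) (hpS0 : p ∈ S0)
    (hram : ∀ q : ℕ, q.Prime → q ∉ S0 → ρ.IsUnramifiedAt q) :
    ∃ A : Finset ℕ, (∀ a ∈ A, a.Prime ∧ a ∉ S0) ∧
      ∀ c ∈ globalCocycles ρ S0,
        (∀ (a : ℕ) [Fact a.Prime], a ∈ A → resLoc a c ∈ adCoboundaries (locRep ρ a)) →
          c ∈ adCoboundaries (matRep ρ) :=
  Places.exists_detecting_finset ρ h S0 hram

/-- An adjoint cocycle which is locally a coboundary at `q`, where `ρ` is unramified, is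
unramified at `q`. -/
theorem mem_globalCocycles_of_resLoc {q : ℕ} [Fact q.Prime] (hq : ρ.IsUnramifiedAt q)
    {T : Finset ℕ} {c : Γℚ → Matrix (Fin 2) (Fin 2) k} (hc : c ∈ globalCocycles ρ T)
    (hloc : resLoc q c ∈ adCoboundaries (locRep ρ q)) :
    c ∈ globalCocycles ρ (T.erase q) :=
  Places.globalCocycles_erase ρ hq hc hloc

/-- A twisted cocycle which is locally a coboundary at `q`, where `ρ` is unramified, is
unramified at `q`. -/
theorem mem_dualCocycles_of_resLoc {q : ℕ} [Fact q.Prime] (hq : ρ.IsUnramifiedAt q)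
    {T : Finset ℕ} {c : Γℚ → Matrix (Fin 2) (Fin 2) k} (hc : c ∈ dualCocycles ρ T)
    (hloc : resLoc q c ∈ twCoboundaries (locRep ρ q)) :
    c ∈ dualCocycles ρ (T.erase q) :=
  Places.dualCocycles_erase ρ hq hc hloc

/-- The local classes at an auxiliary prime outside `T`: at most `h⁰` of them. -/
theorem exists_unramifiedLocal {a : ℕ} [Fact a.Prime] (ha : ρ.IsUnramifiedAt a)
    (T : Finset ℕ) (haT : a ∉ T) :
    ∃ L : Submodule k (GalQp a → Matrix (Fin 2) (Fin 2) k),
      adCoboundaries (locRep ρ a) ≤ L ∧ FiniteDimensional k L ∧ Module.finrank k L ≤ 3 ∧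
        ∀ c ∈ globalCocycles ρ T, resLoc a c ∈ L :=
  Places.exists_unramified_local ρ ha T haT

/-- Taylor-Wiles primes: `r` primes `≡ 1 (mod p ^ (n + 1))` with distinct Frobenius eigenvalues
detecting the twisted cocycles unramified outside `S1`. -/
theorem exists_dual_detecting_primes (h : TWHyp p ρ) (S1 : Finset ℕ) (hpS1 : p ∈ S1)
    (hram : ∀ q : ℕ, q.Prime → q ∉ S1 → ρ.IsUnramifiedAt q) :
    ∃ r : ℕ, ∀ (n : ℕ) (avoid : Finset ℕ), ∃ qv : Fin r → ℕ, Function.Injective qv ∧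
      (∀ i, (qv i).Prime ∧ qv i ∉ S1 ∪ avoid ∧ p ^ (n + 1) ∣ qv i - 1) ∧
      (∀ i, ∀ P : ValuationSubring (AlgebraicClosure ℚ), P.LiesOverPrime (qv i) →
        ∀ φ : Γℚ, P.IsFrobeniusAt φ (qv i) →
          ∃ α β : k, α ≠ β ∧ LinearMap.charpoly (ρ.ρ φ) = (X - C α) * (X - C β)) ∧
      (∀ i, ∀ (_ : Fact (qv i).Prime), ∃ g : GalQp (qv i), ∃ α β : k, α ≠ β ∧
        (locRep ρ (qv i) g).charpoly = (X - C α) * (X - C β)) ∧
      ∀ y ∈ dualCocycles ρ S1,
        (∀ i, ∀ (_ : Fact (qv i).Prime), resLoc (qv i) y ∈ twCoboundaries (locRep ρ (qv i))) →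
          y ∈ twCoboundaries (matRep ρ) :=
  Places.exists_dual_detecting ρ h S1 hpS1 hram

end Fermat.Agent.TW
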