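/-
The counting step of the reciprocity inequality: a pairing with small left kernel which is
orthogonal to the image of the global classes.
-/
import Mathlib.FieldTheory.Finiteness
import Mathlib.Analysis.Fourier.FiniteAbelian.PontryaginDuality
import Mathlib.Analysis.SpecialFunctions.Complex.CircleAddChar
import Mathlib.LinearAlgebra.Dimension.Constructions

set_option autoImplicit false

noncomputable section

namespace Fermat.Agent.TW.Recip

theorem natCard_hom_zmod_le (p : ℕ) [NeZero p] (A : Type) [AddCommGroup A] [Finite A] :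
    Finite (A →+ ZMod p) ∧ Nat.card (A →+ ZMod p) ≤ Nat.card A := by
  classical
  have := Fintype.ofFinite A
  have hf : Finite (A →+ ZMod p) := Finite.of_injective _ DFunLike.coe_injective
  refine ⟨hf, ?_⟩
  let e : (A →+ ZMod p) → AddChar A ℂ := fun f => (ZMod.stdAddChar (N := p)).compAddMonoidHom f
  have he : Function.Injective e := fun f g hfg => AddMonoidHom.ext fun a =>
    ZMod.injective_stdAddChar (DFunLike.congr_fun hfg a)
  refine (Nat.card_le_card_of_injective e he).trans_eq ?_
  rw [Nat.card_eq_fintype_card, Nat.card_eq_fintype_card, AddChar.card_eq]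

/-- A homomorphism on the quotient by a submodule. -/
def liftQuot {R M N : Type} [Ring R] [AddCommGroup M] [Module R M] [AddCommGroup N]
    (S : Submodule R M) (f : M →+ N) (h : ∀ x ∈ S, f x = 0) : (M ⧸ S) →+ N :=
  AddMonoidHom.mk'
    (QuotientAddGroup.lift S.toAddSubgroup f fun x hx => AddMonoidHom.mem_ker.2 (h x hx))
    (map_add _)

theorem liftQuot_mk {R M N : Type} [Ring R] [AddCommGroup M] [Module R M] [AddCommGroup N]
    (S : Submodule R M) (f : M →+ N) (h : ∀ x ∈ S, f x = 0) (x : M) :
    liftQuot S f h (Submodule.Quotient.mk x) = f x := rfl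

variable {k : Type} [Field k] [Finite k] {p : ℕ} [NeZero p]
  {V Y X : Type} [AddCommGroup V] [Module k V] [FiniteDimensional k V] [AddCommGroup Y] [Module k Y]
  [FiniteDimensional k Y] [AddCommGroup X] [Module k X] [FiniteDimensional k X]

/-- **Counting.** -/
theorem finrank_add_finrank_le (R : V →ₗ[k] X) {a b : ℕ}
    (hR : Module.finrank k (LinearMap.ker R) ≤ a) (P : Y →+ X →+ ZMod p)
    (hPR : ∀ y v, P y (R v) = 0) (hP : Nat.card P.ker ≤ Nat.card k ^ b) :
    Module.finrank k V + Module.finrank k Y ≤ a + b + Module.finrank k X := by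
  have : Finite X := Module.finite_of_finite k
  have : Finite Y := Module.finite_of_finite k
  let N : AddSubgroup X := (LinearMap.range R).toAddSubgroup
  have hN : ∀ y, N ≤ (P y).ker := by
    rintro y _ ⟨v, rfl⟩
    exact hPR y v
  let Φ : Y →+ ((X ⧸ N) →+ ZMod p) := AddMonoidHom.mk'
    (fun y => QuotientAddGroup.lift N (P y) (hN y)) fun y y' => by
      refine AddMonoidHom.ext fun x => ?_
      induction x using QuotientAddGroup.induction_on with | H x => ?_
      exact DFunLike.congr_fun (map_add P y y') x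
  have hΦ : Φ.ker ≤ P.ker := fun y hy => AddMonoidHom.ext fun x =>
    DFunLike.congr_fun (AddMonoidHom.mem_ker.1 hy) (QuotientAddGroup.mk x)
  obtain ⟨hfin, hhom⟩ := natCard_hom_zmod_le p (X ⧸ N)
  have hY : Nat.card Y ≤ Nat.card (X ⧸ N) * Nat.card k ^ b := by
    rw [AddSubgroup.card_eq_card_quotient_mul_card_addSubgroup Φ.ker,
      Nat.card_congr (QuotientAddGroup.quotientKerEquivRange Φ).toEquiv]
    exact Nat.mul_le_mul ((Nat.card_le_card_of_injective _ Subtype.val_injective).trans hhom)
      ((Nat.card_le_card_of_injective _ (Set.inclusion_injective hΦ)).trans hP)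
  rw [Module.natCard_eq_pow_finrank (K := k) (V := Y),
    show Nat.card (X ⧸ N) = Nat.card (X ⧸ LinearMap.range R) from rfl,
    Module.natCard_eq_pow_finrank (K := k) (V := X ⧸ LinearMap.range R), ← pow_add] at hY
  have h1 := (Nat.pow_le_pow_iff_right Finite.one_lt_card).1 hY
  have h2 := Submodule.finrank_quotient_add_finrank (LinearMap.range R)
  have h3 := LinearMap.finrank_range_add_finrank_ker R
  omega

omit [AddCommGroup X] [Module k X] [FiniteDimensional k X] in
/-- Counting against a product. -/
theorem finrank_add_finrank_pi_le {I : Type} [Fintype I] {Z : I → Type}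
    [∀ i, AddCommGroup (Z i)] [∀ i, Module k (Z i)] [∀ i, FiniteDimensional k (Z i)]
    (R : V →ₗ[k] ∀ i, Z i) {a b : ℕ} (hR : Module.finrank k (LinearMap.ker R) ≤ a)
    (P : Y →+ (∀ i, Z i) →+ ZMod p) (hPR : ∀ y v, P y (R v) = 0)
    (hP : Nat.card P.ker ≤ Nat.card k ^ b) :
    Module.finrank k V + Module.finrank k Y ≤ a + b + ∑ i, Module.finrank k (Z i) :=
  (finrank_add_finrank_le R hR P hPR hP).trans_eq (by rw [Module.finrank_pi_fintype])

omit [AddCommGroup X] [Module k X] [FiniteDimensional k X] in
/-- Counting against a family of pairings which sum to zero on the image of `V`. -/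
theorem finrank_add_finrank_le_of_pairings {I : Type} [Fintype I] {Z : I → Type}
    [∀ i, AddCommGroup (Z i)] [∀ i, Module k (Z i)] [∀ i, FiniteDimensional k (Z i)]
    {W : I → Type} [∀ i, AddCommGroup (W i)] {C : Type} [AddCommGroup C]
    (ψ : C →+ ZMod p) (hψ : Function.Injective ψ)
    (π : ∀ i, V →ₗ[k] Z i) (res : ∀ i, Y →+ W i) (D : ∀ i, Z i →+ W i →+ C) {a b : ℕ}
    (hπ : Module.finrank k (LinearMap.ker (LinearMap.pi π)) ≤ a)
    (hsum : ∀ y v, ∑ i, D i (π i v) (res i y) = 0)
    (hperp : Nat.card {y : Y // ∀ i z, D i z (res i y) = 0} ≤ Nat.card k ^ b) :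
    Module.finrank k V + Module.finrank k Y ≤ a + b + ∑ i, Module.finrank k (Z i) := by
  classical
  have : Finite Y := Module.finite_of_finite k
  let P : Y →+ (∀ i, Z i) →+ ZMod p := AddMonoidHom.mk'
    (fun y => ∑ i, (ψ.comp ((D i).flip (res i y))).comp (Pi.evalAddMonoidHom Z i))
    fun y y' => by
      refine AddMonoidHom.ext fun x => ?_
      simp only [AddMonoidHom.finsetSum_apply, AddMonoidHom.add_apply, AddMonoidHom.comp_apply,
        AddMonoidHom.flip_apply, map_add, Finset.sum_add_distrib]
  have hP : ∀ y x, P y x = ∑ i, ψ (D i (x i) (res i y)) := fun y x => by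
    simp [P, AddMonoidHom.finsetSum_apply]
  have hker : ∀ y : P.ker, ∀ i z, D i z (res i y.1) = 0 := fun y i z => by
    refine (map_eq_zero_iff ψ hψ).1 (Eq.trans ?_ (DFunLike.congr_fun y.2 (Pi.single i z)))
    rw [hP, Fintype.sum_eq_single i fun j hj => by
      rw [Pi.single_eq_of_ne hj, map_zero, AddMonoidHom.zero_apply, map_zero], Pi.single_eq_same]
  refine finrank_add_finrank_pi_le (LinearMap.pi π) hπ P (fun y v => ?_)
    ((Nat.card_le_card_of_injective (fun y : P.ker => (⟨y.1, hker y⟩ :
      {y : Y // ∀ i z, D i z (res i y) = 0})) fun _ _ e =>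
        Subtype.ext (congrArg Subtype.val e :)).trans hperp)
  rw [hP, ← map_sum]
  exact (congrArg ψ (hsum y v)).trans (map_zero ψ)

end Fermat.Agent.TW.Recip
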