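/-
Consequences of the class module axioms: the `p`-torsion of `H²` is at most one dimensional, classes
of cyclic groups are carries, and carries which are coboundaries are norms.
-/
import Fermat.Agent.PoitouTate.AlgebraCores
import Mathlib.Data.ZMod.Basic
import Mathlib.GroupTheory.SpecificGroups.Cyclic
import Mathlib.Tactic

set_option autoImplicit false

open groupCohomology Fermat.Agent.PoitouTate

noncomputable section

namespace Fermat.Agent.TW.Recip

variable {p : ℕ} [Fact p.Prime] {Δ C : Type} [Group Δ] [AddCommGroup C] [DistribMulAction Δ C]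

/-- A class. -/
def h2cls {z : Δ × Δ → C} (hz : IsCocycle₂ z) : H2C Δ C := QuotientAddGroup.mk ⟨z, hz⟩

theorem h2cls_eq_zero_iff {z : Δ × Δ → C} (hz : IsCocycle₂ z) :
    h2cls hz = 0 ↔ IsCoboundary₂ z :=
  (QuotientAddGroup.eq_zero_iff _).trans AddSubgroup.mem_addSubgroupOf

theorem h2cls_eq_iff {z z' : Δ × Δ → C} (hz : IsCocycle₂ z) (hz' : IsCocycle₂ z') :
    h2cls hz = h2cls hz' ↔ IsCoboundary₂ (z - z') := by
  rw [← sub_eq_zero]
  exact h2cls_eq_zero_iff ((Z2 Δ C).sub_mem hz hz')

theorem h2cls_add {z z' : Δ × Δ → C} (hz : IsCocycle₂ z) (hz' : IsCocycle₂ z') :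
    h2cls ((Z2 Δ C).add_mem hz hz') = h2cls hz + h2cls hz' := rfl

/-- Restriction of classes to a subgroup. -/
def resTo (H : Subgroup Δ) : H2C Δ C →+ H2C ↥H C :=
  QuotientAddGroup.map _ _
    (AddMonoidHom.codRestrict
      (AddMonoidHom.mk' (fun (z : Z2 Δ C) (x : H × H) => (z : Δ × Δ → C) ((x.1 : Δ), (x.2 : Δ)))
        fun _ _ => rfl) (Z2 H C) fun z g h j => z.2 (g : Δ) (h : Δ) (j : Δ))
    (fun z hz => by
      obtain ⟨x, hx⟩ := hz
      exact ⟨fun g => x g, fun g h => hx g h⟩)

/-- The `p`-torsion of `H²` of a class module embeds into `ℤ/p`. -/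
theorem exists_torsion_char [Finite Δ] {u : Δ × Δ → C} (hu : IsClassModule p Δ C u) :
    ∃ ψ : ↥(nsmulAddMonoidHom (α := H2C Δ C) p).ker →+ ZMod p, Function.Injective ψ := by
  classical
  have := Fintype.ofFinite Δ
  have hp : p.Prime := Fact.out
  obtain ⟨P⟩ : Nonempty (Sylow p Δ) := inferInstance
  obtain ⟨a, ha⟩ := IsPGroup.iff_card.1 P.2
  set g : H2C (P : Subgroup Δ) C :=
    h2cls (z := fun x => u ((x.1 : Δ), (x.2 : Δ))) (fun g h j => hu.cocycle (g : Δ) h j)
  have hgen : ∀ w : H2C (P : Subgroup Δ) C, ∃ k : ℤ, w = k • g := by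
    intro w
    induction w using QuotientAddGroup.induction_on with | H z => ?_
    obtain ⟨k, x, hx⟩ := hu.generates P P.2 z.1 z.2
    refine ⟨k, (h2cls_eq_iff z.2 ((Z2 (P : Subgroup Δ) C).zsmul_mem
      (fun g h j => hu.cocycle (g : Δ) h j) k)).2 ⟨x, fun g h => ?_⟩⟩
    exact (hx g h).symm
  have hord : ∀ k : ℤ, k • g = 0 ↔ ((p ^ a : ℕ) : ℤ) ∣ k := by
    intro k
    rw [← ha, ← hu.order P P.2 k]
    refine (h2cls_eq_zero_iff ((Z2 (P : Subgroup Δ) C).zsmul_mem
      (fun g h j => hu.cocycle (g : Δ) h j) k)).trans ?_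
    exact ⟨fun ⟨x, hx⟩ => ⟨x, fun g h => (hx g h).symm⟩,
      fun ⟨x, hx⟩ => ⟨x, fun g h => (hx g h).symm⟩⟩
  set W := (nsmulAddMonoidHom (α := H2C (P : Subgroup Δ) C) p).ker
  set V := (nsmulAddMonoidHom (α := H2C Δ C) p).ker
  let r : V →+ W := AddMonoidHom.codRestrict ((resTo (P : Subgroup Δ)).comp V.subtype) W fun v => by
    have hv : p • (v : H2C Δ C) = 0 := v.2
    show p • resTo (P : Subgroup Δ) (v : H2C Δ C) = 0
    rw [← map_nsmul, hv, map_zero]
  have hr : Function.Injective r := by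
    rw [injective_iff_map_eq_zero]
    rintro ⟨v, hv⟩ hrv
    refine Subtype.ext ?_
    change v = 0
    have hv' : p • v = 0 := hv
    have hrv' : resTo (P : Subgroup Δ) v = 0 := congrArg Subtype.val hrv
    clear hrv hv
    induction v using QuotientAddGroup.induction_on with | H z => ?_
    have h1 : IsCoboundary₂ fun x : ↥(P : Subgroup Δ) × ↥(P : Subgroup Δ) =>
        (1 : ℤ) • (z : Δ × Δ → C) ((x.1 : Δ), (x.2 : Δ)) := by
      simp only [one_smul]
      exact AddSubgroup.mem_addSubgroupOf.1 ((QuotientAddGroup.eq_zero_iff _).1 hrv')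
    have h2 : ((P : Subgroup Δ).index : ℤ) • (QuotientAddGroup.mk z : H2C Δ C) = 0 := by
      rw [← QuotientAddGroup.mk_zsmul, QuotientAddGroup.eq_zero_iff]
      refine AddSubgroup.mem_addSubgroupOf.2 ?_
      have h3 := isCoboundary₂_index_nsmul z.2 (P : Subgroup Δ) 1 h1
      rw [mul_one] at h3
      exact h3
    rw [natCast_zsmul] at h2
    have hco : Nat.Coprime p (P : Subgroup Δ).index :=
      hp.coprime_iff_not_dvd.2 P.not_dvd_index
    exact AddMonoid.addOrderOf_eq_one_iff.1 (Nat.eq_one_of_dvd_coprimes hco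
      (addOrderOf_dvd_of_nsmul_eq_zero hv') (addOrderOf_dvd_of_nsmul_eq_zero h2))
  obtain ⟨w₀, hw₀⟩ : ∃ w₀ : W, ∀ w : W, ∃ k : ℤ, w = k • w₀ := by
    rcases Nat.eq_zero_or_pos a with rfl | hpos
    · refine ⟨0, fun w => ⟨0, ?_⟩⟩
      obtain ⟨k, hk⟩ := hgen (w : H2C (P : Subgroup Δ) C)
      exact Subtype.ext (by rw [zero_smul, hk, (hord k).2 (by simp)]; rfl)
    · obtain ⟨b, rfl⟩ := Nat.exists_eq_succ_of_ne_zero hpos.ne'
      have hmem : ((p ^ b : ℕ) : ℤ) • g ∈ W := by
        show p • (((p ^ b : ℕ) : ℤ) • g) = 0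
        rw [← natCast_zsmul, smul_smul, hord, Nat.cast_pow, Nat.cast_pow, pow_succ']
      refine ⟨⟨_, hmem⟩, fun w => ?_⟩
      obtain ⟨k, hk⟩ := hgen (w : H2C (P : Subgroup Δ) C)
      have hw : p • (w : H2C (P : Subgroup Δ) C) = 0 := w.2
      rw [hk, ← natCast_zsmul, smul_smul, hord, pow_succ'] at hw
      push_cast at hw
      obtain ⟨l, hl⟩ := (mul_dvd_mul_iff_left (Int.natCast_ne_zero.2 hp.ne_zero)).1 hw
      exact ⟨l, Subtype.ext (by
        rw [AddSubgroup.coe_zsmul, hk, smul_smul, hl, Nat.cast_pow, mul_comm])⟩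
  have hpw : (zmultiplesHom W w₀) (p : ℤ) = 0 := by
    refine Subtype.ext ?_
    rw [zmultiplesHom_apply, natCast_zsmul, AddSubgroup.coe_nsmul]
    exact w₀.2
  let f : ZMod p →+ W := ZMod.lift p ⟨zmultiplesHom W w₀, hpw⟩
  have hf : Function.Surjective f := fun w => by
    obtain ⟨k, rfl⟩ := hw₀ w
    exact ⟨(k : ZMod p), by simp [f]⟩
  have : Finite W := Finite.of_surjective f hf
  have hcardW : Nat.card W ≤ p := by
    simpa using Nat.card_le_card_of_surjective f hf
  by_cases hz : ∀ w : W, w = 0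
  · exact ⟨0, fun v v' _ => hr ((hz _).trans (hz _).symm)⟩
  · push Not at hz
    obtain ⟨w, hw⟩ := hz
    have hinj : Function.Injective f := by
      refine (Nat.bijective_iff_surjective_and_card f).2 ⟨hf, ?_⟩ |>.1
      refine le_antisymm ?_ (by simpa using hcardW)
      rw [Nat.card_zmod]
      have h1 : addOrderOf w = p := addOrderOf_eq_prime (Subtype.ext (by
        rw [AddSubgroup.coe_nsmul]; exact w.2)) hw
      calc p = addOrderOf w := h1.symm
        _ ≤ Nat.card W := addOrderOf_le_card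
    let e := AddEquiv.ofBijective f ⟨hinj, hf⟩
    exact ⟨e.symm.toAddMonoidHom.comp r, e.symm.injective.comp hr⟩

/-- Every class of a cyclic group is a carry. -/
theorem exists_carry_rep {n : ℕ} (d : Digits Δ n) (_hn : n ≠ 0) {σ : Δ}
    (hgen : ∀ g : Δ, g = σ ^ d.e g) (hσn : σ ^ n = 1) {u : Δ × Δ → C} (hu : IsCocycle₂ u) :
    ∃ a : C, (∀ g : Δ, g • a = a) ∧ IsCoboundary₂ fun x => u x - d.cocycle a x := by
  let z : Z2 Δ C := ⟨u, hu⟩
  let A : ExtGroup z := ⟨0, σ⟩
  have hAn : (A ^ n).right = 1 := by rw [ExtGroup.pow_right]; exact hσn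
  set a : C := (A ^ n).left + u (1, 1) with ha
  have hshift : ∀ i, (A ^ (n + i)).left = a + (A ^ i).left := fun i => by
    rw [pow_add, ExtGroup.mul_left', hAn, one_smul]
    change _ + _ + u (1, _) = _
    rw [map_one_fst_of_isCocycle₂ hu, ha]
    abel
  have hshift' : ∀ q i : ℕ, (A ^ (n * q + i)).left = (q : ℤ) • a + (A ^ i).left := by
    intro q
    induction q with
    | zero => simp
    | succ q ih =>
      intro i
      rw [show n * (q + 1) + i = n + (n * q + i) by ring, hshift, ih, Nat.cast_succ, add_smul,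
        one_smul]
      abel
  have hσa : σ • a = a := by
    have h1 : (A * A ^ n).left = (A ^ (n + 1)).left := by rw [← pow_succ']
    rw [ExtGroup.mul_left', hAn, hshift, pow_one] at h1
    change 0 + σ • (A ^ n).left + u (σ, 1) = a + 0 at h1
    rw [map_one_snd_of_isCocycle₂ hu, zero_add, add_zero, ← smul_add] at h1
    exact h1
  refine ⟨a, fun g => ?_, fun g => -(A ^ d.e g).left, fun g h => ?_⟩
  · rw [hgen g]
    exact (MulAction.stabilizer Δ a).pow_mem hσa _
  · have e1 : (A ^ d.e g * A ^ d.e h).left =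
        (A ^ d.e g).left + g • (A ^ d.e h).left + u (g, h) := by
      rw [ExtGroup.mul_left', ExtGroup.pow_right, ExtGroup.pow_right]
      change _ + σ ^ d.e g • _ + u (σ ^ d.e g, σ ^ d.e h) = _
      rw [← hgen, ← hgen]
    have e2 : (A ^ d.e g * A ^ d.e h).left = d.carry g h • a + (A ^ d.e (g * h)).left := by
      rw [← pow_add, Digits.carry, d.hom, ← hshift', Nat.div_add_mod]
    simp only [smul_neg, Digits.cocycle]
    linear_combination (norm := abel) e1 - e2

/-- A multiple of a carry which is a coboundary is, up to an index prime to `p`, a norm. -/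
theorem exists_norm_of_carry [Finite Δ]
    (hh1 : ∀ H : Subgroup Δ, IsPGroup p H → ∀ c : H → C,
      (∀ g h : H, c (g * h) = (g : Δ) • c h + c g) → ∃ x : C, ∀ g : H, (g : Δ) • x - x = c g)
    {a : ℕ} (ha : 0 < a) (d : Digits Δ (p ^ a)) {σ : Δ} (hσ : d.e σ = 1 % p ^ a) {A : C}
    (hcob : IsCoboundary₂ (d.cocycle A)) :
    ∃ (m : ℕ) (b : C), ¬ p ∣ m ∧ (∀ s, d.e s = 0 → s • b = b) ∧
      m • A = ∑ i ∈ Finset.range (p ^ a), σ ^ i • b := by
  classical
  have hp : p.Prime := Fact.out
  have hn : p ^ a ≠ 0 := pow_ne_zero a hp.ne_zero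
  have hmod : ∀ g h, d.e g = 0 → d.e (g * h) = d.e h := fun g h hg => by
    rw [d.hom, hg, zero_add, Nat.mod_eq_of_lt (d.lt h)]
  have hmod' : ∀ g h, d.e h = 0 → d.e (g * h) = d.e g := fun g h hh => by
    rw [d.hom, hh, add_zero, Nat.mod_eq_of_lt (d.lt g)]
  let Ker : Subgroup Δ :=
    { carrier := {g | d.e g = 0}
      one_mem' := d.map_one
      mul_mem' := fun {g h} hg hh => (hmod g h hg).trans hh
      inv_mem' := fun {g} hg => by
        have h := hmod g g⁻¹ hg
        rw [mul_inv_cancel, d.map_one] at h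
        exact h.symm }
  have hcarry : ∀ g h, (d.e g = 0 ∨ d.e h = 0) → d.carry g h = 0 := fun g h hgh => by
    have hlt : d.e g + d.e h < p ^ a := by
      rcases hgh with h0 | h0 <;> rw [h0] <;> simpa using d.lt _
    simp [Digits.carry, Nat.div_eq_of_lt hlt]
  obtain ⟨x, hx⟩ := hcob
  have hc : ∀ g h : Ker, x ((g * h : Ker) : Δ) = g • x h + x g := by
    intro g h
    have e := hx g h
    simp only [Digits.cocycle, hcarry _ _ (Or.inl g.2), zero_smul] at e
    rw [Subgroup.coe_mul, Subgroup.smul_def]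
    linear_combination (norm := abel) -e
  have := Fintype.ofFinite Δ
  let P : Sylow p Ker := default
  obtain ⟨x0, hx0⟩ := hh1 ((P : Subgroup Ker).map Ker.subtype) (P.2.map _) (fun g => x g)
    fun g h => by
      obtain ⟨-, g', -, rfl⟩ := g
      obtain ⟨-, h', -, rfl⟩ := h
      exact hc g' h'
  have hker : ∀ g : Ker, ∀ h ∈ (P : Subgroup Ker), g = h → x g = (g : Δ) • x0 - x0 :=
    fun g h hh hgh => by
      subst hgh
      exact (hx0 ⟨_, Subgroup.mem_map_of_mem _ hh⟩).symm
  -- a primitive on the whole kernel after multiplication by the index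
  set m := (P : Subgroup Ker).index with hm
  have hm0 : ¬ p ∣ m := P.not_dvd_index
  have := Fintype.ofFinite (Ker ⧸ (P : Subgroup Ker))
  let y : C := ∑ q : Ker ⧸ (P : Subgroup Ker), ((q.out : Ker) • x0 - x q.out)
  have hy : ∀ g : Ker, (g : Δ) • y - y = m • x g := by
    intro g
    have hterm : ∀ q : Ker ⧸ (P : Subgroup Ker),
        g • ((q.out : Ker) • x0 - x q.out) =
          ((g • q).out • x0 - x (g • q).out) + x g := by
      intro q
      set r : Ker := (g • q).out⁻¹ * (g * q.out) with hr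
      have hrP : r ∈ (P : Subgroup Ker) := by
        rw [hr, ← QuotientGroup.eq, QuotientGroup.out_eq']
        exact congrArg (fun t => g • t) (QuotientGroup.out_eq' q).symm
      have e1 := hc (g • q).out r
      rw [show (g • q).out * r = g * q.out from mul_inv_cancel_left _ _, hc g q.out,
        hker r r hrP rfl] at e1
      rw [smul_sub, ← mul_smul, show g * q.out = (g • q).out * r from
        (mul_inv_cancel_left _ _).symm, mul_smul]
      simp only [Subgroup.smul_def, smul_sub] at e1 ⊢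
      linear_combination (norm := abel) -e1
    rw [← Subgroup.smul_def, show g • y = ∑ q : Ker ⧸ (P : Subgroup Ker),
      g • ((q.out : Ker) • x0 - x q.out) from Finset.smul_sum,
      Finset.sum_congr rfl fun q _ => hterm q, Finset.sum_add_distrib, Finset.sum_const,
      Finset.card_univ, ← Nat.card_eq_fintype_card, ← Subgroup.index_eq_card,
      Fintype.sum_equiv (MulAction.toPerm g)
        (fun q : Ker ⧸ (P : Subgroup Ker) => (g • q).out • x0 - x ((g • q).out : Δ))
        (fun q => q.out • x0 - x (q.out : Δ)) fun q => rfl]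
    exact add_sub_cancel_left _ _
  let x' : Δ → C := fun g => m • x g - (g • y - y)
  have hns : ∀ (g : Δ) (z : C), g • (m • z) = m • g • z := fun g z =>
    map_nsmul (DistribSMul.toAddMonoidHom C g) m z
  have hx' : ∀ g h, g • x' h - x' (g * h) + x' g = d.carry g h • (m • A) := by
    intro g h
    have e : g • x h - x (g * h) + x g = d.carry g h • A := hx g h
    simp only [x', smul_sub, hns, ← mul_smul]
    rw [smul_comm (d.carry g h) m, ← e, smul_add, smul_sub]
    abel
  have hx'0 : ∀ g, d.e g = 0 → x' g = 0 := fun g hg => by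
    simp only [x']
    rw [hy ⟨g, hg⟩, sub_self]
  have hright : ∀ g h, d.e h = 0 → x' (g * h) = x' g := fun g h hh => by
    have e := hx' g h
    rw [hx'0 h hh, smul_zero, hcarry g h (Or.inr hh), zero_smul] at e
    linear_combination (norm := abel) -e
  have hleft : ∀ h g, d.e h = 0 → h • x' g = x' g := fun h g hh => by
    have e := hx' h g
    rw [hx'0 h hh, hcarry h g (Or.inl hh), zero_smul] at e
    have hconj : d.e (g⁻¹ * (h * g)) = 0 := by
      rw [d.hom, hmod h g hh, ← d.hom, inv_mul_cancel, d.map_one]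
    have e' := hright g _ hconj
    rw [mul_inv_cancel_left] at e'
    rw [e'] at e
    linear_combination (norm := abel) e
  refine ⟨m, x' σ, hm0, fun s hs => hleft s σ hs, ?_⟩
  have hn1 : p ^ a ≠ 1 := (Nat.one_lt_pow ha.ne' hp.one_lt).ne'
  have hend : x' (σ ^ p ^ a) = 0 := by
    refine hx'0 _ ?_
    rw [d.e_pow hσ, Nat.mod_self]
  have e : ∀ i ∈ Finset.range (p ^ a), d.carry (σ ^ i) σ • (m • A) =
      σ ^ i • x' σ - (x' (σ ^ (i + 1)) - x' (σ ^ i)) := fun i _ => by
    rw [← hx', ← pow_succ]; abel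
  have e' := Finset.sum_congr rfl e
  rw [← Finset.sum_smul, d.sum_carry hn hn1 hσ, one_smul, Finset.sum_sub_distrib,
    Finset.sum_range_sub (fun i => x' (σ ^ i)), hend, pow_zero, hx'0 1 d.map_one, sub_zero,
    sub_zero] at e'
  exact e'

end Fermat.Agent.TW.Recip
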