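/-
Cochains of a finite group induced from an injectively mapped group, in explicit form: restriction
followed by induction of a homogeneous cocycle is homotopic to the cocycle itself.
-/
import Fermat.Agent.PoitouTate.AlgebraCores
import Mathlib.Data.ZMod.Basic
import Mathlib.Tactic

set_option autoImplicit false

open groupCohomology Fermat.Agent.PoitouTate

noncomputable section

namespace Fermat.Agent.TW.Recip

variable {Δ D : Type} [Group Δ] [Group D] (ι : D →* Δ)

/-- The chosen representative of `ι(D) x`. -/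
def rightRep (x : Δ) : Δ :=
  (Quotient.mk (QuotientGroup.rightRel ι.range) x).out

theorem mul_rightRep_inv_mem (x : Δ) : x * (rightRep ι x)⁻¹ ∈ ι.range := by
  have h := QuotientGroup.rightRel_apply.1
    (Quotient.exact (Quotient.out_eq (Quotient.mk (QuotientGroup.rightRel ι.range) x)))
  exact h

theorem rightRep_mul (t : D) (x : Δ) : rightRep ι (ι t * x) = rightRep ι x := by
  unfold rightRep
  congr 1
  refine Quotient.sound (QuotientGroup.rightRel_apply.2 ?_)
  rw [mul_inv_rev, ← mul_assoc, mul_inv_cancel, one_mul, inv_mem_iff]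
  exact ⟨t, rfl⟩

/-- The component in `D`. -/
def dpart (x : Δ) : D := (mul_rightRep_inv_mem ι x).choose

theorem map_dpart (x : Δ) : ι (dpart ι x) = x * (rightRep ι x)⁻¹ :=
  (mul_rightRep_inv_mem ι x).choose_spec

variable {ι} (hι : Function.Injective ι)

include hι in
theorem dpart_mul (t : D) (x : Δ) : dpart ι (ι t * x) = t * dpart ι x :=
  hι (by rw [map_mul, map_dpart, map_dpart, rightRep_mul, mul_assoc])

variable (ι)

/-- The step from `x` to `x σ`. -/
def dstep (x σ : Δ) : D := (dpart ι x)⁻¹ * dpart ι (x * σ)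

theorem dpart_mul_dstep (x σ : Δ) : dpart ι x * dstep ι x σ = dpart ι (x * σ) :=
  mul_inv_cancel_left _ _

theorem dstep_trans (x σ τ : Δ) :
    dstep ι x σ * dstep ι (x * σ) τ = dstep ι x (σ * τ) := by
  simp [dstep, mul_assoc]

variable (A : Type) [AddCommGroup A] [DistribMulAction D A]

/-- The induced module: equivariant functions. -/
def indMod : AddSubgroup (Δ → A) where
  carrier := {φ | ∀ (t : D) (x : Δ), φ (ι t * x) = t • φ x}
  zero_mem' _ _ := (smul_zero _).symm
  add_mem' h h' t x := by rw [Pi.add_apply, Pi.add_apply, h, h', smul_add]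
  neg_mem' h t x := by rw [Pi.neg_apply, Pi.neg_apply, h, smul_neg]

instance : SMul Δ ↥(indMod ι A) :=
  ⟨fun σ φ => ⟨fun x => (φ : Δ → A) (x * σ), fun t x => by
    simp only [mul_assoc]; exact φ.2 t _⟩⟩

@[simp] theorem coe_smul_indMod (σ : Δ) (φ : indMod ι A) (x : Δ) :
    ((σ • φ : indMod ι A) : Δ → A) x = (φ : Δ → A) (x * σ) := rfl

instance : DistribMulAction Δ ↥(indMod ι A) where
  one_smul φ := Subtype.ext <| funext fun x => by rw [coe_smul_indMod, mul_one]
  mul_smul σ τ φ := Subtype.ext <| funext fun x => by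
    simp only [coe_smul_indMod, mul_assoc]
  smul_zero σ := Subtype.ext <| funext fun x => rfl
  smul_add σ φ φ' := Subtype.ext <| funext fun x => rfl

variable {ι A}

theorem indMod_ext {φ φ' : indMod ι A} (h : ∀ x, (φ : Δ → A) x = (φ' : Δ → A) x) : φ = φ' :=
  Subtype.ext (funext h)

include hι in
theorem dstep_mul (t : D) (x σ : Δ) : dstep ι (ι t * x) σ = dstep ι x σ := by
  rw [dstep, dstep, dpart_mul hι, mul_assoc (ι t), dpart_mul hι]
  simp [mul_assoc]

/-- Induction of a one-cochain. -/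
def ind1 (u : D → A) (σ : Δ) : indMod ι A :=
  ⟨fun x => dpart ι x • u (dstep ι x σ), fun t x => by simp only [dstep_mul hι, dpart_mul hι, mul_smul]⟩

/-- Induction of a two-cochain. -/
def ind2 : (D × D → A) →+ (Δ × Δ → indMod ι A) where
  toFun f y := ⟨fun x => dpart ι x • f (dstep ι x y.1, dstep ι (x * y.1) y.2), fun t x => by
    simp only [dstep_mul hι, mul_assoc (ι t), dpart_mul hι, mul_smul]⟩
  map_zero' := funext fun y => indMod_ext fun x => smul_zero _
  map_add' f g := funext fun y => indMod_ext fun x => smul_add _ _ _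

theorem ind2_apply (f : D × D → A) (σ τ x : Δ) :
    (ind2 hι f (σ, τ) : Δ → A) x = dpart ι x • f (dstep ι x σ, dstep ι (x * σ) τ) := rfl

theorem ind2_isCocycle {f : D × D → A} (hf : IsCocycle₂ f) : IsCocycle₂ (ind2 hι f) := by
  intro σ τ υ
  refine indMod_ext fun x => ?_
  simp only [AddSubgroup.coe_add, Pi.add_apply, coe_smul_indMod, ind2_apply]
  rw [← mul_assoc, ← dpart_mul_dstep ι x σ, mul_smul, ← smul_add, ← smul_add, ← dstep_trans ι x σ τ,
    ← dstep_trans ι (x * σ) τ υ, hf]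

theorem ind2_isCoboundary {f : D × D → A} (hf : IsCoboundary₂ f) :
    IsCoboundary₂ (ind2 hι f) := by
  obtain ⟨u, hu⟩ := hf
  refine ⟨ind1 hι u, fun σ τ => indMod_ext fun x => ?_⟩
  simp only [AddSubgroup.coe_add, AddSubgroup.coe_sub, Pi.add_apply, Pi.sub_apply,
    coe_smul_indMod, ind2_apply, ind1]
  rw [← hu, ← dpart_mul_dstep ι x σ, mul_smul, ← dstep_trans ι x σ τ, smul_add, smul_sub]

section Homotopy

/-- A homogeneous two-cocycle, equivariant for `D`. -/
structure HomCocycle (ι : D →* Δ) (A : Type) [AddCommGroup A] [DistribMulAction D A] where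
  /-- The function. -/
  toFun : Δ → Δ → Δ → A
  equivariant : ∀ (t : D) a b c, toFun (ι t * a) (ι t * b) (ι t * c) = t • toFun a b c
  cocycle : ∀ a b c e, toFun b c e - toFun a c e + toFun a b e - toFun a b c = 0

/-- The two-cochain of the induced module. -/
def HomCocycle.glob (Ψ : HomCocycle ι A) (y : Δ × Δ) : indMod ι A :=
  ⟨fun x => Ψ.toFun x (x * y.1) (x * y.1 * y.2), fun t x => by
    simp only [mul_assoc (ι t)]
    exact Ψ.equivariant t _ _ _⟩

/-- The restriction to `D`. -/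
def HomCocycle.res (Ψ : HomCocycle ι A) (y : D × D) : A := Ψ.toFun 1 (ι y.1) (ι (y.1 * y.2))

theorem HomCocycle.glob_isCocycle (Ψ : HomCocycle ι A) : IsCocycle₂ Ψ.glob := by
  intro σ τ υ
  refine indMod_ext fun x => ?_
  simp only [AddSubgroup.coe_add, Pi.add_apply, coe_smul_indMod, HomCocycle.glob]
  have h := Ψ.cocycle x (x * σ) (x * σ * τ) (x * σ * τ * υ)
  simp only [mul_assoc] at h ⊢
  linear_combination (norm := abel) -h

theorem HomCocycle.res_isCocycle (Ψ : HomCocycle ι A) : IsCocycle₂ Ψ.res := by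
  intro a b c
  simp only [HomCocycle.res]
  have h := Ψ.cocycle 1 (ι a) (ι (a * b)) (ι (a * b * c))
  have e : a • Ψ.toFun 1 (ι b) (ι (b * c)) = Ψ.toFun (ι a) (ι (a * b)) (ι (a * b * c)) := by
    rw [← Ψ.equivariant, mul_one, ← map_mul, ← map_mul, mul_assoc a b c]
  rw [e, ← mul_assoc a b c]
  linear_combination (norm := abel) -h

/-- Induction of the restriction is homotopic to the cocycle. -/
theorem HomCocycle.ind2_res (Ψ : HomCocycle ι A) :
    IsCoboundary₂ (ind2 hι Ψ.res - Ψ.glob) := by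
  let δ : Δ → Δ := fun x => ι (dpart ι x)
  have hδ : ∀ t x, δ (ι t * x) = ι t * δ x := fun t x => by
    simp only [δ, dpart_mul hι, map_mul]
  refine ⟨fun σ => ⟨fun x => Ψ.toFun x (δ x) (δ (x * σ)) - Ψ.toFun x (x * σ) (δ (x * σ)),
    fun t x => by
      simp only [mul_assoc (ι t), hδ, Ψ.equivariant, smul_sub]⟩, fun σ τ => indMod_ext fun x => ?_⟩
  simp only [AddSubgroup.coe_add, AddSubgroup.coe_sub, Pi.add_apply, Pi.sub_apply,
    coe_smul_indMod, ind2_apply, HomCocycle.res, HomCocycle.glob, ← mul_assoc]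
  have e : dpart ι x • Ψ.toFun 1 (ι (dstep ι x σ)) (ι (dstep ι x σ * dstep ι (x * σ) τ)) =
      Ψ.toFun (δ x) (δ (x * σ)) (δ (x * σ * τ)) := by
    rw [← Ψ.equivariant, mul_one, ← map_mul, ← map_mul, dpart_mul_dstep, dstep_trans,
      dpart_mul_dstep, ← mul_assoc]
  rw [e]
  have c1 := Ψ.cocycle x (δ x) (δ (x * σ)) (δ (x * σ * τ))
  have c2 := Ψ.cocycle x (x * σ) (δ (x * σ)) (δ (x * σ * τ))
  have c3 := Ψ.cocycle x (x * σ) (x * σ * τ) (δ (x * σ * τ))
  linear_combination (norm := abel) -c1 + c2 - c3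

end Homotopy

section CarryHomotopy

variable {n m r : ℕ}

theorem cast_digit_mul {G : Type} [Group G] (d : Digits G n) (a b : G) :
    (d.e (a * b) : ZMod n) = d.e a + d.e b := by
  rw [d.hom, ZMod.natCast_mod, Nat.cast_add]

/-- Induction of the carry of a restricted character is homotopic to the carry. -/
theorem ind2_carry (hn : n ≠ 0) (hnm : n = r * m) (d : Digits Δ n) (dl : Digits D m)
    (hres : ∀ t, d.e (ι t) = r * dl.e t) {a : A} (ha : ∀ t : D, t • a = a) :
    IsCoboundary₂ (ind2 hι (fun y => dl.carry y.1 y.2 • a) -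
      fun y => (⟨fun _ => d.carry y.1 y.2 • a, fun t _ => by
        rw [smul_intMul, ha]⟩ : indMod ι A)) := by
  have : NeZero n := ⟨hn⟩
  let φ : Δ → ℕ := fun x => ((d.e (ι (dpart ι x)) : ZMod n) - d.e x).val
  have hφ : ∀ t x, φ (ι t * x) = φ x := fun t x => by
    simp only [φ, dpart_mul hι, map_mul, cast_digit_mul]
    congr 1; ring
  let P : Δ → Δ → ℤ := fun σ x =>
    (r : ℤ) * dl.e (dstep ι x σ) - d.e σ - ((φ (x * σ) : ℤ) - φ x)
  have hP : ∀ σ x, (n : ℤ) ∣ P σ x := fun σ x => by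
    rw [← ZMod.intCast_zmod_eq_zero_iff_dvd]
    have h1 : ((r * dl.e (dstep ι x σ) : ℕ) : ZMod n) =
        d.e (ι (dpart ι (x * σ))) - d.e (ι (dpart ι x)) := by
      rw [← hres, ← dpart_mul_dstep ι x σ, map_mul, cast_digit_mul, add_sub_cancel_left]
    simp only [P, φ, Int.cast_sub, Int.cast_natCast, ← Nat.cast_mul, h1,
      ZMod.natCast_zmod_val, cast_digit_mul]
    ring
  refine ⟨fun σ => ⟨fun x => (P σ x / n) • a, fun t x => by
    simp only [P, dstep_mul hι, mul_assoc (ι t), hφ]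
    rw [smul_intMul, ha]⟩, fun σ τ => indMod_ext fun x => ?_⟩
  simp only [AddSubgroup.coe_add, AddSubgroup.coe_sub, Pi.add_apply, Pi.sub_apply,
    coe_smul_indMod, ind2_apply, smul_intMul, ha, ← sub_smul, ← add_smul]
  congr 1
  apply mul_left_cancel₀ (Nat.cast_ne_zero.2 hn : (n : ℤ) ≠ 0)
  rw [mul_add, mul_sub, mul_sub, Int.mul_ediv_cancel' (hP _ _), Int.mul_ediv_cancel' (hP _ _),
    Int.mul_ediv_cancel' (hP _ _), d.n_carry]
  have h2 : (n : ℤ) * dl.carry (dstep ι x σ) (dstep ι (x * σ) τ) =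
      (r : ℤ) * (dl.e (dstep ι x σ) + dl.e (dstep ι (x * σ) τ) - dl.e (dstep ι x (σ * τ))) := by
    rw [← dstep_trans, ← dl.n_carry, hnm]
    push_cast; ring
  rw [h2]
  simp only [P, ← mul_assoc x σ τ]
  ring

end CarryHomotopy

end Fermat.Agent.TW.Recip
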