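/-
Cochains at a place pushed into the classes of a level; the reciprocity law for classes with values
in the roots of unity.
-/
import Fermat.Agent.TW.RecipInduce
import Fermat.Agent.PoitouTate.ClassApi
import Fermat.Agent.PoitouTate.Sha2Units
import Fermat.Agent.PoitouTate.ClassLevels

set_option autoImplicit false

open groupCohomology ExtCitation Fermat.Agent.PoitouTate

noncomputable section

namespace Fermat.Agent.TW.Recip

/-- Composition with an equivariant map preserves cocycles. -/
theorem isCocycle₂_comp {G A B : Type} [Group G] [AddCommGroup A] [DistribMulAction G A]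
    [AddCommGroup B] [DistribMulAction G B] (f : A →+ B) (hf : ∀ (g : G) a, f (g • a) = g • f a)
    {z : G × G → A} (hz : IsCocycle₂ z) : IsCocycle₂ fun x => f (z x) := fun g h j => by
  rw [← map_add, hz g h j, map_add, hf]

/-- Composition with an equivariant map preserves coboundaries. -/
theorem isCoboundary₂_comp {G A B : Type} [Group G] [AddCommGroup A] [DistribMulAction G A]
    [AddCommGroup B] [DistribMulAction G B] (f : A →+ B) (hf : ∀ (g : G) a, f (g • a) = g • f a)
    {z : G × G → A} (hz : IsCoboundary₂ z) : IsCoboundary₂ fun x => f (z x) := by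
  obtain ⟨x, hx⟩ := hz
  exact ⟨fun g => f (x g), fun g h => by
    show _ = f (z (g, h))
    rw [← hx g h, map_add, map_sub, hf]⟩

variable {T : Finset Nat.Primes} (L : IntermediateField ℚ (AlgebraicClosure ℚ))
  [L.fixingSubgroup.Normal]

/-- The layer. -/
abbrev LayerGrp : Type := GQ ⧸ L.fixingSubgroup

/-- The classes of the layer. -/
abbrev LayerCls (T : Finset Nat.Primes) : Type := ↥(fixedPts L.fixingSubgroup (Cls T))

/-- The local subgroup of the level. -/
abbrev locLev (q : Nat.Primes) : Subgroup (LocGal q) := L.fixingSubgroup.comap (loc q)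

/-- The decomposition group in the layer. -/
abbrev LocLayer (q : Nat.Primes) : Type := LocGal q ⧸ locLev L q

/-- The map of the decomposition group into the layer. -/
def locIota (q : Nat.Primes) : LocLayer L q →* LayerGrp L :=
  QuotientGroup.map _ _ (loc q) le_rfl

theorem locIota_mk (q : Nat.Primes) (t : LocGal q) :
    locIota L q (QuotientGroup.mk t) = QuotientGroup.mk (loc q t) := rfl

theorem locIota_injective (q : Nat.Primes) : Function.Injective (locIota L q) := by
  rw [injective_iff_map_eq_one]
  intro t ht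
  induction t using QuotientGroup.induction_on with | H t => ?_
  rw [locIota_mk, QuotientGroup.eq_one_iff] at ht
  exact (QuotientGroup.eq_one_iff t).2 ht

/-- The local values of the level. -/
abbrev LocA (q : Nat.Primes) : Type := ↥(fixedPts (locLev L q) (LocVal q))

variable {L}

/-- An induced function as an idele supported at one place. -/
def placeAmb (q : ↥T) (φ : indMod (locIota L q.1) (LocA L q.1)) : Amb T :=
  (Pi.single q fun g => ((φ : LayerGrp L → LocA L q.1) (QuotientGroup.mk g) : LocVal q.1), 0)

theorem placeAmb_fin_self (q : ↥T) (φ : indMod (locIota L q.1) (LocA L q.1)) (g : GQ) :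
    (placeAmb q φ).fin q g = ((φ : LayerGrp L → LocA L q.1) (QuotientGroup.mk g) : LocVal q.1) := by
  simp [placeAmb, Amb.fin]

theorem placeAmb_fin_ne {q q' : ↥T} (h : q' ≠ q) (φ : indMod (locIota L q.1) (LocA L q.1))
    (g : GQ) : (placeAmb q φ).fin q' g = 0 := by
  simp [placeAmb, Amb.fin, Pi.single_eq_of_ne h]

theorem placeAmb_ord (q : ↥T) (φ : indMod (locIota L q.1) (LocA L q.1))
    (q' : {q : Nat.Primes // q ∉ T}) (g : GQ) : (placeAmb q φ).ord q' g = 0 := rfl

theorem smul_placeAmb (q : ↥T) (φ : indMod (locIota L q.1) (LocA L q.1)) (σ : GQ) :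
    σ • placeAmb q φ = placeAmb q ((QuotientGroup.mk σ : LayerGrp L) • φ) := by
  refine Amb.ext (fun q' g => ?_) fun q' g => rfl
  rw [Amb.fin_smul]
  by_cases h : q' = q
  · subst h
    rw [placeAmb_fin_self, placeAmb_fin_self, coe_smul_indMod]
    rfl
  · rw [placeAmb_fin_ne h, placeAmb_fin_ne h]

theorem smul_placeAmb_of_mem (q : ↥T) (φ : indMod (locIota L q.1) (LocA L q.1)) {s : GQ}
    (hs : s ∈ L.fixingSubgroup) : s • placeAmb q φ = placeAmb q φ := by
  rw [smul_placeAmb, (QuotientGroup.eq_one_iff s).2 hs, one_smul]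

variable (hL : IsLvl T L)

include hL in
theorem placeAmb_mem_J (q : ↥T) (φ : indMod (locIota L q.1) (LocA L q.1)) :
    placeAmb q φ ∈ J T := by
  refine ⟨fun q' τ g => ?_, fun q' τ g => rfl,
    ⟨L, hL, fun s hs => smul_placeAmb_of_mem q φ hs⟩, ?_⟩
  · by_cases h : q' = q
    · subst h
      rw [placeAmb_fin_self, placeAmb_fin_self]
      have h1 := φ.2 (QuotientGroup.mk τ) (QuotientGroup.mk g)
      rw [locIota_mk, ← QuotientGroup.mk_mul] at h1
      rw [h1, coe_quot_smul, locVal_smul_def]
    · rw [placeAmb_fin_ne h, placeAmb_fin_ne h, map_zero]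
  · simp [placeAmb_ord]

/-- The classes at one place. -/
def placeCls (q : ↥T) : indMod (locIota L q.1) (LocA L q.1) →+ LayerCls L T where
  toFun φ := ⟨clsMk T ⟨placeAmb q φ, placeAmb_mem_J hL q φ⟩, fun s hs => by
    rw [smul_clsMk]
    exact congrArg (clsMk T) (Subtype.ext (smul_placeAmb_of_mem q φ hs))⟩
  map_zero' := by
    refine Subtype.ext ?_
    refine (congrArg (clsMk T) (Subtype.ext ?_)).trans (map_zero (clsMk T))
    exact Amb.ext (fun q' g => by
      by_cases h : q' = q
      · subst h; rw [placeAmb_fin_self]; rfl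
      · rw [placeAmb_fin_ne h]; rfl) fun _ _ => rfl
  map_add' φ ψ := by
    refine Subtype.ext ?_
    refine (congrArg (clsMk T) (Subtype.ext ?_)).trans (map_add (clsMk T) _ _)
    exact Amb.ext (fun q' g => by
      by_cases h : q' = q
      · subst h; simp [placeAmb_fin_self]
      · simp [placeAmb_fin_ne h]) fun _ _ => by simp [placeAmb_ord]

theorem placeCls_smul (q : ↥T) (σ : LayerGrp L) (φ : indMod (locIota L q.1) (LocA L q.1)) :
    placeCls hL q (σ • φ) = σ • placeCls hL q φ := by
  induction σ using QuotientGroup.induction_on with | H σ => ?_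
  refine Subtype.ext ?_
  rw [coe_quot_smul]
  show _ = σ • clsMk T _
  rw [smul_clsMk]
  exact congrArg (clsMk T) (Subtype.ext (smul_placeAmb q φ σ).symm)

/-- The map from local cochains to cochains of classes. -/
def placeMap (q : ↥T) :
    (LocLayer L q.1 × LocLayer L q.1 → LocA L q.1) →+ (LayerGrp L × LayerGrp L → LayerCls L T) where
  toFun f x := placeCls hL q (ind2 (locIota_injective L q.1) f x)
  map_zero' := funext fun x => by rw [map_zero, Pi.zero_apply, map_zero]; rfl
  map_add' f g := funext fun x => by rw [map_add, Pi.add_apply, map_add]; rfl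

theorem placeMap_isCocycle (q : ↥T) {f : LocLayer L q.1 × LocLayer L q.1 → LocA L q.1}
    (hf : IsCocycle₂ f) : IsCocycle₂ (placeMap hL q f) :=
  isCocycle₂_comp (placeCls hL q) (placeCls_smul hL q) (ind2_isCocycle _ hf)

theorem placeMap_isCoboundary (q : ↥T) {f : LocLayer L q.1 × LocLayer L q.1 → LocA L q.1}
    (hf : IsCoboundary₂ f) : IsCoboundary₂ (placeMap hL q f) :=
  isCoboundary₂_comp (placeCls hL q) (placeCls_smul hL q) (ind2_isCoboundary _ hf)

section RootsOfUnity

variable {p : ℕ} [Fact p.Prime] (hcyc : ∀ s ∈ L.fixingSubgroup, cycloChar p s = 1)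

/-- The cyclotomic character of the layer. -/
def layerCyclo : LayerGrp L →* (ZMod p)ˣ :=
  QuotientGroup.lift L.fixingSubgroup (cycloChar p) fun s hs => hcyc s hs

theorem layerCyclo_mk (g : GQ) : layerCyclo hcyc (QuotientGroup.mk g) = cycloChar p g := rfl

include hcyc in
omit [L.fixingSubgroup.Normal] in
theorem embU_zHom_mem (q : Nat.Primes) (k : ZMod p) :
    embU q (zHom p k) ∈ fixedPts (locLev L q) (LocVal q) := by
  intro s hs
  rw [locVal_smul_def, locAct_embU, smul_zHom, hcyc _ hs, Units.val_one, one_mul]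

/-- Roots of unity as local values. -/
def zLoc (q : Nat.Primes) : ZMod p →+ LocA L q :=
  ((embU q).comp (zHom p)).codRestrict _ fun k => embU_zHom_mem hcyc q k

theorem smul_zLoc (q : Nat.Primes) (t : LocLayer L q) (k : ZMod p) :
    t • zLoc hcyc q k =
      zLoc hcyc q ((layerCyclo hcyc (locIota L q t) : ZMod p) * k) := by
  induction t using QuotientGroup.induction_on with | H t => ?_
  refine Subtype.ext ?_
  rw [coe_quot_smul, locVal_smul_def]
  show locAct q t (embU q (zHom p k)) = embU q (zHom p _)
  rw [locAct_embU, smul_zHom, locIota_mk, layerCyclo_mk]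

theorem norm_padicEmbedding_uval (q : Nat.Primes) (k : ZMod p) :
    ‖padicEmbedding (q : ℕ) (uval (zHom p k))‖ = 1 := by
  have h : uval (zHom p k) ^ p = 1 := by
    rw [uval_zHom, ← pow_mul, mul_comm, pow_mul, (isPrimitiveRoot_zetaU p).pow_eq_one, one_pow]
  refine (pow_eq_one_iff_of_nonneg (norm_nonneg _) (Fact.out : p.Prime).ne_zero).1 ?_
  rw [← norm_pow, ← map_pow, h, map_one, norm_one]

theorem norm_padicEmbedding_apply_uval (q : Nat.Primes) (g : GQ) (k : ZMod p) :
    ‖padicEmbedding (q : ℕ) (g (uval (zHom p k)))‖ = 1 := by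
  rw [show g (uval (zHom p k)) = uval (g • zHom p k) from rfl, smul_zHom]
  exact norm_padicEmbedding_uval q _

/-- **Reciprocity**: the local images of a class with values in the roots of unity cancel. -/
theorem isCoboundary_sum_placeMap (G : LayerGrp L × LayerGrp L → ZMod p)
    (hG : ∀ a b c, G (a * b, c) + G (a, b) =
      (layerCyclo hcyc a : ZMod p) * G (b, c) + G (a, b * c)) :
    IsCoboundary₂ (∑ q : ↥T, placeMap hL q fun y =>
      zLoc hcyc q.1 (G (locIota L q.1 y.1, locIota L q.1 y.2))) := by
  let Ψ : ∀ q : ↥T, HomCocycle (locIota L q.1) (LocA L q.1) := fun q =>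
    { toFun := fun a b c => zLoc hcyc q.1 ((layerCyclo hcyc a : ZMod p) * G (a⁻¹ * b, b⁻¹ * c))
      equivariant := fun t a b c => by
        rw [smul_zLoc, map_mul (layerCyclo hcyc), Units.val_mul, mul_assoc]
        simp only [mul_inv_rev, mul_assoc, inv_mul_cancel_left]
      cocycle := fun a b c e => by
        rw [← map_sub, ← map_add, ← map_sub, ← map_zero (zLoc hcyc q.1)]
        congr 1
        have h := hG (a⁻¹ * b) (b⁻¹ * c) (c⁻¹ * e)
        have e2 : (layerCyclo hcyc b : ZMod p) =
            (layerCyclo hcyc a : ZMod p) * (layerCyclo hcyc (a⁻¹ * b) : ZMod p) := by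
          rw [← Units.val_mul, ← map_mul, mul_inv_cancel_left]
        simp only [mul_assoc, mul_inv_cancel_left] at h
        rw [e2]
        linear_combination (-(layerCyclo hcyc a : ZMod p)) * h }
  have hres : ∀ (q : ↥T), (Ψ q).res = fun y =>
      zLoc hcyc q.1 (G (locIota L q.1 y.1, locIota L q.1 y.2)) := fun q => funext fun y => by
    simp [Ψ, HomCocycle.res, map_mul]
  -- the global idele is principal
  have hglob : (∑ q : ↥T, fun x => placeCls hL q ((Ψ q).glob x)) = 0 := by
    funext x
    rw [Finset.sum_apply, Pi.zero_apply]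
    refine Subtype.ext ?_
    rw [AddSubmonoidClass.coe_finsetSum, ZeroMemClass.coe_zero]
    show ∑ q : ↥T, clsMk T _ = 0
    rw [← map_sum, clsMk_eq_zero_iff]
    refine ⟨uval (zHom p (G x)), uval_ne_zero _, fun q g => ?_, fun q' g => ?_⟩
    · rw [AddSubmonoidClass.coe_finsetSum]
      have hsum : (∑ i : ↥T, placeAmb i ((Ψ i).glob x) : Amb T).fin q g =
          (placeAmb q ((Ψ q).glob x)).fin q g := by
        let π : Amb T →+ LocVal q.1 := AddMonoidHom.mk' (fun f => f.fin q g) fun _ _ => rfl
        show π (∑ i : ↥T, placeAmb i ((Ψ i).glob x)) = _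
        rw [map_sum, Finset.sum_eq_single q]
        · rfl
        · exact fun i _ hi => placeAmb_fin_ne (Ne.symm hi) _ g
        · simp
      rw [hsum, placeAmb_fin_self]
      show (((Additive.toMul (α := (PadicAlgCl (q.1 : ℕ))ˣ) (embU q.1 (zHom p
        ((layerCyclo hcyc (QuotientGroup.mk g) : ZMod p) *
          G ((QuotientGroup.mk g)⁻¹ * ((QuotientGroup.mk g) * x.1),
            ((QuotientGroup.mk g) * x.1)⁻¹ * ((QuotientGroup.mk g) * x.1 * x.2)))))
        : (PadicAlgCl (q.1 : ℕ))ˣ)) : PadicAlgCl (q.1 : ℕ)) = _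
      rw [inv_mul_cancel_left, inv_mul_cancel_left, layerCyclo_mk, ← smul_zHom, coe_embU]
      rfl
    · rw [AddSubmonoidClass.coe_finsetSum, norm_padicEmbedding_apply_uval]
      have hord : (∑ i : ↥T, placeAmb i ((Ψ i).glob x) : Amb T).ord q' g = 0 := by
        let π : Amb T →+ ℤ := AddMonoidHom.mk' (fun f => f.ord q' g) fun _ _ => rfl
        show π (∑ i : ↥T, placeAmb i ((Ψ i).glob x)) = 0
        rw [map_sum]
        exact Finset.sum_eq_zero fun i _ => rfl
      rw [hord, neg_zero, zpow_zero]
  have key : IsCoboundary₂ (∑ q : ↥T, ((placeMap hL q (Ψ q).res) -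
      fun x => placeCls hL q ((Ψ q).glob x))) :=
    (B2 (LayerGrp L) (LayerCls L T)).sum_mem fun q _ => by
      have h := isCoboundary₂_comp (placeCls hL q) (placeCls_smul hL q)
        ((Ψ q).ind2_res (locIota_injective L q.1))
      simp only [Pi.sub_apply, map_sub] at h
      exact h
  rw [Finset.sum_sub_distrib, hglob, sub_zero] at key
  simpa only [hres] using key

end RootsOfUnity

end Fermat.Agent.TW.Recip
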