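/-
At a prime `q ≡ 1 (mod p)` of `T`, the cup product of the unramified and the Kummer character has
non-zero image in the classes of a level seeing enough of the cyclotomic tower.
-/
import Fermat.Agent.TW.RecipPlace
import Fermat.Agent.TW.RecipClass
import Fermat.Agent.PoitouTate.ClassCyclotomic

set_option autoImplicit false

open groupCohomology ExtCitation Fermat.Agent.PoitouTate

noncomputable section

namespace Fermat.Agent.TW.Recip

local notation "Qb" => AlgebraicClosure ℚ

variable {T : Finset Nat.Primes} {L : IntermediateField ℚ Qb} {p : ℕ} [Fact p.Prime]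

theorem apply_out_fun {G : Type} [Group G] {N : Subgroup G} [N.Normal] {X : Type} {f : G → X}
    (h : ∀ g, ∀ n ∈ N, f (g * n) = f g) (g : G) :
    f ((QuotientGroup.mk g : G ⧸ N).out) = f g := by
  obtain ⟨n, hn⟩ := QuotientGroup.mk_out_eq_mul N g
  rw [hn]
  exact h g n n.2

/-- The auxiliary data at a prime `q ≡ 1 (mod p)`. -/
structure AuxData (T : Finset Nat.Primes) (p : ℕ) [Fact p.Prime] (q : ↥T) where
  /-- The exact power of `p` dividing `q - 1`. -/
  e : ℕ
  e_pos : 0 < e
  dvd : p ^ e ∣ (q.1 : ℕ) - 1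
  not_dvd : ¬ p ^ (e + 1) ∣ (q.1 : ℕ) - 1
  mem : pPrime p ∈ T
  /-- The character. -/
  lam : (ZMod (p ^ (e + 1)))ˣ →* Multiplicative (ZMod (p ^ e))
  lam_surjective : Function.Surjective lam
  /-- A root of the prime. -/
  root : Qb
  root_pow : root ^ p = ((q.1 : ℕ) : Qb)

theorem exists_auxData (hp2 : p ≠ 2) (hpT : pPrime p ∈ T) (q : ↥T) (hq : p ∣ (q.1 : ℕ) - 1) :
    Nonempty (AuxData T p q) := by
  have hp : p.Prime := Fact.out
  have h1 : (q.1 : ℕ) - 1 ≠ 0 := by have := q.1.2.two_le; omega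
  have : NeZero (p ^ (padicValNat p ((q.1 : ℕ) - 1) + 1)) := ⟨pow_ne_zero _ hp.ne_zero⟩
  have : NeZero (p ^ padicValNat p ((q.1 : ℕ) - 1)) := ⟨pow_ne_zero _ hp.ne_zero⟩
  have hcyc : IsCyclic (ZMod (p ^ (padicValNat p ((q.1 : ℕ) - 1) + 1)))ˣ :=
    ZMod.isCyclic_units_of_prime_pow p hp hp2 _
  obtain ⟨lam, hlam⟩ := exists_surjective_to_zmod
    (G := (ZMod (p ^ (padicValNat p ((q.1 : ℕ) - 1) + 1)))ˣ)
    (n := p ^ padicValNat p ((q.1 : ℕ) - 1)) (by
      rw [Nat.card_eq_fintype_card, ZMod.card_units_eq_totient, Nat.totient_prime_pow_succ hp]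
      exact dvd_mul_right _ _)
  obtain ⟨r, hr⟩ := IsAlgClosed.exists_pow_nat_eq ((q.1 : ℕ) : Qb) hp.pos
  exact ⟨⟨_, one_le_padicValNat_of_dvd h1 hq, pow_padicValNat_dvd,
    pow_succ_padicValNat_not_dvd h1, hpT, lam, hlam, r, hr⟩⟩

namespace AuxData

variable {q : ↥T} (X : AuxData T p q)

/-- The prime `p` in `T`. -/
abbrev pp : ↥T := ⟨pPrime p, X.mem⟩

/-- The cyclotomic character. -/
def theta : GQ →* Multiplicative (ZMod (p ^ X.e)) :=
  cycTheta X.pp (X.e + 1) X.lam

theorem modEq_one (X : AuxData T p q) : (q.1 : ℕ) ≡ 1 [MOD p] :=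
  ((Nat.modEq_iff_dvd' q.1.2.one_le).2
    ((dvd_pow_self p X.e_pos.ne').trans X.dvd)).symm

theorem ne_prime (X : AuxData T p q) : (q.1 : ℕ) ≠ p := fun h => by
  have h1 := X.modEq_one
  rw [h, Nat.ModEq, Nat.mod_self, Nat.mod_eq_of_lt (Fact.out : p.Prime).one_lt] at h1
  exact zero_ne_one h1

theorem coprime (X : AuxData T p q) (j : ℕ) : (q.1 : ℕ).Coprime (p ^ j) :=
  Nat.Coprime.pow_right j ((Nat.coprime_primes q.1.2 (Fact.out : p.Prime)).2 X.ne_prime)

/-- The value of the character at the prime. -/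
def value : ZMod (p ^ X.e) := primeValue X.pp (X.e + 1) X.lam q.1

theorem value_eq : X.value =
    Multiplicative.toAdd (X.lam (ZMod.unitOfCoprime (q.1 : ℕ) (X.coprime (X.e + 1)))) :=
  dif_pos (X.coprime (X.e + 1))

theorem unit_pow_eq_one (X : AuxData T p q) :
    ZMod.unitOfCoprime (q.1 : ℕ) (X.coprime (X.e + 1)) ^ p = 1 := by
  refine Units.ext ?_
  rw [Units.val_pow_eq_pow_val, ZMod.coe_unitOfCoprime, Units.val_one]
  obtain ⟨a, ha⟩ := X.dvd
  have hq : (q.1 : ℕ) = 1 + p ^ X.e * a := by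
    have := q.1.2.one_le
    omega
  have key : ((p ^ (X.e + 1) : ℕ) : ℤ) ∣ ((q.1 : ℕ) : ℤ) ^ p - 1 := by
    rw [pow_succ, Nat.cast_mul, ← geom_sum_mul, mul_comm ((p ^ X.e : ℕ) : ℤ)]
    refine mul_dvd_mul ?_ ⟨(a : ℤ), by rw [hq]; push_cast; ring⟩
    rw [← ZMod.intCast_zmod_eq_zero_iff_dvd]
    push_cast
    simp [hq, zero_pow X.e_pos.ne']
  rw [← ZMod.intCast_zmod_eq_zero_iff_dvd] at key
  push_cast at key
  exact sub_eq_zero.1 key

theorem nsmul_value : p • X.value = 0 := by
  rw [value_eq, ← toAdd_pow, ← map_pow, X.unit_pow_eq_one, map_one]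
  rfl

theorem value_ne_zero : X.value ≠ 0 := by
  have : NeZero (p ^ (X.e + 1)) := ⟨pow_ne_zero _ (Fact.out : p.Prime).ne_zero⟩
  have : NeZero (p ^ X.e) := ⟨pow_ne_zero _ (Fact.out : p.Prime).ne_zero⟩
  intro h
  rw [value_eq] at h
  set u := ZMod.unitOfCoprime (q.1 : ℕ) (X.coprime (X.e + 1)) with hu
  have hker : u ∈ X.lam.ker := h
  have hcard : Nat.card X.lam.ker = p - 1 := by
    have h1 := Subgroup.card_mul_index X.lam.ker
    rw [Subgroup.index_ker, MonoidHom.range_eq_top.2 X.lam_surjective, Subgroup.card_top,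
      Nat.card_eq_fintype_card (α := (ZMod (p ^ (X.e + 1)))ˣ), ZMod.card_units_eq_totient,
      Nat.totient_prime_pow_succ (Fact.out : p.Prime)] at h1
    rw [show Nat.card (Multiplicative (ZMod (p ^ X.e))) = p ^ X.e from Nat.card_zmod _,
      mul_comm] at h1
    exact Nat.eq_of_mul_eq_mul_left (pow_pos (Fact.out : p.Prime).pos _) h1
  have h1 : orderOf u ∣ p - 1 := by
    rw [← hcard, ← Subgroup.orderOf_mk u hker]
    exact orderOf_dvd_natCard _
  have hpow : u ^ p = 1 := X.unit_pow_eq_one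
  have hone : u = 1 := orderOf_eq_one_iff.1 (Nat.eq_one_of_dvd_coprimes
    ((Fact.out : p.Prime).coprime_iff_not_dvd.2 (Nat.not_dvd_of_pos_of_lt
      (by have := (Fact.out : p.Prime).two_le; omega)
      (by have := (Fact.out : p.Prime).two_le; omega)))
    (orderOf_dvd_of_pow_eq_one hpow) h1)
  refine X.not_dvd ((Nat.modEq_iff_dvd' q.1.2.one_le).1 ?_)
  rw [← ZMod.natCast_eq_natCast_iff]
  have := congrArg Units.val hone
  rw [hu, ZMod.coe_unitOfCoprime, Units.val_one] at this
  rw [this, Nat.cast_one]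

theorem theta_loc (t : LocGal q.1) :
    ∃ i : ℕ, Multiplicative.toAdd (X.theta (loc q.1 t)) = i • X.value := by
  obtain ⟨i, hi⟩ := exists_frobenius_pow q.1 t (X.coprime (X.e + 1))
  refine ⟨i, ?_⟩
  rw [theta, cycTheta_eq_of_pow X.pp (X.e + 1) X.lam
    ((X.coprime (X.e + 1)).pow_left i) fun μ hμ => ?_, value_eq, ← toAdd_pow, ← map_pow]
  · congr 2
    exact Units.ext (by simp [Nat.cast_pow])
  · apply (padicEmbedding (q.1 : ℕ)).toRingHom.injective
    show padicEmbedding (q.1 : ℕ) _ = padicEmbedding (q.1 : ℕ) _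
    rw [padicEmbedding_loc, map_pow]
    exact hi _ (by rw [← map_pow]; exact (congrArg _ hμ).trans (map_one _))

theorem cycloChar_loc (X : AuxData T p q) (t : LocGal q.1) : cycloChar p (loc q.1 t) = 1 := by
  obtain ⟨i, hi⟩ := exists_frobenius_pow q.1 t (M := p) (by simpa using X.coprime 1)
  have hμ : uval (zHom p 1) ^ p = 1 := by
    rw [uval_zHom, ← pow_mul, mul_comm, pow_mul, (isPrimitiveRoot_zetaU p).pow_eq_one, one_pow]
  have hfix : loc q.1 t • zHom p 1 = zHom p (1 : ZMod p) := by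
    refine Qu.ext ?_
    apply (padicEmbedding (q.1 : ℕ)).toRingHom.injective
    show padicEmbedding (q.1 : ℕ) _ = padicEmbedding (q.1 : ℕ) _
    rw [uval_smul, padicEmbedding_loc, hi _ (by rw [← map_pow, hμ, map_one]), ← map_pow]
    congr 1
    conv_rhs => rw [← pow_one (uval (zHom p 1))]
    rw [pow_eq_pow_mod _ hμ, pow_eq_pow_mod 1 hμ]
    congr 1
    rw [Nat.ModEq.pow i X.modEq_one, one_pow]
  rw [smul_zHom, mul_one] at hfix
  exact Units.ext ((torsGen_zHom p).injective hfix)

/-- The unramified character. -/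
def uFun (t : LocGal q.1) : ℕ :=
  (Multiplicative.toAdd (X.theta (loc q.1 t))).val / p ^ (X.e - 1)

theorem val_theta_loc (t : LocGal q.1) :
    (Multiplicative.toAdd (X.theta (loc q.1 t))).val = p ^ (X.e - 1) * X.uFun t := by
  have : NeZero (p ^ X.e) := ⟨pow_ne_zero _ (Fact.out : p.Prime).ne_zero⟩
  obtain ⟨i, hi⟩ := X.theta_loc t
  have h : ((p * (Multiplicative.toAdd (X.theta (loc q.1 t))).val : ℕ) : ZMod (p ^ X.e)) = 0 := by
    rw [Nat.cast_mul, ZMod.natCast_zmod_val, hi, ← nsmul_eq_mul, smul_comm, X.nsmul_value,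
      smul_zero]
  rw [ZMod.natCast_eq_zero_iff] at h
  have he : p ^ X.e = p * p ^ (X.e - 1) := by
    rw [← pow_succ', Nat.sub_add_cancel X.e_pos]
  conv at h => lhs; rw [he]
  exact (Nat.mul_div_cancel' ((Nat.mul_dvd_mul_iff_left (Fact.out : p.Prime).pos).1 h)).symm

theorem uFun_lt (t : LocGal q.1) : X.uFun t < p := by
  have : NeZero (p ^ X.e) := ⟨pow_ne_zero _ (Fact.out : p.Prime).ne_zero⟩
  have h := ZMod.val_lt (Multiplicative.toAdd (X.theta (loc q.1 t)))
  rw [val_theta_loc] at h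
  nth_rewrite 2 [show X.e = X.e - 1 + 1 by have := X.e_pos; omega] at h
  rw [pow_succ] at h
  exact Nat.lt_of_mul_lt_mul_left h

theorem uFun_mul (s t : LocGal q.1) : X.uFun (s * t) = (X.uFun s + X.uFun t) % p := by
  have : NeZero (p ^ X.e) := ⟨pow_ne_zero _ (Fact.out : p.Prime).ne_zero⟩
  have h : (Multiplicative.toAdd (X.theta (loc q.1 (s * t)))).val = _ := X.val_theta_loc (s * t)
  rw [map_mul, map_mul, toAdd_mul, ZMod.val_add, val_theta_loc, val_theta_loc, ← mul_add] at h
  nth_rewrite 2 [show X.e = X.e - 1 + 1 by have := X.e_pos; omega] at h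
  rw [pow_succ, Nat.mul_mod_mul_left] at h
  exact (Nat.eq_of_mul_eq_mul_left (pow_pos (Fact.out : p.Prime).pos _) h).symm

/-- The unramified character with values in `ℤ/p`. -/
def chiU (t : LocGal q.1) : ZMod p := X.uFun t

theorem chiU_mul (s t : LocGal q.1) : X.chiU (s * t) = X.chiU s + X.chiU t := by
  simp [chiU, uFun_mul]

theorem exists_chiU_ne_zero : ∃ t, X.chiU t ≠ 0 := by
  obtain ⟨t, ht⟩ := exists_local_primeValue X.pp (X.e + 1) X.lam (X.coprime (X.e + 1))
  refine ⟨t, fun h => X.value_ne_zero ?_⟩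
  rw [chiU, ZMod.natCast_eq_zero_iff] at h
  have h0 : X.uFun t = 0 := Nat.eq_zero_of_dvd_of_lt h (X.uFun_lt t)
  have h1 := X.val_theta_loc t
  rw [h0, mul_zero, ZMod.val_eq_zero] at h1
  exact ht.symm.trans h1

/-- The root as an element of `Qu`. -/
def rootU : Qu := umk X.root fun h => by
  have h2 := X.root_pow
  rw [h, zero_pow (Fact.out : p.Prime).ne_zero] at h2
  exact Nat.cast_ne_zero.2 q.1.2.ne_zero h2.symm

theorem nsmul_loc_smul_sub (t : LocGal q.1) : p • (loc q.1 t • X.rootU - X.rootU) = 0 := by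
  refine Qu.ext ?_
  rw [uval_nsmul, uval_sub, uval_smul, div_pow, ← map_pow,
    show uval X.rootU ^ p = ((q.1 : ℕ) : Qb) from X.root_pow, map_natCast,
    div_self (Nat.cast_ne_zero.2 q.1.2.ne_zero), uval_zero]

/-- The Kummer character. -/
def chiK (t : LocGal q.1) : ZMod p :=
  ((torsGen_zHom p).surjective _ (X.nsmul_loc_smul_sub t)).choose

theorem zHom_chiK (t : LocGal q.1) : zHom p (X.chiK t) = loc q.1 t • X.rootU - X.rootU :=
  ((torsGen_zHom p).surjective _ (X.nsmul_loc_smul_sub t)).choose_spec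

theorem loc_smul_rootU (t : LocGal q.1) : loc q.1 t • X.rootU = X.rootU + zHom p (X.chiK t) := by
  rw [zHom_chiK]; abel

theorem chiK_mul (s t : LocGal q.1) : X.chiK (s * t) = X.chiK s + X.chiK t := by
  apply (torsGen_zHom p).injective
  rw [map_add, zHom_chiK, map_mul, mul_smul, loc_smul_rootU, smul_add, loc_smul_rootU, smul_zHom,
    X.cycloChar_loc, Units.val_one, one_mul]
  abel

variable [L.fixingSubgroup.Normal]

/-- The level sees the auxiliary data. -/
structure InLevel (L : IntermediateField ℚ Qb) (X : AuxData T p q) : Prop where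
  lvl : IsLvl T L
  cyclo : ∀ s ∈ L.fixingSubgroup, cycloChar p s = 1
  theta_one : ∀ s ∈ L.fixingSubgroup, X.theta s = 1
  root_fixed : ∀ s ∈ L.fixingSubgroup, s X.root = X.root

variable (hX : X.InLevel L)

include hX in
omit [L.fixingSubgroup.Normal] in
theorem uFun_level (t : LocGal q.1) {n : LocGal q.1} (hn : n ∈ locLev L q.1) :
    X.uFun (t * n) = X.uFun t := by
  rw [uFun, uFun, map_mul, map_mul, hX.theta_one _ hn, mul_one]

include hX in
omit [L.fixingSubgroup.Normal] in
theorem chiU_level (t : LocGal q.1) {n : LocGal q.1} (hn : n ∈ locLev L q.1) :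
    X.chiU (t * n) = X.chiU t := by
  rw [chiU, chiU, X.uFun_level hX t hn]

include hX in
omit [L.fixingSubgroup.Normal] in
theorem chiK_level (t : LocGal q.1) {n : LocGal q.1} (hn : n ∈ locLev L q.1) :
    X.chiK (t * n) = X.chiK t := by
  apply (torsGen_zHom p).injective
  rw [zHom_chiK, zHom_chiK, map_mul, mul_smul,
    show loc q.1 n • X.rootU = X.rootU from Qu.ext (hX.root_fixed _ hn)]

/-- The digits of the unramified character. -/
def dlU (hX : X.InLevel L) : Digits (LocLayer L q.1) p where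
  e x := X.uFun x.out
  lt _ := X.uFun_lt _
  hom x y := by
    induction x using QuotientGroup.induction_on with | H s => ?_
    induction y using QuotientGroup.induction_on with | H t => ?_
    rw [← QuotientGroup.mk_mul, apply_out_fun (fun t n hn => X.uFun_level hX t hn),
      apply_out_fun (fun t n hn => X.uFun_level hX t hn),
      apply_out_fun (fun t n hn => X.uFun_level hX t hn), X.uFun_mul]

/-- The cyclotomic character on the layer. -/
def thetaLayer (hX : X.InLevel L) : LayerGrp L →* Multiplicative (ZMod (p ^ X.e)) :=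
  QuotientGroup.lift L.fixingSubgroup X.theta fun s hs => hX.theta_one s hs

/-- The digits of the cyclotomic character. -/
def dTheta (hX : X.InLevel L) : Digits (LayerGrp L) (p ^ X.e) where
  e x := (Multiplicative.toAdd (X.thetaLayer hX x)).val
  lt _ :=
    haveI : NeZero (p ^ X.e) := ⟨pow_ne_zero _ (Fact.out : p.Prime).ne_zero⟩
    ZMod.val_lt _
  hom x y := by
    have : NeZero (p ^ X.e) := ⟨pow_ne_zero _ (Fact.out : p.Prime).ne_zero⟩
    rw [map_mul, toAdd_mul, ZMod.val_add]

theorem dTheta_mk (hX : X.InLevel L) (g : GQ) :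
    (X.dTheta hX).e (QuotientGroup.mk g) = (Multiplicative.toAdd (X.theta g)).val := rfl

theorem dTheta_locIota (hX : X.InLevel L) (t : LocLayer L q.1) :
    (X.dTheta hX).e (locIota L q.1 t) = p ^ (X.e - 1) * (X.dlU hX).e t := by
  induction t using QuotientGroup.induction_on with | H t => ?_
  show (Multiplicative.toAdd (X.theta (loc q.1 t))).val = _ * X.uFun _
  rw [apply_out_fun (fun t n hn => X.uFun_level hX t hn), X.val_theta_loc]

/-- The root as a local value. -/
def rootA (hX : X.InLevel L) : LocA L q.1 :=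
  ⟨embU q.1 X.rootU, fun s hs => by
    rw [locVal_smul_def, locAct_embU, show loc q.1 s • X.rootU = X.rootU from
      Qu.ext (hX.root_fixed _ hs)]⟩

theorem smul_rootA (hX : X.InLevel L) (t : LocLayer L q.1) :
    t • X.rootA hX = X.rootA hX + zLoc hX.cyclo q.1 (X.chiK t.out) := by
  induction t using QuotientGroup.induction_on with | H t => ?_
  rw [apply_out_fun (fun t n hn => X.chiK_level hX t hn)]
  refine Subtype.ext ?_
  rw [coe_quot_smul, locVal_smul_def, AddSubgroup.coe_add]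
  show locAct q.1 t (embU q.1 X.rootU) = embU q.1 X.rootU + embU q.1 (zHom p (X.chiK t))
  rw [locAct_embU, loc_smul_rootU, map_add]

theorem smul_nsmul_rootA (hX : X.InLevel L) (t : LocLayer L q.1) :
    t • (p • X.rootA hX) = p • X.rootA hX := by
  have h1 : t • (p • X.rootA hX) = p • (t • X.rootA hX) :=
    map_nsmul (DistribSMul.toAddMonoidHom (LocA L q.1) t) p _
  rw [h1, smul_rootA, smul_add, ← map_nsmul, ZModModule.char_nsmul_eq_zero p (X.chiK t.out),
    map_zero, add_zero]

/-- The prime as a constant induced function. -/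
def primeI (hX : X.InLevel L) : indMod (locIota L q.1) (LocA L q.1) :=
  ⟨fun _ => p • X.rootA hX, fun t _ => (X.smul_nsmul_rootA hX t).symm⟩

/-- The idele of the prime at itself. -/
def primeF (hX : X.InLevel L) : baseIdeles T :=
  ⟨⟨placeAmb q (X.primeI hX), placeAmb_mem_J hX.lvl q (X.primeI hX)⟩, fun σ _ => by
    refine Subtype.ext ((smul_placeAmb q (X.primeI hX) σ).trans ?_)
    exact congrArg (placeAmb q) (indMod_ext fun x => rfl)⟩

theorem idelePsi_primeF (hX : X.InLevel L) :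
    idelePsi X.pp (X.e + 1) X.lam (X.primeF hX) = X.value := by
  have hfinq : finBase q (X.primeF hX) = Additive.ofMul (Units.mk0 ((q.1 : ℕ) : ℚ_[(q.1 : ℕ)])
      (Nat.cast_ne_zero.2 q.1.2.ne_zero)) := finBase_eq (by
    show (placeAmb q (X.primeI hX)).fin q 1 = _
    rw [placeAmb_fin_self]
    show ((p • X.rootA hX : LocA L q.1) : LocVal q.1) = _
    rw [AddSubgroup.coe_nsmul]
    show p • embU q.1 X.rootU = _
    rw [← map_nsmul]
    refine Additive.toMul.injective (Units.ext ?_)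
    rw [coe_embU, uval_nsmul, coe_baseEmb]
    show padicEmbedding (q.1 : ℕ) (X.root ^ p) = _
    rw [X.root_pow, map_natCast]
    exact (map_natCast _ _).symm)
  have hfin : ∀ r : ↥T, r ≠ q → finBase r (X.primeF hX) = 0 := fun r hr => finBase_eq (by
    rw [map_zero]
    exact placeAmb_fin_ne hr (X.primeI hX) 1)
  have hdiv : baseDiv (X.primeF hX) = Finsupp.single q.1 1 := Finsupp.ext fun r => by
    rw [baseDiv_apply, Finsupp.single_apply]
    by_cases h : r ∈ T
    · rw [baseOrd_of_mem h]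
      rcases eq_or_ne (⟨r, h⟩ : ↥T) q with e | e
      · subst e
        rw [hfinq, if_pos rfl]
        exact Padic.valuation_p
      · rw [hfin _ e, map_zero, if_neg fun e' => e (Subtype.ext e'.symm)]
    · rw [baseOrd_of_not_mem h, if_neg fun e => h (by rw [← e]; exact q.2)]
      rfl
  erw [idelePsi_apply]
  rw [hdiv, hfin X.pp fun e => X.ne_prime
    (congrArg (fun r : ↥T => ((r : Nat.Primes) : ℕ)) e).symm, map_zero, map_zero, sub_zero,
    Finsupp.sum_single_index (h := fun q a => a • primeValue X.pp (X.e + 1) X.lam q)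
      (zero_smul ℤ _), one_smul]
  rfl

theorem isCoboundary_local (hX : X.InLevel L) :
    IsCoboundary₂ ((fun y => zLoc hX.cyclo q.1 (X.chiK y.1.out * X.chiU y.2.out)) +
      fun y => (X.dlU hX).carry y.1 y.2 • (p • X.rootA hX)) := by
  refine ⟨fun t => ((X.dlU hX).e t : ℤ) • X.rootA hX, fun s t => ?_⟩
  rw [Pi.add_apply, smul_intMul, smul_rootA, smul_add]
  have h1 : ((X.dlU hX).e t : ℤ) • zLoc hX.cyclo q.1 (X.chiK s.out) =
      zLoc hX.cyclo q.1 (X.chiK s.out * X.chiU t.out) := by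
    rw [← map_zsmul, zsmul_eq_mul, Int.cast_natCast, mul_comm]
    rfl
  rw [h1]
  have h2 : (X.dlU hX).carry s t • (p • X.rootA hX) = (((X.dlU hX).e s : ℤ) + (X.dlU hX).e t -
      (X.dlU hX).e (s * t)) • X.rootA hX := by
    rw [← (X.dlU hX).n_carry, mul_comm, mul_smul, natCast_zsmul]
  rw [h2, sub_smul, add_smul]
  abel

theorem isCoboundary_carry (hX : X.InLevel L)
    (hcob : IsCoboundary₂ (placeMap hX.lvl q fun y =>
      zLoc hX.cyclo q.1 (X.chiK y.1.out * X.chiU y.2.out))) :
    IsCoboundary₂ ((X.dTheta hX).cocycle (placeCls hX.lvl q (X.primeI hX))) := by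
  have h1 := placeMap_isCoboundary hX.lvl q (X.isCoboundary_local hX)
  rw [map_add] at h1
  have h2 := (B2 _ _).sub_mem (mem_B2.2 h1) (mem_B2.2 hcob)
  rw [add_sub_cancel_left] at h2
  have hcarry := ind2_carry (locIota_injective L q.1) (pow_ne_zero _ (Fact.out : p.Prime).ne_zero)
    (show p ^ X.e = p ^ (X.e - 1) * p by rw [← pow_succ, Nat.sub_add_cancel X.e_pos])
    (X.dTheta hX) (X.dlU hX) (X.dTheta_locIota hX) (X.smul_nsmul_rootA hX)
  have h3 := isCoboundary₂_comp (placeCls hX.lvl q) (placeCls_smul hX.lvl q) hcarry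
  have h4 := mem_B2.1 ((B2 _ _).sub_mem h2 (mem_B2.2 h3))
  refine (congrArg IsCoboundary₂ (funext fun y => ?_)).mp h4
  simp only [Pi.sub_apply, map_sub, Digits.cocycle, ← map_zsmul]
  exact sub_sub_cancel _ _

/-- **Non-vanishing.** -/
theorem not_isCoboundary {u : LayerGrp L × LayerGrp L → LayerCls L T}
    (hu : IsClassModule p (LayerGrp L) (LayerCls L T) u) (hp2 : p ≠ 2) (hX : X.InLevel L) :
    ¬ IsCoboundary₂ (placeMap hX.lvl q fun y =>
      zLoc hX.cyclo q.1 (X.chiK y.1.out * X.chiU y.2.out)) := by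
  intro hcob
  have hp : p.Prime := Fact.out
  have : NeZero (p ^ X.e) := ⟨pow_ne_zero _ hp.ne_zero⟩
  have := hX.lvl.finite_gal
  obtain ⟨σ, hσ⟩ := cycTheta_surjective X.pp (X.e + 1) X.lam X.lam_surjective
    (Multiplicative.ofAdd 1)
  have hσ' : X.theta σ = Multiplicative.ofAdd 1 := hσ
  have hσd : (X.dTheta hX).e (QuotientGroup.mk σ) = 1 % p ^ X.e := by
    rw [dTheta_mk, hσ', toAdd_ofAdd, ZMod.val_one_eq_one_mod]
  obtain ⟨m, b, hm, hb, hsum⟩ :=
    exists_norm_of_carry hu.h1 X.e_pos (X.dTheta hX) hσd (X.isCoboundary_carry hX hcob)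
  have hblev : ((b : LayerCls L T) : Cls T) ∈ clsLev T X.theta.ker := fun s hs => by
    have h1 : (X.dTheta hX).e (QuotientGroup.mk s) = 0 := by
      rw [dTheta_mk, MonoidHom.mem_ker.1 hs]
      exact ZMod.val_zero
    exact congrArg Subtype.val (hb _ h1)
  have hnorm : ((m • baseClass (X.primeF hX) : clsLev T (⊤ : Subgroup GQ)) : Cls T) =
      relNorm ⊤ X.theta.ker ((b : LayerCls L T) : Cls T) := by
    rw [relNorm_cyclic (Subgroup.mem_top σ) (fun g => (Multiplicative.toAdd (X.theta g)).val)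
      (fun g _ => ZMod.val_lt _) (fun g _ i hi => ?_) hblev, ← coe_sum_pow_smul L.fixingSubgroup,
      ← hsum]
    · rfl
    · rw [MonoidHom.mem_ker, map_mul, map_inv, map_pow, hσ', inv_mul_eq_one, ← ofAdd_nsmul,
        ← Equiv.eq_symm_apply, nsmul_one]
      refine ⟨fun h => ?_, fun h => ?_⟩
      · change i = (Multiplicative.toAdd (X.theta g)).val
        rw [show Multiplicative.toAdd (X.theta g) = (i : ZMod (p ^ X.e)) from h.symm,
          ZMod.val_natCast_of_lt hi]
      · subst h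
        exact ZMod.natCast_zmod_val _
  have hz := classPsi_norm X.pp (X.e + 1) X.lam X.lam_surjective ⟨_, X.mem⟩
    ((hp.odd_of_ne_two hp2).pow) _ hblev _ hnorm
  rw [map_nsmul] at hz
  erw [classPsi_baseClass, X.idelePsi_primeF hX] at hz
  have h1 : addOrderOf X.value = p := addOrderOf_eq_prime X.nsmul_value X.value_ne_zero
  exact hm (h1 ▸ addOrderOf_dvd_of_nsmul_eq_zero hz)

end AuxData

end Fermat.Agent.TW.Recip
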