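/-
The local pairings between adjoint and twisted adjoint cocycles of a level, with values in the
classes of the level, and their reciprocity.
-/
import Fermat.Agent.TW.RecipPlace
import Fermat.Agent.TW.RecipClass
import Fermat.Agent.TW.DualDefs

set_option autoImplicit false

open groupCohomology ExtCitation Fermat.Agent.PoitouTate

noncomputable section

namespace Fermat.Agent.TW.Recip

local notation "M₂" k => Matrix (Fin 2) (Fin 2) k

section Cup

variable {G : Type} [Group G] {k : Type} [Field k] (r : G →* M₂ k)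

theorem rep_inv_mul (s : G) : r s⁻¹ * r s = 1 := by rw [← map_mul, inv_mul_cancel, map_one]

theorem twConj_mul' (s t : G) (X : M₂ k) : twConj r (s * t) X = twConj r s (twConj r t X) := by
  simp only [twConj_apply, mul_inv_rev, map_mul, Matrix.det_mul, mul_smul_comm, smul_mul_assoc,
    smul_smul, mul_assoc]

theorem trace_conj_mul_twConj (s : G) (X Y : M₂ k) :
    (r s * X * r s⁻¹ * twConj r s Y).trace = (r s).det * (X * Y).trace := by
  rw [twConj_apply, mul_smul_comm, Matrix.trace_smul, smul_eq_mul]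
  congr 1
  rw [show r s * X * r s⁻¹ * (r s * Y * r s⁻¹) = r s * (X * (r s⁻¹ * r s) * Y) * r s⁻¹ by
      simp only [mul_assoc], rep_inv_mul, mul_one, Matrix.trace_mul_cycle, ← mul_assoc,
    rep_inv_mul, one_mul]

variable {p : ℕ} (lam : k →+ ZMod p)

/-- The cup product of an adjoint and a twisted adjoint cochain. -/
def cupFun (a b : G → M₂ k) (x : G × G) : ZMod p :=
  lam (a x.1 * twConj r x.1 (b x.2)).trace

theorem cupFun_add_left (a a' b : G → M₂ k) :
    cupFun r lam (a + a') b = cupFun r lam a b + cupFun r lam a' b := by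
  funext x
  simp only [cupFun, Pi.add_apply, add_mul, Matrix.trace_add, map_add]

theorem cupFun_add_right (a b b' : G → M₂ k) :
    cupFun r lam a (b + b') = cupFun r lam a b + cupFun r lam a b' := by
  funext x
  simp only [cupFun, Pi.add_apply, map_add, mul_add, Matrix.trace_add]

variable [NeZero p] (χ : G →* (ZMod p)ˣ) (hdet : ∀ s, (r s).det = (((χ s : ZMod p).val : ℕ) : k))

include hdet in
theorem lam_det_mul (s : G) (c : k) : lam ((r s).det * c) = (χ s : ZMod p) * lam c := by
  rw [hdet, ← nsmul_eq_mul, map_nsmul, nsmul_eq_mul, ZMod.natCast_zmod_val]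

include hdet in
theorem cupFun_cocycle {a b : G → M₂ k} (ha : a ∈ adCocycles r) (hb : b ∈ twCocycles r)
    (s t u : G) : cupFun r lam a b (s * t, u) + cupFun r lam a b (s, t) =
      (χ s : ZMod p) * cupFun r lam a b (t, u) + cupFun r lam a b (s, t * u) := by
  simp only [cupFun]
  rw [← lam_det_mul r lam χ hdet, ← map_add, ← map_add, hb.2 t u, ha.2 s t]
  congr 1
  rw [map_add, twConj_mul' r s t, add_mul, mul_add, Matrix.trace_add, Matrix.trace_add,
    trace_conj_mul_twConj]
  ring

include hdet in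
/-- The cup product of a coboundary with a cocycle. -/
theorem cupFun_adD {b : G → M₂ k} (hb : b ∈ twCocycles r) (M : M₂ k) (s t : G) :
    cupFun r lam (adD r M) b (s, t) = (χ s : ZMod p) * lam (M * b t).trace -
      lam (M * b (s * t)).trace + lam (M * b s).trace := by
  simp only [cupFun, adD_apply]
  rw [← lam_det_mul r lam χ hdet, ← map_sub, ← map_add, hb.2 s t]
  congr 1
  rw [sub_mul, Matrix.trace_sub, trace_conj_mul_twConj, mul_add, Matrix.trace_add]
  ring

include hdet in
/-- The cup product of a cocycle with a coboundary. -/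
theorem cupFun_twD {a : G → M₂ k} (ha : a ∈ adCocycles r) (M : M₂ k) (s t : G) :
    cupFun r lam a (twD r M) (s, t) = (χ s : ZMod p) * (-lam (a t * twConj r t M).trace) -
      (-lam (a (s * t) * twConj r (s * t) M).trace) + (-lam (a s * twConj r s M).trace) := by
  simp only [cupFun, twD_apply, mul_neg]
  rw [← lam_det_mul r lam χ hdet, ← map_neg, ← map_neg, ← map_neg, ← map_sub, ← map_add,
    ha.2 s t]
  congr 1
  rw [map_sub, mul_sub, Matrix.trace_sub, ← twConj_mul', add_mul, Matrix.trace_add,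
    twConj_mul' r s t M, trace_conj_mul_twConj]
  ring

end Cup

section Levels

/-- Functions constant on the cosets of a subgroup. -/
def levelFun {G : Type} [Group G] (N : Subgroup G) (R : Type) [Semiring R] (X : Type)
    [AddCommMonoid X] [Module R X] : Submodule R (G → X) where
  carrier := {f | ∀ g, ∀ n ∈ N, f (g * n) = f g}
  add_mem' h h' g n hn := by rw [Pi.add_apply, Pi.add_apply, h g n hn, h' g n hn]
  zero_mem' _ _ _ := rfl
  smul_mem' t _ h g n hn := by rw [Pi.smul_apply, Pi.smul_apply, h g n hn]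

theorem apply_out {G : Type} [Group G] {N : Subgroup G} [N.Normal] {X : Type} {f : G → X}
    (h : ∀ g, ∀ n ∈ N, f (g * n) = f g) (g : G) :
    f ((QuotientGroup.mk g : G ⧸ N).out) = f g := by
  obtain ⟨n, hn⟩ := QuotientGroup.mk_out_eq_mul N g
  rw [hn]
  exact h g n n.2

end Levels

section Pairing

variable {T : Finset Nat.Primes} {L : IntermediateField ℚ (AlgebraicClosure ℚ)}
  [L.fixingSubgroup.Normal] {p : ℕ} [Fact p.Prime] {k : Type} [Field k]

/-- The data of a level for a residual representation. -/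
structure LevelData (ρ : GQ →* M₂ k) (T : Finset Nat.Primes)
    (L : IntermediateField ℚ (AlgebraicClosure ℚ)) (p : ℕ) [Fact p.Prime] : Prop where
  lvl : IsLvl T L
  cyclo : ∀ s ∈ L.fixingSubgroup, cycloChar p s = 1
  trivial : ∀ s ∈ L.fixingSubgroup, ρ s = 1
  det : ∀ g, (ρ g).det = (((cycloChar p g : ZMod p).val : ℕ) : k)

variable {ρ : GQ →* M₂ k}

/-- Local adjoint cocycles of the level. -/
def levAd (ρ : GQ →* M₂ k) (L : IntermediateField ℚ (AlgebraicClosure ℚ)) (q : Nat.Primes) :
    Submodule k (LocGal q → M₂ k) :=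
  adCocycles (ρ.comp (loc q)) ⊓ levelFun (L.fixingSubgroup.comap (loc q)) k (M₂ k)

/-- Local twisted cocycles of the level. -/
def levTw (ρ : GQ →* M₂ k) (L : IntermediateField ℚ (AlgebraicClosure ℚ)) (q : Nat.Primes) :
    Submodule k (LocGal q → M₂ k) :=
  twCocycles (ρ.comp (loc q)) ⊓ levelFun (L.fixingSubgroup.comap (loc q)) k (M₂ k)

omit [L.fixingSubgroup.Normal] in
theorem adD_mem_levAd (h : LevelData ρ T L p) (q : Nat.Primes) {M : M₂ k} (hM : M.trace = 0) :
    adD (ρ.comp (loc q)) M ∈ levAd ρ L q := by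
  refine ⟨⟨fun g => ?_, fun g g' => ?_⟩, fun g n hn => ?_⟩
  · rw [adD_apply, Matrix.trace_sub, hM, sub_zero, Matrix.trace_mul_cycle, rep_inv_mul, one_mul, hM]
  · simp only [adD_apply, mul_inv_rev, map_mul, mul_sub, sub_mul, mul_assoc]
    abel
  · have h1 : (ρ.comp (loc q)) n = 1 := h.trivial _ hn
    have h2 : (ρ.comp (loc q)) n⁻¹ = 1 := h.trivial _ (by rw [map_inv]; exact inv_mem hn)
    simp only [adD_apply, mul_inv_rev, map_mul, h1, h2, mul_one, one_mul]

omit [L.fixingSubgroup.Normal] in
theorem twD_mem_levTw (h : LevelData ρ T L p) (q : Nat.Primes) {M : M₂ k} (hM : M.trace = 0) :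
    twD (ρ.comp (loc q)) M ∈ levTw ρ L q := by
  refine ⟨⟨fun g => ?_, fun g g' => ?_⟩, fun g n hn => ?_⟩
  · rw [twD_apply, twConj_apply, Matrix.trace_sub, hM, sub_zero, Matrix.trace_smul,
      Matrix.trace_mul_cycle, rep_inv_mul, one_mul, hM, smul_zero]
  · simp only [twD_apply, map_sub, twConj_mul']
    abel
  · have h1 : (ρ.comp (loc q)) n = 1 := h.trivial _ hn
    have h2 : (ρ.comp (loc q)) n⁻¹ = 1 := h.trivial _ (by rw [map_inv]; exact inv_mem hn)
    simp only [twD_apply, twConj_apply, mul_inv_rev, map_mul, h1, h2, mul_one, one_mul]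

/-- The `p`-torsion of the classes of the layer. -/
abbrev TorCls (L : IntermediateField ℚ (AlgebraicClosure ℚ)) [L.fixingSubgroup.Normal]
    (T : Finset Nat.Primes) (p : ℕ) : AddSubgroup (H2C (LayerGrp L) (LayerCls L T)) :=
  (nsmulAddMonoidHom (α := H2C (LayerGrp L) (LayerCls L T)) p).ker

/-- The local cup product on the layer. -/
def locCup (h : LevelData ρ T L p) (lam : k →+ ZMod p) (q : Nat.Primes)
    (a b : LocGal q → M₂ k) (y : LocLayer L q × LocLayer L q) : LocA L q :=
  zLoc h.cyclo q (cupFun (ρ.comp (loc q)) lam a b (y.1.out, y.2.out))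

theorem cupFun_level (h : LevelData ρ T L p) (lam : k →+ ZMod p) {q : Nat.Primes}
    {a b : LocGal q → M₂ k} (ha : a ∈ levAd ρ L q) (hb : b ∈ levTw ρ L q) (s t : LocGal q) :
    cupFun (ρ.comp (loc q)) lam a b
        ((QuotientGroup.mk s : LocLayer L q).out, (QuotientGroup.mk t : LocLayer L q).out) =
      cupFun (ρ.comp (loc q)) lam a b (s, t) := by
  simp only [cupFun, twConj_apply]
  rw [apply_out ha.2 s, apply_out hb.2 t]
  obtain ⟨n, hn⟩ := QuotientGroup.mk_out_eq_mul (locLev L q) s
  have h1 : (ρ.comp (loc q)) n = 1 := h.trivial _ n.2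
  have h2 : (ρ.comp (loc q)) (n : LocGal q)⁻¹ = 1 :=
    h.trivial _ (by rw [map_inv]; exact inv_mem n.2)
  rw [hn, mul_inv_rev, map_mul, map_mul, h1, h2, mul_one, one_mul]

theorem smul_zLoc_mk (h : LevelData ρ T L p) (q : Nat.Primes) (s : LocGal q) (x : ZMod p) :
    (QuotientGroup.mk s : LocLayer L q) • zLoc h.cyclo q x =
      zLoc h.cyclo q ((((cycloChar p).comp (loc q)) s : ZMod p) * x) := by
  rw [smul_zLoc, locIota_mk, layerCyclo_mk]
  rfl

theorem locCup_isCocycle (h : LevelData ρ T L p) (lam : k →+ ZMod p) {q : Nat.Primes}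
    {a b : LocGal q → M₂ k} (ha : a ∈ levAd ρ L q) (hb : b ∈ levTw ρ L q) :
    IsCocycle₂ (locCup h lam q a b) := by
  intro s t u
  induction s using QuotientGroup.induction_on with | H s => ?_
  induction t using QuotientGroup.induction_on with | H t => ?_
  induction u using QuotientGroup.induction_on with | H u => ?_
  simp only [locCup, ← QuotientGroup.mk_mul, cupFun_level h lam ha hb]
  rw [smul_zLoc_mk h q s]
  simp only [← map_add]
  exact congrArg _ (cupFun_cocycle _ lam ((cycloChar p).comp (loc q)) (fun s => h.det _)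
    ha.1 hb.1 s t u)

theorem nsmul_locCup (h : LevelData ρ T L p) (lam : k →+ ZMod p) (q : Nat.Primes)
    (a b : LocGal q → M₂ k) : p • locCup h lam q a b = 0 := funext fun y => by
  rw [Pi.smul_apply, locCup, ← map_nsmul, ZModModule.char_nsmul_eq_zero p, map_zero]
  rfl

/-- The class of a local cup product. -/
def pairingVal (h : LevelData ρ T L p) (lam : k →+ ZMod p) (q : ↥T)
    (a : levAd ρ L q.1) (b : levTw ρ L q.1) : TorCls L T p :=
  ⟨h2cls (placeMap_isCocycle h.lvl q (locCup_isCocycle h lam a.2 b.2)), by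
    have hz := placeMap_isCocycle h.lvl q (locCup_isCocycle h lam a.2 b.2)
    have hn := (Z2 (LayerGrp L) (LayerCls L T)).nsmul_mem hz p
    show p • h2cls hz = 0
    rw [show p • h2cls hz = h2cls hn from rfl]
    refine (h2cls_eq_zero_iff hn).2 ?_
    rw [← map_nsmul (placeMap h.lvl q), nsmul_locCup, map_zero]
    exact (B2 _ _).zero_mem⟩

theorem pairingVal_congr (h : LevelData ρ T L p) (lam : k →+ ZMod p) (q : ↥T)
    {a : levAd ρ L q.1} {b : levTw ρ L q.1} {a₁ a₂ : levAd ρ L q.1} {b₁ b₂ : levTw ρ L q.1}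
    (he : locCup h lam q.1 (a : LocGal q.1 → M₂ k) b =
      locCup h lam q.1 (a₁ : LocGal q.1 → M₂ k) b₁ + locCup h lam q.1 (a₂ : LocGal q.1 → M₂ k) b₂) :
    pairingVal h lam q a b = pairingVal h lam q a₁ b₁ + pairingVal h lam q a₂ b₂ := by
  refine Subtype.ext ?_
  rw [AddSubgroup.coe_add]
  simp only [pairingVal]
  rw [← h2cls_add]
  simp only [he, map_add]

theorem locCup_add_left (h : LevelData ρ T L p) (lam : k →+ ZMod p) (q : Nat.Primes)
    (a a' b : LocGal q → M₂ k) :
    locCup h lam q (a + a') b = locCup h lam q a b + locCup h lam q a' b := by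
  funext y
  simp only [locCup, cupFun_add_left, Pi.add_apply, map_add]

theorem locCup_add_right (h : LevelData ρ T L p) (lam : k →+ ZMod p) (q : Nat.Primes)
    (a b b' : LocGal q → M₂ k) :
    locCup h lam q a (b + b') = locCup h lam q a b + locCup h lam q a b' := by
  funext y
  simp only [locCup, cupFun_add_right, Pi.add_apply, map_add]

/-- The local pairing. -/
def pairing (h : LevelData ρ T L p) (lam : k →+ ZMod p) (q : ↥T) :
    ↥(levAd ρ L q.1) →+ ↥(levTw ρ L q.1) →+ TorCls L T p :=
  AddMonoidHom.mk' (fun a => AddMonoidHom.mk' (fun b => pairingVal h lam q a b)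
      fun b b' => pairingVal_congr h lam q (by rw [Submodule.coe_add, locCup_add_right]))
    fun a a' => AddMonoidHom.ext fun b =>
      pairingVal_congr h lam q (by rw [Submodule.coe_add, locCup_add_left])

theorem pairing_eq_zero_iff (h : LevelData ρ T L p) (lam : k →+ ZMod p) (q : ↥T)
    (a : levAd ρ L q.1) (b : levTw ρ L q.1) :
    pairing h lam q a b = 0 ↔ IsCoboundary₂ (placeMap h.lvl q (locCup h lam q.1 a b)) :=
  Subtype.ext_iff.trans (h2cls_eq_zero_iff _)

theorem pairing_eq_zero_of_coboundary (h : LevelData ρ T L p) (lam : k →+ ZMod p) (q : ↥T)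
    (a : levAd ρ L q.1) (b : levTw ρ L q.1) (u : LocGal q.1 → ZMod p)
    (hu : ∀ s, ∀ n ∈ locLev L q.1, u (s * n) = u s)
    (he : ∀ s t, cupFun (ρ.comp (loc q.1)) lam a b (s, t) =
      ((cycloChar p (loc q.1 s) : (ZMod p)ˣ) : ZMod p) * u t - u (s * t) + u s) :
    pairing h lam q a b = 0 := by
  rw [pairing_eq_zero_iff]
  refine placeMap_isCoboundary h.lvl q ⟨fun x => zLoc h.cyclo q.1 (u x.out), fun s t => ?_⟩
  induction s using QuotientGroup.induction_on with | H s => ?_
  induction t using QuotientGroup.induction_on with | H t => ?_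
  simp only [locCup, ← QuotientGroup.mk_mul]
  rw [cupFun_level h lam a.2 b.2, smul_zLoc_mk h q.1 s, apply_out hu, apply_out hu, apply_out hu,
    he, ← map_sub, ← map_add]
  rfl

/-- Coboundaries pair to zero. -/
theorem pairing_adD (h : LevelData ρ T L p) (lam : k →+ ZMod p) (q : ↥T) (a : levAd ρ L q.1)
    (M : M₂ k) (ha : (a : LocGal q.1 → M₂ k) = adD (ρ.comp (loc q.1)) M)
    (b : levTw ρ L q.1) : pairing h lam q a b = 0 :=
  pairing_eq_zero_of_coboundary h lam q a b
    (fun t => lam (M * (b : LocGal q.1 → M₂ k) t).trace)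
    (fun s n hn => by simp only [b.2.2 s n hn]) fun s t => by
      rw [ha]
      exact cupFun_adD _ lam ((cycloChar p).comp (loc q.1)) (fun s => h.det _) b.2.1 M s t

theorem pairing_twD (h : LevelData ρ T L p) (lam : k →+ ZMod p) (q : ↥T) (a : levAd ρ L q.1)
    (M : M₂ k) (b : levTw ρ L q.1)
    (hb : (b : LocGal q.1 → M₂ k) = twD (ρ.comp (loc q.1)) M) : pairing h lam q a b = 0 :=
  pairing_eq_zero_of_coboundary h lam q a b
    (fun t => -lam ((a : LocGal q.1 → M₂ k) t * twConj (ρ.comp (loc q.1)) t M).trace)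
    (fun s n hn => by
      have h1 : (ρ.comp (loc q.1)) n = 1 := h.trivial _ hn
      have h2 : (ρ.comp (loc q.1)) n⁻¹ = 1 := h.trivial _ (by rw [map_inv]; exact inv_mem hn)
      simp only [a.2.2 s n hn, twConj_apply, mul_inv_rev, map_mul, h1, h2, mul_one, one_mul])
    fun s t => by
      rw [hb]
      exact cupFun_twD _ lam ((cycloChar p).comp (loc q.1)) (fun s => h.det _) a.2.1 M s t

/-- **Reciprocity** for a global adjoint and a global twisted class of the level. -/
theorem sum_pairing_eq_zero (h : LevelData ρ T L p) (lam : k →+ ZMod p) {c y : GQ → M₂ k}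
    (hc : c ∈ adCocycles ρ) (hc' : ∀ g, ∀ n ∈ L.fixingSubgroup, c (g * n) = c g)
    (hy : y ∈ twCocycles ρ) (hy' : ∀ g, ∀ n ∈ L.fixingSubgroup, y (g * n) = y g)
    (a : ∀ q : ↥T, levAd ρ L q.1) (ha : ∀ q : ↥T, ∀ t, (a q : LocGal q.1 → M₂ k) t = c (loc q.1 t))
    (b : ∀ q : ↥T, levTw ρ L q.1) (hb : ∀ q : ↥T, ∀ t, (b q : LocGal q.1 → M₂ k) t = y (loc q.1 t)) :
    ∑ q : ↥T, pairing h lam q (a q) (b q) = 0 := by
  have hlev : ∀ g g' : GQ, cupFun ρ lam c y ((QuotientGroup.mk g : LayerGrp L).out,
      (QuotientGroup.mk g' : LayerGrp L).out) = cupFun ρ lam c y (g, g') := by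
    intro g g'
    simp only [cupFun, twConj_apply]
    rw [apply_out hc' g, apply_out hy' g']
    obtain ⟨n, hn⟩ := QuotientGroup.mk_out_eq_mul L.fixingSubgroup g
    rw [hn, mul_inv_rev, map_mul, map_mul, h.trivial _ n.2, h.trivial _ (inv_mem n.2), mul_one,
      one_mul]
  let G : LayerGrp L × LayerGrp L → ZMod p := fun x => cupFun ρ lam c y (x.1.out, x.2.out)
  have hG : ∀ s t u, G (s * t, u) + G (s, t) =
      (layerCyclo h.cyclo s : ZMod p) * G (t, u) + G (s, t * u) := by
    intro s t u
    induction s using QuotientGroup.induction_on with | H s => ?_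
    induction t using QuotientGroup.induction_on with | H t => ?_
    induction u using QuotientGroup.induction_on with | H u => ?_
    simp only [G, ← QuotientGroup.mk_mul, hlev, layerCyclo_mk]
    exact cupFun_cocycle ρ lam (cycloChar p) h.det hc hy s t u
  have key := isCoboundary_sum_placeMap h.lvl h.cyclo G hG
  have hloc : ∀ q : ↥T, (fun x => zLoc h.cyclo q.1 (G (locIota L q.1 x.1, locIota L q.1 x.2))) =
      locCup h lam q.1 (a q : LocGal q.1 → M₂ k) (b q) := fun q => funext fun x => by
    obtain ⟨s, t⟩ := x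
    induction s using QuotientGroup.induction_on with | H s => ?_
    induction t using QuotientGroup.induction_on with | H t => ?_
    simp only [G, locCup, locIota_mk, hlev, cupFun_level h lam (a q).2 (b q).2]
    congr 1
    simp only [cupFun, ha, hb, twConj_apply, MonoidHom.comp_apply, map_inv]
  simp only [hloc] at key
  refine Subtype.ext ?_
  rw [AddSubmonoidClass.coe_finsetSum, ZeroMemClass.coe_zero]
  have hc2 : IsCocycle₂ (∑ q : ↥T, placeMap h.lvl q (locCup h lam q.1 (a q) (b q))) :=
    AddSubgroup.sum_mem (Z2 (LayerGrp L) (LayerCls L T))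
      (f := fun q : ↥T => placeMap h.lvl q (locCup h lam q.1 (a q) (b q))) (t := Finset.univ)
      fun q _ => placeMap_isCocycle h.lvl q (locCup_isCocycle h lam (a q).2 (b q).2)
  rw [← (h2cls_eq_zero_iff hc2).2 key]
  show ∑ q : ↥T, QuotientAddGroup.mk' _ _ = QuotientAddGroup.mk' _ _
  rw [← map_sum]
  exact congrArg _ (Subtype.ext (AddSubmonoidClass.coe_finsetSum _ _))

end Pairing

end Fermat.Agent.TW.Recip
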