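/-
The common level of the reciprocity inequality: it sees the representation, finitely many classes
and the auxiliary data at the auxiliary primes.
-/
import Fermat.Agent.TW.RecipPairing
import Fermat.Agent.TW.RecipNonvanish
import Fermat.Agent.PoitouTate.GlobalKummer
import Fermat.Agent.PoitouTate.GlobalPrincipalize
import Fermat.Agent.PoitouTate.ClassLevels

set_option autoImplicit false

open ExtCitation Fermat.Agent.PoitouTate

noncomputable section

namespace Fermat.Agent.TW.Recip

local notation "Qb" => AlgebraicClosure ℚ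
local notation "M₂" k => Matrix (Fin 2) (Fin 2) k

variable {T : Finset Nat.Primes} {p : ℕ} [Fact p.Prime]

theorem valuation_natCast_eq_one {A : ValuationSubring Qb} {q : ℕ} (hA : A.LiesOverPrime q)
    {n : ℕ} (hn : q.Coprime n) : A.valuation (n : Qb) = 1 := by
  have hnA : (n : Qb) ∈ A := natCast_mem A n
  refine le_antisymm ((A.valuation_le_one_iff _).2 hnA) (not_lt.1 fun hlt => ?_)
  have h1 : (n : Qb) ∈ A.nonunits := (ValuationSubring.mem_nonunits_iff A).2 hlt
  obtain ⟨a, b, hab⟩ : ∃ a b : ℤ, a * q + b * n = 1 :=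
    (Nat.isCoprime_iff_coprime.2 hn : IsCoprime (q : ℤ) n)
  have e := congrArg (fun x : ℤ => A.valuation (x : Qb)) hab
  simp only [Int.cast_add, Int.cast_mul, Int.cast_natCast, Int.cast_one, map_one] at e
  refine absurd e (ne_of_lt (lt_of_le_of_lt (Valuation.map_add _ _ _) (max_lt ?_ ?_)))
  · rw [map_mul]
    exact lt_of_le_of_lt (mul_le_of_le_one_left' ((A.valuation_le_one_iff _).2 (intCast_mem A a)))
      ((ValuationSubring.mem_nonunits_iff A).1 hA)
  · rw [map_mul]
    exact lt_of_le_of_lt (mul_le_of_le_one_left' ((A.valuation_le_one_iff _).2 (intCast_mem A b)))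
      hlt

/-- Roots of primes of `T` and cyclotomic levels are unramified outside `T`. -/
theorem exists_auxLevel {q : ↥T} (X : AuxData T p q) :
    ∃ F : IntermediateField ℚ Qb, F.IsUnramifiedOutside T ∧
      (∀ s ∈ F.fixingSubgroup, X.theta s = 1) ∧ ∀ s ∈ F.fixingSubgroup, s X.root = X.root := by
  obtain ⟨E, hE, hEθ⟩ := exists_cycLevel X.pp (X.e + 1) X.lam
  have hr : X.root ≠ 0 := fun h => by
    have h2 := X.root_pow
    rw [h, zero_pow (Fact.out : p.Prime).ne_zero] at h2
    exact Nat.cast_ne_zero.2 q.1.2.ne_zero h2.symm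
  refine ⟨_, isUnramifiedOutside_sup_adjoin_of_unit X.mem hE.unramified hr 1 ?_ ?_, fun s hs => ?_,
    fun s hs => ?_⟩
  · rw [pow_one, X.root_pow]
    exact natCast_mem E _
  · intro q' hq' A hA
    rw [pow_one, X.root_pow]
    exact valuation_natCast_eq_one hA
      ((Nat.coprime_primes q'.2 q.1.2).2 fun h => hq' (by rw [Subtype.ext h]; exact q.2))
  · exact hEθ (IntermediateField.fixingSubgroup_antitone le_sup_left hs)
  · exact (IntermediateField.mem_fixingSubgroup_iff _ _).1 hs _
      ((le_sup_right : _ ≤ E ⊔ _) (IntermediateField.subset_adjoin ℚ _ rfl))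

/-- A field through which finitely many functions vanishing on inertia outside `T` factor. -/
theorem exists_level_of_subgroup {K : Subgroup GQ} {E : IntermediateField ℚ Qb}
    [FiniteDimensional ℚ E] (hE : E.fixingSubgroup ≤ K)
    (hK : ∀ q : Nat.Primes, q ∉ T → ∀ A : ValuationSubring Qb, A.LiesOverPrime (q : ℕ) →
      A.inertiaSubgroupIn ℚ ≤ K) :
    ∃ F : IntermediateField ℚ Qb, F.IsUnramifiedOutside T ∧ F.fixingSubgroup ≤ K := by
  have hfix : (IntermediateField.fixedField K).fixingSubgroup = K :=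
    InfiniteGalois.fixingSubgroup_fixedField
      (⟨K, isClosed_of_fixing_le hE⟩ : ClosedSubgroup GQ)
  have hle : IntermediateField.fixedField K ≤ E := by
    intro x hx
    rw [← InfiniteGalois.fixedField_fixingSubgroup E]
    exact fun s => hx ⟨s.1, hE s.2⟩
  exact ⟨_, ⟨FiniteDimensional.of_injective (IntermediateField.inclusion hle).toLinearMap
    (IntermediateField.inclusion_injective hle), fun q hq A hA => by
      rw [hfix]; exact hK q hq A hA⟩, hfix.le⟩

variable {k : Type} [Field k] [CharP k p] (ρ : GQ →* M₂ k)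

/-- **The common level.** -/
theorem exists_recipLevel {ι : Type} [Finite ι] (c : ι → GQ → M₂ k)
    (hdet : ∀ g, (ρ g).det = (((cycloChar p g : ZMod p).val : ℕ) : k))
    (hρfin : GaloisFactorsThroughFiniteLevel ρ)
    (hρ : ∀ q : Nat.Primes, q ∉ T → ∀ A : ValuationSubring Qb, A.LiesOverPrime (q : ℕ) →
      ∀ s ∈ A.inertiaSubgroupIn ℚ, ρ s = 1)
    (hmul : ∀ i, ∀ g n, ρ n = 1 → c i n = 0 → c i (g * n) = c i g)
    (hone : ∀ i, c i 1 = 0)
    (hfin : ∀ i, ∃ E : IntermediateField ℚ Qb, FiniteDimensional ℚ E ∧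
      ∀ g s, (∀ x ∈ E, s x = x) → c i (g * s) = c i g)
    (hram : ∀ i, ∀ q : Nat.Primes, q ∉ T → ∀ A : ValuationSubring Qb, A.LiesOverPrime (q : ℕ) →
      ∀ s ∈ A.inertiaSubgroupIn ℚ, c i s = 0)
    {κ : Type} [Finite κ] (q : κ → ↥T) (X : ∀ j, AuxData T p (q j)) :
    ∃ L : IntermediateField ℚ Qb, L.fixingSubgroup.Normal ∧ LevelData ρ T L p ∧
      (∀ j, (X j).InLevel L) ∧ ∀ i, ∀ g, ∀ n ∈ L.fixingSubgroup, c i (g * n) = c i g := by
  classical
  have := Fintype.ofFinite κ
  let K : Subgroup GQ :=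
    { carrier := {g | ρ g = 1 ∧ ∀ i, c i g = 0}
      one_mem' := ⟨map_one ρ, hone⟩
      mul_mem' := fun {a b} ha hb => ⟨by rw [map_mul, ha.1, hb.1, one_mul],
        fun i => (hmul i a b hb.1 (hb.2 i)).trans (ha.2 i)⟩
      inv_mem' := fun {a} ha => ⟨by
          have := rep_inv_mul ρ a
          rwa [ha.1, mul_one] at this,
        fun i => by
          have := hmul i a⁻¹ a ha.1 (ha.2 i)
          rw [inv_mul_cancel, hone] at this
          exact this.symm⟩ }
  obtain ⟨E₀, hE₀, hE₀ρ⟩ := hρfin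
  choose E hE hEc using hfin
  have := hE₀
  have := hE
  have hEK : (E₀ ⊔ ⨆ i, E i).fixingSubgroup ≤ K := fun s hs => by
    refine ⟨hE₀ρ s ((IntermediateField.mem_fixingSubgroup_iff _ _).1
      (IntermediateField.fixingSubgroup_antitone le_sup_left hs)), fun i => ?_⟩
    have h := hEc i 1 s ((IntermediateField.mem_fixingSubgroup_iff _ _).1
      (IntermediateField.fixingSubgroup_antitone ((le_iSup E i).trans le_sup_right) hs))
    rwa [one_mul, hone] at h
  obtain ⟨F, hF, hFK⟩ := exists_level_of_subgroup (T := T) hEK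
    fun q hq A hA s hs => ⟨hρ q hq A hA s hs, fun i => hram i q hq A hA s hs⟩
  choose G hG hGθ hGr using fun j => exists_auxLevel (X j)
  have hsup : (F ⊔ Finset.univ.sup G).IsUnramifiedOutside T :=
    hF.sup (Finset.sup_induction (p := fun F : IntermediateField ℚ Qb => F.IsUnramifiedOutside T)
      (IntermediateField.isUnramifiedOutside_bot T) (fun _ ha _ hb => ha.sup hb) fun j _ => hG j)
  obtain ⟨L, hL, hLn, hle⟩ := exists_normal_isUnramifiedOutside_ge hsup
  have hlvl := isLvl_of_normal hL hLn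
  have hLK : L.fixingSubgroup ≤ K :=
    (IntermediateField.fixingSubgroup_antitone (le_sup_left.trans hle)).trans hFK
  have hLG : ∀ j, L.fixingSubgroup ≤ (G j).fixingSubgroup := fun j =>
    IntermediateField.fixingSubgroup_antitone
      (((Finset.le_sup (f := G) (Finset.mem_univ j)).trans le_sup_right).trans hle)
  have hcyc : ∀ s ∈ L.fixingSubgroup, cycloChar p s = 1 := fun s hs => by
    have h := hdet s
    rw [(hLK hs).1, Matrix.det_one, ← Nat.cast_one, CharP.natCast_eq_natCast k p,
      ← ZMod.natCast_eq_natCast_iff, ZMod.natCast_zmod_val, Nat.cast_one] at h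
    exact Units.ext h.symm
  exact ⟨L, hlvl.normal, ⟨hlvl, hcyc, fun s hs => (hLK hs).1, hdet⟩,
    fun j => ⟨hlvl, hcyc, fun s hs => hGθ j s (hLG j hs), fun s hs => hGr j s (hLG j hs)⟩,
    fun i g n hn => hmul i g n (hLK hn).1 ((hLK hn).2 i)⟩

end Fermat.Agent.TW.Recip
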