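/-
At a Taylor-Wiles prime the local pairing of adjoint and twisted adjoint classes has no left
orthogonal: a twisted class pairing to zero with all adjoint classes of the level is trivial.
-/
import Fermat.Agent.TW.RecipPairing
import Fermat.Agent.TW.RecipNonvanish
import Fermat.Agent.TW.LocalConditions

set_option autoImplicit false

open groupCohomology ExtCitation Fermat.Agent.PoitouTate

noncomputable section

namespace Fermat.Agent.TW.Recip

local notation "M₂" k => Matrix (Fin 2) (Fin 2) k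

section Algebra

open Polynomial

variable {k : Type} [Field k]

/-- The trace zero part, doubled. -/
def tracelessPart (A : M₂ k) : M₂ k := A + A - A.trace • 1

theorem trace_tracelessPart (A : M₂ k) : (tracelessPart A).trace = 0 := by
  simp [tracelessPart, Matrix.trace_fin_two]
  ring

theorem trace_sq_tracelessPart {A : M₂ k} {α β : k}
    (h : A.charpoly = (X - C α) * (X - C β)) :
    (tracelessPart A * tracelessPart A).trace = 2 * (α - β) ^ 2 := by
  rw [Matrix.charpoly_fin_two] at h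
  have e1 := congrArg (fun f => f.coeff 1) h
  have e0 := congrArg (fun f => f.coeff 0) h
  simp [Matrix.trace_fin_two, Matrix.det_fin_two, mul_sub, sub_mul] at e1 e0
  simp [tracelessPart, Matrix.trace_fin_two, Matrix.mul_apply, Fin.sum_univ_two]
  linear_combination (-2 * (α + β) - 2 * (A 0 0 + A 1 1)) * e1 - 8 * e0

theorem commute_tracelessPart {A B : M₂ k} (h : Commute B A) : Commute B (tracelessPart A) :=
  (h.add_right h).sub_right ((Commute.one_right B).smul_right _)

end Algebra

/-- An unramified representation of finite level has commutative image. -/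
theorem commute_of_unramified {p q : ℕ} [Fact p.Prime] [Fact q.Prime] (hqp : q ≠ p) {k : Type}
    [Field k] {r : GalQp q →* M₂ k} (hfin : IsFiniteLevel q r)
    (hunr : ∀ g ∈ inertiaQp q, r g = 1) (s t : GalQp q) : Commute (r s) (r t) := by
  obtain ⟨τ, hτ⟩ := LocalCondB.exists_isTameGen (q := q) (Fact.out : p.Prime) hqp
  obtain ⟨F, hF⟩ := LocalCondB.exists_isFrobQp (q := q)
  obtain ⟨-, -, hgen⟩ := hτ.relations F hF _ r.toHomUnits
    (LocalCondB.isFiniteLevel_toHomUnits hfin)
    fun h hh => ⟨0, by rw [pow_zero, pow_one]; exact Units.ext (hunr h hh)⟩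
  have h1 : r.toHomUnits τ = 1 := Units.ext (hunr τ hτ.mem)
  have hz : ∀ g, r.toHomUnits g ∈ Subgroup.zpowers (r.toHomUnits F) := fun g => by
    refine (Subgroup.closure_le _).2 ?_ (hgen g)
    rintro _ (rfl | rfl)
    · exact Subgroup.mem_zpowers _
    · rw [h1]
      exact one_mem _
  obtain ⟨i, hi⟩ := Subgroup.mem_zpowers_iff.1 (hz s)
  obtain ⟨j, hj⟩ := Subgroup.mem_zpowers_iff.1 (hz t)
  have := congrArg Units.val ((Commute.zpow_zpow_self (r.toHomUnits F) i j).eq)
  rw [hi, hj, Units.val_mul, Units.val_mul] at this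
  exact this

variable {p : ℕ} [Fact p.Prime] {k : Type} [Field k] [CharP k p]

theorem lam_castHom_mul (lam : k →+ ZMod p) (x : ZMod p) (c : k) :
    lam (ZMod.castHom (dvd_refl p) k x * c) = x * lam c := by
  rw [← ZMod.natCast_zmod_val x, map_natCast, ← nsmul_eq_mul, map_nsmul, nsmul_eq_mul,
    ZMod.natCast_zmod_val]

variable {T : Finset Nat.Primes} {L : IntermediateField ℚ (AlgebraicClosure ℚ)}
  [L.fixingSubgroup.Normal] {q : ↥T} {ρ : GQ →* M₂ k}

section Scalar

/-- A character times a fixed matrix. -/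
def charMat (χ : LocGal q.1 → ZMod p) (H : M₂ k) (t : LocGal q.1) : M₂ k :=
  ZMod.castHom (dvd_refl p) k (χ t) • H

omit [L.fixingSubgroup.Normal] in
theorem charMat_mem_levAd {χ : LocGal q.1 → ZMod p} (hmul : ∀ s t, χ (s * t) = χ s + χ t)
    (hlev : ∀ t, ∀ n ∈ locLev L q.1, χ (t * n) = χ t) {H : M₂ k} (hH : H.trace = 0)
    (hcomm : ∀ t, Commute ((ρ.comp (loc q.1)) t) H) :
    charMat χ H ∈ levAd ρ L q.1 := by
  refine ⟨⟨fun g => ?_, fun g g' => ?_⟩, fun g n hn => ?_⟩
  · rw [charMat, Matrix.trace_smul, hH, smul_zero]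
  · simp only [charMat, hmul, map_add, add_smul, mul_smul_comm, smul_mul_assoc]
    rw [(hcomm g).eq, mul_assoc H, ← map_mul, mul_inv_cancel, map_one, mul_one]
  · rw [charMat, charMat, hlev g n hn]

end Scalar

omit [CharP k p] [L.fixingSubgroup.Normal] [Fact p.Prime] in
theorem levTw_eq_levAd (hdet : ∀ t, ((ρ.comp (loc q.1)) t).det = 1) :
    levTw ρ L q.1 = levAd ρ L q.1 := by
  ext b
  simp only [levTw, levAd, Submodule.mem_inf, mem_twCocycles_iff, mem_adCocycles_iff,
    twConj_apply, hdet, one_smul]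

variable (h : LevelData ρ T L p) (X : AuxData T p q)

include h X in
omit [CharP k p] [L.fixingSubgroup.Normal] in
theorem det_loc (t : LocGal q.1) : ((ρ.comp (loc q.1)) t).det = 1 := by
  rw [MonoidHom.comp_apply, h.det, X.cycloChar_loc, Units.val_one, ZMod.val_one, Nat.cast_one]

/-- The image of a bilinear form in the two characters is a coboundary only if its mixed
coefficient vanishes. -/
theorem eq_zero_of_isCoboundary {u : LayerGrp L × LayerGrp L → LayerCls L T}
    (hu : IsClassModule p (LayerGrp L) (LayerCls L T) u) (hp2 : p ≠ 2) (hX : X.InLevel L)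
    (c : ZMod p) (f : LocGal q.1 → LocGal q.1 → ZMod p) (w : LocGal q.1 → ZMod p)
    (hw : ∀ s, ∀ n ∈ locLev L q.1, w (s * n) = w s)
    (hf : ∀ s t, f s t = c * (X.chiK s * X.chiU t) + (w t - w (s * t) + w s))
    (hcob : IsCoboundary₂ (placeMap hX.lvl q fun y : LocLayer L q.1 × LocLayer L q.1 =>
      zLoc hX.cyclo q.1 (f y.1.out y.2.out))) : c = 0 := by
  by_contra hc
  have h1 : IsCoboundary₂ (placeMap hX.lvl q fun y : LocLayer L q.1 × LocLayer L q.1 =>
      zLoc hX.cyclo q.1 (w y.2.out - w (y.1.out * y.2.out) + w y.1.out)) := by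
    refine placeMap_isCoboundary hX.lvl q ⟨fun x => zLoc hX.cyclo q.1 (w x.out), fun s t => ?_⟩
    induction s using QuotientGroup.induction_on with | H s => ?_
    induction t using QuotientGroup.induction_on with | H t => ?_
    obtain ⟨n, hn⟩ := QuotientGroup.mk_out_eq_mul (locLev L q.1) s
    obtain ⟨m, hm⟩ := QuotientGroup.mk_out_eq_mul (locLev L q.1) t
    beta_reduce
    rw [← QuotientGroup.mk_mul, apply_out hw, apply_out hw, apply_out hw, smul_zLoc,
      locIota_mk, layerCyclo_mk, X.cycloChar_loc, Units.val_one, one_mul, ← map_sub, ← map_add]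
    congr 1
    rw [hn, hm]
    have : w (s * n * (t * m)) = w (s * t) := by
      rw [show s * (n : LocGal q.1) * (t * m) = s * t * (t⁻¹ * n * t * m) by group]
      exact hw _ _ (mul_mem ((inferInstance : (locLev L q.1).Normal).conj_mem' _ n.2 t) m.2)
    rw [this]
  have h2 := (B2 (LayerGrp L) (LayerCls L T)).nsmul_mem
    ((B2 _ _).sub_mem (mem_B2.2 hcob) (mem_B2.2 h1)) c⁻¹.val
  rw [← map_sub, ← map_nsmul] at h2
  refine X.not_isCoboundary hu hp2 hX ?_
  refine (congrArg (fun F => IsCoboundary₂ (placeMap hX.lvl q F)) (funext fun y => ?_)).mp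
    (mem_B2.1 h2)
  simp only [Pi.smul_apply, Pi.sub_apply, ← map_sub, ← map_nsmul, hf, add_sub_cancel_right,
    nsmul_eq_mul, ZMod.natCast_zmod_val, inv_mul_cancel_left₀ hc]

omit [CharP k p] [L.fixingSubgroup.Normal] in
theorem isFiniteLevel_of_level {E : Type} (hL : IsLvl T L) {f : LocGal q.1 → E}
    (hf : ∀ g, ∀ n ∈ locLev L q.1, f (g * n) = f g) : IsFiniteLevel (q.1 : ℕ) f := by
  have := hL.numberField
  obtain ⟨F, hF, hfix⟩ := exists_localLevel (q.1 : ℕ) L
  exact ⟨F, hF, fun g s hs => hf g s ((IntermediateField.mem_fixingSubgroup_iff _ _).2 (hfix s hs))⟩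

include X in
omit [CharP k p] [L.fixingSubgroup.Normal] in
theorem commute_tracelessPart_loc (hfin : IsFiniteLevel (q.1 : ℕ) (ρ.comp (loc q.1)))
    (hunr : ∀ g ∈ inertiaQp (q.1 : ℕ), (ρ.comp (loc q.1)) g = 1) (g₀ t : LocGal q.1) :
    Commute ((ρ.comp (loc q.1)) t) (tracelessPart ((ρ.comp (loc q.1)) g₀)) :=
  commute_tracelessPart (commute_of_unramified X.ne_prime hfin hunr t g₀)

include h in
/-- The two characters and the coboundaries fill the local adjoint cocycles. -/
theorem exists_eq_adD_add [Finite k] {u : LayerGrp L × LayerGrp L → LayerCls L T}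
    (hu : IsClassModule p (LayerGrp L) (LayerCls L T) u) (hp2 : p ≠ 2) (hX : X.InLevel L)
    (hunr : ∀ g ∈ inertiaQp (q.1 : ℕ), (ρ.comp (loc q.1)) g = 1)
    (g₀ : LocGal q.1) {α β : k} (hαβ : α ≠ β)
    (hg₀ : ((ρ.comp (loc q.1)) g₀).charpoly =
        (Polynomial.X - Polynomial.C α) * (Polynomial.X - Polynomial.C β))
    (c : LocGal q.1 → M₂ k) (hc : c ∈ levAd ρ L q.1) :
    ∃ (M : trZero k) (x y : k), c = adD (ρ.comp (loc q.1)) (M : M₂ k) +
      (x • charMat X.chiU (tracelessPart ((ρ.comp (loc q.1)) g₀)) +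
        y • charMat X.chiK (tracelessPart ((ρ.comp (loc q.1)) g₀))) := by
  set r := ρ.comp (loc q.1) with hr
  set ι := ZMod.castHom (dvd_refl p) k with hι
  have h2 : (2 : k) ≠ 0 := fun h' => hp2 ((Nat.prime_dvd_prime_iff_eq (Fact.out : p.Prime)
    Nat.prime_two).mp ((CharP.cast_eq_zero_iff k p 2).mp (by exact_mod_cast h')))
  have h2p : (2 : ZMod p) ≠ 0 := fun h' => hp2 ((Nat.prime_dvd_prime_iff_eq (Fact.out : p.Prime)
    Nat.prime_two).mp ((ZMod.natCast_eq_zero_iff 2 p).mp (by exact_mod_cast h')))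
  have hfin : IsFiniteLevel (q.1 : ℕ) r := isFiniteLevel_of_level h.lvl fun g n hn => by
    rw [map_mul, show r n = 1 from h.trivial _ hn, mul_one]
  set H := tracelessPart (r g₀) with hH
  have hH0 : H.trace = 0 := trace_tracelessPart _
  have hcomm : ∀ t, Commute (r t) H := commute_tracelessPart_loc X hfin hunr g₀
  have hN : (H * H).trace ≠ 0 := by
    rw [hH, trace_sq_tracelessPart hg₀]
    exact mul_ne_zero h2 (pow_ne_zero _ (sub_ne_zero.2 hαβ))
  have hχU : charMat X.chiU H ∈ levAd ρ L q.1 :=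
    charMat_mem_levAd X.chiU_mul (fun t _ hn => X.chiU_level hX t hn) hH0 hcomm
  have hχK : charMat X.chiK H ∈ levAd ρ L q.1 :=
    charMat_mem_levAd X.chiK_mul (fun t _ hn => X.chiK_level hX t hn) hH0 hcomm
  have hsq : ∀ χ : LocGal q.1 → ZMod p, (∀ s t, χ (s * t) = χ s + χ t) → ∀ (c : ZMod p) s t,
      c * (χ s * χ t) = -(2⁻¹ * c) * (χ t * χ t) - -(2⁻¹ * c) * (χ (s * t) * χ (s * t)) +
        -(2⁻¹ * c) * (χ s * χ s) := fun χ hχ c s t => by
    rw [hχ s t]
    linear_combination (-(c * χ s * χ t)) * (inv_mul_cancel₀ h2p)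
  have hUlev : ∀ (c : ZMod p) s, ∀ n ∈ locLev L q.1,
      -(2⁻¹ * c) * (X.chiU (s * n) * X.chiU (s * n)) = -(2⁻¹ * c) * (X.chiU s * X.chiU s) :=
    fun c s n hn => by rw [X.chiU_level hX s hn]
  -- the space of the characters fills the cocycles
  let Φ : (trZero k × k × k) →ₗ[k] (LocGal q.1 → M₂ k) :=
    LinearMap.coprod ((adD r).comp (trZero k).subtype)
      (LinearMap.coprod (LinearMap.toSpanSingleton k _ (charMat X.chiU H))
        (LinearMap.toSpanSingleton k _ (charMat X.chiK H)))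
  have hΦ : ∀ m, Φ m = adD r (m.1 : M₂ k) +
      (m.2.1 • charMat X.chiU H + m.2.2 • charMat X.chiK H) := fun m => rfl
  have hrange : LinearMap.range Φ ≤ levAd ρ L q.1 := by
    rintro _ ⟨m, rfl⟩
    rw [hΦ]
    exact add_mem (adD_mem_levAd h q.1 m.1.2)
      (add_mem (Submodule.smul_mem _ _ hχU) (Submodule.smul_mem _ _ hχK))
  have hle : levAd ρ L q.1 ≤ ctsCocycles (q.1 : ℕ) r := fun c hc => ⟨hc.1, isFiniteLevel_of_level h.lvl hc.2⟩
  have hq1 : ((q.1 : ℕ) : k) = 1 := by
    rw [← Nat.cast_one, CharP.natCast_eq_natCast k p]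
    exact X.modEq_one
  obtain ⟨hfd, hdim⟩ := finrank_ctsCocycles_le_four p (q.1 : ℕ) r hp2 X.ne_prime hq1 hfin hunr
    ⟨g₀, α, β, hαβ, hg₀⟩
  have hinv : H ∈ adInvariants r := ⟨hH0, fun t => (hcomm t).eq⟩
  have hH1 : H ≠ 0 := fun e => hN (by rw [e, mul_zero, Matrix.trace_zero])
  have hinv1 : adInvariants r ≤ k ∙ H := by
    refine le_of_eq (Submodule.eq_of_le_of_finrank_le
      ((Submodule.span_singleton_le_iff_mem _ _).2 hinv) ?_).symm
    rw [finrank_span_singleton hH1]
    exact finrank_adInvariants_le_one r h2 g₀ hαβ hg₀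
  have hindep : ∀ m, Φ m = 0 → m.2.1 = 0 ∧ m.2.2 = 0 := by
    rintro ⟨M, s, t⟩ hm
    have key : ∀ g, s * ι (X.chiU g) + t * ι (X.chiK g) = 0 := fun g => by
      have e := congrArg (fun f : LocGal q.1 → M₂ k => (H * f g).trace) hm
      simp only [hΦ, Pi.add_apply, Pi.zero_apply, Pi.smul_apply, charMat, mul_add,
        Matrix.trace_add, mul_zero, Matrix.trace_zero, mul_smul_comm, Matrix.trace_smul,
        smul_eq_mul, adD_apply, mul_sub, Matrix.trace_sub] at e
      rw [show H * (r g * (M : M₂ k) * r g⁻¹) = r g * (H * (M : M₂ k)) * r g⁻¹ by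
          simp only [← mul_assoc, (hcomm g).eq],
        Matrix.trace_mul_cycle, rep_inv_mul, one_mul, sub_self, zero_add, ← mul_assoc,
        ← mul_assoc, ← add_mul] at e
      exact (mul_eq_zero.1 e).resolve_right hN
    obtain ⟨g₁, hg₁⟩ := X.exists_chiU_ne_zero
    have ht : t = 0 := by
      by_contra ht
      have hμ : ∀ g, X.chiK g = X.chiK g₁ * (X.chiU g₁)⁻¹ * X.chiU g := fun g => by
        have e : ι (X.chiU g₁ * X.chiK g - X.chiK g₁ * X.chiU g) = 0 := by
          refine mul_left_cancel₀ ht ?_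
          rw [map_sub, map_mul, map_mul, mul_zero]
          linear_combination ι (X.chiU g₁) * key g - ι (X.chiU g) * key g₁
        rw [map_eq_zero, sub_eq_zero] at e
        field_simp
        linear_combination e
      exact one_ne_zero (eq_zero_of_isCoboundary X hu hp2 hX 1 (fun _ _ => 0)
        (fun g => -(-(2⁻¹ * (X.chiK g₁ * (X.chiU g₁)⁻¹)) * (X.chiU g * X.chiU g)))
        (fun g n hn => by rw [hUlev _ g n hn])
        (fun g g' => by
          have := hsq X.chiU X.chiU_mul (X.chiK g₁ * (X.chiU g₁)⁻¹) g g'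
          rw [hμ g]
          linear_combination -this)
        ((mem_B2.1) (by
          simp only [map_zero]
          exact (map_zero (placeMap hX.lvl q)).symm ▸ (B2 _ _).zero_mem)))
    subst ht
    refine ⟨?_, rfl⟩
    have := key g₁
    rw [zero_mul, add_zero, mul_eq_zero] at this
    exact this.resolve_right fun e => hg₁ (by rwa [map_eq_zero] at e)
  have hker : Module.finrank k (LinearMap.ker Φ) ≤ 1 := by
    refine le_trans (LinearMap.finrank_le_finrank_of_injective
      (f := LinearMap.codRestrict (k ∙ H)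
        (((trZero k).subtype.comp (LinearMap.fst k _ _)).comp (LinearMap.ker Φ).subtype)
        fun m => ?_) ?_) (finrank_span_singleton hH1).le
    · have hm : Φ m.1 = 0 := m.2
      obtain ⟨hs, ht⟩ := hindep _ hm
      refine hinv1 ⟨m.1.1.2, fun g => ?_⟩
      have e := congrFun hm g
      rw [hΦ, hs, ht, zero_smul, zero_smul, add_zero, add_zero, adD_apply, Pi.zero_apply,
        sub_eq_zero] at e
      show r g * (m.1.1 : M₂ k) = (m.1.1 : M₂ k) * r g
      conv_rhs => rw [← e, mul_assoc, rep_inv_mul, mul_one]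
    · intro m m' e
      obtain ⟨hs, ht⟩ := hindep _ (m.2 : Φ m.1 = 0)
      obtain ⟨hs', ht'⟩ := hindep _ (m'.2 : Φ m'.1 = 0)
      exact Subtype.ext (Prod.ext (Subtype.ext (congrArg Subtype.val e :))
        (Prod.ext (hs.trans hs'.symm) (ht.trans ht'.symm)))
  have hfull : levAd ρ L q.1 ≤ LinearMap.range Φ := by
    have hrk := LinearMap.finrank_range_add_finrank_ker Φ
    rw [Module.finrank_prod, Module.finrank_prod, LocalCondB.finrank_trZero,
      Module.finrank_self] at hrk
    have := hfd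
    rw [Submodule.eq_of_le_of_finrank_le (hrange.trans hle) (hdim.trans (by omega))]
    exact hle
  obtain ⟨⟨M, x, y⟩, hm⟩ := hfull hc
  exact ⟨M, x, y, hm.symm⟩

/-- **No left orthogonal** at a Taylor-Wiles prime. -/
theorem mem_twCoboundaries_of_pairing_eq_zero [Finite k] {u : LayerGrp L × LayerGrp L → LayerCls L T}
    (hu : IsClassModule p (LayerGrp L) (LayerCls L T) u) (hp2 : p ≠ 2) (hX : X.InLevel L)
    (hunr : ∀ g ∈ inertiaQp (q.1 : ℕ), (ρ.comp (loc q.1)) g = 1)
    (hdist : ∃ (g : LocGal q.1) (α β : k), α ≠ β ∧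
      ((ρ.comp (loc q.1)) g).charpoly =
        (Polynomial.X - Polynomial.C α) * (Polynomial.X - Polynomial.C β))
    {lam : k →+ ZMod p} (hlam : lam ≠ 0) (b : levTw ρ L q.1)
    (hb : ∀ a : levAd ρ L q.1, pairing h lam q a b = 0) :
    (b : LocGal q.1 → M₂ k) ∈ twCoboundaries (ρ.comp (loc q.1)) := by
  obtain ⟨g₀, α, β, hαβ, hg₀⟩ := hdist
  have h2 : (2 : k) ≠ 0 := fun h' => hp2 ((Nat.prime_dvd_prime_iff_eq (Fact.out : p.Prime)
    Nat.prime_two).mp ((CharP.cast_eq_zero_iff k p 2).mp (by exact_mod_cast h')))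
  have h2p : (2 : ZMod p) ≠ 0 := fun h' => hp2 ((Nat.prime_dvd_prime_iff_eq (Fact.out : p.Prime)
    Nat.prime_two).mp ((ZMod.natCast_eq_zero_iff 2 p).mp (by exact_mod_cast h')))
  set r := ρ.comp (loc q.1) with hr
  set ι := ZMod.castHom (dvd_refl p) k with hι
  have hfin : IsFiniteLevel (q.1 : ℕ) r := isFiniteLevel_of_level h.lvl fun g n hn => by
    rw [map_mul, show r n = 1 from h.trivial _ hn, mul_one]
  obtain ⟨M, x, y, hm⟩ := exists_eq_adD_add h X hu hp2 hX hunr g₀ hαβ hg₀ _
    ((le_of_eq (levTw_eq_levAd (det_loc h X))) b.2)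
  set H := tracelessPart (r g₀) with hH
  have hH0 : H.trace = 0 := trace_tracelessPart _
  have hcomm : ∀ t, Commute (r t) H := commute_tracelessPart_loc X hfin hunr g₀
  have hN : (H * H).trace ≠ 0 := by
    rw [hH, trace_sq_tracelessPart hg₀]
    exact mul_ne_zero h2 (pow_ne_zero _ (sub_ne_zero.2 hαβ))
  have hχU : charMat X.chiU H ∈ levAd ρ L q.1 :=
    charMat_mem_levAd X.chiU_mul (fun t _ hn => X.chiU_level hX t hn) hH0 hcomm
  have hχK : charMat X.chiK H ∈ levAd ρ L q.1 :=
    charMat_mem_levAd X.chiK_mul (fun t _ hn => X.chiK_level hX t hn) hH0 hcomm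
  have hsq : ∀ χ : LocGal q.1 → ZMod p, (∀ s t, χ (s * t) = χ s + χ t) → ∀ (c : ZMod p) s t,
      c * (χ s * χ t) = -(2⁻¹ * c) * (χ t * χ t) - -(2⁻¹ * c) * (χ (s * t) * χ (s * t)) +
        -(2⁻¹ * c) * (χ s * χ s) := fun χ hχ c s t => by
    rw [hχ s t]
    linear_combination (-(c * χ s * χ t)) * (inv_mul_cancel₀ h2p)
  -- the pairing
  have hdet : ∀ t, (r t).det = 1 := det_loc h X
  have hlevEq : levTw ρ L q.1 = levAd ρ L q.1 := levTw_eq_levAd hdet
  have htw : twD r (M : M₂ k) = adD r (M : M₂ k) := funext fun t => by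
    rw [twD_apply, twConj_apply, hdet, one_smul, adD_apply]
  set b' : LocGal q.1 → M₂ k := x • charMat X.chiU H + y • charMat X.chiK H with hb'
  have hb'mem : b' ∈ levTw ρ L q.1 := by
    rw [hlevEq]
    exact add_mem (Submodule.smul_mem _ _ hχU) (Submodule.smul_mem _ _ hχK)
  have hsplit : b = ⟨twD r (M : M₂ k), twD_mem_levTw h q.1 M.2⟩ + ⟨b', hb'mem⟩ := by
    refine Subtype.ext ?_
    rw [hm, ← htw]
    rfl
  have hzero : ∀ a : levAd ρ L q.1, IsCoboundary₂ (placeMap h.lvl q
      (locCup h lam q.1 (a : LocGal q.1 → M₂ k) b')) := fun a => by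
    have e := hb a
    rw [hsplit, map_add, pairing_twD h lam q a (M : M₂ k) ⟨_, twD_mem_levTw h q.1 M.2⟩ rfl,
      zero_add] at e
    exact (pairing_eq_zero_iff h lam q a ⟨b', hb'mem⟩).1 e
  have hcup : ∀ (χ : LocGal q.1 → ZMod p) (z : k) (g g' : LocGal q.1),
      cupFun r lam (z • charMat χ H) b' (g, g') =
        lam (z * x * (H * H).trace) * (χ g * X.chiU g') +
        lam (z * y * (H * H).trace) * (χ g * X.chiK g') := fun χ z g g' => by
    simp only [cupFun, hb', Pi.add_apply, Pi.smul_apply, charMat, map_add, map_smul,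
      twConj_apply, hdet, one_smul, (hcomm g).eq]
    rw [mul_assoc H, LocalCondB.rep_mul_inv_self r g, mul_one]
    simp only [mul_add, smul_mul_assoc, mul_smul_comm, smul_smul, Matrix.trace_add,
      Matrix.trace_smul, smul_eq_mul, map_add]
    congr 1
    · rw [show x * ZMod.castHom (dvd_refl p) k (X.chiU g') *
            (z * ZMod.castHom (dvd_refl p) k (χ g)) * (H * H).trace =
          ZMod.castHom (dvd_refl p) k (χ g * X.chiU g') * (z * x * (H * H).trace) by
        rw [map_mul]; ring]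
      exact (lam_castHom_mul lam _ _).trans (mul_comm _ _)
    · rw [show y * ZMod.castHom (dvd_refl p) k (X.chiK g') *
            (z * ZMod.castHom (dvd_refl p) k (χ g)) * (H * H).trace =
          ZMod.castHom (dvd_refl p) k (χ g * X.chiK g') * (z * y * (H * H).trace) by
        rw [map_mul]; ring]
      exact (lam_castHom_mul lam _ _).trans (mul_comm _ _)
  obtain ⟨c, hc⟩ : ∃ c, lam c ≠ 0 := by
    by_contra hne
    push Not at hne
    exact hlam (AddMonoidHom.ext hne)
  have hy : y = 0 := by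
    by_contra hy
    set z := c / (y * (H * H).trace) with hz
    have hzy : z * y * (H * H).trace = c := by rw [hz]; field_simp
    refine hc (neg_eq_zero.1 (eq_zero_of_isCoboundary X hu hp2 hX (-lam c)
      (fun g g' => cupFun r lam (z • charMat X.chiU H) b' (g, g'))
      (fun g => -(2⁻¹ * lam (z * x * (H * H).trace)) * (X.chiU g * X.chiU g) +
        -(lam c) * (X.chiU g * X.chiK g))
      (fun g n hn => by rw [X.chiU_level hX g hn, X.chiK_level hX g hn]) (fun g g' => ?_)
      (hzero ⟨_, Submodule.smul_mem _ z hχU⟩)))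
    rw [hcup, hzy, hsq X.chiU X.chiU_mul (lam (z * x * (H * H).trace)) g g', X.chiU_mul,
      X.chiK_mul]
    ring
  subst hy
  have hx : x = 0 := by
    by_contra hx
    set z := c / (x * (H * H).trace) with hz
    have hzx : z * x * (H * H).trace = c := by rw [hz]; field_simp
    refine hc (eq_zero_of_isCoboundary X hu hp2 hX (lam c)
      (fun g g' => cupFun r lam (z • charMat X.chiK H) b' (g, g')) 0
      (fun g n hn => rfl) (fun g g' => ?_) (hzero ⟨_, Submodule.smul_mem _ z hχK⟩))
    rw [hcup, hzx, mul_zero, zero_mul, map_zero, zero_mul, add_zero]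
    simp
  refine ⟨(M : M₂ k), M.2, ?_⟩
  rw [htw, hm, hb', hx, zero_smul, zero_smul, add_zero, add_zero]

end Fermat.Agent.TW.Recip
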