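/-
The reciprocity inequality: global classes with local conditions against twisted global classes.
-/
import Fermat.Agent.TW.DualDefs
import Fermat.Agent.TW.LocalConditions
import Fermat.Agent.TW.RecipLevel
import Fermat.Agent.TW.RecipTame
import Fermat.Agent.TW.RecipCount
import Fermat.Agent.PoitouTate.ClassFundamental
import Fermat.Agent.PoitouTate.IdeleCyclic

set_option autoImplicit false

noncomputable section

open Polynomial ExtCitation Fermat.Agent.PoitouTate

namespace Fermat.Agent.TW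

local notation "Γℚ" => AlgebraicClosure ℚ ≃ₐ[ℚ] AlgebraicClosure ℚ
local notation "M₂" k => Matrix (Fin 2) (Fin 2) k

namespace Recip

variable {k : Type} [Field k] {p : ℕ} [Fact p.Prime] (ρ : ResidualGaloisRep k)

/-- The determinant of the matrix form. -/
theorem det_matRep_eq [CharP k p] (h : (GaloisRepAdic.ofResidualGaloisRep ρ).DetIsCyclotomic p)
    (g : Γℚ) : (matRep ρ g).det = (((cycloChar p g : ZMod p).val : ℕ) : k) := by
  have hμ : ∀ μ : AlgebraicClosure ℚ, μ ^ p ^ 1 = 1 →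
      g μ = μ ^ (cycloChar p g : ZMod p).val := by
    intro μ hμ
    rw [pow_one] at hμ
    have hμ0 : μ ≠ 0 := fun h => by simp [h, zero_pow (Fact.out : p.Prime).ne_zero] at hμ
    have : NeZero p := ⟨(Fact.out : p.Prime).ne_zero⟩
    exact modularCyclotomicCharacter.spec (AlgebraicClosure ℚ) (card_rootsOfUnity_eq_self p)
      (g : AlgebraicClosure ℚ ≃+* AlgebraicClosure ℚ) (t := Units.mk0 μ hμ0)
      (by rw [mem_rootsOfUnity]; exact Units.ext (by simpa using hμ))
  have h1 := h.2 1 g _ hμ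
  rw [pow_one, CharP.cast_eq_zero, Ideal.span_singleton_zero, Ideal.mem_bot, sub_eq_zero] at h1
  rw [det_matRep]
  exact h1

theorem unramified_matRep {q : ℕ} (h : ρ.IsUnramifiedAt q) (A : ValuationSubring (AlgebraicClosure ℚ))
    (hA : A.LiesOverPrime q) (s : Γℚ) (hs : s ∈ A.inertiaSubgroupIn ℚ) : matRep ρ s = 1 :=
  (matRep_eq_one_iff ρ s).2 (h A hA s hs)

theorem resLoc_mem_ctsCocycles {T : Finset ℕ} {c : Γℚ → M₂ k} (hc : c ∈ globalCocycles ρ T)
    (q : ℕ) [Fact q.Prime] : resLoc q c ∈ ctsCocycles q (locRep ρ q) := by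
  obtain ⟨E, hE, hEc⟩ := hc.1.2
  obtain ⟨E', hE', hfix⟩ := exists_localLevel q E
  refine ⟨⟨fun g => hc.1.1.1 _, fun g g' => ?_⟩, E', hE', fun g s hs => ?_⟩
  · show c (localGaloisToGlobal q (g * g')) = _
    rw [map_mul, hc.1.1.2]
    simp [resLoc, locRep, map_inv]
  · show c (localGaloisToGlobal q (g * s)) = c (localGaloisToGlobal q g)
    rw [map_mul]
    exact hEc _ _ (hfix s hs)

theorem adCoboundaries_le_globalCocycles (T : Finset ℕ)
    (hram : ∀ q : ℕ, q.Prime → q ∉ T → ρ.IsUnramifiedAt q) :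
    adCoboundaries (matRep ρ) ≤ globalCocycles ρ T := by
  rintro _ ⟨M, hM, rfl⟩
  obtain ⟨E, hE, hEρ⟩ := matRep_factorsThroughFiniteLevel ρ
  refine ⟨⟨LocalCondB.adD_mem_adCocycles M, E, hE, fun g s hs => ?_⟩,
    fun q hq hqT P hP σ hσ => ?_⟩
  · have h1 := hEρ s hs
    have h2 : matRep ρ s⁻¹ = 1 := by
      have := rep_inv_mul (matRep ρ) s
      rwa [h1, mul_one] at this
    simp only [adD_apply, map_mul, mul_inv_rev, h1, h2, mul_one, one_mul]
  · have h1 := unramified_matRep ρ (hram q hq hqT) P hP σ hσ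
    have h2 : matRep ρ σ⁻¹ = 1 := by
      have := rep_inv_mul (matRep ρ) σ
      rwa [h1, mul_one] at this
    simp only [adD_apply, h1, h2, mul_one, one_mul, sub_self]

theorem resLoc_mem_adCoboundaries {c : Γℚ → M₂ k} (hc : c ∈ adCoboundaries (matRep ρ))
    (q : ℕ) [Fact q.Prime] : resLoc q c ∈ adCoboundaries (locRep ρ q) := by
  obtain ⟨M, hM, rfl⟩ := hc
  exact ⟨M, hM, funext fun g => by simp [resLoc, locRep, adD_apply, map_inv]⟩

instance finiteDimensional_adCoboundaries {G : Type*} [Group G] (r : G →* M₂ k) :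
    FiniteDimensional k (adCoboundaries r) := by
  unfold adCoboundaries
  infer_instance

theorem finrank_adCoboundaries_le {G : Type*} [Group G] (r : G →* M₂ k) :
    Module.finrank k (adCoboundaries r) ≤ 3 :=
  (Submodule.finrank_map_le _ _).trans_eq LocalCondB.finrank_trZero

theorem natCard_twCoboundaries_le [Finite k] {G : Type*} [Group G] (r : G →* M₂ k) :
    Finite (twCoboundaries r) ∧ Nat.card (twCoboundaries r) ≤ Nat.card k ^ 3 := by
  have : FiniteDimensional k (twCoboundaries r) := by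
    unfold twCoboundaries
    infer_instance
  refine ⟨Module.finite_of_finite k, ?_⟩
  rw [Module.natCard_eq_pow_finrank (K := k)]
  exact Nat.pow_le_pow_right Nat.card_pos
    ((Submodule.finrank_map_le _ _).trans_eq LocalCondB.finrank_trZero)

theorem mem_of_mk_codRestrict_eq_zero {M N : Type} [AddCommGroup M] [Module k M] [AddCommGroup N]
    [Module k N] (f : M →ₗ[k] N) (A B : Submodule k N) (h : ∀ c, f c ∈ A) (c : M)
    (e : (B.comap A.subtype).mkQ (f.codRestrict A h c) = 0) : f c ∈ B :=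
  ((Submodule.Quotient.mk_eq_zero (B.comap A.subtype)).1 e :)

theorem finiteDimensional_of_detect {M I : Type} [AddCommGroup M] [Module k M] [Finite I]
    {N : I → Type} [∀ i, AddCommGroup (N i)] [∀ i, Module k (N i)] (V B : Submodule k M)
    [FiniteDimensional k B] (f : ∀ i, M →ₗ[k] N i) (A : ∀ i, Submodule k (N i))
    [∀ i, FiniteDimensional k (A i)] (C : ∀ i, Submodule k (N i))
    (hA : ∀ i, ∀ c ∈ V, f i c ∈ A i) (hdetect : ∀ c ∈ V, (∀ i, f i c ∈ C i) → c ∈ B) :
    FiniteDimensional k V := by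
  let R : ↥V →ₗ[k] ∀ i, ↥(A i) ⧸ (C i).comap (A i).subtype := LinearMap.pi fun i =>
    (Submodule.mkQ _).comp (((f i).comp V.subtype).codRestrict (A i) fun c => hA i c c.2)
  have hmem : ∀ c : LinearMap.ker R, (c.1 : M) ∈ B := fun c =>
    hdetect c.1 c.1.2 fun i => mem_of_mk_codRestrict_eq_zero ((f i).comp V.subtype) (A i) (C i)
      (fun c => hA i c c.2) c.1 (congrFun (LinearMap.mem_ker.1 c.2) i)
  have : FiniteDimensional k (LinearMap.ker R) :=
    FiniteDimensional.of_injective ((V.subtype.comp (LinearMap.ker R).subtype).codRestrict B hmem)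
      fun a b e => Subtype.ext (Subtype.ext (congrArg Subtype.val e :))
  have : Module.Finite k (↥V ⧸ LinearMap.ker R) := Module.Finite.equiv R.quotKerEquivRange.symm
  exact Module.Finite.of_submodule_quotient (LinearMap.ker R)

section Count

variable [Finite k] {T : Finset Nat.Primes}
  {F : IntermediateField ℚ (AlgebraicClosure ℚ)} [F.fixingSubgroup.Normal]
  {σ : GQ →* M₂ k}

/-- The counting of the classes of a level against the local spaces. -/
theorem finrank_add_finrank_le_of_level (hLD : LevelData σ T F p)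
    {u : LayerGrp F × LayerGrp F → LayerCls F T}
    (hu : IsClassModule p (LayerGrp F) (LayerCls F T) u) (lam : k →+ ZMod p)
    (V Y : Submodule k (GQ → M₂ k)) [FiniteDimensional k V] [FiniteDimensional k Y]
    (hVc : V ≤ adCocycles σ) (hYc : Y ≤ twCocycles σ)
    (hVlev : ∀ c ∈ V, ∀ g, ∀ n ∈ F.fixingSubgroup, c (g * n) = c g)
    (hYlev : ∀ y ∈ Y, ∀ g, ∀ n ∈ F.fixingSubgroup, y (g * n) = y g)
    (A : ∀ q : ↥T, Submodule k (LocGal q.1 → M₂ k)) [∀ q, FiniteDimensional k (A q)]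
    (hA : ∀ q, A q ≤ levAd σ F q.1)
    (hresV : ∀ q, ∀ c ∈ V, (fun t => c (loc q.1 t)) ∈ A q)
    (hresY : ∀ q : ↥T, ∀ y ∈ Y, (fun t => y (loc q.1 t)) ∈ levTw σ F q.1)
    (hdetect : ∀ c ∈ V, (∀ q : ↥T, (fun t => c (loc q.1 t)) ∈ adCoboundaries (σ.comp (loc q.1))) →
      c ∈ adCoboundaries σ)
    (hperp : ∀ y, (hy : y ∈ Y) →
      (∀ (q : ↥T) (a : levAd σ F q.1), (a : LocGal q.1 → M₂ k) ∈ A q →
        pairing hLD lam q a ⟨_, hresY q y hy⟩ = 0) → y ∈ twCoboundaries σ) :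
    Module.finrank k V + Module.finrank k Y ≤ 3 + 3 + ∑ q : ↥T, Module.finrank k
      (↥(A q) ⧸ (adCoboundaries (σ.comp (loc q.1))).comap (A q).subtype) := by
  have := hLD.lvl.finite_gal
  obtain ⟨ψ, hψ⟩ := exists_torsion_char (p := p) hu
  have hker : ∀ c : LinearMap.ker (LinearMap.pi fun q : ↥T =>
      ((adCoboundaries (σ.comp (loc q.1))).comap (A q).subtype).mkQ.comp
        (((LinearMap.funLeft k (M₂ k) (loc q.1)).comp V.subtype).codRestrict (A q)
          fun c => hresV q c c.2)),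
      (c.1 : GQ → M₂ k) ∈ adCoboundaries σ := fun c =>
    hdetect c.1 c.1.2 fun q => mem_of_mk_codRestrict_eq_zero
      ((LinearMap.funLeft k (M₂ k) (loc q.1)).comp V.subtype) (A q)
      (adCoboundaries (σ.comp (loc q.1))) (fun c => hresV q c c.2) c.1
      (congrFun (LinearMap.mem_ker.1 c.2) q)
  refine finrank_add_finrank_le_of_pairings (k := k) (p := p) ψ hψ
    (Z := fun q : ↥T => ↥(A q) ⧸ (adCoboundaries (σ.comp (loc q.1))).comap (A q).subtype)
    (W := fun q : ↥T => ↥(levTw σ F q.1))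
    (fun q : ↥T => ((adCoboundaries (σ.comp (loc q.1))).comap (A q).subtype).mkQ.comp
      (((LinearMap.funLeft k (M₂ k) (loc q.1)).comp V.subtype).codRestrict (A q)
        fun c => hresV q c c.2))
    (fun q => (((LinearMap.funLeft k (M₂ k) (loc q.1)).comp Y.subtype).codRestrict (levTw σ F q.1)
      fun y => hresY q y y.2).toAddMonoidHom)
    (fun q => liftQuot ((adCoboundaries (σ.comp (loc q.1))).comap (A q).subtype)
      ((pairing hLD lam q).comp (Submodule.inclusion (hA q)).toAddMonoidHom) (by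
        rintro a ⟨M, hM, hMa⟩
        exact AddMonoidHom.ext fun b =>
          pairing_adD hLD lam q (Submodule.inclusion (hA q) a) M hMa.symm b))
    ?_ (fun y v => ?_) ?_
  · exact (LinearMap.finrank_le_finrank_of_injective
      (f := (V.subtype.comp (Submodule.subtype _)).codRestrict (adCoboundaries σ) hker)
      fun a b e => Subtype.ext (Subtype.ext (congrArg Subtype.val e :))).trans
      (finrank_adCoboundaries_le σ)
  · exact sum_pairing_eq_zero hLD lam (hVc v.2) (hVlev v v.2) (hYc y.2) (hYlev y y.2)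
      (fun q => Submodule.inclusion (hA q) ⟨_, hresV q v.1 v.2⟩) (fun q t => rfl)
      (fun q => ⟨_, hresY q y.1 y.2⟩) (fun q t => rfl)
  · obtain ⟨hf, hc⟩ := natCard_twCoboundaries_le σ
    refine (Nat.card_le_card_of_injective (fun y => (⟨(y.1.1 : GQ → M₂ k), ?_⟩ : twCoboundaries σ))
      ?_).trans hc
    · exact hperp _ y.1.2 fun q a ha => y.2 q (Submodule.Quotient.mk (⟨a, ha⟩ : ↥(A q)))
    · intro a b e
      exact Subtype.ext (Subtype.ext (congrArg Subtype.val e :))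

end Count

theorem exists_lam (k : Type) [Field k] (p : ℕ) [Fact p.Prime] [CharP k p] :
    ∃ lam : k →+ ZMod p, lam ≠ 0 := by
  let _ : Algebra (ZMod p) k := ZMod.algebra k p
  obtain ⟨φ, hφ⟩ : ∃ φ : Module.Dual (ZMod p) k, φ (1 : k) ≠ 0 := by
    by_contra hne
    push Not at hne
    exact one_ne_zero ((Module.forall_dual_apply_eq_zero_iff (ZMod p) (1 : k)).1 hne)
  exact ⟨φ.toAddMonoidHom, fun h => hφ (DFunLike.congr_fun h 1)⟩

end Recip

open Recip

/-- For `T = S1 ∪ Q`: if adjoint classes are detected on `T` and twisted classes unramified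
outside `S1` are detected on `Q`, then
`dim (W + B) + dim Z¹_T(ad⁰ ⊗ det) + ∑ (3 - h⁰) ≤ 6 + ∑ dim L + 4 #Q`. -/
theorem finrank_add_finrank_dualCocycles_le {k : Type} [Field k] [Finite k] (p : ℕ)
    [Fact p.Prime] [CharP k p] (ρ : ResidualGaloisRep k) (h : TWHyp p ρ)
    (S1 Q : Finset ℕ) (hpS1 : p ∈ S1) (hdisj : Disjoint S1 Q)
    (hprime : ∀ q ∈ S1 ∪ Q, q.Prime)
    (hram : ∀ q : ℕ, q.Prime → q ∉ S1 → ρ.IsUnramifiedAt q)
    (hQ1 : ∀ q ∈ Q, p ∣ q - 1)
    (hQdist : ∀ (q : ℕ) [Fact q.Prime], q ∈ Q → ∃ g : GalQp q, ∃ α β : k, α ≠ β ∧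
      (locRep ρ q g).charpoly = (X - C α) * (X - C β))
    (hfinT : FiniteDimensional k (dualCocycles ρ (S1 ∪ Q)))
    (hsha : ∀ c ∈ globalCocycles ρ (S1 ∪ Q),
      (∀ (q : ℕ) [Fact q.Prime], q ∈ S1 ∪ Q → resLoc q c ∈ adCoboundaries (locRep ρ q)) →
        c ∈ adCoboundaries (matRep ρ))
    (hdual : ∀ y ∈ dualCocycles ρ (S1 ∪ Q),
      (∀ (q : ℕ) [Fact q.Prime], q ∈ Q → resLoc q y ∈ twCoboundaries (locRep ρ q)) →
        y ∈ twCoboundaries (matRep ρ))
    (L : ∀ (q : ℕ) [Fact q.Prime], Submodule k (GalQp q → Matrix (Fin 2) (Fin 2) k))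
    (dimL : ℕ → ℕ)
    (hL : ∀ (q : ℕ) [Fact q.Prime], q ∈ S1 →
      adCoboundaries (locRep ρ q) ≤ L q ∧ FiniteDimensional k (L q) ∧
        Module.finrank k (L q) ≤ dimL q)
    (W : Submodule k (Γℚ → Matrix (Fin 2) (Fin 2) k))
    (hW : W ≤ globalCocycles ρ (S1 ∪ Q))
    (hWL : ∀ (q : ℕ) [Fact q.Prime], q ∈ S1 → ∀ c ∈ W, resLoc q c ∈ L q) :
    FiniteDimensional k
        (W ⊔ adCoboundaries (matRep ρ) : Submodule k (Γℚ → Matrix (Fin 2) (Fin 2) k)) ∧
      (Module.finrank k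
          (W ⊔ adCoboundaries (matRep ρ) : Submodule k (Γℚ → Matrix (Fin 2) (Fin 2) k)) : ℤ) +
        Module.finrank k (dualCocycles ρ (S1 ∪ Q)) +
        ∑ q ∈ S1 ∪ Q, (3 - (locInvDim ρ q : ℤ)) ≤
      6 + ∑ q ∈ S1, (dimL q : ℤ) + 4 * Q.card := by
  classical
  have hp2 : p ≠ 2 := h.two_ne
  have h2 : (2 : k) ≠ 0 := fun h' => hp2 ((Nat.prime_dvd_prime_iff_eq (Fact.out : p.Prime)
    Nat.prime_two).mp ((CharP.cast_eq_zero_iff k p 2).mp (by exact_mod_cast h')))
  -- the places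
  set T : Finset Nat.Primes := (S1 ∪ Q).subtype Nat.Prime with hTdef
  have hmemT : ∀ q : Nat.Primes, q ∈ T ↔ (q : ℕ) ∈ S1 ∪ Q := fun q => Finset.mem_subtype
  have hpT : pPrime p ∈ T := (hmemT _).2 (Finset.mem_union_left Q hpS1)
  have hqQ : ∀ q : ↥T, (q.1 : ℕ) ∉ S1 → (q.1 : ℕ) ∈ Q := fun q hq =>
    (Finset.mem_union.1 ((hmemT q.1).1 q.2)).resolve_left hq
  have hQS : ∀ q ∈ Q, q ∉ S1 := fun q hq hq' => Finset.disjoint_left.1 hdisj hq' hq
  have hTout : ∀ q : Nat.Primes, q ∉ T → ρ.IsUnramifiedAt q := fun q hq =>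
    hram q q.2 fun h => hq ((hmemT q).2 (Finset.mem_union_left Q h))
  set r : ∀ q : ↥T, LocGal q.1 →* Matrix (Fin 2) (Fin 2) k :=
    fun q => locRep ρ (q.1 : ℕ) with hr
  set res : ∀ q : ↥T, (Γℚ → M₂ k) →ₗ[k] (LocGal q.1 → M₂ k) :=
    fun q => resLoc (q.1 : ℕ) with hres
  -- the global classes
  set V : Submodule k (Γℚ → M₂ k) := W ⊔ adCoboundaries (matRep ρ) with hVdef
  have hV : V ≤ globalCocycles ρ (S1 ∪ Q) := sup_le hW
    (adCoboundaries_le_globalCocycles ρ _ fun q hq hq' =>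
      hram q hq fun h => hq' (Finset.mem_union_left Q h))
  have hVL : ∀ (q : ℕ) [Fact q.Prime], q ∈ S1 → ∀ c ∈ V, resLoc q c ∈ L q := by
    intro q _ hq c hc
    obtain ⟨w, hw, b, hb, rfl⟩ := Submodule.mem_sup.1 hc
    rw [map_add]
    exact add_mem (hWL q hq w hw) ((hL q hq).1 (resLoc_mem_adCoboundaries ρ hb q))
  let Lc : ∀ q : ↥T, Submodule k (LocGal q.1 → M₂ k) :=
    fun q => if (q.1 : ℕ) ∈ S1 then L (q.1 : ℕ) else ⊤
  let A₀ : ∀ q : ↥T, Submodule k (LocGal q.1 → M₂ k) :=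
    fun q => Lc q ⊓ ctsCocycles (q.1 : ℕ) (r q)
  have hQfact : ∀ q : ↥T, (q.1 : ℕ) ∉ S1 →
      FiniteDimensional k (ctsCocycles (q.1 : ℕ) (r q)) ∧
        Module.finrank k (ctsCocycles (q.1 : ℕ) (r q)) ≤ 4 := by
    intro q hq
    have hq' := hqQ q hq
    have hmod : (q.1 : ℕ) ≡ 1 [MOD p] :=
      ((Nat.modEq_iff_dvd' q.1.2.one_le).2 (hQ1 _ hq')).symm
    refine finrank_ctsCocycles_le_four p (q.1 : ℕ) (r q) hp2 (fun h => hq (h ▸ hpS1)) ?_ ?_
      (fun g hg => unramified_matRep ρ (hram _ q.1.2 hq) _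
        (LocalCondB.liesOverPrime_padicPlace' (q := (q.1 : ℕ))) _
        (localGaloisToGlobal_mem_inertia _ hg)) (hQdist (q.1 : ℕ) hq')
    · rw [← Nat.cast_one, CharP.natCast_eq_natCast k p]
      exact hmod
    · obtain ⟨E, hE, hEρ⟩ := matRep_factorsThroughFiniteLevel ρ
      obtain ⟨E', hE', hfix⟩ := exists_localLevel (q.1 : ℕ) E
      refine ⟨E', hE', fun g s hs => ?_⟩
      show matRep ρ (localGaloisToGlobal _ (g * s)) = _
      rw [map_mul, map_mul, hEρ _ (hfix s hs), mul_one]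
      rfl
  have hA₀fin : ∀ q, FiniteDimensional k (A₀ q) := by
    intro q
    by_cases hq : (q.1 : ℕ) ∈ S1
    · have := (hL (q.1 : ℕ) hq).2.1
      exact Submodule.finiteDimensional_of_le (inf_le_left.trans (le_of_eq (if_pos hq)))
    · have := (hQfact q hq).1
      exact Submodule.finiteDimensional_of_le inf_le_right
  have hresA₀ : ∀ q : ↥T, ∀ c ∈ V, res q c ∈ A₀ q := by
    intro q c hc
    refine ⟨?_, resLoc_mem_ctsCocycles ρ (hV hc) _⟩
    show res q c ∈ if (q.1 : ℕ) ∈ S1 then L (q.1 : ℕ) else ⊤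
    split_ifs with hq
    exacts [hVL _ hq c hc, Submodule.mem_top]
  have hdetect : ∀ c ∈ V, (∀ q : ↥T, res q c ∈ adCoboundaries (r q)) →
      c ∈ adCoboundaries (matRep ρ) := fun c hc hall =>
    hsha c (hV hc) fun q hq' hq =>
      hall ⟨⟨q, hq'.out⟩, (hmemT ⟨q, hq'.out⟩).2 hq⟩
  -- finiteness
  have hfinV : FiniteDimensional k V := by
    exact finiteDimensional_of_detect V (adCoboundaries (matRep ρ)) res A₀
      (fun q => adCoboundaries (r q)) hresA₀ hdetect
  refine ⟨hfinV, ?_⟩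
  have := hfinT
  have : Finite V := Module.finite_of_finite k
  have : Finite (dualCocycles ρ (S1 ∪ Q)) := Module.finite_of_finite k
  -- the level
  set Qs := {q : ↥T // (q.1 : ℕ) ∈ Q} with hQs
  have hX0 : ∀ j : Qs, Nonempty (AuxData T p j.1) := fun j =>
    exists_auxData hp2 hpT j.1 (hQ1 _ j.2)
  let Xd : ∀ j : Qs, AuxData T p j.1 := fun j => (hX0 j).some
  obtain ⟨F, hFn, hLD, hX, hclev⟩ := exists_recipLevel (matRep ρ)
    (Sum.elim (fun c : ↥V => (c : Γℚ → M₂ k))
      (fun y : ↥(dualCocycles ρ (S1 ∪ Q)) => (y : Γℚ → M₂ k)))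
    (det_matRep_eq ρ h.det) (matRep_factorsThroughFiniteLevel ρ)
    (fun q hq A hA s hs => unramified_matRep ρ (hTout q hq) A hA s hs)
    (by
      rintro (c | y) g n hn h0
      · show (c : Γℚ → M₂ k) (g * n) = _
        rw [(hV c.2).1.1.2, show (c : Γℚ → M₂ k) n = 0 from h0, mul_zero, zero_mul, add_zero]
        rfl
      · show (y : Γℚ → M₂ k) (g * n) = _
        rw [y.2.1.1.2, show (y : Γℚ → M₂ k) n = 0 from h0, map_zero, add_zero]
        rfl)
    (by
      rintro (c | y)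
      · exact LocalCondB.cocycle_map_one (hV c.2).1.1
      · have := y.2.1.1.2 1 1
        rw [mul_one, twConj_apply, map_one, Matrix.det_one, one_smul, inv_one, map_one, mul_one,
          one_mul] at this
        exact left_eq_add.mp this)
    (by
      rintro (c | y)
      exacts [(hV c.2).1.2, y.2.1.2])
    (by
      rintro (c | y) q hq A hA s hs
      · exact (hV c.2).2 q q.2 (fun h => hq ((hmemT q).2 h)) A hA s hs
      · exact y.2.2 q q.2 (fun h => hq ((hmemT q).2 h)) A hA s hs)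
    (fun j : Qs => j.1) Xd
  have := hFn
  obtain ⟨u, hu⟩ := layerClassModule (cyclicH1 p T hp2 hpT) (cyclicNormIndex p T hp2 hpT)
    (fun a => nonempty_cyclotomicInvariant_pow hp2 hpT a) F hLD.lvl hLD.cyclo
  obtain ⟨lam, hlam⟩ := exists_lam k p
  -- the local spaces
  let A : ∀ q : ↥T, Submodule k (LocGal q.1 → M₂ k) := fun q => Lc q ⊓ levAd (matRep ρ) F q.1
  have hlevcts : ∀ q : ↥T, levAd (matRep ρ) F q.1 ≤ ctsCocycles (q.1 : ℕ) (r q) :=
    fun q c hc => ⟨hc.1, isFiniteLevel_of_level hLD.lvl hc.2⟩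
  have hAA₀ : ∀ q, A q ≤ A₀ q := fun q => inf_le_inf_left _ (hlevcts q)
  have hAfin : ∀ q, FiniteDimensional k (A q) := fun q =>
    have := hA₀fin q
    Submodule.finiteDimensional_of_le (hAA₀ q)
  have hBA : ∀ q : ↥T, adCoboundaries (r q) ≤ A q := by
    rintro q _ ⟨M, hM, rfl⟩
    refine ⟨?_, adD_mem_levAd hLD q.1 hM⟩
    show _ ∈ if (q.1 : ℕ) ∈ S1 then L (q.1 : ℕ) else ⊤
    split_ifs with hq
    exacts [(hL _ hq).1 ⟨M, hM, rfl⟩, Submodule.mem_top]
  have hresV : ∀ q : ↥T, ∀ c ∈ V, res q c ∈ A q := fun q c hc =>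
    ⟨(hresA₀ q c hc).1, (hresA₀ q c hc).2.1, fun g n hn => by
      show c (localGaloisToGlobal _ (g * n)) = _
      rw [map_mul]
      exact hclev (Sum.inl ⟨c, hc⟩) _ _ hn⟩
  have hresY : ∀ q : ↥T, ∀ y ∈ dualCocycles ρ (S1 ∪ Q), res q y ∈ levTw (matRep ρ) F q.1 := by
    intro q y hy
    refine ⟨⟨fun g => hy.1.1.1 _, fun g g' => ?_⟩, fun g n hn => ?_⟩
    · show y (localGaloisToGlobal _ (g * g')) = _
      rw [map_mul, hy.1.1.2, twConj_apply, twConj_apply, ← map_inv]
      rfl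
    · show y (localGaloisToGlobal _ (g * n)) = _
      rw [map_mul]
      exact hclev (Sum.inr ⟨y, hy⟩) _ _ hn
  -- the pairing
  have key := finrank_add_finrank_le_of_level hLD hu lam V (dualCocycles ρ (S1 ∪ Q))
    (fun c hc => (hV hc).1.1) (fun y hy => hy.1.1)
    (fun c hc => hclev (Sum.inl ⟨c, hc⟩)) (fun y hy => hclev (Sum.inr ⟨y, hy⟩))
    A (fun q => inf_le_right) hresV hresY hdetect fun y hy hperp => by
      refine hdual y hy fun q hq' hq => ?_
      let qT : ↥T := ⟨⟨q, hq'.out⟩, (hmemT ⟨q, hq'.out⟩).2 (Finset.mem_union_right S1 hq)⟩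
      have hqS : (qT.1 : ℕ) ∉ S1 := hQS q hq
      refine mem_twCoboundaries_of_pairing_eq_zero hLD (Xd ⟨qT, hq⟩) hu hp2 (hX ⟨qT, hq⟩)
        (fun g hg => unramified_matRep ρ (hram q hq'.out hqS) _
          (LocalCondB.liesOverPrime_padicPlace' (q := q)) _
          (localGaloisToGlobal_mem_inertia _ hg)) (hQdist q hq) hlam
        ⟨resLoc q y, hresY qT y hy⟩ fun a => hperp qT a ⟨?_, a.2⟩
      show _ ∈ if (qT.1 : ℕ) ∈ S1 then L (qT.1 : ℕ) else ⊤
      rw [if_neg hqS]
      trivial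
  -- counting
  have hXq : ∀ q : ↥T, (Module.finrank k (↥(A q) ⧸
      (adCoboundaries ((matRep ρ).comp (loc q.1))).comap (A q).subtype) : ℤ) + (3 - (locInvDim ρ (q.1 : ℕ) : ℤ)) ≤
      if (q.1 : ℕ) ∈ S1 then (dimL (q.1 : ℕ) : ℤ) else 4 := by
    intro q
    have h1 := Submodule.finrank_quotient_add_finrank
      ((adCoboundaries ((matRep ρ).comp (loc q.1))).comap (A q).subtype)
    have h3 : Module.finrank k ((adCoboundaries ((matRep ρ).comp (loc q.1))).comap (A q).subtype) =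
        Module.finrank k (adCoboundaries ((matRep ρ).comp (loc q.1))) :=
      (Submodule.comapSubtypeEquivOfLe (hBA q)).finrank_eq
    have h4 := finrank_adCoboundaries_add_adInvariants ((matRep ρ).comp (loc q.1)) h2
    have h5 : locInvDim ρ (q.1 : ℕ) =
        Module.finrank k (adInvariants ((matRep ρ).comp (loc q.1))) :=
      locInvDim_eq ρ (q.1 : ℕ)
    split_ifs with hq
    · have := (hL (q.1 : ℕ) hq).2.1
      have h6 : Module.finrank k (A q) ≤ dimL (q.1 : ℕ) :=
        (Submodule.finrank_mono (inf_le_left.trans (le_of_eq (if_pos hq)))).trans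
          (hL (q.1 : ℕ) hq).2.2
      omega
    · have := (hQfact q hq).1
      have h6 : Module.finrank k (A q) ≤ 4 :=
        (Submodule.finrank_mono ((inf_le_right : A q ≤ _).trans (hlevcts q))).trans
          (hQfact q hq).2
      omega
  have hsum := Finset.sum_le_sum (s := (Finset.univ : Finset ↥T)) fun q _ => hXq q
  rw [Finset.sum_add_distrib] at hsum
  have hconv : ∀ f : ℕ → ℤ, ∑ q : ↥T, f (q.1 : ℕ) = ∑ n ∈ S1 ∪ Q, f n := fun f => by
    rw [Finset.sum_coe_sort T fun q : Nat.Primes => f q]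
    refine (Finset.sum_map T (Function.Embedding.subtype Nat.Prime) f).symm.trans ?_
    exact Finset.sum_congr ((Finset.subtype_map Nat.Prime).trans
      (Finset.filter_true_of_mem hprime)) fun _ _ => rfl
  rw [hconv fun n => 3 - (locInvDim ρ n : ℤ),
    hconv fun n => if n ∈ S1 then (dimL n : ℤ) else 4, Finset.sum_union hdisj,
    Finset.sum_union hdisj,
    Finset.sum_congr (rfl : S1 = S1) fun n hn => if_pos hn,
    Finset.sum_congr (rfl : Q = Q) fun n hn => if_neg (hQS n hn), Finset.sum_const,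
    nsmul_eq_mul] at hsum
  rw [Finset.sum_union hdisj]
  have key' := Int.ofNat_le.2 key
  push_cast at key'
  linarith

end Fermat.Agent.TW
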