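/-
The Taylor-Wiles engine: for every `n` a set of `r` auxiliary primes `q ≡ 1 (mod p ^ (n + 1))`
at which `ρ̄(Frob q)` has distinct eigenvalues, such that every space of global adjoint cocycles
with prescribed local conditions at `S0` and free at the new primes has the expected dimension.
-/
import Fermat.Agent.TW.GlobalDefs
import Fermat.Agent.TW.LocalConditions
import Fermat.Agent.TW.LowerBound
import Fermat.Agent.TW.Primes
import Fermat.Agent.TW.Reciprocity
import Fermat.Prelude.Def_GaloisRep_LocalConditions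

set_option autoImplicit false

noncomputable section

open Polynomial

namespace Fermat.Agent.TW

local notation "Γℚ" => AlgebraicClosure ℚ ≃ₐ[ℚ] AlgebraicClosure ℚ

/-- The engine.  `S0` contains `p` and all primes where `ρ̄` ramifies; at every `q ∈ S0` the
local condition `L q` contains the coboundaries and has dimension at most `3 + δ q`
(as `dim coboundaries + h⁰ = 3`, this is the bound `h⁰ + δ` on classes; the normalisation of the
minimal deformation problems is `δ p = 1`, `δ q = 0` otherwise).  The set of new primes does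
not depend on the local conditions. -/
theorem exists_taylorWilesPrimes_finrank_le {k : Type} [Field k] [Finite k]
    (p : ℕ) [Fact p.Prime] [CharP k p] (hp2 : p ≠ 2)
    (ρbar : ResidualGaloisRep k) (habs : ρbar.IsAbsolutelyIrreducible)
    (hdet : (GaloisRepAdic.ofResidualGaloisRep ρbar).DetIsCyclotomic p)
    (hsplit : ∀ σ : Γℚ, ∃ α β : k, LinearMap.charpoly (ρbar.ρ σ) = (X - C α) * (X - C β))
    (hTW : ∀ (K : Type) [Field K] [Algebra k K] (G : Subgroup Γℚ), G.index = 2 →
      ∀ V : Submodule K (ρbar.baseChange K).V,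
        (∀ σ ∈ G, ∀ x ∈ V, (ρbar.baseChange K).ρ σ x ∈ V) → V = ⊥ ∨ V = ⊤)
    (S0 : Finset ℕ) (hpS0 : p ∈ S0) (hprime : ∀ q ∈ S0, q.Prime)
    (hram : ∀ q : ℕ, q.Prime → q ∉ S0 → ρbar.IsUnramifiedAt q) :
    ∃ r : ℕ, ∀ (n : ℕ) (avoid : Finset ℕ), ∃ qv : Fin r → ℕ, Function.Injective qv ∧
      (∀ i, (qv i).Prime ∧ qv i ∉ S0 ∪ avoid ∧ p ^ (n + 1) ∣ qv i - 1) ∧
      (∀ i, ∀ P : ValuationSubring (AlgebraicClosure ℚ), P.LiesOverPrime (qv i) →
        ∀ φ : Γℚ, P.IsFrobeniusAt φ (qv i) →
          ∃ α β : k, α ≠ β ∧ LinearMap.charpoly (ρbar.ρ φ) = (X - C α) * (X - C β)) ∧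
      ∀ (L : ∀ (q : ℕ) [Fact q.Prime], Submodule k (GalQp q → Matrix (Fin 2) (Fin 2) k))
        (δ : ℕ → ℤ),
        (∀ (q : ℕ) [Fact q.Prime], q ∈ S0 →
          adCoboundaries (locRep ρbar q) ≤ L q ∧ FiniteDimensional k (L q) ∧
            (Module.finrank k (L q) : ℤ) ≤ 3 + δ q) →
        ∀ W : Submodule k (Γℚ → Matrix (Fin 2) (Fin 2) k),
          W ≤ globalCocycles ρbar (S0 ∪ Finset.univ.image qv) →
          (∀ (q : ℕ) [Fact q.Prime], q ∈ S0 → ∀ c ∈ W, resLoc q c ∈ L q) →
          FiniteDimensional k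
              (W ⊔ adCoboundaries (matRep ρbar) :
                Submodule k (Γℚ → Matrix (Fin 2) (Fin 2) k)) ∧
            (Module.finrank k
              (W ⊔ adCoboundaries (matRep ρbar) :
                Submodule k (Γℚ → Matrix (Fin 2) (Fin 2) k)) : ℤ) ≤
              (r : ℤ) + 2 + ∑ q ∈ S0, δ q := by
  classical
  have hTWH : TWHyp p ρbar := ⟨hp2, habs, hdet, hsplit, hTW⟩
  obtain ⟨A₁, hA₁, hLB⟩ :=
    exists_finset_le_finrank_dualCocycles p ρbar hTWH S0 hpS0 hprime hram
  obtain ⟨A₂, hA₂, hdet2⟩ := exists_detecting_primes p ρbar hTWH S0 hpS0 hram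
  set A := A₁ ∪ A₂ with hA
  have hAp : ∀ a ∈ A, a.Prime ∧ a ∉ S0 := fun a ha =>
    (Finset.mem_union.1 ha).elim (hA₁ a) (hA₂ a)
  set S1 := S0 ∪ A with hS1
  have hpS1 : p ∈ S1 := Finset.mem_union_left _ hpS0
  have hram1 : ∀ q : ℕ, q.Prime → q ∉ S1 → ρbar.IsUnramifiedAt q := fun q hq hq1 =>
    hram q hq fun h => hq1 (Finset.mem_union_left _ h)
  obtain ⟨r, hr⟩ := exists_dual_detecting_primes p ρbar hTWH S1 hpS1 hram1
  refine ⟨r, fun n avoid => ?_⟩
  obtain ⟨qv, hinj, hq, hqdist, hqloc, hdetect⟩ := hr n avoid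
  refine ⟨qv, hinj, fun i => ⟨(hq i).1, ?_, (hq i).2.2⟩, hqdist, ?_⟩
  · intro h
    exact (hq i).2.1 ((Finset.mem_union.1 h).elim
      (fun h => Finset.mem_union_left _ (Finset.mem_union_left _ h)) (Finset.mem_union_right _))
  intro L δ hL W hW hWL
  set Q := Finset.univ.image qv with hQdef
  have hQmem : ∀ q ∈ Q, ∃ i, qv i = q := fun q hq' => by
    simpa [hQdef] using hq'
  have hQS1 : ∀ q ∈ Q, q ∉ S1 := fun q hq' h => by
    obtain ⟨i, rfl⟩ := hQmem q hq'
    exact (hq i).2.1 (Finset.mem_union_left _ h)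
  have hQprime : ∀ q ∈ Q, q.Prime := fun q hq' => by
    obtain ⟨i, rfl⟩ := hQmem q hq'
    exact (hq i).1
  have hdisj : Disjoint S1 Q := Finset.disjoint_right.2 hQS1
  have hprimeT : ∀ q ∈ S1 ∪ Q, q.Prime := fun q hq' =>
    (Finset.mem_union.1 hq').elim
      (fun h => (Finset.mem_union.1 h).elim (hprime q) fun h => (hAp q h).1) (hQprime q)
  obtain ⟨hfinT, hlow⟩ := hLB (S1 ∪ Q)
    (Finset.union_subset (fun q h => Finset.mem_union_left _ (Finset.mem_union_left _ h))
      fun q h => Finset.mem_union_left _ (Finset.mem_union_right _ (Finset.mem_union_left _ h)))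
    hprimeT
  have hQdist : ∀ (q : ℕ) [Fact q.Prime], q ∈ Q → ∃ g : GalQp q, ∃ α β : k, α ≠ β ∧
      (locRep ρbar q g).charpoly = (X - C α) * (X - C β) := by
    intro q hqF hq'
    obtain ⟨i, rfl⟩ := hQmem q hq'
    exact hqloc i hqF
  -- adjoint classes trivial on all of `T` are trivial
  have hsha : ∀ c ∈ globalCocycles ρbar (S1 ∪ Q),
      (∀ (q : ℕ) [Fact q.Prime], q ∈ S1 ∪ Q → resLoc q c ∈ adCoboundaries (locRep ρbar q)) →
        c ∈ adCoboundaries (matRep ρbar) := by
    intro c hc hloc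
    have key : ∀ U : Finset ℕ, U ⊆ A ∪ Q → c ∈ globalCocycles ρbar ((S1 ∪ Q) \ U) := by
      intro U
      induction U using Finset.induction_on with
      | empty => intro _; simpa using hc
      | @insert q U _ ih =>
        intro hU
        rw [Finset.insert_subset_iff] at hU
        have hqS0 : q ∉ S0 := (Finset.mem_union.1 hU.1).elim (fun h => (hAp q h).2)
          fun h h' => hQS1 q h (Finset.mem_union_left _ h')
        have hqT : q ∈ S1 ∪ Q := (Finset.mem_union.1 hU.1).elim
          (fun h => Finset.mem_union_left _ (Finset.mem_union_right _ h))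
          (Finset.mem_union_right _)
        haveI := Fact.mk (hprimeT q hqT)
        have := mem_globalCocycles_of_resLoc ρbar (hram q Fact.out hqS0) (ih hU.2) (hloc q hqT)
        rwa [show (S1 ∪ Q) \ insert q U = ((S1 ∪ Q) \ U).erase q from by
          ext x; simp; tauto]
    have h0 := key (A ∪ Q) subset_rfl
    rw [show (S1 ∪ Q) \ (A ∪ Q) = S0 from by
      ext x
      simp only [hS1, Finset.mem_sdiff, Finset.mem_union]
      refine ⟨fun h => by tauto, fun h => ⟨Or.inl (Or.inl h), ?_⟩⟩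
      rintro (h' | h')
      · exact (hAp x h').2 h
      · exact hQS1 x h' (Finset.mem_union_left _ h)] at h0
    refine hdet2 c h0 fun a ha hmem => hloc a ?_
    exact Finset.mem_union_left _ (Finset.mem_union_right _ (Finset.mem_union_right _ hmem))
  -- twisted classes trivial on `Q` are trivial
  have hdual : ∀ y ∈ dualCocycles ρbar (S1 ∪ Q),
      (∀ (q : ℕ) [Fact q.Prime], q ∈ Q → resLoc q y ∈ twCoboundaries (locRep ρbar q)) →
        y ∈ twCoboundaries (matRep ρbar) := by
    intro y hy hloc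
    have key : ∀ U : Finset ℕ, U ⊆ Q → y ∈ dualCocycles ρbar ((S1 ∪ Q) \ U) := by
      intro U
      induction U using Finset.induction_on with
      | empty => intro _; simpa using hy
      | @insert q U _ ih =>
        intro hU
        rw [Finset.insert_subset_iff] at hU
        haveI := Fact.mk (hQprime q hU.1)
        have := mem_dualCocycles_of_resLoc ρbar (hram1 q Fact.out (hQS1 q hU.1)) (ih hU.2)
          (hloc q hU.1)
        rwa [show (S1 ∪ Q) \ insert q U = ((S1 ∪ Q) \ U).erase q from by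
          ext x; simp; tauto]
    have h0 := key Q subset_rfl
    rw [show (S1 ∪ Q) \ Q = S1 from by
      rw [Finset.union_sdiff_right, sdiff_eq_self_iff_disjoint]; exact hdisj.symm] at h0
    refine hdetect y h0 fun i _ => hloc (qv i) ?_
    simp [hQdef]
  -- local conditions at `S1`
  have hA' : ∀ (a : ℕ) [Fact a.Prime], a ∈ A → ∃ L : Submodule k (GalQp a → Matrix (Fin 2) (Fin 2) k),
      adCoboundaries (locRep ρbar a) ≤ L ∧ FiniteDimensional k L ∧ Module.finrank k L ≤ 3 ∧
        ∀ c ∈ globalCocycles ρbar (S0 ∪ Q), resLoc a c ∈ L := by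
    intro a haF ha
    refine exists_unramifiedLocal ρbar (hram a Fact.out (hAp a ha).2) _ fun h => ?_
    rcases Finset.mem_union.1 h with h | h
    · exact (hAp a ha).2 h
    · exact hQS1 a h (Finset.mem_union_right _ ha)
  choose LA hLA₁ hLA₂ hLA₃ hLA₄ using hA'
  let L' : ∀ (q : ℕ) [Fact q.Prime], Submodule k (GalQp q → Matrix (Fin 2) (Fin 2) k) :=
    fun q _ => if h : q ∈ A then LA q h else L q
  let dimL : ℕ → ℕ := fun q => if q ∈ A then 3 else (3 + δ q).toNat
  have hL' : ∀ (q : ℕ) [Fact q.Prime], q ∈ S1 →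
      adCoboundaries (locRep ρbar q) ≤ L' q ∧ FiniteDimensional k (L' q) ∧
        Module.finrank k (L' q) ≤ dimL q := by
    intro q hqF hq'
    by_cases h : q ∈ A
    · rw [show L' q = LA q h from dif_pos h, show dimL q = 3 from if_pos h]
      exact ⟨hLA₁ q h, hLA₂ q h, hLA₃ q h⟩
    · rw [show L' q = L q from dif_neg h, show dimL q = (3 + δ q).toNat from if_neg h]
      obtain ⟨h1, h2, h3⟩ := hL q ((Finset.mem_union.1 hq').resolve_right h)
      exact ⟨h1, h2, by omega⟩
  obtain ⟨hfin, hle⟩ := finrank_add_finrank_dualCocycles_le p ρbar hTWH S1 Q hpS1 hdisj hprimeT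
    hram1 (fun q hq' => by
      obtain ⟨i, rfl⟩ := hQmem q hq'
      exact (dvd_pow_self p n.succ_ne_zero).trans (hq i).2.2)
    hQdist hfinT hsha hdual L' dimL hL' W
    (hW.trans fun c hc => ⟨hc.1, fun q hq' hqT => hc.2 q hq' fun h => hqT
      ((Finset.mem_union.1 h).elim (fun h => Finset.mem_union_left _ (Finset.mem_union_left _ h))
        (Finset.mem_union_right _))⟩)
    fun q hqF hq' c hc => by
      by_cases h : q ∈ A
      · simp only [L', dif_pos h]
        exact hLA₄ q h c (hW hc)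
      · simp only [L', dif_neg h]
        exact hWL q ((Finset.mem_union.1 hq').resolve_right h) c hc
  refine ⟨hfin, ?_⟩
  have hcardQ : Q.card = r := by
    rw [hQdef, Finset.card_image_of_injective _ hinj, Finset.card_univ, Fintype.card_fin]
  have hdS : Disjoint S0 A := Finset.disjoint_right.2 fun a ha => (hAp a ha).2
  have hsum : ∑ q ∈ S1, (dimL q : ℤ) = ∑ q ∈ S0, (3 + δ q) + ∑ q ∈ A, (3 : ℤ) := by
    rw [hS1, Finset.sum_union hdS]
    congr 1
    · refine Finset.sum_congr rfl fun q hq' => ?_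
      haveI := Fact.mk (hprime q hq')
      obtain ⟨-, -, h3⟩ := hL q hq'
      simp only [dimL, if_neg (Finset.disjoint_left.1 hdS hq')]
      have : (0 : ℤ) ≤ 3 + δ q := le_trans (Int.natCast_nonneg _) h3
      omega
    · exact Finset.sum_congr rfl fun q hq' => by simp [dimL, hq']
  have hcardT : (S1 ∪ Q).card = S0.card + A.card + r := by
    rw [Finset.card_union_of_disjoint hdisj, hS1, Finset.card_union_of_disjoint hdS, hcardQ]
  have hlow' : (∑ q ∈ S1 ∪ Q, (locInvDim ρbar q : ℤ)) + 4 ≤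
      (Module.finrank k (dualCocycles ρbar (S1 ∪ Q)) : ℤ) := by exact_mod_cast hlow
  simp only [Finset.sum_sub_distrib, Finset.sum_const, hcardT, hsum, hcardQ,
    Finset.sum_add_distrib, nsmul_eq_mul, Nat.cast_add] at hle
  linarith

end Fermat.Agent.TW
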