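/-
Integral models as algebras of functions: closure properties and rigidity.
-/
import Fermat.Agent.TW.LocalTame
import Mathlib.Algebra.Group.ForwardDiff
import Mathlib.LinearAlgebra.Lagrange
import Mathlib.RingTheory.Noetherian.Basic
import Mathlib.Data.Nat.Choose.Dvd

set_option autoImplicit false
set_option maxHeartbeats 400000

noncomputable section

namespace Fermat.Agent.TW

variable {p : ℕ} [Fact p.Prime] {V : Type*} [AddCommGroup V] {act : GalQp p → V → V}

theorem padicInt_smul_fun_apply {X : Type*} (a : ℤ_[p]) (f : X → PadicAlgCl p) (x : X) :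
    (a • f) x = algebraMap ℚ_[p] (PadicAlgCl p) a * f x := by
  rw [Pi.smul_apply, Algebra.smul_def,
    IsScalarTower.algebraMap_apply ℤ_[p] ℚ_[p] (PadicAlgCl p)]
  rfl

theorem norm_algebraMap_padicInt_le (a : ℤ_[p]) :
    ‖algebraMap ℚ_[p] (PadicAlgCl p) a‖ ≤ 1 := by
  rw [PadicAlgCl.norm_extends]
  exact a.norm_le_one

/-- An element fixed by all of `GalQp p` with norm at most one comes from `ℤ_p`. -/
theorem exists_padicInt_of_fixed {x : PadicAlgCl p} (hx : ∀ σ : GalQp p, σ x = x) (h1 : ‖x‖ ≤ 1) :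
    ∃ a : ℤ_[p], algebraMap ℚ_[p] (PadicAlgCl p) a = x := by
  have h : x ∈ IntermediateField.fixedField (⊤ : Subgroup (GalQp p)) := fun σ => hx σ
  rw [InfiniteGalois.fixedField_bot, IntermediateField.mem_bot] at h
  obtain ⟨a, rfl⟩ := h
  exact ⟨⟨a, by rwa [PadicAlgCl.norm_extends] at h1⟩, rfl⟩

/-- Pull back of functions. -/
def pullRing {X Y : Type*} (g : X → Y) : (Y → PadicAlgCl p) →+* (X → PadicAlgCl p) where
  toFun f x := f (g x)
  map_one' := rfl
  map_mul' _ _ := rfl
  map_zero' := rfl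
  map_add' _ _ := rfl

@[simp] theorem pullRing_apply {X Y : Type*} (g : X → Y) (f : Y → PadicAlgCl p) (x : X) :
    pullRing g f x = f (g x) := rfl

theorem norm_sum_lt_of_forall {ι : Type*} (s : Finset ι) (g : ι → PadicAlgCl p) {C : ℝ}
    (hC : 0 < C) (h : ∀ i ∈ s, ‖g i‖ < C) : ‖∑ i ∈ s, g i‖ < C := by
  classical
  induction s using Finset.induction_on with
  | empty => simpa using hC
  | insert i s his ih =>
    rw [Finset.sum_insert his]
    exact lt_of_le_of_lt (IsUltrametricDist.norm_add_le_max _ _)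
      (max_lt (h i (Finset.mem_insert_self i s)) (ih fun j hj => h j (Finset.mem_insert_of_mem hj)))

namespace LocalModel

variable (M : LocalModel p V act)

theorem algebraMap_mem (a : ℤ_[p]) :
    (fun _ : V => algebraMap ℚ_[p] (PadicAlgCl p) a) ∈ M.alg := M.padicInt_mem a

theorem smul_mem (a : ℤ_[p]) {f : V → PadicAlgCl p} (hf : f ∈ M.alg) : a • f ∈ M.alg := by
  have : a • f = (fun _ : V => algebraMap ℚ_[p] (PadicAlgCl p) a) * f :=
    funext fun x => padicInt_smul_fun_apply a f x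
  rw [this]
  exact M.alg.mul_mem (M.algebraMap_mem a) hf

/-- The algebra as a submodule over `ℤ_p`. -/
def toSubmodule : Submodule ℤ_[p] (V → PadicAlgCl p) where
  carrier := M.alg
  add_mem' := M.alg.add_mem
  zero_mem' := M.alg.zero_mem
  smul_mem' a _ hf := M.smul_mem a hf

theorem toSubmodule_fg : M.toSubmodule.FG := by
  classical
  obtain ⟨n, b, hb⟩ := M.fg
  refine ⟨Finset.univ.image fun i => (b i : V → PadicAlgCl p), le_antisymm ?_ ?_⟩
  · rw [Submodule.span_le]
    intro f hf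
    simp only [Finset.coe_image, Finset.coe_univ, Set.image_univ, Set.mem_range] at hf
    obtain ⟨i, rfl⟩ := hf
    exact (b i).2
  · intro f hf
    obtain ⟨a, ha⟩ := hb f hf
    have : f = ∑ i, a i • (b i : V → PadicAlgCl p) := by
      funext x
      rw [Finset.sum_apply, ha x]
      exact Finset.sum_congr rfl fun i _ => (padicInt_smul_fun_apply _ _ _).symm
    rw [this]
    exact sum_mem fun i _ => Submodule.smul_mem _ _ (Submodule.subset_span
      (by simp))

theorem norm_apply_le_one {f : V → PadicAlgCl p} (hf : f ∈ M.alg) (x : V) : ‖f x‖ ≤ 1 := by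
  obtain ⟨n, b, hb⟩ := M.fg
  set C := ∑ i, ‖(b i : V → PadicAlgCl p) x‖
  have hpow : ∀ j : ℕ, ‖f x‖ ^ j ≤ C := by
    intro j
    obtain ⟨a, ha⟩ := hb (f ^ j) (pow_mem hf j)
    rw [← norm_pow, show f x ^ j = (f ^ j) x from rfl, ha x]
    refine (norm_sum_le _ _).trans (Finset.sum_le_sum fun i _ => ?_)
    rw [norm_mul]
    exact mul_le_of_le_one_left (norm_nonneg _) (norm_algebraMap_padicInt_le (a i))
  by_contra h
  push Not at h
  obtain ⟨j, hj⟩ := pow_unbounded_of_one_lt C h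
  exact absurd (hpow j) (not_le.mpr hj)

include M in
theorem act_one (x : V) : act 1 x = x :=
  M.separates _ _ fun f hf => by rw [M.equivariant f hf, AlgEquiv.one_apply]

include M in
theorem act_mul (σ τ : GalQp p) (x : V) : act (σ * τ) x = act σ (act τ x) :=
  M.separates _ _ fun f hf => by
    rw [M.equivariant f hf, M.equivariant f hf, M.equivariant f hf, AlgEquiv.mul_apply]

include M in
theorem act_add (σ : GalQp p) (x y : V) : act σ (x + y) = act σ x + act σ y :=
  M.separates _ _ fun f hf => by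
    obtain ⟨n, a, b, h⟩ := M.comul_mem f hf
    rw [M.equivariant f hf, h, h, map_sum]
    exact Finset.sum_congr rfl fun i _ => by
      rw [map_mul, M.equivariant _ (a i).2, M.equivariant _ (b i).2]

include M in
theorem act_zero (σ : GalQp p) : act σ 0 = 0 := by
  have h := M.act_add σ 0 0
  simp only [add_zero] at h
  exact left_eq_add.mp h

include M in
theorem act_neg (σ : GalQp p) (x : V) : act σ (-x) = -act σ x := by
  apply eq_neg_of_add_eq_zero_left
  rw [← M.act_add, neg_add_cancel, M.act_zero]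

theorem exists_padicInt_apply_zero {f : V → PadicAlgCl p} (hf : f ∈ M.alg) :
    ∃ a : ℤ_[p], algebraMap ℚ_[p] (PadicAlgCl p) a = f 0 :=
  exists_padicInt_of_fixed (fun σ => by rw [← M.equivariant f hf, M.act_zero])
    (M.norm_apply_le_one hf 0)

theorem sub_apply_zero_mem {f : V → PadicAlgCl p} (hf : f ∈ M.alg) :
    (fun x => f x - f 0) ∈ M.alg := by
  obtain ⟨a, ha⟩ := M.exists_padicInt_apply_zero hf
  have : (fun x => f x - f 0) = f - fun _ => algebraMap ℚ_[p] (PadicAlgCl p) a :=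
    funext fun x => by simp [ha]
  rw [this]
  exact M.alg.sub_mem hf (M.algebraMap_mem a)

/-- Comultiplication in augmented form. -/
theorem comul_aug {f : V → PadicAlgCl p} (hf : f ∈ M.alg) (hf0 : f 0 = 0) :
    ∃ (n : ℕ) (a b : Fin n → M.alg), (∀ i, (a i : V → PadicAlgCl p) 0 = 0) ∧
      (∀ i, (b i : V → PadicAlgCl p) 0 = 0) ∧
      ∀ x y, f (x + y) = f x + f y + ∑ i, (a i : V → PadicAlgCl p) x * (b i : V → PadicAlgCl p) y := by
  obtain ⟨n, a, b, h⟩ := M.comul_mem f hf
  refine ⟨n, fun i => ⟨_, M.sub_apply_zero_mem (a i).2⟩,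
    fun i => ⟨_, M.sub_apply_zero_mem (b i).2⟩, fun i => sub_self _, fun i => sub_self _,
    fun x y => ?_⟩
  have hx := h x 0
  have hy := h 0 y
  have h0 := h 0 0
  rw [add_zero] at hx h0
  rw [zero_add] at hy
  rw [hf0] at h0
  simp only [sub_mul, mul_sub, Finset.sum_sub_distrib]
  rw [← h, ← hx, ← hy, ← h0]
  ring

/-- `x` reduces to the origin. -/
def IsConn (x : V) : Prop := ∀ f ∈ M.alg, ‖f x - f 0‖ < 1

theorem isConn_zero : M.IsConn 0 := fun f _ => by simp

theorem norm_aug_le {f : V → PadicAlgCl p} {x : V} {δ : ℝ} (hf : f ∈ M.alg) (hf0 : f 0 = 0)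
    (hδ : ∀ g ∈ M.alg, g 0 = 0 → ‖g x‖ ≤ δ) : ‖f x‖ ≤ δ := hδ f hf hf0

theorem IsConn.add {M : LocalModel p V act} {x y : V} (hx : M.IsConn x) (hy : M.IsConn y) :
    M.IsConn (x + y) := by
  intro f hf
  obtain ⟨n, a, b, ha, -, h⟩ := M.comul_aug (M.sub_apply_zero_mem hf) (sub_self _)
  rw [h x y]
  refine lt_of_le_of_lt (IsUltrametricDist.norm_add_le_max _ _) (max_lt
    (lt_of_le_of_lt (IsUltrametricDist.norm_add_le_max _ _) (max_lt (hx f hf) (hy f hf))) ?_)
  refine norm_sum_lt_of_forall _ _ one_pos fun i _ => ?_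
  rw [norm_mul]
  have h1 := hx _ (a i).2
  rw [ha i, sub_zero] at h1
  exact lt_of_le_of_lt (mul_le_of_le_one_right (norm_nonneg _) (M.norm_apply_le_one (b i).2 y)) h1

theorem IsConn.nsmul {M : LocalModel p V act} {x : V} (hx : M.IsConn x) (n : ℕ) :
    M.IsConn (n • x) := by
  induction n with
  | zero => rw [zero_smul]; exact M.isConn_zero
  | succ n ih => rw [succ_nsmul]; exact ih.add hx

theorem IsConn.map_act {M : LocalModel p V act} {x : V} (hx : M.IsConn x) (σ : GalQp p) :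
    M.IsConn (act σ x) := by
  intro f hf
  obtain ⟨c, hc⟩ := M.exists_padicInt_apply_zero hf
  rw [M.equivariant f hf, show f 0 = σ (f 0) by rw [← M.equivariant f hf, M.act_zero],
    ← map_sub, norm_galQp]
  exact hx f hf

/-- Inertia moves every point by a connected one. -/
theorem isConn_act_sub {s : GalQp p} (hs : s ∈ inertiaQp p) (x : V) :
    M.IsConn (act s x - x) := by
  intro f hf
  obtain ⟨n, a, b, h⟩ := M.comul_mem f hf
  have h1 : f 0 = ∑ i, (a i : V → PadicAlgCl p) x * (b i : V → PadicAlgCl p) (-x) := by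
    rw [← h, add_neg_cancel]
  rw [sub_eq_add_neg (act s x) x, h, h1, ← Finset.sum_sub_distrib]
  refine norm_sum_lt_of_forall _ _ one_pos fun i _ => ?_
  rw [← sub_mul, norm_mul, M.equivariant _ (a i).2]
  exact lt_of_le_of_lt (mul_le_of_le_one_right (norm_nonneg _) (M.norm_apply_le_one (b i).2 _))
    ((mem_inertiaQp_iff p s).mp hs _ (M.norm_apply_le_one (a i).2 x))

/-- For a nonzero point some augmented function has the largest value. -/
theorem exists_max_aug {x : V} (hx : x ≠ 0) :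
    ∃ f ∈ M.alg, f 0 = 0 ∧ f x ≠ 0 ∧ ∀ g ∈ M.alg, g 0 = 0 → ‖g x‖ ≤ ‖f x‖ := by
  classical
  obtain ⟨n, b, hb⟩ := M.fg
  let c : Fin n → (V → PadicAlgCl p) := fun i y => (b i : V → PadicAlgCl p) y - (b i : V → PadicAlgCl p) 0
  have hbound : ∀ g ∈ M.alg, g 0 = 0 → ∀ C : ℝ, 0 ≤ C → (∀ i, ‖c i x‖ ≤ C) → ‖g x‖ ≤ C := by
    intro g hg hg0 C hC hc
    obtain ⟨a, ha⟩ := hb g hg
    have h1 : g x = ∑ i, algebraMap ℚ_[p] (PadicAlgCl p) (a i) * c i x := by
      simp only [c, mul_sub, Finset.sum_sub_distrib]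
      rw [← ha x, ← ha 0, hg0, sub_zero]
    rw [h1]
    refine IsUltrametricDist.norm_sum_le_of_forall_le_of_nonneg hC fun i _ => ?_
    rw [norm_mul]
    exact (mul_le_of_le_one_left (norm_nonneg _) (norm_algebraMap_padicInt_le _)).trans (hc i)
  have hne : ∃ i, c i x ≠ 0 := by
    by_contra hcon
    push Not at hcon
    apply hx
    refine M.separates x 0 fun g hg => ?_
    have := hbound _ (M.sub_apply_zero_mem hg) (sub_self _) 0 le_rfl
      (fun i => by rw [hcon i, norm_zero])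
    exact sub_eq_zero.mp (norm_le_zero_iff.mp this)
  obtain ⟨j, hj⟩ := hne
  obtain ⟨i, -, hi⟩ :=
    Finset.exists_max_image Finset.univ (fun i => ‖c i x‖) ⟨j, Finset.mem_univ j⟩
  refine ⟨c i, M.sub_apply_zero_mem (b i).2, sub_self _, fun h => hj ?_, fun g hg hg0 => ?_⟩
  · have := hi j (Finset.mem_univ j)
    rw [h, norm_zero] at this
    exact norm_le_zero_iff.mp this
  · exact hbound g hg hg0 _ (norm_nonneg _) fun i' => hi i' (Finset.mem_univ i')

/-- Higher differences of `m ↦ f (m • x)` are small. -/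
theorem norm_fwdDiff_le {x : V} {δ : ℝ} (hδ0 : 0 ≤ δ) (hδ1 : δ ≤ 1)
    (hδ : ∀ g ∈ M.alg, g 0 = 0 → ‖g x‖ ≤ δ) :
    ∀ (j : ℕ) (f : V → PadicAlgCl p), f ∈ M.alg → ∀ m : ℕ,
      ‖(fwdDiff (1 : ℕ))^[j] (fun m : ℕ => f (m • x)) m‖ ≤ δ ^ j := by
  intro j
  induction j with
  | zero =>
    intro f hf m
    simpa using M.norm_apply_le_one hf (m • x)
  | succ j ih =>
    intro f hf m
    obtain ⟨n, a, b, ha, -, h⟩ := M.comul_aug (M.sub_apply_zero_mem hf) (sub_self _)
    set g : V → PadicAlgCl p := fun y => f y - f 0 with hg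
    have hstep : fwdDiff (1 : ℕ) (fun m : ℕ => f (m • x)) =
        (fun _ : ℕ => g x) + ∑ i, ((a i : V → PadicAlgCl p) x) •
          (fun m : ℕ => (b i : V → PadicAlgCl p) (m • x)) := by
      funext m
      simp only [fwdDiff, Pi.add_apply, Finset.sum_apply, Pi.smul_apply, smul_eq_mul]
      rw [succ_nsmul', ← sub_sub_sub_cancel_right (f (x + m • x)) (f (m • x)) (f 0)]
      show g (x + m • x) - g (m • x) = _
      rw [show g (x + m • x) = _ from h x (m • x)]
      ring
    rw [Function.iterate_succ_apply, hstep]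
    have hadd : (fwdDiff (1 : ℕ))^[j] ((fun _ : ℕ => g x) + ∑ i, ((a i : V → PadicAlgCl p) x) •
          (fun m : ℕ => (b i : V → PadicAlgCl p) (m • x))) m =
        (fwdDiff (1 : ℕ))^[j] (fun _ : ℕ => g x) m + ∑ i, ((a i : V → PadicAlgCl p) x) *
          (fwdDiff (1 : ℕ))^[j] (fun m : ℕ => (b i : V → PadicAlgCl p) (m • x)) m := by
      rw [fwdDiff_iter_add, Pi.add_apply, fwdDiff_iter_finset_sum, Finset.sum_apply]
      simp [fwdDiff_iter_const_smul]
    rw [hadd]
    have hgx : ‖g x‖ ≤ δ := hδ g (M.sub_apply_zero_mem hf) (sub_self _)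
    refine (IsUltrametricDist.norm_add_le_max _ _).trans (max_le ?_ ?_)
    · rcases j with _ | j
      · simpa using hgx
      · rw [Function.iterate_succ_apply, fwdDiff_const]
        have hz : ∀ i, (fwdDiff (1 : ℕ))^[i] (0 : ℕ → PadicAlgCl p) = 0 := by
          intro i
          induction i with
          | zero => rfl
          | succ i ih =>
            rw [Function.iterate_succ_apply', ih]
            funext t
            simp [fwdDiff]
        rw [show (fun _ : ℕ => (0 : PadicAlgCl p)) = 0 from rfl, hz, Pi.zero_apply, norm_zero]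
        exact pow_nonneg hδ0 _
    · refine IsUltrametricDist.norm_sum_le_of_forall_le_of_nonneg (pow_nonneg hδ0 _) fun i _ => ?_
      rw [norm_mul, pow_succ']
      exact mul_le_mul (hδ _ (a i).2 (ha i)) (ih _ (b i).2 m) (norm_nonneg _) hδ0

/-- The basic estimate: a connected `p`-torsion point is at distance at least `p^(-1/(p-1))` from
the origin. -/
theorem inv_p_le_pow_of_isConn {x : V} (hpx : p • x = 0) (hconn : M.IsConn x)
    {f : V → PadicAlgCl p} (hf : f ∈ M.alg) (hf0 : f 0 = 0) (hfx : f x ≠ 0)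
    (hmax : ∀ g ∈ M.alg, g 0 = 0 → ‖g x‖ ≤ ‖f x‖) :
    (p : ℝ)⁻¹ ≤ ‖f x‖ ^ (p - 1) := by
  have hp : p.Prime := Fact.out
  by_contra hlt
  push Not at hlt
  set δ := ‖f x‖ with hδ
  have hδpos : 0 < δ := norm_pos_iff.mpr hfx
  have hδ1 : δ < 1 := by
    have := hconn f hf
    rwa [hf0, sub_zero] at this
  have hsum := shift_eq_sum_fwdDiff_iter (1 : ℕ) (fun m : ℕ => f (m • x)) p 0
  simp only [smul_eq_mul, mul_one, zero_add, hpx, hf0] at hsum
  rw [← Finset.add_sum_erase _ _ (Finset.mem_range.mpr (show 1 < p + 1 by have := hp.pos; omega))] at hsum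
  set rest := ∑ k ∈ (Finset.range (p + 1)).erase 1,
    p.choose k • (fwdDiff (1 : ℕ))^[k] (fun m : ℕ => f (m • x)) 0 with hrest
  have hmain : p.choose 1 • (fwdDiff (1 : ℕ))^[1] (fun m : ℕ => f (m • x)) 0 =
      (p : PadicAlgCl p) * f x := by
    simp [fwdDiff, nsmul_eq_mul, hf0]
  rw [hmain] at hsum
  have h2 : ‖rest‖ < (p : ℝ)⁻¹ * δ := by
    refine norm_sum_lt_of_forall _ _
      (mul_pos (inv_pos.mpr (by exact_mod_cast hp.pos)) hδpos) fun k hk => ?_
    rw [Finset.mem_erase, Finset.mem_range] at hk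
    have hle := M.norm_fwdDiff_le hδpos.le hδ1.le hmax k f hf 0
    rw [nsmul_eq_mul, norm_mul]
    rcases Nat.lt_or_ge k 1 with h0 | h0
    · obtain rfl : k = 0 := by omega
      simp only [Function.iterate_zero, id_eq, zero_smul, hf0, norm_zero, mul_zero]
      exact mul_pos (inv_pos.mpr (by exact_mod_cast hp.pos)) hδpos
    have h2k : 2 ≤ k := by omega
    rcases Nat.lt_or_ge k p with hkp | hkp
    · have hdvd : p ∣ p.choose k := Nat.Prime.dvd_choose_self hp (by omega) hkp
      obtain ⟨c, hc⟩ := hdvd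
      rw [hc, Nat.cast_mul, norm_mul, norm_p, mul_assoc]
      refine mul_lt_mul_of_pos_left ?_ (inv_pos.mpr (by exact_mod_cast hp.pos))
      calc ‖(c : PadicAlgCl p)‖ * ‖(fwdDiff (1 : ℕ))^[k] (fun m : ℕ => f (m • x)) 0‖
          ≤ 1 * δ ^ k := mul_le_mul (norm_natCast_le p c) hle (norm_nonneg _) zero_le_one
        _ = δ ^ k := one_mul _
        _ ≤ δ ^ 2 := pow_le_pow_of_le_one hδpos.le hδ1.le h2k
        _ < δ := by nlinarith
    · obtain rfl : k = p := by omega
      rw [Nat.choose_self, Nat.cast_one, norm_one, one_mul]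
      calc _ ≤ δ ^ k := hle
        _ = δ ^ (k - 1) * δ := by rw [← pow_succ]; congr 1; omega
        _ < (k : ℝ)⁻¹ * δ := mul_lt_mul_of_pos_right hlt hδpos
  have h3 : (p : PadicAlgCl p) * f x = -rest := eq_neg_of_add_eq_zero_left hsum.symm
  have h4 : ‖rest‖ = (p : ℝ)⁻¹ * δ := by rw [← norm_neg, ← h3, norm_mul, norm_p]
  exact absurd h4 h2.ne

/-- Rigidity: a `p`-torsion point closer to the origin is the origin. -/
theorem eq_zero_of_small {x : V} (hpx : p • x = 0) {c : ℝ} (_hc0 : 0 ≤ c) (hc1 : c < 1)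
    (hc : c ^ (p - 1) < (p : ℝ)⁻¹) (h : ∀ f ∈ M.alg, ‖f x - f 0‖ ≤ c) : x = 0 := by
  by_contra hx
  obtain ⟨f, hf, hf0, hfx, hmax⟩ := M.exists_max_aug hx
  have h1 := M.inv_p_le_pow_of_isConn hpx (fun g hg => (h g hg).trans_lt hc1) hf hf0 hfx hmax
  have h2 : ‖f x‖ ≤ c := by simpa [hf0] using h f hf
  exact absurd (h1.trans (pow_le_pow_left₀ (norm_nonneg _) h2 _)) (not_le.mpr hc)

/-- Rigidity for two points. -/
theorem eq_of_close (hpV : ∀ v : V, p • v = 0) {x y : V} {c : ℝ} (hc0 : 0 ≤ c) (hc1 : c < 1)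
    (hc : c ^ (p - 1) < (p : ℝ)⁻¹) (h : ∀ f ∈ M.alg, ‖f x - f y‖ ≤ c) : x = y := by
  refine sub_eq_zero.mp (M.eq_zero_of_small (hpV _) hc0 hc1 hc fun f hf => ?_)
  obtain ⟨n, a, b, hab⟩ := M.comul_mem f hf
  have h1 : f 0 = ∑ i, (a i : V → PadicAlgCl p) y * (b i : V → PadicAlgCl p) (-y) := by
    rw [← hab, add_neg_cancel]
  rw [sub_eq_add_neg x y, hab, h1, ← Finset.sum_sub_distrib]
  refine IsUltrametricDist.norm_sum_le_of_forall_le_of_nonneg hc0 fun i _ => ?_
  rw [← sub_mul, norm_mul]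
  exact (mul_le_of_le_one_right (norm_nonneg _) (M.norm_apply_le_one (b i).2 _)).trans
    (h _ (a i).2)

include M in
/-- A connected point fixed by inertia is zero. -/
theorem eq_zero_of_isConn_of_fixed (hp2 : p ≠ 2) {x : V} (hpx : p • x = 0) (hconn : M.IsConn x)
    (hfix : ∀ s ∈ inertiaQp p, act s x = x) : x = 0 := by
  by_contra hx
  obtain ⟨f, hf, hf0, hfx, hmax⟩ := M.exists_max_aug hx
  have h1 := M.inv_p_le_pow_of_isConn hpx hconn hf hf0 hfx hmax
  have hlt : ‖f x‖ < 1 := by simpa [hf0] using hconn f hf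
  obtain ⟨m, hm⟩ := exists_zpow_norm_eq_of_inertia_fixed p hfx
    (fun s hs => by rw [← M.equivariant f hf, hfix s hs])
  have hp : p.Prime := Fact.out
  have hp1 : (1 : ℝ) < p := by exact_mod_cast hp.one_lt
  rw [hm] at h1 hlt
  have hm1 : m < 0 := (zpow_lt_one_iff_right₀ hp1).mp hlt
  rw [← zpow_neg_one, ← zpow_natCast, ← zpow_mul, zpow_le_zpow_iff_right₀ hp1] at h1
  have := hp.two_le
  have hp3 : (2 : ℤ) ≤ ((p - 1 : ℕ) : ℤ) := by exact_mod_cast (show 2 ≤ p - 1 by omega)
  nlinarith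

variable {W : Type*} [AddCommGroup W] {actW : GalQp p → W → W}

/-- Restriction of a model to a stable subgroup. -/
def restrict (ι : W →+ V) (hι : Function.Injective ι)
    (hact : ∀ σ w, ι (actW σ w) = act σ (ι w)) : LocalModel p W actW where
  alg := M.alg.map (pullRing ι)
  padicInt_mem a := ⟨_, M.padicInt_mem a, rfl⟩
  fg := by
    obtain ⟨n, b, hb⟩ := M.fg
    refine ⟨n, fun i => ⟨_, ⟨(b i : V → PadicAlgCl p), (b i).2, rfl⟩⟩, ?_⟩
    rintro _ ⟨f, hf, rfl⟩
    obtain ⟨a, ha⟩ := hb f hf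
    exact ⟨a, fun w => ha (ι w)⟩
  equivariant := by
    rintro _ ⟨f, hf, rfl⟩ σ w
    show f (ι (actW σ w)) = σ (f (ι w))
    rw [hact]; exact M.equivariant f hf σ _
  separates x y h := hι (M.separates _ _ fun f hf => h _ ⟨f, hf, rfl⟩)
  comul_mem := by
    rintro _ ⟨f, hf, rfl⟩
    obtain ⟨n, a, b, h⟩ := M.comul_mem f hf
    exact ⟨n, fun i => ⟨_, ⟨(a i : V → PadicAlgCl p), (a i).2, rfl⟩⟩,
      fun i => ⟨_, ⟨(b i : V → PadicAlgCl p), (b i).2, rfl⟩⟩,
      fun x y => by show f (ι (x + y)) = _; rw [map_add]; exact h _ _⟩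

theorem restrict_alg (ι : W →+ V) (hι : Function.Injective ι)
    (hact : ∀ σ w, ι (actW σ w) = act σ (ι w)) :
    (M.restrict ι hι hact).alg = M.alg.map (pullRing ι) := rfl

theorem isConn_restrict_iff (ι : W →+ V) (hι : Function.Injective ι)
    (hact : ∀ σ w, ι (actW σ w) = act σ (ι w)) (w : W) :
    (M.restrict ι hι hact).IsConn w ↔ M.IsConn (ι w) := by
  constructor
  · intro h f hf
    have hm : pullRing ι f ∈ (M.restrict ι hι hact).alg :=
      by rw [restrict_alg]; exact Subring.mem_map.mpr ⟨f, hf, rfl⟩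
    have h1 := h _ hm
    simp only [pullRing_apply, map_zero] at h1
    exact h1
  · intro h g hg
    rw [restrict_alg] at hg
    obtain ⟨f, hf, rfl⟩ := Subring.mem_map.mp hg
    simp only [pullRing_apply, map_zero]
    exact h f hf

end LocalModel

end Fermat.Agent.TW
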