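/-
Products and quotients of integral models.
-/
import Fermat.Agent.TW.LocalModel

set_option autoImplicit false
set_option maxHeartbeats 400000

noncomputable section

namespace Fermat.Agent.TW

variable {p : ℕ} [Fact p.Prime] {V : Type*} [AddCommGroup V] {act : GalQp p → V → V}
  {W : Type*} [AddCommGroup W] {actW : GalQp p → W → W}
  {U : Type*} [AddCommGroup U] {actU : GalQp p → U → U}

theorem padicInt_noetherian : IsNoetherianRing ℤ_[p] := inferInstance

/-- An algebra of functions contained in a finitely generated module is finitely generated. -/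
theorem exists_generators_of_le {X : Type*} (A : Subring (X → PadicAlgCl p))
    (hA : ∀ (a : ℤ_[p]), ∀ f ∈ A, a • f ∈ A) {Y : Type*}
    (L : (X → PadicAlgCl p) →ₗ[ℤ_[p]] (Y → PadicAlgCl p)) (hL : Function.Injective L)
    (S : Submodule ℤ_[p] (Y → PadicAlgCl p)) (hS : S.FG) (h : ∀ f ∈ A, L f ∈ S) :
    ∃ (n : ℕ) (b : Fin n → A), ∀ f ∈ A, ∃ a : Fin n → ℤ_[p],
      ∀ x, f x = ∑ i, algebraMap ℚ_[p] (PadicAlgCl p) (a i) * (b i : X → PadicAlgCl p) x := by
  classical
  let N : Submodule ℤ_[p] (X → PadicAlgCl p) :=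
    { carrier := A
      add_mem' := A.add_mem
      zero_mem' := A.zero_mem
      smul_mem' := fun a _ hf => hA a _ hf }
  haveI : IsNoetherian ℤ_[p] S := isNoetherian_of_fg_of_noetherian S hS
  haveI : IsNoetherian ℤ_[p] N :=
    isNoetherian_of_injective ((L.comp N.subtype).codRestrict S fun f => h f.1 f.2)
      (fun f g hfg => Subtype.ext (hL (congrArg Subtype.val hfg)))
  obtain ⟨n, s, hs⟩ := Submodule.fg_iff_exists_fin_generating_family.mp
    (IsNoetherian.noetherian (⊤ : Submodule ℤ_[p] N))
  refine ⟨n, fun i => ⟨(s i : X → PadicAlgCl p), (s i).2⟩, fun f hf => ?_⟩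
  have hmem : (⟨f, hf⟩ : N) ∈ Submodule.span ℤ_[p] (Set.range s) := hs ▸ Submodule.mem_top
  obtain ⟨a, ha⟩ := (Submodule.mem_span_range_iff_exists_fun ℤ_[p]).mp hmem
  refine ⟨a, fun x => ?_⟩
  have h1 := congrFun (congrArg Subtype.val ha) x
  simp only [AddSubmonoidClass.coe_finsetSum, SetLike.val_smul, Finset.sum_apply] at h1
  rw [← h1]
  exact Finset.sum_congr rfl fun i _ => padicInt_smul_fun_apply _ _ _

/-- Finite sums of products of functions of the two variables. -/
def boxSubring (A : Subring (V → PadicAlgCl p)) (B : Subring (W → PadicAlgCl p)) :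
    Subring (V × W → PadicAlgCl p) :=
  A.map (pullRing Prod.fst) ⊔ B.map (pullRing Prod.snd)

theorem mem_boxSubring_iff (A : Subring (V → PadicAlgCl p)) (B : Subring (W → PadicAlgCl p))
    (F : V × W → PadicAlgCl p) :
    F ∈ boxSubring A B ↔ ∃ (n : ℕ) (a : Fin n → A) (b : Fin n → B),
      ∀ z : V × W, F z = ∑ i, (a i : V → PadicAlgCl p) z.1 * (b i : W → PadicAlgCl p) z.2 := by
  constructor
  · intro hF
    rw [boxSubring] at hF
    let T : Subring (V × W → PadicAlgCl p) :=
    { carrier := {F | ∃ (n : ℕ) (a : Fin n → A) (b : Fin n → B),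
        ∀ z : V × W, F z = ∑ i, (a i : V → PadicAlgCl p) z.1 * (b i : W → PadicAlgCl p) z.2}
      one_mem' := ⟨1, fun _ => 1, fun _ => 1, fun z => by simp⟩
      zero_mem' := ⟨0, Fin.elim0, Fin.elim0, fun z => by simp⟩
      add_mem' := by
        rintro _ _ ⟨n, a, b, h⟩ ⟨n', a', b', h'⟩
        exact ⟨n + n', Fin.append a a', Fin.append b b', fun z => by
          rw [Fin.sum_univ_add]; simp [h z, h' z]⟩
      neg_mem' := by
        rintro _ ⟨n, a, b, h⟩
        exact ⟨n, fun i => -a i, b, fun z => by simp [h z]⟩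
      mul_mem' := by
        rintro _ _ ⟨n, a, b, h⟩ ⟨n', a', b', h'⟩
        refine ⟨n * n', fun i => a (finProdFinEquiv.symm i).1 * a' (finProdFinEquiv.symm i).2,
          fun i => b (finProdFinEquiv.symm i).1 * b' (finProdFinEquiv.symm i).2, fun z => ?_⟩
        rw [Pi.mul_apply, h z, h' z, Finset.sum_mul_sum, ← Fintype.sum_prod_type',
          ← finProdFinEquiv.symm.sum_comp]
        refine Finset.sum_congr rfl fun i _ => ?_
        simp only [MulMemClass.coe_mul, Pi.mul_apply]
        ring }
    suffices hle : A.map (pullRing Prod.fst) ⊔ B.map (pullRing Prod.snd) ≤ T from hle hF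
    refine sup_le ?_ ?_
    · rintro _ ⟨f, hf, rfl⟩
      exact ⟨1, fun _ => ⟨f, hf⟩, fun _ => 1, fun z => by simp⟩
    · rintro _ ⟨f, hf, rfl⟩
      exact ⟨1, fun _ => 1, fun _ => ⟨f, hf⟩, fun z => by simp⟩
  · rintro ⟨n, a, b, h⟩
    have hF : F = ∑ i, pullRing Prod.fst (a i : V → PadicAlgCl p) *
        pullRing Prod.snd (b i : W → PadicAlgCl p) := by
      funext z
      rw [Finset.sum_apply, h z]
      rfl
    rw [hF, boxSubring]
    exact sum_mem fun i _ => mul_mem
      (le_sup_left (α := Subring _) (Subring.mem_map.mpr ⟨_, (a i).2, rfl⟩))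
      (le_sup_right (α := Subring _) (Subring.mem_map.mpr ⟨_, (b i).2, rfl⟩))

namespace LocalModel

variable (M : LocalModel p V act) (N : LocalModel p W actW)

/-- Product of two models. -/
def prod : LocalModel p (V × W) (fun σ z => (act σ z.1, actW σ z.2)) where
  alg := boxSubring M.alg N.alg
  padicInt_mem a := (mem_boxSubring_iff _ _ _).mpr
    ⟨1, fun _ => ⟨_, M.padicInt_mem a⟩, fun _ => 1, fun z => by simp⟩
  fg := by
    classical
    obtain ⟨n, b, hb⟩ := M.fg
    obtain ⟨n', b', hb'⟩ := N.fg
    refine ⟨n * n', fun j => ⟨pullRing Prod.fst (b (finProdFinEquiv.symm j).1 : V → PadicAlgCl p) *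
      pullRing Prod.snd (b' (finProdFinEquiv.symm j).2 : W → PadicAlgCl p),
      mul_mem (le_sup_left (α := Subring _) (Subring.mem_map.mpr ⟨_, (b _).2, rfl⟩))
        (le_sup_right (α := Subring _) (Subring.mem_map.mpr ⟨_, (b' _).2, rfl⟩))⟩, fun F hF => ?_⟩
    obtain ⟨m, a, c, h⟩ := (mem_boxSubring_iff _ _ _).mp hF
    choose u hu using fun i => hb _ (a i).2
    choose v hv using fun i => hb' _ (c i).2
    refine ⟨fun j => ∑ i, u i (finProdFinEquiv.symm j).1 * v i (finProdFinEquiv.symm j).2,
      fun z => ?_⟩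
    calc F z = ∑ i, ∑ s : Fin n × Fin n', algebraMap ℚ_[p] (PadicAlgCl p) ((u i s.1 * v i s.2 : ℤ_[p]) : ℚ_[p]) *
          ((b s.1 : V → PadicAlgCl p) z.1 * (b' s.2 : W → PadicAlgCl p) z.2) := by
          rw [h z]
          refine Finset.sum_congr rfl fun i _ => ?_
          rw [hu i z.1, hv i z.2, Finset.sum_mul_sum, ← Fintype.sum_prod_type']
          refine Finset.sum_congr rfl fun s _ => ?_
          push_cast
          ring
      _ = _ := by
          rw [Finset.sum_comm, ← finProdFinEquiv.symm.sum_comp]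
          refine Finset.sum_congr rfl fun j _ => ?_
          rw [← Finset.sum_mul, ← map_sum]
          simp [pullRing_apply]
  equivariant F hF σ z := by
    obtain ⟨m, a, c, h⟩ := (mem_boxSubring_iff _ _ _).mp hF
    rw [h, h, map_sum]
    exact Finset.sum_congr rfl fun i _ => by
      rw [map_mul, M.equivariant _ (a i).2, N.equivariant _ (c i).2]
  separates x y h := by
    refine Prod.ext (M.separates _ _ fun f hf => ?_) (N.separates _ _ fun f hf => ?_)
    · have h1 := h _ (le_sup_left (α := Subring _) (Subring.mem_map.mpr ⟨f, hf, rfl⟩))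
      simpa only [pullRing_apply] using h1
    · have h1 := h _ (le_sup_right (α := Subring _) (Subring.mem_map.mpr ⟨f, hf, rfl⟩))
      simpa only [pullRing_apply] using h1
  comul_mem F hF := by
    obtain ⟨m, a, c, h⟩ := (mem_boxSubring_iff _ _ _).mp hF
    choose k u u' hu using fun i => M.comul_mem _ (a i).2
    choose l v v' hv using fun i => N.comul_mem _ (c i).2
    let e : Fin (∑ i, k i * l i) ≃ Σ i : Fin m, Fin (k i) × Fin (l i) :=
      (finSigmaFinEquiv).symm.trans (Equiv.sigmaCongrRight fun i => finProdFinEquiv.symm)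
    refine ⟨∑ i, k i * l i,
      fun j => ⟨fun z => (u (e j).1 (e j).2.1 : V → PadicAlgCl p) z.1 *
        (v (e j).1 (e j).2.2 : W → PadicAlgCl p) z.2, (mem_boxSubring_iff _ _ _).mpr
          ⟨1, fun _ => u (e j).1 (e j).2.1, fun _ => v (e j).1 (e j).2.2, fun z => by simp⟩⟩,
      fun j => ⟨fun z => (u' (e j).1 (e j).2.1 : V → PadicAlgCl p) z.1 *
        (v' (e j).1 (e j).2.2 : W → PadicAlgCl p) z.2, (mem_boxSubring_iff _ _ _).mpr
          ⟨1, fun _ => u' (e j).1 (e j).2.1, fun _ => v' (e j).1 (e j).2.2, fun z => by simp⟩⟩,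
      fun x y => ?_⟩
    rw [h, e.sum_comp fun s : Σ i : Fin m, Fin (k i) × Fin (l i) =>
      ((u s.1 s.2.1 : V → PadicAlgCl p) x.1 * (v s.1 s.2.2 : W → PadicAlgCl p) x.2) *
      ((u' s.1 s.2.1 : V → PadicAlgCl p) y.1 * (v' s.1 s.2.2 : W → PadicAlgCl p) y.2),
      Fintype.sum_sigma]
    refine Finset.sum_congr rfl fun i _ => ?_
    rw [Prod.fst_add, Prod.snd_add, hu, hv, Finset.sum_mul_sum, Fintype.sum_prod_type]
    exact Finset.sum_congr rfl fun _ _ => Finset.sum_congr rfl fun _ _ => by ring

/-- Galois descent: equivariant functions which are dependent over `Q̄_p` are dependent over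
`ℚ_p`. -/
theorem exists_padic_relation {ι : Type*} [Fintype ι] (b : ι → M.alg) (c : ι → PadicAlgCl p)
    (hc : c ≠ 0) (hrel : ∀ x, ∑ i, c i * (b i : V → PadicAlgCl p) x = 0) :
    ∃ d : ι → ℚ_[p], d ≠ 0 ∧
      ∀ x, ∑ i, algebraMap ℚ_[p] (PadicAlgCl p) (d i) * (b i : V → PadicAlgCl p) x = 0 := by
  classical
  induction hN : (Finset.univ.filter fun i => c i ≠ 0).card using Nat.strong_induction_on
    generalizing c with
  | _ N ih =>
    obtain ⟨i₀, hi₀⟩ := Function.ne_iff.mp hc
    set c' : ι → PadicAlgCl p := fun i => c i / c i₀ with hc'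
    have hc'0 : c' i₀ = 1 := div_self hi₀
    have hrel' : ∀ x, ∑ i, c' i * (b i : V → PadicAlgCl p) x = 0 := by
      intro x
      have : ∑ i, c' i * (b i : V → PadicAlgCl p) x =
          (c i₀)⁻¹ * ∑ i, c i * (b i : V → PadicAlgCl p) x := by
        rw [Finset.mul_sum]
        exact Finset.sum_congr rfl fun i _ => by simp only [hc', div_eq_mul_inv]; ring
      rw [this, hrel x, mul_zero]
    by_cases hfix : ∀ (σ : GalQp p) (i : ι), σ (c' i) = c' i
    · have hd : ∀ i, ∃ d : ℚ_[p], algebraMap ℚ_[p] (PadicAlgCl p) d = c' i := fun i => by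
        have h : c' i ∈ IntermediateField.fixedField (⊤ : Subgroup (GalQp p)) := fun σ => hfix σ i
        rw [InfiniteGalois.fixedField_bot, IntermediateField.mem_bot] at h
        exact h
      choose d hd using hd
      refine ⟨d, fun h => ?_, fun x => by simp only [hd]; exact hrel' x⟩
      have := hd i₀
      rw [h, hc'0] at this
      simp at this
    push Not at hfix
    obtain ⟨σ, i₁, hi₁⟩ := hfix
    refine ih ((Finset.univ.filter fun i => σ (c' i) - c' i ≠ 0).card) ?_
      (fun i => σ (c' i) - c' i) (Function.ne_iff.mpr ⟨i₁, sub_ne_zero.mpr hi₁⟩) (fun x => ?_) rfl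
    · rw [← hN]
      refine Finset.card_lt_card ((Finset.ssubset_iff_of_subset ?_).mpr ⟨i₀, ?_, ?_⟩)
      · intro i hi
        simp only [Finset.mem_filter, Finset.mem_univ, true_and] at hi ⊢
        intro h
        exact hi (by simp [hc', h])
      · exact Finset.mem_filter.mpr ⟨Finset.mem_univ _, hi₀⟩
      · simp [hc'0]
    · have hx : ∑ i, σ (c' i) * (b i : V → PadicAlgCl p) x = 0 := by
        have h1 := congrArg σ (hrel' (act σ⁻¹ x))
        rw [map_zero, map_sum] at h1
        rw [← h1]
        refine Finset.sum_congr rfl fun i _ => ?_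
        rw [map_mul, ← M.equivariant _ (b i).2, ← M.act_mul, mul_inv_cancel, M.act_one]
      simp only [sub_mul, Finset.sum_sub_distrib, hx, hrel' x, sub_zero]

include M in
/-- In a shortest expression the factors are independent over `Q̄_p`. -/
theorem exists_indep_comul {f : V → PadicAlgCl p} (hf : f ∈ M.alg) :
    ∃ (n : ℕ) (a b : Fin n → M.alg),
      (∀ x y, f (x + y) = ∑ i, (a i : V → PadicAlgCl p) x * (b i : V → PadicAlgCl p) y) ∧
      (∀ c : Fin n → PadicAlgCl p, (∀ x, ∑ i, c i * (a i : V → PadicAlgCl p) x = 0) → c = 0) ∧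
      ∀ c : Fin n → PadicAlgCl p, (∀ y, ∑ i, c i * (b i : V → PadicAlgCl p) y = 0) → c = 0 := by
  classical
  let P : ℕ → Prop := fun n => ∃ a b : Fin n → M.alg,
    ∀ x y, f (x + y) = ∑ i, (a i : V → PadicAlgCl p) x * (b i : V → PadicAlgCl p) y
  obtain ⟨n₀, h₀⟩ := M.comul_mem f hf
  have hP : ∃ n, P n := ⟨n₀, h₀⟩
  obtain ⟨a, b, hab⟩ := Nat.find_spec hP
  -- a dependency shortens the expression
  have key : ∀ (n : ℕ) (a b : Fin n → M.alg) (c : Fin n → PadicAlgCl p),
      (∀ x y, f (x + y) = ∑ i, (a i : V → PadicAlgCl p) x * (b i : V → PadicAlgCl p) y) →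
      c ≠ 0 → (∀ y, ∑ i, c i * (b i : V → PadicAlgCl p) y = 0) →
      ∃ m < n, ∃ a' b' : Fin m → M.alg,
        ∀ x y, f (x + y) = ∑ i, (a' i : V → PadicAlgCl p) x * (b' i : V → PadicAlgCl p) y := by
    intro n a b c hab hc hrel
    obtain ⟨d, hd, hdrel⟩ := M.exists_padic_relation b c hc hrel
    obtain ⟨j, hj⟩ := Function.ne_iff.mp hd
    obtain ⟨i₀, -, hi₀⟩ :=
      Finset.exists_max_image Finset.univ (fun i => ‖d i‖) ⟨j, Finset.mem_univ j⟩
    have hd0 : d i₀ ≠ 0 := fun h => by
      have := hi₀ j (Finset.mem_univ j)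
      rw [h, norm_zero] at this
      exact hj (norm_le_zero_iff.mp this)
    have hle : ∀ i, ‖-(d i / d i₀)‖ ≤ 1 := fun i => by
      rw [norm_neg, norm_div]
      exact (div_le_one (norm_pos_iff.mpr hd0)).mpr (hi₀ i (Finset.mem_univ i))
    obtain ⟨m, rfl⟩ : ∃ m, n = m + 1 := ⟨n - 1, by have := i₀.2; omega⟩
    let e : Fin m → ℤ_[p] := fun i => ⟨_, hle (i₀.succAbove i)⟩
    refine ⟨m, Nat.lt_succ_self m,
      fun i => ⟨(a (i₀.succAbove i) : V → PadicAlgCl p) + e i • (a i₀ : V → PadicAlgCl p),
        M.alg.add_mem (a _).2 (M.smul_mem _ (a i₀).2)⟩,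
      fun i => b (i₀.succAbove i), fun x y => ?_⟩
    have hb : (b i₀ : V → PadicAlgCl p) y =
        ∑ i, algebraMap ℚ_[p] (PadicAlgCl p) (e i) * (b (i₀.succAbove i) : V → PadicAlgCl p) y := by
      have h1 := hdrel y
      rw [Fin.sum_univ_succAbove _ i₀] at h1
      have hne : algebraMap ℚ_[p] (PadicAlgCl p) (d i₀) ≠ 0 := (map_ne_zero _).mpr hd0
      apply mul_left_cancel₀ hne
      rw [eq_neg_of_add_eq_zero_left h1, Finset.mul_sum, ← Finset.sum_neg_distrib]
      refine Finset.sum_congr rfl fun i _ => ?_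
      show _ = algebraMap ℚ_[p] (PadicAlgCl p) (d i₀) *
        (algebraMap ℚ_[p] (PadicAlgCl p) (-(d (i₀.succAbove i) / d i₀)) * _)
      rw [← mul_assoc, ← map_mul, mul_neg, mul_div_cancel₀ _ hd0, map_neg, neg_mul]
    rw [hab, Fin.sum_univ_succAbove _ i₀, hb, Finset.mul_sum, ← Finset.sum_add_distrib]
    refine Finset.sum_congr rfl fun i _ => ?_
    simp only [Pi.add_apply, padicInt_smul_fun_apply]
    ring
  refine ⟨_, a, b, hab, fun c hrel => ?_, fun c hrel => ?_⟩
  · by_contra hc
    obtain ⟨m, hm, a', b', h'⟩ := key _ b a c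
      (fun x y => by
        rw [add_comm, hab]
        exact Finset.sum_congr rfl fun i _ => mul_comm _ _) hc hrel
    exact Nat.find_min hP hm ⟨b', a', fun x y => by
      rw [add_comm, h']
      exact Finset.sum_congr rfl fun i _ => mul_comm _ _⟩
  · by_contra hc
    obtain ⟨m, hm, a', b', h'⟩ := key _ a b c hab hc hrel
    exact Nat.find_min hP hm ⟨a', b', h'⟩

variable [Fintype V]

include M in
/-- Sums over the fibres of a quotient map. -/
theorem sum_ker_mem (π : V →+ U) (hact : ∀ σ v, π (act σ v) = actU σ (π v)) [Fintype π.ker]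
    {f : V → PadicAlgCl p} (hf : f ∈ M.alg) :
    (fun x => ∑ n : π.ker, f (x + n)) ∈ M.alg := by
  classical
  obtain ⟨m, a, b, h⟩ := M.comul_mem f hf
  have hker : ∀ (σ : GalQp p) (n : π.ker), act σ n ∈ π.ker := fun σ n => by
    rw [AddMonoidHom.mem_ker, hact, show π n = π 0 by rw [map_zero]; exact n.2, ← hact, M.act_zero,
      map_zero]
  have hfix : ∀ i (σ : GalQp p), σ (∑ n : π.ker, (b i : V → PadicAlgCl p) n) =
      ∑ n : π.ker, (b i : V → PadicAlgCl p) n := by
    intro i σ
    rw [map_sum]
    let e : π.ker ≃ π.ker :=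
      { toFun := fun n => ⟨act σ n, hker σ n⟩
        invFun := fun n => ⟨act σ⁻¹ n, hker σ⁻¹ n⟩
        left_inv := fun n => Subtype.ext (by
          show act σ⁻¹ (act σ n) = n
          rw [← M.act_mul, inv_mul_cancel, M.act_one])
        right_inv := fun n => Subtype.ext (by
          show act σ (act σ⁻¹ n) = n
          rw [← M.act_mul, mul_inv_cancel, M.act_one]) }
    rw [← e.sum_comp fun n : π.ker => (b i : V → PadicAlgCl p) n]
    exact Finset.sum_congr rfl fun n _ => (M.equivariant _ (b i).2 σ n).symm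
  have hint : ∀ i, ∃ d : ℤ_[p],
      algebraMap ℚ_[p] (PadicAlgCl p) d = ∑ n : π.ker, (b i : V → PadicAlgCl p) n := fun i =>
    exists_padicInt_of_fixed (hfix i) (IsUltrametricDist.norm_sum_le_of_forall_le_of_nonneg
      zero_le_one fun n _ => M.norm_apply_le_one (b i).2 _)
  choose d hd using hint
  have : (fun x => ∑ n : π.ker, f (x + n)) = ∑ i, d i • (a i : V → PadicAlgCl p) := by
    funext x
    rw [Finset.sum_apply]
    simp_rw [padicInt_smul_fun_apply, hd, h, Finset.sum_mul]
    rw [Finset.sum_comm]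
    exact Finset.sum_congr rfl fun i _ => Finset.sum_congr rfl fun n _ => mul_comm _ _
  rw [this]
  exact sum_mem fun i _ => M.smul_mem _ (a i).2

/-- The Lagrange interpolation: the algebra spans all functions. -/
theorem exists_indicator [DecidableEq V] (x : V) :
    ∃ (n : ℕ) (c : Fin n → PadicAlgCl p) (f : Fin n → M.alg),
      ∀ y, ∑ i, c i * (f i : V → PadicAlgCl p) y = if y = x then 1 else 0 := by
  let T : Submodule (PadicAlgCl p) (V → PadicAlgCl p) :=
    Submodule.span (PadicAlgCl p) (M.alg : Set (V → PadicAlgCl p))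
  have hmul : ∀ u ∈ T, ∀ v ∈ T, u * v ∈ T := by
    intro u hu v hv
    induction hu using Submodule.span_induction with
    | mem u hu =>
      induction hv using Submodule.span_induction with
      | mem v hv => exact Submodule.subset_span (M.alg.mul_mem hu hv)
      | zero => simp
      | add a b _ _ ha hb => rw [mul_add]; exact add_mem ha hb
      | smul c a _ ha => rw [mul_smul_comm]; exact T.smul_mem c ha
    | zero => simp
    | add a b _ _ ha hb => rw [add_mul]; exact add_mem ha hb
    | smul c a _ ha => rw [smul_mul_assoc]; exact T.smul_mem c ha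
  have hone : (1 : V → PadicAlgCl p) ∈ T := Submodule.subset_span M.alg.one_mem
  have hsep : ∀ y, ∃ u ∈ T, u x = 1 ∧ (y ≠ x → u y = 0) := by
    intro y
    by_cases hy : y = x
    · exact ⟨1, hone, rfl, fun h => absurd hy h⟩
    obtain ⟨f, hf, hne⟩ : ∃ f ∈ M.alg, f x ≠ f y := by
      by_contra hcon
      push Not at hcon
      exact hy (M.separates x y hcon).symm
    refine ⟨(f x - f y)⁻¹ • (f - f y • (1 : V → PadicAlgCl p)),
      T.smul_mem _ (sub_mem (Submodule.subset_span hf) (T.smul_mem _ hone)), ?_, fun _ => ?_⟩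
    · simp [inv_mul_cancel₀ (sub_ne_zero.mpr hne)]
    · simp
  choose u huT hux huy using hsep
  have hprod : ∀ s : Finset V, ∏ y ∈ s, u y ∈ T := by
    intro s
    induction s using Finset.induction_on with
    | empty => simpa using hone
    | insert y s hys ih => rw [Finset.prod_insert hys]; exact hmul _ (huT y) _ ih
  obtain ⟨n, c, f, hf⟩ := Submodule.mem_span_set'.mp (hprod Finset.univ)
  refine ⟨n, c, fun i => ⟨_, (f i).2⟩, fun y => ?_⟩
  have h1 := congrFun hf y
  simp only [Finset.sum_apply, Pi.smul_apply, smul_eq_mul, Finset.prod_apply] at h1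
  rw [h1]
  by_cases hy : y = x
  · rw [if_pos hy, hy]
    exact Finset.prod_eq_one fun z _ => hux z
  · rw [if_neg hy]
    exact Finset.prod_eq_zero (Finset.mem_univ y) (huy y hy)

/-- The quotient model: the functions constant on the fibres. -/
def quotient (π : V →+ U) (hπ : Function.Surjective π)
    (hact : ∀ σ v, π (act σ v) = actU σ (π v)) : LocalModel p U actU where
  alg := M.alg.comap (pullRing π)
  padicInt_mem a := M.padicInt_mem a
  fg := exists_generators_of_le _
    (fun a f hf => by
      rw [Subring.mem_comap] at hf ⊢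
      have : pullRing π (a • f) = a • pullRing π f :=
        funext fun x => by simp [padicInt_smul_fun_apply]
      rw [this]
      exact M.smul_mem a hf)
    { toFun := pullRing π
      map_add' := map_add _
      map_smul' := fun a f => funext fun x => by simp [padicInt_smul_fun_apply] }
    (fun f g h => funext fun u => by obtain ⟨v, rfl⟩ := hπ u; exact congrFun h v)
    M.toSubmodule M.toSubmodule_fg (fun f hf => Subring.mem_comap.mp hf)
  equivariant f hf σ u := by
    obtain ⟨v, rfl⟩ := hπ u
    rw [← hact]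
    exact M.equivariant (pullRing π f) (Subring.mem_comap.mp hf) σ v
  separates u u' h := by
    classical
    obtain ⟨x, rfl⟩ := hπ u
    obtain ⟨y, rfl⟩ := hπ u'
    by_contra hne
    obtain ⟨n, c, f, hcf⟩ := M.exists_indicator x
    obtain ⟨s, hs⟩ := hπ.hasRightInverse
    have hT : ∀ i, ∑ m : π.ker, (f i : V → PadicAlgCl p) (x + m) =
        ∑ m : π.ker, (f i : V → PadicAlgCl p) (y + m) := by
      intro i
      set T : V → PadicAlgCl p := fun z => ∑ m : π.ker, (f i : V → PadicAlgCl p) (z + m) with hT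
      have hinv : ∀ z z', π z = π z' → T z = T z' := by
        intro z z' hzz
        have hd : z - z' ∈ π.ker := by rw [AddMonoidHom.mem_ker, map_sub, hzz, sub_self]
        simp only [hT]
        rw [← Equiv.sum_comp (Equiv.addLeft (⟨z - z', hd⟩ : π.ker))
          fun m : π.ker => (f i : V → PadicAlgCl p) (z' + m)]
        refine Finset.sum_congr rfl fun m _ => congrArg _ ?_
        simp only [Equiv.coe_addLeft, AddSubgroup.coe_add]
        abel
      have hmem : (fun u => T (s u)) ∈ M.alg.comap (pullRing π) := by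
        rw [Subring.mem_comap]
        have : pullRing π (fun u => T (s u)) = T := funext fun z => hinv _ _ (hs (π z))
        rw [this]
        exact M.sum_ker_mem π hact (f i).2
      have h1 := h _ hmem
      show T x = T y
      rw [← hinv _ x (hs (π x)), ← hinv _ y (hs (π y))]
      exact h1
    have hS : ∀ z, ∑ i, c i * ∑ m : π.ker, (f i : V → PadicAlgCl p) (z + m) =
        ∑ m : π.ker, (if z + (m : V) = x then (1 : PadicAlgCl p) else 0) := by
      intro z
      simp_rw [← hcf, Finset.mul_sum]
      exact Finset.sum_comm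
    have h2 := hS x
    simp_rw [hT] at h2
    rw [hS y] at h2
    have h3 : ∀ m : π.ker, y + (m : V) ≠ x := fun m hm => hne (by
      rw [← hm, map_add, (AddMonoidHom.mem_ker).mp m.2, add_zero])
    have h4 : ∀ m : π.ker, x + (m : V) = x ↔ m = 0 := fun m => by simp
    simp [h3, h4] at h2
  comul_mem f hf := by
    classical
    rw [Subring.mem_comap] at hf
    obtain ⟨n, a, b, hab, hia, hib⟩ := M.exists_indep_comul hf
    obtain ⟨s, hs⟩ := hπ.hasRightInverse
    have hinva : ∀ i x x', π x = π x' →
        (a i : V → PadicAlgCl p) x = (a i : V → PadicAlgCl p) x' := by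
      intro i x x' hxx
      have h := hib (fun i => (a i : V → PadicAlgCl p) x - (a i : V → PadicAlgCl p) x') fun y => by
        simp only [sub_mul, Finset.sum_sub_distrib, ← hab, pullRing_apply, map_add, hxx, sub_self]
      exact sub_eq_zero.mp (congrFun h i)
    have hinvb : ∀ i x x', π x = π x' →
        (b i : V → PadicAlgCl p) x = (b i : V → PadicAlgCl p) x' := by
      intro i x x' hxx
      have h := hia (fun i => (b i : V → PadicAlgCl p) x - (b i : V → PadicAlgCl p) x') fun y => by
        simp only [sub_mul, Finset.sum_sub_distrib]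
        have h1 : ∀ z, ∑ i, (b i : V → PadicAlgCl p) z * (a i : V → PadicAlgCl p) y =
            f (π (y + z)) := fun z => by
          rw [← pullRing_apply π f (y + z), hab]
          exact Finset.sum_congr rfl fun i _ => mul_comm _ _
        simp only [h1, map_add, hxx, sub_self]
      exact sub_eq_zero.mp (congrFun h i)
    refine ⟨n, fun i => ⟨fun u => (a i : V → PadicAlgCl p) (s u), ?_⟩,
      fun i => ⟨fun u => (b i : V → PadicAlgCl p) (s u), ?_⟩, fun u u' => ?_⟩
    · rw [Subring.mem_comap]
      have : pullRing π (fun u => (a i : V → PadicAlgCl p) (s u)) = (a i : V → PadicAlgCl p) :=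
        funext fun z => hinva i _ _ (hs (π z))
      rw [this]; exact (a i).2
    · rw [Subring.mem_comap]
      have : pullRing π (fun u => (b i : V → PadicAlgCl p) (s u)) = (b i : V → PadicAlgCl p) :=
        funext fun z => hinvb i _ _ (hs (π z))
      rw [this]; exact (b i).2
    · show f (u + u') = _
      rw [← hab, pullRing_apply, map_add, hs u, hs u']

include M in
theorem quotient_alg (π : V →+ U) (hπ : Function.Surjective π)
    (hact : ∀ σ v, π (act σ v) = actU σ (π v)) :
    (M.quotient π hπ hact).alg = M.alg.comap (pullRing π) := rfl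

theorem IsConn.map_quotient {M : LocalModel p V act} (π : V →+ U) (hπ : Function.Surjective π)
    (hact : ∀ σ v, π (act σ v) = actU σ (π v)) {x : V} (hx : M.IsConn x) :
    (M.quotient π hπ hact).IsConn (π x) := by
  intro f hf
  rw [quotient_alg, Subring.mem_comap] at hf
  have h := hx _ hf
  simp only [pullRing_apply, map_zero] at h
  exact h

end LocalModel

variable (p) in
theorem HasLocalModel.of_injective (h : HasLocalModel p V act) (ι : W →+ V)
    (hι : Function.Injective ι) (hact : ∀ σ w, ι (actW σ w) = act σ (ι w)) :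
    HasLocalModel p W actW :=
  h.elim fun M => ⟨M.restrict ι hι hact⟩

variable (p) in
theorem HasLocalModel.of_surjective [Fintype V] (h : HasLocalModel p V act) (π : V →+ U)
    (hπ : Function.Surjective π) (hact : ∀ σ v, π (act σ v) = actU σ (π v)) :
    HasLocalModel p U actU :=
  h.elim fun M => ⟨M.quotient π hπ hact⟩

variable (p) in
theorem HasLocalModel.prod_mk (h : HasLocalModel p V act) (h' : HasLocalModel p W actW) :
    HasLocalModel p (V × W) (fun σ z => (act σ z.1, actW σ z.2)) :=
  h.elim fun M => h'.elim fun N => ⟨M.prod N⟩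

end Fermat.Agent.TW
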