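/-
Closure of the set of cocycles with flat first order deformation under linear combinations and
addition of coboundaries.
-/
import Fermat.Agent.TW.LocalModelOps
import Fermat.Agent.TW.LocalConditions

set_option autoImplicit false
set_option maxHeartbeats 400000

noncomputable section

namespace Fermat.Agent.TW

variable {p : ℕ} [Fact p.Prime] {k : Type} [Field k]
  (r : GalQp p →* Matrix (Fin 2) (Fin 2) k)

/-- The action of `r` on `k²`. -/
def vecAct (g : GalQp p) (v : Fin 2 → k) : Fin 2 → k := (r g).mulVec v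

@[simp] theorem vecAct_apply (g : GalQp p) (v : Fin 2 → k) : vecAct r g v = (r g).mulVec v := rfl

/-- A cocycle whose first order deformation has an integral model. -/
def IsFlatCocycle (c : GalQp p → Matrix (Fin 2) (Fin 2) k) : Prop :=
  c ∈ ctsCocycles p r ∧ HasLocalModel p ((Fin 2 → k) × (Fin 2 → k)) (liftAct r c)

variable {r}

theorem liftAct_apply (c : GalQp p → Matrix (Fin 2) (Fin 2) k) (g : GalQp p)
    (v : (Fin 2 → k) × (Fin 2 → k)) : liftAct r c g v =
      ((r g).mulVec v.1, (r g).mulVec v.2 + (c g).mulVec ((r g).mulVec v.1)) := rfl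

theorem IsFlatCocycle.residual {c : GalQp p → Matrix (Fin 2) (Fin 2) k} (h : IsFlatCocycle r c) :
    HasLocalModel p (Fin 2 → k) (vecAct r) :=
  h.2.of_injective p (AddMonoidHom.inr (Fin 2 → k) (Fin 2 → k))
    (fun a b hab => congrArg Prod.snd hab) fun σ w => by
    simp [liftAct_apply, Matrix.mulVec_zero]

variable [Finite k]

theorem hasLocalModel_liftAct_add {c d : GalQp p → Matrix (Fin 2) (Fin 2) k}
    (hc : HasLocalModel p ((Fin 2 → k) × (Fin 2 → k)) (liftAct r c))
    (hd : HasLocalModel p ((Fin 2 → k) × (Fin 2 → k)) (liftAct r d)) :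
    HasLocalModel p ((Fin 2 → k) × (Fin 2 → k)) (liftAct r (c + d)) := by
  haveI := Fintype.ofFinite k
  let actP : GalQp p → (Fin 2 → k) × (Fin 2 → k) × (Fin 2 → k) → (Fin 2 → k) × (Fin 2 → k) × (Fin 2 → k) := fun g z =>
    ((r g).mulVec z.1, (r g).mulVec z.2.1 + (c g).mulVec ((r g).mulVec z.1),
      (r g).mulVec z.2.2 + (d g).mulVec ((r g).mulVec z.1))
  have hP : HasLocalModel p ((Fin 2 → k) × (Fin 2 → k) × (Fin 2 → k)) actP :=
    (hc.prod_mk p hd).of_injective p
      { toFun := fun z : (Fin 2 → k) × (Fin 2 → k) × (Fin 2 → k) => ((z.1, z.2.1), (z.1, z.2.2))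
        map_zero' := rfl
        map_add' := fun a b => rfl }
      (fun a b hab => by
        obtain ⟨h1, h2⟩ := Prod.ext_iff.mp hab
        obtain ⟨h3, h4⟩ := Prod.ext_iff.mp h1
        obtain ⟨-, h5⟩ := Prod.ext_iff.mp h2
        exact Prod.ext h3 (Prod.ext h4 h5))
      (fun σ w => rfl)
  refine hP.of_surjective p
    { toFun := fun z : (Fin 2 → k) × (Fin 2 → k) × (Fin 2 → k) => (z.1, z.2.1 + z.2.2)
      map_zero' := by simp
      map_add' := fun a b => by simp [add_add_add_comm] }
    (fun y => ⟨(y.1, y.2, 0), Prod.ext rfl (add_zero y.2)⟩) fun σ z => ?_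
  simp only [actP, AddMonoidHom.coe_mk, ZeroHom.coe_mk, liftAct_apply, Pi.add_apply,
    Matrix.mulVec_add, Matrix.add_mulVec]
  refine Prod.ext rfl ?_
  simp only [Matrix.mulVec_add]
  abel

omit [Finite k] in
theorem hasLocalModel_liftAct_smul_of_ne_zero {c : GalQp p → Matrix (Fin 2) (Fin 2) k} {t : k}
    (ht : t ≠ 0) (hc : HasLocalModel p ((Fin 2 → k) × (Fin 2 → k)) (liftAct r c)) :
    HasLocalModel p ((Fin 2 → k) × (Fin 2 → k)) (liftAct r (t • c)) := by
  refine hc.of_injective p
    { toFun := fun z : (Fin 2 → k) × (Fin 2 → k) => (z.1, t⁻¹ • z.2)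
      map_zero' := by simp
      map_add' := fun a b => by simp [smul_add] }
    (fun a b hab => ?_) fun σ z => ?_
  · obtain ⟨h1, h2⟩ := Prod.ext_iff.mp hab
    exact Prod.ext h1 (smul_right_injective _ (inv_ne_zero ht) h2)
  · refine Prod.ext rfl ?_
    show t⁻¹ • ((r σ).mulVec z.2 + ((t • c) σ).mulVec ((r σ).mulVec z.1)) =
      (r σ).mulVec (t⁻¹ • z.2) + (c σ).mulVec ((r σ).mulVec z.1)
    rw [Pi.smul_apply, Matrix.smul_mulVec, Matrix.mulVec_smul, smul_add, smul_smul,
      inv_mul_cancel₀ ht, one_smul]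

omit [Finite k] in
theorem hasLocalModel_liftAct_zero (h : HasLocalModel p (Fin 2 → k) (vecAct r)) :
    HasLocalModel p ((Fin 2 → k) × (Fin 2 → k)) (liftAct r 0) :=
  (h.prod_mk p h).of_injective p (AddMonoidHom.id _) (fun a b hab => hab) fun σ z => by
    simp [liftAct_apply]

omit [Finite k] in
theorem adD_mem_ctsCocycles (hfin : IsFiniteLevel p r) (M : Matrix (Fin 2) (Fin 2) k) :
    adD r M ∈ ctsCocycles p r := by
  rw [mem_ctsCocycles_iff, mem_adCocycles_iff]
  refine ⟨⟨fun g => ?_, fun g h => ?_⟩, ?_⟩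
  · rw [adD_apply, Matrix.trace_sub, Matrix.trace_mul_cycle, ← map_mul, inv_mul_cancel, map_one,
      one_mul, sub_self]
  · simp only [adD_apply, map_mul, mul_inv_rev, mul_sub, sub_mul, mul_assoc]
    abel
  · obtain ⟨E, hE, h⟩ := hfin
    refine ⟨E, hE, fun g s hs => ?_⟩
    simp only [adD_apply, mul_inv_rev, map_mul]
    have h1 : r s = 1 := by simpa using h 1 s hs
    have h2 : r s⁻¹ = 1 := by simpa using h 1 s⁻¹ (inv_mem hs)
    rw [h1, h2, mul_one, one_mul]

omit [Finite k] in
theorem hasLocalModel_liftAct_sub_adD {c : GalQp p → Matrix (Fin 2) (Fin 2) k}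
    (M : Matrix (Fin 2) (Fin 2) k)
    (hc : HasLocalModel p ((Fin 2 → k) × (Fin 2 → k)) (liftAct r c)) :
    HasLocalModel p ((Fin 2 → k) × (Fin 2 → k)) (liftAct r (c - adD r M)) := by
  refine hc.of_injective p
    { toFun := fun z : (Fin 2 → k) × (Fin 2 → k) => (z.1, z.2 - M.mulVec z.1)
      map_zero' := by simp
      map_add' := fun a b => by simp [Matrix.mulVec_add, add_sub_add_comm] }
    (fun a b hab => ?_) fun σ z => ?_
  · obtain ⟨h1, h2⟩ := Prod.ext_iff.mp hab
    simp only [AddMonoidHom.coe_mk, ZeroHom.coe_mk] at h1 h2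
    rw [h1] at h2
    exact Prod.ext h1 (sub_left_injective h2)
  · have h1 : r σ⁻¹ * r σ = 1 := by rw [← map_mul, inv_mul_cancel, map_one]
    simp only [liftAct_apply, AddMonoidHom.coe_mk, ZeroHom.coe_mk, Pi.sub_apply, adD_apply,
      Matrix.mulVec_sub, Matrix.sub_mulVec, Matrix.mulVec_mulVec, sub_mul, mul_assoc, h1, mul_one]
    exact Prod.ext rfl (by abel_nf)

theorem IsFlatCocycle.add {c d : GalQp p → Matrix (Fin 2) (Fin 2) k} (hc : IsFlatCocycle r c)
    (hd : IsFlatCocycle r d) : IsFlatCocycle r (c + d) :=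
  ⟨add_mem hc.1 hd.1, hasLocalModel_liftAct_add hc.2 hd.2⟩

theorem IsFlatCocycle.smul {c : GalQp p → Matrix (Fin 2) (Fin 2) k} (hc : IsFlatCocycle r c)
    (t : k) : IsFlatCocycle r (t • c) := by
  refine ⟨Submodule.smul_mem _ t hc.1, ?_⟩
  rcases eq_or_ne t 0 with rfl | ht
  · rw [zero_smul]; exact hasLocalModel_liftAct_zero hc.residual
  · exact hasLocalModel_liftAct_smul_of_ne_zero ht hc.2

omit [Finite k] in
theorem IsFlatCocycle.sub_adD (hfin : IsFiniteLevel p r)
    {c : GalQp p → Matrix (Fin 2) (Fin 2) k} (hc : IsFlatCocycle r c)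
    (M : Matrix (Fin 2) (Fin 2) k) : IsFlatCocycle r (c - adD r M) :=
  ⟨sub_mem hc.1 (adD_mem_ctsCocycles hfin M), hasLocalModel_liftAct_sub_adD M hc.2⟩

variable (r) in
/-- The flat cocycles, when there is an integral model of the residual representation. -/
def flatSubmodule (hres : HasLocalModel p (Fin 2 → k) (vecAct r)) :
    Submodule k (GalQp p → Matrix (Fin 2) (Fin 2) k) where
  carrier := {c | IsFlatCocycle r c}
  add_mem' := IsFlatCocycle.add
  zero_mem' := ⟨zero_mem _, hasLocalModel_liftAct_zero hres⟩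
  smul_mem' t _ hc := hc.smul t

theorem mem_flatSubmodule_iff (hres : HasLocalModel p (Fin 2 → k) (vecAct r))
    (c : GalQp p → Matrix (Fin 2) (Fin 2) k) :
    c ∈ flatSubmodule r hres ↔ IsFlatCocycle r c := Iff.rfl

theorem flatLocal_eq (hfin : IsFiniteLevel p r)
    (hres : HasLocalModel p (Fin 2 → k) (vecAct r)) :
    flatLocal p r = flatSubmodule r hres := by
  refine le_antisymm (sup_le (Submodule.span_le.mpr fun c hc => hc) ?_)
    (le_sup_of_le_left fun c hc => Submodule.subset_span hc)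
  rintro _ ⟨M, -, rfl⟩
  have := IsFlatCocycle.sub_adD hfin ((flatSubmodule r hres).zero_mem) (-M)
  rw [mem_flatSubmodule_iff]
  simpa [map_neg] using this

omit [Finite k] in
theorem flatLocal_eq_of_no_model (hres : ¬ HasLocalModel p (Fin 2 → k) (vecAct r)) :
    flatLocal p r = adCoboundaries r := by
  refine le_antisymm (sup_le (Submodule.span_le.mpr fun c hc => ?_) le_rfl) le_sup_right
  exact absurd (IsFlatCocycle.residual (r := r) hc) hres

end Fermat.Agent.TW
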