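/-
Totally ramified layers over the inertia fixed field of a finite normal extension of `ℚ_p`:
uniformizers, expansions, conjugates, and the comparison with intermediate layers.
-/
import Fermat.Agent.TW.LocalTame
import Mathlib.Analysis.Normed.Module.FiniteDimension

set_option autoImplicit false
set_option maxHeartbeats 400000

noncomputable section

open Polynomial

namespace Fermat.Agent.TW

variable {p : ℕ} [Fact p.Prime]

/-- The elements of `K` fixed by `J`. -/
def layer (K : IntermediateField ℚ_[p] (PadicAlgCl p)) (J : Subgroup (GalQp p)) :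
    IntermediateField ℚ_[p] (PadicAlgCl p) :=
  K ⊓ IntermediateField.fixedField J

theorem mem_layer_iff {K : IntermediateField ℚ_[p] (PadicAlgCl p)} {J : Subgroup (GalQp p)}
    {x : PadicAlgCl p} : x ∈ layer K J ↔ x ∈ K ∧ ∀ g ∈ J, g x = x := by
  rw [layer, IntermediateField.mem_inf]
  exact and_congr_right fun _ => ⟨fun h g hg => h ⟨g, hg⟩, fun h g => h g.1 g.2⟩

theorem layer_le (K : IntermediateField ℚ_[p] (PadicAlgCl p)) (J : Subgroup (GalQp p)) :
    layer K J ≤ K := fun _ hx => (mem_layer_iff.mp hx).1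

theorem layer_antitone (K : IntermediateField ℚ_[p] (PadicAlgCl p)) {J J' : Subgroup (GalQp p)}
    (h : J ≤ J') : layer K J' ≤ layer K J :=
  fun _ hx => mem_layer_iff.mpr ⟨(mem_layer_iff.mp hx).1, fun g hg => (mem_layer_iff.mp hx).2 g (h hg)⟩

instance layer_finiteDimensional (K : IntermediateField ℚ_[p] (PadicAlgCl p))
    [FiniteDimensional ℚ_[p] K] (J : Subgroup (GalQp p)) :
    FiniteDimensional ℚ_[p] (layer K J) :=
  FiniteDimensional.of_injective (IntermediateField.inclusion (layer_le K J)).toLinearMap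
    (IntermediateField.inclusion_injective (layer_le K J))

variable {K : IntermediateField ℚ_[p] (PadicAlgCl p)}

theorem natCast_mem_layer (n : ℕ) (J : Subgroup (GalQp p)) :
    (n : PadicAlgCl p) ∈ layer K J := natCast_mem _ n

theorem smul_mem_layer_of_normalizes [Normal ℚ_[p] K] {J : Subgroup (GalQp p)} {g : GalQp p}
    (hg : ∀ j ∈ J, g⁻¹ * j * g ∈ J) {x : PadicAlgCl p} (hx : x ∈ layer K J) :
    g x ∈ layer K J := by
  rw [mem_layer_iff] at hx ⊢
  refine ⟨smul_mem_of_normal p K g hx.1, fun j hj => ?_⟩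
  have h := congrArg g (hx.2 _ (hg j hj))
  rwa [AlgEquiv.mul_apply, AlgEquiv.mul_apply,
    show g (g⁻¹ (j (g x))) = j (g x) from g.apply_symm_apply _] at h

/-- Every residue of `K` is the residue of an element fixed by inertia. -/
theorem exists_inertia_fixed_near [FiniteDimensional ℚ_[p] K] {a : PadicAlgCl p} (ha : a ∈ K)
    (ha1 : ‖a‖ ≤ 1) :
    ∃ w ∈ layer K (inertiaQp p), ‖w‖ ≤ 1 ∧ ‖a - w‖ < 1 := by
  classical
  by_cases h0 : ‖a‖ < 1
  · exact ⟨0, zero_mem _, by simp, by simpa using h0⟩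
  have hanorm : ‖a‖ = 1 := le_antisymm ha1 (not_lt.mp h0)
  let A : intQp p := ⟨a, ha1⟩
  have hA0 : resid p A ≠ 0 := fun h => h0 ((resid_eq_zero_iff p A).mp h)
  obtain ⟨hfin, -⟩ := residSubfield_finrank_le p K
  haveI : Finite (residSubfield p K) := Module.finite_of_finite (ZMod p)
  haveI := Fintype.ofFinite (residSubfield p K)
  set M := Fintype.card (residSubfield p K) - 1 with hM
  have hcard : 1 < Fintype.card (residSubfield p K) := Fintype.one_lt_card
  have hMpos : 0 < M := by omega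
  have hMndvd : ¬ p ∣ M := by
    intro hd
    haveI : CharP (residSubfield p K) p :=
      charP_of_injective_algebraMap (algebraMap (ZMod p) (residSubfield p K)).injective p
    obtain ⟨n, -, hn⟩ := FiniteField.card (residSubfield p K) p
    have h1 : p ∣ Fintype.card (residSubfield p K) := hn ▸ dvd_pow_self p n.ne_zero
    have h2 := Nat.dvd_sub h1 hd
    rw [show Fintype.card (residSubfield p K) - M = 1 by omega] at h2
    exact (Fact.out : p.Prime).one_lt.ne' (Nat.dvd_one.mp h2)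
  haveI : NeZero M := ⟨hMpos.ne'⟩
  haveI : NeZero ((M : ℕ) : PadicAlgCl p) := ⟨Nat.cast_ne_zero.mpr hMpos.ne'⟩
  obtain ⟨ζ, hζ⟩ := HasEnoughRootsOfUnity.exists_primitiveRoot (PadicAlgCl p) M
  have hζ1 : ‖ζ‖ = 1 :=
    IsOfFinOrder.norm_eq_one (isOfFinOrder_iff_pow_eq_one.mpr ⟨M, hMpos, hζ.pow_eq_one⟩)
  let Z : intQp p := ⟨ζ, hζ1.le⟩
  have hfac := congrArg (Polynomial.eval a) (X_pow_sub_C_eq_prod hζ hMpos (one_pow M))
  simp only [Polynomial.eval_sub, Polynomial.eval_pow, Polynomial.eval_X, Polynomial.eval_C,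
    Polynomial.eval_prod, mul_one] at hfac
  have hAM : resid p A ^ M = 1 := by
    have h1 : (⟨resid p A, A, ha, rfl⟩ : residSubfield p K) ^ M = 1 :=
      FiniteField.pow_card_sub_one_eq_one _ fun h => hA0 (congrArg Subtype.val h)
    exact congrArg Subtype.val h1
  have hsmall : ‖a ^ M - 1‖ < 1 := by
    rw [← map_pow, ← map_one (resid p), resid_eq_iff] at hAM
    simpa [A] using hAM
  obtain ⟨i, hi, hia⟩ : ∃ i ∈ Finset.range M, ‖a - ζ ^ i‖ < 1 := by
    by_contra hcon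
    push Not at hcon
    have h1 : 1 ≤ ‖a ^ M - 1‖ := by
      rw [hfac, norm_prod]
      exact Finset.one_le_prod fun i hi => hcon i hi
    exact absurd hsmall (not_lt.mpr h1)
  -- two roots with the same residue are equal
  have huniq : ∀ w : PadicAlgCl p, w ^ M = 1 → ∀ w' : PadicAlgCl p, w' ^ M = 1 →
      ‖w - w'‖ < 1 → w = w' := by
    intro w hw w' hw' hlt
    have hn : ∀ u : PadicAlgCl p, u ^ M = 1 → ‖u‖ = 1 := fun u hu =>
      IsOfFinOrder.norm_eq_one (isOfFinOrder_iff_pow_eq_one.mpr ⟨M, hMpos, hu⟩)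
    by_contra hne
    have h1 := geom_sum₂_mul w w' M
    rw [hw, hw', sub_self, mul_eq_zero, sub_eq_zero] at h1
    have h2 := h1.resolve_right hne
    let W : intQp p := ⟨w, (hn w hw).le⟩
    let W' : intQp p := ⟨w', (hn w' hw').le⟩
    have h3 : resid p W = resid p W' := (resid_eq_iff p W W').mpr hlt
    have h4 : resid p (∑ j ∈ Finset.range M, W ^ j * W' ^ (M - 1 - j)) = 0 := by
      rw [resid_eq_zero_iff]
      simp [W, W', AddSubmonoidClass.coe_finsetSum, h2]
    have h5 : resid p W ≠ 0 := fun h => by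
      rw [resid_eq_zero_iff] at h
      exact absurd h (by simp [W, hn w hw])
    rw [map_sum] at h4
    simp_rw [map_mul, map_pow, ← h3, ← pow_add] at h4
    rw [Finset.sum_congr rfl (g := fun _ => resid p W ^ (M - 1)) (fun j hj => by
      rw [Finset.mem_range] at hj; congr 1; omega), Finset.sum_const, Finset.card_range,
      nsmul_eq_mul, mul_eq_zero] at h4
    rcases h4 with h4 | h4
    · exact hMndvd ((CharP.cast_eq_zero_iff (resQp p) p M).mp h4)
    · exact h5 (eq_zero_of_pow_eq_zero h4)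
  have hroot : (ζ ^ i) ^ M = 1 := by rw [← pow_mul, mul_comm, pow_mul, hζ.pow_eq_one, one_pow]
  refine ⟨ζ ^ i, mem_layer_iff.mpr ⟨?_, fun g hg => ?_⟩, by simp [hζ1], hia⟩
  · rw [← InfiniteGalois.fixedField_fixingSubgroup K]
    rintro ⟨g, hg⟩
    refine huniq _ (by show (g (ζ ^ i)) ^ M = 1; rw [← map_pow, hroot, map_one]) _ hroot ?_
    show ‖g (ζ ^ i) - ζ ^ i‖ < 1
    have h1 : g (ζ ^ i) - ζ ^ i = g (ζ ^ i - a) + (a - ζ ^ i) := by
      rw [map_sub, (IntermediateField.mem_fixingSubgroup_iff K g).mp hg a ha]; ring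
    rw [h1]
    refine lt_of_le_of_lt (IsUltrametricDist.norm_add_le_max _ _) (max_lt ?_ hia)
    rw [norm_galQp, norm_sub_rev]; exact hia
  · refine huniq _ (by rw [← map_pow, hroot, map_one]) _ hroot ?_
    exact (mem_inertiaQp_iff p g).mp hg _ (by simp [hζ1])

/-- A uniformizer of `E`. -/
structure IsUnif (E : IntermediateField ℚ_[p] (PadicAlgCl p)) (z : PadicAlgCl p) (e : ℕ) :
    Prop where
  mem : z ∈ E
  pos : 0 < ‖z‖
  lt_one : ‖z‖ < 1
  pow_eq : ‖z‖ ^ e = (p : ℝ)⁻¹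
  exists_zpow : ∀ x ∈ E, x ≠ 0 → ∃ m : ℤ, ‖x‖ = ‖z‖ ^ m

theorem IsUnif.e_pos {E : IntermediateField ℚ_[p] (PadicAlgCl p)} {z : PadicAlgCl p} {e : ℕ}
    (h : IsUnif E z e) : 0 < e := by
  rcases Nat.eq_zero_or_pos e with he | he
  · have h1 := h.pow_eq
    rw [he, pow_zero] at h1
    exact absurd h1.symm (inv_lt_one_of_one_lt₀ (by exact_mod_cast (Fact.out : p.Prime).one_lt)).ne
  · exact he

theorem exists_isUnif (E : IntermediateField ℚ_[p] (PadicAlgCl p)) [FiniteDimensional ℚ_[p] E] :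
    ∃ (z : PadicAlgCl p) (e : ℕ), IsUnif E z e := by
  obtain ⟨π, hπE, hπ0, hπ⟩ := exists_norm_generator p E
  have hp1 : (1 : ℝ) < p := by exact_mod_cast (Fact.out : p.Prime).one_lt
  obtain ⟨m, hm⟩ := hπ p (natCast_mem E p) (Nat.cast_ne_zero.mpr (Fact.out : p.Prime).ne_zero)
  rw [norm_p] at hm
  have hlt : ((p : ℝ)⁻¹) < 1 := inv_lt_one_of_one_lt₀ hp1
  have hπpos : 0 < ‖π‖ := norm_pos_iff.mpr hπ0
  rcases lt_trichotomy ‖π‖ 1 with h1 | h1 | h1
  · have hm0 : 0 < m := by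
      rw [hm] at hlt
      exact (zpow_lt_one_iff_right_of_lt_one₀ hπpos h1).mp hlt
    obtain ⟨e, rfl⟩ := Int.eq_ofNat_of_zero_le hm0.le
    exact ⟨π, e, hπE, hπpos, h1, by rw [hm, zpow_natCast], hπ⟩
  · rw [h1, one_zpow] at hm
    exact absurd hm hlt.ne
  · have hm0 : m < 0 := by
      rw [hm] at hlt
      exact (zpow_lt_one_iff_right₀ h1).mp hlt
    obtain ⟨e, he⟩ := Int.eq_ofNat_of_zero_le (neg_nonneg.mpr hm0.le)
    refine ⟨π⁻¹, e, inv_mem hπE, by rw [norm_inv]; exact inv_pos.mpr hπpos,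
      by rw [norm_inv]; exact inv_lt_one_of_one_lt₀ h1, ?_, fun x hx hx0 => ?_⟩
    · rw [hm, norm_inv, inv_pow, ← zpow_natCast, ← zpow_neg, ← he, neg_neg]
    · obtain ⟨a, ha⟩ := hπ x hx hx0
      exact ⟨-a, by rw [ha, norm_inv, inv_zpow', neg_neg]⟩

section Unif

variable [FiniteDimensional ℚ_[p] K] {E : IntermediateField ℚ_[p] (PadicAlgCl p)} (hEK : E ≤ K)
  (hF : layer K (inertiaQp p) ≤ E) {z : PadicAlgCl p} {e : ℕ} (hz : IsUnif E z e)

include hz in
theorem IsUnif.ne_zero : z ≠ 0 := norm_pos_iff.mp hz.pos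

include hz in
theorem IsUnif.pow_le_of_lt {x : PadicAlgCl p} (hx : x ∈ E) {M : ℕ} (h : ‖x‖ < ‖z‖ ^ M) :
    ‖x‖ ≤ ‖z‖ ^ (M + 1) := by
  rcases eq_or_ne x 0 with rfl | hx0
  · simpa using pow_nonneg (norm_nonneg z) _
  obtain ⟨m, hm⟩ := hz.exists_zpow x hx hx0
  rw [hm, ← zpow_natCast] at h ⊢
  exact zpow_le_zpow_right_of_le_one₀ hz.pos hz.lt_one.le
    (by have := (zpow_lt_zpow_iff_right_of_lt_one₀ hz.pos hz.lt_one).mp h; push_cast; omega)

include hEK hF hz in
/-- Approximate expansions. -/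
theorem IsUnif.exists_approx {x : PadicAlgCl p} (hx : x ∈ E) (hx1 : ‖x‖ ≤ 1) (M : ℕ) :
    ∃ w : ℕ → PadicAlgCl p, (∀ i, w i ∈ layer K (inertiaQp p) ∧ ‖w i‖ ≤ 1) ∧
      ‖x - ∑ i ∈ Finset.range M, w i * z ^ i‖ ≤ ‖z‖ ^ M := by
  classical
  induction M with
  | zero => exact ⟨fun _ => 0, fun _ => ⟨zero_mem _, by simp⟩, by simpa using hx1⟩
  | succ M ih =>
    obtain ⟨w, hw, hwx⟩ := ih
    set r := x - ∑ i ∈ Finset.range M, w i * z ^ i with hr
    have hrE : r ∈ E := sub_mem hx (sum_mem fun i _ => mul_mem (hF (hw i).1) (pow_mem hz.mem i))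
    have hzM : z ^ M ≠ 0 := pow_ne_zero M hz.ne_zero
    obtain ⟨v, hv, hv1, hvr⟩ := exists_inertia_fixed_near (K := K) (a := r / z ^ M)
      (hEK (div_mem hrE (pow_mem hz.mem M)))
      (by rw [norm_div, norm_pow]; exact (div_le_one (pow_pos hz.pos M)).mpr hwx)
    refine ⟨Function.update w M v, fun i => ?_, ?_⟩
    · rcases eq_or_ne i M with rfl | hi
      · rw [Function.update_self]; exact ⟨hv, hv1⟩
      · rw [Function.update_of_ne hi]; exact hw i
    · have h1 : ∑ i ∈ Finset.range M, Function.update w M v i * z ^ i =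
          ∑ i ∈ Finset.range M, w i * z ^ i :=
        Finset.sum_congr rfl fun i hi => by
          rw [Function.update_of_ne (Finset.mem_range.mp hi).ne]
      have h2 : x - ∑ i ∈ Finset.range (M + 1), Function.update w M v i * z ^ i =
          z ^ M * (r / z ^ M - v) := by
        rw [Finset.sum_range_succ, h1, Function.update_self, mul_sub, mul_div_cancel₀ _ hzM, hr]
        ring
      rw [h2]
      refine hz.pow_le_of_lt ?_ ?_
      · exact mul_mem (pow_mem hz.mem M) (sub_mem (div_mem hrE (pow_mem hz.mem M)) (hF hv))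
      · rw [norm_mul, norm_pow]
        exact mul_lt_of_lt_one_right (pow_pos hz.pos M) hvr

include hEK hF hz in
/-- An element of inertia moves the integers of `E` at most as much as the uniformizer. -/
theorem IsUnif.norm_apply_sub_le {σ : GalQp p} (hσ : σ ∈ inertiaQp p) {x : PadicAlgCl p}
    (hx : x ∈ E) (hx1 : ‖x‖ ≤ 1) : ‖σ x - x‖ ≤ ‖σ z - z‖ := by
  by_contra hlt
  push Not at hlt
  obtain ⟨M, hM⟩ := exists_pow_lt_of_lt_one (lt_of_le_of_lt (norm_nonneg _) hlt) hz.lt_one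
  obtain ⟨w, hw, hwx⟩ := hz.exists_approx hEK hF hx hx1 M
  set r := x - ∑ i ∈ Finset.range M, w i * z ^ i with hr
  have hzi : ∀ i : ℕ, ‖(σ z) ^ i - z ^ i‖ ≤ ‖σ z - z‖ := by
    intro i
    induction i with
    | zero => simp
    | succ i ih =>
      rw [show (σ z) ^ (i + 1) - z ^ (i + 1) = σ z * ((σ z) ^ i - z ^ i) + (σ z - z) * z ^ i by ring]
      refine (IsUltrametricDist.norm_add_le_max _ _).trans (max_le ?_ ?_)
      · rw [norm_mul, norm_galQp]
        exact (mul_le_of_le_one_left (norm_nonneg _) hz.lt_one.le).trans ih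
      · rw [norm_mul, norm_pow]
        exact mul_le_of_le_one_right (norm_nonneg _) (pow_le_one₀ (norm_nonneg _) hz.lt_one.le)
  have h1 : σ x - x = ∑ i ∈ Finset.range M, w i * ((σ z) ^ i - z ^ i) + (σ r - r) := by
    have hfix : ∀ i, σ (w i) = w i := fun i => (mem_layer_iff.mp (hw i).1).2 σ hσ
    simp only [hr, map_sub, map_sum, map_mul, map_pow, mul_sub, Finset.sum_sub_distrib, hfix]
    ring
  have h2 : ‖σ x - x‖ ≤ max ‖σ z - z‖ (‖z‖ ^ M) := by
    rw [h1]
    refine (IsUltrametricDist.norm_add_le_max _ _).trans (max_le_max ?_ ?_)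
    · refine IsUltrametricDist.norm_sum_le_of_forall_le_of_nonneg (norm_nonneg _) fun i _ => ?_
      rw [norm_mul]
      exact (mul_le_of_le_one_left (norm_nonneg _) (hw i).2).trans (hzi i)
    · refine (IsUltrametricDist.norm_add_le_max _ _).trans_eq' ?_ |>.trans (max_le ?_ ?_)
        (b := max ‖σ r‖ ‖-r‖)
      · rw [sub_eq_add_neg]
      · rw [norm_galQp]; exact hwx
      · rw [norm_neg]; exact hwx
  exact absurd h2 (not_le.mpr (max_lt hlt hM))

include hz in
/-- Terms of an expansion of length `≤ e` have distinct norms. -/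
theorem IsUnif.norm_expansion {w : ℕ → PadicAlgCl p} (hw : ∀ i, w i ∈ layer K (inertiaQp p))
    {z' : PadicAlgCl p} (hz' : ‖z'‖ = ‖z‖) {i : ℕ} (hi : i < e) :
    ‖w i * z'^ i‖ ≤ ‖∑ j ∈ Finset.range e, w j * z' ^ j‖ := by
  classical
  have hterm : ∀ j, w j ≠ 0 → ∃ m : ℤ, ‖w j * z' ^ j‖ = ‖z‖ ^ (m * e + j) := by
    intro j hj
    obtain ⟨m, hm⟩ := exists_zpow_norm_eq_of_inertia_fixed p hj (mem_layer_iff.mp (hw j)).2
    refine ⟨-m, ?_⟩
    rw [norm_mul, norm_pow, hz', hm, zpow_add₀ hz.pos.ne', zpow_natCast, mul_comm (-m),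
      zpow_mul, zpow_natCast, hz.pow_eq, inv_zpow', neg_neg]
  have hdist : ∀ j₁ < e, ∀ j₂ < e, w j₁ ≠ 0 → w j₂ ≠ 0 →
      ‖w j₁ * z' ^ j₁‖ = ‖w j₂ * z' ^ j₂‖ → j₁ = j₂ := by
    intro j₁ h₁ j₂ h₂ hw₁ hw₂ heq
    obtain ⟨m₁, hm₁⟩ := hterm j₁ hw₁
    obtain ⟨m₂, hm₂⟩ := hterm j₂ hw₂
    rw [hm₁, hm₂] at heq
    have h := zpow_right_injective₀ hz.pos hz.lt_one.ne heq
    have he : ((m₁ - m₂) * e : ℤ) = (j₂ : ℤ) - j₁ := by linarith
    have hlt : |(m₁ - m₂) * (e : ℤ)| < e := by rw [he, abs_lt]; omega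
    rw [abs_mul, abs_of_nonneg (Nat.cast_nonneg e : (0 : ℤ) ≤ e)] at hlt
    have : |m₁ - m₂| < 1 := lt_of_mul_lt_mul_right (by linarith) (Nat.cast_nonneg e)
    have h0 : m₁ - m₂ = 0 := by rw [abs_lt] at this; omega
    rw [h0, zero_mul] at he
    omega
  rcases eq_or_ne (w i) 0 with hwi | hwi
  · simp [hwi]
  set S := (Finset.range e).filter fun j => w j ≠ 0
  have hsum : ∑ j ∈ Finset.range e, w j * z' ^ j = ∑ j ∈ S, w j * z' ^ j :=
    (Finset.sum_filter_of_ne fun j _ h => left_ne_zero_of_mul h).symm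
  rw [hsum, IsUltrametricDist.norm_sum_eq_sup'_of_pairwise_ne (s := S)
    (f := fun j => w j * z' ^ j) ⟨i, by simp [S, hi, hwi]⟩ ?_]
  · exact Finset.le_sup' (fun j => ‖w j * z' ^ j‖) (by simp [S, hi, hwi])
  · intro a ha b hb hab h
    simp only [S, Finset.coe_filter, Set.mem_ofPred_eq, Finset.mem_range] at ha hb
    exact hab (hdist a ha.1 b hb.1 ha.2 hb.2 h)

end Unif

end Fermat.Agent.TW
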