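/-
Exact expansions, conjugates under inertia and the comparison of distances in a layer and in a
smaller layer.
-/
import Fermat.Agent.TW.LocalRamBasic
import Mathlib.RingTheory.Polynomial.Basic

set_option autoImplicit false
set_option maxHeartbeats 400000

noncomputable section

open Polynomial

namespace Fermat.Agent.TW

variable {p : ℕ} [Fact p.Prime]

section Conj

variable (J : Subgroup (GalQp p)) (z : PadicAlgCl p)

open Classical in
/-- The conjugates of `z` under `J`. -/
def conjFinset : Finset (PadicAlgCl p) :=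
  (((minpoly ℚ_[p] z).aroots (PadicAlgCl p)).toFinset).filter fun y => ∃ σ ∈ J, σ z = y

theorem mem_conjFinset {y : PadicAlgCl p} : y ∈ conjFinset J z ↔ ∃ σ ∈ J, σ z = y := by
  classical
  simp only [conjFinset, Finset.mem_filter, Multiset.mem_toFinset, and_iff_right_iff_imp]
  rintro ⟨σ, -, rfl⟩
  rw [mem_aroots]
  refine ⟨minpoly.ne_zero (Algebra.IsIntegral.isIntegral z), ?_⟩
  rw [aeval_algEquiv, AlgHom.comp_apply, minpoly.aeval, map_zero]

theorem self_mem_conjFinset : z ∈ conjFinset J z := (mem_conjFinset J z).mpr ⟨1, one_mem J, rfl⟩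

theorem norm_of_mem_conjFinset {y : PadicAlgCl p} (hy : y ∈ conjFinset J z) : ‖y‖ = ‖z‖ := by
  obtain ⟨σ, -, rfl⟩ := (mem_conjFinset J z).mp hy
  exact norm_galQp p σ z

theorem map_conjFinset {σ : GalQp p} (hσ : σ ∈ J) :
    (conjFinset J z).map σ.toEquiv.toEmbedding = conjFinset J z := by
  ext y
  simp only [Finset.mem_map, Equiv.coe_toEmbedding, mem_conjFinset]
  constructor
  · rintro ⟨x, ⟨τ, hτ, rfl⟩, rfl⟩
    exact ⟨σ * τ, mul_mem hσ hτ, rfl⟩
  · rintro ⟨τ, hτ, rfl⟩
    exact ⟨_, ⟨σ⁻¹ * τ, mul_mem (inv_mem hσ) hτ, rfl⟩, by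
      show σ (σ⁻¹ (τ z)) = τ z
      exact σ.apply_symm_apply _⟩

/-- `∏ (X - y)` over the conjugates. -/
def conjPoly : (PadicAlgCl p)[X] := ∏ y ∈ conjFinset J z, (X - C y)

theorem conjPoly_monic : (conjPoly J z).Monic := monic_prod_X_sub_C _ _

theorem natDegree_conjPoly : (conjPoly J z).natDegree = (conjFinset J z).card :=
  natDegree_finsetProd_X_sub_C_eq_card _ _

theorem eval_conjPoly_self : (conjPoly J z).eval z = 0 := by
  rw [conjPoly, eval_prod]
  exact Finset.prod_eq_zero (self_mem_conjFinset J z) (by simp)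

theorem map_conjPoly (σ : GalQp p) :
    (conjPoly J z).map (σ : PadicAlgCl p →+* PadicAlgCl p) =
      ∏ y ∈ conjFinset J z, (X - C (σ y)) := by
  rw [conjPoly, Polynomial.map_prod]
  simp

theorem map_conjPoly_of_mem {σ : GalQp p} (hσ : σ ∈ J) :
    (conjPoly J z).map (σ : PadicAlgCl p →+* PadicAlgCl p) = conjPoly J z := by
  rw [map_conjPoly, conjPoly]
  conv_rhs => rw [← map_conjFinset J z hσ, Finset.prod_map]
  rfl

theorem norm_coeff_conjPoly_le (hz : ‖z‖ ≤ 1) (i : ℕ) : ‖(conjPoly J z).coeff i‖ ≤ 1 := by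
  classical
  let q : (intQp p)[X] := ∏ y : {y // y ∈ conjFinset J z},
    (X - C ⟨(y : PadicAlgCl p), (mem_intQp_iff p _).mpr ((norm_of_mem_conjFinset J z y.2).le.trans hz)⟩)
  have hq : q.map (intQp p).subtype = conjPoly J z := by
    simp only [q, Polynomial.map_prod, Polynomial.map_sub, Polynomial.map_X, Polynomial.map_C]
    rw [conjPoly]
    exact Finset.prod_coe_sort (conjFinset J z) fun y => X - C y
  rw [← hq, coeff_map]
  exact (mem_intQp_iff p _).mp (q.coeff i).2

theorem coeff_conjPoly_mem_layer {K : IntermediateField ℚ_[p] (PadicAlgCl p)} [Normal ℚ_[p] K]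
    (hz : z ∈ K) (i : ℕ) : (conjPoly J z).coeff i ∈ layer K J := by
  classical
  refine mem_layer_iff.mpr ⟨?_, fun g hg => ?_⟩
  · let q : K[X] := ∏ y : {y // y ∈ conjFinset J z}, (X - C ⟨(y : PadicAlgCl p), by
      obtain ⟨σ, -, hσ⟩ := (mem_conjFinset J z).mp y.2
      rw [← hσ]
      exact smul_mem_of_normal p K σ hz⟩)
    have hq : q.map (algebraMap K (PadicAlgCl p)) = conjPoly J z := by
      simp only [q, Polynomial.map_prod, Polynomial.map_sub, Polynomial.map_X, Polynomial.map_C]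
      rw [conjPoly]
      exact Finset.prod_coe_sort (conjFinset J z) fun y => X - C y
    rw [← hq, coeff_map]
    exact (q.coeff i).2
  · have h := congrArg (fun P : (PadicAlgCl p)[X] => P.coeff i) (map_conjPoly_of_mem J z hg)
    simpa [coeff_map] using h

end Conj

variable {K : IntermediateField ℚ_[p] (PadicAlgCl p)} [FiniteDimensional ℚ_[p] K]
  {E : IntermediateField ℚ_[p] (PadicAlgCl p)} (hEK : E ≤ K)
  (hF : layer K (inertiaQp p) ≤ E) {z : PadicAlgCl p} {e : ℕ} (hz : IsUnif E z e)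

include hEK hF hz in
/-- Every element of `E` is a combination of `1, z, …, z^(e-1)` over the inertia fixed field. -/
theorem IsUnif.exists_expansion {x : PadicAlgCl p} (hx : x ∈ E) :
    ∃ w : ℕ → PadicAlgCl p, (∀ i, w i ∈ layer K (inertiaQp p)) ∧
      x = ∑ i ∈ Finset.range e, w i * z ^ i := by
  classical
  let L : (Fin e → layer K (inertiaQp p)) →ₗ[ℚ_[p]] PadicAlgCl p :=
    { toFun := fun w => ∑ i, (w i : PadicAlgCl p) * z ^ (i : ℕ)
      map_add' := fun a b => by simp [add_mul, Finset.sum_add_distrib]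
      map_smul' := fun t a => by simp [Finset.smul_sum, smul_mul_assoc] }
  suffices h : x ∈ LinearMap.range L by
    obtain ⟨w, rfl⟩ := h
    refine ⟨fun i => if h : i < e then (w ⟨i, h⟩ : PadicAlgCl p) else 0, fun i => ?_, ?_⟩
    · dsimp only
      split
      · exact (w _).2
      · exact zero_mem _
    · show ∑ i, (w i : PadicAlgCl p) * z ^ (i : ℕ) = _
      rw [Finset.sum_range]
      exact Finset.sum_congr rfl fun i _ => by simp [i.2]
  have hscale : ∃ (a : ℕ), ‖(p : PadicAlgCl p) ^ a * x‖ ≤ 1 := by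
    obtain ⟨a, ha⟩ := pow_unbounded_of_one_lt ‖x‖
      (by exact_mod_cast (Fact.out : p.Prime).one_lt : (1 : ℝ) < p)
    refine ⟨a, ?_⟩
    rw [norm_mul, norm_pow, norm_p, inv_pow, inv_mul_le_iff₀ (pow_pos (Nat.cast_pos.mpr (Fact.out : p.Prime).pos) a), mul_one]
    exact ha.le
  have key : ∀ y ∈ E, ‖y‖ ≤ 1 → y ∈ LinearMap.range L := by
    intro y hy hy1
    have happ : ∀ n : ℕ, ∃ s ∈ LinearMap.range L, ∃ r ∈ E, ‖r‖ ≤ 1 ∧
        y - s = (p : PadicAlgCl p) ^ n * r := by
      intro n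
      induction n with
      | zero => exact ⟨0, zero_mem _, y, hy, hy1, by simp⟩
      | succ n ih =>
        obtain ⟨s, hs, r, hrE, hr1, hsr⟩ := ih
        obtain ⟨w, hw, hwr⟩ := hz.exists_approx hEK hF hrE hr1 e
        have hpne : (p : PadicAlgCl p) ≠ 0 := Nat.cast_ne_zero.mpr (Fact.out : p.Prime).ne_zero
        set t := ∑ i ∈ Finset.range e, w i * z ^ i with ht
        refine ⟨s + (p : PadicAlgCl p) ^ n * t, ?_, (r - t) / p, ?_, ?_, ?_⟩
        · refine add_mem hs ⟨fun i => ⟨(p : PadicAlgCl p) ^ n * w i,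
            mul_mem (pow_mem (natCast_mem _ p) n) (hw i).1⟩, ?_⟩
          show ∑ i : Fin e, _ = _
          rw [ht, Finset.mul_sum, Finset.sum_range]
          exact Finset.sum_congr rfl fun i _ => by ring
        · exact div_mem (sub_mem hrE (sum_mem fun i _ =>
            mul_mem (hF (hw i).1) (pow_mem hz.mem i))) (natCast_mem E p)
        · rw [norm_div, norm_p, ← hz.pow_eq]
          exact (div_le_one (pow_pos hz.pos e)).mpr hwr
        · rw [← sub_sub, hsr, pow_succ, mul_assoc, mul_div_cancel₀ _ hpne, mul_sub]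
    have hclosed : IsClosed (LinearMap.range L : Set (PadicAlgCl p)) :=
      Submodule.closed_of_finiteDimensional _
    rw [← SetLike.mem_coe, ← hclosed.closure_eq, Metric.mem_closure_iff]
    intro ε hε
    obtain ⟨n, hn⟩ := exists_pow_lt_of_lt_one hε (inv_lt_one_of_one_lt₀
      (by exact_mod_cast (Fact.out : p.Prime).one_lt : (1 : ℝ) < p))
    obtain ⟨s, hs, r, -, hr1, hsr⟩ := happ n
    refine ⟨s, hs, ?_⟩
    rw [dist_eq_norm, hsr, norm_mul, norm_pow, norm_p]
    exact lt_of_le_of_lt (mul_le_of_le_one_right (by positivity) hr1) hn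
  obtain ⟨a, ha⟩ := hscale
  have h1 := key _ (mul_mem (pow_mem (natCast_mem E p) a) hx) ha
  have h2 : x = ((p : ℚ_[p]) ^ a)⁻¹ • ((p : PadicAlgCl p) ^ a * x) := by
    rw [Algebra.smul_def, map_inv₀, map_pow, map_natCast, ← mul_assoc, inv_mul_cancel₀
      (pow_ne_zero a (Nat.cast_ne_zero.mpr (Fact.out : p.Prime).ne_zero)), one_mul]
  rw [h2]
  exact Submodule.smul_mem _ _ h1

include hz in
/-- The coefficients of an expansion of an integral element are integral. -/
theorem IsUnif.norm_coeff_le {w : ℕ → PadicAlgCl p} (hw : ∀ i, w i ∈ layer K (inertiaQp p))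
    (h : ‖∑ i ∈ Finset.range e, w i * z ^ i‖ ≤ 1) {i : ℕ} (hi : i < e) : ‖w i‖ ≤ 1 := by
  have hterm := (hz.norm_expansion hw rfl hi).trans h
  rcases eq_or_ne (w i) 0 with h0 | h0
  · simp [h0]
  obtain ⟨m, hm⟩ := exists_zpow_norm_eq_of_inertia_fixed p h0 (mem_layer_iff.mp (hw i)).2
  by_contra hgt
  push Not at hgt
  have hp1 : (1 : ℝ) < p := by exact_mod_cast (Fact.out : p.Prime).one_lt
  have hm1 : 1 ≤ m := by
    rw [hm, one_lt_zpow_iff_right₀ hp1] at hgt
    omega
  have h2 : (p : ℝ) ≤ ‖w i‖ := by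
    rw [hm]
    calc (p : ℝ) = (p : ℝ) ^ (1 : ℤ) := (zpow_one _).symm
      _ ≤ _ := zpow_le_zpow_right₀ hp1.le hm1
  have h3 : (p : ℝ)⁻¹ < ‖z‖ ^ i := by
    rw [← hz.pow_eq]
    exact pow_lt_pow_right_of_lt_one₀ hz.pos hz.lt_one hi
  rw [norm_mul, norm_pow] at hterm
  have : (1 : ℝ) < ‖w i‖ * ‖z‖ ^ i := by
    calc (1 : ℝ) = p * (p : ℝ)⁻¹ := (mul_inv_cancel₀ (by positivity)).symm
      _ < p * ‖z‖ ^ i := mul_lt_mul_of_pos_left h3 (by positivity)
      _ ≤ ‖w i‖ * ‖z‖ ^ i := mul_le_mul_of_nonneg_right h2 (by positivity)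
  exact absurd hterm (not_le.mpr this)

include hEK hF hz in
/-- The uniformizer has exactly `e` conjugates under inertia. -/
theorem IsUnif.card_conjFinset [Normal ℚ_[p] K] : (conjFinset (inertiaQp p) z).card = e := by
  classical
  set S := conjFinset (inertiaQp p) z with hS
  refine le_antisymm ?_ (not_lt.mp fun hlt => ?_)
  · obtain ⟨w, hw, hwz⟩ := hz.exists_expansion hEK hF (pow_mem hz.mem e)
    let g : (PadicAlgCl p)[X] := X ^ e - ∑ i ∈ Finset.range e, C (w i) * X ^ i
    have hdeg : (∑ i ∈ Finset.range e, C (w i) * X ^ i : (PadicAlgCl p)[X]).degree < e := by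
      refine lt_of_le_of_lt (degree_sum_le _ _) ((Finset.sup_lt_iff (WithBot.bot_lt_coe e)).mpr ?_)
      intro i hi
      exact (degree_C_mul_X_pow_le i _).trans_lt (WithBot.coe_lt_coe.mpr (Finset.mem_range.mp hi))
    have hg : g.Monic := monic_X_pow_sub hdeg
    have hroot : ∀ y ∈ S, g.IsRoot y := by
      intro y hy
      obtain ⟨σ, hσ, rfl⟩ := (mem_conjFinset _ _).mp hy
      have h := congrArg σ hwz
      simp only [map_pow, map_sum, map_mul] at h
      rw [Finset.sum_congr rfl fun i _ => by rw [(mem_layer_iff.mp (hw i)).2 σ hσ]] at h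
      simp [g, Polynomial.IsRoot, eval_finsetSum, h]
    have h1 := card_le_degree_of_subset_roots (p := g) (Z := S) fun y hy =>
      (mem_roots hg.ne_zero).mpr (hroot y hy)
    refine h1.trans (natDegree_le_of_degree_le ?_)
    exact (degree_sub_le _ _).trans (max_le (degree_X_pow e).le hdeg.le)
  · set f := conjPoly (inertiaQp p) z
    have hzK : z ∈ K := hEK hz.mem
    have h0 := eval_conjPoly_self (inertiaQp p) z
    rw [eval_eq_sum_range' (n := e) (by rw [natDegree_conjPoly]; exact hlt)] at h0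
    have h1 := hz.norm_expansion (K := K) (w := fun i => f.coeff i)
      (fun i => coeff_conjPoly_mem_layer _ z hzK i) rfl hlt
    rw [h0, norm_zero] at h1
    have hc : f.coeff S.card = 1 := by
      rw [hS, ← natDegree_conjPoly]; exact conjPoly_monic _ _
    rw [hc, one_mul, norm_pow] at h1
    exact absurd h1 (not_le.mpr (pow_pos hz.pos _))

section Compare

variable [Normal ℚ_[p] K] {J : Subgroup (GalQp p)} (hJ : J ≤ inertiaQp p)
  {z' : PadicAlgCl p} {e' : ℕ} (hz' : IsUnif (layer K J) z' e')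

include hEK hz hJ hz' in
/-- The product over a coset is at most the distance in the smaller layer. -/
theorem IsUnif.prod_le_norm_sub {σ : GalQp p} (hσ : σ ∈ inertiaQp p) :
    ∏ y ∈ conjFinset J z, ‖z - σ y‖ ≤ ‖σ z' - z'‖ := by
  classical
  have hzK : z ∈ K := hEK hz.mem
  set f := conjPoly J z with hf
  have h1 : ∏ y ∈ conjFinset J z, ‖z - σ y‖ =
      ‖(f.map (σ : PadicAlgCl p →+* PadicAlgCl p) - f).eval z‖ := by
    rw [eval_sub, eval_conjPoly_self, sub_zero, hf, map_conjPoly, eval_prod, norm_prod]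
    simp
  rw [h1, eval_eq_sum_range]
  refine IsUltrametricDist.norm_sum_le_of_forall_le_of_nonneg (norm_nonneg _) fun i _ => ?_
  rw [norm_mul, norm_pow, coeff_sub, coeff_map]
  refine (mul_le_of_le_one_right (norm_nonneg _) (pow_le_one₀ hz.pos.le hz.lt_one.le)).trans ?_
  exact hz'.norm_apply_sub_le (layer_le K J) (layer_antitone K hJ) hσ
    (coeff_conjPoly_mem_layer J z hzK i) (norm_coeff_conjPoly_le J z hz.lt_one.le i)

include hEK hF hz hJ hz' in
/-- The distance in the smaller layer is at most the product over a coset. -/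
theorem IsUnif.norm_sub_le_prod (hle : layer K J ≤ E) {σ : GalQp p} (hσ : σ ∈ inertiaQp p) :
    ‖σ z' - z'‖ ≤ ∏ y ∈ conjFinset J z, ‖z - σ y‖ := by
  classical
  obtain ⟨w, hw, hwz⟩ := hz.exists_expansion hEK hF (hle hz'.mem)
  have hw1 : ∀ i, i < e → ‖w i‖ ≤ 1 := fun i hi => hz.norm_coeff_le hw (hwz ▸ hz'.lt_one.le) hi
  let wI : ℕ → intQp p := fun i =>
    if h : i < e then ⟨w i, hw1 i h⟩ else 0
  let zI : intQp p := ⟨z', hz'.lt_one.le⟩
  let P : (intQp p)[X] := (∑ i ∈ Finset.range e, C (wI i) * X ^ i) - C zI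
  let yI : {y // y ∈ conjFinset J z} → intQp p := fun y =>
    ⟨y, ((norm_of_mem_conjFinset J z y.2).le.trans hz.lt_one.le)⟩
  let F : (intQp p)[X] := ∏ y : {y // y ∈ conjFinset J z}, (X - C (yI y))
  have heval : ∀ τ ∈ J, P.eval₂ (intQp p).subtype (τ z) = 0 := by
    intro τ hτ
    have h := congrArg τ hwz
    simp only [map_sum, map_mul, map_pow] at h
    rw [(mem_layer_iff.mp hz'.mem).2 τ hτ] at h
    simp only [P, eval₂_sub, eval₂_finsetSum, eval₂_mul, eval₂_C, eval₂_X_pow]
    rw [sub_eq_zero]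
    refine Eq.trans ?_ h.symm
    refine Finset.sum_congr rfl fun i hi => ?_
    rw [Finset.mem_range] at hi
    rw [(mem_layer_iff.mp (hw i)).2 τ (hJ hτ)]
    simp [wI, hi]
  have hroots : ∀ y, P.IsRoot (yI y) := by
    intro y
    obtain ⟨τ, hτ, hτy⟩ := (mem_conjFinset J z).mp y.2
    rw [Polynomial.IsRoot.def]
    apply Subtype.val_injective
    show (intQp p).subtype (P.eval (yI y)) = 0
    rw [← Polynomial.eval₂_at_apply]
    show P.eval₂ (intQp p).subtype (y : PadicAlgCl p) = 0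
    rw [← hτy]
    exact heval τ hτ
  have hdvd : F ∣ P := by
    rcases eq_or_ne P 0 with h0 | h0
    · exact h0 ▸ dvd_zero F
    have hinj : Function.Injective yI := fun a b h =>
      Subtype.ext (congrArg (Subtype.val : intQp p → PadicAlgCl p) h)
    have hF' : F = (((Finset.univ.val.map yI)).map fun a => X - C a).prod := by
      rw [Multiset.map_map]
      rfl
    rw [hF', Multiset.prod_X_sub_C_dvd_iff_le_roots h0,
      Multiset.le_iff_subset ((Multiset.nodup_map_iff_of_injective hinj).mpr Finset.univ.nodup)]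
    intro a ha
    obtain ⟨y, -, rfl⟩ := Multiset.mem_map.mp ha
    exact (mem_roots h0).mpr (hroots y)
  obtain ⟨Q, hQ⟩ := hdvd
  let θ : intQp p →+* PadicAlgCl p := (σ : PadicAlgCl p →+* PadicAlgCl p).comp (intQp p).subtype
  have h1 := congrArg (fun R : (intQp p)[X] => R.eval₂ θ z) hQ
  simp only [eval₂_mul] at h1
  have hP : P.eval₂ θ z = z' - σ z' := by
    simp only [P, eval₂_sub, eval₂_finsetSum, eval₂_mul, eval₂_C, eval₂_X_pow]
    congr 1
    conv_rhs => rw [hwz]
    refine Finset.sum_congr rfl fun i hi => ?_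
    rw [Finset.mem_range] at hi
    show σ ((wI i : intQp p) : PadicAlgCl p) * z ^ i = _
    simp [wI, hi, (mem_layer_iff.mp (hw i)).2 σ hσ]
  have hFev : F.eval₂ θ z = ∏ y ∈ conjFinset J z, (z - σ y) := by
    simp only [F, eval₂_finsetProd, eval₂_sub, eval₂_X, eval₂_C]
    exact Finset.prod_coe_sort (conjFinset J z) fun y => z - σ y
  have hQn : ‖Q.eval₂ θ z‖ ≤ 1 := by
    rw [eval₂_eq_sum_range]
    refine IsUltrametricDist.norm_sum_le_of_forall_le_of_nonneg zero_le_one fun i _ => ?_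
    rw [norm_mul, norm_pow]
    refine mul_le_one₀ ?_ (pow_nonneg (norm_nonneg _) _) (pow_le_one₀ hz.pos.le hz.lt_one.le)
    show ‖σ ((Q.coeff i : intQp p) : PadicAlgCl p)‖ ≤ 1
    rw [norm_galQp]
    exact (mem_intQp_iff p _).mp (Q.coeff i).2
  rw [hP, hFev] at h1
  rw [← norm_prod, norm_sub_rev, h1, norm_mul]
  exact mul_le_of_le_one_right (norm_nonneg _) hQn

end Compare

end Fermat.Agent.TW
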