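/-
Layers with respect to a subgroup of inertia: stabilisers, conjugation invariance of the distances,
leading coefficients and counting of conjugates.
-/
import Fermat.Agent.TW.LocalRamConj
import Mathlib.FieldTheory.Galois.Infinite

set_option autoImplicit false
set_option maxHeartbeats 400000

noncomputable section

namespace Fermat.Agent.TW

variable {p : ℕ} [Fact p.Prime]

theorem tameChar_pow {x : PadicAlgCl p} (hx : x ≠ 0) {σ : GalQp p} (hσ : σ ∈ inertiaQp p)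
    (m : ℕ) : tameChar p x (σ ^ m) = tameChar p x σ ^ m := by
  induction m with
  | zero =>
    rw [pow_zero, pow_zero, ← norm_sub_lt_iff_tameChar p hx]
    simpa using norm_pos_iff.mpr hx
  | succ m ih => rw [pow_succ', pow_succ', tameChar_mul p hx hσ, ih]

/-- An element of inertia fixing the layer of `J` lies in `J`. -/
theorem mem_of_fixes_layer {K : IntermediateField ℚ_[p] (PadicAlgCl p)} [FiniteDimensional ℚ_[p] K]
    [Normal ℚ_[p] K] {J : Subgroup (GalQp p)} (hJ : J ≤ inertiaQp p)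
    (hKJ : ∀ g ∈ inertiaQp p, g ∈ K.fixingSubgroup → g ∈ J) {g : GalQp p}
    (hg : g ∈ inertiaQp p) (hfix : ∀ x ∈ layer K J, g x = x) : g ∈ J := by
  haveI : IsGalois ℚ_[p] K :=
    { to_isSeparable := inferInstance, to_normal := inferInstance }
  set J1 := J ⊔ K.fixingSubgroup with hJ1
  have hclosed : IsClosed (J1 : Set (GalQp p)) :=
    OpenSubgroup.isClosed ⟨J1, Subgroup.isOpen_mono le_sup_right K.fixingSubgroup_isOpen⟩
  have hg1 : g ∈ J1 := by
    have h : (IntermediateField.fixedField J1).fixingSubgroup = J1 :=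
      InfiniteGalois.fixingSubgroup_fixedField ⟨J1, hclosed⟩
    rw [← h, IntermediateField.mem_fixingSubgroup_iff]
    intro x hx
    refine hfix x (mem_layer_iff.mpr ⟨?_, fun j hj => hx ⟨j, Subgroup.mem_sup_left hj⟩⟩)
    rw [← InfiniteGalois.fixedField_fixingSubgroup K]
    exact fun k => hx ⟨k.1, Subgroup.mem_sup_right k.2⟩
  rw [← SetLike.mem_coe, hJ1, Subgroup.mul_normal, Set.mem_mul] at hg1
  obtain ⟨j, hj, k, hk, rfl⟩ := hg1
  refine mul_mem hj (hKJ k ?_ hk)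
  have := mul_mem (inv_mem (hJ hj)) hg
  rwa [inv_mul_cancel_left] at this

section Layer

variable {K E : IntermediateField ℚ_[p] (PadicAlgCl p)} [FiniteDimensional ℚ_[p] K] (hEK : E ≤ K)
  (hF : layer K (inertiaQp p) ≤ E) {z : PadicAlgCl p} {e : ℕ} (hz : IsUnif E z e)

omit [FiniteDimensional ℚ_[p] K] in
include hz in
theorem IsUnif.of_norm_eq {y : PadicAlgCl p} (hy : y ∈ E) (hn : ‖y‖ = ‖z‖) : IsUnif E y e :=
  ⟨hy, hn ▸ hz.pos, hn ▸ hz.lt_one, hn ▸ hz.pow_eq, hn ▸ hz.exists_zpow⟩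

omit [FiniteDimensional ℚ_[p] K] in
include hz in
theorem IsUnif.exists_pow_eq {x : PadicAlgCl p} (hx : x ∈ E) (hx0 : x ≠ 0) (hx1 : ‖x‖ ≤ 1) :
    ∃ m : ℕ, ‖x‖ = ‖z‖ ^ m := by
  obtain ⟨m, hm⟩ := hz.exists_zpow x hx hx0
  have hm0 : 0 ≤ m := by
    by_contra hneg
    push Not at hneg
    rw [hm] at hx1
    exact absurd hx1 (not_le.mpr (one_lt_zpow_of_neg₀ hz.pos hz.lt_one hneg))
  obtain ⟨n, rfl⟩ := Int.eq_ofNat_of_zero_le hm0
  exact ⟨n, by rw [hm, zpow_natCast]⟩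

include hEK hF hz in
theorem IsUnif.apply_eq_self {g : GalQp p} (hg : g ∈ inertiaQp p) (hgz : g z = z)
    {x : PadicAlgCl p} (hx : x ∈ E) : g x = x := by
  obtain ⟨w, hw, rfl⟩ := hz.exists_expansion hEK hF hx
  simp [(mem_layer_iff.mp (hw _)).2 g hg, hgz]

omit [FiniteDimensional ℚ_[p] K] in
include hz in
theorem IsUnif.norm_apply_sub_lt {σ : GalQp p} (hσ : σ ∈ inertiaQp p)
    (h : tameChar p z σ = 1) {x : PadicAlgCl p} (hx : x ∈ E) (hx0 : x ≠ 0) :
    ‖σ x - x‖ < ‖x‖ := by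
  obtain ⟨m, hm⟩ := hz.exists_zpow x hx hx0
  rw [norm_sub_lt_iff_tameChar p hx0, tameChar_eq_of_norm_eq p (zpow_ne_zero m hz.ne_zero)
    (by rw [hm, norm_zpow]) hσ, tameChar_zpow p hz.ne_zero, h, one_zpow]

include hEK hz in
/-- An element with trivial tame character fixes the uniformizer after a `p`-power. -/
theorem IsUnif.exists_pow_apply_eq [Normal ℚ_[p] K] {σ : GalQp p} (hσ : σ ∈ inertiaQp p)
    (hstab : ∀ x ∈ E, σ x ∈ E) (h : tameChar p z σ = 1) : ∃ a : ℕ, (σ ^ p ^ a) z = z := by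
  set r := AlgEquiv.restrictNormalHom (F := ℚ_[p]) (K₁ := PadicAlgCl p) K with hr
  have hker : ∀ g, g ∈ K.fixingSubgroup ↔ r g = 1 := fun g => by
    rw [← IntermediateField.restrictNormalHom_ker, MonoidHom.mem_ker]
  obtain ⟨a, m, hm, hn⟩ :=
    Nat.exists_eq_pow_mul_and_not_dvd (orderOf_pos (r σ)).ne' p (Fact.out : p.Prime).ne_one
  refine ⟨a, ?_⟩
  set τ := σ ^ p ^ a with hτ
  have hτI : τ ∈ inertiaQp p := pow_mem hσ _
  have hτ1 : tameChar p z τ = 1 := by rw [hτ, tameChar_pow hz.ne_zero hσ, h, one_pow]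
  have hpowstab : ∀ i : ℕ, ∀ x ∈ E, (σ ^ i) x ∈ E := by
    intro i
    induction i with
    | zero => intro x hx; simpa using hx
    | succ i ih => intro x hx; rw [pow_succ', AlgEquiv.mul_apply]; exact hstab _ (ih x hx)
  by_contra hne
  set y := τ z - z with hy
  have hy0 : y ≠ 0 := sub_ne_zero.mpr hne
  have hyE : y ∈ E := sub_mem (hpowstab _ z hz.mem) hz.mem
  have key : ∀ j : ℕ, ‖(τ ^ j) z - z - (j : PadicAlgCl p) * y‖ < ‖y‖ := by
    intro j
    induction j with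
    | zero => simpa using norm_pos_iff.mpr hy0
    | succ j ih =>
      have h1 : (τ ^ (j + 1)) z - z - ((j + 1 : ℕ) : PadicAlgCl p) * y =
          τ ((τ ^ j) z - z - (j : PadicAlgCl p) * y) + (j : PadicAlgCl p) * (τ y - y) := by
        rw [pow_succ', AlgEquiv.mul_apply, map_sub, map_sub, map_mul, map_natCast, Nat.cast_add,
          Nat.cast_one, hy]
        ring
      rw [h1]
      refine lt_of_le_of_lt (IsUltrametricDist.norm_add_le_max _ _) (max_lt ?_ ?_)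
      · rwa [norm_galQp]
      · rw [norm_mul]
        exact lt_of_le_of_lt
          (mul_le_of_le_one_left (norm_nonneg _) (norm_natCast_le p j))
          (hz.norm_apply_sub_lt hτI hτ1 hyE hy0)
  have hτm : (τ ^ m) z = z := by
    have : τ ^ m ∈ K.fixingSubgroup := by
      rw [hker, map_pow, hτ, map_pow, ← pow_mul, ← hn, pow_orderOf_eq_one]
    exact (IntermediateField.mem_fixingSubgroup_iff _ _).mp this z (hEK hz.mem)
  have h2 := key m
  rw [hτm, sub_self, zero_sub, norm_neg, norm_mul] at h2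
  have hm1 : ‖(m : PadicAlgCl p)‖ = 1 :=
    le_antisymm (norm_natCast_le p m) (not_lt.mp fun h => hm ((norm_natCast_lt_iff p m).mp h))
  rw [hm1, one_mul] at h2
  exact lt_irrefl _ h2

include hEK hF hz in
/-- Conjugation does not change the distances. -/
theorem IsUnif.norm_conj_apply_sub {g w : GalQp p} (hw : w ∈ inertiaQp p)
    (hg : g⁻¹ z ∈ E) : ‖(g * w * g⁻¹) z - z‖ = ‖w z - z‖ := by
  have h1 : (g * w * g⁻¹) z - z = g (w (g⁻¹ z) - g⁻¹ z) := by
    rw [map_sub, AlgEquiv.mul_apply, AlgEquiv.mul_apply,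
      show g (g⁻¹ z) = z from g.apply_symm_apply z]
  rw [h1, norm_galQp]
  have hy := hz.of_norm_eq hg (norm_galQp p _ z)
  exact le_antisymm (hz.norm_apply_sub_le hEK hF hw hg hy.lt_one.le)
    (hy.norm_apply_sub_le hEK hF hw hz.mem hz.lt_one.le)

end Layer

/-- The residue of `(g z - z) / z ^ m`, when this is integral. -/
def leadCoeff (z : PadicAlgCl p) (m : ℕ) (g : GalQp p) : resQp p :=
  if h : ‖(g z - z) / z ^ m‖ ≤ 1 then resid p ⟨(g z - z) / z ^ m, h⟩ else 0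

theorem leadCoeff_eq {z : PadicAlgCl p} {m : ℕ} {g : GalQp p} (hz : z ≠ 0)
    (h : ‖g z - z‖ ≤ ‖z‖ ^ m) :
    leadCoeff z m g = resid p ⟨(g z - z) / z ^ m, (mem_intQp_iff p _).mpr (by
      rw [norm_div, norm_pow]; exact div_le_one_of_le₀ h (pow_nonneg (norm_nonneg _) _))⟩ :=
  dif_pos (by rw [norm_div, norm_pow, div_le_one (pow_pos (norm_pos_iff.mpr hz) _)]; exact h)

theorem leadCoeff_eq_zero_iff {z : PadicAlgCl p} {m : ℕ} {g : GalQp p} (hz : z ≠ 0)
    (h : ‖g z - z‖ ≤ ‖z‖ ^ m) : leadCoeff z m g = 0 ↔ ‖g z - z‖ < ‖z‖ ^ m := by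
  rw [leadCoeff_eq hz h, resid_eq_zero_iff]
  show ‖(g z - z) / z ^ m‖ < 1 ↔ _
  rw [norm_div, norm_pow, div_lt_one (pow_pos (norm_pos_iff.mpr hz) _)]

section Lead

variable {K E : IntermediateField ℚ_[p] (PadicAlgCl p)} [FiniteDimensional ℚ_[p] K] (hEK : E ≤ K)
  (hF : layer K (inertiaQp p) ≤ E) {z : PadicAlgCl p} {e : ℕ} (hz : IsUnif E z e)

omit [FiniteDimensional ℚ_[p] K] in
include hz in
/-- The leading coefficient is additive on elements with trivial tame character. -/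
theorem IsUnif.leadCoeff_mul {m : ℕ} {v w : GalQp p} (hv : v ∈ inertiaQp p)
    (hv1 : tameChar p z v = 1) (hwz : w z ∈ E) (hvm : ‖v z - z‖ ≤ ‖z‖ ^ m)
    (hwm : ‖w z - z‖ ≤ ‖z‖ ^ m) :
    ‖(v * w) z - z‖ ≤ ‖z‖ ^ m ∧
      leadCoeff z m (v * w) = leadCoeff z m v + leadCoeff z m w := by
  set x := w z - z with hx
  have hxE : x ∈ E := sub_mem hwz hz.mem
  have hsmall : ‖v x - x‖ < ‖z‖ ^ m := by
    rcases eq_or_ne x 0 with h0 | h0
    · rw [h0, map_zero, sub_self, norm_zero]; exact pow_pos hz.pos m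
    · exact (hz.norm_apply_sub_lt hv hv1 hxE h0).trans_le hwm
  have hsplit : (v * w) z - z = (v x - x) + (x + (v z - z)) := by
    rw [hx, map_sub, AlgEquiv.mul_apply]; ring
  have hle : ‖(v * w) z - z‖ ≤ ‖z‖ ^ m := by
    rw [hsplit]
    exact (IsUltrametricDist.norm_add_le_max _ _).trans
      (max_le hsmall.le ((IsUltrametricDist.norm_add_le_max _ _).trans (max_le hwm hvm)))
  refine ⟨hle, ?_⟩
  rw [leadCoeff_eq hz.ne_zero hle, leadCoeff_eq hz.ne_zero hvm, leadCoeff_eq hz.ne_zero hwm,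
    ← map_add, resid_eq_iff]
  show ‖((v * w) z - z) / z ^ m - ((v z - z) / z ^ m + (w z - z) / z ^ m)‖ < 1
  rw [← add_div, ← sub_div, norm_div, norm_pow, div_lt_one (pow_pos hz.pos m),
    show (v * w) z - z - (v z - z + (w z - z)) = v x - x by rw [hsplit]; ring]
  exact hsmall

include hEK hF hz in
/-- The leading coefficient of a conjugate. -/
theorem IsUnif.leadCoeff_conj {t : ℕ} (ht : 1 ≤ t) {g w : GalQp p} (hw : w ∈ inertiaQp p)
    (hg : g⁻¹ z ∈ E) (hwm : ‖w z - z‖ ≤ ‖z‖ ^ (t + 1)) :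
    ‖(g * w * g⁻¹) z - z‖ ≤ ‖z‖ ^ (t + 1) ∧
      leadCoeff z (t + 1) (g * w * g⁻¹) = tameChar p z g ^ t * resid p (g •
        (⟨(w z - z) / z ^ (t + 1), (mem_intQp_iff p _).mpr (by
          rw [norm_div, norm_pow]
          exact div_le_one_of_le₀ hwm (pow_nonneg (norm_nonneg _) _))⟩ : intQp p)) := by
  have hle : ‖(g * w * g⁻¹) z - z‖ ≤ ‖z‖ ^ (t + 1) :=
    (hz.norm_conj_apply_sub hEK hF hw hg).le.trans hwm
  refine ⟨hle, ?_⟩
  set y := g⁻¹ z with hy
  have hgy : g y = z := g.apply_symm_apply z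
  have hz0 := hz.ne_zero
  set u := y / z with hu
  have huE : u ∈ E := div_mem hg hz.mem
  have hu1 : ‖u‖ ≤ 1 := by rw [hu, norm_div, hy, norm_galQp, div_self hz.pos.ne']
  have hgz0 : g z ≠ 0 := (map_ne_zero g).mpr hz0
  have hgu : g u = z / g z := by rw [hu, map_div₀, hgy]
  rw [leadCoeff_eq hz0 hle, tameChar, ← map_pow, ← map_mul, resid_eq_iff]
  show ‖((g * w * g⁻¹) z - z) / z ^ (t + 1) -
    (g z / z) ^ t * g ((w z - z) / z ^ (t + 1))‖ < 1
  have h1 : (g * w * g⁻¹) z - z = g (w y - y) := by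
    rw [map_sub, hgy]; rfl
  have h2 : w y - y = (w u - u) * w z + u * (w z - z) := by
    rw [hu, map_div₀]
    have : w z ≠ 0 := (map_ne_zero w).mpr hz0
    field_simp
    ring
  have h3 : ((g * w * g⁻¹) z - z) / z ^ (t + 1) -
      (g z / z) ^ t * g ((w z - z) / z ^ (t + 1)) = g ((w u - u) * w z) / z ^ (t + 1) := by
    rw [h1, h2, map_add, map_mul g u, hgu, map_div₀ g (w z - z), map_pow, div_pow]
    field_simp
    ring
  rw [h3, norm_div, norm_galQp, norm_mul, norm_pow, norm_galQp,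
    div_lt_one (pow_pos hz.pos _)]
  calc ‖w u - u‖ * ‖z‖ ≤ ‖z‖ ^ (t + 1) * ‖z‖ :=
        mul_le_mul_of_nonneg_right ((hz.norm_apply_sub_le hEK hF hw huE hu1).trans hwm)
          hz.pos.le
    _ < ‖z‖ ^ (t + 1) := mul_lt_of_lt_one_right (pow_pos hz.pos _) hz.lt_one

end Lead

/-- Counting conjugates along a subgroup containing the stabiliser. -/
theorem card_conjFinset_mul {X : Type*} [DecidableEq X] {G H : Subgroup (GalQp p)} (hHG : H ≤ G)
    {z : PadicAlgCl p} (hstab : ∀ g ∈ G, g z = z → g ∈ H) (f : GalQp p → X)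
    (hf : ∀ g ∈ G, ∀ g' ∈ G, f g = f g' ↔ g⁻¹ * g' ∈ H) (T : Finset X)
    (hT : ∀ x, x ∈ T ↔ ∃ g ∈ G, f g = x) :
    (conjFinset G z).card = T.card * (conjFinset H z).card := by
  classical
  choose ρ hρG hρ using fun x : T => (hT x.1).mp x.2
  rw [← Fintype.card_coe T, ← Finset.card_univ, ← Finset.card_product]
  symm
  refine Finset.card_bij (fun a _ => ρ a.1 a.2) ?_ ?_ ?_
  · rintro ⟨x, y⟩ ha
    rw [Finset.mem_product] at ha
    obtain ⟨h, hh, rfl⟩ := (mem_conjFinset H z).mp ha.2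
    exact (mem_conjFinset G z).mpr ⟨ρ x * h, mul_mem (hρG x) (hHG hh), rfl⟩
  · rintro ⟨x, y⟩ ha ⟨x', y'⟩ ha' heq
    rw [Finset.mem_product] at ha ha'
    obtain ⟨h, hh, rfl⟩ := (mem_conjFinset H z).mp ha.2
    obtain ⟨h', hh', rfl⟩ := (mem_conjFinset H z).mp ha'.2
    simp only at heq
    have h1 : h'⁻¹ * (ρ x')⁻¹ * ρ x * h ∈ H :=
      hstab _ (mul_mem (mul_mem (mul_mem (inv_mem (hHG hh')) (inv_mem (hρG x'))) (hρG x))
        (hHG hh)) (by
          simp only [AlgEquiv.mul_apply, heq]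
          rw [show (ρ x')⁻¹ (ρ x' (h' z)) = h' z from (ρ x').symm_apply_apply _,
            show h'⁻¹ (h' z) = z from h'.symm_apply_apply _])
    have h2 : (ρ x')⁻¹ * ρ x ∈ H := by
      have := mul_mem (mul_mem hh' h1) (inv_mem hh)
      simpa [mul_assoc] using this
    have h3 : x' = x := by
      apply Subtype.ext
      rw [← hρ x', ← hρ x]
      exact (hf _ (hρG x') _ (hρG x)).mpr h2
    subst h3
    exact Prod.ext rfl ((ρ x').injective heq)
  · intro y hy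
    obtain ⟨g, hg, rfl⟩ := (mem_conjFinset G z).mp hy
    let x : T := ⟨f g, (hT _).mpr ⟨g, hg, rfl⟩⟩
    have h1 : (ρ x)⁻¹ * g ∈ H := (hf _ (hρG x) _ hg).mp (hρ x)
    exact ⟨(x, ((ρ x)⁻¹ * g) z), Finset.mem_product.mpr ⟨Finset.mem_univ _,
      (mem_conjFinset H z).mpr ⟨_, h1, rfl⟩⟩, (ρ x).apply_symm_apply _⟩

end Fermat.Agent.TW
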