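/-
The shape of a residual representation with an integral model at `p`: either ordinary (a line
modulo which inertia is trivial, equal to the connected points) or connected without stable
line.
-/
import Fermat.Agent.TW.LocalFlatBaer
import Mathlib.RingTheory.RootsOfUnity.Lemmas

set_option autoImplicit false
set_option maxHeartbeats 400000

noncomputable section

namespace Fermat.Agent.TW

variable {p : ℕ} [Fact p.Prime]

theorem norm_natCast_eq_one {a : ℕ} (h : ¬ p ∣ a) : ‖(a : PadicAlgCl p)‖ = 1 :=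
  le_antisymm (norm_natCast_le p a) (not_lt.mp fun hlt => h ((norm_natCast_lt_iff p a).mp hlt))

theorem exists_primitiveRoot_padicAlgCl : ∃ ζ : PadicAlgCl p, IsPrimitiveRoot ζ p := by
  haveI : NeZero p := ⟨(Fact.out : p.Prime).ne_zero⟩
  haveI : NeZero ((p : ℕ) : PadicAlgCl p) :=
    ⟨Nat.cast_ne_zero.mpr (Fact.out : p.Prime).ne_zero⟩
  exact HasEnoughRootsOfUnity.exists_primitiveRoot (PadicAlgCl p) p

theorem norm_primitiveRoot_sub_one {ζ : PadicAlgCl p} (hζ : IsPrimitiveRoot ζ p) :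
    ‖ζ - 1‖ ^ (p - 1) = (p : ℝ)⁻¹ := by
  classical
  have hp : p.Prime := Fact.out
  haveI : NeZero p := ⟨hp.ne_zero⟩
  have hζ1 : ‖ζ‖ = 1 :=
    IsOfFinOrder.norm_eq_one (isOfFinOrder_iff_pow_eq_one.mpr ⟨p, hp.pos, hζ.pow_eq_one⟩)
  have hle : ∀ (z : PadicAlgCl p) (i : ℕ), ‖z‖ ≤ 1 → ‖z ^ i - 1‖ ≤ ‖z - 1‖ := by
    intro z i hz
    induction i with
    | zero => simp
    | succ i ih =>
      have : z ^ (i + 1) - 1 = z * (z ^ i - 1) + (z - 1) := by ring
      rw [this]
      refine le_trans (IsUltrametricDist.norm_add_le_max _ _) (max_le ?_ le_rfl)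
      rw [norm_mul]
      exact le_trans (mul_le_of_le_one_left (norm_nonneg _) hz) ih
  have hprod : ∏ j ∈ Finset.Ico 1 p, (1 - ζ ^ j) = (p : PadicAlgCl p) := by
    obtain ⟨n, hn⟩ : ∃ n, p = n + 1 := ⟨p - 1, by have := hp.pos; omega⟩
    have := IsPrimitiveRoot.prod_one_sub_pow_eq_order (n := n) (μ := ζ) (hn ▸ hζ)
    have hcast : (p : PadicAlgCl p) = (n : PadicAlgCl p) + 1 := by
      exact_mod_cast congrArg (Nat.cast : ℕ → PadicAlgCl p) hn
    rw [Finset.prod_Ico_eq_prod_range, show p - 1 = n by omega, hcast]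
    simpa [add_comm 1] using this
  have hnorm : ∀ j ∈ Finset.Ico 1 p, ‖1 - ζ ^ j‖ = ‖ζ - 1‖ := by
    intro j hj
    rw [Finset.mem_Ico] at hj
    have hcop : Nat.Coprime j p := by
      refine (hp.coprime_iff_not_dvd.mpr fun h => ?_).symm
      exact absurd (Nat.le_of_dvd (by omega) h) (by omega)
    obtain ⟨i, -, hi⟩ := (hζ.pow_of_coprime j hcop).eq_pow_of_pow_eq_one hζ.pow_eq_one
    rw [norm_sub_rev]
    refine le_antisymm (hle ζ j hζ1.le) ?_
    calc ‖ζ - 1‖ = ‖(ζ ^ j) ^ i - 1‖ := by rw [hi]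
      _ ≤ ‖ζ ^ j - 1‖ := hle _ i (by rw [norm_pow, hζ1, one_pow])
  rw [← norm_p p, ← hprod, norm_prod, Finset.prod_congr rfl hnorm, Finset.prod_const,
    Nat.card_Ico]

theorem tameChar_primitiveRoot_sub_one {ζ : PadicAlgCl p} (hζ : IsPrimitiveRoot ζ p)
    {s : GalQp p} (hs : s ∈ inertiaQp p) :
    tameChar p (ζ - 1) s = ((localCyclo p s : ZMod p).val : resQp p) := by
  have hp : p.Prime := Fact.out
  set a := (localCyclo p s : ZMod p).val with ha
  have hne : ζ - 1 ≠ 0 := sub_ne_zero.mpr (hζ.ne_one hp.one_lt)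
  have hζ1 : ‖ζ‖ = 1 :=
    IsOfFinOrder.norm_eq_one (isOfFinOrder_iff_pow_eq_one.mpr ⟨p, hp.pos, hζ.pow_eq_one⟩)
  let z : intQp p := ⟨ζ, (mem_intQp_iff p _).mpr hζ1.le⟩
  have hres : resid p z = 1 := by
    rw [← map_one (resid p), resid_eq_iff]
    show ‖ζ - 1‖ < 1
    have h1 := norm_primitiveRoot_sub_one hζ
    by_contra hge
    push Not at hge
    have : (1 : ℝ) ≤ (p : ℝ)⁻¹ := h1 ▸ one_le_pow₀ hge
    exact absurd this (not_le.mpr (inv_lt_one_of_one_lt₀ (by exact_mod_cast hp.one_lt)))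
  have h : tameChar p (ζ - 1) s = resid p (∑ i ∈ Finset.range a, z ^ i) := by
    rw [tameChar]
    congr 1
    apply Subtype.ext
    show s (ζ - 1) / (ζ - 1) = _
    rw [map_sub, map_one, localCyclo_spec p s ζ hζ.pow_eq_one, AddSubmonoidClass.coe_finsetSum,
      div_eq_iff hne]
    simp only [SubmonoidClass.coe_pow, z]
    rw [geom_sum_mul, ha]
  rw [h, map_sum]
  simp [hres]

namespace LocalModel

variable {V : Type*} [AddCommGroup V] {act : GalQp p → V → V} (M : LocalModel p V act)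

/-- Values on multiples of a point, to first order. -/
theorem norm_apply_nsmul_sub_le {x : V} {δ : ℝ} (hδ0 : 0 ≤ δ) (hδ1 : δ ≤ 1)
    (hδ : ∀ g ∈ M.alg, g 0 = 0 → ‖g x‖ ≤ δ) :
    ∀ (m : ℕ), ∀ f ∈ M.alg, f 0 = 0 →
      ‖f (m • x) - (m : PadicAlgCl p) * f x‖ ≤ δ ^ 2 ∧ ‖f (m • x)‖ ≤ δ := by
  intro m
  induction m with
  | zero => intro f _ hf0; simp [hf0, hδ0, sq_nonneg]
  | succ m ih =>
    intro f hf hf0
    obtain ⟨n, a, b, ha, hb, h⟩ := M.comul_aug hf hf0
    have key : ‖f ((m + 1) • x) - ((m + 1 : ℕ) : PadicAlgCl p) * f x‖ ≤ δ ^ 2 := by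
      have h1 : f ((m + 1) • x) - ((m + 1 : ℕ) : PadicAlgCl p) * f x =
          (f (m • x) - (m : PadicAlgCl p) * f x) +
            ∑ i, (a i : V → PadicAlgCl p) x * (b i : V → PadicAlgCl p) (m • x) := by
        rw [succ_nsmul', h]
        push_cast
        ring
      rw [h1]
      refine (IsUltrametricDist.norm_add_le_max _ _).trans (max_le (ih f hf hf0).1 ?_)
      refine IsUltrametricDist.norm_sum_le_of_forall_le_of_nonneg (sq_nonneg δ) fun i _ => ?_
      rw [norm_mul, sq]
      exact mul_le_mul (hδ _ (a i).2 (ha i)) (ih _ (b i).2 (hb i)).2 (norm_nonneg _) hδ0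
    refine ⟨key, ?_⟩
    have h2 : f ((m + 1) • x) = (f ((m + 1) • x) - ((m + 1 : ℕ) : PadicAlgCl p) * f x) +
        ((m + 1 : ℕ) : PadicAlgCl p) * f x := by ring
    rw [h2]
    refine (IsUltrametricDist.norm_add_le_max _ _).trans (max_le (key.trans ?_) ?_)
    · exact (pow_le_of_le_one hδ0 hδ1 two_ne_zero)
    · rw [norm_mul]
      exact (mul_le_of_le_one_left (norm_nonneg _) (norm_natCast_le p _)).trans (hδ f hf hf0)

include M in
/-- If inertia acts on a connected point through `𝔽_p^*`, it acts by the cyclotomic character. -/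
theorem natCast_eq_localCyclo (hpV : ∀ v : V, p • v = 0) {g : V} (hg : g ≠ 0) (hconn : M.IsConn g)
    (hscal : ∀ s ∈ inertiaQp p, ∃ c : ℕ, act s g = c • g) {s : GalQp p} (hs : s ∈ inertiaQp p)
    {c : ℕ} (hc : act s g = c • g) : (c : ZMod p) = (localCyclo p s : ZMod p) := by
  classical
  have hp : p.Prime := Fact.out
  haveI : NeZero p := ⟨hp.ne_zero⟩
  obtain ⟨f, hf, hf0, hfx, hmax⟩ := M.exists_max_aug hg
  have h1 := M.inv_p_le_pow_of_isConn (hpV g) hconn hf hf0 hfx hmax
  have hlt : ‖f g‖ < 1 := by simpa [hf0] using hconn f hf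
  set δ := ‖f g‖ with hδ
  have hδpos : 0 < δ := norm_pos_iff.mpr hfx
  have hsq : δ ^ 2 < δ := by nlinarith
  have hmod : ∀ m : ℕ, m • g = (m % p) • g := fun m => by
    conv_lhs => rw [← Nat.mod_add_div m p, add_nsmul, mul_nsmul, hpV g, smul_zero, add_zero]
  have hval : ∀ u : (ZMod p)ˣ, ‖f ((u : ZMod p).val • g)‖ = δ := by
    intro u
    have hnd : ¬ p ∣ (u : ZMod p).val := fun h => by
      have : ((u : ZMod p).val : ZMod p) = 0 := (CharP.cast_eq_zero_iff (ZMod p) p _).mpr h
      rw [ZMod.natCast_zmod_val] at this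
      exact u.ne_zero this
    obtain ⟨hd, hb⟩ := M.norm_apply_nsmul_sub_le hδpos.le hlt.le hmax (u : ZMod p).val f hf hf0
    refine le_antisymm hb (not_lt.mp fun hlt' => ?_)
    have h2 : ‖((u : ZMod p).val : PadicAlgCl p) * f g‖ = δ := by
      rw [norm_mul, norm_natCast_eq_one hnd, one_mul]
    have h3 : ((u : ZMod p).val : PadicAlgCl p) * f g = f ((u : ZMod p).val • g) -
        (f ((u : ZMod p).val • g) - ((u : ZMod p).val : PadicAlgCl p) * f g) := by ring
    rw [h3] at h2
    have := IsUltrametricDist.norm_add_le_max (f ((u : ZMod p).val • g))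
      (-(f ((u : ZMod p).val • g) - ((u : ZMod p).val : PadicAlgCl p) * f g))
    rw [← sub_eq_add_neg, h2, norm_neg] at this
    exact absurd this (not_le.mpr (max_lt hlt' (hd.trans_lt hsq)))
  -- the product over the orbit has norm `δ ^ (p - 1)` and is fixed by inertia
  set x := ∏ u : (ZMod p)ˣ, f ((u : ZMod p).val • g) with hx
  have hxnorm : ‖x‖ = δ ^ (p - 1) := by
    rw [hx, norm_prod, Finset.prod_congr rfl fun u _ => hval u, Finset.prod_const, Finset.card_univ,
      ZMod.card_units]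
  have hxfix : ∀ t ∈ inertiaQp p, t x = x := by
    intro t ht
    obtain ⟨d, hd⟩ := hscal t ht
    have hd0 : (d : ZMod p) ≠ 0 := by
      intro h0
      rw [CharP.cast_eq_zero_iff (ZMod p) p] at h0
      have h4 : act t g = 0 := by
        rw [hd, hmod, Nat.mod_eq_zero_of_dvd h0, zero_smul]
      apply hg
      have h5 := congrArg (act t⁻¹) h4
      rwa [← M.act_mul, inv_mul_cancel, M.act_one, M.act_zero] at h5
    rw [hx, map_prod]
    refine Fintype.prod_equiv (Equiv.mulRight (Units.mk0 (d : ZMod p) hd0)) _ _ fun u => ?_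
    have hnsmul : ∀ m : ℕ, act t (m • g) = m • act t g := by
      intro m
      induction m with
      | zero => simp [M.act_zero]
      | succ m ih => rw [succ_nsmul, M.act_add, ih, succ_nsmul]
    rw [← M.equivariant f hf, hnsmul, hd, ← mul_nsmul', Equiv.coe_mulRight, Units.val_mul,
      Units.val_mk0, ZMod.val_mul, ZMod.val_natCast, ← hmod]
    rw [hmod ((u : ZMod p).val * d), hmod ((u : ZMod p).val * (d % p)), Nat.mul_mod_mod]
  have hx0 : x ≠ 0 := norm_ne_zero_iff.mp (by rw [hxnorm]; positivity)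
  obtain ⟨m, hm⟩ := exists_zpow_norm_eq_of_inertia_fixed p hx0 hxfix
  have hp1 : (1 : ℝ) < p := by exact_mod_cast hp.one_lt
  have hp2le : p - 1 ≠ 0 := by have := hp.two_le; omega
  have hδ1 : δ ^ (p - 1) < 1 := pow_lt_one₀ hδpos.le hlt hp2le
  rw [← hxnorm, hm] at h1 hδ1
  rw [← zpow_neg_one, zpow_le_zpow_iff_right₀ hp1] at h1
  rw [zpow_lt_one_iff_right₀ hp1] at hδ1
  obtain rfl : m = -1 := by omega
  rw [zpow_neg_one] at hm
  obtain ⟨ζ, hζ⟩ := exists_primitiveRoot_padicAlgCl (p := p)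
  have heq : ‖f g‖ = ‖ζ - 1‖ := by
    refine (pow_left_inj₀ (norm_nonneg _) (norm_nonneg _) hp2le).mp ?_
    rw [norm_primitiveRoot_sub_one hζ, ← hδ, ← hxnorm, hm]
  have h6 := tameChar_eq_of_norm_eq p (sub_ne_zero.mpr (hζ.ne_one hp.one_lt)) heq hs
  rw [tameChar_primitiveRoot_sub_one hζ hs] at h6
  have h7 : tameChar p (f g) s = (c : resQp p) := by
    rw [← map_natCast (resid p) c, tameChar, resid_eq_iff]
    show ‖s (f g) / f g - ((c : intQp p) : PadicAlgCl p)‖ < 1
    rw [show ((c : intQp p) : PadicAlgCl p) = (c : PadicAlgCl p) by simp, div_sub' hfx, norm_div,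
      div_lt_one hδpos, ← M.equivariant f hf, hc, mul_comm]
    exact ((M.norm_apply_nsmul_sub_le hδpos.le hlt.le hmax c f hf hf0).1).trans_lt hsq
  rw [h7] at h6
  rw [← ZMod.natCast_zmod_val (localCyclo p s : ZMod p), ZMod.natCast_eq_natCast_iff]
  exact (CharP.natCast_eq_natCast (resQp p) p).mp h6

end LocalModel

section Residual

variable {k : Type} [Field k] [Finite k] [CharP k p] {r : GalQp p →* Matrix (Fin 2) (Fin 2) k}

omit [Finite k] in
theorem exists_natCast_of_pow_eq_self {x : k} (hx : x ^ p = x) : ∃ n : ℕ, (n : k) = x := by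
  classical
  have hp : p.Prime := Fact.out
  by_contra hcon
  push Not at hcon
  have hinj : Set.InjOn (fun i : ℕ => (i : k)) (Set.Iio p) := fun a ha b hb hab =>
    Nat.ModEq.eq_of_lt_of_lt ((CharP.natCast_eq_natCast k p).mp hab) ha hb
  let S : Finset k := insert x ((Finset.range p).image fun i : ℕ => (i : k))
  have hS : S.card = p + 1 := by
    rw [Finset.card_insert_of_notMem (by
      simp only [Finset.mem_image, not_exists, not_and]
      exact fun i _ h => hcon i h), Finset.card_image_of_injOn (by simpa using hinj),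
      Finset.card_range]
  have hroot : ∀ y ∈ S, y ^ p = y := by
    intro y hy
    rw [Finset.mem_insert] at hy
    rcases hy with rfl | hy
    · exact hx
    · obtain ⟨i, -, rfl⟩ := Finset.mem_image.mp hy
      rw [← frobenius_def]
      exact map_natCast (frobenius k p) i
  have hdeg := Polynomial.card_le_degree_of_subset_roots
    (p := (Polynomial.X ^ p - Polynomial.X : Polynomial k)) (Z := S) fun y hy => by
      rw [Polynomial.mem_roots (FiniteField.X_pow_card_sub_X_ne_zero k hp.one_lt),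
        Polynomial.IsRoot.def, Polynomial.eval_sub, Polynomial.eval_pow, Polynomial.eval_X,
        hroot y hy, sub_self]
  rw [hS, FiniteField.X_pow_card_sub_X_natDegree_eq k hp.one_lt] at hdeg
  omega

omit [Finite k] [CharP k p] in
theorem mem_span_of_det_eq_zero {v x : Fin 2 → k} (hv : v ≠ 0)
    (h : v 0 * x 1 - v 1 * x 0 = 0) : x ∈ k ∙ v := by
  rw [Submodule.mem_span_singleton]
  by_cases h0 : v 0 = 0
  · have h1 : v 1 ≠ 0 := fun h1 => hv (funext fun i => by fin_cases i <;> assumption)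
    refine ⟨x 1 / v 1, funext fun i => ?_⟩
    fin_cases i
    · have : x 0 = 0 := by
        rw [h0, zero_mul, zero_sub, neg_eq_zero] at h
        exact (mul_eq_zero.mp h).resolve_left h1
      simp [h0, this]
    · simp [div_mul_cancel₀ _ h1]
  · refine ⟨x 0 / v 0, funext fun i => ?_⟩
    fin_cases i
    · simp [div_mul_cancel₀ _ h0]
    · show x 0 / v 0 * v 1 = x 1
      rw [div_mul_eq_mul_div, div_eq_iff h0]
      linear_combination -h

variable (r) in
/-- The span of `(s - 1) V` over inertia. -/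
def inertiaSpan : Submodule k (Fin 2 → k) :=
  Submodule.span k {x | ∃ s ∈ inertiaQp p, ∃ v, x = (r s).mulVec v - v}

omit [Finite k] [CharP k p] in
theorem sub_mem_inertiaSpan {s : GalQp p} (hs : s ∈ inertiaQp p) (v : Fin 2 → k) :
    (r s).mulVec v - v ∈ inertiaSpan r :=
  Submodule.subset_span ⟨s, hs, v, rfl⟩

omit [Finite k] [CharP k p] in
theorem mulVec_mem_inertiaSpan (g : GalQp p) {x : Fin 2 → k} (hx : x ∈ inertiaSpan r) :
    (r g).mulVec x ∈ inertiaSpan r := by
  induction hx using Submodule.span_induction with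
  | mem x hx =>
    obtain ⟨s, hs, v, rfl⟩ := hx
    have h := sub_mem_inertiaSpan (r := r) (conj_mem_inertiaQp p g hs) ((r g).mulVec v)
    rwa [Matrix.mulVec_mulVec, ← map_mul, inv_mul_cancel_right, map_mul, ← Matrix.mulVec_mulVec,
      ← Matrix.mulVec_sub] at h
  | zero => simp
  | add a b _ _ ha hb => rw [Matrix.mulVec_add]; exact add_mem ha hb
  | smul t a _ ha => rw [Matrix.mulVec_smul]; exact Submodule.smul_mem _ t ha

omit [Finite k] [Fact p.Prime] in
theorem nsmul_eq_zero_of_charP {W : Type*} [AddCommGroup W] [Module k W] (w : W) : p • w = 0 := by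
  rw [← Nat.cast_smul_eq_nsmul k, CharP.cast_eq_zero k p, zero_smul]

omit [Finite k] [CharP k p] in
theorem isConn_of_mem_inertiaSpan (M : LocalModel p (Fin 2 → k) (vecAct r)) {x : Fin 2 → k}
    (hx : x ∈ inertiaSpan r) : M.IsConn x := by
  suffices h : ∀ t : k, M.IsConn (t • x) by simpa using h 1
  induction hx using Submodule.span_induction with
  | mem x hx =>
    obtain ⟨s, hs, v, rfl⟩ := hx
    intro t
    rw [smul_sub, ← Matrix.mulVec_smul]
    exact M.isConn_act_sub hs (t • v)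
  | zero => intro t; rw [smul_zero]; exact M.isConn_zero
  | add a b _ _ ha hb => intro t; rw [smul_add]; exact (ha t).add (hb t)
  | smul u a _ ha => intro t; rw [smul_smul]; exact ha _

/-- The connected points are exactly the inertia span. -/
theorem mem_inertiaSpan_of_isConn (hp2 : p ≠ 2) (M : LocalModel p (Fin 2 → k) (vecAct r))
    {x : Fin 2 → k} (hx : M.IsConn x) : x ∈ inertiaSpan r := by
  haveI := Fintype.ofFinite k
  let π := (inertiaSpan r).mkQ.toAddMonoidHom
  let actU : GalQp p → ((Fin 2 → k) ⧸ inertiaSpan r) → ((Fin 2 → k) ⧸ inertiaSpan r) := fun g =>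
    Submodule.mapQ (inertiaSpan r) (inertiaSpan r) (Matrix.mulVecLin (r g)) fun y hy =>
      mulVec_mem_inertiaSpan (r := r) g hy
  have hact : ∀ σ v, π (vecAct r σ v) = actU σ (π v) := fun σ v => rfl
  have h := (M.quotient π (Submodule.mkQ_surjective _) hact).eq_zero_of_isConn_of_fixed hp2
    (nsmul_eq_zero_of_charP (k := k) _) (hx.map_quotient π (Submodule.mkQ_surjective _) hact)
    (fun s hs => by
      rw [← hact]
      show Submodule.Quotient.mk _ = Submodule.Quotient.mk _
      rw [Submodule.Quotient.eq]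
      exact sub_mem_inertiaSpan hs x)
  exact (Submodule.Quotient.mk_eq_zero _).mp h

omit [Finite k] in
theorem exists_inertia_det_ne_one (hp2 : p ≠ 2)
    (hdet : ∀ g, (r g).det = ((localCyclo p g : ZMod p).val : k)) :
    ∃ s ∈ inertiaQp p, (r s).det ≠ 1 := by
  obtain ⟨s, hs, hne⟩ := exists_inertia_localCyclo_ne_one p hp2
  refine ⟨s, hs, fun h => hne ?_⟩
  rw [hdet, ← Nat.cast_one, CharP.natCast_eq_natCast k p, ← ZMod.natCast_eq_natCast_iff,
    ZMod.natCast_zmod_val, Nat.cast_one] at h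
  exact Units.ext h

/-- Ordinary or connected without stable lines. -/
theorem shape (hp2 : p ≠ 2) (hfin : IsFiniteLevel p r)
    (hdet : ∀ g, (r g).det = ((localCyclo p g : ZMod p).val : k))
    (M : LocalModel p (Fin 2 → k) (vecAct r)) :
    (∃ v : Fin 2 → k, v ≠ 0 ∧ inertiaSpan r = k ∙ v) ∨
      ((∀ x, M.IsConn x) ∧
        ∀ v : Fin 2 → k, v ≠ 0 → ∃ g, (r g).mulVec v ∉ k ∙ v) := by
  haveI := Fintype.ofFinite k
  obtain ⟨s₀, hs₀, hs₀det⟩ := exists_inertia_det_ne_one (r := r) hp2 hdet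
  by_cases htop : inertiaSpan r = ⊤
  swap
  · refine Or.inl ?_
    have h1 : Module.finrank k (inertiaSpan r) ≤ 1 := by
      have := Submodule.finrank_lt htop
      rw [Module.finrank_fin_fun] at this
      omega
    obtain ⟨w, hw⟩ : ∃ w, (r s₀).mulVec w - w ≠ 0 := by
      by_contra hcon
      push Not at hcon
      apply hs₀det
      have : r s₀ = 1 := Matrix.ext_of_mulVec_single fun i => by
        rw [sub_eq_zero.mp (hcon _), Matrix.one_mulVec]
      rw [this, Matrix.det_one]
    refine ⟨_, hw, (Submodule.eq_of_le_of_finrank_le ?_ ?_).symm⟩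
    · rw [Submodule.span_singleton_le_iff_mem]
      exact sub_mem_inertiaSpan hs₀ w
    · rw [finrank_span_singleton hw]; exact h1
  refine Or.inr ⟨fun x => isConn_of_mem_inertiaSpan M (htop ▸ Submodule.mem_top), fun v hv => ?_⟩
  by_contra hcon
  push Not at hcon
  simp only [Submodule.mem_span_singleton] at hcon
  choose ψ hψ using hcon
  -- the character on the line
  have hinj : ∀ a b : k, a • v = b • v → a = b := fun a b h => smul_left_injective k hv h
  let ψh : GalQp p →* k :=
    { toFun := ψ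
      map_one' := hinj _ _ (by rw [hψ, map_one, Matrix.one_mulVec, one_smul])
      map_mul' := fun g h => hinj _ _ (by
        rw [hψ, map_mul, ← Matrix.mulVec_mulVec, ← hψ h, Matrix.mulVec_smul, ← hψ g, smul_smul,
          mul_comm]) }
  obtain ⟨E, hE, hEr⟩ := hfin
  haveI := hE
  haveI : FiniteDimensional ℚ_[p] (IntermediateField.normalClosure ℚ_[p] E (PadicAlgCl p)) :=
    normalClosure.is_finiteDimensional _ _ _
  set K := IntermediateField.normalClosure ℚ_[p] E (PadicAlgCl p)
  haveI : Normal ℚ_[p] K := normalClosure.normal _ _ _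
  have hK : ∀ g ∈ K.fixingSubgroup, ψh g = 1 := fun g hg => hinj _ _ (by
    show ψ g • v = (1 : k) • v
    have h1 : r g = 1 := by
      simpa using hEr 1 g (IntermediateField.fixingSubgroup_antitone E.le_normalClosure hg)
    rw [hψ, h1, Matrix.one_mulVec, one_smul])
  have hne : ∀ g, ψh g ≠ 0 := fun g h => one_ne_zero (α := k) (by
    rw [← map_one ψh, ← mul_inv_cancel g, map_mul, h, zero_mul])
  have hcop : Nat.Coprime p (Fintype.card k - 1) := by
    obtain ⟨n, hp', hn⟩ := FiniteField.card k p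
    rw [Nat.Prime.coprime_iff_not_dvd hp']
    intro hdvd
    have h1 : p ∣ (p : ℕ) ^ (n : ℕ) := dvd_pow_self p n.ne_zero
    rw [hn] at hdvd
    have h2 := Nat.dvd_sub h1 hdvd
    have h3 : 0 < p ^ (n : ℕ) := pow_pos hp'.pos _
    rw [show p ^ (n : ℕ) - (p ^ (n : ℕ) - 1) = 1 by omega] at h2
    exact hp'.one_lt.ne' (Nat.dvd_one.mp h2)
  obtain ⟨τ, hτ, hgen, hfrob⟩ := exists_tame_generator_of_coprime hcop ψh K hK
    (fun s _ => FiniteField.pow_card_sub_one_eq_one _ (hne s))
  obtain ⟨φ, hφ⟩ := exists_frobenius p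
  have hτp : ψh τ ^ p = ψh τ := by
    rw [← hfrob φ hφ, map_mul, map_mul, mul_comm (ψh φ), mul_assoc, ← map_mul, mul_inv_cancel,
      map_one, mul_one]
  obtain ⟨c₀, hc₀⟩ := exists_natCast_of_pow_eq_self hτp
  have hscal : ∀ s ∈ inertiaQp p, ∃ c : ℕ, vecAct r s v = c • v ∧ (c : k) = ψh s := by
    intro s hs
    obtain ⟨n, hn⟩ := hgen s hs
    refine ⟨c₀ ^ n, ?_, by rw [hn, Nat.cast_pow, hc₀]⟩
    rw [vecAct_apply, ← hψ s, ← Nat.cast_smul_eq_nsmul k, Nat.cast_pow, hc₀, ← hn]
    rfl
  have hvconn : M.IsConn v := isConn_of_mem_inertiaSpan M (htop ▸ Submodule.mem_top)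
  -- inertia is trivial modulo the line
  have hsub : ∀ s ∈ inertiaQp p, ∀ w, (r s).mulVec w - w ∈ k ∙ v := by
    intro s hs w
    obtain ⟨c, hc, hcψ⟩ := hscal s hs
    have hω := M.natCast_eq_localCyclo (nsmul_eq_zero_of_charP (k := k)) hv hvconn
      (fun t ht => (hscal t ht).imp fun _ h => h.1) hs hc
    have hψdet : ψh s = (r s).det := by
      rw [hdet, ← hcψ, CharP.natCast_eq_natCast k p, ← ZMod.natCast_eq_natCast_iff,
        ZMod.natCast_zmod_val, hω]
    set A := r s with hA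
    have hAv : A.mulVec v = ψh s • v := (hψ s).symm
    have h2 : (A.mulVec v) 0 * (A.mulVec w) 1 - (A.mulVec v) 1 * (A.mulVec w) 0 =
        A.det * (v 0 * w 1 - v 1 * w 0) := by
      simp [Matrix.mulVec, dotProduct, Matrix.det_fin_two, Fin.sum_univ_two]
      ring
    rw [hAv, hψdet] at h2
    simp only [Pi.smul_apply, smul_eq_mul] at h2
    have hd : A.det ≠ 0 := by rw [← hψdet]; exact hne s
    refine mem_span_of_det_eq_zero hv ?_
    apply mul_left_cancel₀ hd
    simp only [Pi.sub_apply, mul_zero]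
    linear_combination h2
  have hle : inertiaSpan r ≤ k ∙ v := Submodule.span_le.mpr (by
    rintro _ ⟨s, hs, w, rfl⟩
    exact hsub s hs w)
  have h4 := Submodule.finrank_mono hle
  rw [htop, finrank_top, Module.finrank_fin_fun, finrank_span_singleton hv] at h4
  omega

end Residual

end Fermat.Agent.TW
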