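/-
The group ring of the points of a `p`-torsion group with the norm dual to an integral model, and
the comparison with the values at the characters.
-/
import Fermat.Agent.TW.LocalModelOps
import Mathlib.Algebra.MonoidAlgebra.Basic
import Mathlib.Algebra.Group.AddChar
import Mathlib.NumberTheory.LegendreSymbol.AddCharacter
import Mathlib.LinearAlgebra.Dual.Lemmas
import Mathlib.RingTheory.RootsOfUnity.Lemmas
import Mathlib.Algebra.CharP.Lemmas

set_option autoImplicit false
set_option maxHeartbeats 400000

noncomputable section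

open AddMonoidAlgebra

namespace Fermat.Agent.TW.LiftRing

variable {p : ℕ} [Fact p.Prime] {V : Type*} [AddCommGroup V] [Fintype V]

/-- Pairing of the group ring with functions. -/
def pair (f : V → PadicAlgCl p) :
    AddMonoidAlgebra (PadicAlgCl p) V →ₗ[PadicAlgCl p] PadicAlgCl p where
  toFun u := ∑ x, u.coeff x * f x
  map_add' u w := by simp [add_mul, Finset.sum_add_distrib]
  map_smul' t u := by simp [Finset.mul_sum, mul_assoc]

omit [AddCommGroup V] in
theorem pair_apply (f : V → PadicAlgCl p) (u : AddMonoidAlgebra (PadicAlgCl p) V) :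
    pair f u = ∑ x, u.coeff x * f x := rfl

omit [AddCommGroup V] in
@[simp] theorem pair_single (f : V → PadicAlgCl p) (x : V) (t : PadicAlgCl p) :
    pair f (single x t) = t * f x := by
  classical
  simp [pair_apply, Finsupp.single_apply]

/-- Convolution against a function with a product expansion. -/
theorem pair_mul {ι : Type*} [Fintype ι] (f : V → PadicAlgCl p) (a b : ι → V → PadicAlgCl p)
    (h : ∀ x y, f (x + y) = ∑ i, a i x * b i y) (u w : AddMonoidAlgebra (PadicAlgCl p) V) :
    pair f (u * w) = ∑ i, pair (a i) u * pair (b i) w := by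
  induction u using AddMonoidAlgebra.induction_linear with
  | zero => simp
  | add u u' hu hu' => simp [add_mul, hu, hu', Finset.sum_add_distrib]
  | single x s =>
    induction w using AddMonoidAlgebra.induction_linear with
    | zero => simp
    | add w w' hw hw' => simp [mul_add, hw, hw', Finset.sum_add_distrib]
    | single y t =>
      rw [single_mul_single, pair_single, h, Finset.mul_sum]
      exact Finset.sum_congr rfl fun i _ => by simp; ring

/-- Pairing with a character is multiplicative. -/
theorem pair_addChar_mul (χ : AddChar V (PadicAlgCl p)) (u w : AddMonoidAlgebra (PadicAlgCl p) V) :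
    pair χ (u * w) = pair χ u * pair χ w := by
  rw [pair_mul (ι := Unit) χ (fun _ => χ) (fun _ => χ) (fun x y => by simp [χ.map_add_eq_mul])]
  simp

theorem pair_addChar_one (χ : AddChar V (PadicAlgCl p)) : pair χ 1 = 1 := by
  rw [AddMonoidAlgebra.one_def, pair_single, AddChar.map_zero_eq_one, one_mul]

theorem pair_addChar_pow (χ : AddChar V (PadicAlgCl p)) (u : AddMonoidAlgebra (PadicAlgCl p) V)
    (n : ℕ) : pair χ (u ^ n) = pair χ u ^ n := by
  induction n with
  | zero => simpa using pair_addChar_one χ
  | succ n ih => rw [pow_succ, pair_addChar_mul, ih, pow_succ]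

/-- The element of the group ring representing a linear form on functions. -/
def ofForm (L : (V → PadicAlgCl p) →ₗ[PadicAlgCl p] PadicAlgCl p) :
    AddMonoidAlgebra (PadicAlgCl p) V :=
  letI := Classical.decEq V
  ∑ x, single x (L (Pi.single x 1))

omit [AddCommGroup V] in
theorem pair_ofForm (L : (V → PadicAlgCl p) →ₗ[PadicAlgCl p] PadicAlgCl p)
    (f : V → PadicAlgCl p) : pair f (ofForm L) = L f := by
  classical
  conv_rhs => rw [pi_eq_sum_univ' f]
  simp only [ofForm, map_sum, pair_single, map_smul, smul_eq_mul]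
  exact Finset.sum_congr rfl fun x _ => mul_comm _ _

variable {act : GalQp p → V → V} (M : LocalModel p V act)

/-- The pairing with the algebra is bounded by `α`. -/
def Small (α : ℝ) (u : AddMonoidAlgebra (PadicAlgCl p) V) : Prop :=
  ∀ f ∈ M.alg, ‖pair f u‖ ≤ α

variable {M}

theorem Small.mono {α β : ℝ} {u : AddMonoidAlgebra (PadicAlgCl p) V} (h : Small M α u)
    (hαβ : α ≤ β) : Small M β u := fun f hf => (h f hf).trans hαβ

theorem Small.nonneg {α : ℝ} {u : AddMonoidAlgebra (PadicAlgCl p) V} (h : Small M α u) :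
    0 ≤ α := (norm_nonneg _).trans (h 0 M.alg.zero_mem)

theorem Small.add {α : ℝ} {u w : AddMonoidAlgebra (PadicAlgCl p) V} (hu : Small M α u)
    (hw : Small M α w) : Small M α (u + w) := fun f hf => by
  rw [map_add]
  exact (IsUltrametricDist.norm_add_le_max _ _).trans (max_le (hu f hf) (hw f hf))

theorem Small.neg {α : ℝ} {u : AddMonoidAlgebra (PadicAlgCl p) V} (hu : Small M α u) :
    Small M α (-u) := fun f hf => by rw [map_neg, norm_neg]; exact hu f hf

theorem Small.sub {α : ℝ} {u w : AddMonoidAlgebra (PadicAlgCl p) V} (hu : Small M α u)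
    (hw : Small M α w) : Small M α (u - w) := sub_eq_add_neg u w ▸ hu.add hw.neg

theorem Small.smul {α : ℝ} {u : AddMonoidAlgebra (PadicAlgCl p) V} (hu : Small M α u)
    (t : PadicAlgCl p) : Small M (‖t‖ * α) (t • u) := fun f hf => by
  rw [map_smul, smul_eq_mul, norm_mul]
  exact mul_le_mul_of_nonneg_left (hu f hf) (norm_nonneg _)

theorem Small.mul {α β : ℝ} {u w : AddMonoidAlgebra (PadicAlgCl p) V} (hu : Small M α u)
    (hw : Small M β w) : Small M (α * β) (u * w) := fun f hf => by
  obtain ⟨n, a, b, h⟩ := M.comul_mem f hf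
  rw [pair_mul f (fun i => (a i : V → PadicAlgCl p)) (fun i => (b i : V → PadicAlgCl p)) h]
  refine IsUltrametricDist.norm_sum_le_of_forall_le_of_nonneg
    (mul_nonneg hu.nonneg hw.nonneg) fun i _ => ?_
  rw [norm_mul]
  exact mul_le_mul (hu _ (a i).2) (hw _ (b i).2) (norm_nonneg _) hu.nonneg

theorem small_single (x : V) : Small M 1 (single x 1) := fun f hf => by
  rw [pair_single, one_mul]
  exact M.norm_apply_le_one hf x

variable (M)

/-- The integral elements. -/
def intRing : Subring (AddMonoidAlgebra (PadicAlgCl p) V) where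
  carrier := {u | Small M 1 u}
  one_mem' := by
    show Small M 1 1
    rw [AddMonoidAlgebra.one_def]
    exact small_single 0
  zero_mem' := fun f _ => by simp
  add_mem' hu hw := hu.add hw
  neg_mem' hu := hu.neg
  mul_mem' hu hw := by simpa using hu.mul hw

theorem mem_intRing_iff {u : AddMonoidAlgebra (PadicAlgCl p) V} :
    u ∈ intRing M ↔ Small M 1 u := Iff.rfl

theorem exists_basis : ∃ (n : ℕ) (b : Fin n → M.alg)
    (B : Module.Basis (Fin n) (PadicAlgCl p) (V → PadicAlgCl p)),
    (∀ i, B i = (b i : V → PadicAlgCl p)) ∧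
    ∀ f ∈ M.alg, ∀ i, ∃ a : ℤ_[p], algebraMap ℚ_[p] (PadicAlgCl p) a = B.repr f i := by
  classical
  have : Module.Finite ℤ_[p] M.toSubmodule := Module.Finite.iff_fg.mpr M.toSubmodule_fg
  have : Module.IsTorsionFree ℤ_[p] M.toSubmodule := by
    refine Module.IsTorsionFree.of_smul_eq_zero fun a f h => ?_
    rcases eq_or_ne a 0 with ha | ha
    · exact Or.inl ha
    refine Or.inr (Subtype.ext (funext fun x => ?_))
    have h1 := congrFun (congrArg Subtype.val h) x
    simp only [SetLike.val_smul, padicInt_smul_fun_apply, ZeroMemClass.coe_zero,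
      Pi.zero_apply] at h1
    exact (mul_eq_zero.mp h1).resolve_left (by simpa using ha)
  obtain ⟨n, β⟩ := Module.basisOfFiniteTypeTorsionFree' (R := ℤ_[p]) (M := M.toSubmodule)
  let b : Fin n → M.alg := fun i => ⟨(β i : V → PadicAlgCl p), (β i).2⟩
  have hexp : ∀ f (hf : f ∈ M.alg), f = ∑ i, algebraMap ℚ_[p] (PadicAlgCl p)
      (β.repr (⟨f, hf⟩ : M.toSubmodule) i) • (b i : V → PadicAlgCl p) := by
    intro f hf
    have h1 : ((∑ i, β.repr (⟨f, hf⟩ : M.toSubmodule) i • β i : M.toSubmodule) :
        V → PadicAlgCl p) = f := by rw [β.sum_repr]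
    funext x
    have h2 := congrFun h1 x
    simp only [AddSubmonoidClass.coe_finsetSum, SetLike.val_smul, Finset.sum_apply,
      padicInt_smul_fun_apply] at h2
    rw [Finset.sum_apply, ← h2]
    rfl
  have hli : LinearIndependent (PadicAlgCl p) fun i => (b i : V → PadicAlgCl p) := by
    rw [Fintype.linearIndependent_iff]
    intro c hc
    by_contra hne
    push Not at hne
    obtain ⟨j, hj⟩ := hne
    obtain ⟨d, hd, hrel⟩ := M.exists_padic_relation b c (Function.ne_iff.mpr ⟨j, hj⟩)
      fun x => by simpa [Finset.sum_apply] using congrFun hc x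
    obtain ⟨i₁, hi₁⟩ := Function.ne_iff.mp hd
    obtain ⟨i₀, -, hi₀⟩ :=
      Finset.exists_max_image Finset.univ (fun i => ‖d i‖) ⟨i₁, Finset.mem_univ i₁⟩
    have hd0 : d i₀ ≠ 0 := fun h => hi₁ (by
      have := hi₀ i₁ (Finset.mem_univ i₁)
      rw [h, norm_zero] at this
      simpa using this)
    let e : Fin n → ℤ_[p] := fun i => ⟨d i / d i₀, by
      rw [norm_div]
      exact (div_le_one (norm_pos_iff.mpr hd0)).mpr (hi₀ i (Finset.mem_univ i))⟩
    have he : ∑ i, e i • β i = 0 := by
      refine Subtype.ext (funext fun x => ?_)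
      simp only [AddSubmonoidClass.coe_finsetSum, SetLike.val_smul, Finset.sum_apply,
        padicInt_smul_fun_apply, ZeroMemClass.coe_zero, Pi.zero_apply]
      have := hrel x
      calc _ = (algebraMap ℚ_[p] (PadicAlgCl p) (d i₀))⁻¹ *
            ∑ i, algebraMap ℚ_[p] (PadicAlgCl p) (d i) * (b i : V → PadicAlgCl p) x := by
            rw [Finset.mul_sum]
            refine Finset.sum_congr rfl fun i _ => ?_
            show algebraMap ℚ_[p] (PadicAlgCl p) (d i / d i₀) * _ = _
            rw [map_div₀]
            ring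
        _ = 0 := by rw [this, mul_zero]
    have := Fintype.linearIndependent_iff.mp β.linearIndependent e he i₀
    exact one_ne_zero ((div_self hd0).symm.trans (congrArg Subtype.val this))
  have hspan : ⊤ ≤ Submodule.span (PadicAlgCl p)
      (Set.range fun i => (b i : V → PadicAlgCl p)) := by
    intro g _
    rw [pi_eq_sum_univ' g]
    refine sum_mem fun x _ => Submodule.smul_mem _ _ ?_
    obtain ⟨m, c, f, hf⟩ := M.exists_indicator x
    have : (Pi.single x 1 : V → PadicAlgCl p) = ∑ i, c i • (f i : V → PadicAlgCl p) := by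
      funext y
      simpa [Finset.sum_apply, Pi.single_apply, eq_comm] using (hf y).symm
    rw [this]
    refine sum_mem fun i _ => Submodule.smul_mem _ _ ?_
    rw [hexp _ (f i).2]
    exact sum_mem fun j _ => Submodule.smul_mem _ _ (Submodule.subset_span ⟨j, rfl⟩)
  refine ⟨n, b, Module.Basis.mk hli hspan, fun i => Module.Basis.mk_apply hli hspan i,
    fun f hf i => ⟨β.repr (⟨f, hf⟩ : M.toSubmodule) i, ?_⟩⟩
  conv_rhs => rw [hexp f hf]
  simp only [map_sum, map_smul, Finsupp.coe_finsetSum, Finset.sum_apply, Finsupp.coe_smul,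
    Pi.smul_apply, smul_eq_mul]
  rw [Finset.sum_eq_single i]
  · rw [← Module.Basis.mk_apply hli hspan i, Module.Basis.repr_self]; simp
  · intro j _ hj
    rw [← Module.Basis.mk_apply hli hspan j, Module.Basis.repr_self]
    simp [hj.symm]
  · simp

variable {M}

/-- Coefficients bound the pairing with any function. -/
theorem exists_pair_bound (g : V → PadicAlgCl p) :
    ∃ C : ℝ, ∀ (u : AddMonoidAlgebra (PadicAlgCl p) V) (α : ℝ), Small M α u →
      ‖pair g u‖ ≤ C * α := by
  obtain ⟨n, b, B, hB, -⟩ := exists_basis M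
  refine ⟨∑ i, ‖B.repr g i‖, fun u α hu => ?_⟩
  have h : pair g u = ∑ i, B.repr g i * pair (b i : V → PadicAlgCl p) u := by
    conv_lhs => rw [← B.sum_repr g]
    simp only [pair_apply, hB, Finset.sum_apply, Pi.smul_apply, smul_eq_mul, Finset.mul_sum]
    rw [Finset.sum_comm]
    exact Finset.sum_congr rfl fun i _ => Finset.sum_congr rfl fun x _ => by ring
  rw [h, Finset.sum_mul]
  exact (norm_sum_le _ _).trans (Finset.sum_le_sum fun i _ => by
    rw [norm_mul]
    exact mul_le_mul_of_nonneg_left (hu _ (b i).2) (norm_nonneg _))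

theorem Small.pow {α : ℝ} {u : AddMonoidAlgebra (PadicAlgCl p) V} (hu : Small M α u) (n : ℕ) :
    Small M (α ^ n) (u ^ n) := by
  induction n with
  | zero => simpa [AddMonoidAlgebra.one_def] using small_single (M := M) (0 : V)
  | succ n ih => rw [pow_succ, pow_succ]; exact ih.mul hu

/-- The values at characters are bounded by the norm. -/
theorem Small.norm_pair_addChar_le {α : ℝ} {u : AddMonoidAlgebra (PadicAlgCl p) V}
    (hu : Small M α u) (χ : AddChar V (PadicAlgCl p)) : ‖pair χ u‖ ≤ α := by
  obtain ⟨C, hC⟩ := exists_pair_bound (M := M) (χ : V → PadicAlgCl p)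
  have hpow : ∀ n : ℕ, ‖pair χ u‖ ^ n ≤ C * α ^ n := fun n => by
    rw [← norm_pow, ← pair_addChar_pow]
    exact hC _ _ (hu.pow n)
  rcases hu.nonneg.eq_or_lt with h0 | h0
  · have := hpow 1
    rw [pow_one, pow_one, ← h0, mul_zero] at this
    rw [← h0]; exact this
  · by_contra hlt
    push Not at hlt
    obtain ⟨n, hn⟩ := pow_unbounded_of_one_lt C ((one_lt_div h0).mpr hlt)
    rw [div_pow, lt_div_iff₀ (pow_pos h0 n)] at hn
    exact absurd (hpow n) (not_le.mpr hn)

end Fermat.Agent.TW.LiftRing
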