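/-
An element of the group ring which is close to zero at every character and whose shifted `p`-th
power is close to one is close to zero on the integral model.
-/
import Fermat.Agent.TW.LocalLiftGroupRing

set_option autoImplicit false
set_option maxHeartbeats 400000

noncomputable section

open AddMonoidAlgebra

namespace Fermat.Agent.TW.LiftRing

theorem exists_one_add_pow_prime {R : Type*} [CommRing R] {p : ℕ} (hp : p.Prime) (w : R) :
    ∃ A : R, (1 + w) ^ p = 1 + w ^ p + (p : R) * w * (1 + w * A) := by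
  obtain ⟨q, hq⟩ : ∃ q, p = q + 2 := ⟨p - 2, by have := hp.two_le; omega⟩
  have hd : (p : R) * w ^ 2 ∣
      ∑ i ∈ Finset.range q, w ^ (i + 2) * 1 ^ (p - (i + 2)) * (p.choose (i + 2) : R) := by
    refine Finset.dvd_sum fun i hi => ?_
    rw [Finset.mem_range] at hi
    obtain ⟨k, hk⟩ := hp.dvd_choose_self (k := i + 2) (by omega) (by omega)
    refine ⟨w ^ i * (k : R), ?_⟩
    rw [hk, one_pow, mul_one, Nat.cast_mul, pow_add]
    ring
  obtain ⟨A, hA⟩ := hd
  refine ⟨A, ?_⟩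
  have h := add_pow w 1 p
  rw [add_comm 1 w, h]
  conv_lhs => rw [hq, Finset.sum_range_succ, Finset.sum_range_succ', Finset.sum_range_succ']
  rw [← hq]
  simp only [show ∀ i, i + 1 + 1 = i + 2 from fun i => rfl] at hA ⊢
  rw [hA]
  simp
  ring

theorem exists_mul_one_add {R : Type*} [CommRing R] (n : ℕ) (w A A₀ : R) :
    ∃ A' : R, (1 + w * A) ^ n * (1 + w * A₀) = 1 + w * A' := by
  obtain ⟨B, hB⟩ : w ∣ (1 + w * A) ^ n - 1 :=
    ⟨A * ∑ i ∈ Finset.range n, (1 + w * A) ^ i, by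
      rw [← geom_sum_mul]; ring⟩
  refine ⟨B + A₀ + w * B * A₀, ?_⟩
  rw [sub_eq_iff_eq_add.mp hB]
  ring

variable {p : ℕ} [Fact p.Prime] {V : Type*} [AddCommGroup V] [Fintype V]
  {act : GalQp p → V → V} {M : LocalModel p V act}

omit [Fintype V] in
theorem cast_mul_eq_smul (z : AddMonoidAlgebra (PadicAlgCl p) V) :
    (p : AddMonoidAlgebra (PadicAlgCl p) V) * z = (p : PadicAlgCl p) • z := by
  rw [Nat.cast_smul_eq_nsmul, nsmul_eq_mul]

/-- Cancellation of a unit congruent to `1` modulo `w`. -/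
theorem small_of_small_mul_one_add {C r : ℝ} (hr0 : 0 < r) (hr1 : r < 1)
    {w A : AddMonoidAlgebra (PadicAlgCl p) V} (hw : Small M 1 w) (hA : Small M 1 A)
    (hpow : ∀ n, Small M (C * r ^ n) (w ^ n)) (h : Small M r (w * (1 + w * A))) :
    Small M r w := by
  obtain ⟨m, hm⟩ := exists_pow_lt_of_lt_one
    (show (0 : ℝ) < 1 / (|C| + 1) from div_pos one_pos (by positivity)) hr1
  set x := -(w * A) with hx
  have hxint : x ∈ intRing M :=
    (intRing M).neg_mem ((intRing M).mul_mem hw hA)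
  have hS : Small M 1 (∑ i ∈ Finset.range m, x ^ i) :=
    (intRing M).sum_mem fun i _ => (intRing M).pow_mem hxint i
  have hid : w = w * (1 + w * A) * (∑ i ∈ Finset.range m, x ^ i) + w ^ (m + 1) * (-A) ^ m := by
    have h1 := mul_neg_geom_sum x m
    rw [hx, sub_neg_eq_add] at h1
    rw [mul_assoc, h1, show -(w * A) = w * (-A) by ring, mul_pow]
    ring
  rw [hid]
  refine (((h.mul hS).mono (mul_one r).le)).add ?_
  refine ((hpow (m + 1)).mul ((mem_intRing_iff M).mp ((intRing M).pow_mem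
    ((intRing M).neg_mem hA) m))).mono ?_
  have hC : C * r ^ m ≤ 1 := by
    refine (mul_le_mul_of_nonneg_right (le_abs_self C) (pow_nonneg hr0.le _)).trans ?_
    refine (mul_le_mul_of_nonneg_left hm.le (abs_nonneg C)).trans ?_
    rw [mul_one_div]
    exact (div_le_one (by positivity)).mpr (by linarith)
  calc C * r ^ (m + 1) * 1 = C * r ^ m * r := by ring
    _ ≤ 1 * r := mul_le_mul_of_nonneg_right hC hr0.le
    _ = r := one_mul r

/-- Iterated `p`-th powers. -/
theorem exists_iterate {ε r : ℝ} (hr : r = p * ε) (hr1 : r ≤ 1)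
    (hrp : r ^ (p - 1) ≤ (p : ℝ)⁻¹) {w : AddMonoidAlgebra (PadicAlgCl p) V}
    (hw : Small M 1 w) (hr0 : 0 ≤ r) (he : Small M ε ((1 + w) ^ p - 1)) :
    ∀ n : ℕ, ∃ (c : PadicAlgCl p) (A t : AddMonoidAlgebra (PadicAlgCl p) V),
      w ^ p ^ n = c • (w * (1 + w * A) + t) ∧ Small M 1 A ∧ Small M r t ∧
        ‖c‖ ^ (p - 1) * (p : ℝ)⁻¹ = ((p : ℝ)⁻¹) ^ p ^ n := by
  have hp : p.Prime := Fact.out
  have hpR : (0 : ℝ) < p := by exact_mod_cast hp.pos
  have hεr : ε = (p : ℝ)⁻¹ * r := by rw [hr, inv_mul_cancel_left₀ hpR.ne']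
  intro n
  induction n with
  | zero =>
    exact ⟨1, 0, 0, by simp, (intRing M).zero_mem, fun f _ => by simpa using hr0, by simp⟩
  | succ n ih =>
    obtain ⟨c, A, t, heq, hA, ht, hc⟩ := ih
    obtain ⟨A₀, hA₀⟩ := exists_one_add_pow_prime hp (⟨w, hw⟩ : intRing M)
    obtain ⟨A', hA'⟩ := exists_mul_one_add p (⟨w, hw⟩ : intRing M) ⟨A, hA⟩ A₀
    obtain ⟨s, hs⟩ := exists_add_pow_prime_eq hp
      (⟨w * (1 + w * A), (intRing M).mul_mem hw ((intRing M).add_mem (intRing M).one_mem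
        ((intRing M).mul_mem hw hA))⟩ : intRing M) ⟨t, ht.mono hr1⟩
    replace hA₀ := congrArg Subtype.val hA₀
    replace hA' := congrArg Subtype.val hA'
    replace hs := congrArg Subtype.val hs
    simp only [Subring.coe_add, Subring.coe_mul, Subring.coe_one, Subring.coe_pow,
      SubringClass.coe_natCast] at hA₀ hA' hs
    set e := (1 + w) ^ p - 1 with he'
    set R := e * (1 + w * A) ^ p + t ^ p +
      (p : PadicAlgCl p) • (w * (1 + w * A) * t * (s : AddMonoidAlgebra (PadicAlgCl p) V)) with hR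
    have hUint : (1 + w * A) ^ p ∈ intRing M :=
      (intRing M).pow_mem ((intRing M).add_mem (intRing M).one_mem ((intRing M).mul_mem hw hA)) p
    have hRsmall : Small M ε R := by
      refine ((((he.mul hUint).mono (mul_one ε).le)).add ?_).add ?_
      · refine (ht.pow p).mono ?_
        rw [hεr, show r ^ p = r ^ (p - 1) * r by rw [← pow_succ]; congr 1; have := hp.pos; omega]
        exact mul_le_mul_of_nonneg_right hrp hr0
      · have hx : Small M 1 (w * (1 + w * A)) :=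
          (intRing M).mul_mem hw ((intRing M).add_mem (intRing M).one_mem
            ((intRing M).mul_mem hw hA))
        refine (((hx.mul ht).mul s.2).smul _).mono ?_
        rw [norm_p, hεr, one_mul, mul_one]
    have hstep : (w * (1 + w * A) + t) ^ p =
        (-(p : PadicAlgCl p)) •
          (w * (1 + w * (A' : AddMonoidAlgebra (PadicAlgCl p) V)) +
            (-(p : PadicAlgCl p))⁻¹ • R) := by
      have hne : (-(p : PadicAlgCl p)) ≠ 0 := neg_ne_zero.mpr (by exact_mod_cast hp.ne_zero)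
      rw [smul_add, smul_inv_smul₀ hne, hs, mul_pow, hR, he', hA₀, neg_smul, ← cast_mul_eq_smul,
        ← cast_mul_eq_smul, ← hA']
      ring
    refine ⟨c ^ p * (-(p : PadicAlgCl p)), A', (-(p : PadicAlgCl p))⁻¹ • R, ?_, A'.2, ?_, ?_⟩
    · rw [pow_succ, pow_mul, heq, smul_pow, hstep, smul_smul]
    · refine (hRsmall.smul _).mono ?_
      rw [norm_inv, norm_neg, norm_p, inv_inv, hr]
    · rw [norm_mul, norm_pow, norm_neg, norm_p, pow_succ p n, pow_mul ((p : ℝ)⁻¹), ← hc,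
        mul_pow, mul_pow, ← pow_mul, ← pow_mul, mul_comm p (p - 1), mul_assoc, ← pow_succ,
        show p - 1 + 1 = p by have := hp.pos; omega]

/-- The main estimate. -/
theorem small_of_binomial {C ε r : ℝ} (hC : 0 ≤ C) (hr : r = p * ε) (hr0 : 0 < r) (hr1 : r < 1)
    (hrp : r ^ (p - 1) < (p : ℝ)⁻¹) {w : AddMonoidAlgebra (PadicAlgCl p) V}
    (hw : Small M 1 w) (he : Small M ε ((1 + w) ^ p - 1))
    (hpow : ∀ n, Small M (C * r ^ n) (w ^ n)) : Small M r w := by
  have hp : p.Prime := Fact.out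
  have hpR : (0 : ℝ) < p := by exact_mod_cast hp.pos
  set ρ := r ^ (p - 1) * p with hρ
  have hρ0 : 0 ≤ ρ := mul_nonneg (pow_nonneg hr0.le _) hpR.le
  have hρ1 : ρ < 1 := by
    have := mul_lt_mul_of_pos_right hrp hpR
    rwa [inv_mul_cancel₀ hpR.ne'] at this
  have hK : 0 < (C + 1) ^ (p - 1) := pow_pos (by linarith) _
  obtain ⟨n, hn⟩ := exists_pow_lt_of_lt_one
    (div_pos (mul_pos hpR (pow_pos hr0 (p - 1))) hK) hρ1
  obtain ⟨c, A, t, heq, hA, ht, hc⟩ := exists_iterate hr hr1.le hrp.le hw hr0.le he n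
  have hc0 : c ≠ 0 := by
    intro h
    rw [h, norm_zero, zero_pow (by have := hp.two_le; omega), zero_mul] at hc
    exact absurd hc.symm (pow_ne_zero _ (inv_ne_zero hpR.ne'))
  have hle : ‖c⁻¹‖ * (C * r ^ p ^ n) ≤ r := by
    rw [norm_inv, inv_mul_le_iff₀ (norm_pos_iff.mpr hc0)]
    refine (pow_le_pow_iff_left₀ (mul_nonneg hC (pow_nonneg hr0.le _))
      (mul_nonneg (norm_nonneg _) hr0.le) (show p - 1 ≠ 0 by have := hp.two_le; omega)).mp ?_
    have hcval : ‖c‖ ^ (p - 1) = ((p : ℝ)⁻¹) ^ p ^ n * p := by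
      rw [← hc, mul_assoc, inv_mul_cancel₀ hpR.ne', mul_one]
    rw [mul_pow, mul_pow, hcval, ← pow_mul, mul_comm (p ^ n), pow_mul]
    have h1 : (r ^ (p - 1)) ^ p ^ n = ρ ^ p ^ n * ((p : ℝ)⁻¹) ^ p ^ n := by
      rw [← mul_pow, hρ, mul_assoc, mul_inv_cancel₀ hpR.ne', mul_one]
    have h2 : C ^ (p - 1) * ρ ^ p ^ n ≤ p * r ^ (p - 1) := by
      calc C ^ (p - 1) * ρ ^ p ^ n ≤ (C + 1) ^ (p - 1) * ρ ^ n :=
            mul_le_mul (pow_le_pow_left₀ hC (by linarith) _)
              (pow_le_pow_of_le_one hρ0 hρ1.le (Nat.lt_pow_self hp.one_lt).le)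
              (pow_nonneg hρ0 _) hK.le
        _ ≤ _ := ((lt_div_iff₀' hK).mp hn).le
    rw [h1, ← mul_assoc]
    calc C ^ (p - 1) * ρ ^ p ^ n * ((p : ℝ)⁻¹) ^ p ^ n
        ≤ p * r ^ (p - 1) * ((p : ℝ)⁻¹) ^ p ^ n :=
          mul_le_mul_of_nonneg_right h2 (pow_nonneg (inv_nonneg.mpr hpR.le) _)
      _ = _ := by ring
  have hx : Small M r (w * (1 + w * A) + t) := by
    refine Small.mono ?_ hle
    have := (hpow (p ^ n)).smul c⁻¹
    rwa [heq, inv_smul_smul₀ hc0] at this
  refine small_of_small_mul_one_add hr0 hr1 hw hA hpow ?_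
  have := hx.sub ht
  rwa [add_sub_cancel_right] at this

end Fermat.Agent.TW.LiftRing
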