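/-
Fontaine's lifting lemma for integral models killed by `p`: an approximate point corresponds to a
character of the Cartier dual, hence to a point.
-/
import Fermat.Agent.TW.LocalLiftBinomial

set_option autoImplicit false
set_option maxHeartbeats 400000

noncomputable section

open AddMonoidAlgebra

namespace Fermat.Agent.TW

namespace LiftRing

variable {p : ℕ} [Fact p.Prime]

theorem norm_sub_le_trans {a b c : PadicAlgCl p} {ε : ℝ} (h1 : ‖a - b‖ ≤ ε) (h2 : ‖b - c‖ ≤ ε) :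
    ‖a - c‖ ≤ ε := by
  rw [← sub_add_sub_cancel a b c]
  exact (IsUltrametricDist.norm_add_le_max _ _).trans (max_le h1 h2)

theorem norm_mul_sub_mul_le {a b c d : PadicAlgCl p} {ε : ℝ} (ha : ‖a‖ ≤ 1) (hd : ‖d‖ ≤ 1)
    (h1 : ‖b - d‖ ≤ ε) (h2 : ‖a - c‖ ≤ ε) : ‖a * b - c * d‖ ≤ ε := by
  refine norm_sub_le_trans (b := a * d) ?_ ?_
  · rw [← mul_sub, norm_mul]
    exact (mul_le_of_le_one_left (norm_nonneg _) ha).trans h1
  · rw [← sub_mul, norm_mul]
    exact (mul_le_of_le_one_right (norm_nonneg _) hd).trans h2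

variable {ζ : PadicAlgCl p} (hζ : IsPrimitiveRoot ζ p)
include hζ

theorem norm_rootPow (i : ℕ) : ‖ζ ^ i‖ = 1 := by
  rw [norm_pow, IsOfFinOrder.norm_eq_one (isOfFinOrder_iff_pow_eq_one.mpr
    ⟨p, (Fact.out : p.Prime).pos, hζ.pow_eq_one⟩), one_pow]

theorem prod_norm_one_sub_rootPow :
    ∏ i ∈ (Finset.range p).erase 0, ‖1 - ζ ^ i‖ = (p : ℝ)⁻¹ := by
  have hp : p.Prime := Fact.out
  obtain ⟨n, hn⟩ : ∃ n, p = n + 1 := ⟨p - 1, by have := hp.pos; omega⟩
  have hμ : IsPrimitiveRoot ζ (n + 1) := hn ▸ hζ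
  have hcast : (p : PadicAlgCl p) = ∏ k ∈ Finset.range n, (1 - ζ ^ (k + 1)) := by
    rw [hμ.prod_one_sub_pow_eq_order]
    exact_mod_cast congrArg (Nat.cast : ℕ → PadicAlgCl p) hn
  rw [← norm_p p, hcast, norm_prod]
  refine Finset.prod_nbij (fun i => i - 1) ?_ ?_ ?_ ?_
  · intro i hi
    rw [Finset.mem_erase, Finset.mem_range] at hi
    rw [Finset.mem_range]
    omega
  · intro i hi j hj hij
    simp only [Finset.coe_erase, Finset.coe_range, Set.mem_sdiff, Set.mem_Iio,
      Set.mem_singleton_iff] at hi hj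
    simp only at hij
    omega
  · intro i hi
    simp only [Finset.coe_range, Set.mem_Iio] at hi
    exact ⟨i + 1, by simp; omega, by simp⟩
  · intro i hi
    rw [Finset.mem_erase, Finset.mem_range] at hi
    rw [show i - 1 + 1 = i by omega]

theorem eq_one_of_norm_sub_le {r : ℝ} (hrp : r ^ (p - 1) < (p : ℝ)⁻¹) {i : ℕ}
    (h : ‖1 - ζ ^ i‖ ≤ r) : ζ ^ i = 1 := by
  classical
  have hp : p.Prime := Fact.out
  by_contra hne
  have hi : Nat.Coprime i p := by
    refine (hp.coprime_iff_not_dvd.mpr fun hd => hne ?_).symm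
    exact (hζ.pow_eq_one_iff_dvd i).mpr hd
  have hη := hζ.pow_of_coprime i hi
  have hle : ∀ j : ℕ, ‖1 - (ζ ^ i) ^ j‖ ≤ r := by
    intro j
    induction j with
    | zero => simpa using (norm_nonneg _).trans h
    | succ j ih =>
      refine norm_sub_le_trans ih ?_
      rw [pow_succ, show (ζ ^ i) ^ j - (ζ ^ i) ^ j * ζ ^ i = (ζ ^ i) ^ j * (1 - ζ ^ i) by ring,
        norm_mul, ← pow_mul, norm_rootPow hζ, one_mul]
      exact h
  have h1 := prod_norm_one_sub_rootPow hη
  have h2 : ∏ j ∈ (Finset.range p).erase 0, ‖1 - (ζ ^ i) ^ j‖ ≤ r ^ (p - 1) := by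
    refine (Finset.prod_le_prod (fun j _ => norm_nonneg _) fun j _ => hle j).trans ?_
    rw [Finset.prod_const, Finset.card_erase_of_mem (Finset.mem_range.mpr hp.pos),
      Finset.card_range]
  exact absurd (h1 ▸ h2) (not_le.mpr hrp)

/-- An approximate `p`-th root of unity is close to a root of unity. -/
theorem exists_root_close {ε : ℝ} {x : PadicAlgCl p} (h : ‖x ^ p - 1‖ ≤ ε) :
    ∃ a : ℕ, ‖x - ζ ^ a‖ ≤ p * ε := by
  classical
  have hp : p.Prime := Fact.out
  have hpR : (0 : ℝ) < p := by exact_mod_cast hp.pos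
  obtain ⟨a, -, hamin⟩ := Finset.exists_min_image (Finset.range p) (fun i => ‖x - ζ ^ i‖)
    ⟨0, Finset.mem_range.mpr hp.pos⟩
  refine ⟨a, ?_⟩
  set y := x * (ζ ^ a)⁻¹ with hy
  have hza : ζ ^ a ≠ 0 := pow_ne_zero _ (hζ.ne_zero hp.ne_zero)
  have hfac : y ^ p - 1 = ∏ i ∈ Finset.range p, (y - ζ ^ i) := by
    have h1 := congrArg (Polynomial.eval y) (X_pow_sub_C_eq_prod hζ hp.pos (α := (1 : PadicAlgCl p))
      (a := 1) (one_pow p))
    simpa [Polynomial.eval_prod, mul_one] using h1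
  have hyp : y ^ p = x ^ p := by
    rw [hy, mul_pow, inv_pow, ← pow_mul, mul_comm a, pow_mul, hζ.pow_eq_one, one_pow, inv_one,
      mul_one]
  have hxa : ‖x - ζ ^ a‖ = ‖y - 1‖ := by
    rw [hy, show x * (ζ ^ a)⁻¹ - 1 = (x - ζ ^ a) * (ζ ^ a)⁻¹ by
      rw [sub_mul, mul_inv_cancel₀ hza], norm_mul, norm_inv, norm_rootPow hζ, inv_one, mul_one]
  have hfar : ∀ i, ‖1 - ζ ^ i‖ ≤ ‖y - ζ ^ i‖ := by
    intro i
    have hmin : ‖y - 1‖ ≤ ‖y - ζ ^ i‖ := by
      rw [← hxa]
      refine (hamin ((a + i) % p) (Finset.mem_range.mpr (Nat.mod_lt _ hp.pos))).trans (le_of_eq ?_)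
      rw [show ζ ^ ((a + i) % p) = ζ ^ a * ζ ^ i by
          rw [← pow_add, pow_eq_pow_mod (a + i) hζ.pow_eq_one],
        hy, show x - ζ ^ a * ζ ^ i = ζ ^ a * (x * (ζ ^ a)⁻¹ - ζ ^ i) by
          rw [mul_sub, mul_left_comm, mul_inv_cancel₀ hza, mul_one],
        norm_mul, norm_rootPow hζ, one_mul]
    exact norm_sub_le_trans ((norm_sub_rev 1 y).le.trans hmin) le_rfl
  have h3 : ‖y - 1‖ * (p : ℝ)⁻¹ ≤ ε := by
    refine le_trans ?_ h
    rw [← hyp, hfac, norm_prod, ← Finset.mul_prod_erase _ _ (Finset.mem_range.mpr hp.pos), pow_zero,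
      ← prod_norm_one_sub_rootPow hζ]
    exact mul_le_mul_of_nonneg_left
      (Finset.prod_le_prod (fun i _ => norm_nonneg _) fun i _ => hfar i) (norm_nonneg _)
  rw [hxa, mul_comm]
  exact (mul_inv_le_iff₀ hpR).mp h3

end LiftRing

namespace LocalModel

variable {p : ℕ} [Fact p.Prime] {V : Type*} [AddCommGroup V] [Fintype V]
  {act : GalQp p → V → V}

open LiftRing in
/-- An approximate point of precision `ε < p^(-p/(p-1))` of a model killed by `p` is within `p ε`
of a point. -/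
theorem exists_lift (M : LocalModel p V act) (hpV : ∀ v : V, p • v = 0)
    (η : (V → PadicAlgCl p) → PadicAlgCl p) {ε : ℝ} (hε0 : 0 < ε)
    (hε : ε ^ (p - 1) < ((p : ℝ) ^ p)⁻¹)
    (hbd : ∀ f ∈ M.alg, ‖η f‖ ≤ 1)
    (hadd : ∀ f ∈ M.alg, ∀ g ∈ M.alg, ‖η (f + g) - (η f + η g)‖ ≤ ε)
    (hmul : ∀ f ∈ M.alg, ∀ g ∈ M.alg, ‖η (f * g) - η f * η g‖ ≤ ε)
    (hconst : ∀ a : ℤ_[p], ‖η (fun _ => algebraMap ℚ_[p] (PadicAlgCl p) a) -
      algebraMap ℚ_[p] (PadicAlgCl p) a‖ ≤ ε) :
    ∃ v : V, ∀ f ∈ M.alg, ‖f v - η f‖ ≤ p * ε := by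
  classical
  have hp : p.Prime := Fact.out
  have : NeZero p := ⟨hp.ne_zero⟩
  have hp1 : p - 1 ≠ 0 := by have := hp.two_le; omega
  have hpR : (0 : ℝ) < p := by exact_mod_cast hp.pos
  set r : ℝ := p * ε with hr
  have hεr : ε ≤ r := le_mul_of_one_le_left hε0.le (by exact_mod_cast hp.one_lt.le)
  have hr0 : 0 < r := mul_pos hpR hε0
  have hrp : r ^ (p - 1) < (p : ℝ)⁻¹ := by
    rw [hr, mul_pow]
    calc (p : ℝ) ^ (p - 1) * ε ^ (p - 1) < (p : ℝ) ^ (p - 1) * ((p : ℝ) ^ p)⁻¹ :=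
          mul_lt_mul_of_pos_left hε (pow_pos hpR _)
      _ = (p : ℝ)⁻¹ := by
          rw [show (p : ℝ) ^ p = (p : ℝ) ^ (p - 1) * p by
            rw [← pow_succ]; congr 1; omega, mul_inv,
            mul_inv_cancel_left₀ (pow_ne_zero _ hpR.ne')]
  have hr1 : r < 1 := by
    by_contra hge
    push Not at hge
    have hinv : (p : ℝ)⁻¹ < 1 := inv_lt_one_of_one_lt₀ (by exact_mod_cast hp.one_lt)
    linarith [one_le_pow₀ (n := p - 1) hge]
  -- the approximate point as an element of the group ring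
  obtain ⟨m, b, B, hB, hcoord⟩ := LiftRing.exists_basis M
  set u := ofForm (B.constr (PadicAlgCl p) fun i => η (b i : V → PadicAlgCl p)) with hu
  have happrox : ∀ {ι : Type} (s : Finset ι) (g : ι → V → PadicAlgCl p),
      (∀ i ∈ s, g i ∈ M.alg) → ‖η (∑ i ∈ s, g i) - ∑ i ∈ s, η (g i)‖ ≤ ε := by
    intro ι s g hg
    induction s using Finset.induction_on with
    | empty =>
      have h0 := hadd 0 M.alg.zero_mem 0 M.alg.zero_mem
      rw [add_zero, ← sub_sub, sub_self, zero_sub, norm_neg] at h0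
      simpa using h0
    | insert i s hi ih =>
      rw [Finset.sum_insert hi, Finset.sum_insert hi]
      refine norm_sub_le_trans (hadd _ (hg i (Finset.mem_insert_self i s)) _
        (M.alg.sum_mem fun j hj => hg j (Finset.mem_insert_of_mem hj))) ?_
      rw [add_sub_add_left_eq_sub]
      exact ih fun j hj => hg j (Finset.mem_insert_of_mem hj)
  have hpairu : ∀ f ∈ M.alg, ‖pair f u - η f‖ ≤ ε := by
    intro f hf
    choose a ha using hcoord f hf
    rw [hu, pair_ofForm, Module.Basis.constr_apply_fintype, norm_sub_rev]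
    have hexp : f = ∑ i, (fun _ => algebraMap ℚ_[p] (PadicAlgCl p) (a i)) *
        (b i : V → PadicAlgCl p) := by
      conv_lhs => rw [← B.sum_repr f]
      funext x
      simp [hB, ha, Finset.sum_apply]
    have hmem : ∀ i ∈ (Finset.univ : Finset (Fin m)),
        (fun _ => algebraMap ℚ_[p] (PadicAlgCl p) (a i)) * (b i : V → PadicAlgCl p) ∈ M.alg :=
      fun i _ => M.alg.mul_mem (M.algebraMap_mem _) (b i).2
    conv_lhs => arg 1; arg 1; rw [hexp]
    refine norm_sub_le_trans (happrox _ _ hmem) ?_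
    rw [← Finset.sum_sub_distrib]
    refine IsUltrametricDist.norm_sum_le_of_forall_le_of_nonneg hε0.le fun i _ => ?_
    rw [smul_eq_mul, Module.Basis.equivFun_apply, ← ha i]
    refine norm_sub_le_trans (hmul _ (M.algebraMap_mem _) _ (b i).2) ?_
    rw [← sub_mul, norm_mul]
    exact (mul_le_of_le_one_right (norm_nonneg _) (hbd _ (b i).2)).trans (hconst _)
  have huint : Small M 1 u := fun f hf => by
    rw [← sub_add_cancel (pair f u) (η f)]
    exact (IsUltrametricDist.norm_add_le_max _ _).trans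
      (max_le ((hpairu f hf).trans (hεr.trans hr1.le)) (hbd f hf))
  have hmulpow : ∀ (k : ℕ) (f : V → PadicAlgCl p), f ∈ M.alg →
      (fun x => f (k • x)) ∈ M.alg ∧ ‖pair f (u ^ k) - η (fun x => f (k • x))‖ ≤ ε := by
    intro k
    induction k with
    | zero =>
      intro f hf
      obtain ⟨c, hc⟩ := M.exists_padicInt_apply_zero hf
      simp only [zero_smul, ← hc]
      refine ⟨M.algebraMap_mem c, ?_⟩
      rw [pow_zero, AddMonoidAlgebra.one_def, pair_single, one_mul, ← hc, norm_sub_rev]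
      exact hconst c
    | succ k ih =>
      intro f hf
      obtain ⟨n, a, c, hac⟩ := M.comul_mem f hf
      have hfun : (fun x => f ((k + 1) • x)) = ∑ i, (a i : V → PadicAlgCl p) *
          fun x => (c i : V → PadicAlgCl p) (k • x) := by
        funext x
        rw [succ_nsmul', hac, Finset.sum_apply]
        rfl
      have hmem : ∀ i ∈ (Finset.univ : Finset (Fin n)), (a i : V → PadicAlgCl p) *
          (fun x => (c i : V → PadicAlgCl p) (k • x)) ∈ M.alg :=
        fun i _ => M.alg.mul_mem (a i).2 (ih _ (c i).2).1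
      rw [hfun]
      refine ⟨M.alg.sum_mem hmem, ?_⟩
      rw [pow_succ', pair_mul f (fun i => (a i : V → PadicAlgCl p))
        (fun i => (c i : V → PadicAlgCl p)) hac]
      refine norm_sub_le_trans (b := ∑ i, η ((a i : V → PadicAlgCl p) *
        fun x => (c i : V → PadicAlgCl p) (k • x))) ?_
        ((norm_sub_rev _ _).trans_le (happrox _ _ hmem))
      rw [← Finset.sum_sub_distrib]
      refine IsUltrametricDist.norm_sum_le_of_forall_le_of_nonneg hε0.le fun i _ => ?_
      refine norm_sub_le_trans ?_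
        ((norm_sub_rev _ _).trans_le (hmul _ (a i).2 _ (ih _ (c i).2).1))
      exact norm_mul_sub_mul_le (huint _ (a i).2) (hbd _ (ih _ (c i).2).1)
        (ih _ (c i).2).2 (hpairu _ (a i).2)
  have hup : Small M ε (u ^ p - 1) := fun f hf => by
    obtain ⟨c, hc⟩ := M.exists_padicInt_apply_zero hf
    have h1 := (hmulpow p f hf).2
    simp only [hpV, ← hc] at h1
    rw [map_sub, AddMonoidAlgebra.one_def, pair_single, one_mul, ← hc]
    exact norm_sub_le_trans h1 (hconst c)
  -- the characters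
  obtain ⟨_⟩ : Nonempty (Module (ZMod p) V) := ⟨AddCommGroup.zmodModule hpV⟩
  have : Finite (V →ₗ[ZMod p] ZMod p) := Finite.of_injective
    (DFunLike.coe : (V →ₗ[ZMod p] ZMod p) → V → ZMod p) DFunLike.coe_injective
  have := Fintype.ofFinite ((V →ₗ[ZMod p] ZMod p))
  have : NeZero ((p : ℕ) : PadicAlgCl p) := ⟨Nat.cast_ne_zero.mpr hp.ne_zero⟩
  obtain ⟨ζ, hζ⟩ := HasEnoughRootsOfUnity.exists_primitiveRoot (PadicAlgCl p) p
  let ψ : AddChar (ZMod p) (PadicAlgCl p) := AddChar.zmodChar p hζ.pow_eq_one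
  let χ : (V →ₗ[ZMod p] ZMod p) → AddChar V (PadicAlgCl p) :=
    fun φ => ψ.compAddMonoidHom φ.toAddMonoidHom
  have hψ : ∀ a : ℕ, ψ (a : ZMod p) = ζ ^ a := AddChar.zmodChar_apply' hζ.pow_eq_one
  have hψinj : ∀ a : ZMod p, ψ a = 1 → a = 0 := by
    intro a ha
    rw [show ψ a = ζ ^ a.val from rfl] at ha
    exact (ZMod.val_eq_zero a).mp
      (Nat.eq_zero_of_dvd_of_lt ((hζ.pow_eq_one_iff_dvd _).mp ha) (ZMod.val_lt a))
  have hχadd : ∀ φ φ' : (V →ₗ[ZMod p] ZMod p),
      (χ (φ + φ') : V → PadicAlgCl p) = (χ φ : V → PadicAlgCl p) * χ φ' := fun φ φ' =>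
    funext fun x => by simp [χ, AddChar.map_add_eq_mul]
  have hχnorm : ∀ φ x, ‖χ φ x‖ = 1 := fun φ x => norm_rootPow hζ _
  set coef : (V →ₗ[ZMod p] ZMod p) → Fin m → PadicAlgCl p :=
    fun φ i => B.repr (χ φ : V → PadicAlgCl p) i with hcoef
  have hc1 : ∀ φ i, ‖coef φ i‖ ≤ 1 := by
    intro φ i
    have hsm : Small M 1 (ofForm (B.coord i)) := fun f hf => by
      obtain ⟨a, ha⟩ := hcoord f hf i
      rw [pair_ofForm, Module.Basis.coord_apply, ← ha]
      exact norm_algebraMap_padicInt_le a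
    have h1 := hsm.norm_pair_addChar_le (χ φ)
    rwa [pair_ofForm, Module.Basis.coord_apply] at h1
  set ev : (V →ₗ[ZMod p] ZMod p) → PadicAlgCl p := fun φ => pair (χ φ) u with hev
  have hevexp : ∀ φ, ev φ = ∑ i, coef φ i * η (b i : V → PadicAlgCl p) := fun φ => by
    simp [hev, hcoef, hu, pair_ofForm, Module.Basis.constr_apply_fintype]
  have hev1 : ∀ φ, ‖ev φ‖ ≤ 1 := fun φ => huint.norm_pair_addChar_le (χ φ)
  have hevmul : ∀ φ φ', ‖ev (φ + φ') - ev φ * ev φ'‖ ≤ ε := by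
    intro φ φ'
    have h1 : ev (φ + φ') = ∑ i, ∑ j, coef φ i * coef φ' j *
        pair ((b i : V → PadicAlgCl p) * (b j : V → PadicAlgCl p)) u := by
      have h2 : (χ (φ + φ') : V → PadicAlgCl p) = ∑ i, ∑ j, (coef φ i * coef φ' j) •
          ((b i : V → PadicAlgCl p) * (b j : V → PadicAlgCl p)) := by
        rw [hχadd]
        conv_lhs => rw [← B.sum_repr (χ φ : V → PadicAlgCl p),
          ← B.sum_repr (χ φ' : V → PadicAlgCl p), Finset.sum_mul_sum]
        simp only [hB, smul_mul_smul_comm, hcoef]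
      simp only [hev, h2]
      simp only [pair_apply, Finset.sum_apply, Pi.smul_apply, smul_eq_mul, Finset.mul_sum]
      rw [Finset.sum_comm]
      refine Finset.sum_congr rfl fun i _ => ?_
      rw [Finset.sum_comm]
      exact Finset.sum_congr rfl fun j _ => Finset.sum_congr rfl fun x _ => by ring
    rw [h1, hevexp, hevexp, Finset.sum_mul_sum, ← Finset.sum_sub_distrib]
    refine IsUltrametricDist.norm_sum_le_of_forall_le_of_nonneg hε0.le fun i _ => ?_
    rw [← Finset.sum_sub_distrib]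
    refine IsUltrametricDist.norm_sum_le_of_forall_le_of_nonneg hε0.le fun j _ => ?_
    rw [mul_mul_mul_comm (coef φ i) (η _), ← mul_sub, norm_mul]
    refine (mul_le_of_le_one_left (norm_nonneg _)
      (by rw [norm_mul]; exact mul_le_one₀ (hc1 φ i) (norm_nonneg _) (hc1 φ' j))).trans ?_
    exact norm_sub_le_trans (hpairu _ (M.alg.mul_mem (b i).2 (b j).2))
      (hmul _ (b i).2 _ (b j).2)
  -- the character values are close to roots of unity
  have hroot : ∀ φ, ∃ a : ZMod p, ‖ev φ - ψ a‖ ≤ r := by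
    intro φ
    have h1 : ‖ev φ ^ p - 1‖ ≤ ε := by
      have h2 := hup.norm_pair_addChar_le (χ φ)
      rwa [map_sub, pair_addChar_pow, pair_addChar_one] at h2
    obtain ⟨a, ha⟩ := exists_root_close hζ h1
    exact ⟨(a : ZMod p), by rwa [hψ]⟩
  choose α hα using hroot
  have hαadd : ∀ φ φ', α (φ + φ') = α φ + α φ' := by
    intro φ φ'
    have h1 : ‖ψ (α (φ + φ')) - ψ (α φ) * ψ (α φ')‖ ≤ r := by
      refine norm_sub_le_trans ((norm_sub_rev _ _).trans_le (hα (φ + φ'))) ?_
      refine norm_sub_le_trans ((hevmul φ φ').trans hεr) ?_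
      exact norm_mul_sub_mul_le (hev1 φ) (norm_rootPow hζ _).le (hα φ') (hα φ)
    set d := α (φ + φ') - (α φ + α φ') with hd
    have h2 : ‖1 - ζ ^ d.val‖ ≤ r := by
      rw [show α (φ + φ') = d + (α φ + α φ') by rw [hd]; ring, AddChar.map_add_eq_mul,
        AddChar.map_add_eq_mul, show ψ d * (ψ (α φ) * ψ (α φ')) - ψ (α φ) * ψ (α φ') =
          (ψ d - 1) * (ψ (α φ) * ψ (α φ')) by ring, norm_mul, norm_mul] at h1
      rw [show ‖ψ (α φ)‖ = 1 from norm_rootPow hζ _, show ‖ψ (α φ')‖ = 1 from norm_rootPow hζ _,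
        mul_one, mul_one, norm_sub_rev] at h1
      exact h1
    exact sub_eq_zero.mp (hψinj d (eq_one_of_norm_sub_le hζ hrp h2))
  let Φ : (V →ₗ[ZMod p] ZMod p) →ₗ[ZMod p] ZMod p :=
    AddMonoidHom.toZModLinearMap p (AddMonoidHom.mk' α hαadd)
  obtain ⟨v, hv⟩ := (Module.evalEquiv (ZMod p) V).surjective Φ
  have hαv : ∀ φ : (V →ₗ[ZMod p] ZMod p), φ v = α φ := fun φ => by
    have := LinearMap.congr_fun hv φ
    simpa [Φ] using this
  refine ⟨v, ?_⟩
  -- translate to the origin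
  set w := u * single (-v) 1 - 1 with hw
  have hwint : Small M 1 w :=
    (intRing M).sub_mem ((intRing M).mul_mem huint (small_single (-v))) (intRing M).one_mem
  have hwchar : ∀ φ, ‖pair (χ φ) w‖ ≤ r := by
    intro φ
    rw [hw, map_sub, pair_addChar_mul, pair_addChar_one, pair_single, one_mul,
      show pair (χ φ) u * χ φ (-v) - 1 = (ev φ - χ φ v) * χ φ (-v) by
        rw [sub_mul, ← AddChar.map_add_eq_mul, add_neg_cancel, AddChar.map_zero_eq_one],
      norm_mul, hχnorm, mul_one, show χ φ v = ψ (α φ) from congrArg ψ (hαv φ)]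
    exact hα φ
  have he : Small M ε ((1 + w) ^ p - 1) := by
    rw [hw, add_sub_cancel, mul_pow, single_pow, smul_neg, hpV, neg_zero, one_pow,
      ← AddMonoidAlgebra.one_def, mul_one]
    exact hup
  -- Fourier inversion
  set N : PadicAlgCl p := (Fintype.card ((V →ₗ[ZMod p] ZMod p)) : PadicAlgCl p) with hN
  have hN0 : N ≠ 0 := Nat.cast_ne_zero.mpr Fintype.card_ne_zero
  have horth : ∀ y : V, ∑ φ : (V →ₗ[ZMod p] ZMod p), χ φ y = if y = 0 then N else 0 := by
    intro y
    split_ifs with hy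
    · simp [hy, hN, AddChar.map_zero_eq_one]
    let θ : AddChar ((V →ₗ[ZMod p] ZMod p)) (PadicAlgCl p) :=
      { toFun := fun φ => χ φ y
        map_zero_eq_one' := by simp [χ]
        map_add_eq_mul' := fun φ φ' => congrFun (hχadd φ φ') y }
    refine (AddChar.sum_eq_zero_iff_ne_zero (ψ := θ)).mpr fun hθ => hy ?_
    refine (Module.forall_dual_apply_eq_zero_iff (ZMod p) y).mp fun φ => hψinj _ ?_
    exact (congrArg (fun t : AddChar _ _ => t φ) hθ).trans (by simp)
  have hinv : ∀ (z : AddMonoidAlgebra (PadicAlgCl p) V) (β : ℝ), 0 ≤ β →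
      (∀ φ, ‖pair (χ φ) z‖ ≤ β) → Small M (‖N⁻¹‖ * β) z := by
    intro z β hβ hz f hf
    have hcoe : ∀ x, ‖z.coeff x‖ ≤ ‖N⁻¹‖ * β := by
      intro x
      have h1 : z.coeff x = N⁻¹ * ∑ φ, χ φ (-x) * pair (χ φ) z := by
        simp only [pair_apply, Finset.mul_sum]
        rw [Finset.sum_comm]
        have h2 : ∀ y, ∑ φ, N⁻¹ * (χ φ (-x) * (z.coeff y * χ φ y)) =
            N⁻¹ * z.coeff y * (if y + -x = 0 then N else 0) := fun y => by
          rw [← horth, Finset.mul_sum]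
          refine Finset.sum_congr rfl fun φ _ => ?_
          rw [AddChar.map_add_eq_mul]
          ring
        rw [Finset.sum_congr rfl fun y _ => h2 y, Finset.sum_eq_single x]
        · rw [if_pos (add_neg_cancel x), mul_comm _ N, ← mul_assoc, mul_inv_cancel₀ hN0, one_mul]
        · intro y _ hy
          rw [if_neg (fun h => hy (add_neg_eq_zero.mp h)), mul_zero]
        · simp
      rw [h1, norm_mul]
      refine mul_le_mul_of_nonneg_left ?_ (norm_nonneg _)
      refine IsUltrametricDist.norm_sum_le_of_forall_le_of_nonneg hβ fun φ _ => ?_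
      rw [norm_mul, hχnorm, one_mul]
      exact hz φ
    refine IsUltrametricDist.norm_sum_le_of_forall_le_of_nonneg
      (mul_nonneg (norm_nonneg _) hβ) fun x _ => ?_
    rw [norm_mul]
    exact (mul_le_of_le_one_right (norm_nonneg _) (M.norm_apply_le_one hf x)).trans (hcoe x)
  have hwpow : ∀ n, Small M (‖N⁻¹‖ * r ^ n) (w ^ n) := fun n =>
    hinv _ _ (pow_nonneg hr0.le n) fun φ => by
      rw [pair_addChar_pow, norm_pow]
      exact pow_le_pow_left₀ (norm_nonneg _) (hwchar φ) n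
  have hsmall : Small M r w :=
    small_of_binomial (norm_nonneg _) hr hr0 hr1 hrp hwint he hwpow
  intro f hf
  have h1 := (hsmall.mul (small_single (M := M) v)) f hf
  rw [hw, sub_mul, mul_assoc, single_mul_single, neg_add_cancel, mul_one,
    ← AddMonoidAlgebra.one_def, mul_one, one_mul, map_sub, pair_single, one_mul] at h1
  rw [mul_one] at h1
  exact norm_sub_le_trans ((norm_sub_rev _ _).trans_le h1) ((hpairu f hf).trans hεr)

end LocalModel

end Fermat.Agent.TW
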