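/-
Perturbations of the equation of a uniformizer: a root `z'` of `f - c X^m` whose distances to the
roots of `f` exclude `z' ∈ K` when the residue of `c` is suitably chosen.
-/
import Fermat.Agent.TW.LocalRamConj

set_option autoImplicit false
set_option maxHeartbeats 400000

noncomputable section

open Polynomial

namespace Fermat.Agent.TW

variable {p : ℕ} [Fact p.Prime]

theorem norm_le_inv_p_of_inertia_fixed {x : PadicAlgCl p}
    (hx : ∀ g ∈ inertiaQp p, g x = x) (h : ‖x‖ < 1) : ‖x‖ ≤ (p : ℝ)⁻¹ := by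
  rcases eq_or_ne x 0 with rfl | hx0
  · simp
  obtain ⟨m, hm⟩ := exists_zpow_norm_eq_of_inertia_fixed p hx0 hx
  have hp1 : (1 : ℝ) < p := by exact_mod_cast (Fact.out : p.Prime).one_lt
  rw [hm] at h ⊢
  rw [← zpow_neg_one]
  exact zpow_le_zpow_right₀ hp1.le (by have := (zpow_lt_one_iff_right₀ hp1).mp h; omega)

variable {K : IntermediateField ℚ_[p] (PadicAlgCl p)} [FiniteDimensional ℚ_[p] K]
  [Normal ℚ_[p] K] {z : PadicAlgCl p} {e : ℕ} (hz : IsUnif K z e)

include hz

theorem IsUnif.norm_coeff_conjPoly_lt {i : ℕ} (hi : i < e) :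
    ‖(conjPoly (inertiaQp p) z).coeff i‖ < 1 := by
  set S := conjFinset (inertiaQp p) z
  have hcard : S.card = e := hz.card_conjFinset le_rfl (layer_le K _)
  rw [conjPoly, Finset.prod_eq_multiset_prod, Multiset.prod_X_sub_C_coeff _
      (by rw [Finset.card_val, hcard]; exact hi.le),
    Finset.card_val, hcard, norm_mul, norm_pow, norm_neg, norm_one, one_pow, one_mul,
    ← Multiset.map_id (conjFinset (inertiaQp p) z).val, Finset.esymm_map_val]
  simp only [id_eq]
  refine lt_of_le_of_lt (IsUltrametricDist.norm_sum_le_of_forall_le_of_nonneg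
    (pow_nonneg hz.pos.le (e - i)) fun t ht => ?_) (pow_lt_one₀ hz.pos.le hz.lt_one (by omega))
  rw [Finset.mem_powersetCard] at ht
  rw [norm_prod, ← ht.2, ← Finset.prod_const]
  exact le_of_eq (Finset.prod_congr rfl fun y hy => norm_of_mem_conjFinset _ _ (ht.1 hy))

theorem IsUnif.norm_coeff_zero_conjPoly :
    ‖(conjPoly (inertiaQp p) z).coeff 0‖ = (p : ℝ)⁻¹ := by
  rw [← hz.pow_eq, conjPoly, coeff_zero_eq_eval_zero, eval_prod, norm_prod,
    ← hz.card_conjFinset le_rfl (layer_le K _), ← Finset.prod_const]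
  exact Finset.prod_congr rfl fun y hy => by simp [norm_of_mem_conjFinset _ _ hy]

/-- A root of `f - c X^m`. -/
theorem IsUnif.exists_perturbed_root {c : PadicAlgCl p} (hc : c ∈ layer K (inertiaQp p)) {m : ℕ}
    (hm : m < e) (hcm : ‖c‖ * ‖z‖ ^ m < (p : ℝ)⁻¹) :
    ∃ z' : PadicAlgCl p, ‖z'‖ = ‖z‖ ∧
      (conjPoly (inertiaQp p) z - C c * X ^ m).IsRoot z' := by
  set f := conjPoly (inertiaQp p) z with hf
  set g := f - C c * X ^ m with hg
  have hdeg : f.natDegree = e := by
    rw [hf, natDegree_conjPoly, hz.card_conjFinset le_rfl (layer_le K _)]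
  have hsmalldeg : (C c * X ^ m : (PadicAlgCl p)[X]).degree < f.degree := by
    rw [degree_eq_natDegree (conjPoly_monic _ _).ne_zero, hdeg]
    exact (degree_C_mul_X_pow_le m c).trans_lt (WithBot.coe_lt_coe.mpr hm)
  have hgdeg : g.degree = f.degree := degree_sub_eq_left_of_degree_lt hsmalldeg
  have hgnat : g.natDegree = e := by rw [natDegree_eq_of_degree_eq hgdeg, hdeg]
  have hgmonic : g.Monic := (conjPoly_monic _ _).sub_of_left hsmalldeg
  obtain ⟨z', hz'⟩ := IsAlgClosed.exists_root g (by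
    rw [hgdeg, degree_eq_natDegree (conjPoly_monic _ _).ne_zero, hdeg]
    exact_mod_cast hz.e_pos.ne')
  refine ⟨z', ?_, hz'⟩
  have hp : p.Prime := Fact.out
  have hpR : (1 : ℝ) < p := by exact_mod_cast hp.one_lt
  have hcoeff : ∀ i, i < e → ‖g.coeff i‖ ≤ (p : ℝ)⁻¹ := by
    intro i hi
    refine norm_le_inv_p_of_inertia_fixed (fun σ hσ => ?_) ?_
    · have h1 := (mem_layer_iff.mp (coeff_conjPoly_mem_layer (inertiaQp p) z hz.mem i)).2 σ hσ
      have h2 := (mem_layer_iff.mp hc).2 σ hσ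
      simp only [hg, coeff_sub, coeff_C_mul_X_pow, map_sub, apply_ite σ, h2, map_zero, hf, h1]
    · rw [hg, coeff_sub, coeff_C_mul_X_pow]
      rw [sub_eq_add_neg]
      refine lt_of_le_of_lt (IsUltrametricDist.norm_add_le_max _ _)
        (max_lt (hz.norm_coeff_conjPoly_lt hi) ?_)
      rw [norm_neg]
      split_ifs with him
      · by_contra hge
        push Not at hge
        have h3 : (p : ℝ)⁻¹ ≤ ‖z‖ ^ m := by
          rw [← hz.pow_eq]
          exact pow_le_pow_of_le_one hz.pos.le hz.lt_one.le hm.le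
        exact absurd hcm (not_lt.mpr (h3.trans (le_mul_of_one_le_left (pow_nonneg hz.pos.le m) hge)))
      · simp
  have hg0 : ‖g.coeff 0‖ = (p : ℝ)⁻¹ := by
    rw [hg, coeff_sub, coeff_C_mul_X_pow]
    have h0 := hz.norm_coeff_zero_conjPoly
    split_ifs with him
    · subst him
      rw [pow_zero, mul_one] at hcm
      rw [sub_eq_add_neg, IsUltrametricDist.norm_add_eq_max_of_norm_ne_norm
        (by rw [norm_neg, hf, h0]; exact hcm.ne'), norm_neg, hf, h0]
      exact max_eq_left hcm.le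
    · rw [sub_zero, hf, h0]
  have hsum : z' ^ e = -∑ i ∈ Finset.range e, g.coeff i * z' ^ i := by
    have h1 : g.eval z' = 0 := hz'
    rw [eval_eq_sum_range, hgnat, Finset.sum_range_succ] at h1
    rw [show g.coeff e = 1 by rw [← hgnat]; exact hgmonic, one_mul] at h1
    exact eq_neg_of_add_eq_zero_right h1
  have hlt : ‖z'‖ < 1 := by
    by_contra hge
    push Not at hge
    have h2 : ‖z'‖ ^ e ≤ (p : ℝ)⁻¹ * ‖z'‖ ^ e := by
      conv_lhs => rw [← norm_pow, hsum, norm_neg]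
      refine IsUltrametricDist.norm_sum_le_of_forall_le_of_nonneg (by positivity) fun i hi => ?_
      rw [Finset.mem_range] at hi
      rw [norm_mul, norm_pow]
      exact mul_le_mul (hcoeff i hi) (pow_le_pow_right₀ hge hi.le) (by positivity) (by positivity)
    have h3 : (0 : ℝ) < ‖z'‖ ^ e := pow_pos (lt_of_lt_of_le one_pos hge) e
    nlinarith [inv_lt_one_of_one_lt₀ hpR]
  have hnorm : ‖z'‖ ^ e = (p : ℝ)⁻¹ := by
    rw [← norm_pow, hsum, norm_neg]
    obtain ⟨e', he'⟩ : ∃ e', e = e' + 1 := ⟨e - 1, by have := hz.e_pos; omega⟩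
    rw [he', Finset.sum_range_succ', pow_zero, mul_one]
    have hrest : ‖∑ i ∈ Finset.range e', g.coeff (i + 1) * z' ^ (i + 1)‖ < ‖g.coeff 0‖ := by
      refine lt_of_le_of_lt (IsUltrametricDist.norm_sum_le_of_forall_le_of_nonneg
        (show 0 ≤ (p : ℝ)⁻¹ * ‖z'‖ by positivity) fun i hi => ?_) ?_
      · rw [Finset.mem_range] at hi
        rw [norm_mul, norm_pow]
        exact mul_le_mul (hcoeff _ (by omega)) (pow_le_of_le_one (norm_nonneg _) hlt.le (by omega))
          (by positivity) (by positivity)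
      · rw [hg0]
        exact mul_lt_of_lt_one_right (by positivity) hlt
    rw [IsUltrametricDist.norm_add_eq_max_of_norm_ne_norm hrest.ne, max_eq_right hrest.le, hg0]
  exact (pow_left_inj₀ (norm_nonneg _) hz.pos.le hz.e_pos.ne').mp (hnorm.trans hz.pow_eq.symm)

omit [Normal ℚ_[p] K] in
/-- A residue missed by the normalized equation near `z`. -/
theorem IsUnif.exists_missed_unit {δ₀ : PadicAlgCl p} (hδ₀K : δ₀ ∈ K)
    {S : Finset (PadicAlgCl p)} (hSK : ∀ y ∈ S, y ∈ K)
    (hle : ∀ y ∈ S, ‖δ₀‖ ≤ ‖z - y‖) {y₁ : PadicAlgCl p} (hy₁ : y₁ ∈ S) (hy₁z : y₁ ≠ z)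
    (hδy : δ₀ = z - y₁) :
    ∃ t ∈ K, ‖t‖ = 1 ∧ ∀ u ∈ K, ‖u‖ ≤ 1 →
      ¬ ‖u * ∏ y ∈ S, (1 + δ₀ / (z - y) * u) - t‖ < 1 := by
  classical
  obtain ⟨hfin, -⟩ := residSubfield_finrank_le p K
  have : Finite (residSubfield p K) := Module.finite_of_finite (ZMod p)
  have hq : ∀ y : {y // y ∈ S}, ‖δ₀ / (z - (y : PadicAlgCl p))‖ ≤ 1 := fun y => by
    rw [norm_div]
    exact div_le_one_of_le₀ (hle y y.2) (norm_nonneg _)
  let κ : {y // y ∈ S} → intQp p := fun y => ⟨δ₀ / (z - y), hq y⟩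
  have hκK : ∀ y, (κ y : PadicAlgCl p) ∈ K := fun y =>
    div_mem hδ₀K (sub_mem hz.mem (hSK y y.2))
  let Φ : residSubfield p K → residSubfield p K := fun x =>
    x * ∏ y, (1 + (⟨resid p (κ y), κ y, hκK y, rfl⟩ : residSubfield p K) * x)
  have hninj : ¬ Function.Injective Φ := by
    intro hinj
    have h1 : resid p (κ ⟨y₁, hy₁⟩) = 1 := by
      rw [← map_one (resid p)]
      congr 1
      apply Subtype.ext
      show δ₀ / (z - y₁) = 1
      rw [hδy, div_self (sub_ne_zero.mpr hy₁z.symm)]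
    have h2 : Φ (-1) = Φ 0 := by
      simp only [Φ, zero_mul]
      rw [Finset.prod_eq_zero (Finset.mem_univ ⟨y₁, hy₁⟩), mul_zero]
      exact Subtype.ext (by simp [h1])
    exact absurd (hinj h2) (by simp)
  have hnsurj : ¬ Function.Surjective Φ := fun hs => hninj (Finite.injective_iff_surjective.mpr hs)
  simp only [Function.Surjective, not_forall, not_exists] at hnsurj
  obtain ⟨t₀, ht₀⟩ := hnsurj
  obtain ⟨T, hTK, hT⟩ := t₀.2
  refine ⟨T, hTK, ?_, fun u hu hu1 hlt => ?_⟩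
  · refine le_antisymm T.2 (not_lt.mp fun hlt => ht₀ 0 ?_)
    apply Subtype.ext
    rw [← hT, show Φ 0 = 0 by simp [Φ]]
    exact ((resid_eq_zero_iff p T).mpr hlt).symm
  · refine ht₀ ⟨resid p ⟨u, hu1⟩, ⟨u, hu1⟩, hu, rfl⟩ (Subtype.ext ?_)
    rw [← hT]
    simp only [Φ, MulMemClass.coe_mul, SubmonoidClass.coe_finsetProd, AddMemClass.coe_add,
      OneMemClass.coe_one, ← map_one (resid p), ← map_mul, ← map_add, ← map_prod]
    rw [resid_eq_iff]
    simp only [MulMemClass.coe_mul, SubmonoidClass.coe_finsetProd, AddMemClass.coe_add,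
      OneMemClass.coe_one, κ]
    rwa [Finset.prod_coe_sort S fun y => 1 + δ₀ / (z - y) * u]

end Fermat.Agent.TW
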