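/-
Polynomial identities at a uniformizer, transported to a nearby root.
-/
import Fermat.Agent.TW.LocalRamPerturb

set_option autoImplicit false
set_option maxHeartbeats 400000

noncomputable section

open Polynomial

namespace Fermat.Agent.TW

variable {p : ℕ} [Fact p.Prime]

/-- The integers of the inertia fixed part of `K`. -/
def unrInt (K : IntermediateField ℚ_[p] (PadicAlgCl p)) : Subring (PadicAlgCl p) where
  carrier := {x | x ∈ layer K (inertiaQp p) ∧ ‖x‖ ≤ 1}
  one_mem' := ⟨one_mem _, norm_one.le⟩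
  zero_mem' := ⟨zero_mem _, by simp⟩
  add_mem' ha hb := ⟨add_mem ha.1 hb.1,
    (IsUltrametricDist.norm_add_le_max _ _).trans (max_le ha.2 hb.2)⟩
  neg_mem' ha := ⟨neg_mem ha.1, by rw [norm_neg]; exact ha.2⟩
  mul_mem' ha hb := ⟨mul_mem ha.1 hb.1,
    by rw [norm_mul]; exact mul_le_one₀ ha.2 (norm_nonneg _) hb.2⟩

variable {K : IntermediateField ℚ_[p] (PadicAlgCl p)} [FiniteDimensional ℚ_[p] K]
  [Normal ℚ_[p] K] {z : PadicAlgCl p} {e : ℕ} (hz : IsUnif K z e)

include hz

/-- An integral polynomial relation at `z` holds at `z'` up to `‖f z'‖`. -/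
theorem IsUnif.norm_eval_le_of_eval_eq_zero {P : (unrInt K)[X]}
    (hP : P.eval₂ (unrInt K).subtype z = 0) {z' : PadicAlgCl p} (hz' : ‖z'‖ ≤ 1) :
    ‖P.eval₂ (unrInt K).subtype z'‖ ≤ ‖(conjPoly (inertiaQp p) z).eval z'‖ := by
  set f := conjPoly (inertiaQp p) z with hf
  have hfc : ↑f.coeffs ⊆ (unrInt K : Set (PadicAlgCl p)) := by
    intro x hx
    obtain ⟨n, -, rfl⟩ := Polynomial.mem_coeffs_iff.mp hx
    exact ⟨coeff_conjPoly_mem_layer (inertiaQp p) z hz.mem n,
      norm_coeff_conjPoly_le (inertiaQp p) z hz.lt_one.le n⟩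
  set F := f.toSubring (unrInt K) hfc with hFdef
  have hFm : F.Monic := (monic_toSubring f (unrInt K) hfc).mpr (conjPoly_monic _ _)
  have hFmap : F.map (unrInt K).subtype = f := map_toSubring f (unrInt K) hfc
  have hFeval : ∀ x, F.eval₂ (unrInt K).subtype x = f.eval x := fun x => by
    rw [← eval_map, hFmap]
  have hdeg : F.natDegree = e := by
    rw [hFdef, natDegree_toSubring, hf, natDegree_conjPoly,
      hz.card_conjFinset le_rfl (layer_le K _)]
  set R := P %ₘ F with hR
  have hPR : P = R + F * (P /ₘ F) := (modByMonic_add_div P F).symm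
  have hR0 : R.eval₂ (unrInt K).subtype z = 0 := by
    have h1 := hP
    rw [hPR, eval₂_add, eval₂_mul, hFeval, hf, eval_conjPoly_self, zero_mul, add_zero] at h1
    exact h1
  have hRzero : R = 0 := by
    rcases eq_or_ne R 0 with h | h
    · exact h
    have hlt : R.natDegree < e := by
      rw [← hdeg]
      exact natDegree_lt_natDegree h (degree_modByMonic_lt P hFm)
    rw [eval₂_eq_sum_range' (unrInt K).subtype hlt] at hR0
    refine Polynomial.ext fun i => ?_
    rw [coeff_zero]
    by_contra hne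
    have hi : i < e := lt_of_le_of_lt (le_natDegree_of_ne_zero hne) hlt
    have h1 := hz.norm_expansion (K := K) (w := fun j => (R.coeff j : PadicAlgCl p))
      (fun j => (R.coeff j).2.1) rfl hi
    simp only [Subring.coe_subtype] at hR0
    rw [hR0, norm_zero, norm_mul, norm_pow] at h1
    refine absurd h1 (not_le.mpr (mul_pos (norm_pos_iff.mpr ?_) (pow_pos hz.pos i)))
    exact fun h2 => hne (Subtype.ext h2)
  rw [hPR, hRzero, zero_add, eval₂_mul, norm_mul, hFeval]
  refine mul_le_of_le_one_right (norm_nonneg _) ?_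
  rw [eval₂_eq_sum_range]
  refine IsUltrametricDist.norm_sum_le_of_forall_le_of_nonneg zero_le_one fun i _ => ?_
  rw [norm_mul, norm_pow]
  exact mul_le_one₀ ((P /ₘ F).coeff i).2.2 (pow_nonneg (norm_nonneg _) _)
    (pow_le_one₀ (norm_nonneg _) hz')

/-- Every integer of `K` is a short integral polynomial in `z`. -/
theorem IsUnif.exists_unrInt_poly {x : PadicAlgCl p} (hx : x ∈ K) (hx1 : ‖x‖ ≤ 1) :
    ∃ P : (unrInt K)[X], P.natDegree < e ∧ P.eval₂ (unrInt K).subtype z = x := by
  obtain ⟨w, hw, hwx⟩ := hz.exists_expansion le_rfl (layer_le K _) hx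
  have hw1 : ∀ i ∈ Finset.range e, ‖w i‖ ≤ 1 := fun i hi =>
    hz.norm_coeff_le hw (hwx ▸ hx1) (Finset.mem_range.mp hi)
  refine ⟨∑ i : {i // i ∈ Finset.range e}, C (⟨w i, hw i, hw1 i i.2⟩ : unrInt K) * X ^ (i : ℕ),
    ?_, ?_⟩
  · refine lt_of_le_of_lt (natDegree_sum_le_of_forall_le (n := e - 1) _ _ fun i _ =>
      (natDegree_C_mul_X_pow_le _ _).trans ?_) (by have := hz.e_pos; omega)
    have := Finset.mem_range.mp i.2
    omega
  · simp only [eval₂_finsetSum, eval₂_mul, eval₂_C, eval₂_X_pow, Subring.coe_subtype]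
    rw [hwx, Finset.sum_coe_sort (Finset.range e) fun i => w i * z ^ i]

/-- A short polynomial has the same size at any point of the same absolute value. -/
theorem IsUnif.norm_eval_short {P : (unrInt K)[X]} (hP : P.natDegree < e) {z' : PadicAlgCl p}
    (hz' : ‖z'‖ = ‖z‖) :
    ‖P.eval₂ (unrInt K).subtype z‖ ≤ ‖P.eval₂ (unrInt K).subtype z'‖ := by
  rw [eval₂_eq_sum_range' (unrInt K).subtype hP, eval₂_eq_sum_range' (unrInt K).subtype hP]
  refine IsUltrametricDist.norm_sum_le_of_forall_le_of_nonneg (norm_nonneg _) fun i hi => ?_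
  refine le_trans (le_of_eq ?_) (hz.norm_expansion (K := K)
    (w := fun j => (P.coeff j : PadicAlgCl p)) (fun j => (P.coeff j).2.1) hz'
    (Finset.mem_range.mp hi))
  simp [hz']

end Fermat.Agent.TW
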