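/-
Fontaine's bound on the ramification of the field of points of an integral model killed by `p`.
-/
import Fermat.Agent.TW.LocalRamDivide
import Fermat.Agent.TW.LocalLift

set_option autoImplicit false
set_option maxHeartbeats 400000

noncomputable section

open Polynomial

namespace Fermat.Agent.TW

variable {p : ℕ} [Fact p.Prime]

open Classical in
/-- The product of the distances from a uniformizer of `E` to its other conjugates under inertia,
times any one of these distances, is at least `p^(-p/(p-1))`. -/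
def RamBound (E : IntermediateField ℚ_[p] (PadicAlgCl p)) : Prop :=
  ∀ (z : PadicAlgCl p) (e : ℕ), IsUnif E z e →
    ∀ y ∈ conjFinset (inertiaQp p) z, y ≠ z →
      ((p : ℝ) ^ p)⁻¹ ≤
        ((∏ y' ∈ (conjFinset (inertiaQp p) z).erase z, ‖z - y'‖) * ‖z - y‖) ^ (p - 1)

variable {K : IntermediateField ℚ_[p] (PadicAlgCl p)} [FiniteDimensional ℚ_[p] K]
  [Normal ℚ_[p] K]

/-- A nearby root generates: all points are fixed by what fixes `z'` and the inertia field. -/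
theorem LocalModel.mem_fixingSubgroup_of_nearby {V : Type*} [AddCommGroup V] [Fintype V]
    {act : GalQp p → V → V} (M : LocalModel p V act) (hpV : ∀ v : V, p • v = 0)
    (hK : ∀ g : GalQp p, (∀ v, act g v = v) ↔ g ∈ K.fixingSubgroup) {z : PadicAlgCl p} {e : ℕ}
    (hz : IsUnif K z e) {z' : PadicAlgCl p} (hz' : ‖z'‖ = ‖z‖) {ε : ℝ} (hε0 : 0 < ε)
    (hε : ε ^ (p - 1) < ((p : ℝ) ^ p)⁻¹)
    (hfz : ‖(conjPoly (inertiaQp p) z).eval z'‖ ≤ ε) {g : GalQp p}
    (hgF : ∀ w ∈ layer K (inertiaQp p), g w = w) (hgz : g z' = z') : g ∈ K.fixingSubgroup := by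
  classical
  have hp : p.Prime := Fact.out
  have hpR : (0 : ℝ) < p := by exact_mod_cast hp.pos
  have hz'1 : ‖z'‖ ≤ 1 := hz'.le.trans hz.lt_one.le
  set r : ℝ := p * ε with hr
  have hr0 : 0 ≤ r := (mul_pos hpR hε0).le
  have hrp : r ^ (p - 1) < (p : ℝ)⁻¹ := by
    rw [hr, mul_pow]
    calc (p : ℝ) ^ (p - 1) * ε ^ (p - 1) < (p : ℝ) ^ (p - 1) * ((p : ℝ) ^ p)⁻¹ :=
          mul_lt_mul_of_pos_left hε (pow_pos hpR _)
      _ = (p : ℝ)⁻¹ := by
          rw [show (p : ℝ) ^ p = (p : ℝ) ^ (p - 1) * p by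
            rw [← pow_succ]; congr 1; have := hp.pos; omega, mul_inv,
            mul_inv_cancel_left₀ (pow_ne_zero _ hpR.ne')]
  have hr1 : r < 1 := by
    by_contra hge
    push Not at hge
    have hinv : (p : ℝ)⁻¹ < 1 := inv_lt_one_of_one_lt₀ (by exact_mod_cast hp.one_lt)
    linarith [one_le_pow₀ (n := p - 1) hge]
  have hmemK : ∀ f ∈ M.alg, ∀ v, f v ∈ K := by
    intro f hf v
    rw [← InfiniteGalois.fixedField_fixingSubgroup K]
    rintro ⟨σ, hσ⟩
    show σ (f v) = f v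
    rw [← M.equivariant f hf, (hK σ).mpr hσ v]
  have hP : ∀ (v : V) (f : M.alg), ∃ P : (unrInt K)[X], P.natDegree < e ∧
      P.eval₂ (unrInt K).subtype z = (f : V → PadicAlgCl p) v := fun v f =>
    hz.exists_unrInt_poly (hmemK _ f.2 v) (M.norm_apply_le_one f.2 v)
  choose P hPdeg hPz using hP
  let η : V → (V → PadicAlgCl p) → PadicAlgCl p := fun v f =>
    if hf : f ∈ M.alg then (P v ⟨f, hf⟩).eval₂ (unrInt K).subtype z' else 0
  have hη : ∀ v f (hf : f ∈ M.alg), η v f = (P v ⟨f, hf⟩).eval₂ (unrInt K).subtype z' :=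
    fun v f hf => dif_pos hf
  have hnear : ∀ Q : (unrInt K)[X], Q.eval₂ (unrInt K).subtype z = 0 →
      ‖Q.eval₂ (unrInt K).subtype z'‖ ≤ ε := fun Q hQ =>
    (hz.norm_eval_le_of_eval_eq_zero hQ hz'1).trans hfz
  have hlift : ∀ v, ∃ v' : V, ∀ f ∈ M.alg, ‖f v' - η v f‖ ≤ r := by
    intro v
    refine M.exists_lift hpV (η v) hε0 hε ?_ ?_ ?_ ?_
    · intro f hf
      rw [hη v f hf, eval₂_eq_sum_range]
      refine IsUltrametricDist.norm_sum_le_of_forall_le_of_nonneg zero_le_one fun i _ => ?_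
      rw [norm_mul, norm_pow]
      exact mul_le_one₀ ((P v ⟨f, hf⟩).coeff i).2.2 (pow_nonneg (norm_nonneg _) _)
        (pow_le_one₀ (norm_nonneg _) hz'1)
    · intro f hf h hh
      rw [hη v _ (M.alg.add_mem hf hh), hη v f hf, hη v h hh, ← eval₂_add, ← eval₂_sub]
      exact hnear _ (by simp [eval₂_sub, eval₂_add, hPz])
    · intro f hf h hh
      rw [hη v _ (M.alg.mul_mem hf hh), hη v f hf, hη v h hh, ← eval₂_mul, ← eval₂_sub]
      exact hnear _ (by simp [eval₂_sub, eval₂_mul, hPz])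
    · intro a
      have ha : algebraMap ℚ_[p] (PadicAlgCl p) (a : ℚ_[p]) ∈ unrInt K :=
        ⟨IntermediateField.algebraMap_mem _ _, norm_algebraMap_padicInt_le a⟩
      rw [hη v _ (M.algebraMap_mem a)]
      have h2 := hnear (P v ⟨_, M.algebraMap_mem a⟩ - C (⟨_, ha⟩ : unrInt K))
        (by simp [eval₂_sub, hPz])
      simpa [eval₂_sub] using h2
  choose Λ hΛ using hlift
  have hinj : Function.Injective Λ := by
    intro v w hvw
    refine M.eq_of_close hpV hr0 hr1 hrp fun f hf => ?_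
    have h1 : ‖η v f - η w f‖ ≤ r := by
      rw [← sub_add_sub_cancel (η v f) (f (Λ v)) (η w f)]
      refine (IsUltrametricDist.norm_add_le_max _ _).trans (max_le ?_ ?_)
      · rw [norm_sub_rev]; exact hΛ v f hf
      · rw [hvw]; exact hΛ w f hf
    rw [hη v f hf, hη w f hf, ← eval₂_sub] at h1
    rw [show f v = _ from (hPz v ⟨f, hf⟩).symm, show f w = _ from (hPz w ⟨f, hf⟩).symm,
      ← eval₂_sub]
    exact (hz.norm_eval_short ((natDegree_sub_le _ _).trans_lt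
      (max_lt (hPdeg _ _) (hPdeg _ _))) hz').trans h1
  have hsurj : Function.Surjective Λ := Finite.injective_iff_surjective.mp hinj
  refine (hK g).mp fun u => ?_
  obtain ⟨v, rfl⟩ := hsurj u
  refine M.eq_of_close hpV hr0 hr1 hrp fun f hf => ?_
  have hfix : g (η v f) = η v f := by
    rw [hη v f hf, eval₂_eq_sum_range, map_sum]
    refine Finset.sum_congr rfl fun i _ => ?_
    rw [map_mul, map_pow, hgz, Subring.coe_subtype, hgF _ ((P v ⟨f, hf⟩).coeff i).2.1]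
  rw [M.equivariant f hf, ← sub_add_sub_cancel (g (f (Λ v))) (η v f) (f (Λ v))]
  refine (IsUltrametricDist.norm_add_le_max _ _).trans (max_le ?_ ?_)
  · rw [← hfix, ← map_sub, norm_galQp]; exact hΛ v f hf
  · rw [norm_sub_rev]; exact hΛ v f hf

/-- The field of points of a model killed by `p` satisfies the bound. -/
theorem LocalModel.ramBound_of_pointField {V : Type*} [AddCommGroup V] [Fintype V]
    {act : GalQp p → V → V} (M : LocalModel p V act) (hpV : ∀ v : V, p • v = 0)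
    (hK : ∀ g : GalQp p, (∀ v, act g v = v) ↔ g ∈ K.fixingSubgroup) : RamBound K := by
  classical
  intro z e hz y hy hyz
  have hp : p.Prime := Fact.out
  have hpR : (1 : ℝ) < p := by exact_mod_cast hp.one_lt
  set S := conjFinset (inertiaQp p) z with hS
  set D := ∏ y' ∈ S.erase z, ‖z - y'‖ with hD
  have hSK : ∀ y ∈ S, y ∈ K := fun y hy => by
    obtain ⟨σ, -, rfl⟩ := (mem_conjFinset _ _).mp hy
    exact smul_mem_of_normal p K σ hz.mem
  have hcard : S.card = e := hz.card_conjFinset le_rfl (layer_le K _)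
  obtain ⟨y₁, hy₁, hmin⟩ := Finset.exists_min_image (S.erase z) (fun t => ‖z - t‖)
    ⟨y, Finset.mem_erase.mpr ⟨hyz, hy⟩⟩
  rw [Finset.mem_erase] at hy₁
  set δ₀ := z - y₁ with hδ₀
  have hδpos : 0 < ‖δ₀‖ := norm_pos_iff.mpr (sub_ne_zero.mpr hy₁.1.symm)
  have hleS : ∀ t ∈ S.erase z, ‖δ₀‖ ≤ ‖z - t‖ := hmin
  have hDpos : 0 < D := Finset.prod_pos fun t ht =>
    lt_of_lt_of_le hδpos (hleS t ht)
  refine le_trans ?_ (pow_le_pow_left₀ (mul_nonneg hDpos.le hδpos.le)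
    (mul_le_mul_of_nonneg_left (hleS y (Finset.mem_erase.mpr ⟨hyz, hy⟩)) hDpos.le) (p - 1))
  by_contra hlt
  push Not at hlt
  have hε0 : 0 < D * ‖δ₀‖ := mul_pos hDpos hδpos
  have hεp : D * ‖δ₀‖ < (p : ℝ)⁻¹ := by
    by_contra hge
    push Not at hge
    have h1 := pow_le_pow_left₀ (by positivity) hge (p - 1)
    have h2 : ((p : ℝ) ^ p)⁻¹ ≤ ((p : ℝ)⁻¹) ^ (p - 1) := by
      rw [← inv_pow]
      exact pow_le_pow_of_le_one (by positivity) (inv_le_one_of_one_le₀ hpR.le) (Nat.sub_le p 1)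
    exact absurd (h2.trans h1) (not_le.mpr hlt)
  have hyle : ∀ t ∈ S, ‖z - t‖ ≤ ‖z‖ := fun t ht => by
    rw [sub_eq_add_neg]
    refine (IsUltrametricDist.norm_add_le_max _ _).trans (max_le le_rfl ?_)
    rw [norm_neg]; exact (norm_of_mem_conjFinset _ _ ht).le
  have hδz : ‖δ₀‖ < ‖z‖ := by
    refine lt_of_le_of_ne (hyle y₁ hy₁.2) fun heq => ?_
    have h1 : D = ‖z‖ ^ (e - 1) := by
      rw [hD, ← hcard, ← Finset.card_erase_of_mem (self_mem_conjFinset _ _), ← Finset.prod_const]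
      exact Finset.prod_congr rfl fun t ht =>
        le_antisymm (hyle t (Finset.mem_of_mem_erase ht)) (heq.symm.le.trans (hleS t ht))
    rw [h1, heq, ← pow_succ, show e - 1 + 1 = e by have := hz.e_pos; omega, hz.pow_eq] at hεp
    exact lt_irrefl _ hεp
  set D₀ := ∏ t ∈ S.erase z, (z - t) with hD₀
  have hD₀norm : ‖D₀‖ = D := norm_prod _ _
  have hδ₀K : δ₀ ∈ K := sub_mem hz.mem (hSK y₁ hy₁.2)
  obtain ⟨t, htK, ht1, hmiss⟩ := hz.exists_missed_unit hδ₀K
    (fun s hs => hSK s (Finset.mem_of_mem_erase hs)) hleS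
    (Finset.mem_erase.mpr hy₁) hy₁.1 rfl
  set x := δ₀ * D₀ * t with hx
  have hxK : x ∈ K := mul_mem (mul_mem hδ₀K (prod_mem fun s hs =>
    sub_mem hz.mem (hSK s (Finset.mem_of_mem_erase hs)))) htK
  have hxn : ‖x‖ = D * ‖δ₀‖ := by rw [hx, norm_mul, norm_mul, hD₀norm, ht1, mul_one, mul_comm]
  have hx0 : x ≠ 0 := norm_pos_iff.mp (hxn ▸ hε0)
  -- the perturbation
  obtain ⟨N, hN⟩ := hz.exists_zpow x hxK hx0
  have hN0 : 0 ≤ N := by
    by_contra hneg
    have h1 : (1 : ℝ) < ‖z‖ ^ N :=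
      (one_lt_zpow_iff_right_of_lt_one₀ hz.pos hz.lt_one).mpr (not_le.mp hneg)
    rw [← hN, hxn] at h1
    linarith [inv_lt_one_of_one_lt₀ hpR]
  obtain ⟨n, rfl⟩ := Int.eq_ofNat_of_zero_le hN0
  rw [zpow_natCast] at hN
  set m := n % e with hm
  set q := n / e with hq
  have hme : m < e := Nat.mod_lt _ hz.e_pos
  set a := x / ((p : PadicAlgCl p) ^ q * z ^ m) with ha
  have hzm : z ^ m ≠ 0 := pow_ne_zero _ hz.ne_zero
  have hpq : (p : PadicAlgCl p) ^ q ≠ 0 := pow_ne_zero _ (Nat.cast_ne_zero.mpr hp.ne_zero)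
  have hxpos : 0 < ‖x‖ := norm_pos_iff.mpr hx0
  have hsplit : ((p : ℝ)⁻¹) ^ q * ‖z‖ ^ m = ‖x‖ := by
    rw [hN, ← hz.pow_eq, ← pow_mul, ← pow_add, hq, hm, Nat.div_add_mod]
  have ha1 : ‖a‖ = 1 := by
    rw [ha, norm_div, norm_mul ((p : PadicAlgCl p) ^ q), norm_pow, norm_pow, norm_p, hsplit,
      div_self hxpos.ne']
  obtain ⟨w, hw, hw1, hwa⟩ := exists_inertia_fixed_near (K := K) (a := a)
    (div_mem hxK (mul_mem (pow_mem (natCast_mem K p) q) (pow_mem hz.mem m))) ha1.le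
  have hwn : ‖w‖ = 1 := by
    refine le_antisymm hw1 (not_lt.mp fun h => ?_)
    rw [← sub_add_cancel a w] at ha1
    exact absurd ha1 (lt_of_le_of_lt (IsUltrametricDist.norm_add_le_max _ _)
      (max_lt hwa h)).ne
  set c := (p : PadicAlgCl p) ^ q * w with hc
  have hcF : c ∈ layer K (inertiaQp p) := mul_mem (pow_mem (natCast_mem_layer p _) q) hw
  have hcn : ‖c‖ * ‖z‖ ^ m = ‖x‖ := by
    rw [hc, norm_mul, norm_pow, norm_p, hwn, mul_one, hsplit]
  have hcx : ‖c * z ^ m - x‖ < ‖x‖ := by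
    have hxa : (p : PadicAlgCl p) ^ q * z ^ m * a = x := by
      rw [ha, mul_div_cancel₀ _ (mul_ne_zero hpq hzm)]
    rw [← hsplit, show c * z ^ m - x = (p : PadicAlgCl p) ^ q * z ^ m * (w - a) by
      rw [mul_sub, hxa, hc]; ring, norm_mul, norm_mul, norm_pow, norm_pow, norm_p, norm_sub_rev]
    exact mul_lt_of_lt_one_right (by rw [hsplit]; exact hxpos) hwa
  obtain ⟨z', hz'n, hz'root⟩ := hz.exists_perturbed_root hcF hme (by rw [hcn, hxn]; exact hεp)
  set f := conjPoly (inertiaQp p) z with hf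
  set g := f - C c * X ^ m with hg
  have hgne : g ≠ 0 := by
    intro h
    have h1 : g.coeff e = 1 := by
      rw [hg, coeff_sub, coeff_C_mul_X_pow, if_neg hme.ne', sub_zero, hf, ← hcard, hS,
        ← natDegree_conjPoly]
      exact conjPoly_monic _ _
    simp [h] at h1
  have hgdeg : g.natDegree ≤ e := by
    refine (natDegree_sub_le _ _).trans (max_le ?_ ((natDegree_C_mul_X_pow_le c m).trans hme.le))
    rw [hf, natDegree_conjPoly]
    exact hcard.le
  have hfz' : ∀ s, g.IsRoot s → f.eval s = c * s ^ m := fun s hs => by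
    simpa [hg, sub_eq_zero] using hs
  -- `z'` lies in `K`
  set G : Subgroup (GalQp p) := (layer K (inertiaQp p)).fixingSubgroup with hG
  have hGfix : ∀ σ ∈ G, ∀ w ∈ layer K (inertiaQp p), σ w = w := fun σ hσ =>
    (IntermediateField.mem_fixingSubgroup_iff _ σ).mp hσ
  have hgen : ∀ σ ∈ G, σ z' = z' → σ z = z := by
    intro σ hσ hσz
    have h1 := M.mem_fixingSubgroup_of_nearby hpV hK hz hz'n hε0 hlt
      (by rw [hfz' z' hz'root, norm_mul, norm_pow, hz'n, hcn, hxn]) (hGfix σ hσ) hσz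
    exact (IntermediateField.mem_fixingSubgroup_iff K σ).mp h1 z hz.mem
  set T := g.roots.toFinset.filter fun s => ∃ σ ∈ G, σ z' = s with hT
  have hTmem : ∀ σ ∈ G, σ z' ∈ T := by
    intro σ hσ
    refine Finset.mem_filter.mpr ⟨Multiset.mem_toFinset.mpr ((mem_roots hgne).mpr ?_), σ, hσ, rfl⟩
    show g.eval (σ z') = 0
    have h1 : g.map (σ : PadicAlgCl p →+* PadicAlgCl p) = g := by
      refine Polynomial.ext fun i => ?_
      have h2 : (σ : PadicAlgCl p →+* PadicAlgCl p) (f.coeff i) = f.coeff i :=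
        hGfix σ hσ _ (coeff_conjPoly_mem_layer (inertiaQp p) z hz.mem i)
      have h3 : (σ : PadicAlgCl p →+* PadicAlgCl p) c = c := hGfix σ hσ _ hcF
      simp only [coeff_map, hg, coeff_sub, coeff_C_mul_X_pow, map_sub, h2]
      split_ifs <;> simp [h3]
    have h4 : g.eval₂ (σ : PadicAlgCl p →+* PadicAlgCl p) (σ z') = σ (g.eval z') :=
      Polynomial.eval₂_at_apply (σ : PadicAlgCl p →+* PadicAlgCl p) z'
    rw [← eval_map, h1, show g.eval z' = 0 from hz'root, map_zero] at h4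
    exact h4
  have hT' : ∀ s : {s // s ∈ T}, ∃ σ ∈ G, σ z' = (s : PadicAlgCl p) := fun s =>
    (Finset.mem_filter.mp s.2).2
  choose τ hτG hτ using hT'
  set h : {s // s ∈ T} → PadicAlgCl p := fun s => τ s z with hh
  have hhσ : ∀ σ (hσ : σ ∈ G), h ⟨σ z', hTmem σ hσ⟩ = σ z := by
    intro σ hσ
    set s : {s // s ∈ T} := ⟨σ z', hTmem σ hσ⟩
    have h1 : (σ⁻¹ * τ s) z' = z' := by
      rw [AlgEquiv.mul_apply, hτ s]
      exact σ.symm_apply_apply z'
    have h2 := congrArg σ (hgen _ (mul_mem (inv_mem hσ) (hτG s)) h1)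
    rw [AlgEquiv.mul_apply] at h2
    exact (σ.apply_symm_apply _).symm.trans h2
  have hsub : S ⊆ Finset.univ.image h := by
    intro s hs
    obtain ⟨σ, hσ, rfl⟩ := (mem_conjFinset _ _).mp hs
    have hσG : σ ∈ G := (IntermediateField.mem_fixingSubgroup_iff _ σ).mpr fun w hw =>
      (mem_layer_iff.mp hw).2 σ hσ
    exact Finset.mem_image.mpr ⟨⟨σ z', hTmem σ hσG⟩, Finset.mem_univ _, hhσ σ hσG⟩
  have hhinj : Function.Injective h := by
    have hTcard : Fintype.card {s // s ∈ T} ≤ e := by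
      rw [Fintype.card_coe]
      exact (Finset.card_filter_le _ _).trans ((Multiset.toFinset_card_le _).trans
        ((card_roots' g).trans hgdeg))
    have h1 : Fintype.card {s // s ∈ T} ≤ (Finset.univ.image h).card :=
      hTcard.trans (hcard ▸ Finset.card_le_card hsub)
    have h2 : (Finset.univ.image h).card = (Finset.univ : Finset {s // s ∈ T}).card :=
      le_antisymm Finset.card_image_le h1
    intro a b hab
    exact Finset.card_image_iff.mp h2 (Finset.mem_univ a) (Finset.mem_univ b) hab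
  have hz'K : z' ∈ K := by
    rw [← InfiniteGalois.fixedField_fixingSubgroup K]
    rintro ⟨σ, hσ⟩
    show σ z' = z'
    have hσG : σ ∈ G := IntermediateField.fixingSubgroup_antitone (layer_le K _) hσ
    have h1 : h ⟨σ z', hTmem σ hσG⟩ = h ⟨(1 : GalQp p) z', hTmem 1 (one_mem G)⟩ := by
      rw [hhσ σ hσG, hhσ 1 (one_mem G),
        (IntermediateField.mem_fixingSubgroup_iff K σ).mp hσ z hz.mem, AlgEquiv.one_apply]
    simpa using congrArg Subtype.val (hhinj h1)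
  -- move `z'` next to `z`
  obtain ⟨y₀, hy₀, hnearest⟩ := Finset.exists_min_image S (fun s => ‖z' - s‖)
    ⟨z, self_mem_conjFinset _ _⟩
  obtain ⟨σ, hσ, hσy⟩ := (mem_conjFinset _ _).mp hy₀
  set u := σ⁻¹ z' with hu
  have hσG : σ⁻¹ ∈ G := (IntermediateField.mem_fixingSubgroup_iff _ _).mpr fun w hw =>
    (mem_layer_iff.mp hw).2 _ (inv_mem hσ)
  have huroot : g.IsRoot u :=
    (mem_roots hgne).mp (Multiset.mem_toFinset.mp (Finset.mem_filter.mp (hTmem _ hσG)).1)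
  have huK : u ∈ K := smul_mem_of_normal p K σ⁻¹ hz'K
  have hun : ‖u‖ = ‖z‖ := by rw [hu, norm_galQp, hz'n]
  have hnear : ∀ s ∈ S, ‖u - z‖ ≤ ‖u - s‖ := by
    intro s hs
    have h1 : σ s ∈ S := by
      obtain ⟨τ', hτ', rfl⟩ := (mem_conjFinset _ _).mp hs
      exact (mem_conjFinset _ _).mpr ⟨σ * τ', mul_mem hσ hτ', rfl⟩
    have h2 := hnearest _ h1
    rw [← hσy] at h2
    rw [← norm_galQp p σ (u - z), ← norm_galQp p σ (u - s), map_sub, map_sub,
      show σ u = z' from σ.apply_symm_apply z']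
    exact h2
  have hfac : f.eval u = (u - z) * ∏ s ∈ S.erase z, (u - s) := by
    rw [hf, conjPoly, eval_prod, ← Finset.mul_prod_erase _ _ (self_mem_conjFinset _ _)]
    simp [hS]
  have hnorm : ‖u - z‖ * ∏ s ∈ S.erase z, ‖u - s‖ = D * ‖δ₀‖ := by
    rw [← norm_prod, ← norm_mul, ← hfac, hfz' u huroot, norm_mul, norm_pow, hun, hcn, hxn]
  set b := ‖u - z‖ with hb
  have hfar : ∀ s ∈ S.erase z, ‖z - s‖ ≤ ‖u - s‖ := by
    intro s hs
    rw [← sub_add_sub_cancel z u s]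
    refine (IsUltrametricDist.norm_add_le_max _ _).trans (max_le ?_ le_rfl)
    rw [norm_sub_rev]
    exact hnear s (Finset.mem_of_mem_erase hs)
  have hble : b ≤ ‖δ₀‖ := by
    by_contra hgt
    push Not at hgt
    have h1 : b * D ≤ b * ∏ s ∈ S.erase z, ‖u - s‖ :=
      mul_le_mul_of_nonneg_left (Finset.prod_le_prod (fun s _ => norm_nonneg _) hfar) (norm_nonneg _)
    rw [hnorm, mul_comm b] at h1
    exact absurd (le_of_mul_le_mul_left h1 hDpos) (not_le.mpr hgt)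
  set v := (u - z) / δ₀ with hv
  have hv1 : ‖v‖ ≤ 1 := by
    rw [hv, norm_div]
    exact (div_le_one hδpos).mpr hble
  refine hmiss v (div_mem (sub_mem huK hz.mem) hδ₀K) hv1 ?_
  set P := v * ∏ s ∈ S.erase z, (1 + δ₀ / (z - s) * v) with hP
  have hid : f.eval u = δ₀ * D₀ * P := by
    have h1 : u - z = δ₀ * v := by rw [hv, mul_div_cancel₀ _ (norm_pos_iff.mp hδpos)]
    rw [hfac, hP, h1, hD₀, mul_mul_mul_comm, ← Finset.prod_mul_distrib]
    refine congrArg _ (Finset.prod_congr rfl fun s hs => ?_)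
    have h2 : z - s ≠ 0 := sub_ne_zero.mpr (Finset.ne_of_mem_erase hs).symm
    rw [mul_add, mul_one, ← mul_assoc, mul_div_cancel₀ _ h2, ← h1]
    ring
  have hzu : ‖c * u ^ m - c * z ^ m‖ < ‖x‖ := by
    rw [← mul_sub, norm_mul, ← hcn]
    refine mul_lt_mul_of_pos_left ?_ ?_
    · rcases Nat.eq_zero_or_pos m with hm0 | hm0
      · simp [hm0]
      rw [← geom_sum₂_mul, norm_mul]
      have h3 : ‖∑ i ∈ Finset.range m, u ^ i * z ^ (m - 1 - i)‖ ≤ ‖z‖ ^ (m - 1) := by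
        refine IsUltrametricDist.norm_sum_le_of_forall_le_of_nonneg (by positivity) fun i hi => ?_
        rw [Finset.mem_range] at hi
        rw [norm_mul, norm_pow, norm_pow, hun, ← pow_add, show i + (m - 1 - i) = m - 1 by omega]
      refine lt_of_le_of_lt (mul_le_mul_of_nonneg_right h3 (norm_nonneg _)) ?_
      calc ‖z‖ ^ (m - 1) * b < ‖z‖ ^ (m - 1) * ‖z‖ :=
            mul_lt_mul_of_pos_left (hble.trans_lt hδz) (pow_pos hz.pos _)
        _ = ‖z‖ ^ m := by rw [← pow_succ]; congr 1; omega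
    · exact pos_of_mul_pos_left (hcn ▸ hxpos) (pow_nonneg (norm_nonneg z) _)
  have h5 : ‖δ₀ * D₀ * P - x‖ < ‖δ₀ * D₀‖ := by
    rw [← hid, hfz' u huroot, show ‖δ₀ * D₀‖ = ‖x‖ by rw [hx, norm_mul _ t, ht1, mul_one],
      ← sub_add_sub_cancel (c * u ^ m) (c * z ^ m) x]
    exact lt_of_le_of_lt (IsUltrametricDist.norm_add_le_max _ _) (max_lt hzu hcx)
  rw [hx, ← mul_sub, norm_mul] at h5
  exact lt_of_mul_lt_mul_left (h5.trans_le (mul_one _).ge) (norm_nonneg _)

/-- The bound descends to layers. -/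
theorem RamBound.layer (h : RamBound K) {J : Subgroup (GalQp p)} (hJ : J ≤ inertiaQp p) :
    RamBound (layer K J) := by
  classical
  intro z' e' hz' y' hy' hy'z
  obtain ⟨z, e, hz⟩ := exists_isUnif K
  set S := conjFinset (inertiaQp p) z with hS
  set S' := conjFinset (inertiaQp p) z' with hS'
  set C₀ := conjFinset J z with hC₀
  have hrep : ∀ y : {y // y ∈ S}, ∃ σ ∈ inertiaQp p, σ z = (y : PadicAlgCl p) := fun y =>
    (mem_conjFinset _ _).mp y.2
  choose τ hτI hτ using hrep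
  set π : {y // y ∈ S} → PadicAlgCl p := fun y => τ y z' with hπ
  have hagree : ∀ σ ∈ inertiaQp p, ∀ τ' ∈ inertiaQp p, σ z = τ' z → σ z' = τ' z' := by
    intro σ hσ τ' hτ' heq
    obtain ⟨w, hw, hwz⟩ := hz.exists_expansion le_rfl (layer_le K _)
      (layer_le K J hz'.mem)
    rw [hwz, map_sum, map_sum]
    refine Finset.sum_congr rfl fun i _ => ?_
    rw [map_mul, map_mul, map_pow, map_pow, heq, (mem_layer_iff.mp (hw i)).2 σ hσ,
      (mem_layer_iff.mp (hw i)).2 τ' hτ']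
  have hC₀S : ∀ σ ∈ inertiaQp p, ∀ j ∈ C₀, σ j ∈ S := by
    intro σ hσ j hj
    obtain ⟨ι, hι, rfl⟩ := (mem_conjFinset _ _).mp hj
    exact (mem_conjFinset _ _).mpr ⟨σ * ι, mul_mem hσ (hJ hι), rfl⟩
  have hπσ : ∀ σ (hσ : σ ∈ inertiaQp p) (j : PadicAlgCl p) (hj : j ∈ C₀),
      π ⟨σ j, hC₀S σ hσ j hj⟩ = σ z' := by
    intro σ hσ j hj
    obtain ⟨ι, hι, rfl⟩ := (mem_conjFinset _ _).mp hj
    show τ _ z' = σ z'
    rw [hagree _ (hτI _) (σ * ι) (mul_mem hσ (hJ hι)) (hτ _), AlgEquiv.mul_apply,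
      (mem_layer_iff.mp hz'.mem).2 ι hι]
  -- a coset representative nearest to `z`
  obtain ⟨σ₁, hσ₁, hσ₁y⟩ := (mem_conjFinset _ _).mp hy'
  obtain ⟨c₁, hc₁, hc₁min⟩ := Finset.exists_min_image C₀ (fun c => ‖z - σ₁ c‖)
    ⟨z, self_mem_conjFinset _ _⟩
  obtain ⟨ι₁, hι₁, rfl⟩ := (mem_conjFinset _ _).mp hc₁
  set σ₀ := σ₁ * ι₁ with hσ₀
  have hσ₀I : σ₀ ∈ inertiaQp p := mul_mem hσ₁ (hJ hι₁)
  have hσ₀z' : σ₀ z' = y' := by
    rw [hσ₀, AlgEquiv.mul_apply, (mem_layer_iff.mp hz'.mem).2 ι₁ hι₁, hσ₁y]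
  set y := σ₀ z with hy
  have hyS : y ∈ S := (mem_conjFinset _ _).mpr ⟨σ₀, hσ₀I, rfl⟩
  have hyz : y ≠ z := fun heq => hy'z (by
    rw [← hσ₀z', hagree σ₀ hσ₀I 1 (one_mem _) heq]
    rfl)
  refine le_trans (h z e hz y hyS hyz) (pow_le_pow_left₀
    (mul_nonneg (Finset.prod_nonneg fun _ _ => norm_nonneg _) (norm_nonneg _)) ?_ (p - 1))
  have hle1 : ∀ t ∈ S, ‖z - t‖ ≤ 1 := fun t ht => by
    rw [sub_eq_add_neg]
    refine (IsUltrametricDist.norm_add_le_max _ _).trans (max_le hz.lt_one.le ?_)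
    rw [norm_neg]; exact (norm_of_mem_conjFinset _ _ ht).le.trans hz.lt_one.le
  -- distance at `y'`
  have hδ : ‖z - y‖ * ∏ c ∈ C₀.erase z, ‖z - c‖ ≤ ‖z' - y'‖ := by
    have h1 := hz.prod_le_norm_sub le_rfl hJ hz' hσ₀I
    rw [← Finset.mul_prod_erase _ _ (self_mem_conjFinset J z), hσ₀z', norm_sub_rev y' z'] at h1
    refine le_trans (mul_le_mul_of_nonneg_left
      (Finset.prod_le_prod (fun _ _ => norm_nonneg _) fun c hc => ?_) (norm_nonneg _)) h1
    have hmin : ‖z - y‖ ≤ ‖z - σ₀ c‖ := by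
      have h2 := hc₁min (ι₁ c) (by
        obtain ⟨ι, hι, rfl⟩ := (mem_conjFinset _ _).mp (Finset.mem_of_mem_erase hc)
        exact (mem_conjFinset _ _).mpr ⟨ι₁ * ι, mul_mem hι₁ hι, rfl⟩)
      exact h2
    have hrot : ‖z - c‖ = ‖y - σ₀ c‖ := by rw [hy, ← map_sub, norm_galQp]
    rw [hrot, ← sub_add_sub_cancel y z (σ₀ c)]
    refine (IsUltrametricDist.norm_add_le_max _ _).trans (max_le ?_ le_rfl)
    rw [norm_sub_rev]
    exact hmin
  -- the whole product
  set A : Finset {y // y ∈ S} := Finset.univ.filter fun s => (s : PadicAlgCl p) ≠ z with hA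
  have hDsplit : ∏ t ∈ S.erase z, ‖z - t‖ ≤
      (∏ t ∈ S'.erase z', ‖z' - t‖) * ∏ c ∈ C₀.erase z, ‖z - c‖ := by
    have h1 : ∏ t ∈ S.erase z, ‖z - t‖ = ∏ s ∈ A, ‖z - (s : PadicAlgCl p)‖ := by
      refine (Finset.prod_bij (fun (s : {y // y ∈ S}) _ => (s : PadicAlgCl p)) ?_ ?_ ?_ ?_).symm
      · intro s hs
        exact Finset.mem_erase.mpr ⟨(Finset.mem_filter.mp hs).2, s.2⟩
      · intro a _ b _ hab
        exact Subtype.ext hab
      · intro t ht
        exact ⟨⟨t, Finset.mem_of_mem_erase ht⟩, Finset.mem_filter.mpr ⟨Finset.mem_univ _,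
          Finset.ne_of_mem_erase ht⟩, rfl⟩
      · intro s _
        rfl
    have hmaps : ∀ s ∈ A, π s ∈ S' := fun s _ =>
      (mem_conjFinset _ _).mpr ⟨τ s, hτI s, rfl⟩
    rw [h1, ← Finset.prod_fiberwise_of_maps_to hmaps,
      ← Finset.prod_erase_mul S' _ (self_mem_conjFinset _ z')]
    have hsmall : ∀ (B : Finset {y // y ∈ S}) (E : Finset (PadicAlgCl p)) (σ : GalQp p),
        (∀ c ∈ E, ∃ hc : σ c ∈ S, (⟨σ c, hc⟩ : {y // y ∈ S}) ∈ B) →
        ∏ s ∈ B, ‖z - (s : PadicAlgCl p)‖ ≤ ∏ c ∈ E, ‖z - σ c‖ := by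
      intro B E σ hBE
      choose hc hcB using hBE
      let ι : {c // c ∈ E} → {y // y ∈ S} := fun c => ⟨σ c, hc c c.2⟩
      have hι : Function.Injective ι := fun a b hab =>
        Subtype.ext (σ.injective (congrArg Subtype.val hab))
      calc ∏ s ∈ B, ‖z - (s : PadicAlgCl p)‖
          ≤ ∏ s ∈ Finset.univ.image ι, ‖z - (s : PadicAlgCl p)‖ := by
            refine Finset.prod_le_prod_of_subset_of_le_one (fun s hs => ?_)
              (fun _ _ => norm_nonneg _) fun s _ _ => hle1 _ s.2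
            obtain ⟨c, -, rfl⟩ := Finset.mem_image.mp hs
            exact hcB c c.2
        _ = ∏ c : {c // c ∈ E}, ‖z - σ c‖ := Finset.prod_image fun a _ b _ hab => hι hab
        _ = _ := Finset.prod_coe_sort E fun c => ‖z - σ c‖
    refine mul_le_mul ?_ ?_ (Finset.prod_nonneg fun _ _ => norm_nonneg _)
      (Finset.prod_nonneg fun _ _ => norm_nonneg _)
    · refine Finset.prod_le_prod (fun _ _ => Finset.prod_nonneg fun _ _ => norm_nonneg _)
        fun t ht => ?_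
      obtain ⟨σ, hσ, rfl⟩ := (mem_conjFinset _ _).mp (Finset.mem_of_mem_erase ht)
      refine (hsmall _ C₀ σ fun c hc => ⟨hC₀S σ hσ c hc, Finset.mem_filter.mpr
        ⟨Finset.mem_filter.mpr ⟨Finset.mem_univ _, fun heq => ?_⟩, hπσ σ hσ c hc⟩⟩).trans ?_
      · have h2 := hπσ σ hσ c hc
        have h3 := hπσ 1 (one_mem _) z (self_mem_conjFinset J z)
        refine Finset.ne_of_mem_erase ht ?_
        rw [← h2, show (⟨σ c, hC₀S σ hσ c hc⟩ : {y // y ∈ S}) =
          ⟨(1 : GalQp p) z, hC₀S 1 (one_mem _) z (self_mem_conjFinset J z)⟩ from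
            Subtype.ext heq, h3]
        rfl
      · rw [norm_sub_rev z']
        exact hz.prod_le_norm_sub le_rfl hJ hz' hσ
    · refine (hsmall _ (C₀.erase z) 1 ?_).trans (le_of_eq rfl)
      intro c hc
      refine ⟨hC₀S 1 (one_mem _) c (Finset.mem_of_mem_erase hc), Finset.mem_filter.mpr
        ⟨Finset.mem_filter.mpr ⟨Finset.mem_univ _, Finset.ne_of_mem_erase hc⟩, ?_⟩⟩
      exact hπσ 1 (one_mem _) c (Finset.mem_of_mem_erase hc)
  calc (∏ t ∈ S.erase z, ‖z - t‖) * ‖z - y‖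
      ≤ (∏ t ∈ S'.erase z', ‖z' - t‖) * (∏ c ∈ C₀.erase z, ‖z - c‖) * ‖z - y‖ :=
        mul_le_mul_of_nonneg_right hDsplit (norm_nonneg _)
    _ ≤ _ := by
        rw [mul_assoc, mul_comm _ ‖z - y‖]
        exact mul_le_mul_of_nonneg_left hδ (Finset.prod_nonneg fun _ _ => norm_nonneg _)

end Fermat.Agent.TW
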