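/-
The ramification jump of a tame-equivariant homomorphism on wild inertia, from the bound on the
ramification.
-/
import Fermat.Agent.TW.LocalFlatLayer
import Fermat.Agent.TW.LocalFlatShape
import Fermat.Agent.TW.LocalRamBound
import Mathlib.FieldTheory.Minpoly.Field

set_option autoImplicit false
set_option maxHeartbeats 400000

noncomputable section

open Polynomial

namespace Fermat.Agent.TW

variable {p : ℕ} [Fact p.Prime]

/-- A homomorphism on a subgroup `W` of inertia with tame quotient generated by `τ`, which turns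
conjugation by `τ` into multiplication by `ξ`. -/
structure EigenData (K : IntermediateField ℚ_[p] (PadicAlgCl p)) (W : Subgroup (GalQp p))
    (τ : GalQp p) (e0 : ℕ) {k B : Type*} [Field k] [AddCommGroup B] [Module k B] (ξ : k)
    (n : GalQp p → B) : Prop where
  le_inertia : W ≤ inertiaQp p
  fix_mem : ∀ g ∈ inertiaQp p, g ∈ K.fixingSubgroup → g ∈ W
  tau_mem : τ ∈ inertiaQp p
  gen : ∀ g ∈ inertiaQp p, ∃ (i : ℕ), ∃ w ∈ W, g = τ ^ i * w
  tau_pow : ∀ i : ℕ, τ ^ i ∈ W ↔ e0 ∣ i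
  pos : 0 < e0
  coprime : e0.Coprime p
  normal : ∀ g ∈ inertiaQp p, ∀ w ∈ W, g * w * g⁻¹ ∈ W
  map_mul : ∀ v ∈ W, ∀ w ∈ W, n (v * w) = n v + n w
  map_fix : ∀ w ∈ W, w ∈ K.fixingSubgroup → n w = 0
  map_conj : ∀ w ∈ W, n (τ * w * τ⁻¹) = ξ • n w
  scal_ne : ξ ≠ 0

namespace EigenData

variable {K : IntermediateField ℚ_[p] (PadicAlgCl p)} {W : Subgroup (GalQp p)} {τ : GalQp p}
  {e0 : ℕ} {k B : Type} [Field k] [AddCommGroup B] [Module k B] {ξ : k} {n : GalQp p → B}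
  (h : EigenData K W τ e0 ξ n)

include h in
theorem map_one : n 1 = 0 := by
  have := h.map_mul 1 (one_mem W) 1 (one_mem W)
  rwa [mul_one, left_eq_add] at this

include h in
theorem map_inv {w : GalQp p} (hw : w ∈ W) : n w⁻¹ = -n w := by
  refine eq_neg_of_add_eq_zero_left ?_
  rw [← h.map_mul _ (inv_mem hw) _ hw, inv_mul_cancel, h.map_one]

include h in
theorem map_pow {w : GalQp p} (hw : w ∈ W) (m : ℕ) : n (w ^ m) = m • n w := by
  induction m with
  | zero => rw [pow_zero, h.map_one, zero_nsmul]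
  | succ m ih => rw [pow_succ, h.map_mul _ (pow_mem hw m) _ hw, ih, succ_nsmul]

include h in
theorem map_conj_pow {w : GalQp p} (hw : w ∈ W) (i : ℕ) :
    n (τ ^ i * w * (τ ^ i)⁻¹) = ξ ^ i • n w := by
  induction i with
  | zero => simp
  | succ i ih =>
    rw [show τ ^ (i + 1) * w * (τ ^ (i + 1))⁻¹ = τ * (τ ^ i * w * (τ ^ i)⁻¹) * τ⁻¹ by group,
      h.map_conj _ (h.normal _ (pow_mem h.tau_mem i) w hw), ih, smul_smul, pow_succ']

include h in
theorem exists_map_conj {g : GalQp p} (hg : g ∈ inertiaQp p) :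
    ∃ c : k, c ≠ 0 ∧ ∀ w ∈ W, n (g * w * g⁻¹) = c • n w := by
  obtain ⟨i, v, hv, rfl⟩ := h.gen g hg
  refine ⟨ξ ^ i, pow_ne_zero i h.scal_ne, fun w hw => ?_⟩
  rw [show τ ^ i * v * w * (τ ^ i * v)⁻¹ = τ ^ i * (v * w * v⁻¹) * (τ ^ i)⁻¹ by group,
    h.map_conj_pow (mul_mem (mul_mem hv hw) (inv_mem hv)), h.map_mul _ (mul_mem hv hw) _
      (inv_mem hv), h.map_mul _ hv _ hw, h.map_inv hv]
  congr 1
  abel

/-- The kernel of `n` in `W`. -/
def ker : Subgroup (GalQp p) where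
  carrier := {w | w ∈ W ∧ n w = 0}
  one_mem' := ⟨one_mem W, h.map_one⟩
  mul_mem' {a b} ha hb := ⟨mul_mem ha.1 hb.1, by
    rw [h.map_mul _ ha.1 _ hb.1, ha.2, hb.2, add_zero]⟩
  inv_mem' {a} ha := ⟨inv_mem ha.1, by rw [h.map_inv ha.1, ha.2, neg_zero]⟩

theorem mem_ker {w : GalQp p} : w ∈ h.ker ↔ w ∈ W ∧ n w = 0 := Iff.rfl

theorem ker_le : h.ker ≤ inertiaQp p := fun _ hw => h.le_inertia hw.1

theorem conj_mem_ker {g j : GalQp p} (hg : g ∈ inertiaQp p) (hj : j ∈ h.ker) :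
    g⁻¹ * j * g ∈ h.ker := by
  obtain ⟨c, -, hc⟩ := h.exists_map_conj (inv_mem hg)
  have h1 := hc j hj.1
  rw [inv_inv, hj.2, smul_zero] at h1
  exact ⟨by simpa using h.normal _ (inv_mem hg) j hj.1, h1⟩

theorem pow_prime_mem_ker [CharP k p] {w : GalQp p} (hw : w ∈ W) : w ^ p ∈ h.ker :=
  ⟨pow_mem hw p, by rw [h.map_pow hw, nsmul_eq_zero_of_charP (k := k)]⟩

section Unif

variable [FiniteDimensional ℚ_[p] K] [Normal ℚ_[p] K] {z : PadicAlgCl p} {e : ℕ}
  (hz : IsUnif (layer K h.ker) z e)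

include hz in
theorem stable {g : GalQp p} (hg : g ∈ inertiaQp p) {x : PadicAlgCl p} (hx : x ∈ layer K h.ker) :
    g x ∈ layer K h.ker :=
  smul_mem_layer_of_normalizes (fun _ hj => h.conj_mem_ker hg hj) hx

include hz in
theorem apply_eq_iff {g : GalQp p} (hg : g ∈ inertiaQp p) : g z = z ↔ g ∈ h.ker := by
  refine ⟨fun hgz => mem_of_fixes_layer h.ker_le (fun g hg hgK =>
    ⟨h.fix_mem g hg hgK, h.map_fix g (h.fix_mem g hg hgK) hgK⟩) hg fun x hx => ?_,
    fun hgJ => (mem_layer_iff.mp hz.mem).2 g hgJ⟩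
  exact hz.apply_eq_self (layer_le K h.ker) (layer_antitone K h.ker_le) hg hgz hx

include hz in
theorem tameChar_eq_one [CharP k p] {w : GalQp p} (hw : w ∈ W) : tameChar p z w = 1 := by
  have h1 : tameChar p z w ^ p = 1 := by
    rw [← tameChar_pow hz.ne_zero (h.le_inertia hw), ← norm_sub_lt_iff_tameChar p hz.ne_zero,
      (h.apply_eq_iff hz (h.le_inertia (pow_mem hw p))).mpr (h.pow_prime_mem_ker hw), sub_self,
      norm_zero]
    exact hz.pos
  exact frobenius_inj (resQp p) p (by simpa [frobenius_def] using h1)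

include hz in
theorem tameChar_tau_pow [CharP k p] {i : ℕ} {w : GalQp p} (hw : w ∈ W) :
    tameChar p z (τ ^ i * w) = tameChar p z τ ^ i := by
  rw [tameChar_mul p hz.ne_zero (pow_mem h.tau_mem i), h.tameChar_eq_one hz hw, mul_one,
    tameChar_pow hz.ne_zero h.tau_mem]

include hz in
theorem orderOf_tameChar [CharP k p] : orderOf (tameChar p z τ) = e0 := by
  refine Nat.dvd_antisymm (orderOf_dvd_of_pow_eq_one ?_) ?_
  · rw [← tameChar_pow hz.ne_zero h.tau_mem]
    exact h.tameChar_eq_one hz ((h.tau_pow e0).mpr dvd_rfl)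
  · set i := orderOf (tameChar p z τ)
    have h1 : tameChar p z (τ ^ i) = 1 := by
      rw [tameChar_pow hz.ne_zero h.tau_mem, pow_orderOf_eq_one]
    obtain ⟨a, ha⟩ := hz.exists_pow_apply_eq (layer_le K h.ker) (pow_mem h.tau_mem i)
      (fun x hx => h.stable hz (pow_mem h.tau_mem i) hx) h1
    have h2 := ((h.apply_eq_iff hz (pow_mem (pow_mem h.tau_mem i) _)).mp ha).1
    rw [← pow_mul, h.tau_pow] at h2
    exact (Nat.Coprime.pow_right a h.coprime).dvd_of_dvd_mul_right h2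

include hz in
theorem mem_of_tameChar_eq_one [CharP k p] {g : GalQp p} (hg : g ∈ inertiaQp p)
    (h1 : tameChar p z g = 1) : g ∈ W := by
  obtain ⟨i, w, hw, rfl⟩ := h.gen g hg
  rw [h.tameChar_tau_pow hz hw, ← orderOf_dvd_iff_pow_eq_one, h.orderOf_tameChar hz,
    ← h.tau_pow] at h1
  exact mul_mem h1 hw

include hz in
theorem card_eq [CharP k p] : e = e0 * (conjFinset W z).card := by
  classical
  have hpos := h.pos
  rw [← hz.card_conjFinset (layer_le K h.ker) (layer_antitone K h.ker_le),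
    card_conjFinset_mul h.le_inertia (fun g hg hgz => ((h.apply_eq_iff hz hg).mp hgz).1)
      (fun g => tameChar p z g) ?_ ((Finset.range e0).image (tameChar p z τ ^ ·)) ?_,
    Finset.card_image_of_injOn, Finset.card_range]
  · intro a ha b hb hab
    rw [Finset.coe_range, Set.mem_Iio, ← h.orderOf_tameChar hz] at ha hb
    exact pow_injOn_Iio_orderOf ha hb hab
  · intro g hg g' hg'
    have hmul : tameChar p z g' = tameChar p z g * tameChar p z (g⁻¹ * g') := by
      rw [← tameChar_mul p hz.ne_zero hg, mul_inv_cancel_left]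
    constructor
    · intro heq
      refine h.mem_of_tameChar_eq_one hz (mul_mem (inv_mem hg) hg') ?_
      exact mul_left_cancel₀ (tameChar_ne_zero p hz.ne_zero g)
        (by rw [mul_one, ← hmul]; exact heq.symm)
    · intro hW
      rw [hmul, h.tameChar_eq_one hz hW, mul_one]
  · intro x
    simp only [Finset.mem_image, Finset.mem_range]
    constructor
    · rintro ⟨i, -, rfl⟩
      exact ⟨τ ^ i, pow_mem h.tau_mem i, tameChar_pow hz.ne_zero h.tau_mem i⟩
    · rintro ⟨g, hg, rfl⟩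
      obtain ⟨i, w, hw, rfl⟩ := h.gen g hg
      exact ⟨i % e0, Nat.mod_lt i hpos, by
        rw [h.tameChar_tau_pow hz hw, ← h.orderOf_tameChar hz, pow_mod_orderOf]⟩

include hz in
/-- The first jump. -/
theorem exists_jump [CharP k p] (hRB : RamBound K) (hne : ∃ w ∈ W, n w ≠ 0) :
    ∃ t : ℕ, 1 ≤ t ∧ (p - 1) * t ≤ e0 ∧ (∀ w ∈ W, ‖w z - z‖ ≤ ‖z‖ ^ (t + 1)) ∧
      ∃ w ∈ W, ‖w z - z‖ = ‖z‖ ^ (t + 1) := by
  classical
  set A := conjFinset W z with hA
  set S := conjFinset (inertiaQp p) z with hS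
  obtain ⟨w₀, hw₀, hn₀⟩ := hne
  have hne' : (A.erase z).Nonempty := ⟨w₀ z, Finset.mem_erase.mpr ⟨fun he =>
    hn₀ ((h.apply_eq_iff hz (h.le_inertia hw₀)).mp he).2, (mem_conjFinset W z).mpr ⟨_, hw₀, rfl⟩⟩⟩
  obtain ⟨y₁, hy₁, hmax⟩ := (A.erase z).exists_max_image (fun y => ‖z - y‖) hne'
  obtain ⟨hy₁z, hy₁A⟩ := Finset.mem_erase.mp hy₁
  obtain ⟨w₁, hw₁, rfl⟩ := (mem_conjFinset W z).mp hy₁A
  obtain ⟨m, hm⟩ := hz.exists_pow_eq (sub_mem (h.stable hz (h.le_inertia hw₁) hz.mem) hz.mem)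
    (sub_ne_zero.mpr hy₁z) ((IsUltrametricDist.norm_add_le_max _ _).trans' (le_of_eq
      (by rw [sub_eq_add_neg])) |>.trans (max_le (by rw [norm_galQp]; exact hz.lt_one.le)
        (by rw [norm_neg]; exact hz.lt_one.le)))
  have hlt : ‖w₁ z - z‖ < ‖z‖ :=
    (norm_sub_lt_iff_tameChar p hz.ne_zero w₁).mpr (h.tameChar_eq_one hz hw₁)
  have hm2 : 2 ≤ m := by
    rw [hm] at hlt
    by_contra hm1
    interval_cases m
    · rw [pow_zero] at hlt
      exact absurd hz.lt_one (not_lt.mpr hlt.le)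
    · exact lt_irrefl _ (by rwa [pow_one] at hlt)
  obtain ⟨t, rfl⟩ : ∃ t, m = t + 1 := ⟨m - 1, by omega⟩
  have hall : ∀ w ∈ W, ‖w z - z‖ ≤ ‖z‖ ^ (t + 1) := by
    intro w hw
    rw [← hm]
    rcases eq_or_ne (w z) z with he | he
    · rw [he, sub_self, norm_zero]; exact norm_nonneg _
    · rw [norm_sub_rev, norm_sub_rev (w₁ z)]
      exact hmax _ (Finset.mem_erase.mpr ⟨he, (mem_conjFinset W z).mpr ⟨w, hw, rfl⟩⟩)
  refine ⟨t, by omega, ?_, hall, w₁, hw₁, hm⟩
  -- the bound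
  have hAS : A ⊆ S := fun y hy => by
    obtain ⟨w, hw, rfl⟩ := (mem_conjFinset W z).mp hy
    exact (mem_conjFinset _ z).mpr ⟨w, h.le_inertia hw, rfl⟩
  have hcardS : S.card = e := hz.card_conjFinset (layer_le K h.ker) (layer_antitone K h.ker_le)
  have hcard : e = e0 * A.card := h.card_eq hz
  have hzA : z ∈ A := self_mem_conjFinset W z
  have hApos : 0 < A.card := Finset.card_pos.mpr ⟨z, hzA⟩
  have h1 := (hRB.layer h.ker_le) z e hz (w₁ z) (hAS hy₁A) hy₁z
  have hprod : (∏ y ∈ S.erase z, ‖z - y‖) * ‖z - w₁ z‖ ≤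
      ‖z‖ ^ ((S \ A).card + (t + 1) * (A.erase z).card + (t + 1)) := by
    have hsplit : S.erase z = (S \ A) ∪ A.erase z := by
      ext y
      simp only [Finset.mem_erase, Finset.mem_union, Finset.mem_sdiff]
      constructor
      · rintro ⟨hyz, hyS⟩
        by_cases hyA : y ∈ A
        exacts [Or.inr ⟨hyz, hyA⟩, Or.inl ⟨hyS, hyA⟩]
      · rintro (⟨hyS, hyA⟩ | ⟨hyz, hyA⟩)
        exacts [⟨fun he => hyA (he ▸ hzA), hyS⟩, ⟨hyz, hAS hyA⟩]
    have hdisj : Disjoint (S \ A) (A.erase z) :=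
      Finset.disjoint_left.mpr fun y hy hy' =>
        (Finset.mem_sdiff.mp hy).2 (Finset.mem_of_mem_erase hy')
    rw [hsplit, Finset.prod_union hdisj, pow_add, pow_add, norm_sub_rev z (w₁ z), hm, pow_mul]
    refine mul_le_mul_of_nonneg_right (mul_le_mul ?_ ?_ (Finset.prod_nonneg fun _ _ =>
      norm_nonneg _) (pow_nonneg hz.pos.le _)) (pow_nonneg hz.pos.le _)
    · rw [← Finset.prod_const]
      refine Finset.prod_le_prod (fun _ _ => norm_nonneg _) fun y hy => ?_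
      obtain ⟨g, -, rfl⟩ := (mem_conjFinset _ z).mp (Finset.mem_sdiff.mp hy).1
      rw [sub_eq_add_neg]
      exact (IsUltrametricDist.norm_add_le_max _ _).trans
        (max_le le_rfl (by rw [norm_neg, norm_galQp]))
    · rw [← Finset.prod_const]
      refine Finset.prod_le_prod (fun _ _ => norm_nonneg _) fun y hy => ?_
      obtain ⟨g, hg, rfl⟩ := (mem_conjFinset W z).mp (Finset.mem_of_mem_erase hy)
      rw [norm_sub_rev]
      exact hall g hg
  have h2 : ‖z‖ ^ (e * p) ≤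
      ‖z‖ ^ (((S \ A).card + (t + 1) * (A.erase z).card + (t + 1)) * (p - 1)) := by
    rw [pow_mul, pow_mul, hz.pow_eq, inv_pow]
    exact h1.trans (pow_le_pow_left₀
      (mul_nonneg (Finset.prod_nonneg fun _ _ => norm_nonneg _) (norm_nonneg _)) hprod _)
  have h3 := (pow_le_pow_iff_right_of_lt_one₀ hz.pos hz.lt_one).mp h2
  rw [Finset.card_sdiff_of_subset hAS, Finset.card_erase_of_mem hzA, hcardS] at h3
  obtain ⟨a, ha⟩ : ∃ a, A.card = a + 1 := ⟨A.card - 1, by omega⟩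
  obtain ⟨q, hq⟩ : ∃ q, p = q + 1 := ⟨p - 1, by have := (Fact.out : p.Prime).pos; omega⟩
  rw [ha] at hcard h3
  obtain ⟨b, hb⟩ : ∃ b, e = b + (a + 1) := ⟨e - (a + 1), by
    have : a + 1 ≤ e := hcard ▸ Nat.le_mul_of_pos_left _ h.pos
    omega⟩
  rw [hq, Nat.add_sub_cancel]
  rw [hq, hb, Nat.add_sub_cancel, Nat.add_sub_cancel] at h3
  rw [Nat.add_sub_cancel] at h3
  nlinarith [h3, hcard, hb]

omit [FiniteDimensional ℚ_[p] K] in
include hz in
/-- The polynomial identities satisfied by `ξ` hold for the tame character to the jump. -/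
theorem exists_eval₂ [CharP k p] [FiniteDimensional ℚ_[p] K] {t : ℕ} (ht : 1 ≤ t)
    (hall : ∀ w ∈ W, ‖w z - z‖ ≤ ‖z‖ ^ (t + 1)) (P : (ZMod p)[X]) :
    ∀ w ∈ W, ∃ w' ∈ W, n w' = P.eval₂ (ZMod.castHom dvd_rfl k) ξ • n w ∧
      leadCoeff z (t + 1) w' =
        P.eval₂ (ZMod.castHom dvd_rfl (resQp p)) (tameChar p z τ ^ t) *
          leadCoeff z (t + 1) w := by
  haveI : NeZero p := ⟨(Fact.out : p.Prime).ne_zero⟩
  have hlead : ∀ v ∈ W, ∀ w ∈ W,
      leadCoeff z (t + 1) (v * w) = leadCoeff z (t + 1) v + leadCoeff z (t + 1) w :=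
    fun v hv w hw => (hz.leadCoeff_mul (h.le_inertia hv) (h.tameChar_eq_one hz hv)
      (h.stable hz (h.le_inertia hw) hz.mem) (hall v hv) (hall w hw)).2
  have hlead1 : leadCoeff z (t + 1) 1 = 0 := by
    have := hlead 1 (one_mem W) 1 (one_mem W)
    rwa [mul_one, left_eq_add] at this
  induction P using Polynomial.induction_on with
  | C a =>
    intro w hw
    refine ⟨w ^ a.val, pow_mem hw _, ?_, ?_⟩
    · rw [h.map_pow hw, eval₂_C, ← Nat.cast_smul_eq_nsmul k]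
      simp [ZMod.natCast_val]
    · rw [eval₂_C, show leadCoeff z (t + 1) (w ^ a.val) = a.val • leadCoeff z (t + 1) w from ?_,
        nsmul_eq_mul]
      · simp [ZMod.natCast_val]
      generalize a.val = m
      induction m with
      | zero => rw [pow_zero, hlead1, zero_nsmul]
      | succ m ih => rw [pow_succ, hlead _ (pow_mem hw m) _ hw, ih, succ_nsmul]
  | add P Q hP hQ =>
    intro w hw
    obtain ⟨v, hv, hv1, hv2⟩ := hP w hw
    obtain ⟨v', hv', hv1', hv2'⟩ := hQ w hw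
    exact ⟨v * v', mul_mem hv hv', by rw [h.map_mul _ hv _ hv', hv1, hv1', eval₂_add, add_smul],
      by rw [hlead _ hv _ hv', hv2, hv2', eval₂_add, add_mul]⟩
  | monomial m a hm =>
    intro w hw
    obtain ⟨v, hv, hv1, hv2⟩ := hm w hw
    refine ⟨τ * v * τ⁻¹, h.normal _ h.tau_mem v hv, ?_, ?_⟩
    · rw [h.map_conj v hv, hv1, smul_smul, pow_succ X, ← mul_assoc, eval₂_mul_X, mul_comm]
    · rw [(hz.leadCoeff_conj (layer_le K h.ker) (layer_antitone K h.ker_le) ht (h.le_inertia hv)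
        (h.stable hz (inv_mem h.tau_mem) hz.mem) (hall v hv)).2,
        (mem_inertiaQp_iff_resid p τ).mp h.tau_mem, ← leadCoeff_eq hz.ne_zero (hall v hv), hv2,
        pow_succ X, ← mul_assoc (C a), eval₂_mul_X]
      ring

include hz in
/-- The eigenvalue and the tame character to the jump have the same order. -/
theorem orderOf_eq [CharP k p] [Finite k] {t : ℕ} (ht : 1 ≤ t)
    (hall : ∀ w ∈ W, ‖w z - z‖ ≤ ‖z‖ ^ (t + 1))
    (hex : ∃ w ∈ W, ‖w z - z‖ = ‖z‖ ^ (t + 1)) :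
    orderOf (tameChar p z τ ^ t) = orderOf ξ := by
  obtain ⟨w, hw, hwt⟩ := hex
  haveI : NeZero p := ⟨(Fact.out : p.Prime).ne_zero⟩
  letI := ZMod.algebra k p
  letI := ZMod.algebra (resQp p) p
  have hν : leadCoeff z (t + 1) w ≠ 0 := fun h0 =>
    (lt_self_iff_false _).mp (hwt ▸ (leadCoeff_eq_zero_iff hz.ne_zero (hall w hw)).mp h0)
  have hn : n w ≠ 0 := fun h0 => by
    rw [(h.apply_eq_iff hz (h.le_inertia hw)).mpr ⟨hw, h0⟩, sub_self, norm_zero] at hwt
    exact (pow_pos hz.pos (t + 1)).ne hwt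
  have key : ∀ P : (ZMod p)[X], aeval ξ P = 0 → aeval (tameChar p z τ ^ t) P = 0 := by
    intro P hP
    obtain ⟨w', hw', h1, h2⟩ := h.exists_eval₂ hz ht hall P w hw
    rw [aeval_def, Subsingleton.elim (algebraMap (ZMod p) k) (ZMod.castHom dvd_rfl k)] at hP
    rw [hP, zero_smul] at h1
    have h3 : leadCoeff z (t + 1) w' = 0 := by
      rw [leadCoeff_eq_zero_iff hz.ne_zero (hall w' hw'),
        (h.apply_eq_iff hz (h.le_inertia hw')).mpr ⟨hw', h1⟩, sub_self, norm_zero]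
      exact pow_pos hz.pos _
    rw [h3, eq_comm, mul_eq_zero] at h2
    rw [aeval_def, Subsingleton.elim (algebraMap (ZMod p) (resQp p))
      (ZMod.castHom dvd_rfl (resQp p))]
    exact h2.resolve_right hν
  have hint : IsIntegral (ZMod p) ξ := IsIntegral.of_finite _ _
  have hmin : minpoly (ZMod p) (tameChar p z τ ^ t) = minpoly (ZMod p) ξ :=
    (minpoly.eq_of_irreducible_of_monic (minpoly.irreducible hint) (key _ (minpoly.aeval _ _))
      (minpoly.monic hint)).symm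
  refine orderOf_eq_orderOf_iff.mpr fun m => ?_
  have h1 : ∀ {R : Type} [Field R] [Algebra (ZMod p) R] (x : R),
      x ^ m = 1 ↔ minpoly (ZMod p) x ∣ X ^ m - 1 := fun x => by
    rw [minpoly.dvd_iff, _root_.map_sub, _root_.map_pow, aeval_X, _root_.map_one, sub_eq_zero]
  rw [h1, h1, hmin]

/-- The numerical condition under which the jump is determined. -/
def JumpUnique (_ : EigenData K W τ e0 ξ n) (t₀ : ℕ) : Prop :=
  ∀ t : ℕ, 1 ≤ t → (p - 1) * t ≤ e0 → e0 / Nat.gcd e0 t = orderOf ξ → t = t₀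

include hz in
theorem exists_jump_eq [CharP k p] [Finite k] (hRB : RamBound K) (hne : ∃ w ∈ W, n w ≠ 0)
    {t₀ : ℕ} (hj : h.JumpUnique t₀) :
    1 ≤ t₀ ∧ (∀ w ∈ W, ‖w z - z‖ ≤ ‖z‖ ^ (t₀ + 1)) ∧
      ∃ w ∈ W, ‖w z - z‖ = ‖z‖ ^ (t₀ + 1) := by
  obtain ⟨t, ht, hle, hall, hex⟩ := h.exists_jump hz hRB hne
  have ho := h.orderOf_eq hz ht hall hex
  rw [orderOf_pow' _ (by omega), h.orderOf_tameChar hz] at ho
  obtain rfl := hj t ht hle ho
  exact ⟨ht, hall, hex⟩

end Unif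

end EigenData

end Fermat.Agent.TW
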