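/-
A tame-equivariant homomorphism on wild inertia with a unique possible jump has a single jump.
-/
import Fermat.Agent.TW.LocalFlatJump
import Mathlib.Algebra.Field.Subfield.Basic
import Mathlib.LinearAlgebra.Dual.Lemmas

set_option autoImplicit false
set_option maxHeartbeats 400000

noncomputable section

namespace Fermat.Agent.TW

variable {p : ℕ} [Fact p.Prime]

/-- A subset stable under addition and multiplication by `ξ` is stable under the field of `ξ`. -/
theorem smul_mem_of_mem_closure {k B : Type} [Field k] [Finite k] [AddCommGroup B] [Module k B]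
    {N : Set B} (h0 : (0 : B) ∈ N) (hadd : ∀ x ∈ N, ∀ y ∈ N, x + y ∈ N)
    (hneg : ∀ x ∈ N, -x ∈ N) {ξ : k} (hξ : ∀ x ∈ N, ξ • x ∈ N) {c : k}
    (hc : c ∈ Subfield.closure {ξ}) : ∀ x ∈ N, c • x ∈ N := by
  haveI := Fintype.ofFinite k
  induction hc using Subfield.closure_induction with
  | mem c hc => rw [Set.mem_singleton_iff] at hc; exact hc ▸ hξ
  | one => intro x hx; rwa [one_smul]
  | add a b _ _ ha hb => intro x hx; rw [add_smul]; exact hadd _ (ha x hx) _ (hb x hx)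
  | neg a _ ha => intro x hx; rw [neg_smul]; exact hneg _ (ha x hx)
  | mul a b _ _ ha hb => intro x hx; rw [mul_smul]; exact ha _ (hb x hx)
  | inv a _ ha =>
    intro x hx
    rcases eq_or_ne a 0 with rfl | ha0
    · rw [inv_zero, zero_smul]; exact h0
    have hpow : ∀ m : ℕ, a ^ m • x ∈ N := by
      intro m
      induction m with
      | zero => rwa [pow_zero, one_smul]
      | succ m ih => rw [pow_succ', mul_smul]; exact ha _ ih
    have hinv : a⁻¹ = a ^ (Fintype.card k - 2) := by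
      refine inv_eq_of_mul_eq_one_right ?_
      rw [← pow_succ', ← FiniteField.pow_card_sub_one_eq_one a ha0]
      congr 1
      have := Fintype.one_lt_card (α := k)
      omega
    rw [hinv]
    exact hpow _

namespace EigenData

variable {K : IntermediateField ℚ_[p] (PadicAlgCl p)} {W : Subgroup (GalQp p)} {τ : GalQp p}
  {e0 : ℕ} {k B : Type} [Field k] [AddCommGroup B] [Module k B] {ξ : k} {n : GalQp p → B}
  (h : EigenData K W τ e0 ξ n)

include h in
/-- Composition with an additive map commuting with `ξ`. -/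
theorem comp {B' : Type} [AddCommGroup B'] [Module k B'] (φ : B →+ B')
    (hφ : ∀ b, φ (ξ • b) = ξ • φ b) : EigenData K W τ e0 ξ (fun g => φ (n g)) where
  le_inertia := h.le_inertia
  fix_mem := h.fix_mem
  tau_mem := h.tau_mem
  gen := h.gen
  tau_pow := h.tau_pow
  pos := h.pos
  coprime := h.coprime
  normal := h.normal
  map_mul v hv w hw := by rw [h.map_mul v hv w hw, _root_.map_add]
  map_fix w hw hwK := by rw [h.map_fix w hw hwK, _root_.map_zero]
  map_conj w hw := by rw [h.map_conj w hw, hφ]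
  scal_ne := h.scal_ne

variable [FiniteDimensional ℚ_[p] K] [Normal ℚ_[p] K] {z : PadicAlgCl p} {e : ℕ}
  (hz : IsUnif (layer K h.ker) z e)

include hz in
theorem leadCoeff_mul [CharP k p] {m : ℕ} (hall : ∀ w ∈ W, ‖w z - z‖ ≤ ‖z‖ ^ m) {v w : GalQp p}
    (hv : v ∈ W) (hw : w ∈ W) :
    leadCoeff z m (v * w) = leadCoeff z m v + leadCoeff z m w :=
  (hz.leadCoeff_mul (h.le_inertia hv) (h.tameChar_eq_one hz hv)
    (h.stable hz (h.le_inertia hw) hz.mem) (hall v hv) (hall w hw)).2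

include hz in
theorem leadCoeff_one [CharP k p] {m : ℕ} (hall : ∀ w ∈ W, ‖w z - z‖ ≤ ‖z‖ ^ m) :
    leadCoeff z m 1 = 0 := by
  have := h.leadCoeff_mul hz hall (one_mem W) (one_mem W)
  rwa [mul_one, left_eq_add] at this

include hz in
theorem leadCoeff_inv [CharP k p] {m : ℕ} (hall : ∀ w ∈ W, ‖w z - z‖ ≤ ‖z‖ ^ m) {w : GalQp p}
    (hw : w ∈ W) : leadCoeff z m w⁻¹ = -leadCoeff z m w := by
  refine eq_neg_of_add_eq_zero_left ?_
  rw [← h.leadCoeff_mul hz hall (inv_mem hw) hw, inv_mul_cancel, h.leadCoeff_one hz hall]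

include hz in
/-- All jumps equal the unique possible one. -/
theorem single_jump [CharP k p] [Finite k] (hRB : RamBound K) {t₀ : ℕ} (hj : h.JumpUnique t₀)
    {w : GalQp p} (hw : w ∈ W) (hnw : n w ≠ 0) : ‖w z - z‖ = ‖z‖ ^ (t₀ + 1) := by
  classical
  obtain ⟨-, hall, -⟩ := h.exists_jump_eq hz hRB ⟨w, hw, hnw⟩ hj
  by_contra hne
  have hlt : ‖w z - z‖ < ‖z‖ ^ (t₀ + 1) := lt_of_le_of_ne (hall w hw) hne
  set κ := Subfield.closure ({ξ} : Set k) with hκ
  obtain ⟨φ, hφ⟩ : ∃ φ : B →ₗ[κ] κ, φ (n w) ≠ 0 := by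
    by_contra hcon
    push Not at hcon
    exact hnw ((Module.forall_dual_apply_eq_zero_iff κ (n w)).mp hcon)
  let φk : B →+ k := (κ.subtype : κ →+ k).comp φ.toAddMonoidHom
  have hφξ : ∀ b, φk (ξ • b) = ξ • φk b := fun b => by
    show ((φ ((⟨ξ, Subfield.subset_closure (Set.mem_singleton ξ)⟩ : κ) • b) : κ) : k) = _
    rw [map_smul]
    rfl
  have h2 := h.comp φk hφξ
  set n2 : GalQp p → k := fun g => φk (n g) with hn2
  -- the small elements
  let N : Set k := {x | ∃ a ∈ W, leadCoeff z (t₀ + 1) a = 0 ∧ n2 a = x}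
  have hN0 : (0 : k) ∈ N := ⟨1, one_mem W, h.leadCoeff_one hz hall, h2.map_one⟩
  have hNadd : ∀ x ∈ N, ∀ y ∈ N, x + y ∈ N := by
    rintro x ⟨a, ha, ha0, rfl⟩ y ⟨b, hb, hb0, rfl⟩
    exact ⟨a * b, mul_mem ha hb, by rw [h.leadCoeff_mul hz hall ha hb, ha0, hb0, add_zero],
      h2.map_mul a ha b hb⟩
  have hNneg : ∀ x ∈ N, -x ∈ N := by
    rintro x ⟨a, ha, ha0, rfl⟩
    exact ⟨a⁻¹, inv_mem ha, by rw [h.leadCoeff_inv hz hall ha, ha0, neg_zero], h2.map_inv ha⟩
  have hNξ : ∀ x ∈ N, ξ • x ∈ N := by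
    rintro x ⟨a, ha, ha0, rfl⟩
    have ha' := h.normal _ h.tau_mem a ha
    refine ⟨_, ha', ?_, h2.map_conj a ha⟩
    rw [leadCoeff_eq_zero_iff hz.ne_zero (hall _ ha'),
      hz.norm_conj_apply_sub (layer_le K h.ker) (layer_antitone K h.ker_le) (h.le_inertia ha)
        (h.stable hz (inv_mem h.tau_mem) hz.mem)]
    exact (leadCoeff_eq_zero_iff hz.ne_zero (hall _ ha)).mp ha0
  have hNκ : ∀ x : κ, (x : k) ∈ N := by
    intro x
    have hwN : ((φ (n w) : κ) : k) ∈ N :=
      ⟨w, hw, (leadCoeff_eq_zero_iff hz.ne_zero (hall w hw)).mpr hlt, rfl⟩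
    have := smul_mem_of_mem_closure hN0 hNadd hNneg hNξ (x / φ (n w)).2 _ hwN
    rwa [smul_eq_mul, ← MulMemClass.coe_mul, div_mul_cancel₀ x hφ] at this
  -- the smaller layer
  have hKJ : h.ker ≤ h2.ker := fun g hg =>
    ⟨hg.1, show φk (n g) = 0 by rw [hg.2, _root_.map_zero]⟩
  have hEle : layer K h2.ker ≤ layer K h.ker := layer_antitone K hKJ
  obtain ⟨z₂, e₂, hz₂⟩ := exists_isUnif (layer K h2.ker)
  obtain ⟨-, -, v, hv, hvd⟩ := h2.exists_jump_eq hz₂ hRB
    ⟨w, hw, fun h0 => hφ (Subtype.ext h0)⟩ (t₀ := t₀) hj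
  obtain ⟨a, ha, ha0, hav⟩ := hNκ (φ (n v))
  have haC : v⁻¹ * a ∈ h2.ker := ⟨mul_mem (inv_mem hv) ha, by
    rw [h2.map_mul _ (inv_mem hv) _ ha, h2.map_inv hv, hav]
    exact neg_add_cancel _⟩
  have hav2 : a z₂ = v z₂ := by
    have h1 := (mem_layer_iff.mp hz₂.mem).2 _ haC
    conv_rhs => rw [← h1]
    rw [AlgEquiv.mul_apply]
    exact (v.apply_symm_apply _).symm
  set S₂ := conjFinset (inertiaQp p) z₂
  set C := conjFinset h2.ker z with hC
  have hEK := layer_le K h.ker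
  have hF := layer_antitone K h.ker_le
  have hcard : e = e₂ * C.card := by
    rw [← hz.card_conjFinset hEK hF,
      ← hz₂.card_conjFinset (layer_le K h2.ker) (layer_antitone K h2.ker_le)]
    refine card_conjFinset_mul h2.ker_le (fun g hg hgz => hKJ ((h.apply_eq_iff hz hg).mp hgz))
      (fun g => g z₂) (fun g hg g' hg' => ?_) _ (fun x => mem_conjFinset _ _)
    rw [← h2.apply_eq_iff hz₂ (mul_mem (inv_mem hg) hg'), AlgEquiv.mul_apply]
    exact ⟨fun heq => by rw [← heq]; exact g.symm_apply_apply _, fun heq => by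
      conv_lhs => rw [← heq]
      exact g.apply_symm_apply _⟩
  have hnorm : ‖z₂‖ = ‖z‖ ^ C.card := by
    refine (pow_left_inj₀ (norm_nonneg _) (pow_nonneg (norm_nonneg _) _) hz₂.e_pos.ne').mp ?_
    rw [hz₂.pow_eq, ← pow_mul, mul_comm, ← hcard, hz.pow_eq]
  have hdist : ‖a z₂ - z₂‖ ≤ ∏ y ∈ C, ‖z - a y‖ :=
    hz.norm_sub_le_prod hEK hF h2.ker_le hz₂ hEle (h.le_inertia ha)
  have haker : ∀ c ∈ h2.ker, a * c ∉ h.ker := by
    intro c hc hac
    have h1 := hKJ hac
    have h3 : a ∈ h2.ker := by simpa using mul_mem h1 (inv_mem hc)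
    have h4 : n2 v = 0 := by rw [show n2 v = n2 a from hav.symm]; exact h3.2
    rw [(h2.apply_eq_iff hz₂ (h.le_inertia hv)).mpr ⟨hv, h4⟩, sub_self, norm_zero] at hvd
    exact (pow_pos hz₂.pos _).ne hvd
  have hprod : ∏ y ∈ C, ‖z - a y‖ < ‖z₂‖ ^ (t₀ + 1) := by
    rw [hnorm, ← pow_mul, mul_comm, pow_mul, ← Finset.prod_const]
    refine Finset.prod_lt_prod (fun y hy => ?_) (fun y hy => ?_)
      ⟨z, self_mem_conjFinset _ z, ?_⟩
    · obtain ⟨c, hc, rfl⟩ := (mem_conjFinset h2.ker z).mp hy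
      rw [norm_pos_iff, sub_ne_zero]
      exact fun heq => haker c hc ((h.apply_eq_iff hz
        (mul_mem (h.le_inertia ha) (h2.ker_le hc))).mp heq.symm)
    · obtain ⟨c, hc, rfl⟩ := (mem_conjFinset h2.ker z).mp hy
      rw [norm_sub_rev]
      exact hall (a * c) (mul_mem ha hc.1)
    · rw [norm_sub_rev]
      exact (leadCoeff_eq_zero_iff hz.ne_zero (hall _ ha)).mp ha0
  rw [hav2, hvd] at hdist
  exact absurd hdist (not_le.mpr hprod)

end EigenData

end Fermat.Agent.TW
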