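/-
Equivariant homomorphisms on wild inertia with a single jump span at most a line.
-/
import Fermat.Agent.TW.LocalFlatSingle
import Mathlib.LinearAlgebra.Finsupp.LinearCombination
import Mathlib.FieldTheory.Minpoly.Basic

set_option autoImplicit false
set_option maxHeartbeats 400000

noncomputable section

open Polynomial

namespace Fermat.Agent.TW.EigenData

variable {p : ℕ} [Fact p.Prime]
  {K : IntermediateField ℚ_[p] (PadicAlgCl p)} {W : Subgroup (GalQp p)} {τ : GalQp p}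
  {e0 : ℕ} {k B : Type} [Field k] [AddCommGroup B] [Module k B] {ξ : k} {n : GalQp p → B}

/-- Every element of the field of `ξ` is a polynomial in `ξ`. -/
theorem exists_eval₂_eq [Finite k] [CharP k p] {c : k} (hc : c ∈ Subfield.closure {ξ}) :
    ∃ P : (ZMod p)[X], P.eval₂ (ZMod.castHom dvd_rfl k) ξ = c := by
  have h := smul_mem_of_mem_closure (N := Set.range fun P : (ZMod p)[X] =>
    P.eval₂ (ZMod.castHom dvd_rfl k) ξ) ⟨0, eval₂_zero _ _⟩
    (by rintro _ ⟨P, rfl⟩ _ ⟨Q, rfl⟩; exact ⟨P + Q, eval₂_add _ _⟩)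
    (by rintro _ ⟨P, rfl⟩; exact ⟨-P, eval₂_neg _⟩)
    (by rintro _ ⟨P, rfl⟩; exact ⟨P * X, by simp [mul_comm]⟩) hc 1 ⟨1, eval₂_one _ _⟩
  rwa [smul_eq_mul, mul_one] at h

/-- A homomorphism with a single jump which turns Frobenius into a scalar spans at most a line. -/
theorem exists_mem_span [FiniteDimensional ℚ_[p] K] [Normal ℚ_[p] K] [CharP k p] [Finite k]
    (h : EigenData K W τ e0 ξ n) (hRB : RamBound K) {t₀ : ℕ}
    (hj : h.JumpUnique t₀) {Q : ℕ} (hQ1 : 1 < Q)
    (hQ : Q ≤ Nat.card (Subfield.closure ({ξ} : Set k))) {F : GalQp p}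
    (hFres : ∀ x : intQp p, resid p (F • x) = resid p x ^ Q)
    (hFW : ∀ w ∈ W, F * w * F⁻¹ ∈ W) {γ : k}
    (hFn : ∀ w ∈ W, n (F * w * F⁻¹) = γ • n w) : ∃ b : B, ∀ w ∈ W, n w ∈ k ∙ b := by
  classical
  by_cases hex : ∃ w ∈ W, n w ≠ 0
  swap
  · push Not at hex
    exact ⟨0, fun w hw => by simp [hex w hw]⟩
  obtain ⟨w₀, hw₀, hn₀⟩ := hex
  refine ⟨n w₀, ?_⟩
  obtain ⟨z, e, hz⟩ := exists_isUnif (layer K h.ker)
  obtain ⟨ht, hall, -⟩ := h.exists_jump_eq hz hRB ⟨w₀, hw₀, hn₀⟩ hj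
  have hFstab : ∀ x ∈ layer K h.ker, F⁻¹ x ∈ layer K h.ker := fun x hx =>
    smul_mem_layer_of_normalizes (fun j hj' => by
      rw [inv_inv]
      exact ⟨hFW j hj'.1, by rw [hFn j hj'.1, hj'.2, smul_zero]⟩) hx
  set θ := tameChar p z F ^ t₀ with hθ
  have hθ0 : θ ≠ 0 := pow_ne_zero _ (tameChar_ne_zero p hz.ne_zero F)
  set ν : GalQp p → resQp p := fun w => leadCoeff z (t₀ + 1) w with hν
  have hνF : ∀ w ∈ W, ν (F * w * F⁻¹) = θ * ν w ^ Q := fun w hw => by
    simp only [hν]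
    rw [(hz.leadCoeff_conj (layer_le K h.ker) (layer_antitone K h.ker_le) ht (h.le_inertia hw)
      (hFstab z hz.mem) (hall w hw)).2, hFres, leadCoeff_eq hz.ne_zero (hall w hw)]
  have hiter : ∀ i : ℕ, ∃ c : resQp p, c ≠ 0 ∧ ∀ w ∈ W, ∃ w' ∈ W,
      n w' = γ ^ i • n w ∧ ν w' = c * ν w ^ Q ^ i := by
    intro i
    induction i with
    | zero => exact ⟨1, one_ne_zero, fun w hw => ⟨w, hw, by simp, by simp⟩⟩
    | succ i ih =>
      obtain ⟨c, hc, hi⟩ := ih
      refine ⟨θ * c ^ Q, mul_ne_zero hθ0 (pow_ne_zero _ hc), fun w hw => ?_⟩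
      obtain ⟨w', hw', h1, h2⟩ := hi w hw
      exact ⟨_, hFW w' hw', by rw [hFn w' hw', h1, smul_smul, pow_succ'],
        by rw [hνF w' hw', h2, mul_pow, ← pow_mul, ← pow_succ, mul_assoc]⟩
  choose c hc hcw using hiter
  -- the polynomial killing the leading coefficients
  set κ := Subfield.closure ({ξ} : Set k) with hκ
  have hint : IsIntegral κ γ := IsIntegral.of_finite _ _
  set P := minpoly κ γ with hP
  set d := P.natDegree with hd
  choose R hR using fun i : ℕ => exists_eval₂_eq (p := p) (P.coeff i).2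
  set R' : ℕ → (ZMod p)[X] := fun i => if i = d then 1 else R i with hR'
  have hR'k : ∀ i, (R' i).eval₂ (ZMod.castHom dvd_rfl k) ξ = (P.coeff i : k) := by
    intro i
    by_cases hi : i = d
    · simp only [hR', if_pos hi, eval₂_one]
      rw [hi, hd, hP, (minpoly.monic hint).coeff_natDegree]
      rfl
    · simp only [hR', if_neg hi, hR]
  set b : ℕ → resQp p := fun i =>
    (R' i).eval₂ (ZMod.castHom dvd_rfl (resQp p)) (tameChar p z τ ^ t₀) * c i with hb
  have hcomb : ∀ w ∈ W, ∀ m : ℕ, ∃ w' ∈ W,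
      n w' = (∑ i ∈ Finset.range m, (P.coeff i : k) * γ ^ i) • n w ∧
        ν w' = ∑ i ∈ Finset.range m, b i * ν w ^ Q ^ i := by
    intro w hw m
    induction m with
    | zero => exact ⟨1, one_mem W, by simp [h.map_one], by simp [hν, h.leadCoeff_one hz hall]⟩
    | succ m ih =>
      obtain ⟨v, hv, hv1, hv2⟩ := ih
      obtain ⟨u, hu, hu1, hu2⟩ := hcw m w hw
      obtain ⟨u', hu', hu1', hu2'⟩ := h.exists_eval₂ hz ht hall (R' m) u hu
      refine ⟨v * u', mul_mem hv hu', ?_, ?_⟩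
      · rw [h.map_mul v hv u' hu', hv1, hu1', hu1, smul_smul, ← add_smul, hR'k,
          Finset.sum_range_succ]
      · simp only [hν] at hv2 hu2 hu2' ⊢
        rw [h.leadCoeff_mul hz hall hv hu', hv2, hu2', hu2, Finset.sum_range_succ]
        simp only [hb]
        ring
  set S : (resQp p)[X] := ∑ i ∈ Finset.range (d + 1), C (b i) * X ^ Q ^ i with hS
  have hSdeg : S.natDegree ≤ Q ^ d := natDegree_sum_le_of_forall_le _ _ fun i hi =>
    (natDegree_C_mul_X_pow_le _ _).trans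
      (Nat.pow_le_pow_right (by omega) (by rw [Finset.mem_range] at hi; omega))
  have hSne : S ≠ 0 := by
    intro h0
    have h1 := congrArg (fun f : (resQp p)[X] => f.coeff (Q ^ d)) h0
    simp only [hS, finsetSum_coeff, coeff_C_mul_X_pow, coeff_zero] at h1
    rw [Finset.sum_eq_single_of_mem d (by simp)] at h1
    · rw [if_pos rfl] at h1
      simp only [hb, hR', if_pos, eval₂_one, one_mul] at h1
      exact hc d h1
    · intro i _ hid
      rw [if_neg fun he => hid (Nat.pow_right_injective hQ1 he).symm]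
  have hroot : ∀ w ∈ W, ν w ∈ S.roots.toFinset := by
    intro w hw
    obtain ⟨w', hw', h1, h2⟩ := hcomb w hw (d + 1)
    have hzero : (∑ i ∈ Finset.range (d + 1), (P.coeff i : k) * γ ^ i) = 0 := by
      have h3 := minpoly.aeval κ γ
      rw [aeval_eq_sum_range, ← hd] at h3
      exact h3
    rw [hzero, zero_smul] at h1
    have h4 : ν w' = 0 := by
      simp only [hν]
      rw [leadCoeff_eq_zero_iff hz.ne_zero (hall w' hw'),
        (h.apply_eq_iff hz (h.le_inertia hw')).mpr ⟨hw', h1⟩, sub_self, norm_zero]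
      exact pow_pos hz.pos _
    rw [Multiset.mem_toFinset, mem_roots hSne, IsRoot.def, hS, eval_finsetSum]
    simpa [h4] using h2.symm
  have hinj : ∀ v ∈ W, ∀ w ∈ W, ν v = ν w → n v = n w := by
    intro v hv w hw heq
    by_contra hne
    have hvw := mul_mem (inv_mem hv) hw
    have hnne : n (v⁻¹ * w) ≠ 0 := by
      rw [h.map_mul _ (inv_mem hv) _ hw, h.map_inv hv, ne_eq, neg_add_eq_zero]
      exact hne
    have h1 : ν (v⁻¹ * w) = 0 := by
      simp only [hν] at heq ⊢
      rw [h.leadCoeff_mul hz hall (inv_mem hv) hw, h.leadCoeff_inv hz hall hv, heq,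
        neg_add_cancel]
    exact ((leadCoeff_eq_zero_iff hz.ne_zero (hall _ hvw)).mp h1).ne
      (h.single_jump hz hRB hj hvw hnne)
  -- the multiples of one value
  set N : Set B := {x | ∃ w ∈ W, n w = x} with hN
  have hN0 : (0 : B) ∈ N := ⟨1, one_mem W, h.map_one⟩
  have hNadd : ∀ x ∈ N, ∀ y ∈ N, x + y ∈ N := by
    rintro _ ⟨v, hv, rfl⟩ _ ⟨w, hw, rfl⟩
    exact ⟨v * w, mul_mem hv hw, h.map_mul v hv w hw⟩
  have hNneg : ∀ x ∈ N, -x ∈ N := by
    rintro _ ⟨w, hw, rfl⟩
    exact ⟨w⁻¹, inv_mem hw, h.map_inv hw⟩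
  have hNξ : ∀ x ∈ N, ξ • x ∈ N := by
    rintro _ ⟨w, hw, rfl⟩
    exact ⟨_, h.normal _ h.tau_mem w hw, h.map_conj w hw⟩
  set ι : (Fin d → κ) → B := fun a => (∑ i, (a i : k) * γ ^ (i : ℕ)) • n w₀ with hι
  have hιN : ∀ a, ι a ∈ N := by
    intro a
    simp only [hι, Finset.sum_smul]
    refine Finset.sum_induction _ (· ∈ N) (fun x y hx hy => hNadd x hx y hy) hN0 fun i _ => ?_
    rw [mul_smul]
    obtain ⟨w', hw', h1, -⟩ := hcw i w₀ hw₀
    exact smul_mem_of_mem_closure hN0 hNadd hNneg hNξ (a i).2 _ ⟨w', hw', h1⟩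
  have hιinj : Function.Injective ι := by
    intro a a' heq
    have h1 : (∑ i, (a i : k) * γ ^ (i : ℕ)) = ∑ i, (a' i : k) * γ ^ (i : ℕ) :=
      smul_left_injective k hn₀ heq
    have hli := linearIndependent_pow (K := κ) γ
    have h2 := Fintype.linearIndependent_iff.mp hli (fun i => a i - a' i) (by
      simp only [sub_smul, Finset.sum_sub_distrib, Subfield.smul_def, smul_eq_mul]
      exact sub_eq_zero.mpr h1)
    exact funext fun i => sub_eq_zero.mp (h2 i)
  haveI := Fintype.ofFinite κ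
  choose g hgW hgn using hιN
  have hsurj := Finset.surjOn_of_injOn_of_card_le (s := (Finset.univ : Finset (Fin d → κ)))
    (t := S.roots.toFinset) (fun a => ν (g a))
    (fun a _ => hroot _ (hgW a))
    (fun a _ a' _ heq => hιinj (by rw [← hgn a, ← hgn a']; exact hinj _ (hgW a) _ (hgW a') heq))
    (by
      refine ((Multiset.toFinset_card_le _).trans (card_roots' _)).trans (hSdeg.trans ?_)
      rw [Finset.card_univ, Fintype.card_fun, Fintype.card_fin, ← Nat.card_eq_fintype_card]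
      exact Nat.pow_le_pow_left hQ d)
  intro w hw
  obtain ⟨a, -, ha⟩ := hsurj (hroot w hw)
  rw [← hinj _ (hgW a) w hw ha, hgn a]
  exact Submodule.smul_mem _ _ (Submodule.mem_span_singleton_self _)

end Fermat.Agent.TW.EigenData
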