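/-
The field of points of a pair of flat cocycles, and the numerical consequences of the jump
analysis.
-/
import Fermat.Agent.TW.LocalFlatEigen
import Fermat.Agent.TW.LocalFlatBaer
import Fermat.Agent.TW.LocalRamBound

set_option autoImplicit false
set_option maxHeartbeats 400000

noncomputable section

namespace Fermat.Agent.TW

variable {p : ℕ} [Fact p.Prime]

/-- An action of finite level on a model has a field of points. -/
theorem LocalModel.exists_pointField {V : Type*} [AddCommGroup V] {act : GalQp p → V → V}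
    (M : LocalModel p V act) (E : IntermediateField ℚ_[p] (PadicAlgCl p))
    [FiniteDimensional ℚ_[p] E] (hE : ∀ s ∈ E.fixingSubgroup, ∀ v, act s v = v) :
    ∃ K : IntermediateField ℚ_[p] (PadicAlgCl p), FiniteDimensional ℚ_[p] K ∧
      Normal ℚ_[p] K ∧ ∀ g : GalQp p, (∀ v, act g v = v) ↔ g ∈ K.fixingSubgroup := by
  let H : Subgroup (GalQp p) :=
    { carrier := {g | ∀ v, act g v = v}
      one_mem' := fun v => M.act_one v
      mul_mem' := fun {a b} ha hb v => by rw [M.act_mul, hb, ha]
      inv_mem' := fun {a} ha v => by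
        conv_lhs => rw [← ha v]
        rw [← M.act_mul, inv_mul_cancel, M.act_one] }
  haveI hN : H.Normal := ⟨fun a ha g v => by
    rw [M.act_mul, M.act_mul, ha, ← M.act_mul, mul_inv_cancel, M.act_one]⟩
  have hle : E.fixingSubgroup ≤ H := hE
  have hclosed : IsClosed (H : Set (GalQp p)) :=
    OpenSubgroup.isClosed ⟨H, Subgroup.isOpen_mono hle E.fixingSubgroup_isOpen⟩
  set K := IntermediateField.fixedField H with hK
  have hfix : K.fixingSubgroup = H := InfiniteGalois.fixingSubgroup_fixedField ⟨H, hclosed⟩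
  haveI : IsGalois ℚ_[p] (PadicAlgCl p) := inferInstance
  have hKE : K ≤ E := by
    rw [← InfiniteGalois.fixedField_fixingSubgroup E]
    exact fun x hx g => hx ⟨g.1, hle g.2⟩
  haveI hfd : FiniteDimensional ℚ_[p] K :=
    FiniteDimensional.of_injective (IntermediateField.inclusion hKE).toLinearMap
      (IntermediateField.inclusion_injective hKE)
  have hgal : IsGalois ℚ_[p] K := by
    rw [← InfiniteGalois.normal_iff_isGalois, hfix]
    exact hN
  exact ⟨K, hfd, hgal.to_normal, fun g => by rw [hfix]; rfl⟩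

section Pair

variable {k : Type} [Field k] [Finite k] [CharP k p] {r : GalQp p →* Matrix (Fin 2) (Fin 2) k}

/-- A field with the ramification bound containing the levels of two flat cocycles. -/
theorem exists_ramBound_field (hfin : IsFiniteLevel p r)
    {c₁ c₂ : GalQp p → Matrix (Fin 2) (Fin 2) k} (h₁ : IsFlatCocycle r c₁)
    (h₂ : IsFlatCocycle r c₂) :
    ∃ K : IntermediateField ℚ_[p] (PadicAlgCl p), FiniteDimensional ℚ_[p] K ∧
      Normal ℚ_[p] K ∧ RamBound K ∧
      ∀ g ∈ K.fixingSubgroup, r g = 1 ∧ c₁ g = 0 ∧ c₂ g = 0 := by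
  haveI := Fintype.ofFinite k
  obtain ⟨E₀, hE₀, hr₀⟩ := hfin
  obtain ⟨E₁, hE₁, hc₁⟩ := h₁.1.2
  obtain ⟨E₂, hE₂, hc₂⟩ := h₂.1.2
  haveI := hE₀
  haveI := hE₁
  haveI := hE₂
  have hone : ∀ {c : GalQp p → Matrix (Fin 2) (Fin 2) k}, c ∈ adCocycles r → c 1 = 0 :=
    fun hc => LocalCondB.cocycle_map_one hc
  have htriv : ∀ s ∈ (E₀ ⊔ E₁ ⊔ E₂).fixingSubgroup,
      r s = 1 ∧ c₁ s = 0 ∧ c₂ s = 0 := by
    intro s hs
    have h0 := hr₀ 1 s (IntermediateField.fixingSubgroup_antitone (le_sup_left.trans le_sup_left) hs)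
    have h1 := hc₁ 1 s (IntermediateField.fixingSubgroup_antitone (le_sup_right.trans le_sup_left) hs)
    have h2 := hc₂ 1 s (IntermediateField.fixingSubgroup_antitone le_sup_right hs)
    rw [one_mul] at h0 h1 h2
    exact ⟨by rw [h0, map_one], by rw [h1, hone h₁.1.1], by rw [h2, hone h₂.1.1]⟩
  obtain ⟨M⟩ := h₁.2.prod_mk p h₂.2
  obtain ⟨K, hK1, hK2, hK3⟩ := M.exists_pointField (E₀ ⊔ E₁ ⊔ E₂) fun s hs v => by
    obtain ⟨a, b, c⟩ := htriv s hs
    simp [liftAct_apply, a, b, c]
  refine ⟨K, hK1, hK2, M.ramBound_of_pointField (fun v => by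
    obtain ⟨⟨a, b⟩, c, d⟩ := v
    simp [nsmul_eq_zero_of_charP (k := k)]) hK3, fun g hg => ?_⟩
  have hgv := (hK3 g).mpr hg
  have hr : r g = 1 := Matrix.ext_of_mulVec_single fun i => by
    have := congrArg (fun z => z.1.1) (hgv ((Pi.single i 1, 0), 0))
    simp only [liftAct_apply] at this
    rw [Matrix.one_mulVec]
    exact this
  refine ⟨hr, ?_, ?_⟩
  · refine Matrix.ext_of_mulVec_single fun i => ?_
    have := congrArg (fun z => z.1.2) (hgv ((Pi.single i 1, 0), 0))
    simp only [liftAct_apply, hr, Matrix.one_mulVec, zero_add] at this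
    rw [Matrix.zero_mulVec]
    exact this
  · refine Matrix.ext_of_mulVec_single fun i => ?_
    have := congrArg (fun z => z.2.2) (hgv (0, (Pi.single i 1, 0)))
    simp only [liftAct_apply, hr, Matrix.one_mulVec, zero_add] at this
    rw [Matrix.zero_mulVec]
    exact this

end Pair

/-- The field of any element contains the prime field. -/
theorem prime_le_natCard_closure {k : Type} [Field k] [Finite k] [CharP k p] (ξ : k) :
    p ≤ Nat.card (Subfield.closure ({ξ} : Set k)) := by
  haveI : NeZero p := ⟨(Fact.out : p.Prime).ne_zero⟩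
  have hinj : Function.Injective fun a : ZMod p =>
      (⟨ZMod.castHom dvd_rfl k a, by
        rw [ZMod.castHom_apply, ← ZMod.natCast_val]
        exact natCast_mem _ _⟩ : Subfield.closure ({ξ} : Set k)) := fun a b h =>
    (ZMod.castHom dvd_rfl k).injective (congrArg Subtype.val h)
  simpa using Nat.card_le_card_of_injective _ hinj

/-- An element outside the prime field has a field with at least `p²` elements. -/
theorem prime_sq_le_natCard_closure {k : Type} [Field k] [Finite k] [CharP k p] {ξ : k}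
    (hξ : ξ ^ p ≠ ξ) : p ^ 2 ≤ Nat.card (Subfield.closure ({ξ} : Set k)) := by
  haveI := Fintype.ofFinite (Subfield.closure ({ξ} : Set k))
  haveI : CharP (Subfield.closure ({ξ} : Set k)) p :=
    (RingHom.charP_iff_charP (Subfield.closure ({ξ} : Set k)).subtype p).mpr ‹CharP k p›
  obtain ⟨m, -, hm⟩ := FiniteField.card (Subfield.closure ({ξ} : Set k)) p
  rw [Nat.card_eq_fintype_card, hm]
  refine Nat.pow_le_pow_right (Fact.out : p.Prime).pos ?_
  by_contra hlt
  refine hξ ?_
  have h1 := FiniteField.pow_card (⟨ξ, Subfield.subset_closure rfl⟩ : Subfield.closure ({ξ} : Set k))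
  rw [hm, show (m : ℕ) = 1 by have := m.pos; omega, pow_one] at h1
  exact congrArg Subtype.val h1

namespace EigenData

variable {K : IntermediateField ℚ_[p] (PadicAlgCl p)} [FiniteDimensional ℚ_[p] K]
  [Normal ℚ_[p] K] {W : Subgroup (GalQp p)} {τ : GalQp p} {e0 : ℕ} {k B : Type} [Field k]
  [Finite k] [CharP k p] [AddCommGroup B] [Module k B] {ξ : k} {n : GalQp p → B}
  (h : EigenData K W τ e0 ξ n)

include h in
/-- An eigenvalue of small order forces the homomorphism to vanish. -/
theorem eq_zero_of_orderOf_lt (hRB : RamBound K) (hξ : orderOf ξ < p - 1) :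
    ∀ w ∈ W, n w = 0 := by
  intro w hw
  by_contra hne
  obtain ⟨z, e, hz⟩ := exists_isUnif (layer K h.ker)
  obtain ⟨t, ht, hle, hall, hex⟩ := h.exists_jump hz hRB ⟨w, hw, hne⟩
  have ho := h.orderOf_eq hz ht hall hex
  rw [orderOf_pow' _ (by omega), h.orderOf_tameChar hz] at ho
  have hg : e0 = Nat.gcd e0 t * orderOf ξ := by
    rw [← ho, Nat.mul_div_cancel' (Nat.gcd_dvd_left e0 t)]
  have hgt : Nat.gcd e0 t ≤ t := Nat.le_of_dvd (by omega) (Nat.gcd_dvd_right e0 t)
  have hgpos : 0 < Nat.gcd e0 t := Nat.gcd_pos_of_pos_left t h.pos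
  have h2 : (p - 1) * Nat.gcd e0 t ≤ orderOf ξ * Nat.gcd e0 t :=
    (Nat.mul_le_mul_left _ hgt).trans (hle.trans (by rw [mul_comm]; exact hg.le))
  have := Nat.le_of_mul_le_mul_right h2 hgpos
  omega

omit [FiniteDimensional ℚ_[p] K] [Normal ℚ_[p] K] [Finite k] [CharP k p] in
/-- At most `p + 1` for the order of the eigenvalue determines the jump. -/
theorem jumpUnique (hp2 : p ≠ 2) (hξ : orderOf ξ ≤ p + 1) :
    h.JumpUnique (e0 / orderOf ξ) := by
  intro t ht hle ho
  have hg : e0 = Nat.gcd e0 t * orderOf ξ := by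
    rw [← ho, Nat.mul_div_cancel' (Nat.gcd_dvd_left e0 t)]
  obtain ⟨j, hj⟩ := Nat.gcd_dvd_right e0 t
  set g := Nat.gcd e0 t with hgdef
  set m := orderOf ξ with hm
  have hgpos : 0 < g := Nat.gcd_pos_of_pos_left t h.pos
  have hmpos : 0 < m := by
    rcases Nat.eq_zero_or_pos m with h0 | h0
    · rw [h0, mul_zero] at hg; exact absurd hg h.pos.ne'
    · exact h0
  rw [hg, Nat.mul_div_assoc g dvd_rfl, Nat.div_self hmpos, mul_one]
  have hp3 : 3 ≤ p := by have := (Fact.out : p.Prime).two_le; omega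
  have h2 : (p - 1) * j ≤ m := by
    refine Nat.le_of_mul_le_mul_left ?_ hgpos
    calc g * ((p - 1) * j) = (p - 1) * (g * j) := by ring
      _ = (p - 1) * t := by rw [← hj]
      _ ≤ e0 := hle
      _ = g * m := hg
  have hj2 : j = 0 ∨ j = 1 ∨ j = 2 := by
    by_contra hcon
    have : (p - 1) * 3 ≤ (p - 1) * j := Nat.mul_le_mul_left _ (by omega)
    omega
  rcases hj2 with rfl | rfl | rfl
  · omega
  · rw [hj, mul_one]
  · exfalso
    have hp : p = 3 := by omega
    have hm4 : m = 4 := by subst hp; omega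
    have h4 : Nat.gcd (g * 4) (g * 2) = g := by rw [← hm4, ← hg, ← hj]
    rw [Nat.gcd_mul_left] at h4
    norm_num at h4
    omega

end EigenData

end Fermat.Agent.TW
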