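/-
The shape of a residual representation at `p` without stable line: tame, diagonal on inertia with
Frobenius exchanging the two eigenlines.
-/
import Fermat.Agent.TW.LocalFlatLayer
import Fermat.Agent.TW.LocalFlatShape
import Fermat.Agent.TW.LocalCondBTame
import Mathlib.GroupTheory.PGroup
import Mathlib.LinearAlgebra.Matrix.Charpoly.Basic

set_option autoImplicit false
set_option maxHeartbeats 400000

noncomputable section

open Polynomial

namespace Fermat.Agent.TW

variable {p : ℕ} [Fact p.Prime] {k : Type} [Field k] [Finite k] [CharP k p]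
  {r : GalQp p →* Matrix (Fin 2) (Fin 2) k}

/-- Without stable line the tame part gives all of the image of inertia, with Frobenius acting
by the `p`-th power. -/
theorem exists_tame_of_irreducible (hfin : IsFiniteLevel p r)
    (hirr : ∀ v : Fin 2 → k, v ≠ 0 → ∃ g, (r g).mulVec v ∉ k ∙ v) :
    ∃ τ ∈ inertiaQp p, (∀ s ∈ inertiaQp p, ∃ n : ℕ, r s = r τ ^ n) ∧
      (∀ φ : GalQp p, (∀ x : intQp p, resid p (φ • x) = resid p x ^ p) →
        r (φ * τ * φ⁻¹) = r τ ^ p) ∧
      ∃ N : ℕ, 0 < N ∧ N.Coprime p ∧ r τ ^ N = 1 := by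
  classical
  have hp : p.Prime := Fact.out
  obtain ⟨E, hE, hEr⟩ := hfin
  have := hE
  set K := IntermediateField.normalClosure ℚ_[p] E (PadicAlgCl p)
  have : FiniteDimensional ℚ_[p] K := normalClosure.is_finiteDimensional _ _ _
  have : Normal ℚ_[p] K := normalClosure.normal _ _ _
  have hK : ∀ g ∈ K.fixingSubgroup, r g = 1 := fun g hg => by
    simpa using hEr 1 g (IntermediateField.fixingSubgroup_antitone E.le_normalClosure hg)
  obtain ⟨π, hπK, hπ0, hπ⟩ := exists_norm_generator p K
  -- the wild part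
  let P : Subgroup (GalQp p) :=
    { carrier := {s | ∀ x ∈ K, x ≠ 0 → ‖s x - x‖ < ‖x‖}
      one_mem' := fun x _ hx => by simpa using norm_pos_iff.mpr hx
      mul_mem' := fun {a b} ha hb x hxK hx => by
        rw [AlgEquiv.mul_apply, ← sub_add_sub_cancel (a (b x)) (b x) x]
        refine lt_of_le_of_lt (IsUltrametricDist.norm_add_le_max _ _) (max_lt ?_ (hb x hxK hx))
        have := ha (b x) (smul_mem_of_normal p K b hxK) ((_root_.map_ne_zero b).mpr hx)
        rwa [norm_galQp] at this
      inv_mem' := fun {a} ha x hxK hx => by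
        have h1 := ha (a⁻¹ x) (smul_mem_of_normal p K a⁻¹ hxK) ((_root_.map_ne_zero _).mpr hx)
        rwa [show a (a⁻¹ x) = x from a.apply_symm_apply x, norm_sub_rev, norm_galQp] at h1 }
  have hPnormal : ∀ g, ∀ s ∈ P, g * s * g⁻¹ ∈ P := fun g s hs x hxK hx => by
    have h1 := hs (g⁻¹ x) (smul_mem_of_normal p K g⁻¹ hxK) ((_root_.map_ne_zero _).mpr hx)
    rw [norm_galQp] at h1
    rwa [AlgEquiv.mul_apply, AlgEquiv.mul_apply, ← norm_galQp p g⁻¹, map_sub,
      show g⁻¹ (g (s (g⁻¹ x))) = s (g⁻¹ x) from g.symm_apply_apply _]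
  -- the wild part acts trivially
  have hwild : ∀ s ∈ P, r s = 1 := by
    let U := (r.toHomUnits.comp P.subtype).range
    have hU : IsPGroup p U := by
      rintro ⟨_, s, rfl⟩
      obtain ⟨a, ha⟩ := exists_pow_mem_fixingSubgroup p K s.2
      refine ⟨a, Subtype.ext (Units.ext ?_)⟩
      show r (s : GalQp p) ^ p ^ a = 1
      rw [← map_pow]
      exact hK _ ha
    letI : MulAction U (Fin 2 → k) :=
      { smul := fun u v => ((u : (Matrix (Fin 2) (Fin 2) k)ˣ) : Matrix (Fin 2) (Fin 2) k).mulVec v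
        one_smul := fun v => Matrix.one_mulVec v
        mul_smul := fun u u' v => by
          show (((u * u' : U) : (Matrix (Fin 2) (Fin 2) k)ˣ) : Matrix (Fin 2) (Fin 2) k).mulVec v = _
          rw [Subgroup.coe_mul, Units.val_mul, ← Matrix.mulVec_mulVec]
          rfl }
    haveI := Fintype.ofFinite k
    have hdvd : p ∣ Nat.card (Fin 2 → k) := by
      obtain ⟨n, -, hn⟩ := FiniteField.card k p
      rw [Nat.card_eq_fintype_card, Fintype.card_fun, Fintype.card_fin, hn]
      exact dvd_pow (dvd_pow_self p n.ne_zero) two_ne_zero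
    obtain ⟨v, hvfix, hv0⟩ := hU.exists_fixed_point_of_prime_dvd_card_of_fixed_point (α := Fin 2 → k)
      hdvd (a := 0) fun u => Matrix.mulVec_zero _
    let Fx : Submodule k (Fin 2 → k) :=
      { carrier := {y | ∀ s ∈ P, (r s).mulVec y = y}
        add_mem' := fun {a b} ha hb s hs => by rw [Matrix.mulVec_add, ha s hs, hb s hs]
        zero_mem' := fun s _ => Matrix.mulVec_zero _
        smul_mem' := fun t a ha s hs => by rw [Matrix.mulVec_smul, ha s hs] }
    have hv : v ∈ Fx := fun s hs => hvfix ⟨_, ⟨s, hs⟩, rfl⟩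
    have htop : Fx = ⊤ := by
      by_contra hne
      have h1 : Module.finrank k Fx ≤ 1 := by
        have := Submodule.finrank_lt hne
        rw [Module.finrank_fin_fun] at this
        omega
      have hline : k ∙ v = Fx := by
        refine Submodule.eq_of_le_of_finrank_le
          ((Submodule.span_singleton_le_iff_mem _ _).mpr hv) ?_
        rw [finrank_span_singleton hv0.symm]
        exact h1
      obtain ⟨g, hg⟩ := hirr v hv0.symm
      refine hg ?_
      rw [hline]
      intro s hs
      have h2 := hv _ (by simpa using hPnormal g⁻¹ s hs)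
      rw [map_mul, map_mul, ← Matrix.mulVec_mulVec, ← Matrix.mulVec_mulVec] at h2
      conv_rhs => rw [← h2, Matrix.mulVec_mulVec, ← map_mul, mul_inv_cancel, map_one,
        Matrix.one_mulVec]
    intro s hs
    refine Matrix.ext_of_mulVec_single fun i => ?_
    rw [Matrix.one_mulVec]
    exact (htop ▸ Submodule.mem_top : Pi.single i 1 ∈ Fx) s hs
  -- the exponent
  obtain ⟨hfd, -⟩ := residSubfield_finrank_le p K
  have : Finite (residSubfield p K) := Module.finite_of_finite (ZMod p)
  haveI := Fintype.ofFinite (residSubfield p K)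
  set N := Fintype.card (residSubfield p K) - 1 with hN
  have hcard : 1 < Fintype.card (residSubfield p K) := Fintype.one_lt_card
  have hNpos : 0 < N := by omega
  have hcop : Nat.Coprime p N := by
    have : CharP (residSubfield p K) p :=
      charP_of_injective_algebraMap (algebraMap (ZMod p) (residSubfield p K)).injective p
    obtain ⟨n, -, hn⟩ := FiniteField.card (residSubfield p K) p
    rw [hp.coprime_iff_not_dvd]
    intro hdvd
    have h1 : p ∣ Fintype.card (residSubfield p K) := hn ▸ dvd_pow_self p n.ne_zero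
    have h2 := Nat.dvd_sub h1 hdvd
    rw [show Fintype.card (residSubfield p K) - N = 1 by omega] at h2
    exact hp.one_lt.ne' (Nat.dvd_one.mp h2)
  have hpow : ∀ s ∈ inertiaQp p, r s ^ N = 1 := by
    intro s hs
    rw [← map_pow]
    refine hwild _ fun x hxK hx => ?_
    obtain ⟨m, hm⟩ := hπ x hxK hx
    have h1 : (⟨tameChar p π s, _, div_mem (smul_mem_of_normal p K s hπK) hπK, rfl⟩ :
        residSubfield p K) ^ N = 1 :=
      FiniteField.pow_card_sub_one_eq_one _ fun h =>
        tameChar_ne_zero p hπ0 s (congrArg Subtype.val h)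
    rw [norm_sub_lt_iff_tameChar p hx, tameChar_eq_of_norm_eq p (zpow_ne_zero m hπ0)
      (by rw [hm, norm_zpow]) (pow_mem hs N), tameChar_zpow p hπ0, tameChar_pow hπ0 hs,
      show tameChar p π s ^ N = 1 from congrArg Subtype.val h1, one_zpow]
  obtain ⟨τ, hτ, hgen, hfrob⟩ := exists_tame_generator_of_coprime hcop r K hK hpow
  exact ⟨τ, hτ, hgen, hfrob, N, hNpos, hcop.symm, hpow τ hτ⟩

/-- A common eigenvector of Frobenius and the tame generator is stable. -/
theorem mulVec_mem_span_of_generators (hfin : IsFiniteLevel p r) {φ τ : GalQp p}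
    (hφ : ∀ x : intQp p, resid p (φ • x) = resid p x ^ p)
    (hgen : ∀ s ∈ inertiaQp p, ∃ n : ℕ, r s = r τ ^ n) {v : Fin 2 → k}
    (hvφ : (r φ).mulVec v ∈ k ∙ v) (hvτ : (r τ).mulVec v ∈ k ∙ v) (g : GalQp p) :
    (r g).mulVec v ∈ k ∙ v := by
  obtain ⟨E, hE, hEr⟩ := hfin
  have := hE
  set K := IntermediateField.normalClosure ℚ_[p] E (PadicAlgCl p)
  have : FiniteDimensional ℚ_[p] K := normalClosure.is_finiteDimensional _ _ _
  have : Normal ℚ_[p] K := normalClosure.normal _ _ _
  obtain ⟨m, -, i, hi, h, hh, rfl⟩ := exists_decomposition p K hφ g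
  rw [hEr _ h (IntermediateField.fixingSubgroup_antitone E.le_normalClosure hh)]
  obtain ⟨n, hn⟩ := hgen i hi
  rw [map_mul, hn, map_pow, ← Matrix.mulVec_mulVec]
  have key : ∀ (A : Matrix (Fin 2) (Fin 2) k), A.mulVec v ∈ k ∙ v → ∀ j : ℕ, ∀ y ∈ k ∙ v,
      (A ^ j).mulVec y ∈ k ∙ v := by
    intro A hA j
    induction j with
    | zero => intro y hy; simpa using hy
    | succ j ih =>
      intro y hy
      rw [pow_succ, ← Matrix.mulVec_mulVec]
      obtain ⟨t, rfl⟩ := Submodule.mem_span_singleton.mp hy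
      rw [Matrix.mulVec_smul A]
      exact ih _ (Submodule.smul_mem _ t hA)
  exact key _ hvφ m _ (key _ hvτ n v (Submodule.mem_span_singleton_self v))

/-- A root of the characteristic polynomial has an eigenvector. -/
theorem exists_eigenvec {A : Matrix (Fin 2) (Fin 2) k} {α : k} (h : A.charpoly.eval α = 0) :
    ∃ v : Fin 2 → k, v ≠ 0 ∧ A.mulVec v = α • v := by
  rw [Matrix.eval_charpoly, ← Matrix.exists_mulVec_eq_zero_iff] at h
  obtain ⟨v, hv, hv0⟩ := h
  refine ⟨v, hv, ?_⟩
  rw [Matrix.sub_mulVec, sub_eq_zero] at hv0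
  rw [← hv0]
  funext i
  simp [Matrix.mulVec, dotProduct, Matrix.scalar_apply, Matrix.diagonal_apply]

/-- Adapted coordinates: inertia is diagonal with distinct conjugate eigenvalues and Frobenius
exchanges the lines. -/
theorem exists_swap_coordinates (hfin : IsFiniteLevel p r)
    (hsplit : ∀ g, ∃ α β : k, (r g).charpoly = (X - C α) * (X - C β))
    (hirr : ∀ v : Fin 2 → k, v ≠ 0 → ∃ g, (r g).mulVec v ∉ k ∙ v) {φ τ : GalQp p}
    (hφ : ∀ x : intQp p, resid p (φ • x) = resid p x ^ p)
    (hgen : ∀ s ∈ inertiaQp p, ∃ n : ℕ, r s = r τ ^ n)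
    (hfrob : r (φ * τ * φ⁻¹) = r τ ^ p) {N : ℕ} (hN : N.Coprime p) (hτN : r τ ^ N = 1) :
    ∃ (P Q : Matrix (Fin 2) (Fin 2) k) (α β a b : k), P * Q = 1 ∧ Q * P = 1 ∧ α ≠ 0 ∧ β ≠ 0 ∧
      α ≠ β ∧ α ^ p = β ∧ β ^ p = α ∧ a ≠ 0 ∧ b ≠ 0 ∧
      Q * r τ * P = !![α, 0; 0, β] ∧ Q * r φ * P = !![0, a; b, 0] := by
  obtain ⟨α, β, hτc⟩ := hsplit τ
  obtain ⟨a₀, b₀, hφc⟩ := hsplit φ
  have hinv : r τ * r τ⁻¹ = 1 := by rw [← map_mul, mul_inv_cancel, map_one]
  have hdetτ : (r τ).det ≠ 0 := fun h => by
    have := congrArg Matrix.det hinv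
    rw [Matrix.det_mul, h, zero_mul, Matrix.det_one] at this
    exact zero_ne_one this
  obtain ⟨u, hu, hαu⟩ := exists_eigenvec (A := r τ) (α := α) (by simp [hτc])
  obtain ⟨w, hw, hβw⟩ := exists_eigenvec (A := r τ) (α := β) (by simp [hτc])
  have hα0 : α ≠ 0 := fun h => hu (by
    rw [h, zero_smul] at hαu
    exact Matrix.eq_zero_of_mulVec_eq_zero hdetτ hαu)
  have hβ0 : β ≠ 0 := fun h => hw (by
    rw [h, zero_smul] at hβw
    exact Matrix.eq_zero_of_mulVec_eq_zero hdetτ hβw)
  have hαβ : α ≠ β := by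
    rintro rfl
    have hCH := Matrix.aeval_self_charpoly (r τ)
    rw [hτc, map_mul, map_sub, aeval_X, aeval_C] at hCH
    set S := α⁻¹ • (r τ - algebraMap k _ α) with hS
    have hS2 : S * S = 0 := by
      rw [hS, smul_mul_smul_comm, hCH, smul_zero]
    have hA : r τ = α • (1 + S) := by
      rw [hS, smul_add, smul_smul, mul_inv_cancel₀ hα0, one_smul, Algebra.algebraMap_eq_smul_one]
      abel
    have h1 := hτN
    rw [hA, _root_.smul_pow, LocalCondB.one_add_pow_of_sq_eq_zero hS2] at h1
    have hN0 : (N : k) ≠ 0 := fun h => by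
      rw [CharP.cast_eq_zero_iff k p] at h
      exact (Fact.out : p.Prime).one_lt.ne' (Nat.eq_one_of_dvd_coprimes hN h dvd_rfl)
    have hS0 : S = 0 := by
      have hs : (N : k) • S = ((α ^ N)⁻¹ - 1) • (1 : Matrix (Fin 2) (Fin 2) k) := by
        have h2 := congrArg ((α ^ N)⁻¹ • ·) h1
        simp only [smul_smul, inv_mul_cancel₀ (pow_ne_zero N hα0), one_smul] at h2
        rw [sub_smul, one_smul, ← h2, add_sub_cancel_left, Nat.cast_smul_eq_nsmul]
      have h3 := congrArg (fun Y => Y * Y) hs
      simp only [smul_mul_smul_comm, hS2, smul_zero, mul_one] at h3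
      have h4 := congrFun (congrFun h3.symm 0) 0
      simp only [Matrix.smul_apply, Matrix.one_apply_eq, smul_eq_mul, mul_one, Matrix.zero_apply,
        mul_self_eq_zero] at h4
      rw [h4, zero_smul] at hs
      exact (smul_eq_zero.mp hs).resolve_left hN0
    rw [hS0, add_zero] at hA
    obtain ⟨v, hv, hav⟩ := exists_eigenvec (A := r φ) (α := a₀) (by simp [hφc])
    obtain ⟨g, hg⟩ := hirr v hv
    exact hg (mulVec_mem_span_of_generators hfin hφ hgen
      (hav ▸ Submodule.smul_mem _ _ (Submodule.mem_span_singleton_self v))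
      (by rw [hA, Matrix.smul_mulVec, Matrix.one_mulVec]
          exact Submodule.smul_mem _ _ (Submodule.mem_span_singleton_self v)) g)
  set P : Matrix (Fin 2) (Fin 2) k := !![u 0, w 0; u 1, w 1] with hP
  have hPdet : P.det ≠ 0 := by
    intro h0
    rw [hP, Matrix.det_fin_two_of] at h0
    obtain ⟨s, hs⟩ := Submodule.mem_span_singleton.mp
      (mem_span_of_det_eq_zero hu (x := w) (by linear_combination h0))
    refine hαβ (smul_left_injective k hw ?_)
    show α • w = β • w
    rw [← hβw, ← hs, Matrix.mulVec_smul, hαu, smul_comm]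
  have hPQ : P * P⁻¹ = 1 := Matrix.mul_nonsing_inv P (Ne.isUnit hPdet)
  have hQP : P⁻¹ * P = 1 := Matrix.nonsing_inv_mul P (Ne.isUnit hPdet)
  have hD : P⁻¹ * r τ * P = !![α, 0; 0, β] := by
    have : r τ * P = P * !![α, 0; 0, β] := by
      have e0 := congrFun hαu 0
      have e1 := congrFun hαu 1
      have e2 := congrFun hβw 0
      have e3 := congrFun hβw 1
      simp [Matrix.mulVec, dotProduct, Fin.sum_univ_two] at e0 e1 e2 e3
      ext i j
      fin_cases i <;> fin_cases j <;>
        simp [hP, Matrix.mul_apply, Fin.sum_univ_two]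
      · linear_combination e0
      · linear_combination e2
      · linear_combination e1
      · linear_combination e3
    rw [mul_assoc, this, ← mul_assoc, hQP, one_mul]
  set F := P⁻¹ * r φ * P with hF
  have hrel : F * !![α, 0; 0, β] = !![α ^ p, 0; 0, β ^ p] * F := by
    have hDp : P⁻¹ * r τ ^ p * P = !![α ^ p, 0; 0, β ^ p] := by
      have hpw : ∀ j : ℕ, P⁻¹ * r τ ^ j * P = !![α ^ j, 0; 0, β ^ j] := by
        intro j
        induction j with
        | zero => rw [pow_zero, mul_one, hQP, pow_zero, pow_zero, Matrix.one_fin_two]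
        | succ j ih =>
          rw [show P⁻¹ * r τ ^ (j + 1) * P = (P⁻¹ * r τ ^ j * P) * (P⁻¹ * r τ * P) by
            rw [pow_succ]; simp only [mul_assoc]; rw [← mul_assoc P, hPQ, one_mul], ih, hD]
          simp [pow_succ]
      exact hpw p
    have hcomm : r φ * r τ = r τ ^ p * r φ := by
      rw [← hfrob, ← map_mul, ← map_mul, inv_mul_cancel_right]
    calc F * !![α, 0; 0, β] = (P⁻¹ * r φ * P) * (P⁻¹ * r τ * P) := by rw [hD]
      _ = P⁻¹ * (r φ * r τ) * P := by simp only [mul_assoc]; rw [← mul_assoc P, hPQ, one_mul]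
      _ = (P⁻¹ * r τ ^ p * P) * (P⁻¹ * r φ * P) := by
        rw [hcomm]; simp only [mul_assoc]; rw [← mul_assoc P, hPQ, one_mul]
      _ = _ := by rw [hDp]
  have h00 := congrFun (congrFun hrel 0) 0
  have h01 := congrFun (congrFun hrel 0) 1
  have h10 := congrFun (congrFun hrel 1) 0
  have h11 := congrFun (congrFun hrel 1) 1
  simp [Matrix.mul_apply, Fin.sum_univ_two] at h00 h01 h10 h11
  have hφP : r φ * P = P * F := by rw [hF, ← mul_assoc, ← mul_assoc, hPQ, one_mul]
  have hF01 : F 0 1 ≠ 0 := by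
    intro h0
    obtain ⟨g, hg⟩ := hirr w hw
    refine hg (mulVec_mem_span_of_generators hfin hφ hgen ?_
      (hβw ▸ Submodule.smul_mem _ _ (Submodule.mem_span_singleton_self w)) g)
    have e : (r φ).mulVec w = F 1 1 • w := by
      funext i
      have := congrFun (congrFun hφP i) 1
      fin_cases i <;>
        · simp [hP, Matrix.mul_apply, Fin.sum_univ_two, h0] at this
          simp [Matrix.mulVec, dotProduct, Fin.sum_univ_two]
          linear_combination this
    exact e ▸ Submodule.smul_mem _ _ (Submodule.mem_span_singleton_self w)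
  have hF10 : F 1 0 ≠ 0 := by
    intro h0
    obtain ⟨g, hg⟩ := hirr u hu
    refine hg (mulVec_mem_span_of_generators hfin hφ hgen ?_
      (hαu ▸ Submodule.smul_mem _ _ (Submodule.mem_span_singleton_self u)) g)
    have e : (r φ).mulVec u = F 0 0 • u := by
      funext i
      have := congrFun (congrFun hφP i) 0
      fin_cases i <;>
        · simp [hP, Matrix.mul_apply, Fin.sum_univ_two, h0] at this
          simp [Matrix.mulVec, dotProduct, Fin.sum_univ_two]
          linear_combination this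
    exact e ▸ Submodule.smul_mem _ _ (Submodule.mem_span_singleton_self u)
  have hβp : α ^ p = β := mul_right_cancel₀ hF01 (h01.symm.trans (mul_comm _ _))
  have hαp : β ^ p = α := mul_right_cancel₀ hF10 (h10.symm.trans (mul_comm _ _))
  have hF00 : F 0 0 = 0 := by
    rw [hβp] at h00
    have : F 0 0 * (α - β) = 0 := by linear_combination h00
    exact (mul_eq_zero.mp this).resolve_right (sub_ne_zero.mpr hαβ)
  have hF11 : F 1 1 = 0 := by
    rw [hαp] at h11
    have : F 1 1 * (β - α) = 0 := by linear_combination h11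
    exact (mul_eq_zero.mp this).resolve_right (sub_ne_zero.mpr (Ne.symm hαβ))
  refine ⟨P, P⁻¹, α, β, F 0 1, F 1 0, hPQ, hQP, hα0, hβ0, hαβ, hβp, hαp, hF01, hF10, hD, ?_⟩
  rw [← hF]
  ext i j
  fin_cases i <;> fin_cases j <;> simp [hF00, hF11]

end Fermat.Agent.TW
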