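/-
Cocycles of a representation which on inertia is diagonal with distinct eigenvalues and whose
Frobenius exchanges the eigenlines: those killing the kernel on inertia are coboundaries.
-/
import Fermat.Agent.TW.LocalFlatNiveauData

set_option autoImplicit false
set_option maxHeartbeats 400000

noncomputable section

namespace Fermat.Agent.TW

variable {p : ℕ} [Fact p.Prime] {k : Type} [Field k]
  {r : GalQp p →* Matrix (Fin 2) (Fin 2) k}

/-- A cocycle is additive on the kernel and equivariant for conjugation there. -/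
theorem cocycle_conj_apply {c : GalQp p → Matrix (Fin 2) (Fin 2) k} (hc : c ∈ adCocycles r)
    (g : GalQp p) {w : GalQp p} (hw : r w = 1) :
    c (g * w * g⁻¹) = r g * c w * r g⁻¹ := by
  have h1 : c w = c w + r w * c 1 * r w⁻¹ := by rw [← hc.2, mul_one]
  have hw' : r w⁻¹ = 1 := by
    have := congrArg r (mul_inv_cancel w)
    rwa [map_mul, hw, one_mul, map_one] at this
  have h2 : c g + r g * c g⁻¹ * r g⁻¹ = 0 := by
    rw [← hc.2, mul_inv_cancel, LocalCondB.cocycle_map_one hc]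
  rw [mul_assoc, hc.2, hc.2 w, hw, hw', one_mul, mul_one, mul_add, add_mul, add_left_comm, h2,
    add_zero]

/-- Coordinates. -/
def toCoord (P Q : Matrix (Fin 2) (Fin 2) k) (M : Matrix (Fin 2) (Fin 2) k) :
    Matrix (Fin 2) (Fin 2) k := Q * M * P

variable {P Q : Matrix (Fin 2) (Fin 2) k}

theorem toCoord_add (A B : Matrix (Fin 2) (Fin 2) k) :
    toCoord P Q (A + B) = toCoord P Q A + toCoord P Q B := by
  simp [toCoord, mul_add, add_mul]

theorem toCoord_sub (A B : Matrix (Fin 2) (Fin 2) k) :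
    toCoord P Q (A - B) = toCoord P Q A - toCoord P Q B := by
  simp [toCoord, mul_sub, sub_mul]

theorem toCoord_mul (hPQ : P * Q = 1) (A B : Matrix (Fin 2) (Fin 2) k) :
    toCoord P Q (A * B) = toCoord P Q A * toCoord P Q B := by
  simp only [toCoord, mul_assoc]
  rw [← mul_assoc P, hPQ, one_mul]

theorem toCoord_inj (hPQ : P * Q = 1) {A B : Matrix (Fin 2) (Fin 2) k}
    (h : toCoord P Q A = toCoord P Q B) : A = B := by
  have h1 := congrArg (fun X => P * X * Q) h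
  simp only [toCoord, ← mul_assoc, hPQ, one_mul] at h1
  simp only [mul_assoc, hPQ, mul_one] at h1
  exact h1

theorem toCoord_conj (hPQ : P * Q = 1) (hQP : Q * P = 1) (g : GalQp p)
    (A : Matrix (Fin 2) (Fin 2) k) {D D' : Matrix (Fin 2) (Fin 2) k}
    (hD : toCoord P Q (r g) = D) (hD' : D * D' = 1) :
    toCoord P Q (r g * A * r g⁻¹) = D * toCoord P Q A * D' := by
  rw [toCoord_mul hPQ, toCoord_mul hPQ, hD]
  congr 1
  have h1 : D * toCoord P Q (r g⁻¹) = 1 := by
    rw [← hD, ← toCoord_mul hPQ, ← map_mul, mul_inv_cancel, map_one, toCoord, mul_one, hQP]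
  calc toCoord P Q (r g⁻¹) = (D' * D) * toCoord P Q (r g⁻¹) := by
        rw [mul_eq_one_comm.mp hD', one_mul]
    _ = D' := by rw [mul_assoc, h1, mul_one]

theorem diag_mul_mul_diag (α β : k) (hα : α ≠ 0) (hβ : β ≠ 0) (X : Matrix (Fin 2) (Fin 2) k) :
    !![α, 0; 0, β] * X * !![α⁻¹, 0; 0, β⁻¹] =
      !![X 0 0, α / β * X 0 1; β / α * X 1 0, X 1 1] := by
  ext i j
  fin_cases i <;> fin_cases j <;>
    simp [Matrix.mul_apply, Fin.sum_univ_two, Matrix.vecMul, dotProduct] <;> field_simp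

theorem swap_mul_mul_swap (a b : k) (ha : a ≠ 0) (hb : b ≠ 0) (X : Matrix (Fin 2) (Fin 2) k) :
    !![0, a; b, 0] * X * !![0, b⁻¹; a⁻¹, 0] =
      !![X 1 1, a / b * X 1 0; b / a * X 0 1, X 0 0] := by
  ext i j
  fin_cases i <;> fin_cases j <;>
    simp [Matrix.mul_apply, Fin.sum_univ_two, Matrix.vecMul, dotProduct] <;> field_simp

theorem diag_mul_inv (α β : k) (hα : α ≠ 0) (hβ : β ≠ 0) :
    !![α, 0; 0, β] * !![α⁻¹, 0; 0, β⁻¹] = (1 : Matrix (Fin 2) (Fin 2) k) := by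
  ext i j
  fin_cases i <;> fin_cases j <;> simp [hα, hβ]

theorem swap_mul_inv (a b : k) (ha : a ≠ 0) (hb : b ≠ 0) :
    !![0, a; b, 0] * !![0, b⁻¹; a⁻¹, 0] = (1 : Matrix (Fin 2) (Fin 2) k) := by
  ext i j
  fin_cases i <;> fin_cases j <;> simp [ha, hb]

/-- A cocycle killing the kernel on inertia is a coboundary. -/
theorem mem_adCoboundaries_of_eq_zero_on_ker (hPQ : P * Q = 1) (hQP : Q * P = 1) (h2 : (2 : k) ≠ 0)
    {φ τ : GalQp p} (hφ : ∀ x : intQp p, resid p (φ • x) = resid p x ^ p)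
    (hτ : τ ∈ inertiaQp p) (hgen : ∀ s ∈ inertiaQp p, ∃ n : ℕ, r s = r τ ^ n)
    {e0 : ℕ} (he0 : r τ ^ e0 = 1) (he0k : (e0 : k) ≠ 0)
    {α β a b : k} (hα : α ≠ 0) (hβ : β ≠ 0) (hαβ : α ≠ β) (hβα : α ^ p = β) (hαβ' : β ^ p = α)
    (ha : a ≠ 0) (hb : b ≠ 0)
    (hD : toCoord P Q (r τ) = !![α, 0; 0, β]) (hF : toCoord P Q (r φ) = !![0, a; b, 0])
    (hfrob : r (φ * τ * φ⁻¹) = r τ ^ p)
    (hfin : IsFiniteLevel p r) {c : GalQp p → Matrix (Fin 2) (Fin 2) k} (hc : c ∈ ctsCocycles p r)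
    (hker : ∀ w ∈ inertiaQp p, r w = 1 → c w = 0) : c ∈ adCoboundaries r := by
  have hconjτ : ∀ A, toCoord P Q (r τ * A * r τ⁻¹) =
      !![α, 0; 0, β] * toCoord P Q A * !![α⁻¹, 0; 0, β⁻¹] := fun A =>
    toCoord_conj hPQ hQP τ A hD (diag_mul_inv α β hα hβ)
  have hconjφ : ∀ A, toCoord P Q (r φ * A * r φ⁻¹) =
      !![0, a; b, 0] * toCoord P Q A * !![0, b⁻¹; a⁻¹, 0] := fun A =>
    toCoord_conj hPQ hQP φ A hF (swap_mul_inv a b ha hb)
  have hback : ∀ X, toCoord P Q (P * X * Q) = X := fun X => by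
    simp only [toCoord, ← mul_assoc, hQP, one_mul]
    rw [mul_assoc, hQP, mul_one]
  have htrace : ∀ M, (toCoord P Q M).trace = M.trace := fun M => by
    rw [toCoord, Matrix.trace_mul_cycle, hPQ, one_mul]
  set X := toCoord P Q (c τ) with hX
  -- the diagonal vanishes
  have hsum : ∀ i : ℕ, toCoord P Q (c (τ ^ i)) 0 0 = i * X 0 0 := by
    intro i
    induction i with
    | zero => simp [LocalCondB.cocycle_map_one hc.1, toCoord]
    | succ i ih =>
      rw [pow_succ', hc.1.2, toCoord_add, hconjτ, diag_mul_mul_diag α β hα hβ]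
      simp [← hX, ih]
      ring
  have hX00 : X 0 0 = 0 := by
    have h := hsum e0
    rw [hker _ (pow_mem hτ e0) (by rw [map_pow, he0])] at h
    have h' : (e0 : k) * X 0 0 = 0 := by rw [← h]; simp [toCoord]
    exact (mul_eq_zero.mp h').resolve_left he0k
  have hX11 : X 1 1 = 0 := by
    have h := htrace (c τ)
    rw [hc.1.1 τ, Matrix.trace_fin_two, ← hX, hX00, zero_add] at h
    exact h
  -- the first correction
  have hξ : α / β - 1 ≠ 0 := sub_ne_zero.mpr fun h => hαβ ((div_eq_one_iff_eq hβ).mp h)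
  have hξ' : β / α - 1 ≠ 0 := sub_ne_zero.mpr fun h => hαβ ((div_eq_one_iff_eq hα).mp h).symm
  set M₁ := P * !![0, X 0 1 / (α / β - 1); X 1 0 / (β / α - 1), 0] * Q with hM₁
  set c₁ := c - adD r M₁ with hc₁
  have hc₁Z : c₁ ∈ ctsCocycles p r := sub_mem hc (adD_mem_ctsCocycles hfin M₁)
  have hc₁τ : c₁ τ = 0 := by
    apply toCoord_inj hPQ
    rw [hc₁, Pi.sub_apply, adD_apply, toCoord_sub, toCoord_sub, hconjτ, hM₁, hback,
      diag_mul_mul_diag α β hα hβ, show toCoord P Q (0 : Matrix (Fin 2) (Fin 2) k) = 0 by simp [toCoord],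
      ← hX]
    ext i j
    fin_cases i <;> fin_cases j <;> simp [hX00, hX11]
    · rw [sub_eq_zero, ← sub_one_mul, mul_div_cancel₀ _ hξ]
    · rw [sub_eq_zero, ← sub_one_mul, mul_div_cancel₀ _ hξ']
  have hc₁ker : ∀ w ∈ inertiaQp p, r w = 1 → c₁ w = 0 := by
    intro w hw hrw
    have hrw' : r w⁻¹ = 1 := by
      have := congrArg r (mul_inv_cancel w)
      rwa [map_mul, hrw, one_mul, map_one] at this
    rw [hc₁, Pi.sub_apply, hker w hw hrw, adD_apply, hrw, hrw', one_mul, mul_one, sub_self, sub_zero]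
  have hc₁I : ∀ s ∈ inertiaQp p, c₁ s = 0 := by
    intro s hs
    obtain ⟨i, hi⟩ := hgen s hs
    have hpow : ∀ j : ℕ, c₁ (τ ^ j) = 0 := fun j => by
      induction j with
      | zero => rw [pow_zero]; exact LocalCondB.cocycle_map_one hc₁Z.1
      | succ j ih => rw [pow_succ, hc₁Z.1.2, ih, hc₁τ, mul_zero, zero_mul, add_zero]
    have hw : r ((τ ^ i)⁻¹ * s) = 1 := by
      rw [map_mul, hi, ← map_pow, ← map_mul, inv_mul_cancel, map_one]
    rw [show s = τ ^ i * ((τ ^ i)⁻¹ * s) by group, hc₁Z.1.2, hpow,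
      hc₁ker _ (mul_mem (inv_mem (pow_mem hτ i)) hs) hw, mul_zero, zero_mul, add_zero]
  -- the value at Frobenius is diagonal
  set Y := toCoord P Q (c₁ φ) with hY
  have hYconj : c₁ φ = r (φ * τ * φ⁻¹) * c₁ φ * r (φ * τ * φ⁻¹)⁻¹ := by
    have h0 := hc₁I _ (conj_mem_inertiaQp p φ hτ)
    have hinv : r φ * c₁ φ⁻¹ * r φ⁻¹ = -c₁ φ := by
      refine eq_neg_of_add_eq_zero_right ?_
      rw [← hc₁Z.1.2, mul_inv_cancel, LocalCondB.cocycle_map_one hc₁Z.1]
    rw [mul_assoc, hc₁Z.1.2, hc₁Z.1.2, hc₁τ, zero_add] at h0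
    have h3 : c₁ φ⁻¹ = -(r φ⁻¹ * c₁ φ * r φ) := by
      have := congrArg (fun Z => r φ⁻¹ * Z * r φ) hinv
      simp only [mul_neg, neg_mul, ← mul_assoc, ← map_mul, inv_mul_cancel, map_one, one_mul] at this
      rw [mul_assoc, ← map_mul, inv_mul_cancel, map_one, mul_one] at this
      exact this
    rw [h3] at h0
    simp only [mul_neg, neg_mul, add_neg_eq_zero] at h0
    refine h0.trans ?_
    simp only [map_mul, mul_inv_rev, inv_inv, mul_assoc]
  have hDp : toCoord P Q (r (φ * τ * φ⁻¹)) = !![β, 0; 0, α] := by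
    rw [hfrob]
    have hpw : ∀ j : ℕ, toCoord P Q (r τ ^ j) = !![α ^ j, 0; 0, β ^ j] := fun j => by
      induction j with
      | zero => rw [pow_zero, toCoord, mul_one, hQP, pow_zero, pow_zero, Matrix.one_fin_two]
      | succ j ih => rw [pow_succ, toCoord_mul hPQ, ih, hD]; simp [pow_succ]
    rw [hpw, hβα, hαβ']
  have hY2 : Y = !![Y 0 0, β / α * Y 0 1; α / β * Y 1 0, Y 1 1] := by
    have h := congrArg (toCoord P Q) hYconj
    rwa [toCoord_conj hPQ hQP _ _ hDp (diag_mul_inv β α hβ hα), diag_mul_mul_diag β α hβ hα] at h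
  have hY01 : Y 0 1 = 0 := by
    have h := congrFun (congrFun hY2 0) 1
    have h' : (β / α - 1) * Y 0 1 = 0 := by simp at h; linear_combination -h
    exact (mul_eq_zero.mp h').resolve_left hξ'
  have hY10 : Y 1 0 = 0 := by
    have h := congrFun (congrFun hY2 1) 0
    have h' : (α / β - 1) * Y 1 0 = 0 := by simp at h; linear_combination -h
    exact (mul_eq_zero.mp h').resolve_left hξ
  have hY11 : Y 1 1 = -Y 0 0 := by
    have h := htrace (c₁ φ)
    rw [hc₁Z.1.1 φ, Matrix.trace_fin_two, ← hY] at h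
    linear_combination h
  set M₂ := P * !![-(Y 0 0) / 2, 0; 0, Y 0 0 / 2] * Q with hM₂
  set c₂ := c₁ - adD r M₂ with hc₂
  have hc₂Z : c₂ ∈ ctsCocycles p r := sub_mem hc₁Z (adD_mem_ctsCocycles hfin M₂)
  have hc₂φ : c₂ φ = 0 := by
    apply toCoord_inj hPQ
    rw [hc₂, Pi.sub_apply, adD_apply, toCoord_sub, toCoord_sub, hconjφ, hM₂, hback,
      swap_mul_mul_swap a b ha hb,
      show toCoord P Q (0 : Matrix (Fin 2) (Fin 2) k) = 0 by simp [toCoord], ← hY]
    ext i j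
    fin_cases i <;> fin_cases j <;> simp [hY01, hY10, hY11] <;> field_simp <;> ring
  have hτM₂ : r τ * M₂ * r τ⁻¹ = M₂ := by
    apply toCoord_inj hPQ
    rw [hconjτ, hM₂, hback, diag_mul_mul_diag α β hα hβ]
    ext i j
    fin_cases i <;> fin_cases j <;> simp
  have hτM₂' : r τ * M₂ = M₂ * r τ := by
    conv_rhs => rw [← hτM₂]
    rw [mul_assoc (r τ * M₂), ← map_mul, inv_mul_cancel, map_one, mul_one]
  have hc₂I : ∀ s ∈ inertiaQp p, c₂ s = 0 := by
    intro s hs
    obtain ⟨i, hi⟩ := hgen s hs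
    have hcomm : Commute (r s) M₂ := hi ▸ (show Commute (r τ) M₂ from hτM₂').pow_left i
    rw [hc₂, Pi.sub_apply, hc₁I s hs, adD_apply, hcomm.eq, mul_assoc, ← map_mul, mul_inv_cancel,
      map_one, mul_one, sub_self, sub_zero]
  have hc₂0 : c₂ = 0 := by
    obtain ⟨E, hE, hEc⟩ := hc₂Z.2
    have := hE
    set K := IntermediateField.normalClosure ℚ_[p] E (PadicAlgCl p)
    have : FiniteDimensional ℚ_[p] K := normalClosure.is_finiteDimensional _ _ _
    have : Normal ℚ_[p] K := normalClosure.normal _ _ _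
    funext g
    obtain ⟨m, -, i, hi, h, hh, rfl⟩ := exists_decomposition p K hφ g
    rw [hEc _ h (IntermediateField.fixingSubgroup_antitone E.le_normalClosure hh), hc₂Z.1.2,
      LocalCondB.cocycle_pow_of_eq_zero hc₂Z.1 hc₂φ, hc₂I i hi]
    simp
  refine ⟨M₁ + M₂, ?_, ?_⟩
  · show (M₁ + M₂).trace = 0
    rw [← htrace (M₁ + M₂), toCoord_add, hM₁, hM₂, hback, hback]
    simp [Matrix.trace_fin_two]
    ring
  · rw [map_add, ← sub_eq_zero]
    rw [hc₂, hc₁] at hc₂0
    rw [← neg_eq_zero, ← hc₂0]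
    abel

end Fermat.Agent.TW
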