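/-
The flat bound for a connected residual representation without stable line.
-/
import Fermat.Agent.TW.LocalFlatField
import Fermat.Agent.TW.LocalFlatShape
import Fermat.Agent.TW.LocalFlatNiveauCocycle

set_option autoImplicit false
set_option maxHeartbeats 400000

noncomputable section

open Polynomial

namespace Fermat.Agent.TW

variable {p : ℕ} [Fact p.Prime] {k : Type} [Field k] [Finite k] [CharP k p]
  {r : GalQp p →* Matrix (Fin 2) (Fin 2) k}

/-- Without a stable line the flat cocycles have dimension at most `4`. -/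
theorem finrank_flatSubmodule_le_of_irreducible (hp2 : p ≠ 2) (hfin : IsFiniteLevel p r)
    (hdet : ∀ g, (r g).det = ((localCyclo p g : ZMod p).val : k))
    (hsplit : ∀ g, ∃ α β : k, (r g).charpoly = (X - Polynomial.C α) * (X - Polynomial.C β))
    (hres : HasLocalModel p (Fin 2 → k) (vecAct r))
    (hirr : ∀ v : Fin 2 → k, v ≠ 0 → ∃ g, (r g).mulVec v ∉ k ∙ v) :
    FiniteDimensional k (flatSubmodule r hres) ∧
      Module.finrank k (flatSubmodule r hres) ≤ 4 := by
  classical
  have hp : p.Prime := Fact.out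
  have hp3 : 3 ≤ p := by have := hp.two_le; omega
  obtain ⟨φ, hφ⟩ := exists_frobenius p
  obtain ⟨τ, hτ, hgen, hfrob', N, hNpos, hNcop, hτN⟩ := exists_tame_of_irreducible hfin hirr
  have hfrob := hfrob' φ hφ
  obtain ⟨P, Q, α, β, a, b, hPQ, hQP, hα, hβ, hαβ, hβα, hαβ', ha, hb, hD, hF⟩ :=
    exists_swap_coordinates hfin hsplit hirr hφ hgen hfrob hNcop hτN
  replace hD : toCoord P Q (r τ) = !![α, 0; 0, β] := hD
  replace hF : toCoord P Q (r φ) = !![0, a; b, 0] := hF
  set e0 := orderOf (r τ) with he0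
  have he0pos : 0 < e0 := (isOfFinOrder_iff_pow_eq_one.mpr ⟨N, hNpos, hτN⟩).orderOf_pos
  have he0N : e0 ∣ N := orderOf_dvd_of_pow_eq_one hτN
  have he0cop : e0.Coprime p := hNcop.coprime_dvd_left he0N
  have he0k : (e0 : k) ≠ 0 := fun h => by
    rw [CharP.cast_eq_zero_iff k p] at h
    exact hp.one_lt.ne' (Nat.eq_one_of_dvd_coprimes he0cop h dvd_rfl)
  have h2 : (2 : k) ≠ 0 := fun h => by
    have h4 := (CharP.cast_eq_zero_iff k p 2).mp (by exact_mod_cast h)
    exact hp2 ((Nat.prime_dvd_prime_iff_eq hp Nat.prime_two).mp h4)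
  set W : Subgroup (GalQp p) := inertiaQp p ⊓ r.ker with hW
  have hmemW : ∀ {w}, w ∈ W ↔ w ∈ inertiaQp p ∧ r w = 1 := fun {w} => by
    rw [hW, Subgroup.mem_inf, MonoidHom.mem_ker]
  set ξ := α / β with hξdef
  have hξ0 : ξ ≠ 0 := div_ne_zero hα hβ
  have hξ1 : ξ ≠ 1 := fun h => hαβ ((div_eq_one_iff_eq hβ).mp h)
  have hξp : ξ ^ p = ξ⁻¹ := by rw [hξdef, div_pow, hβα, hαβ', inv_div]
  have hξord : orderOf ξ ≤ p + 1 := Nat.le_of_dvd (Nat.succ_pos p)
    (orderOf_dvd_of_pow_eq_one (by rw [pow_succ, hξp, inv_mul_cancel₀ hξ0]))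
  have hφW : ∀ g, ∀ w ∈ W, g * w * g⁻¹ ∈ W := fun g w hw => by
    rw [hmemW] at hw ⊢
    exact ⟨conj_mem_inertiaQp p g hw.1, by rw [map_mul, map_mul, hw.2, mul_one, ← map_mul,
      mul_inv_cancel, map_one]⟩
  -- an entry of a cocycle on the kernel
  let ent : (GalQp p → Matrix (Fin 2) (Fin 2) k) → Fin 2 → Fin 2 → GalQp p → k :=
    fun c i j w => toCoord P Q (c w) i j
  have hentτ : ∀ c ∈ ctsCocycles p r, ∀ w ∈ W, toCoord P Q (c (τ * w * τ⁻¹)) =
      !![toCoord P Q (c w) 0 0, ξ * toCoord P Q (c w) 0 1;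
        β / α * toCoord P Q (c w) 1 0, toCoord P Q (c w) 1 1] := fun c hc w hw => by
    rw [cocycle_conj_apply hc.1 τ (hmemW.mp hw).2,
      toCoord_conj hPQ hQP τ _ hD (diag_mul_inv α β hα hβ), diag_mul_mul_diag α β hα hβ]
  have hentφ : ∀ c ∈ ctsCocycles p r, ∀ w ∈ W, toCoord P Q (c (φ * w * φ⁻¹)) =
      !![toCoord P Q (c w) 1 1, a / b * toCoord P Q (c w) 1 0;
        b / a * toCoord P Q (c w) 0 1, toCoord P Q (c w) 0 0] := fun c hc w hw => by
    rw [cocycle_conj_apply hc.1 φ (hmemW.mp hw).2,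
      toCoord_conj hPQ hQP φ _ hF (swap_mul_inv a b ha hb), swap_mul_mul_swap a b ha hb]
  -- eigendata
  have hdata : ∀ (K : IntermediateField ℚ_[p] (PadicAlgCl p))
      (hK : ∀ g ∈ K.fixingSubgroup, r g = 1) {B : Type} [AddCommGroup B] [Module k B] (μ : k)
      (n : GalQp p → B), μ ≠ 0 → (∀ v ∈ W, ∀ w ∈ W, n (v * w) = n v + n w) →
      (∀ w ∈ W, w ∈ K.fixingSubgroup → n w = 0) → (∀ w ∈ W, n (τ * w * τ⁻¹) = μ • n w) →
      EigenData K W τ e0 μ n := by
    intro K hK B _ _ μ n hμ hmul hfix hconj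
    exact
    { le_inertia := fun w hw => (hmemW.mp hw).1
      fix_mem := fun g hg hgK => hmemW.mpr ⟨hg, hK g hgK⟩
      tau_mem := hτ
      gen := fun g hg => by
        obtain ⟨i, hi⟩ := hgen g hg
        exact ⟨i, (τ ^ i)⁻¹ * g, hmemW.mpr ⟨mul_mem (inv_mem (pow_mem hτ i)) hg, by
          rw [map_mul, hi, ← map_pow, ← map_mul, inv_mul_cancel, map_one]⟩, by group⟩
      tau_pow := fun i => by
        rw [hmemW, map_pow, he0, orderOf_dvd_iff_pow_eq_one]
        exact and_iff_right (pow_mem hτ i)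
      pos := he0pos
      coprime := he0cop
      normal := fun g _ w hw => hφW g w hw
      map_mul := hmul
      map_fix := hfix
      map_conj := hconj
      scal_ne := hμ }
  have hentadd : ∀ c ∈ ctsCocycles p r, ∀ i j, ∀ v ∈ W, ∀ w ∈ W,
      ent c i j (v * w) = ent c i j v + ent c i j w := fun c hc i j v hv w hw => by
    have hv' : r v⁻¹ = 1 := (hmemW.mp (inv_mem hv)).2
    simp only [ent]
    rw [hc.1.2, (hmemW.mp hv).2, hv', one_mul, mul_one, toCoord_add, Matrix.add_apply]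
  -- the diagonal vanishes on the kernel
  have hdiag : ∀ c, IsFlatCocycle r c → ∀ w ∈ W, ent c 0 0 w = 0 := by
    intro c hc
    obtain ⟨K, hK1, hK2, hRB, hKfix⟩ := exists_ramBound_field hfin hc hc
    have h := hdata K (fun g hg => (hKfix g hg).1) 1 (fun w => ent c 0 0 w) one_ne_zero
      (hentadd c hc.1 0 0) (fun w _ hwK => by simp [ent, (hKfix w hwK).2.1, toCoord])
      (fun w hw => by simp [ent, hentτ c hc.1 w hw])
    exact h.eq_zero_of_orderOf_lt hRB (by rw [orderOf_one]; omega)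
  -- two cocycles give one line
  have hpair : ∀ c₁, IsFlatCocycle r c₁ → ∀ c₂, IsFlatCocycle r c₂ →
      ∃ q : k × k, ∀ w ∈ W, (ent c₁ 0 1 w, ent c₂ 0 1 w) ∈ k ∙ q := by
    intro c₁ h₁ c₂ h₂
    obtain ⟨K, hK1, hK2, hRB, hKfix⟩ := exists_ramBound_field hfin h₁ h₂
    have h := hdata K (fun g hg => (hKfix g hg).1) ξ (fun w => (ent c₁ 0 1 w, ent c₂ 0 1 w)) hξ0
      (fun v hv w hw => Prod.ext (hentadd c₁ h₁.1 0 1 v hv w hw) (hentadd c₂ h₂.1 0 1 v hv w hw))
      (fun w _ hwK => by simp [ent, (hKfix w hwK).2.1, (hKfix w hwK).2.2, toCoord])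
      (fun w hw => by simp [ent, hentτ c₁ h₁.1 w hw, hentτ c₂ h₂.1 w hw])
    by_cases hξξ : ξ ^ p = ξ
    · -- eigenvalue `-1`
      have hneg : ξ = -1 := by
        have h1 : ξ * ξ = 1 := by
          nth_rewrite 2 [← hξξ]
          rw [hξp, mul_inv_cancel₀ hξ0]
        exact (mul_self_eq_one_iff.mp h1).resolve_left hξ1
      rcases Nat.lt_or_ge 2 (p - 1) with hlt | hge
      · refine ⟨0, fun w hw => ?_⟩
        rw [h.eq_zero_of_orderOf_lt hRB (lt_of_le_of_lt (Nat.le_of_dvd two_pos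
          (orderOf_dvd_of_pow_eq_one (by rw [hneg, neg_one_sq]))) hlt) w hw]
        exact zero_mem _
      · exfalso
        obtain ⟨s, hs, hsdet⟩ := exists_inertia_det_ne_one (r := r) hp2 hdet
        obtain ⟨n, hn⟩ := hgen s hs
        apply hsdet
        have hdetτ : (r τ).det = α * β := by
          have h1 := congrArg Matrix.det hD
          rw [toCoord, Matrix.det_mul, Matrix.det_mul, mul_comm Q.det, mul_assoc,
            ← Matrix.det_mul Q P, hQP, Matrix.det_one, mul_one, Matrix.det_fin_two_of] at h1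
          rw [h1]; ring
        have hβneg : β = -α := by
          rw [hξdef, div_eq_iff hβ, neg_one_mul] at hneg
          rw [hneg, neg_neg]
        have hα2 : α * α = -1 := by
          have hp' : p = 3 := by omega
          have h3 : α ^ 3 = -α := by rw [← hp', hβα, hβneg]
          have : α * (α * α + 1) = 0 := by linear_combination h3
          exact eq_neg_of_add_eq_zero_left ((mul_eq_zero.mp this).resolve_left hα)
        rw [hn, Matrix.det_pow, hdetτ, hβneg, mul_neg, hα2, neg_neg, one_pow]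
    · refine h.exists_mem_span hRB (h.jumpUnique hp2 hξord) (F := φ ^ 2) (Q := p ^ 2) (γ := 1)
        (one_lt_pow₀ hp.one_lt two_ne_zero) (prime_sq_le_natCard_closure hξξ) (fun x => ?_)
        (fun w hw => hφW _ w hw) (fun w hw => ?_)
      · rw [pow_two φ, mul_smul, hφ, hφ, ← pow_mul, pow_two p]
      · have e : φ ^ 2 * w * (φ ^ 2)⁻¹ = φ * (φ * w * φ⁻¹) * φ⁻¹ := by
          rw [pow_two, mul_inv_rev]
          simp only [mul_assoc]
        rw [one_smul, e]
        simp only [ent, hentφ c₁ h₁.1 _ (hφW φ w hw), hentφ c₂ h₂.1 _ (hφW φ w hw),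
          hentφ c₁ h₁.1 w hw, hentφ c₂ h₂.1 w hw]
        simp only [Matrix.of_apply, Matrix.cons_val', Matrix.cons_val_zero, Matrix.cons_val_one,
          Matrix.cons_val_fin_one]
        rw [← mul_assoc, ← mul_assoc, div_mul_div_cancel₀ hb, div_self ha, one_mul, one_mul]
  -- a cocycle whose upper entry vanishes on the kernel is a coboundary
  have hkill : ∀ c, IsFlatCocycle r c → (∀ w ∈ W, ent c 0 1 w = 0) → c ∈ adCoboundaries r := by
    intro c hc h01
    refine mem_adCoboundaries_of_eq_zero_on_ker hPQ hQP h2 hφ hτ hgen (pow_orderOf_eq_one _) he0k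
      hα hβ hαβ hβα hαβ' ha hb hD hF hfrob hfin hc.1 fun w hwI hwr => ?_
    have hw : w ∈ W := hmemW.mpr ⟨hwI, hwr⟩
    have h00 := hdiag c hc w hw
    have h11 : toCoord P Q (c w) 1 1 = 0 := by
      have h := hdiag c hc _ (hφW φ w hw)
      simpa [ent, hentφ c hc.1 w hw] using h
    have h10 : toCoord P Q (c w) 1 0 = 0 := by
      have h := h01 _ (hφW φ w hw)
      simpa [ent, hentφ c hc.1 w hw, ha, hb] using h
    apply toCoord_inj hPQ
    rw [show toCoord P Q (0 : Matrix (Fin 2) (Fin 2) k) = 0 by simp [toCoord]]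
    ext i j
    fin_cases i <;> fin_cases j
    exacts [h00, h01 w hw, h10, h11]
  -- the bound
  have hlin : ∀ (c c' : GalQp p → Matrix (Fin 2) (Fin 2) k) (t : k) (w : GalQp p),
      ent (c - t • c') 0 1 w = ent c 0 1 w - t * ent c' 0 1 w := fun c c' t w => by
    simp [ent, toCoord, mul_sub, sub_mul]
  obtain ⟨c₁, hle⟩ : ∃ c₁, flatSubmodule r hres ≤ adCoboundaries r ⊔ (k ∙ c₁) := by
    by_cases hex : ∃ c₁, IsFlatCocycle r c₁ ∧ ∃ w ∈ W, ent c₁ 0 1 w ≠ 0
    · obtain ⟨c₁, hc₁, w₁, hw₁, hne⟩ := hex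
      refine ⟨c₁, fun c hc => ?_⟩
      rw [mem_flatSubmodule_iff] at hc
      obtain ⟨q, hq⟩ := hpair c hc c₁ hc₁
      set t := ent c 0 1 w₁ / ent c₁ 0 1 w₁
      have hzero : ∀ w ∈ W, ent (c - t • c₁) 0 1 w = 0 := by
        intro w hw
        obtain ⟨s₁, hs₁⟩ := Submodule.mem_span_singleton.mp (hq w₁ hw₁)
        obtain ⟨s, hs⟩ := Submodule.mem_span_singleton.mp (hq w hw)
        simp only [Prod.ext_iff, Prod.smul_fst, Prod.smul_snd, smul_eq_mul] at hs hs₁
        rw [hlin, sub_eq_zero, div_mul_eq_mul_div, eq_div_iff hne, ← hs.1, ← hs.2, ← hs₁.1, ← hs₁.2]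
        ring
      rw [← sub_add_cancel c (t • c₁)]
      refine Submodule.add_mem_sup (hkill _ ?_ hzero)
        (Submodule.smul_mem _ t (Submodule.mem_span_singleton_self c₁))
      exact (flatSubmodule r hres).sub_mem hc ((flatSubmodule r hres).smul_mem t hc₁)
    · push Not at hex
      refine ⟨0, fun c hc => Submodule.mem_sup_left ?_⟩
      exact hkill c hc fun w hw => hex c hc w hw
  have hB : Module.finrank k (adCoboundaries r) ≤ 3 := by
    have := finrank_adCoboundaries_add_adInvariants r h2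
    omega
  have : FiniteDimensional k (adCoboundaries r) := by
    unfold adCoboundaries
    infer_instance
  refine ⟨Submodule.finiteDimensional_of_le hle, (Submodule.finrank_mono hle).trans
    ((Submodule.finrank_add_le_finrank_add_finrank _ _).trans ?_)⟩
  have : Module.finrank k (k ∙ c₁) ≤ 1 := (finrank_span_le_card _).trans (by simp)
  omega

end Fermat.Agent.TW
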