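/-
The flat condition at `p` with vanishing unramified diagonal (`du = 0`): for an ordinary flat
residual representation it is strict ordinary and flat, one less dimension than the flat condition.
-/
import Fermat.Agent.TW.LocalFlatShape
import Fermat.Agent.TW.LocalCondBTame

set_option autoImplicit false
set_option linter.unusedSectionVars false

noncomputable section

namespace Fermat.Agent.TW

variable {p : ℕ} [Fact p.Prime] {k : Type} [Field k]
  (r : GalQp p →* Matrix (Fin 2) (Fin 2) k)

/-- `c ↦ χ(t) tr (c F r F) - tr (c (F t) r (F t))`, with `χ = det r`. -/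
def duForm (F t : GalQp p) : (GalQp p → Matrix (Fin 2) (Fin 2) k) →ₗ[k] k where
  toFun c := (r t).det * (c F * r F).trace - (c (F * t) * r (F * t)).trace
  map_add' a b := by simp [add_mul, Matrix.trace_add]; ring
  map_smul' s a := by simp [Matrix.trace_smul, smul_eq_mul]; ring

/-- Flat classes killed by `duForm`. -/
def flatULocal (F t : GalQp p) : Submodule k (GalQp p → Matrix (Fin 2) (Fin 2) k) :=
  flatLocal p r ⊓ LinearMap.ker (duForm r F t)

/-- Cocycles strictly upper triangular with respect to the line of `v`. -/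
def strictLine (v : Fin 2 → k) : Submodule k (GalQp p → Matrix (Fin 2) (Fin 2) k) where
  carrier := {c | (∀ g, (c g).mulVec v = 0) ∧ ∀ g w, (c g).mulVec w ∈ k ∙ v}
  add_mem' {a b} ha hb := ⟨fun g => by simp [Matrix.add_mulVec, ha.1 g, hb.1 g], fun g w => by
    simp only [Pi.add_apply, Matrix.add_mulVec]; exact add_mem (ha.2 g w) (hb.2 g w)⟩
  zero_mem' := ⟨fun g => by simp, fun g w => by simp⟩
  smul_mem' s a ha := ⟨fun g => by simp [Matrix.smul_mulVec, ha.1 g], fun g w => by
    simp only [Pi.smul_apply, Matrix.smul_mulVec]; exact Submodule.smul_mem _ s (ha.2 g w)⟩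

theorem duForm_adD (F t : GalQp p) (M : Matrix (Fin 2) (Fin 2) k) :
    duForm r F t (adD r M) = 0 := by
  have h : ∀ g, ((r g * M * r g⁻¹ - M) * r g).trace = 0 := fun g => by
    rw [sub_mul, mul_assoc (r g * M), ← map_mul r g⁻¹ g, inv_mul_cancel, map_one, mul_one,
      Matrix.trace_sub, Matrix.trace_mul_comm, sub_self]
  show (r t).det * _ - _ = _
  rw [adD_apply, adD_apply, h, h, mul_zero, sub_zero]

theorem adCoboundaries_le_flatULocal (F t : GalQp p) : adCoboundaries r ≤ flatULocal r F t := by
  refine le_inf le_sup_right ?_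
  rintro _ ⟨M, -, rfl⟩
  exact duForm_adD r F t M

/-- `det [u | w]`. -/
def cross (u w : Fin 2 → k) : k := u 0 * w 1 - u 1 * w 0

theorem cross_mulVec (A : Matrix (Fin 2) (Fin 2) k) (u w : Fin 2 → k) :
    cross (A.mulVec u) w + cross u (A.mulVec w) = A.trace * cross u w := by
  simp [cross, Matrix.mulVec, dotProduct, Matrix.trace_fin_two, Fin.sum_univ_two]
  ring

theorem cross_mulVec_mulVec (A : Matrix (Fin 2) (Fin 2) k) (u w : Fin 2 → k) :
    cross (A.mulVec u) (A.mulVec w) = A.det * cross u w := by
  simp [cross, Matrix.mulVec, dotProduct, Matrix.det_fin_two, Fin.sum_univ_two]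
  ring

theorem cross_smul_left (s : k) (u w : Fin 2 → k) : cross (s • u) w = s * cross u w := by
  simp [cross]; ring

theorem cross_smul_right (s : k) (u w : Fin 2 → k) : cross u (s • w) = s * cross u w := by
  simp [cross]; ring

theorem cross_add_right (u w w' : Fin 2 → k) : cross u (w + w') = cross u w + cross u w' := by
  simp [cross]; ring

@[simp] theorem cross_self (u : Fin 2 → k) : cross u u = 0 := by
  simp [cross]; ring

theorem exists_cross_ne_zero {v : Fin 2 → k} (hv : v ≠ 0) : ∃ w, cross v w ≠ 0 := by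
  by_cases h0 : v 0 = 0
  · refine ⟨![1, 0], ?_⟩
    have h1 : v 1 ≠ 0 := fun h1 => hv (funext fun i => by fin_cases i <;> assumption)
    simpa [cross, h0] using h1
  · exact ⟨![0, 1], by simpa [cross] using h0⟩

variable {r}

/-- `tr (c r) = h (2 a - tr r)` for `r v = a v`, `c v = h v`, `tr c = 0`. -/
theorem trace_mul_of_line {A C : Matrix (Fin 2) (Fin 2) k} {v : Fin 2 → k} (hv : v ≠ 0) {a h : k}
    (hA : A.mulVec v = a • v) (hC : C.mulVec v = h • v) (htr : C.trace = 0) :
    (C * A).trace = h * (2 * a - A.trace) := by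
  obtain ⟨w, hw⟩ := exists_cross_ne_zero hv
  have h1 := cross_mulVec (C * A) v w
  rw [← Matrix.mulVec_mulVec, hA, Matrix.mulVec_smul, hC, smul_smul, cross_smul_left,
    ← Matrix.mulVec_mulVec] at h1
  have h2 := cross_mulVec C v (A.mulVec w)
  rw [hC, cross_smul_left, htr, zero_mul] at h2
  have h3 := cross_mulVec A v w
  rw [hA, cross_smul_left] at h3
  apply mul_right_cancel₀ hw
  linear_combination -h1 + h2 - h * h3

/-- `du = 0` on a cocycle upper triangular with unramified diagonal makes it strict. -/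
theorem mem_strictLine_of_duForm_eq_zero {v : Fin 2 → k} (hv : v ≠ 0)
    (hstab : ∀ g, (r g).mulVec v ∈ k ∙ v)
    (hquot : ∀ g ∈ inertiaQp p, ∀ w, (r g).mulVec w - w ∈ k ∙ v)
    {F t : GalQp p} (hF : LocalCondB.IsFrobQp p F)
    (ht : t ∈ inertiaQp p) (hχ : (r t).det ≠ 1) {c : GalQp p → Matrix (Fin 2) (Fin 2) k}
    (hc : c ∈ ctsCocycles p r) (hup : ∀ g, (c g).mulVec v ∈ k ∙ v)
    (hunr : ∀ s ∈ inertiaQp p, (c s).mulVec v = 0) (hdu : duForm r F t c = 0) :
    c ∈ strictLine (p := p) v := by
  obtain ⟨⟨htr, hcoc⟩, hclev⟩ := hc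
  simp only [Submodule.mem_span_singleton] at hstab hup
  choose a ha using hstab
  choose h hh using hup
  have hinj : ∀ x y : k, x • v = y • v → x = y := fun x y e => smul_left_injective k hv e
  have ha_mul : ∀ g g', a (g * g') = a g * a g' := fun g g' => hinj _ _ (by
    rw [ha, map_mul, ← Matrix.mulVec_mulVec, ← ha g', Matrix.mulVec_smul, ← ha g, smul_smul,
      mul_comm])
  have ha1 : a 1 = 1 := hinj _ _ (by rw [ha, map_one, Matrix.one_mulVec, one_smul])
  have hh_mul : ∀ g g', h (g * g') = h g + h g' := fun g g' => hinj _ _ (by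
    rw [hh, hcoc, Matrix.add_mulVec, ← hh g, ← Matrix.mulVec_mulVec, ← ha g⁻¹,
      Matrix.mulVec_smul, ← Matrix.mulVec_mulVec, ← hh g', Matrix.mulVec_smul, ← ha g,
      add_smul, smul_smul, smul_smul]
    congr 2
    rw [show a g⁻¹ * h g' * a g = a (g⁻¹ * g) * h g' by rw [ha_mul]; ring, inv_mul_cancel, ha1,
      one_mul])
  have hhI : ∀ s ∈ inertiaQp p, h s = 0 := fun s hs =>
    hinj _ _ (by rw [hh, hunr s hs, zero_smul])
  obtain ⟨w, hw⟩ := exists_cross_ne_zero hv
  -- the values at `t` and `F t`
  obtain ⟨γ, hγ⟩ := Submodule.mem_span_singleton.1 (hquot t ht w)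
  have hrtw : (r t).mulVec w = w + γ • v := by rw [hγ, add_sub_cancel]
  have hdett : (r t).det = a t := by
    apply mul_right_cancel₀ hw
    rw [← cross_mulVec_mulVec, ← ha t, hrtw, cross_smul_left, cross_add_right, cross_smul_right,
      cross_self, mul_zero, add_zero]
  have htrFt : (r (F * t)).trace - a (F * t) = (r F).trace - a F := by
    apply mul_right_cancel₀ hw
    have e1 := cross_mulVec (r (F * t)) v w
    have e2 := cross_mulVec (r F) v w
    rw [← ha, cross_smul_left, map_mul, ← Matrix.mulVec_mulVec, hrtw, Matrix.mulVec_add,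
      Matrix.mulVec_smul, ← ha F, cross_add_right, cross_smul_right, cross_smul_right, cross_self,
      mul_zero, mul_zero, add_zero, ← map_mul] at e1
    rw [← ha F, cross_smul_left] at e2
    linear_combination -e1 + e2
  have hhF : h F = 0 := by
    have hdetF : (r F).det ≠ 0 := fun h0 => by
      have e := congrArg Matrix.det (show r F * r F⁻¹ = 1 by
        rw [← map_mul, mul_inv_cancel, map_one])
      rw [Matrix.det_mul, h0, zero_mul, Matrix.det_one] at e
      exact zero_ne_one e
    have hd : (r F).trace - a F ≠ 0 := by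
      intro h0
      apply hdetF
      have e2 := cross_mulVec (r F) v w
      rw [← ha F, cross_smul_left] at e2
      have e3 := cross_mulVec_mulVec (r F) v w
      rw [← ha F, cross_smul_left] at e3
      refine mul_right_cancel₀ hw ?_
      linear_combination -e3 + a F * e2 + a F * cross v w * h0
    change (r t).det * (c F * r F).trace - (c (F * t) * r (F * t)).trace = 0 at hdu
    rw [trace_mul_of_line hv (ha F).symm (hh F).symm (htr F),
      trace_mul_of_line hv (ha (F * t)).symm (hh (F * t)).symm (htr (F * t)), hh_mul, hhI t ht,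
      add_zero, hdett] at hdu
    have e : h F * ((1 - a t) * ((r F).trace - a F)) = 0 := by
      linear_combination hdu - h F * htrFt + h F * ha_mul F t
    refine (mul_eq_zero.1 e).resolve_right (mul_ne_zero ?_ hd)
    rw [← hdett]
    exact sub_ne_zero.2 hχ.symm
  -- `h` vanishes
  obtain ⟨E₁, hE₁, hE₁c⟩ := hclev
  have := hE₁
  have hhpow : ∀ m : ℕ, h (F ^ m) = 0 := by
    intro m
    induction m with
    | zero => rw [pow_zero]; exact hhI 1 (one_mem _)
    | succ m ih => rw [pow_succ, hh_mul, ih, hhF, add_zero]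
  have hzero : ∀ g, (c g).mulVec v = 0 := by
    intro g
    obtain ⟨m, -, i, hi, j, hj, rfl⟩ := exists_decomposition p
      (IntermediateField.normalClosure ℚ_[p] E₁ (PadicAlgCl p))
      (φ := F) (fun z => by
        rw [← map_pow, resid_eq_iff, coe_smul_intQp, SubmonoidClass.coe_pow]
        exact hF z ((mem_intQp_iff p _).mp z.2)) g
    rw [hE₁c _ j (IntermediateField.fixingSubgroup_antitone
      (IntermediateField.le_normalClosure _) hj), ← hh, hh_mul, hhpow, hhI i hi, add_zero,
      zero_smul]
  refine ⟨hzero, fun g u => mem_span_of_det_eq_zero hv ?_⟩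
  have e := cross_mulVec (c g) v u
  rw [hzero g, htr g, zero_mul] at e
  simpa [cross] using e

/-- The bound from the two properties of flat cocycles of an ordinary representation: up to
coboundaries they are upper triangular with unramified diagonal, and the strict ones give at most
`3`. -/
theorem finrank_flatULocal_le_of {v : Fin 2 → k} (hv : v ≠ 0)
    (hstab : ∀ g, (r g).mulVec v ∈ k ∙ v)
    (hquot : ∀ g ∈ inertiaQp p, ∀ w, (r g).mulVec w - w ∈ k ∙ v)
    {F t : GalQp p} (hF : LocalCondB.IsFrobQp p F)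
    (ht : t ∈ inertiaQp p) (hχ : (r t).det ≠ 1)
    (hshape : ∀ c ∈ flatLocal p r, ∃ b ∈ adCoboundaries r, c - b ∈ flatCocycles p r ∧
      (∀ g, ((c - b) g).mulVec v ∈ k ∙ v) ∧ ∀ s ∈ inertiaQp p, ((c - b) s).mulVec v = 0)
    (hfd : FiniteDimensional k
      (flatCocycles p r ⊓ strictLine v ⊔ adCoboundaries r :
        Submodule k (GalQp p → Matrix (Fin 2) (Fin 2) k)))
    (hstrict : Module.finrank k
      (flatCocycles p r ⊓ strictLine v ⊔ adCoboundaries r :
        Submodule k (GalQp p → Matrix (Fin 2) (Fin 2) k)) ≤ 3) :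
    FiniteDimensional k (flatULocal r F t) ∧ Module.finrank k (flatULocal r F t) ≤ 3 := by
  have hle : flatULocal r F t ≤ flatCocycles p r ⊓ strictLine v ⊔ adCoboundaries r := by
    intro c hc
    obtain ⟨b, hb, hcb, hup, hunr⟩ := hshape c hc.1
    have hcts : flatCocycles p r ≤ ctsCocycles p r :=
      Submodule.span_le.2 fun x hx => hx.1
    have hdub : duForm r F t (c - b) = 0 := by
      rw [map_sub, show duForm r F t c = 0 from hc.2,
        show duForm r F t b = 0 from (adCoboundaries_le_flatULocal r F t hb).2, sub_zero]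
    have hmem := mem_strictLine_of_duForm_eq_zero hv hstab hquot hF ht hχ (hcts hcb) hup
      hunr hdub
    rw [← sub_add_cancel c b]
    exact Submodule.add_mem_sup ⟨hcb, hmem⟩ hb
  exact ⟨Submodule.finiteDimensional_of_le hle, (Submodule.finrank_mono hle).trans hstrict⟩

end Fermat.Agent.TW
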