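/-
Flat cocycles of an ordinary residual representation: up to coboundaries they are upper
triangular with unramified diagonal, and the strict ones span at most two dimensions.
-/
import Fermat.Agent.TW.LocalFlatField
import Fermat.Agent.TW.LocalFlatU
import Fermat.Agent.TW.LocalCondBOrd

set_option autoImplicit false
set_option maxHeartbeats 400000

noncomputable section

open scoped Matrix

namespace Fermat.Agent.TW

variable {p : ℕ} [Fact p.Prime] {k : Type} [Field k]
  {r : GalQp p →* Matrix (Fin 2) (Fin 2) k} {v : Fin 2 → k}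

theorem mulVec_eq_smul_of_line (hv : v ≠ 0) {x : Fin 2 → k} {u w : Fin 2 → k}
    (hdec : ∀ x, x = (u ⬝ᵥ x) • v + (LocalCondB.linePair v ⬝ᵥ x) • w) (hx : x ∈ k ∙ v) :
    x = (u ⬝ᵥ x) • v := by
  obtain ⟨t, rfl⟩ := Submodule.mem_span_singleton.1 hx
  conv_lhs => rw [hdec (t • v)]
  rw [dotProduct_smul, dotProduct_smul, LocalCondB.linePair_dotProduct_self]
  simp

/-- A trace zero matrix with an eigenline killed by it maps into the line. -/
theorem mem_line_of_trace_zero {C : Matrix (Fin 2) (Fin 2) k} (hv : v ≠ 0) (htr : C.trace = 0)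
    (h : C.mulVec v = 0) (x : Fin 2 → k) : C.mulVec x ∈ k ∙ v := by
  refine mem_span_of_det_eq_zero hv ?_
  have e := cross_mulVec C v x
  rw [h, htr, zero_mul] at e
  simpa [cross] using e

/-- The cocycles upper triangular with respect to `v` with diagonal trivial on inertia. -/
def upperLine (v : Fin 2 → k) : Submodule k (GalQp p → Matrix (Fin 2) (Fin 2) k) where
  carrier := {c | (∀ g, (c g).mulVec v ∈ k ∙ v) ∧ ∀ s ∈ inertiaQp p, (c s).mulVec v = 0}
  add_mem' {a b} ha hb := ⟨fun g => by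
    simp only [Pi.add_apply, Matrix.add_mulVec]; exact add_mem (ha.1 g) (hb.1 g),
    fun s hs => by simp [Matrix.add_mulVec, ha.2 s hs, hb.2 s hs]⟩
  zero_mem' := ⟨fun g => by simp, fun g _ => by simp⟩
  smul_mem' t a ha := ⟨fun g => by
    simp only [Pi.smul_apply, Matrix.smul_mulVec]; exact Submodule.smul_mem _ t (ha.1 g),
    fun s hs => by simp [Matrix.smul_mulVec, ha.2 s hs]⟩

section Shape

variable [Finite k] [CharP k p]

/-- Connected points of the fibre lie in the line. -/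
theorem mem_line_of_isConn (hp2 : p ≠ 2) (hspan : inertiaSpan r = k ∙ v)
    {c' : GalQp p → Matrix (Fin 2) (Fin 2) k}
    (M : LocalModel p ((Fin 2 → k) × (Fin 2 → k)) (liftAct r c')) {y : Fin 2 → k}
    (hy : M.IsConn (0, y)) : y ∈ k ∙ v := by
  rw [← hspan]
  refine mem_inertiaSpan_of_isConn hp2 (M.restrict (W := Fin 2 → k) (actW := vecAct r)
    (AddMonoidHom.inr (Fin 2 → k) (Fin 2 → k)) (fun a b hab => congrArg Prod.snd hab)
    fun σ x => by simp [liftAct_apply, Matrix.mulVec_zero]) ?_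
  rw [LocalModel.isConn_restrict_iff]
  exact hy

omit [Finite k] [CharP k p] in
/-- Connected lifts of the line. -/
theorem isConn_lift (hv : v ≠ 0) (hquot : ∀ g ∈ inertiaQp p, ∀ x, (r g).mulVec x - x ∈ k ∙ v)
    {s₀ : GalQp p} (hs₀ : s₀ ∈ inertiaQp p) (hd : (r s₀).det - 1 ≠ 0)
    {c' : GalQp p → Matrix (Fin 2) (Fin 2) k}
    (M : LocalModel p ((Fin 2 → k) × (Fin 2 → k)) (liftAct r c')) (t : k) :
    M.IsConn (t • v, t • (((r s₀).det / ((r s₀).det - 1)) • (c' s₀).mulVec v)) := by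
  have h := M.isConn_act_sub hs₀ ((t / ((r s₀).det - 1)) • v, 0)
  rw [liftAct_apply, Matrix.mulVec_smul, LocalCondB.inertia_mulVec_line r hv hquot hs₀,
    smul_smul] at h
  convert h using 1
  refine Prod.ext ?_ ?_
  · show t • v = _ - (t / ((r s₀).det - 1)) • v
    rw [← sub_smul]
    congr 1
    field_simp
  · show _ = (r s₀).mulVec 0 + (c' s₀).mulVec _ - 0
    rw [Matrix.mulVec_zero, zero_add, sub_zero, Matrix.mulVec_smul, smul_smul]
    congr 1
    field_simp

/-- The relation on the lifted line. -/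
theorem combination_mem_line (hp2 : p ≠ 2) (hv : v ≠ 0) (hspan : inertiaSpan r = k ∙ v)
    {s₀ : GalQp p} (hs₀ : s₀ ∈ inertiaQp p) (hd : (r s₀).det - 1 ≠ 0)
    {c : GalQp p → Matrix (Fin 2) (Fin 2) k}
    (M : LocalModel p ((Fin 2 → k) × (Fin 2 → k)) (liftAct r c)) {g : GalQp p} {a : k}
    (ha : (r g).mulVec v = a • v) {w₀ : Fin 2 → k}
    (hw₀ : w₀ = ((r s₀).det / ((r s₀).det - 1)) • (c s₀).mulVec v) :
    (r g).mulVec w₀ + a • (c g).mulVec v - a • w₀ ∈ k ∙ v := by
  have hquot : ∀ g ∈ inertiaQp p, ∀ x, (r g).mulVec x - x ∈ k ∙ v := fun g hg x =>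
    hspan ▸ sub_mem_inertiaSpan hg x
  have h1 := isConn_lift hv hquot hs₀ hd M 1
  have h2 := (h1.map_act g).add (isConn_lift hv hquot hs₀ hd M (-a))
  rw [← hw₀, one_smul, one_smul, liftAct_apply, ha, Matrix.mulVec_smul (c g), Prod.mk_add_mk,
    ← add_smul, add_neg_cancel, zero_smul, neg_smul, ← sub_eq_add_neg] at h2
  exact mem_line_of_isConn hp2 hspan M h2

/-- An upper triangular flat cocycle kills the line on inertia. -/
theorem mulVec_eq_zero_of_inertia (hp2 : p ≠ 2) (hv : v ≠ 0) (hspan : inertiaSpan r = k ∙ v)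
    {s₀ : GalQp p} (hs₀ : s₀ ∈ inertiaQp p) (hd : (r s₀).det - 1 ≠ 0)
    {c : GalQp p → Matrix (Fin 2) (Fin 2) k}
    (M : LocalModel p ((Fin 2 → k) × (Fin 2 → k)) (liftAct r c))
    (hup : ∀ g, (c g).mulVec v ∈ k ∙ v) {s : GalQp p} (hs : s ∈ inertiaQp p)
    (htr : (c s).trace = 0) : (c s).mulVec v = 0 := by
  obtain ⟨w, hvw⟩ := exists_cross_ne_zero hv
  have hquot : ∀ g ∈ inertiaQp p, ∀ x, (r g).mulVec x - x ∈ k ∙ v := fun g hg x =>
    hspan ▸ sub_mem_inertiaSpan hg x
  obtain ⟨γ, hγ⟩ := Submodule.mem_span_singleton.1 (hquot s hs w)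
  set y := (-γ) • (((r s₀).det / ((r s₀).det - 1)) • (c s₀).mulVec v) with hy
  have hyv : y ∈ k ∙ v := Submodule.smul_mem _ _ (Submodule.smul_mem _ _ (hup s₀))
  have h2 := (M.isConn_act_sub hs (w, 0)).add (isConn_lift hv hquot hs₀ hd M (-γ))
  rw [← hy, liftAct_apply, Matrix.mulVec_zero, zero_add, Prod.mk_sub_mk, Prod.mk_add_mk,
    ← hγ, neg_smul, add_neg_cancel, sub_zero] at h2
  have hmem := mem_line_of_isConn hp2 hspan M h2
  rw [Submodule.add_mem_iff_left _ hyv, show (r s).mulVec w = w + γ • v by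
    rw [hγ, add_sub_cancel], Matrix.mulVec_add, Matrix.mulVec_smul,
    Submodule.add_mem_iff_left _ (Submodule.smul_mem _ γ (hup s))] at hmem
  obtain ⟨b, hb⟩ := Submodule.mem_span_singleton.1 hmem
  obtain ⟨h, hh⟩ := Submodule.mem_span_singleton.1 (hup s)
  have e := cross_mulVec (c s) v w
  rw [htr, zero_mul, ← hb, ← hh, cross_smul_left, cross_smul_right, cross_self, mul_zero,
    add_zero] at e
  rw [← hh, (mul_eq_zero.mp e).resolve_right hvw, zero_smul]

/-- Up to a coboundary a flat cocycle is upper triangular with diagonal trivial on inertia. -/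
theorem exists_sub_adD_mem_upperLine (hp2 : p ≠ 2) (hfin : IsFiniteLevel p r)
    (hdet : ∀ g, (r g).det = ((localCyclo p g : ZMod p).val : k)) (hv : v ≠ 0)
    (hspan : inertiaSpan r = k ∙ v) {c : GalQp p → Matrix (Fin 2) (Fin 2) k}
    (hc : IsFlatCocycle r c) :
    ∃ M ∈ trZero k, c - adD r M ∈ upperLine (p := p) v := by
  obtain ⟨w, u, huv, huw, hlw, hdec⟩ := LocalCondB.exists_line_complement hv
  obtain ⟨s₀, hs₀, hs₀1⟩ := exists_inertia_det_ne_one (r := r) hp2 hdet
  have hd : (r s₀).det - 1 ≠ 0 := sub_ne_zero.mpr hs₀1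
  have hstab : ∀ g, (r g).mulVec v ∈ k ∙ v := fun g => hspan ▸
    mulVec_mem_inertiaSpan g (hspan.symm ▸ Submodule.mem_span_singleton_self v)
  obtain ⟨Mc⟩ := hc.2
  set w₀ := ((r s₀).det / ((r s₀).det - 1)) • (c s₀).mulVec v with hw₀
  set M : Matrix (Fin 2) (Fin 2) k :=
    Matrix.vecMulVec (-w₀) u + Matrix.vecMulVec ((u ⬝ᵥ w₀) • w) (LocalCondB.linePair v) with hM
  have hMtr : M ∈ trZero k := by
    rw [LinearMap.mem_ker, Matrix.traceLinearMap_apply, hM, Matrix.trace_add,
      Matrix.trace_vecMulVec, Matrix.trace_vecMulVec, neg_dotProduct,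
      dotProduct_comm ((u ⬝ᵥ w₀) • w), dotProduct_smul, hlw, dotProduct_comm w₀, smul_eq_mul,
      mul_one, neg_add_cancel]
  have hMv : M.mulVec v = -w₀ := by
    rw [hM, Matrix.add_mulVec, Matrix.vecMulVec_mulVec, Matrix.vecMulVec_mulVec, huv,
      LocalCondB.linePair_dotProduct_self]
    funext i
    simp
  refine ⟨M, hMtr, ?_⟩
  have hup : ∀ g, ((c - adD r M) g).mulVec v ∈ k ∙ v := by
    intro g
    obtain ⟨a, ha⟩ := LocalCondB.rep_stable r hstab g
    obtain ⟨a', ha'⟩ := LocalCondB.rep_stable r hstab g⁻¹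
    have haa : a * a' = 1 := by
      refine smul_left_injective k hv (?_ : (a * a') • v = (1 : k) • v)
      rw [one_smul, mul_comm, ← smul_smul, ← ha, ← Matrix.mulVec_smul, ← ha',
        Matrix.mulVec_mulVec, LocalCondB.rep_mul_inv_self, Matrix.one_mulVec]
    have heq : ((c - adD r M) g).mulVec v =
        a' • ((r g).mulVec w₀ + a • (c g).mulVec v - a • w₀) := by
      rw [Pi.sub_apply, adD_apply, Matrix.sub_mulVec, Matrix.sub_mulVec,
        ← Matrix.mulVec_mulVec, ha', Matrix.mulVec_smul, ← Matrix.mulVec_mulVec, hMv,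
        Matrix.mulVec_neg, smul_sub, smul_add, smul_smul, smul_smul, mul_comm a', haa, one_smul,
        one_smul, smul_neg]
      abel
    rw [heq]
    exact Submodule.smul_mem _ _ (combination_mem_line hp2 hv hspan hs₀ hd Mc ha hw₀)
  obtain ⟨Mc'⟩ := (hc.sub_adD hfin M).2
  exact ⟨hup, fun s hs =>
    mulVec_eq_zero_of_inertia hp2 hv hspan hs₀ hd Mc' hup hs ((hc.sub_adD hfin M).1.1.1 s)⟩

end Shape

end Fermat.Agent.TW
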