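/-
Strictly upper triangular flat cocycles of an ordinary residual representation: at most two
dimensions.
-/
import Fermat.Agent.TW.LocalFlatOrd

set_option autoImplicit false
set_option maxHeartbeats 400000

noncomputable section

open scoped Matrix

namespace Fermat.Agent.TW

variable {p : ℕ} [Fact p.Prime] {k : Type} [Field k]
  {r : GalQp p →* Matrix (Fin 2) (Fin 2) k} {v w u : Fin 2 → k}

/-- The coefficient of a strictly upper triangular cocycle. -/
def stdCoeff (u w : Fin 2 → k) :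
    (GalQp p → Matrix (Fin 2) (Fin 2) k) →ₗ[k] (GalQp p → k) where
  toFun c g := u ⬝ᵥ (c g).mulVec w
  map_add' a b := funext fun g => by simp only [Pi.add_apply, Matrix.add_mulVec, dotProduct_add]
  map_smul' t a := funext fun g => by simp only [Pi.smul_apply, Matrix.smul_mulVec, dotProduct_smul, RingHom.id_apply]

theorem stdCoeff_apply (c : GalQp p → Matrix (Fin 2) (Fin 2) k) (g : GalQp p) :
    stdCoeff u w c g = u ⬝ᵥ (c g).mulVec w := rfl

section Coordinates

variable (hv : v ≠ 0) (huv : u ⬝ᵥ v = 1)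
  (hdec : ∀ x, x = (u ⬝ᵥ x) • v + (LocalCondB.linePair v ⬝ᵥ x) • w)

include hv hdec in
theorem apply_eq_stdCoeff {c : GalQp p → Matrix (Fin 2) (Fin 2) k} (hc : c ∈ strictLine v)
    (g : GalQp p) : (c g).mulVec w = stdCoeff u w c g • v :=
  mulVec_eq_smul_of_line hv hdec (hc.2 g w)

include hv hdec in
theorem apply_eq_zero_iff {c : GalQp p → Matrix (Fin 2) (Fin 2) k} (hc : c ∈ strictLine v)
    (g : GalQp p) : c g = 0 ↔ stdCoeff u w c g = 0 := by
  refine ⟨fun h => by simp [stdCoeff_apply, h], fun h => ?_⟩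
  refine Matrix.ext_of_mulVec_single fun i => ?_
  rw [Matrix.zero_mulVec]
  rw [hdec (Pi.single i 1), Matrix.mulVec_add, Matrix.mulVec_smul, Matrix.mulVec_smul, hc.1 g,
    apply_eq_stdCoeff hv hdec hc g, h]
  simp

end Coordinates

/-- The character by which `g` acts on the strictly upper triangular matrices. -/
def stdChar (r : GalQp p →* Matrix (Fin 2) (Fin 2) k) (v w u : Fin 2 → k) (g : GalQp p) : k :=
  (u ⬝ᵥ (r g).mulVec v) * (LocalCondB.linePair v ⬝ᵥ (r g⁻¹).mulVec w)

theorem stdCoeff_mul (hv : v ≠ 0) (huv : u ⬝ᵥ v = 1)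
    (hdec : ∀ x, x = (u ⬝ᵥ x) • v + (LocalCondB.linePair v ⬝ᵥ x) • w)
    (hstab : ∀ g, (r g).mulVec v ∈ k ∙ v) {c : GalQp p → Matrix (Fin 2) (Fin 2) k}
    (hc : c ∈ adCocycles r) (hcs : c ∈ strictLine v) (g h : GalQp p) :
    stdCoeff u w c (g * h) = stdCoeff u w c g + stdChar r v w u g * stdCoeff u w c h := by
  obtain ⟨a, ha⟩ := LocalCondB.rep_stable r hstab g
  rw [stdCoeff_apply, hc.2, Matrix.add_mulVec, dotProduct_add, ← Matrix.mulVec_mulVec,
    ← Matrix.mulVec_mulVec]
  conv_lhs => arg 2; rw [hdec ((r g⁻¹).mulVec w)]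
  rw [Matrix.mulVec_add, Matrix.mulVec_smul, Matrix.mulVec_smul, hcs.1 h,
    apply_eq_stdCoeff hv hdec hcs h, smul_zero, zero_add, Matrix.mulVec_smul, Matrix.mulVec_smul,
    ha, dotProduct_smul, dotProduct_smul, dotProduct_smul, huv, stdChar, ha, dotProduct_smul, huv,
    ← stdCoeff_apply]
  simp only [smul_eq_mul]
  ring

theorem stdChar_of_inertia (hv : v ≠ 0) (huv : u ⬝ᵥ v = 1)
    (hlw : LocalCondB.linePair v ⬝ᵥ w = 1)
    (hquot : ∀ g ∈ inertiaQp p, ∀ x, (r g).mulVec x - x ∈ k ∙ v) {g : GalQp p}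
    (hg : g ∈ inertiaQp p) : stdChar r v w u g = (r g).det := by
  obtain ⟨γ, hγ⟩ := Submodule.mem_span_singleton.1 (hquot g⁻¹ (inv_mem hg) w)
  rw [stdChar, LocalCondB.inertia_mulVec_line r hv hquot hg,
    show (r g⁻¹).mulVec w = w + γ • v by rw [hγ, add_sub_cancel], dotProduct_smul, dotProduct_add,
    dotProduct_smul, huv, hlw, LocalCondB.linePair_dotProduct_self, smul_zero, add_zero,
    smul_eq_mul, mul_one, mul_one]

variable [Finite k] [CharP k p]

/-- The strictly upper triangular flat cocycles span at most two dimensions. -/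
theorem exists_span_strict (hp2 : p ≠ 2) (hfin : IsFiniteLevel p r)
    (hdet : ∀ g, (r g).det = ((localCyclo p g : ZMod p).val : k)) (hv : v ≠ 0)
    (hspan : inertiaSpan r = k ∙ v) (hres : HasLocalModel p (Fin 2 → k) (vecAct r)) :
    ∃ f₁ f₂ : GalQp p → Matrix (Fin 2) (Fin 2) k,
      flatSubmodule r hres ⊓ strictLine v ≤ Submodule.span k {f₁, f₂} := by
  classical
  haveI : NeZero p := ⟨(Fact.out : p.Prime).ne_zero⟩
  obtain ⟨w, u, huv, -, hlw, hdec⟩ := LocalCondB.exists_line_complement hv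
  have hquot : ∀ g ∈ inertiaQp p, ∀ x, (r g).mulVec x - x ∈ k ∙ v := fun g hg x =>
    hspan ▸ sub_mem_inertiaSpan hg x
  have hstab : ∀ g, (r g).mulVec v ∈ k ∙ v := fun g => hspan ▸
    mulVec_mem_inertiaSpan g (hspan.symm ▸ Submodule.mem_span_singleton_self v)
  set W := inertiaQp p ⊓ (localCyclo p).ker with hW
  have hdetW : ∀ g ∈ W, (r g).det = 1 := fun g hg => by
    rw [hdet, show localCyclo p g = 1 from MonoidHom.mem_ker.1 hg.2, Units.val_one,
      ZMod.val_one, Nat.cast_one]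
  have hWn : ∀ g : GalQp p, ∀ x ∈ W, g * x * g⁻¹ ∈ W := fun g x hx =>
    ⟨conj_mem_inertiaQp p g hx.1, (MonoidHom.normal_ker (localCyclo p)).conj_mem x hx.2 g⟩
  -- a generator of the image of inertia
  obtain ⟨⟨_, τ, hτ, rfl⟩, hgen⟩ :=
    IsCyclic.exists_monoid_generator (α := (inertiaQp p).map (localCyclo p))
  replace hτ : τ ∈ inertiaQp p := hτ
  set e0 := orderOf (localCyclo p τ) with he0
  have he0p : e0 ∣ p - 1 := by
    rw [← ZMod.card_units p]
    exact orderOf_dvd_card
  have hp1 : 0 < p - 1 := by have := (Fact.out : p.Prime).two_le; omega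
  have hgen' : ∀ g ∈ inertiaQp p, ∃ (i : ℕ), ∃ x ∈ W, g = τ ^ i * x := by
    intro g hg
    obtain ⟨i, hi⟩ := hgen ⟨localCyclo p g, g, hg, rfl⟩
    refine ⟨i, (τ ^ i)⁻¹ * g, Subgroup.mem_inf.mpr ⟨mul_mem (inv_mem (pow_mem hτ i)) hg, ?_⟩,
      (mul_inv_cancel_left _ _).symm⟩
    show localCyclo p _ = 1
    rw [map_mul, map_inv, map_pow, inv_mul_eq_one]
    exact congrArg Subtype.val hi
  set ξ : k := (r τ).det with hξ
  have hcast : (r τ).det = ZMod.castHom dvd_rfl k (localCyclo p τ : ZMod p) := by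
    rw [hdet, ZMod.natCast_val, ZMod.castHom_apply]
  have hξord : orderOf ξ = e0 := by
    rw [hξ, hcast]
    show orderOf ((ZMod.castHom dvd_rfl k).toMonoidHom _) = e0
    rw [orderOf_injective _ (ZMod.castHom dvd_rfl k).injective, orderOf_units]
  have hξ1 : ξ ≠ 1 := by
    intro h1
    obtain ⟨s, hs, hs1⟩ := exists_inertia_det_ne_one (r := r) hp2 hdet
    obtain ⟨i, x, hx, rfl⟩ := hgen' s hs
    apply hs1
    rw [map_mul, Matrix.det_mul, map_pow, Matrix.det_pow, ← hξ, h1, one_pow, one_mul, hdetW x hx]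
  have hpsi : ∀ {x : GalQp p}, x ∈ W → stdChar r v w u x = 1 := fun {x} hx => by
    rw [stdChar_of_inertia hv huv hlw hquot hx.1, hdetW x hx]
  -- facts about a strict cocycle
  have hmul : ∀ c ∈ flatSubmodule r hres ⊓ strictLine v, ∀ g h,
      stdCoeff u w c (g * h) = stdCoeff u w c g + stdChar r v w u g * stdCoeff u w c h :=
    fun c hc g h => stdCoeff_mul hv huv hdec hstab hc.1.1.1 hc.2 g h
  have hmulW : ∀ c ∈ flatSubmodule r hres ⊓ strictLine v, ∀ x ∈ W, ∀ y,
      stdCoeff u w c (x * y) = stdCoeff u w c x + stdCoeff u w c y := fun c hc x hx y => by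
    rw [hmul c hc, hpsi hx, one_mul]
  have hconj : ∀ c ∈ flatSubmodule r hres ⊓ strictLine v, ∀ g, ∀ x ∈ W,
      stdCoeff u w c (g * x * g⁻¹) = stdChar r v w u g * stdCoeff u w c x := by
    intro c hc g x hx
    have h1 : stdCoeff u w c (g * x * g⁻¹ * g) =
        stdCoeff u w c (g * x * g⁻¹) + stdCoeff u w c g := hmulW c hc _ (hWn g x hx) g
    rw [inv_mul_cancel_right, hmul c hc] at h1
    linear_combination -h1
  -- a cocycle vanishing on `W` is a coboundary
  have hker : ∀ c ∈ flatSubmodule r hres ⊓ strictLine v, (∀ x ∈ W, stdCoeff u w c x = 0) →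
      ∀ g, stdCoeff u w c g =
        (stdCoeff u w c τ / (ξ - 1)) * (stdChar r v w u g - 1) := by
    intro c hc hcW g
    have hψτ : stdChar r v w u τ = ξ := stdChar_of_inertia hv huv hlw hquot hτ
    have hg : stdCoeff u w c (τ * g) = stdCoeff u w c (g * (g⁻¹ * τ * g)) := by
      rw [mul_assoc g⁻¹, mul_inv_cancel_left]
    have hs := conj_mem_inertiaQp p g⁻¹ hτ
    rw [inv_inv] at hs
    obtain ⟨i, x, hx, hix⟩ := hgen' _ hs
    have hpow : ∀ j : ℕ, stdCoeff u w c (τ ^ j) = stdCoeff u w c τ / (ξ - 1) * (ξ ^ j - 1) := by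
      intro j
      induction j with
      | zero =>
        rw [pow_zero, pow_zero, sub_self, mul_zero]
        exact hcW 1 (one_mem W)
      | succ j ih =>
        rw [pow_succ', hmul c hc, hψτ, ih]
        have : ξ - 1 ≠ 0 := sub_ne_zero.mpr hξ1
        field_simp
        ring
    have hξi : ξ ^ i = ξ := by
      have h1 := congrArg (fun y => (r y).det) hix
      simp only [map_mul, Matrix.det_mul, map_pow, Matrix.det_pow, hdetW x hx, mul_one] at h1
      rw [show (r g⁻¹).det * (r τ).det * (r g).det = ξ by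
        rw [mul_comm (r g⁻¹).det, mul_assoc, ← Matrix.det_mul, LocalCondB.rep_inv_mul_self,
          Matrix.det_one, mul_one]] at h1
      exact h1.symm
    rw [hmul c hc, hmul c hc, hψτ, hix, hmul c hc (τ ^ i) x, hcW x hx, mul_zero, add_zero,
      hpow i, hξi] at hg
    have : ξ - 1 ≠ 0 := sub_ne_zero.mpr hξ1
    field_simp at hg ⊢
    linear_combination hg
  -- the values on `W` are proportional
  have hpair : ∀ c₁ ∈ flatSubmodule r hres ⊓ strictLine v,
      ∀ c₂ ∈ flatSubmodule r hres ⊓ strictLine v, ∃ b : k × k, ∀ x ∈ W,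
        (stdCoeff u w c₁ x, stdCoeff u w c₂ x) ∈ k ∙ b := by
    intro c₁ h₁ c₂ h₂
    obtain ⟨K, hK1, hK2, hRB, hKfix⟩ := exists_ramBound_field hfin h₁.1 h₂.1
    haveI := hK1
    haveI := hK2
    have hD : EigenData K W τ e0 ξ fun g => (stdCoeff u w c₁ g, stdCoeff u w c₂ g) :=
      { le_inertia := inf_le_left
        fix_mem := fun g hg hgK => ⟨hg, by
          show localCyclo p g = 1
          have h1 := hdet g
          rw [(hKfix g hgK).1, Matrix.det_one, ← LocalCondB.cycloK_apply] at h1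
          refine Units.ext ((ZMod.castHom (dvd_refl p) k).injective ?_)
          rw [Units.val_one, _root_.map_one]
          exact h1.symm⟩
        tau_mem := hτ
        gen := hgen'
        tau_pow := fun i => by
          rw [hW, Subgroup.mem_inf, MonoidHom.mem_ker, map_pow, ← orderOf_dvd_iff_pow_eq_one]
          exact and_iff_right (pow_mem hτ i)
        pos := orderOf_pos _
        coprime := (((Fact.out : p.Prime).coprime_iff_not_dvd).mpr fun hd => by
          have := Nat.le_of_dvd hp1 (hd.trans he0p); omega).symm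
        normal := fun g _ => hWn g
        map_mul := fun x hx y _ => Prod.ext (hmulW c₁ h₁ x hx y) (hmulW c₂ h₂ x hx y)
        map_fix := fun x _ hxK => by
          obtain ⟨-, h3, h4⟩ := hKfix x hxK
          simp [stdCoeff_apply, h3, h4]
        map_conj := fun x hx => by
          rw [hconj c₁ h₁ τ x hx, hconj c₂ h₂ τ x hx,
            stdChar_of_inertia hv huv hlw hquot hτ]
          rfl
        scal_ne := fun h0 => by
          have := congrArg Matrix.det (LocalCondB.rep_mul_inv_self r τ)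
          rw [Matrix.det_mul, ← hξ, h0, zero_mul, Matrix.det_one] at this
          exact zero_ne_one this }
    obtain ⟨φ, hφ⟩ := exists_frobenius p
    exact hD.exists_mem_span hRB (t₀ := e0 / orderOf ξ)
      (hD.jumpUnique hp2 (by rw [hξord]; exact (Nat.le_of_dvd hp1 he0p).trans (by omega)))
      (Fact.out : p.Prime).one_lt (prime_le_natCard_closure ξ) hφ (fun x hx => hWn φ x hx)
      (γ := stdChar r v w u φ) fun x hx => by
        rw [hconj c₁ h₁ φ x hx, hconj c₂ h₂ φ x hx]; rfl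
  -- conclusion
  obtain ⟨c₀, hc₀, hmax⟩ : ∃ c₀ ∈ flatSubmodule r hres ⊓ strictLine v,
      ∀ c ∈ flatSubmodule r hres ⊓ strictLine v,
        ∃ t : k, ∀ x ∈ W, stdCoeff u w (c - t • c₀) x = 0 := by
    by_cases h0 : ∃ c₀ ∈ flatSubmodule r hres ⊓ strictLine v, ∃ x ∈ W, stdCoeff u w c₀ x ≠ 0
    · obtain ⟨c₀, hc₀, x₀, hx₀, hne⟩ := h0
      refine ⟨c₀, hc₀, fun c hc => ?_⟩
      obtain ⟨b, hb⟩ := hpair c₀ hc₀ c hc
      obtain ⟨s₀, hs₀⟩ := Submodule.mem_span_singleton.1 (hb x₀ hx₀)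
      rw [Prod.ext_iff] at hs₀
      simp only [Prod.smul_fst, Prod.smul_snd, smul_eq_mul] at hs₀
      have hb1 : b.1 ≠ 0 := fun hz => hne (by rw [← hs₀.1, hz, mul_zero])
      refine ⟨b.2 / b.1, fun x hx => ?_⟩
      obtain ⟨s, hs⟩ := Submodule.mem_span_singleton.1 (hb x hx)
      rw [Prod.ext_iff] at hs
      simp only [Prod.smul_fst, Prod.smul_snd, smul_eq_mul] at hs
      rw [map_sub, map_smul, Pi.sub_apply, Pi.smul_apply, ← hs.1, ← hs.2, smul_eq_mul]
      field_simp
      ring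
    · push Not at h0
      exact ⟨0, zero_mem _, fun c hc => ⟨0, fun x hx => by rw [zero_smul, sub_zero]; exact h0 c hc x hx⟩⟩
  refine ⟨c₀, adD r (LocalCondB.lineNil v), fun c hc => ?_⟩
  obtain ⟨t, ht⟩ := hmax c hc
  have hd : c - t • c₀ ∈ flatSubmodule r hres ⊓ strictLine v :=
    sub_mem hc (Submodule.smul_mem _ t hc₀)
  have hco := hker _ hd ht
  rw [Submodule.mem_span_pair]
  refine ⟨t, stdCoeff u w (c - t • c₀) τ / (ξ - 1), ?_⟩
  suffices h : c - t • c₀ - (stdCoeff u w (c - t • c₀) τ / (ξ - 1)) •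
      adD r (LocalCondB.lineNil v) = 0 by
    rw [← sub_eq_zero.mp h]
    abel
  funext g
  obtain ⟨a', ha'⟩ := LocalCondB.rep_stable r hstab g⁻¹
  obtain ⟨a, ha⟩ := LocalCondB.rep_stable r hstab g
  have hnil : ∀ x, (adD r (LocalCondB.lineNil v) g).mulVec x =
      ((LocalCondB.linePair v ⬝ᵥ (r g⁻¹).mulVec x) * (u ⬝ᵥ (r g).mulVec v) -
        LocalCondB.linePair v ⬝ᵥ x) • v := by
    intro x
    rw [adD_apply, Matrix.sub_mulVec, ← Matrix.mulVec_mulVec, ← Matrix.mulVec_mulVec,
      LocalCondB.lineNil_mulVec, LocalCondB.lineNil_mulVec, Matrix.mulVec_smul, ha,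
      dotProduct_smul, huv, smul_eq_mul a, mul_one, smul_smul, ← sub_smul]
  refine Matrix.ext_of_mulVec_single fun i => ?_
  rw [Pi.sub_apply, Pi.smul_apply, Pi.zero_apply, Matrix.zero_mulVec, Matrix.sub_mulVec,
    Matrix.smul_mulVec, hnil, hdec (Pi.single i 1), Matrix.mulVec_add, Matrix.mulVec_smul,
    Matrix.mulVec_smul, hd.2.1 g, apply_eq_stdCoeff hv hdec hd.2 g, hco g, stdChar,
    Matrix.mulVec_add, Matrix.mulVec_smul, Matrix.mulVec_smul, ha', dotProduct_add,
    dotProduct_smul, dotProduct_smul, dotProduct_smul, LocalCondB.linePair_dotProduct_self,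
    dotProduct_add, dotProduct_smul, dotProduct_smul, LocalCondB.linePair_dotProduct_self, hlw]
  simp only [smul_eq_mul, mul_zero, zero_add, mul_one, smul_zero, smul_smul, ← sub_smul]
  convert zero_smul k v using 2
  ring

end Fermat.Agent.TW
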