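/-
The dimension bounds for the flat local conditions at `p`.
-/
import Fermat.Agent.TW.LocalFlatStrict
import Fermat.Agent.TW.LocalFlatNiveau

set_option autoImplicit false
set_option maxHeartbeats 400000

noncomputable section

open Polynomial
open scoped Matrix

namespace Fermat.Agent.TW

variable {p : ℕ} [Fact p.Prime] {k : Type} [Field k]
  {r : GalQp p →* Matrix (Fin 2) (Fin 2) k} {v : Fin 2 → k}

theorem finiteDimensional_adCoboundaries (r : GalQp p →* Matrix (Fin 2) (Fin 2) k) :
    FiniteDimensional k (adCoboundaries r) := by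
  unfold adCoboundaries
  infer_instance

theorem finrank_adCoboundaries_le_three (r : GalQp p →* Matrix (Fin 2) (Fin 2) k) :
    Module.finrank k (adCoboundaries r) ≤ 3 :=
  (Submodule.finrank_map_le _ _).trans LocalCondB.finrank_trZero.le

/-- An upper triangular cocycle vanishing on the line at a Frobenius is strict. -/
theorem mem_strictLine_of_apply_frob (hv : v ≠ 0) (hstab : ∀ g, (r g).mulVec v ∈ k ∙ v)
    {F : GalQp p} (hF : LocalCondB.IsFrobQp p F) {c : GalQp p → Matrix (Fin 2) (Fin 2) k}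
    (hc : c ∈ ctsCocycles p r) (hup : c ∈ upperLine v) (hcF : (c F).mulVec v = 0) :
    c ∈ strictLine (p := p) v := by
  obtain ⟨⟨htr, hcoc⟩, E₁, hE₁, hE₁c⟩ := hc
  have := hE₁
  have hmul : ∀ g h, (c g).mulVec v = 0 → (c h).mulVec v = 0 → (c (g * h)).mulVec v = 0 := by
    intro g h hg hh
    obtain ⟨a, ha⟩ := LocalCondB.rep_stable r hstab g⁻¹
    rw [hcoc, Matrix.add_mulVec, hg, zero_add, ← Matrix.mulVec_mulVec, ha,
      ← Matrix.mulVec_mulVec, Matrix.mulVec_smul, hh, smul_zero, Matrix.mulVec_zero]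
  have hpow : ∀ m : ℕ, (c (F ^ m)).mulVec v = 0 := by
    intro m
    induction m with
    | zero => rw [pow_zero]; exact hup.2 1 (one_mem _)
    | succ m ih => rw [pow_succ]; exact hmul _ _ ih hcF
  have hzero : ∀ g, (c g).mulVec v = 0 := by
    intro g
    obtain ⟨m, -, i, hi, j, hj, rfl⟩ := exists_decomposition p
      (IntermediateField.normalClosure ℚ_[p] E₁ (PadicAlgCl p))
      (φ := F) (fun z => by
        rw [← map_pow, resid_eq_iff, coe_smul_intQp, SubmonoidClass.coe_pow]
        exact hF z ((mem_intQp_iff p _).mp z.2)) g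
    rw [hE₁c _ j (IntermediateField.fixingSubgroup_antitone
      (IntermediateField.le_normalClosure _) hj)]
    exact hmul _ _ (hpow m) (hup.2 i hi)
  exact ⟨hzero, fun g x => mem_line_of_trace_zero hv (htr g) (hzero g) x⟩

/-- The coboundaries are strict flat ones and one further line. -/
theorem exists_adCoboundaries_le [Finite k] (hfin : IsFiniteLevel p r) (hv : v ≠ 0)
    (hstab : ∀ g, (r g).mulVec v ∈ k ∙ v) (hres : HasLocalModel p (Fin 2 → k) (vecAct r)) :
    ∃ b : GalQp p → Matrix (Fin 2) (Fin 2) k,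
      adCoboundaries r ≤ (flatSubmodule r hres ⊓ strictLine v) ⊔ (k ∙ b) := by
  obtain ⟨w, u, huv, huw, -, hdec⟩ := LocalCondB.exists_line_complement hv
  have hM₀ : Matrix.vecMulVec w u ∈ trZero k := by
    rw [LinearMap.mem_ker, Matrix.traceLinearMap_apply, Matrix.trace_vecMulVec, dotProduct_comm,
      huw]
  have hM₀v : (Matrix.vecMulVec w u).mulVec v = w := by
    rw [Matrix.vecMulVec_mulVec, huv]
    simp
  refine ⟨adD r (Matrix.vecMulVec w u), ?_⟩
  rintro _ ⟨M, hM, rfl⟩
  set t := LocalCondB.linePair v ⬝ᵥ M.mulVec v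
  set M₁ := M - t • Matrix.vecMulVec w u with hM₁
  have hM₁tr : M₁ ∈ trZero k := sub_mem hM (Submodule.smul_mem _ t hM₀)
  have hM₁v : M₁.mulVec v = (u ⬝ᵥ M.mulVec v) • v := by
    rw [hM₁, Matrix.sub_mulVec, Matrix.smul_mulVec, hM₀v]
    conv_lhs => arg 1; rw [hdec (M.mulVec v)]
    exact add_sub_cancel_right _ _
  have hflat : adD r M₁ ∈ flatSubmodule r hres := by
    rw [← flatLocal_eq hfin hres]
    exact Submodule.mem_sup_right ⟨M₁, hM₁tr, rfl⟩
  have hzero : ∀ g, (adD r M₁ g).mulVec v = 0 := by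
    intro g
    obtain ⟨a, ha⟩ := LocalCondB.rep_stable r hstab g⁻¹
    rw [adD_apply, Matrix.sub_mulVec, ← Matrix.mulVec_mulVec, ← Matrix.mulVec_mulVec, ha,
      Matrix.mulVec_smul, hM₁v, smul_comm a, Matrix.mulVec_smul, ← ha, Matrix.mulVec_mulVec,
      LocalCondB.rep_mul_inv_self, Matrix.one_mulVec, sub_self]
  have hstrict : adD r M₁ ∈ strictLine v :=
    ⟨hzero, fun g x => mem_line_of_trace_zero hv (hflat.1.1.1 g) (hzero g) x⟩
  rw [show adD r M = adD r M₁ + t • adD r (Matrix.vecMulVec w u) by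
    rw [hM₁, map_sub, map_smul, sub_add_cancel]]
  exact Submodule.add_mem_sup ⟨hflat, hstrict⟩
    (Submodule.smul_mem _ t (Submodule.mem_span_singleton_self _))

theorem inertiaSpan_eq_line {v : Fin 2 → k}
    (hquot : ∀ g ∈ inertiaQp p, ∀ w, (r g).mulVec w - w ∈ k ∙ v)
    {t : GalQp p} (ht : t ∈ inertiaQp p) (hχ : (r t).det ≠ 1) :
    inertiaSpan r = k ∙ v := by
  refine le_antisymm (Submodule.span_le.mpr ?_) ?_
  · rintro _ ⟨s, hs, w, rfl⟩
    exact hquot s hs w
  · obtain ⟨w, hw⟩ : ∃ w, (r t).mulVec w - w ≠ 0 := by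
      by_contra hcon
      push Not at hcon
      apply hχ
      have : r t = 1 := Matrix.ext_of_mulVec_single fun i => by
        rw [sub_eq_zero.mp (hcon _), Matrix.one_mulVec]
      rw [this, Matrix.det_one]
    obtain ⟨γ, hγ⟩ := Submodule.mem_span_singleton.1 (hquot t ht w)
    have hγ0 : γ ≠ 0 := fun h => hw (by rw [← hγ, h, zero_smul])
    rw [Submodule.span_singleton_le_iff_mem, ← inv_smul_smul₀ hγ0 v, hγ]
    exact Submodule.smul_mem _ _ (sub_mem_inertiaSpan ht w)

section Ordinary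

variable [Finite k] [CharP k p]

/-- The strict flat cocycles and the coboundaries: at most three dimensions. -/
theorem finrank_strict_sup_le (hp2 : p ≠ 2) (hfin : IsFiniteLevel p r)
    (hdet : ∀ g, (r g).det = ((localCyclo p g : ZMod p).val : k)) (hv : v ≠ 0)
    (hspan : inertiaSpan r = k ∙ v) (hres : HasLocalModel p (Fin 2 → k) (vecAct r)) :
    FiniteDimensional k (flatSubmodule r hres ⊓ strictLine v ⊔ adCoboundaries r :
        Submodule k (GalQp p → Matrix (Fin 2) (Fin 2) k)) ∧
      Module.finrank k (flatSubmodule r hres ⊓ strictLine v ⊔ adCoboundaries r :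
        Submodule k (GalQp p → Matrix (Fin 2) (Fin 2) k)) ≤ 3 := by
  classical
  have hstab : ∀ g, (r g).mulVec v ∈ k ∙ v := fun g => hspan ▸
    mulVec_mem_inertiaSpan g (hspan.symm ▸ Submodule.mem_span_singleton_self v)
  obtain ⟨f₁, f₂, hf⟩ := exists_span_strict hp2 hfin hdet hv hspan hres
  obtain ⟨b, hb⟩ := exists_adCoboundaries_le hfin hv hstab hres
  have hle : flatSubmodule r hres ⊓ strictLine v ⊔ adCoboundaries r ≤
      Submodule.span k {f₁, f₂} ⊔ (k ∙ b) :=
    sup_le (hf.trans le_sup_left) (hb.trans (sup_le_sup_right hf _))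
  haveI : FiniteDimensional k (Submodule.span k ({f₁, f₂} : Set _)) :=
    FiniteDimensional.span_of_finite k (Set.toFinite _)
  refine ⟨Submodule.finiteDimensional_of_le hle, (Submodule.finrank_mono hle).trans
    ((Submodule.finrank_add_le_finrank_add_finrank _ _).trans ?_)⟩
  have h1 : Module.finrank k (Submodule.span k ({f₁, f₂} : Set _)) ≤ 2 :=
    (finrank_span_le_card _).trans (by simp [Finset.card_le_two])
  have h2 : Module.finrank k (k ∙ b) ≤ 1 := (finrank_span_le_card _).trans (by simp)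
  omega

/-- The flat cocycles of an ordinary representation: at most four dimensions. -/
theorem finrank_flatSubmodule_le_of_ordinary (hp2 : p ≠ 2) (hfin : IsFiniteLevel p r)
    (hdet : ∀ g, (r g).det = ((localCyclo p g : ZMod p).val : k)) (hv : v ≠ 0)
    (hspan : inertiaSpan r = k ∙ v) (hres : HasLocalModel p (Fin 2 → k) (vecAct r)) :
    FiniteDimensional k (flatSubmodule r hres) ∧
      Module.finrank k (flatSubmodule r hres) ≤ 4 := by
  classical
  have hstab : ∀ g, (r g).mulVec v ∈ k ∙ v := fun g => hspan ▸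
    mulVec_mem_inertiaSpan g (hspan.symm ▸ Submodule.mem_span_singleton_self v)
  obtain ⟨hfd, h3⟩ := finrank_strict_sup_le hp2 hfin hdet hv hspan hres
  obtain ⟨F, hF⟩ := LocalCondB.exists_isFrobQp (q := p)
  set U := flatSubmodule r hres ⊓ upperLine v
  set T := flatSubmodule r hres ⊓ strictLine v ⊔ adCoboundaries r
  obtain ⟨c₀, hc₀⟩ : ∃ c₀, U ≤ T ⊔ (k ∙ c₀) := by
    by_cases hex : ∃ c₀ ∈ U, (c₀ F).mulVec v ≠ 0
    · obtain ⟨c₀, hc₀, hne⟩ := hex
      refine ⟨c₀, fun c hc => ?_⟩
      obtain ⟨a, ha⟩ := Submodule.mem_span_singleton.1 (hc.2.1 F)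
      obtain ⟨a₀, ha₀⟩ := Submodule.mem_span_singleton.1 (hc₀.2.1 F)
      have ha₀0 : a₀ ≠ 0 := fun h => hne (by rw [← ha₀, h, zero_smul])
      have hd : c - (a / a₀) • c₀ ∈ U := sub_mem hc (Submodule.smul_mem _ _ hc₀)
      rw [← sub_add_cancel c ((a / a₀) • c₀)]
      refine Submodule.add_mem_sup (Submodule.mem_sup_left ⟨hd.1, ?_⟩)
        (Submodule.smul_mem _ _ (Submodule.mem_span_singleton_self _))
      refine mem_strictLine_of_apply_frob hv hstab hF hd.1.1 hd.2 ?_
      rw [Pi.sub_apply, Pi.smul_apply, Matrix.sub_mulVec, Matrix.smul_mulVec, ← ha, ← ha₀,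
        smul_smul, div_mul_cancel₀ _ ha₀0, sub_self]
    · push Not at hex
      exact ⟨0, fun c hc => Submodule.mem_sup_left (Submodule.mem_sup_left
        ⟨hc.1, mem_strictLine_of_apply_frob hv hstab hF hc.1.1 hc.2 (hex c hc)⟩)⟩
  have hle : flatSubmodule r hres ≤ T ⊔ (k ∙ c₀) := by
    intro c hc
    obtain ⟨M, hM, hup⟩ := exists_sub_adD_mem_upperLine hp2 hfin hdet hv hspan hc
    rw [← sub_add_cancel c (adD r M)]
    refine add_mem (hc₀ ⟨IsFlatCocycle.sub_adD hfin hc M, hup⟩) ?_
    exact Submodule.mem_sup_left (Submodule.mem_sup_right ⟨M, hM, rfl⟩)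
  refine ⟨Submodule.finiteDimensional_of_le hle, (Submodule.finrank_mono hle).trans
    ((Submodule.finrank_add_le_finrank_add_finrank _ _).trans ?_)⟩
  have h2 : Module.finrank k (k ∙ c₀) ≤ 1 := (finrank_span_le_card _).trans (by simp)
  omega

end Ordinary

variable (p) (r) in
/-- Flat bound: `h⁰ + 1`. -/
theorem finrank_flatLocal_le [Finite k] [CharP k p] (hp2 : p ≠ 2)
    (hfin : IsFiniteLevel p r)
    (hdet : ∀ g, (r g).det = ((localCyclo p g : ZMod p).val : k))
    (hsplit : ∀ g, ∃ α β : k,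
      (r g).charpoly = (X - Polynomial.C α) * (X - Polynomial.C β)) :
    FiniteDimensional k (flatLocal p r) ∧ Module.finrank k (flatLocal p r) ≤ 4 := by
  by_cases hres : HasLocalModel p (Fin 2 → k) (vecAct r)
  · rw [flatLocal_eq hfin hres]
    obtain ⟨M⟩ := hres
    rcases shape hp2 hfin hdet M with ⟨v, hv, hspan⟩ | ⟨-, hirr⟩
    · exact finrank_flatSubmodule_le_of_ordinary hp2 hfin hdet hv hspan _
    · exact finrank_flatSubmodule_le_of_irreducible hp2 hfin hdet hsplit _ hirr
  · rw [flatLocal_eq_of_no_model hres]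
    exact ⟨finiteDimensional_adCoboundaries r, (finrank_adCoboundaries_le_three r).trans (by norm_num)⟩

/-- **Flat with `du = 0`**: `h⁰` in dimension, so one less than `finrank_flatLocal_le`. -/
theorem finrank_flatULocal_le [Finite k] [CharP k p] (hp2 : p ≠ 2) (hfin : IsFiniteLevel p r)
    (hdet : ∀ g, (r g).det = ((localCyclo p g : ZMod p).val : k))
    {v : Fin 2 → k} (hv : v ≠ 0) (hstab : ∀ g, (r g).mulVec v ∈ k ∙ v)
    (hquot : ∀ g ∈ inertiaQp p, ∀ w, (r g).mulVec w - w ∈ k ∙ v)
    {F t : GalQp p} (hF : LocalCondB.IsFrobQp p F) (ht : t ∈ inertiaQp p)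
    (hχ : (r t).det ≠ 1) :
    FiniteDimensional k (flatULocal r F t) ∧ Module.finrank k (flatULocal r F t) ≤ 3 := by
  by_cases hres : HasLocalModel p (Fin 2 → k) (vecAct r)
  · have hspan := inertiaSpan_eq_line hquot ht hχ
    have hflat : flatCocycles p r = flatSubmodule r hres :=
      le_antisymm (Submodule.span_le.mpr fun _ hc => hc) fun _ hc => Submodule.subset_span hc
    obtain ⟨hfd, hle⟩ := finrank_strict_sup_le hp2 hfin hdet hv hspan hres
    rw [← hflat] at hfd hle
    refine finrank_flatULocal_le_of hv hstab hquot hF ht hχ (fun c hc => ?_) hfd hle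
    rw [flatLocal_eq hfin hres] at hc
    obtain ⟨M, hM, hup, hunr⟩ := exists_sub_adD_mem_upperLine hp2 hfin hdet hv hspan hc
    exact ⟨adD r M, ⟨M, hM, rfl⟩, hflat ▸ IsFlatCocycle.sub_adD hfin hc M, hup, hunr⟩
  · have hle : flatULocal r F t ≤ adCoboundaries r :=
      inf_le_left.trans (flatLocal_eq_of_no_model hres).le
    haveI := finiteDimensional_adCoboundaries r
    exact ⟨Submodule.finiteDimensional_of_le hle,
      (Submodule.finrank_mono hle).trans (finrank_adCoboundaries_le_three r)⟩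

end Fermat.Agent.TW
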