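/-
The local bound at the auxiliary prime: an unramified prime `q ≠ p` at which no ratio of
eigenvalues of Frobenius is `q` carries no ramified classes, so the local cocycles have
dimension at most `3`.
-/
import Fermat.Agent.TW.LocalConditions
import Mathlib.LinearAlgebra.Matrix.Charpoly.Basic

set_option autoImplicit false

noncomputable section

namespace Fermat.Agent.TW

variable {k : Type} [Field k]

/-- Cayley-Hamilton for two by two matrices. -/
theorem mul_self_fin_two (A : Matrix (Fin 2) (Fin 2) k) :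
    A * A = A.trace • A - A.det • (1 : Matrix (Fin 2) (Fin 2) k) := by
  ext i j
  fin_cases i <;> fin_cases j <;>
    simp [Matrix.mul_apply, Fin.sum_univ_two, Matrix.trace_fin_two, Matrix.det_fin_two] <;> ring

/-- A matrix of non zero trace anticommutes only with `0` among matrices, away from `2`. -/
theorem eq_zero_of_mul_eq_neg_mul (h2 : (2 : k) ≠ 0) {A M : Matrix (Fin 2) (Fin 2) k}
    (hdet : A.det ≠ 0) (htr : A.trace ≠ 0) (h : A * M = -(M * A)) : M = 0 := by
  have h' : (A * A) * M = M * (A * A) := by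
    rw [mul_assoc, h, mul_neg, ← mul_assoc, h, neg_mul, neg_neg, mul_assoc]
  rw [mul_self_fin_two, sub_mul, mul_sub, smul_mul_assoc, mul_smul_comm, smul_mul_assoc,
    mul_smul_comm, one_mul, mul_one, sub_left_inj] at h'
  have h3 : A * M = M * A := smul_right_injective _ htr h'
  have h4 : (2 : k) • (A * M) = 0 := by
    rw [two_smul]
    nth_rewrite 2 [h]
    rw [h3, add_neg_cancel]
  have h5 : A * M = 0 := (smul_eq_zero.1 h4).resolve_left h2
  have hA : IsUnit A := (Matrix.isUnit_iff_isUnit_det A).2 (isUnit_iff_ne_zero.2 hdet)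
  exact hA.mul_left_cancel (by rw [h5, mul_zero])

variable (p : ℕ) [Fact p.Prime] (q : ℕ) [Fact q.Prime]
  (r' : GalQp q →* Matrix (Fin 2) (Fin 2) k)

/-- At an unramified prime `q ≠ p` where no ratio of eigenvalues of Frobenius is `q`, all the
local cocycles are unramified: `h¹ = h⁰`. -/
theorem finrank_ctsCocycles_le_of_no_ratio [Finite k] [CharP k p] (hp2 : p ≠ 2) (hqp : q ≠ p)
    (hfin : IsFiniteLevel q r') (hunr : ∀ g ∈ inertiaQp q, r' g = 1)
    (F : GalQp q) (hF : ∀ x : PadicAlgCl q, ‖x‖ ≤ 1 → ‖F x - x ^ q‖ < 1)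
    (hratio : ∀ M : Matrix (Fin 2) (Fin 2) k, M.trace = 0 →
      r' F * M = (q : k) • (M * r' F) → M = 0) :
    FiniteDimensional k (ctsCocycles q r') ∧
      Module.finrank k (ctsCocycles q r') ≤ 3 := by
  obtain ⟨h1, h2⟩ := LocalCondB.finrank_cocycles_le_add (p := p) hqp hfin hunr (F := F) hF
  have h3 : LocalCondB.twistedCentralizer (r' F) (q : k) = ⊥ :=
    (Submodule.eq_bot_iff _).2 fun M hM => hratio M hM.1 hM.2
  rw [h3, finrank_bot, add_zero] at h2
  exact ⟨h1, h2⟩

/-- The auxiliary prime: `q ≡ -1 (mod p)` and the trace of Frobenius is not `0`. -/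
theorem finrank_ctsCocycles_le_of_trace_ne_zero [Finite k] [CharP k p] (hp2 : p ≠ 2) (hqp : q ≠ p)
    (hq1 : (q : k) = -1) (hfin : IsFiniteLevel q r') (hunr : ∀ g ∈ inertiaQp q, r' g = 1)
    (F : GalQp q) (hF : ∀ x : PadicAlgCl q, ‖x‖ ≤ 1 → ‖F x - x ^ q‖ < 1)
    (htr : (r' F).trace ≠ 0) :
    FiniteDimensional k (ctsCocycles q r') ∧
      Module.finrank k (ctsCocycles q r') ≤ 3 := by
  have h2 : (2 : k) ≠ 0 := fun h => hp2 ((Nat.prime_dvd_prime_iff_eq (Fact.out : p.Prime)
    Nat.prime_two).mp ((CharP.cast_eq_zero_iff k p 2).mp (by exact_mod_cast h)))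
  refine finrank_ctsCocycles_le_of_no_ratio p q r' hp2 hqp hfin hunr F hF fun M _ hM => ?_
  have hdet : (r' F).det ≠ 0 := by
    intro h
    have h1 : r' F * r' F⁻¹ = 1 := by rw [← map_mul, mul_inv_cancel, map_one]
    have := congrArg Matrix.det h1
    rw [Matrix.det_mul, h, zero_mul, Matrix.det_one] at this
    exact zero_ne_one this
  exact eq_zero_of_mul_eq_neg_mul h2 hdet htr (by rw [hM, hq1, neg_one_smul])

end Fermat.Agent.TW
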