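/-
A complete Noetherian local algebra is a quotient of a power series ring in as many variables as
generators of its cotangent space relative to the base.
-/
import Fermat.Agent.Deform.PowerSeries
import Fermat.Agent.Ribet.ThirdComplete
import Mathlib.RingTheory.DiscreteValuationRing.Basic

set_option autoImplicit false

noncomputable section

open IsLocalRing

namespace Fermat.Agent.TW

variable {𝒪 : Type} [CommRing 𝒪] [IsLocalRing 𝒪]
  [IsAdicComplete (maximalIdeal 𝒪) 𝒪]
  {R : Type} [CommRing R] [IsLocalRing R] [IsNoetherianRing R]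
  [IsAdicComplete (maximalIdeal R) R] [Algebra 𝒪 R] [IsLocalHom (algebraMap 𝒪 R)]

theorem exists_surjective_mvPowerSeries_of_generators
    (hres : Function.Surjective (residue R ∘ algebraMap 𝒪 R)) {rr : ℕ} (a : Fin rr → R)
    (ha : ∀ i, a i ∈ maximalIdeal R)
    (hgen : maximalIdeal R ≤
      Ideal.span (Set.range a) ⊔ (maximalIdeal 𝒪).map (algebraMap 𝒪 R) ⊔ maximalIdeal R ^ 2) :
    ∃ γ : MvPowerSeries (Fin rr) 𝒪 →ₐ[𝒪] R, Function.Surjective γ := by
  let γ : MvPowerSeries (Fin rr) 𝒪 →ₐ[𝒪] R := Deform.pev (maximalIdeal R) a ha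
  refine ⟨γ, ?_⟩
  let K : Ideal R :=
    (maximalIdeal (MvPowerSeries (Fin rr) 𝒪)).map (γ : MvPowerSeries (Fin rr) 𝒪 →+* R)
  have hγX : ∀ i, γ (MvPowerSeries.X i) = a i := fun i => Deform.pev_X _ a ha i
  have hCmem : ∀ c ∈ maximalIdeal 𝒪,
      algebraMap 𝒪 (MvPowerSeries (Fin rr) 𝒪) c ∈ maximalIdeal (MvPowerSeries (Fin rr) 𝒪) := by
    intro c hc hu
    rw [MvPowerSeries.isUnit_iff_constantCoeff] at hu
    exact hc (by simpa [MvPowerSeries.algebraMap_apply] using hu)
  have hK1 : K ≤ maximalIdeal R := by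
    refine Ideal.map_le_iff_le_comap.mpr fun f hf => ?_
    have hc : MvPowerSeries.constantCoeff f ∈ maximalIdeal 𝒪 := fun hu =>
      hf (MvPowerSeries.isUnit_iff_constantCoeff.mpr hu)
    have h1 : (Deform.varIdeal (Fin rr) 𝒪).map (γ : MvPowerSeries (Fin rr) 𝒪 →+* R) ≤
        maximalIdeal R := by
      rw [Deform.varIdeal, Ideal.map_span, Ideal.span_le]
      rintro _ ⟨_, ⟨i, rfl⟩, rfl⟩
      show γ _ ∈ _
      rw [hγX]
      exact ha i
    have h2 : γ (f - MvPowerSeries.C (MvPowerSeries.constantCoeff f)) ∈ maximalIdeal R :=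
      h1 (Ideal.mem_map_of_mem _ (Deform.sub_C_constantCoeff_mem f))
    have h3 : γ (MvPowerSeries.C (MvPowerSeries.constantCoeff f)) ∈ maximalIdeal R := by
      have : MvPowerSeries.C (σ := Fin rr) (MvPowerSeries.constantCoeff f) =
          algebraMap 𝒪 (MvPowerSeries (Fin rr) 𝒪) (MvPowerSeries.constantCoeff f) := by
        simp [MvPowerSeries.algebraMap_apply]
      rw [this, AlgHom.commutes]
      exact map_nonunit _ _ hc
    show γ f ∈ maximalIdeal R
    have h4 := Ideal.add_mem _ h2 h3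
    rwa [map_sub, sub_add_cancel] at h4
  have hK2 : maximalIdeal R ≤ K := by
    refine Submodule.le_of_le_smul_of_le_jacobson_bot (I := maximalIdeal R)
      (IsNoetherian.noetherian _) (IsLocalRing.maximalIdeal_le_jacobson _) ?_
    refine hgen.trans (sup_le (sup_le ?_ ?_) ?_)
    · refine le_sup_of_le_left (Ideal.span_le.mpr ?_)
      rintro _ ⟨i, rfl⟩
      show a i ∈ K
      rw [← hγX i]
      refine Ideal.mem_map_of_mem _ ?_
      intro hu
      simp [MvPowerSeries.isUnit_iff_constantCoeff] at hu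
    · refine le_sup_of_le_left (Ideal.map_le_iff_le_comap.mpr fun c hc => ?_)
      show algebraMap 𝒪 R c ∈ K
      rw [← γ.commutes]
      exact Ideal.mem_map_of_mem _ (hCmem c hc)
    · rw [pow_two]
      exact le_sup_of_le_right le_rfl
  have hK : K = maximalIdeal R := le_antisymm hK1 hK2
  have : IsHausdorff K R := by rw [hK]; infer_instance
  refine surjective_of_mk_map_comp_surjective
    (I := maximalIdeal (MvPowerSeries (Fin rr) 𝒪)) (γ : MvPowerSeries (Fin rr) 𝒪 →+* R) ?_
  intro y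
  obtain ⟨z, rfl⟩ := Ideal.Quotient.mk_surjective y
  obtain ⟨c, hc⟩ := hres (residue R z)
  refine ⟨algebraMap 𝒪 _ c, ?_⟩
  rw [RingHom.comp_apply]
  refine Ideal.Quotient.eq.mpr ?_
  change γ (algebraMap 𝒪 _ c) - z ∈ K
  rw [AlgHom.commutes, hK, ← residue_eq_zero_iff, map_sub, sub_eq_zero]
  exact hc

end Fermat.Agent.TW
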