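/-
Derivations into the residue field bound the number of generators of a complete local algebra.
-/
import Fermat.Agent.TW.TangentCSurj
import Mathlib.RingTheory.Ideal.Cotangent
import Mathlib.LinearAlgebra.Dimension.Constructions

set_option autoImplicit false

noncomputable section

open IsLocalRing

namespace Fermat.Agent.TW

variable (𝒪 : Type) [CommRing 𝒪] {R : Type} [CommRing R] [Algebra 𝒪 R] {k : Type} [Field k]
  (π : R →+* k)

/-- The `𝒪`-derivations of `R` into `k` through `π`. -/
def derSpace : Submodule k (R → k) where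
  carrier := {δ | (∀ x y, δ (x + y) = δ x + δ y) ∧
    (∀ x y, δ (x * y) = π x * δ y + π y * δ x) ∧ ∀ c, δ (algebraMap 𝒪 R c) = 0}
  add_mem' {a b} ha hb := ⟨fun x y => by simp only [Pi.add_apply, ha.1, hb.1]; ring,
    fun x y => by simp only [Pi.add_apply, ha.2.1, hb.2.1]; ring,
    fun c => by simp [ha.2.2, hb.2.2]⟩
  zero_mem' := ⟨fun _ _ => by simp, fun _ _ => by simp, fun _ => rfl⟩
  smul_mem' t a ha := ⟨fun x y => by simp only [Pi.smul_apply, smul_eq_mul, ha.1]; ring,
    fun x y => by simp only [Pi.smul_apply, smul_eq_mul, ha.2.1]; ring,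
    fun c => by simp [ha.2.2]⟩

variable {𝒪 π} in
theorem derSpace_eq_zero {δ : R → k} (hδ : δ ∈ derSpace 𝒪 π)
    (hπ : Function.Surjective (π ∘ algebraMap 𝒪 R)) {n : ℕ} (x : Fin n → R)
    (hx : Ideal.span (Set.range x) = RingHom.ker π) (h0 : ∀ i, δ (x i) = 0) : δ = 0 := by
  have hz : δ 0 = 0 := by simpa using hδ.1 0 0
  have hker : ∀ y ∈ RingHom.ker π, δ y = 0 := by
    intro y hy
    rw [← hx] at hy
    induction hy using Submodule.span_induction with
    | mem y hy => obtain ⟨i, rfl⟩ := hy; exact h0 i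
    | zero => exact hz
    | add y z _ _ hy hz => rw [hδ.1, hy, hz, add_zero]
    | smul a y hy' hy =>
      have hy0 : π y = 0 := by
        change y ∈ Ideal.span (Set.range x) at hy'
        rw [hx] at hy'
        exact hy'
      rw [smul_eq_mul, hδ.2.1, hy, hy0]
      ring
  funext y
  obtain ⟨c, hc⟩ := hπ (π y)
  have hd : δ (y - algebraMap 𝒪 R c) = 0 := hker _ (by
    rw [RingHom.mem_ker, map_sub, sub_eq_zero]
    exact hc.symm)
  have h1 := hδ.1 (y - algebraMap 𝒪 R c) (algebraMap 𝒪 R c)
  rw [sub_add_cancel, hd, hδ.2.2, add_zero] at h1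
  exact h1

variable [IsNoetherianRing R]

theorem finiteDimensional_derSpace (hπ : Function.Surjective (π ∘ algebraMap 𝒪 R)) :
    FiniteDimensional k (derSpace 𝒪 π) := by
  obtain ⟨n, x, hx⟩ := Submodule.fg_iff_exists_fin_generating_family.mp
    (IsNoetherian.noetherian (RingHom.ker π))
  let ev : derSpace 𝒪 π →ₗ[k] (Fin n → k) :=
    { toFun := fun δ i => (δ : R → k) (x i)
      map_add' := fun _ _ => rfl
      map_smul' := fun _ _ => rfl }
  refine FiniteDimensional.of_injective ev ((injective_iff_map_eq_zero ev).mpr fun δ hδ => ?_)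
  exact Subtype.ext (derSpace_eq_zero δ.2 hπ x hx fun i => congrFun hδ i)

/-- Few derivations give few generators, hence a surjection from a power series ring. -/
theorem exists_surjective_of_finrank_derSpace_le [IsLocalRing 𝒪]
    [IsAdicComplete (maximalIdeal 𝒪) 𝒪] [IsLocalRing R] [IsAdicComplete (maximalIdeal R) R]
    [IsLocalHom (algebraMap 𝒪 R)] (hπ : Function.Surjective (π ∘ algebraMap 𝒪 R)) {rr : ℕ}
    (hD : Module.finrank k (derSpace 𝒪 π) ≤ rr) :
    ∃ γ : MvPowerSeries (Fin rr) 𝒪 →ₐ[𝒪] R, Function.Surjective γ := by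
  have hπs : Function.Surjective π := fun z => by
    obtain ⟨c, hc⟩ := hπ z
    exact ⟨_, hc⟩
  have hker : RingHom.ker π = maximalIdeal R :=
    eq_maximalIdeal (RingHom.ker_isMaximal_of_surjective π hπs)
  have : IsLocalHom π := IsLocalHom.of_surjective π hπs
  have hπ0 : ∀ x : R, π x = 0 ↔ x ∈ maximalIdeal R := fun x => by
    rw [← hker, RingHom.mem_ker]
  have hres : Function.Surjective (residue R ∘ algebraMap 𝒪 R) := by
    intro y
    obtain ⟨y, rfl⟩ := residue_surjective y
    obtain ⟨c, hc⟩ := hπ (π y)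
    exact ⟨c, Ideal.Quotient.eq.mpr ((hπ0 _).mp (by rw [map_sub, sub_eq_zero]; exact hc))⟩
  let Mc : Set (CotangentSpace R) := Set.range fun c : maximalIdeal 𝒪 =>
    (maximalIdeal R).toCotangent ⟨algebraMap 𝒪 R c, map_nonunit _ _ c.2⟩
  let U : Submodule (ResidueField R) (CotangentSpace R) := Submodule.span _ Mc
  let T := CotangentSpace R ⧸ U
  let cl : maximalIdeal R →+ T :=
    U.mkQ.toAddMonoidHom.comp (maximalIdeal R).toCotangent.toAddMonoidHom
  have hclsmul : ∀ (a : R) (z : maximalIdeal R), cl (a • z) = residue R a • cl z := by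
    intro a z
    show U.mkQ ((maximalIdeal R).toCotangent (a • z)) =
      residue R a • U.mkQ ((maximalIdeal R).toCotangent z)
    rw [LinearMap.map_smul (maximalIdeal R).toCotangent,
      ← IsScalarTower.algebraMap_smul (ResidueField R) a, map_smul]
    rfl
  have hclC : ∀ (c : 𝒪) (hc : algebraMap 𝒪 R c ∈ maximalIdeal R), cl ⟨_, hc⟩ = 0 := fun c hc =>
    (Submodule.Quotient.mk_eq_zero U).mpr
      (Submodule.subset_span ⟨⟨c, fun hu => hc (hu.map _)⟩, rfl⟩)
  choose s hs using fun x : R => hπ (π x)
  have hsub : ∀ x, x - algebraMap 𝒪 R (s x) ∈ maximalIdeal R := fun x => by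
    rw [← hπ0, map_sub, sub_eq_zero]
    exact (hs x).symm
  let pr : R → T := fun x => cl ⟨_, hsub x⟩
  have hpr : ∀ (x : R) (c : 𝒪) (h : x - algebraMap 𝒪 R c ∈ maximalIdeal R),
      pr x = cl ⟨x - algebraMap 𝒪 R c, h⟩ := by
    intro x c h
    rw [← sub_eq_zero, ← map_sub]
    have hm : algebraMap 𝒪 R (c - s x) ∈ maximalIdeal R := by
      have := Ideal.sub_mem _ (hsub x) h
      rw [sub_sub_sub_cancel_left] at this
      rwa [map_sub]
    refine Eq.trans (congrArg cl (Subtype.ext ?_)) (hclC _ hm)
    simp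
  -- a basis of the relative cotangent space, with lifts
  let d := Module.finrank (ResidueField R) T
  let bT : Module.Basis (Fin d) (ResidueField R) T := Module.finBasis _ _
  have hlift : ∀ t : T, ∃ z : maximalIdeal R, cl z = t := by
    intro t
    obtain ⟨t, rfl⟩ := Submodule.Quotient.mk_surjective _ t
    obtain ⟨z, rfl⟩ := (maximalIdeal R).toCotangent_surjective t
    exact ⟨z, rfl⟩
  choose lift hlift using hlift
  let πb : ResidueField R →+* k := ResidueField.lift π
  have hπb : ∀ x, πb (residue R x) = π x := fun x => ResidueField.lift_residue_apply π x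
  -- the derivations dual to the basis
  let δ : Fin d → derSpace 𝒪 π := fun i => ⟨fun x => πb (bT.coord i (pr x)), by
    refine ⟨fun x y => ?_, fun x y => ?_, fun c => ?_⟩
    · have h : x + y - algebraMap 𝒪 R (s x + s y) ∈ maximalIdeal R := by
        rw [map_add, add_sub_add_comm]
        exact Ideal.add_mem _ (hsub x) (hsub y)
      simp only
      rw [hpr _ _ h, ← map_add πb, ← map_add (bT.coord i), ← map_add cl]
      congr 3
      exact Subtype.ext (by simp; ring)
    · have h : x * y - algebraMap 𝒪 R (s x * s y) ∈ maximalIdeal R := by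
        rw [show x * y - algebraMap 𝒪 R (s x * s y) = x * (y - algebraMap 𝒪 R (s y)) +
          algebraMap 𝒪 R (s y) * (x - algebraMap 𝒪 R (s x)) by rw [map_mul]; ring]
        exact Ideal.add_mem _ (Ideal.mul_mem_left _ _ (hsub y)) (Ideal.mul_mem_left _ _ (hsub x))
      have he : (⟨_, h⟩ : maximalIdeal R) = x • ⟨_, hsub y⟩ +
          algebraMap 𝒪 R (s y) • ⟨_, hsub x⟩ :=
        Subtype.ext (by simp [Algebra.smul_def]; ring)
      simp only
      rw [hpr _ _ h, he, map_add, hclsmul, hclsmul, map_add (bT.coord i), map_smul, map_smul,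
        map_add πb, smul_eq_mul, smul_eq_mul, map_mul, map_mul, hπb, hπb]
      rw [show π (algebraMap 𝒪 R (s y)) = π y from hs y]
    · have h : algebraMap 𝒪 R c - algebraMap 𝒪 R c ∈ maximalIdeal R := by simp
      simp only
      rw [hpr _ c h, show (⟨_, h⟩ : maximalIdeal R) = 0 from Subtype.ext (sub_self _), map_zero,
        map_zero, map_zero]⟩
  have hprlift : ∀ t, pr (lift t : R) = t := by
    intro t
    have h : (lift t : R) - algebraMap 𝒪 R 0 ∈ maximalIdeal R := by simp
    rw [hpr _ _ h]
    exact (congrArg cl (Subtype.ext (by simp))).trans (hlift t)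
  have hli : LinearIndependent k δ := by
    rw [Fintype.linearIndependent_iff]
    intro g hg j
    have h := congrFun (congrArg Subtype.val hg) (lift (bT j) : R)
    simp [δ, hprlift, Finsupp.single_apply, apply_ite (f := πb)] at h
    exact h
  have := finiteDimensional_derSpace 𝒪 π hπ
  have hd : d ≤ rr := le_trans (by simpa using hli.fintype_card_le_finrank) hD
  -- the generators
  let a : Fin rr → R := fun i => if h : (i : ℕ) < d then (lift (bT ⟨i, h⟩) : R) else 0
  refine exists_surjective_mvPowerSeries_of_generators hres a (fun i => ?_) ?_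
  · by_cases h : (i : ℕ) < d
    · simp only [a, dif_pos h]
      exact (lift _).2
    · simp [a, dif_neg h]
  intro x hx
  let z : maximalIdeal R := ⟨x, hx⟩
  choose g hg using fun i : Fin d => residue_surjective (bT.repr (cl z) i)
  let w : maximalIdeal R := z - ∑ i, g i • lift (bT i)
  have hw : cl w = 0 := by
    rw [map_sub, map_sum, sub_eq_zero]
    simp only [hclsmul, hg, hlift]
    exact (bT.sum_repr _).symm
  have hw' : (maximalIdeal R).toCotangent w ∈ U := (Submodule.Quotient.mk_eq_zero U).mp hw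
  have hspan : (maximalIdeal R).toCotangent w ∈ Submodule.span R Mc := by
    rw [← Submodule.restrictScalars_mem R,
      Submodule.restrictScalars_span R (ResidueField R) residue_surjective] at hw'
    exact hw'
  let N : Submodule R (maximalIdeal R) := Submodule.span R
    (Set.range fun c : maximalIdeal 𝒪 => (⟨algebraMap 𝒪 R c, map_nonunit _ _ c.2⟩ : maximalIdeal R))
  have hMc : Submodule.span R Mc = N.map (maximalIdeal R).toCotangent := by
    rw [Submodule.map_span, ← Set.range_comp]
    rfl
  rw [hMc] at hspan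
  obtain ⟨u, hu, hue⟩ := hspan
  have hu' : (u : R) ∈ (maximalIdeal 𝒪).map (algebraMap 𝒪 R) := by
    have h1 : N.map (maximalIdeal R).subtype ≤ (maximalIdeal 𝒪).map (algebraMap 𝒪 R) := by
      rw [Submodule.map_span, Submodule.span_le]
      rintro _ ⟨_, ⟨c, rfl⟩, rfl⟩
      exact Ideal.mem_map_of_mem _ c.2
    exact h1 ⟨u, hu, rfl⟩
  have hsq : (w : R) - (u : R) ∈ maximalIdeal R ^ 2 := (Ideal.toCotangent_eq _).mp hue.symm
  have hsum : ((∑ i, g i • lift (bT i) : maximalIdeal R) : R) ∈ Ideal.span (Set.range a) := by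
    rw [Submodule.coe_sum]
    refine Ideal.sum_mem _ fun i _ => Ideal.mul_mem_left _ _ (Ideal.subset_span
      ⟨⟨i, lt_of_lt_of_le i.2 hd⟩, ?_⟩)
    simp [a, i.2]
  have hxe : x = ((∑ i, g i • lift (bT i) : maximalIdeal R) : R) + (u : R) + ((w : R) - u) := by
    simp [w, z]
  rw [hxe]
  exact Submodule.add_mem_sup (Submodule.add_mem_sup hsum hu') hsq

end Fermat.Agent.TW
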