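/-
The cocycle attached to a derivation of a deformation ring, and the injectivity of this
construction modulo coboundaries, from universality.
-/
import Fermat.Agent.TW.GlobalDefs
import Fermat.Agent.TW.TangentCDer
import Fermat.Agent.Deform.Tangent
import Fermat.Agent.Deform.Burnside
import Fermat.Prelude.Def_GaloisRep_DeformationRingData
import Fermat.Prelude.Def_GaloisRep_LocalConditions

set_option autoImplicit false

noncomputable section

open IsLocalRing Module Fermat.Agent.Deform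

namespace Fermat.Agent.TW

/-- The mod `p` cyclotomic exponent of an automorphism. -/
theorem exists_natCast_cyclotomic (p : ℕ) [Fact p.Prime] (σ : Γ) :
    ∃ a : ℕ, ¬ p ∣ a ∧ ∀ μ : AlgebraicClosure ℚ, μ ^ p ^ 1 = 1 → σ μ = μ ^ a := by
  have hp : p.Prime := Fact.out
  have : NeZero p := ⟨hp.ne_zero⟩
  obtain ⟨ζ, hζ⟩ := HasEnoughRootsOfUnity.exists_primitiveRoot (AlgebraicClosure ℚ) p
  have hσζ : (σ ζ) ^ p = 1 := by rw [← map_pow, hζ.pow_eq_one, map_one]
  obtain ⟨a, -, ha⟩ := hζ.eq_pow_of_pow_eq_one hσζ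
  refine ⟨a, fun hdvd => ?_, fun μ hμ => ?_⟩
  · obtain ⟨c, rfl⟩ := hdvd
    rw [pow_mul, hζ.pow_eq_one, one_pow] at ha
    have : ζ = 1 := σ.injective (by rw [map_one]; exact ha.symm)
    exact hζ.ne_one hp.one_lt this
  · rw [pow_one] at hμ
    obtain ⟨i, -, rfl⟩ := hζ.eq_pow_of_pow_eq_one hμ
    rw [map_pow, ← ha, ← pow_mul, ← pow_mul, mul_comm]

variable {𝒪 : Type} [CommRing 𝒪]

section Der

variable {R : Type} [CommRing R] [Algebra 𝒪 R] {k : Type} [Field k] {π : R →+* k} {δ : R → k}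

theorem derSpace_map_zero (hδ : δ ∈ derSpace 𝒪 π) : δ 0 = 0 := by simpa using hδ.1 0 0

theorem derSpace_map_one (hδ : δ ∈ derSpace 𝒪 π) : δ 1 = 0 := by simpa using hδ.2.2 1

theorem derSpace_map_natCast (hδ : δ ∈ derSpace 𝒪 π) (n : ℕ) : δ (n : R) = 0 := by
  simpa using hδ.2.2 (n : 𝒪)

theorem derSpace_map_sub (hδ : δ ∈ derSpace 𝒪 π) (x y : R) : δ (x - y) = δ x - δ y :=
  eq_sub_of_add_eq (by rw [← hδ.1, sub_add_cancel])

theorem derSpace_map_sum (hδ : δ ∈ derSpace 𝒪 π) (f : Fin 2 → R) :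
    δ (∑ i, f i) = ∑ i, δ (f i) := by
  rw [Fin.sum_univ_two, Fin.sum_univ_two, hδ.1]

theorem derSpace_eq_zero_of_mem_span (hδ : δ ∈ derSpace 𝒪 π) {n : ℕ} (hn : π (n : R) = 0) {x : R}
    (hx : x ∈ Ideal.span {(n : R)}) : δ x = 0 := by
  obtain ⟨t, rfl⟩ := Ideal.mem_span_singleton'.mp hx
  rw [hδ.2.1, derSpace_map_natCast hδ, hn]
  ring

theorem derSpace_map_matrix_mul (hδ : δ ∈ derSpace 𝒪 π) (X Y : M2 R) :
    (X * Y).map δ = X.map π * Y.map δ + X.map δ * Y.map π := by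
  ext i j
  simp only [Matrix.map_apply, Matrix.add_apply, Matrix.mul_apply, derSpace_map_sum hδ, hδ.2.1,
    ← Finset.sum_add_distrib]
  exact Finset.sum_congr rfl fun l _ => by ring

end Der

variable [IsDomain 𝒪] [IsDiscreteValuationRing 𝒪] [IsAdicComplete (maximalIdeal 𝒪) 𝒪]
  {ρbar : ResidualGaloisRep (ResidueField 𝒪)}
  {𝒟 : ∀ ⦃A : Type⦄ [CommRing A] [IsLocalRing A] [Algebra 𝒪 A], GaloisRepAdic A → Prop}
  (DQ : GaloisRep.DeformationRingData 𝒪 ρbar 𝒟)

theorem residueFieldMap_bijective :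
    Function.Bijective (ResidueField.map (algebraMap 𝒪 DQ.R)) := by
  refine ⟨RingHom.injective _, fun y => ?_⟩
  obtain ⟨c, hc⟩ := DQ.residue_surjective y
  exact ⟨residue 𝒪 c, hc⟩

/-- The residue map of the deformation ring, with values in the residue field of the base. -/
def resHom : DQ.R →+* ResidueField 𝒪 :=
  ((RingEquiv.ofBijective _ (residueFieldMap_bijective DQ)).symm.toRingHom).comp (residue DQ.R)

theorem resHom_algebraMap (c : 𝒪) : resHom DQ (algebraMap 𝒪 DQ.R c) = residue 𝒪 c :=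
  (RingEquiv.ofBijective _ (residueFieldMap_bijective DQ)).injective
    ((RingEquiv.apply_symm_apply _ _).trans rfl)

theorem resHom_comp_surjective : Function.Surjective (resHom DQ ∘ algebraMap 𝒪 DQ.R) := fun z => by
  obtain ⟨c, rfl⟩ := residue_surjective z
  exact ⟨c, resHom_algebraMap DQ c⟩

theorem resHom_eq_zero_iff (x : DQ.R) : resHom DQ x = 0 ↔ x ∈ maximalIdeal DQ.R := by
  rw [← residue_eq_zero_iff, resHom, RingHom.comp_apply]
  exact map_eq_zero_iff _ (RingEquiv.injective _)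

/-- A basis of the universal representation lifting the chosen residual basis. -/
theorem exists_adaptedBasis :
    ∃ b : Basis (Fin 2) DQ.R DQ.ρ.V, ∀ σ, (repMat b DQ.ρ.ρ σ).map (resHom DQ) = matRep ρbar σ := by
  let b0 := repBasis DQ.ρ
  let r0 := repMat b0 DQ.ρ.ρ
  have hr0 := mcont_repMat DQ.ρ b0
  obtain ⟨e1⟩ := isEquiv_toRep DQ.ρ b0
  obtain ⟨e2⟩ := DQ.residual_isEquiv
  obtain ⟨M, hM, hMr⟩ := (residual_isEquiv_iff r0 hr0 ρbar (residualBasis ρbar)
    (ResidueField.map (algebraMap 𝒪 DQ.R))).mp ⟨e1.symm.residual.trans e2⟩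
  choose N hN using fun i j => residue_surjective (M i j)
  have hNM : (Matrix.of N).map (residue DQ.R) = M := Matrix.ext fun i j => hN i j
  have hNu : IsUnit (Matrix.of N) := by
    rw [Matrix.isUnit_iff_isUnit_det] at hM ⊢
    rw [← isUnit_map_iff (residue DQ.R), RingHom.map_det, RingHom.mapMatrix_apply, hNM]
    exact hM
  obtain ⟨u, hu⟩ := hNu
  let f := Matrix.toLin b0 b0 (u : M2 DQ.R)
  let g := Matrix.toLin b0 b0 ((u⁻¹ : (M2 DQ.R)ˣ) : M2 DQ.R)
  have hfg : f ∘ₗ g = LinearMap.id := by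
    rw [← Matrix.toLin_mul b0 b0 b0, Units.mul_inv, Matrix.toLin_one]
  have hgf : g ∘ₗ f = LinearMap.id := by
    rw [← Matrix.toLin_mul b0 b0 b0, Units.inv_mul, Matrix.toLin_one]
  refine ⟨b0.map (LinearEquiv.ofLinearMap g f hgf hfg), fun σ => ?_⟩
  have hconj : repMat (b0.map (LinearEquiv.ofLinearMap g f hgf hfg)) DQ.ρ.ρ σ =
      (u : M2 DQ.R) * r0 σ * ((u⁻¹ : (M2 DQ.R)ˣ) : M2 DQ.R) := by
    have h1 : repMat (b0.map (LinearEquiv.ofLinearMap g f hgf hfg)) DQ.ρ.ρ σ =
        LinearMap.toMatrix b0 b0 (f ∘ₗ DQ.ρ.ρ σ ∘ₗ g) := by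
      ext i j
      simp [repMat_apply, LinearMap.toMatrix_apply]
    rw [h1, LinearMap.toMatrix_comp b0 b0 b0, LinearMap.toMatrix_comp b0 b0 b0,
      LinearMap.toMatrix_toLin, LinearMap.toMatrix_toLin, mul_assoc]
    rfl
  have h2 : (repMat (b0.map (LinearEquiv.ofLinearMap g f hgf hfg)) DQ.ρ.ρ σ).map (residue DQ.R) =
      (matRep ρbar σ).map (ResidueField.map (algebraMap 𝒪 DQ.R)) := by
    rw [hconj, Matrix.map_mul, Matrix.map_mul, hu, hNM, hMr σ, mul_assoc, ← hNM, ← hu,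
      ← Matrix.map_mul, Units.mul_inv, Matrix.map_one _ (map_zero _) (map_one _), mul_one]
    rfl
  ext i j
  have h3 := congrFun (congrFun h2 i) j
  rw [Matrix.map_apply, resHom, RingHom.comp_apply]
  rw [Matrix.map_apply] at h3
  rw [h3]
  exact RingEquiv.symm_apply_apply (RingEquiv.ofBijective _ (residueFieldMap_bijective DQ)) _

/-- The chosen basis of the universal representation. -/
def univBasis : Basis (Fin 2) DQ.R DQ.ρ.V := Classical.choose (exists_adaptedBasis DQ)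

/-- The universal representation in the chosen basis. -/
def univMat : Γ →* M2 DQ.R := repMat (univBasis DQ) DQ.ρ.ρ

theorem univMat_map (σ : Γ) : (univMat DQ σ).map (resHom DQ) = matRep ρbar σ :=
  Classical.choose_spec (exists_adaptedBasis DQ) σ

theorem univMat_eq_one {σ : Γ} (h : DQ.ρ.ρ σ = 1) : univMat DQ σ = 1 := by
  rw [univMat, repMat_apply, h, Module.End.one_eq_id, LinearMap.toMatrix_id]

/-- The cocycle of a function on the deformation ring. -/
def derCocycle : (DQ.R → ResidueField 𝒪) →ₗ[ResidueField 𝒪]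
    (Γ → Matrix (Fin 2) (Fin 2) (ResidueField 𝒪)) where
  toFun δ σ := (univMat DQ σ).map δ * matRep ρbar σ⁻¹
  map_add' a b := by
    funext σ
    rw [Pi.add_apply, ← add_mul]
    congr 1
  map_smul' t a := by
    funext σ
    rw [RingHom.id_apply, Pi.smul_apply, ← smul_mul_assoc]
    congr 1

variable {DQ} {δ : DQ.R → ResidueField 𝒪}

theorem derCocycle_mul_matRep (σ : Γ) :
    derCocycle DQ δ σ * matRep ρbar σ = (univMat DQ σ).map δ := by
  show (univMat DQ σ).map δ * matRep ρbar σ⁻¹ * matRep ρbar σ = _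
  rw [mul_assoc, ← map_mul, inv_mul_cancel, map_one, mul_one]

theorem derCocycle_apply_mul (hδ : δ ∈ derSpace 𝒪 (resHom DQ)) (σ τ : Γ) :
    derCocycle DQ δ (σ * τ) =
      derCocycle DQ δ σ + matRep ρbar σ * derCocycle DQ δ τ * matRep ρbar σ⁻¹ := by
  show (univMat DQ (σ * τ)).map δ * matRep ρbar (σ * τ)⁻¹ =
    (univMat DQ σ).map δ * matRep ρbar σ⁻¹ +
      matRep ρbar σ * ((univMat DQ τ).map δ * matRep ρbar τ⁻¹) * matRep ρbar σ⁻¹
  rw [map_mul, derSpace_map_matrix_mul hδ, univMat_map, univMat_map, mul_inv_rev, map_mul, add_mul,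
    add_comm]
  congr 1
  · rw [← mul_assoc, mul_assoc _ (matRep ρbar τ), ← map_mul, mul_inv_cancel, map_one, mul_one]
  · simp only [mul_assoc]

theorem derCocycle_trace (p : ℕ) [Fact p.Prime] (hdet : DQ.ρ.DetIsCyclotomic p)
    (hδ : δ ∈ derSpace 𝒪 (resHom DQ)) (σ : Γ) : (derCocycle DQ δ σ).trace = 0 := by
  obtain ⟨a, -, ha⟩ := exists_natCast_cyclotomic p σ
  have h1 := hdet.2 1 σ a ha
  rw [pow_one] at h1
  have h2 := derSpace_eq_zero_of_mem_span hδ ((resHom_eq_zero_iff DQ _).mpr hdet.1) h1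
  rw [derSpace_map_sub hδ, derSpace_map_natCast hδ, sub_zero, ← LinearMap.det_toMatrix (univBasis DQ),
    ← repMat_apply, ← univMat, Matrix.det_fin_two, derSpace_map_sub hδ, hδ.2.1, hδ.2.1] at h2
  have hinv : matRep ρbar σ * matRep ρbar σ⁻¹ = 1 := by rw [← map_mul, mul_inv_cancel, map_one]
  have hdet0 : (matRep ρbar σ).det ≠ 0 := fun h => by
    have := congrArg Matrix.det hinv
    rw [Matrix.det_mul, h, zero_mul, Matrix.det_one] at this
    exact zero_ne_one this
  have hadj : (matRep ρbar σ).adjugate = (matRep ρbar σ).det • matRep ρbar σ⁻¹ := by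
    calc (matRep ρbar σ).adjugate
        = (matRep ρbar σ).adjugate * (matRep ρbar σ * matRep ρbar σ⁻¹) := by rw [hinv, mul_one]
      _ = _ := by rw [← mul_assoc, Matrix.adjugate_mul, smul_mul_assoc, one_mul]
  have h3 : (matRep ρbar σ).det • derCocycle DQ δ σ =
      (univMat DQ σ).map δ * (matRep ρbar σ).adjugate := by
    rw [hadj, mul_smul_comm]
    rfl
  have h4 : ((univMat DQ σ).map δ * (matRep ρbar σ).adjugate).trace = 0 := by
    rw [← univMat_map DQ σ, Matrix.adjugate_fin_two, Matrix.trace_fin_two]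
    simp [Matrix.mul_apply, Fin.sum_univ_two]
    linear_combination h2
  rw [← h3, Matrix.trace_smul, smul_eq_zero] at h4
  exact h4.resolve_left hdet0

theorem derCocycle_mem_adCocycles (p : ℕ) [Fact p.Prime] (hdet : DQ.ρ.DetIsCyclotomic p)
    (hδ : δ ∈ derSpace 𝒪 (resHom DQ)) : derCocycle DQ δ ∈ adCocycles (matRep ρbar) :=
  ⟨derCocycle_trace p hdet hδ, derCocycle_apply_mul hδ⟩

theorem derCocycle_mem_globalFiniteLevel (hδ : δ ∈ derSpace 𝒪 (resHom DQ)) :
    derCocycle DQ δ ∈ globalFiniteLevel (ResidueField 𝒪) := by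
  obtain ⟨E, hE, h⟩ := mcont_repMat DQ.ρ (univBasis DQ) 2
  refine ⟨E, hE, fun g s hs => ?_⟩
  have h0 : (univMat DQ s).map (resHom DQ) = 1 := by
    ext i j
    have h1 : resHom DQ (univMat DQ s i j - (1 : M2 DQ.R) i j) = 0 :=
      (resHom_eq_zero_iff DQ _).mpr (Ideal.pow_le_self two_ne_zero (h s hs i j))
    rw [map_sub, sub_eq_zero] at h1
    rw [Matrix.map_apply, h1]
    fin_cases i <;> fin_cases j <;> simp
  have h1 : (univMat DQ s).map δ = 0 := by
    ext i j
    have hsq : ∀ z ∈ maximalIdeal DQ.R ^ 2, δ z = 0 := by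
      intro z hz
      rw [pow_two] at hz
      refine Submodule.mul_induction_on hz (fun x hx y hy => ?_) fun x y hx hy => by
        rw [hδ.1, hx, hy, add_zero]
      rw [hδ.2.1, (resHom_eq_zero_iff DQ x).mpr hx, (resHom_eq_zero_iff DQ y).mpr hy]
      ring
    have h2 : δ (univMat DQ s i j - (1 : M2 DQ.R) i j) = 0 := hsq _ (h s hs i j)
    rw [derSpace_map_sub hδ, sub_eq_zero] at h2
    rw [Matrix.map_apply, h2]
    fin_cases i <;> fin_cases j <;> simp [derSpace_map_zero hδ, derSpace_map_one hδ]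
  have hs0 : matRep ρbar s⁻¹ = 1 := by
    have : matRep ρbar s = 1 := by rw [← univMat_map DQ, h0]
    have h2 : matRep ρbar s * matRep ρbar s⁻¹ = 1 := by rw [← map_mul, mul_inv_cancel, map_one]
    rwa [this, one_mul] at h2
  show (univMat DQ (g * s)).map δ * matRep ρbar (g * s)⁻¹ =
    (univMat DQ g).map δ * matRep ρbar g⁻¹
  rw [map_mul, derSpace_map_matrix_mul hδ, h1, h0, mul_zero, zero_add, mul_one, mul_inv_rev,
    map_mul, hs0, one_mul]

theorem derCocycle_eq_zero_of_rho_eq_one (hδ : δ ∈ derSpace 𝒪 (resHom DQ)) {σ : Γ}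
    (h : DQ.ρ.ρ σ = 1) : derCocycle DQ δ σ = 0 := by
  show (univMat DQ σ).map δ * matRep ρbar σ⁻¹ = 0
  have h1 : (univMat DQ σ).map δ = 0 := by
    rw [univMat_eq_one DQ h]
    ext i j
    fin_cases i <;> fin_cases j <;> simp [derSpace_map_zero hδ, derSpace_map_one hδ]
  rw [h1, zero_mul]

end Fermat.Agent.TW
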