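/-
Passing from the local Galois groups to the decomposition and inertia groups of the standard
places, and to finite levels.
-/
import Fermat.Agent.TW.GlobalDefs
import Fermat.Prelude.Def_FLTPrelim_Ramification

set_option autoImplicit false

noncomputable section

namespace Fermat.Agent.TW

local notation "Γℚ" => AlgebraicClosure ℚ ≃ₐ[ℚ] AlgebraicClosure ℚ

variable (q : ℕ) [Fact q.Prime]

theorem padicPlace_liesOverPrime : (padicPlace q).LiesOverPrime q := by
  show (q : AlgebraicClosure ℚ) ∈ (padicPlace q).nonunits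
  rw [ValuationSubring.mem_nonunits_iff_or]
  refine Or.inr fun h => ?_
  rw [mem_padicPlace_iff, map_inv₀, map_natCast,
    ← map_natCast (algebraMap ℚ_[q] (PadicAlgCl q)), nnnorm_inv, nnnorm_algebraMap',
    ← NNReal.coe_le_coe, NNReal.coe_inv, coe_nnnorm, Padic.norm_p, inv_inv, NNReal.coe_one] at h
  exact absurd h (not_le.mpr (by exact_mod_cast (Fact.out : q.Prime).one_lt))

theorem mem_nonunits_padicPlace_of_norm_lt {x : AlgebraicClosure ℚ}
    (h : ‖padicEmbedding q x‖ < 1) : x ∈ (padicPlace q).nonunits := by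
  rw [ValuationSubring.mem_nonunits_iff_or]
  by_cases hx : x = 0
  · exact Or.inl hx
  refine Or.inr fun h' => ?_
  rw [mem_padicPlace_iff, map_inv₀, ← NNReal.coe_le_coe, coe_nnnorm, norm_inv, NNReal.coe_one,
    inv_le_one₀ (by simpa using hx)] at h'
  linarith

theorem localGaloisToGlobal_mem_inertiaSubgroupIn {τ : GalQp q} (hτ : τ ∈ inertiaQp q) :
    localGaloisToGlobal q τ ∈ (padicPlace q).inertiaSubgroupIn ℚ := by
  have h : ∀ a ∈ padicPlace q,
      localGaloisToGlobal q τ a - a ∈ (padicPlace q).nonunits := fun a ha => by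
    refine mem_nonunits_padicPlace_of_norm_lt q ?_
    rw [map_sub, padicEmbedding_localGaloisToGlobal]
    refine hτ _ ?_
    rw [mem_padicPlace_iff] at ha
    exact_mod_cast ha
  refine ⟨⟨_, localGaloisToGlobal_mem_decompositionSubgroup q τ⟩, ?_, rfl⟩
  rw [SetLike.mem_coe, ValuationSubring.inertiaSubgroup, MonoidHom.mem_ker]
  refine RingEquiv.ext fun r => ?_
  show (⟨_, localGaloisToGlobal_mem_decompositionSubgroup q τ⟩ :
    (padicPlace q).decompositionSubgroup ℚ) • r = r
  obtain ⟨a, rfl⟩ := IsLocalRing.residue_surjective r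
  rw [← IsLocalRing.ResidueField.residue_smul, ← sub_eq_zero, ← map_sub,
    IsLocalRing.residue_eq_zero_iff, ← ValuationSubring.coe_mem_nonunits_iff]
  exact h a.1 a.2

/-- Local restrictions of functions of finite level have finite level. -/
theorem isFiniteLevel_comp_localGaloisToGlobal {X : Type*} (f : Γℚ → X)
    (hf : ∃ E : IntermediateField ℚ (AlgebraicClosure ℚ), FiniteDimensional ℚ E ∧
      ∀ g s : Γℚ, (∀ x ∈ E, s x = x) → f (g * s) = f g) :
    IsFiniteLevel q fun g => f (localGaloisToGlobal q g) := by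
  obtain ⟨E, hE, hf⟩ := hf
  let b := Module.finBasis ℚ E
  let S : Set (PadicAlgCl q) :=
    Set.range fun i => padicEmbedding q ((b i : E) : AlgebraicClosure ℚ)
  have hS : FiniteDimensional ℚ_[q] (IntermediateField.adjoin ℚ_[q] S) :=
    haveI : Finite S := (Set.finite_range _).to_subtype
    IntermediateField.finiteDimensional_adjoin
      fun x _ => (Algebra.IsAlgebraic.isAlgebraic (R := ℚ_[q]) x).isIntegral
  refine ⟨IntermediateField.adjoin ℚ_[q] S, hS, fun g s hs => ?_⟩
  simp only [map_mul]
  refine hf _ _ fun x hx => (padicEmbedding q).toRingHom.injective ?_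
  show padicEmbedding q (localGaloisToGlobal q s x) = padicEmbedding q x
  rw [padicEmbedding_localGaloisToGlobal]
  have hfix : ∀ i, s (padicEmbedding q ((b i : E) : AlgebraicClosure ℚ)) =
      padicEmbedding q ((b i : E) : AlgebraicClosure ℚ) := fun i =>
    hs ⟨_, IntermediateField.subset_adjoin _ _ ⟨i, rfl⟩⟩
  have hsum : x = ∑ i, b.repr ⟨x, hx⟩ i • ((b i : E) : AlgebraicClosure ℚ) := by
    have := congrArg E.val (b.sum_repr ⟨x, hx⟩)
    simp only [map_sum, IntermediateField.coe_val] at this
    exact this.symm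
  rw [hsum]
  simp only [map_sum]
  refine Finset.sum_congr rfl fun i _ => ?_
  simp only [Rat.smul_def, map_mul, map_ratCast, hfix]

end Fermat.Agent.TW
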