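/-
The cocycle of a derivation satisfies the ordinary and unipotent local conditions.
-/
import Fermat.Agent.TW.TangentCCocycle
import Fermat.Agent.TW.TangentCPlace
import Fermat.Prelude.Def_GaloisRep_StrictOrdinary

set_option autoImplicit false

noncomputable section

open IsLocalRing Module Fermat.Agent.Deform

namespace Fermat.Agent.TW

section General

variable {G H : Type*} [Group G] [Group H] {k : Type*} [Field k]

theorem adCocycles_comp {r : G →* Matrix (Fin 2) (Fin 2) k} {c : G → Matrix (Fin 2) (Fin 2) k}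
    (hc : c ∈ adCocycles r) (f : H →* G) : (fun h => c (f h)) ∈ adCocycles (r.comp f) :=
  ⟨fun h => hc.1 _, fun g h => by
    simp only [MonoidHom.comp_apply, map_mul, map_inv]
    exact hc.2 _ _⟩

theorem adD_mem_adCocycles_any (r : G →* Matrix (Fin 2) (Fin 2) k) (M : Matrix (Fin 2) (Fin 2) k) :
    adD r M ∈ adCocycles r := by
  refine ⟨fun g => ?_, fun g h => ?_⟩
  · rw [adD_apply, Matrix.trace_sub, Matrix.trace_mul_cycle, ← map_mul, inv_mul_cancel, map_one,
      one_mul, sub_self]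
  · rw [adD_apply, adD_apply, adD_apply, map_mul, mul_inv_rev, map_mul, mul_sub, sub_mul]
    simp only [mul_assoc]
    abel

/-- Trace zero matrices act transitively on non-zero vectors. -/
theorem exists_trZero_mulVec_eq (v w : Fin 2 → k) (hv : v ≠ 0) :
    ∃ M : Matrix (Fin 2) (Fin 2) k, M.trace = 0 ∧ M.mulVec v = w := by
  by_cases h : v 0 = 0
  · have h1 : v 1 ≠ 0 := fun h1 => hv (by ext i; fin_cases i <;> simp [h, h1])
    refine ⟨!![-(w 1 / v 1), w 0 / v 1; 0, w 1 / v 1], by simp [Matrix.trace_fin_two], ?_⟩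
    ext i
    fin_cases i <;> simp [Matrix.mulVec, dotProduct, Fin.sum_univ_two, h, h1]
  · refine ⟨!![w 0 / v 0, 0; (w 1 + w 0 / v 0 * v 1) / v 0, -(w 0 / v 0)],
      by simp [Matrix.trace_fin_two], ?_⟩
    ext i
    fin_cases i <;> simp [Matrix.mulVec, dotProduct, Fin.sum_univ_two, h]

end General

variable {k : Type} [Field k] (ρbar : ResidualGaloisRep k) (q : ℕ) [Fact q.Prime]

theorem resLoc_mem_ctsCocycles {c : Γ → Matrix (Fin 2) (Fin 2) k}
    (hc : c ∈ adCocycles (matRep ρbar) ⊓ globalFiniteLevel k) :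
    resLoc q c ∈ ctsCocycles q (locRep ρbar q) :=
  ⟨adCocycles_comp hc.1 (localGaloisToGlobal q), isFiniteLevel_comp_localGaloisToGlobal q c hc.2⟩

theorem adD_matRep_mem_globalFiniteLevel (M : Matrix (Fin 2) (Fin 2) k) :
    adD (matRep ρbar) M ∈ globalFiniteLevel k := by
  obtain ⟨E, hE, h⟩ := matRep_factorsThroughFiniteLevel ρbar
  refine ⟨E, hE, fun g s hs => ?_⟩
  have h1 : matRep ρbar s = 1 := h s hs
  have h2 : matRep ρbar s⁻¹ = 1 := by
    have h3 : matRep ρbar s * matRep ρbar s⁻¹ = 1 := by rw [← map_mul, mul_inv_cancel, map_one]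
    rwa [h1, one_mul] at h3
  rw [adD_apply, adD_apply, map_mul, mul_inv_rev, map_mul, h1, h2, mul_one, one_mul]

theorem resLoc_adD (M : Matrix (Fin 2) (Fin 2) k) :
    resLoc q (adD (matRep ρbar) M) = adD (locRep ρbar q) M := by
  funext g
  show adD (matRep ρbar) M (localGaloisToGlobal q g) = _
  rw [adD_apply, adD_apply, ← map_inv]
  rfl

end Fermat.Agent.TW

namespace Fermat.Agent.TW

variable {𝒪 : Type} [CommRing 𝒪] [IsDomain 𝒪] [IsDiscreteValuationRing 𝒪]
  [IsAdicComplete (maximalIdeal 𝒪) 𝒪]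
  {ρbar : ResidualGaloisRep (ResidueField 𝒪)}
  {𝒟 : ∀ ⦃A : Type⦄ [CommRing A] [IsLocalRing A] [Algebra 𝒪 A], GaloisRepAdic A → Prop}
  {DQ : GaloisRep.DeformationRingData 𝒪 ρbar 𝒟} {δ : DQ.R → ResidueField 𝒪}

theorem derSpace_map_mulVec (hδ : δ ∈ derSpace 𝒪 (resHom DQ)) (X : M2 DQ.R) (y : Fin 2 → DQ.R) :
    δ ∘ X.mulVec y =
      (X.map δ).mulVec (resHom DQ ∘ y) + (X.map (resHom DQ)).mulVec (δ ∘ y) := by
  funext i
  simp only [Function.comp_apply, Pi.add_apply, Matrix.mulVec, dotProduct, Fin.sum_univ_two,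
    Matrix.map_apply, hδ.1, hδ.2.1]
  ring

/-- The unipotent condition. -/
theorem resLoc_derCocycle_mem_unipotentCocycles (p q : ℕ) [Fact p.Prime] [Fact q.Prime]
    (hdet : DQ.ρ.DetIsCyclotomic p) (hu : DQ.ρ.IsUnipotentOnInertiaAt q)
    (hδ : δ ∈ derSpace 𝒪 (resHom DQ)) :
    resLoc q (derCocycle DQ δ) ∈ unipotentCocycles q (locRep ρbar q) := by
  refine ⟨resLoc_mem_ctsCocycles ρbar q
    ⟨derCocycle_mem_adCocycles p hdet hδ, derCocycle_mem_globalFiniteLevel hδ⟩, fun g hg => ?_⟩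
  show (derCocycle DQ δ (localGaloisToGlobal q g) * matRep ρbar (localGaloisToGlobal q g)).trace = 0
  rw [derCocycle_mul_matRep]
  have h := hu _ (padicPlace_liesOverPrime q) _ (localGaloisToGlobal_mem_inertiaSubgroupIn q hg)
  rw [← LinearMap.charpoly_toMatrix _ (univBasis DQ), ← repMat_apply, ← univMat] at h
  have h2 := congrArg (fun P => Polynomial.coeff P 1) h
  simp only [Matrix.charpoly_fin_two] at h2
  simp [Polynomial.coeff_one, sub_sq, Polynomial.coeff_X_pow] at h2
  have h3 := congrArg δ h2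
  rw [Matrix.trace_fin_two, hδ.1] at h3
  rw [Matrix.trace_fin_two, Matrix.map_apply, Matrix.map_apply, h3]
  exact derSpace_map_natCast hδ 2

/-- The strict ordinary condition. -/
theorem resLoc_derCocycle_mem_ordLocal (p : ℕ) [Fact p.Prime] (hp2 : p ≠ 2)
    (hdet : DQ.ρ.DetIsCyclotomic p) (hord : DQ.ρ.IsStrictOrdinaryAt p)
    (hδ : δ ∈ derSpace 𝒪 (resHom DQ)) :
    resLoc p (derCocycle DQ δ) ∈ ordLocal p (locRep ρbar p) := by
  have hp : p.Prime := Fact.out
  let π := resHom DQ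
  have hπp : π (p : DQ.R) = 0 := (resHom_eq_zero_iff DQ _).mpr hdet.1
  have hpk : ((p : ℕ) : ResidueField 𝒪) = 0 := by rwa [map_natCast] at hπp
  have hchar : CharP (ResidueField 𝒪) p :=
    (CharP.charP_iff_prime_eq_zero hp).mpr hpk
  have h2k : (2 : ResidueField 𝒪) ≠ 0 := fun h => by
    have h' := (CharP.cast_eq_zero_iff (ResidueField 𝒪) p 2).mp (by exact_mod_cast h)
    exact hp2 ((Nat.prime_dvd_prime_iff_eq hp Nat.prime_two).mp h')
  obtain ⟨L, ⟨bL, hL⟩, hD, hI, hχ⟩ := hord.2 _ (padicPlace_liesOverPrime p)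
  subst hL
  let b := univBasis DQ
  have hcol : ∀ σ (v : DQ.ρ.V),
      b.equivFun (DQ.ρ.ρ σ v) = (univMat DQ σ).mulVec (b.equivFun v) := fun σ v =>
    (LinearMap.toMatrix_mulVec_repr b b (DQ.ρ.ρ σ) v).symm
  let vR : Fin 2 → DQ.R := b.equivFun (bL 0)
  let v0 : Fin 2 → ResidueField 𝒪 := π ∘ vR
  let v1 : Fin 2 → ResidueField 𝒪 := δ ∘ vR
  have hv0 : v0 ≠ 0 := fun h => by
    have h1 : bL 0 ∈ maximalIdeal DQ.R • (⊤ : Submodule DQ.R DQ.ρ.V) :=
      mem_smul_top_of_forall b _ fun i => (resHom_eq_zero_iff DQ _).mp (congrFun h i)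
    have h2 := repr_mem_of_mem_smul_top bL _ h1 0
    rw [Basis.repr_self, Finsupp.single_eq_same] at h2
    exact h2 isUnit_one
  obtain ⟨M, hMt, hM⟩ := exists_trZero_mulVec_eq v0 v1 hv0
  have hcts : resLoc p (derCocycle DQ δ) + adD (locRep ρbar p) M ∈
      ctsCocycles p (locRep ρbar p) := by
    rw [← resLoc_adD, ← map_add]
    exact resLoc_mem_ctsCocycles ρbar p (add_mem
      ⟨derCocycle_mem_adCocycles p hdet hδ, derCocycle_mem_globalFiniteLevel hδ⟩
      ⟨adD_mem_adCocycles_any _ _, adD_matRep_mem_globalFiniteLevel ρbar M⟩)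
  -- lifts of residual vectors
  have hlift : ∀ w : Fin 2 → ResidueField 𝒪, ∃ W : DQ.ρ.V,
      π ∘ b.equivFun W = w ∧ δ ∘ b.equivFun W = 0 := by
    intro w
    choose c hc using fun i => residue_surjective (w i)
    refine ⟨b.equivFun.symm fun i => algebraMap 𝒪 DQ.R (c i), ?_, ?_⟩
    · funext i
      simp only [Function.comp_apply, LinearEquiv.apply_symm_apply, π, resHom_algebraMap, hc]
    · funext i
      simp only [Function.comp_apply, LinearEquiv.apply_symm_apply, hδ.2.2, Pi.zero_apply]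
  -- applying `π` and `δ` to membership in the line
  have hline : ∀ (σ : Γ) (W : DQ.ρ.V) (z : DQ.R),
      DQ.ρ.ρ σ W - z • W ∈ Submodule.span DQ.R {bL 0} →
      δ z = 0 → δ ∘ b.equivFun W = 0 → ∃ α β : ResidueField 𝒪,
        (matRep ρbar σ).mulVec (π ∘ b.equivFun W) - π z • (π ∘ b.equivFun W) = β • v0 ∧
        ((univMat DQ σ).map δ).mulVec (π ∘ b.equivFun W) = α • v0 + β • v1 := by
    intro σ W z hW hz hW0
    obtain ⟨y, hy⟩ := Submodule.mem_span_singleton.mp hW
    have h1 : (univMat DQ σ).mulVec (b.equivFun W) - z • b.equivFun W = y • vR := by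
      rw [← hcol, ← map_smul, ← map_sub, ← hy, map_smul]
    refine ⟨δ y, π y, ?_, ?_⟩
    · funext i
      have h2 := congrArg π (congrFun h1 i)
      simp only [Pi.sub_apply, Pi.smul_apply, smul_eq_mul, map_sub, map_mul] at h2
      rw [RingHom.map_mulVec, univMat_map] at h2
      exact h2
    · have h3 := derSpace_map_mulVec hδ (univMat DQ σ) (b.equivFun W)
      rw [hW0, Matrix.mulVec_zero, add_zero] at h3
      rw [← h3]
      funext i
      have h2 := congrArg δ (congrFun h1 i)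
      have h4 : δ (b.equivFun W i) = 0 := congrFun hW0 i
      simp only [Pi.sub_apply, Pi.smul_apply, smul_eq_mul, derSpace_map_sub hδ, hδ.2.1, hz, h4,
        mul_zero, add_zero, sub_zero] at h2
      simp only [Function.comp_apply, Pi.add_apply, Pi.smul_apply, smul_eq_mul, v0, v1, h2]
      ring
  -- the two characters are constant to first order
  have hkey : ∀ σ ∈ (padicPlace p).decompositionSubgroup ℚ, ∃ x z : DQ.R,
      π x ≠ 0 ∧ δ z = 0 ∧
      (∀ W, DQ.ρ.ρ σ W - z • W ∈ Submodule.span DQ.R {bL 0}) ∧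
      (matRep ρbar σ).mulVec v0 = π x • v0 ∧
      ((univMat DQ σ).map δ).mulVec v0 + (matRep ρbar σ).mulVec v1 = π x • v1 := by
    intro σ hσ
    obtain ⟨x, z, hx, hz, hxz⟩ := hχ σ hσ
    obtain ⟨a, hpa, ha⟩ := exists_natCast_cyclotomic p σ
    have hak : ((a : ℕ) : ResidueField 𝒪) ≠ 0 := fun h =>
      hpa ((CharP.cast_eq_zero_iff (ResidueField 𝒪) p a).mp h)
    have h0 : DQ.ρ.ρ σ (bL 0) = x • bL 0 := hx _ (Submodule.mem_span_singleton_self _)
    obtain ⟨y1, hy1⟩ := Submodule.mem_span_singleton.mp (hz (bL 1))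
    have h1 : DQ.ρ.ρ σ (bL 1) = z • bL 1 + y1 • bL 0 := eq_add_of_sub_eq' hy1.symm
    have hdetσ : LinearMap.det (DQ.ρ.ρ σ) = x * z := by
      rw [← LinearMap.det_toMatrix bL, Matrix.det_fin_two]
      simp [LinearMap.toMatrix_apply, h0, h1]
    have hd := hdet.2 1 σ a ha
    have hx' := hxz 1 a ha
    rw [pow_one, hdetσ] at hd
    rw [pow_one] at hx'
    have d1 := derSpace_eq_zero_of_mem_span hδ hπp hd
    have d2 := derSpace_eq_zero_of_mem_span hδ hπp hx'
    have hker : ∀ t ∈ Ideal.span {(p : DQ.R)}, π t = 0 := fun t ht => by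
      obtain ⟨u, rfl⟩ := Ideal.mem_span_singleton'.mp ht
      rw [map_mul, hπp, mul_zero]
    have e1 := hker _ hd
    have e2 := hker _ hx'
    rw [map_sub, map_mul, map_natCast, sub_eq_zero] at e1 e2
    rw [derSpace_map_sub hδ, hδ.2.1, derSpace_map_natCast hδ, sub_zero] at d1
    rw [derSpace_map_sub hδ, hδ.2.1, derSpace_map_natCast hδ, mul_zero, add_zero, map_natCast,
      sub_eq_zero] at d2
    have hzz : π z ≠ 0 := fun h => by
      rw [h, mul_zero] at e1
      exact hak e1.symm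
    have hxx : π x ≠ 0 := fun h => by
      rw [h, zero_mul] at e1
      exact hak e1.symm
    have hδz : δ z = 0 := by
      have h3 : (2 * (a : ResidueField 𝒪) * π z) * δ z = 0 := by
        linear_combination d1 - π z * d2 - δ z * e2
      exact (mul_eq_zero.mp h3).resolve_left (mul_ne_zero (mul_ne_zero h2k hak) hzz)
    have hδx : δ x = 0 := by rw [d2, hδz, mul_zero]
    refine ⟨x, z, hxx, hδz, hz, ?_, ?_⟩
    · have h2 : (univMat DQ σ).mulVec vR = x • vR := by rw [← hcol, h0, map_smul]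
      funext i
      have h3 := congrArg π (congrFun h2 i)
      rw [RingHom.map_mulVec, univMat_map] at h3
      simpa [v0] using h3
    · have h2 : (univMat DQ σ).mulVec vR = x • vR := by rw [← hcol, h0, map_smul]
      have h3 := derSpace_map_mulVec hδ (univMat DQ σ) vR
      rw [univMat_map, h2] at h3
      refine h3.symm.trans ?_
      funext i
      simp [v1, π, hδ.2.1, hδx]
  have hinv : ∀ σ u, (matRep ρbar σ).mulVec ((matRep ρbar σ⁻¹).mulVec u) = u := fun σ u => by
    rw [Matrix.mulVec_mulVec, ← map_mul, mul_inv_cancel, map_one, Matrix.one_mulVec]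
  have hc' : ∀ g, ∀ w : Fin 2 → ResidueField 𝒪,
      ((resLoc p (derCocycle DQ δ) + adD (locRep ρbar p) M) g).mulVec
          ((matRep ρbar (localGaloisToGlobal p g)).mulVec w) =
        ((univMat DQ (localGaloisToGlobal p g)).map δ).mulVec w +
          (matRep ρbar (localGaloisToGlobal p g)).mulVec (M.mulVec w) -
          M.mulVec ((matRep ρbar (localGaloisToGlobal p g)).mulVec w) := by
    intro g w
    show ((derCocycle DQ δ (localGaloisToGlobal p g)) + adD (locRep ρbar p) M g).mulVec _ = _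
    rw [Matrix.add_mulVec, Matrix.mulVec_mulVec, derCocycle_mul_matRep, adD_apply,
      Matrix.sub_mulVec]
    show _ + ((matRep ρbar (localGaloisToGlobal p g) * M *
      matRep ρbar (localGaloisToGlobal p g⁻¹)).mulVec _ - _) = _
    rw [map_inv, Matrix.mulVec_mulVec _ (matRep ρbar (localGaloisToGlobal p g) * M *
      matRep ρbar (localGaloisToGlobal p g)⁻¹), mul_assoc _ (matRep ρbar _⁻¹), ← map_mul,
      inv_mul_cancel, map_one, mul_one, ← Matrix.mulVec_mulVec w, ← add_sub_assoc]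
  have hmem : resLoc p (derCocycle DQ δ) + adD (locRep ρbar p) M ∈ ordCocycles p (locRep ρbar p) := by
    refine Submodule.subset_span ⟨hcts, v0, hv0, fun g => ?_, fun g hg w => ?_, fun g => ?_,
      fun g w => ?_⟩
    · obtain ⟨x, z, -, -, -, h, -⟩ := hkey _ (localGaloisToGlobal_mem_decompositionSubgroup p g)
      exact Submodule.mem_span_singleton.mpr ⟨π x, h.symm⟩
    · obtain ⟨W, hW, hW0⟩ := hlift w
      obtain ⟨α, β, h1, -⟩ := hline _ W 1
        (by rw [one_smul]; exact hI _ (localGaloisToGlobal_mem_inertiaSubgroupIn p hg) W)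
        (derSpace_map_one hδ) hW0
      rw [hW, map_one, one_smul] at h1
      exact Submodule.mem_span_singleton.mpr ⟨β, h1.symm⟩
    · obtain ⟨x, z, hxx, -, -, h, h'⟩ := hkey _ (localGaloisToGlobal_mem_decompositionSubgroup p g)
      have h1 := hc' g v0
      rw [h, Matrix.mulVec_smul, Matrix.mulVec_smul, hM, h', sub_self] at h1
      exact (smul_eq_zero.mp h1).resolve_left hxx
    · obtain ⟨x, z, -, hz0, hz, -, -⟩ := hkey _ (localGaloisToGlobal_mem_decompositionSubgroup p g)
      rw [← hinv (localGaloisToGlobal p g) w, hc']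
      set u := (matRep ρbar (localGaloisToGlobal p g)⁻¹).mulVec w
      obtain ⟨W, hW, hW0⟩ := hlift u
      obtain ⟨α, β, h1, h2⟩ := hline _ W z (hz W) hz0 hW0
      obtain ⟨W', hW', hW0'⟩ := hlift (M.mulVec u)
      obtain ⟨α', β', h1', -⟩ := hline _ W' z (hz W') hz0 hW0'
      rw [hW] at h1 h2
      rw [hW'] at h1'
      refine Submodule.mem_span_singleton.mpr ⟨α + β', ?_⟩
      rw [sub_eq_iff_eq_add] at h1 h1'
      rw [h2, h1, h1', Matrix.mulVec_add, Matrix.mulVec_smul, Matrix.mulVec_smul, hM]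
      funext i
      simp only [Pi.add_apply, Pi.sub_apply, Pi.smul_apply, smul_eq_mul]
      ring
  refine Submodule.mem_sup.mpr ⟨_, hmem, -(adD (locRep ρbar p) M), ?_, by abel⟩
  exact neg_mem (Submodule.mem_map_of_mem (LinearMap.mem_ker.mpr hMt))

end Fermat.Agent.TW
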