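/-
A finite flat model over `ℤ_(p)` gives an integral model over `ℤ_p`.
-/
import Fermat.Agent.Flat.HopfToolkit
import Fermat.Agent.TW.LocalDefs
import Fermat.Prelude.Def_GaloisRep_CompletionBridge

set_option autoImplicit false

noncomputable section

namespace Fermat.Agent.TW

local notation "Γℚ" => AlgebraicClosure ℚ ≃ₐ[ℚ] AlgebraicClosure ℚ

variable {p : ℕ} [Fact p.Prime] {M : Type} [AddCommGroup M] [Finite M]

theorem hasLocalModel_of_hasFlatModel {act : Γℚ → M → M} (h : FlatModel.HasFlatModel p M act) :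
    HasLocalModel p M fun g x => act (localGaloisToGlobal p g) x := by
  classical
  obtain ⟨O⟩ := h.exists_order
  obtain ⟨n, gen, hgen⟩ :=
    @Module.Finite.exists_fin (GaloisRep.ratLocalizedAt p) O.alg _ _ _ O.finite
  let ι : ℤ_[p] →+* (PadicAlgCl p) := (algebraMap ℚ_[p] (PadicAlgCl p)).comp PadicInt.Coe.ringHom
  let e : AlgebraicClosure ℚ →+* (PadicAlgCl p) := (padicEmbedding p).toRingHom
  let S : AddSubgroup (M → (PadicAlgCl p)) :=
    { carrier := {f | ∃ a : Fin n → ℤ_[p],
        ∀ x, f x = ∑ i, ι (a i) * e ((gen i : M → AlgebraicClosure ℚ) x)}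
      add_mem' := by
        rintro f g ⟨a, ha⟩ ⟨b, hb⟩
        exact ⟨a + b, fun x => by simp [ha x, hb x, add_mul, Finset.sum_add_distrib]⟩
      zero_mem' := ⟨0, fun x => by simp⟩
      neg_mem' := by
        rintro f ⟨a, ha⟩
        exact ⟨-a, fun x => by simp [ha x]⟩ }
  -- the embedded order lies in `S`
  have hcoef : ∀ c : GaloisRep.ratLocalizedAt p, ∃ z : ℤ_[p], ι z = e ((c : ℚ) : AlgebraicClosure ℚ) := by
    intro c
    have hden : ¬ p ∣ (c : ℚ).den := fun hd => by
      have hc : Nat.Coprime (c : ℚ).den p := c.2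
      exact (Fact.out : p.Prime).not_dvd_one (hc.gcd_eq_one ▸ Nat.dvd_gcd hd dvd_rfl)
    refine ⟨⟨((c : ℚ) : ℚ_[p]), Padic.norm_rat_le_one hden⟩, ?_⟩
    show algebraMap ℚ_[p] (PadicAlgCl p) (((c : ℚ) : ℚ_[p])) = _
    rw [map_ratCast, map_ratCast]
  have hemb : ∀ f ∈ O.alg, (e ∘ f) ∈ S := by
    intro f hf
    have htop : (⟨f, hf⟩ : O.alg) ∈ Submodule.span (GaloisRep.ratLocalizedAt p) (Set.range gen) := by
      rw [hgen]
      trivial
    obtain ⟨c, hc⟩ := (Submodule.mem_span_range_iff_exists_fun _).mp htop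
    choose z hz using fun i => hcoef (c i)
    refine ⟨z, fun x => ?_⟩
    have := congrFun (congrArg Subtype.val hc) x
    simp only [Function.comp_apply]
    rw [show f x = (⟨f, hf⟩ : O.alg).1 x from rfl, ← this]
    simp only [AddSubmonoidClass.coe_finsetSum, Finset.sum_apply, SetLike.val_smul, Pi.smul_apply,
      map_sum, hz]
    refine Finset.sum_congr rfl fun i _ => ?_
    rw [← map_mul, Algebra.smul_def]
    rfl
  have hsmul : ∀ (t : ℤ_[p]) (f : M → (PadicAlgCl p)), f ∈ S → (fun x => ι t * f x) ∈ S := by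
    rintro t f ⟨a, ha⟩
    exact ⟨fun i => t * a i, fun x => by simp [ha x, Finset.mul_sum, mul_assoc]⟩
  have hSone : (1 : M → (PadicAlgCl p)) ∈ S := by
    have h1 := hemb 1 O.alg.one_mem
    have h2 : (e ∘ (1 : M → AlgebraicClosure ℚ)) = 1 := funext fun x => by simp
    rwa [h2] at h1
  have hSmul : ∀ f g : M → (PadicAlgCl p), f ∈ S → g ∈ S → f * g ∈ S := by
    rintro f g ⟨a, ha⟩ ⟨b, hb⟩
    have hfg : f * g = ∑ i, ∑ j, (fun x => ι (a i * b j) *
        (e ∘ ((gen i : M → AlgebraicClosure ℚ) * (gen j : M → AlgebraicClosure ℚ))) x) := by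
      funext x
      simp only [Pi.mul_apply, Finset.sum_apply, Function.comp_apply, ha x, hb x, Finset.sum_mul,
        Finset.mul_sum, map_mul]
      rw [Finset.sum_comm]
      refine Finset.sum_congr rfl fun i _ => Finset.sum_congr rfl fun j _ => ?_
      ring
    rw [hfg]
    exact sum_mem fun i _ => sum_mem fun j _ => hsmul _ _ (hemb _ (O.alg.mul_mem (gen i).2 (gen j).2))
  let A : Subring (M → (PadicAlgCl p)) :=
    { S with one_mem' := hSone, mul_mem' := fun {f g} hf hg => hSmul f g hf hg }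
  refine ⟨{
    alg := A
    padicInt_mem := fun a => ?_
    fg := ⟨n, fun i => ⟨e ∘ (gen i : M → AlgebraicClosure ℚ), hemb _ (gen i).2⟩,
      fun f hf => hf⟩
    equivariant := ?_
    separates := ?_
    comul_mem := ?_ }⟩
  · have := hsmul a 1 hSone
    simp only [Pi.one_apply, mul_one] at this
    exact this
  · rintro f ⟨a, ha⟩ σ x
    rw [ha, ha, map_sum]
    refine Finset.sum_congr rfl fun i _ => ?_
    rw [map_mul, O.equivariant _ (gen i).2]
    congr 1
    · exact (σ.commutes _).symm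
    · exact padicEmbedding_localGaloisToGlobal p σ _
  · intro x y hxy
    refine O.separates x y fun f hf => e.injective ?_
    exact hxy _ (hemb f hf)
  · rintro f ⟨a, ha⟩
    have hex : ∀ i, ∃ (m : ℕ) (u v : Fin m → A), ∀ x y,
        e ((gen i : M → AlgebraicClosure ℚ) (x + y)) =
          ∑ j, (u j : M → (PadicAlgCl p)) x * (v j : M → (PadicAlgCl p)) y := by
      intro i
      obtain ⟨m, u, v, huv⟩ :=
        (FlatModel.mem_boxAlg_iff _ _ _).mp (O.comul_mem _ (gen i).2)
      refine ⟨m, fun j => ⟨e ∘ (u j : M → AlgebraicClosure ℚ), hemb _ (u j).2⟩,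
        fun j => ⟨e ∘ (v j : M → AlgebraicClosure ℚ), hemb _ (v j).2⟩, fun x y => ?_⟩
      rw [huv x y, map_sum]
      exact Finset.sum_congr rfl fun j _ => map_mul e _ _
    choose m u v huv using hex
    let eq := (Fintype.equivFin (Σ i : Fin n, Fin (m i))).symm
    refine ⟨_, fun t => ⟨fun x => ι (a (eq t).1) * (u (eq t).1 (eq t).2 : M → (PadicAlgCl p)) x,
      hsmul _ _ (u (eq t).1 (eq t).2).2⟩, fun t => v (eq t).1 (eq t).2, fun x y => ?_⟩
    rw [eq.sum_comp (fun s : Σ i : Fin n, Fin (m i) =>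
      ι (a s.1) * (u s.1 s.2 : M → (PadicAlgCl p)) x * (v s.1 s.2 : M → (PadicAlgCl p)) y), Fintype.sum_sigma, ha]
    refine Finset.sum_congr rfl fun i _ => ?_
    simp only [huv i x y, Finset.mul_sum, mul_assoc]

end Fermat.Agent.TW
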