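/-
The deformation conditions of the minimal problems are preserved by base change along a
surjective local homomorphism to a ring with finite residue field.
-/
import Fermat.Agent.Deform.MatrixRep
import Fermat.Prelude.Def_GaloisRep_StrictOrdinary
import Fermat.Prelude.Def_GaloisRep_Flat

set_option autoImplicit false

noncomputable section

open IsLocalRing Module
open scoped TensorProduct

namespace Fermat.Agent.TW

variable {A B : Type} [CommRing A] [IsLocalRing A] [CommRing B] [IsLocalRing B]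
  (φ : A →+* B) (hφ : IsLocalHom φ) (ρ : GaloisRepAdic A)

theorem detIsCyclotomic_baseChangeAlong {p : ℕ} (h : ρ.DetIsCyclotomic p) :
    (ρ.baseChangeAlong φ hφ).DetIsCyclotomic p := by
  let _ : Algebra A B := φ.toAlgebra
  have := hφ
  refine ⟨by simpa using map_nonunit φ _ h.1, fun n σ a ha => ?_⟩
  have h1 := Ideal.mem_map_of_mem φ (h.2 n σ a ha)
  rw [map_sub, map_natCast, Ideal.map_span, Set.image_singleton, map_natCast] at h1
  show LinearMap.det ((ρ.ρ σ).baseChange B) - (a : B) ∈ _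
  rw [LinearMap.det_baseChange]
  exact h1

theorem isUnramifiedAt_baseChangeAlong {q : ℕ} (h : ρ.IsUnramifiedAt q) :
    (ρ.baseChangeAlong φ hφ).IsUnramifiedAt q := fun P hP σ hσ => by
  let _ : Algebra A B := φ.toAlgebra
  show (ρ.ρ σ).baseChange B = 1
  rw [h P hP σ hσ, LinearMap.baseChange_one]

theorem isUnipotentOnInertiaAt_baseChangeAlong {q : ℕ} (h : ρ.IsUnipotentOnInertiaAt q) :
    (ρ.baseChangeAlong φ hφ).IsUnipotentOnInertiaAt q := fun P hP σ hσ => by
  let _ : Algebra A B := φ.toAlgebra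
  show LinearMap.charpoly ((ρ.ρ σ).baseChange B) = _
  rw [LinearMap.charpoly_baseChange, h P hP σ hσ]
  simp

theorem isStrictOrdinaryAt_baseChangeAlong {p : ℕ} (h : ρ.IsStrictOrdinaryAt p) :
    (ρ.baseChangeAlong φ hφ).IsStrictOrdinaryAt p := by
  let _ : Algebra A B := φ.toAlgebra
  have := hφ
  refine ⟨by simpa using map_nonunit φ _ h.1, fun P hP => ?_⟩
  obtain ⟨L, ⟨b, hb⟩, hD, hI, hχ⟩ := h.2 P hP
  subst hb
  let bB := Algebra.TensorProduct.basis B b
  have hmem : ∀ w ∈ A ∙ b 0, ∀ t : B, t ⊗ₜ[A] w ∈ B ∙ bB 0 := by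
    intro w hw t
    obtain ⟨c, rfl⟩ := Submodule.mem_span_singleton.mp hw
    refine Submodule.mem_span_singleton.mpr ⟨c • t, ?_⟩
    rw [Algebra.TensorProduct.basis_apply, TensorProduct.smul_tmul', smul_eq_mul, mul_one,
      TensorProduct.smul_tmul]
  have hline : bB 0 = (1 : B) ⊗ₜ[A] b 0 := Algebra.TensorProduct.basis_apply b 0
  have hstab : ∀ σ ∈ P.decompositionSubgroup ℚ, ∀ v : B ⊗[A] ρ.V, v ∈ B ∙ bB 0 →
      (ρ.ρ σ).baseChange B v ∈ B ∙ bB 0 := by
    intro σ hσ v hv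
    obtain ⟨c, rfl⟩ := Submodule.mem_span_singleton.mp hv
    rw [map_smul]
    refine Submodule.smul_mem _ c ?_
    rw [hline, LinearMap.baseChange_tmul, ← hline]
    exact hmem _ (hD σ hσ _ (Submodule.mem_span_singleton_self _)) 1
  have hiner : ∀ σ ∈ P.inertiaSubgroupIn ℚ, ∀ v : B ⊗[A] ρ.V,
      (ρ.ρ σ).baseChange B v - v ∈ B ∙ bB 0 := by
    intro σ hσ v
    induction v using TensorProduct.induction_on with
    | zero => simp
    | tmul t w =>
      rw [LinearMap.baseChange_tmul, ← TensorProduct.tmul_sub]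
      exact hmem _ (hI σ hσ w) t
    | add x y hx hy => rw [map_add, add_sub_add_comm]; exact Submodule.add_mem _ hx hy
  have hchar : ∀ σ, ∀ x z : A, (∀ w ∈ A ∙ b 0, ρ.ρ σ w = x • w) →
      (∀ w, ρ.ρ σ w - z • w ∈ A ∙ b 0) →
      (∀ v : B ⊗[A] ρ.V, v ∈ B ∙ bB 0 → (ρ.ρ σ).baseChange B v = φ x • v) ∧
      ∀ v : B ⊗[A] ρ.V, (ρ.ρ σ).baseChange B v - φ z • v ∈ B ∙ bB 0 := by
    intro σ x z hx hz
    refine ⟨fun v hv => ?_, fun v => ?_⟩
    · obtain ⟨c, rfl⟩ := Submodule.mem_span_singleton.mp hv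
      rw [map_smul, smul_comm (φ x)]
      congr 1
      rw [hline, LinearMap.baseChange_tmul, hx _ (Submodule.mem_span_singleton_self _),
        TensorProduct.tmul_smul]
      exact (algebraMap_smul B x _).symm
    · rw [show φ z • v = z • v from algebraMap_smul B z v]
      induction v using TensorProduct.induction_on with
      | zero => simp
      | tmul t w =>
        rw [LinearMap.baseChange_tmul, ← TensorProduct.tmul_smul, ← TensorProduct.tmul_sub]
        exact hmem _ (hz w) t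
      | add u w hu hw => rw [map_add, smul_add, add_sub_add_comm]; exact Submodule.add_mem _ hu hw
  refine ⟨B ∙ bB 0, ⟨bB, rfl⟩, hstab, hiner, fun σ hσ => ?_⟩
  obtain ⟨x, z, hx, hz, hxz⟩ := hχ σ hσ
  obtain ⟨hx', hz'⟩ := hchar σ x z hx hz
  refine ⟨φ x, φ z, hx', hz', fun n a ha => ?_⟩
  have h1 := Ideal.mem_map_of_mem φ (hxz n a ha)
  rw [map_sub, map_mul, map_natCast, Ideal.map_span, Set.image_singleton, map_natCast] at h1
  exact h1

theorem isFlatAt_baseChangeAlong {p : ℕ} (hsurj : Function.Surjective φ)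
    (h : ρ.IsFlatAt p) : (ρ.baseChangeAlong φ hφ).IsFlatAt p := by
  let _ : Algebra A B := φ.toAlgebra
  have := hφ
  have hfinB : Finite (ResidueField B) := by
    have := h.1
    refine Finite.of_surjective (ResidueField.map φ) fun y => ?_
    obtain ⟨y, rfl⟩ := residue_surjective y
    obtain ⟨x, rfl⟩ := hsurj y
    exact ⟨residue A x, rfl⟩
  refine ⟨hfinB, fun I hI => ?_⟩
  let J : Ideal A := Ideal.comap φ I
  have hJ : Finite (A ⧸ J) :=
    Finite.of_injective (Ideal.quotientMap I φ le_rfl) Ideal.quotientMap_injective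
  obtain ⟨H, hH1, hH2, hfin, hflat, hcc, e, headd, heσ⟩ := h.2 J hJ
  let b : Basis (Fin 2) A ρ.V := Deform.repBasis ρ
  let bB := Algebra.TensorProduct.basis B b
  let q : ρ.V →+ (B ⊗[A] ρ.V) ⧸ (I • (⊤ : Submodule B (B ⊗[A] ρ.V))) :=
    (Submodule.mkQ _).toAddMonoidHom.comp
      ((TensorProduct.mk A B ρ.V 1).toAddMonoidHom)
  have hrepr : ∀ v : ρ.V, ∀ i, bB.repr ((1 : B) ⊗ₜ[A] v) i = φ (b.repr v i) := fun v i => by
    rw [Algebra.TensorProduct.basis_repr_tmul]
    simp [RingHom.algebraMap_toAlgebra]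
  have hker : ∀ v, q v = 0 ↔ v ∈ J • (⊤ : Submodule A ρ.V) := by
    intro v
    show Submodule.Quotient.mk ((1 : B) ⊗ₜ[A] v) = 0 ↔ _
    rw [Submodule.Quotient.mk_eq_zero]
    constructor
    · intro hv
      refine Deform.mem_smul_top_of_forall b J fun i => ?_
      show φ (b.repr v i) ∈ I
      rw [← hrepr]
      exact Deform.repr_mem_of_mem_smul_top bB I hv i
    · intro hv
      refine Deform.mem_smul_top_of_forall bB I fun i => ?_
      rw [hrepr]
      exact Deform.repr_mem_of_mem_smul_top b J hv i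
  have hqs : Function.Surjective q := by
    intro y
    obtain ⟨y, rfl⟩ := Submodule.Quotient.mk_surjective _ y
    induction y using TensorProduct.induction_on with
    | zero => exact ⟨0, by simp⟩
    | tmul t w =>
      obtain ⟨t, rfl⟩ := hsurj t
      refine ⟨t • w, ?_⟩
      show Submodule.Quotient.mk ((1 : B) ⊗ₜ[A] (t • w)) = _
      rw [TensorProduct.tmul_smul, TensorProduct.smul_tmul', Algebra.smul_def, mul_one]
      rfl
    | add x y hx hy =>
      obtain ⟨v, hv⟩ := hx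
      obtain ⟨w, hw⟩ := hy
      exact ⟨v + w, by rw [map_add, hv, hw, Submodule.Quotient.mk_add]⟩
  let q' : (ρ.V ⧸ (J • (⊤ : Submodule A ρ.V))) → (B ⊗[A] ρ.V) ⧸ (I • (⊤ : Submodule B (B ⊗[A] ρ.V))) :=
    Quotient.lift q fun v w hvw => by
      have h1 : v - w ∈ J • (⊤ : Submodule A ρ.V) :=
        (Submodule.quotientRel_def (J • (⊤ : Submodule A ρ.V))).mp hvw
      rw [← sub_eq_zero, ← map_sub]
      exact (hker _).mpr h1
  have hq'mk : ∀ v, q' (Submodule.Quotient.mk v) = q v := fun v => rfl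
  have hbij : Function.Bijective q' := by
    refine ⟨fun x y hxy => ?_, fun y => ?_⟩
    · obtain ⟨x, rfl⟩ := Submodule.Quotient.mk_surjective _ x
      obtain ⟨y, rfl⟩ := Submodule.Quotient.mk_surjective _ y
      rw [hq'mk, hq'mk, ← sub_eq_zero, ← map_sub, hker] at hxy
      exact (Submodule.Quotient.eq _).mpr hxy
    · obtain ⟨v, rfl⟩ := hqs y
      exact ⟨Submodule.Quotient.mk v, rfl⟩
  have hq'add : ∀ x y, q' (x + y) = q' x + q' y := by
    intro x y
    obtain ⟨x, rfl⟩ := Submodule.Quotient.mk_surjective _ x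
    obtain ⟨y, rfl⟩ := Submodule.Quotient.mk_surjective _ y
    rw [← Submodule.Quotient.mk_add, hq'mk, hq'mk, hq'mk, map_add]
  refine ⟨H, hH1, hH2, hfin, hflat, hcc, e.trans (Equiv.ofBijective q' hbij),
    fun f g => ?_, fun σ f g hfg => ?_⟩
  · show q' (e (f * g)) = q' (e f) + q' (e g)
    rw [headd, hq'add]
  · show q' (e g) = (ρ.baseChangeAlong φ hφ).levelAction I σ (q' (e f))
    rw [heσ σ f g hfg]
    obtain ⟨v, hv⟩ := Submodule.Quotient.mk_surjective _ (e f)
    rw [← hv]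
    rfl

variable {𝒪 : Type} [CommRing 𝒪] [Algebra 𝒪 A] [Algebra 𝒪 B]

/-- Base change of the minimal strictly ordinary type. -/
theorem strictOrdinary_type_baseChangeAlong {p : ℕ} {S Smin : Finset ℕ}
    (h : GaloisRep.strictOrdinaryCondition 𝒪 p S ρ ∧
      ∀ q ∈ Smin, q.Prime → q ≠ p → ρ.IsUnipotentOnInertiaAt q) :
    GaloisRep.strictOrdinaryCondition 𝒪 p S (ρ.baseChangeAlong φ hφ) ∧
      ∀ q ∈ Smin, q.Prime → q ≠ p → (ρ.baseChangeAlong φ hφ).IsUnipotentOnInertiaAt q :=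
  ⟨⟨detIsCyclotomic_baseChangeAlong φ hφ ρ h.1.1,
    isStrictOrdinaryAt_baseChangeAlong φ hφ ρ h.1.2.1,
    fun q hq hqS => isUnramifiedAt_baseChangeAlong φ hφ ρ (h.1.2.2 q hq hqS)⟩,
    fun q hq hq' hqp => isUnipotentOnInertiaAt_baseChangeAlong φ hφ ρ (h.2 q hq hq' hqp)⟩

/-- Base change of the minimal flat type. -/
theorem flat_type_baseChangeAlong {p : ℕ} {S Smin : Finset ℕ} (hsurj : Function.Surjective φ)
    (h : GaloisRep.flatCondition 𝒪 p S ρ ∧
      ∀ q ∈ Smin, q.Prime → q ≠ p → ρ.IsUnipotentOnInertiaAt q) :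
    GaloisRep.flatCondition 𝒪 p S (ρ.baseChangeAlong φ hφ) ∧
      ∀ q ∈ Smin, q.Prime → q ≠ p → (ρ.baseChangeAlong φ hφ).IsUnipotentOnInertiaAt q :=
  ⟨⟨detIsCyclotomic_baseChangeAlong φ hφ ρ h.1.1,
    isFlatAt_baseChangeAlong φ hφ ρ hsurj h.1.2.1,
    fun q hq hqS => isUnramifiedAt_baseChangeAlong φ hφ ρ (h.1.2.2 q hq hqS)⟩,
    fun q hq hq' hqp => isUnipotentOnInertiaAt_baseChangeAlong φ hφ ρ (h.2 q hq hq' hqp)⟩

end Fermat.Agent.TW
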