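/-
A derivation of the deformation ring with coboundary cocycle is zero, by universality.
-/
import Fermat.Agent.TW.TangentCCocycle
import Mathlib.Algebra.DualNumber

set_option autoImplicit false

noncomputable section

open IsLocalRing Module Fermat.Agent.Deform
open scoped DualNumber

namespace Fermat.Agent.TW

variable {𝒪 : Type} [CommRing 𝒪] [IsDomain 𝒪] [IsDiscreteValuationRing 𝒪]
  [IsAdicComplete (maximalIdeal 𝒪) 𝒪] [Finite (ResidueField 𝒪)]
  {ρbar : ResidualGaloisRep (ResidueField 𝒪)}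
  {𝒟 : ∀ ⦃A : Type⦄ [CommRing A] [IsLocalRing A] [Algebra 𝒪 A], GaloisRepAdic A → Prop}
  {DQ : GaloisRep.DeformationRingData 𝒪 ρbar 𝒟}

/-- The dual number valued homomorphism of a derivation. -/
def derHom {δ : DQ.R → ResidueField 𝒪} (hδ : δ ∈ derSpace 𝒪 (resHom DQ)) :
    letI := dualAlgebra 𝒪
    DQ.R →ₐ[𝒪] DualNumber (ResidueField 𝒪) :=
  letI := dualAlgebra 𝒪
  { toFun := fun x => TrivSqZeroExt.inl (resHom DQ x) + TrivSqZeroExt.inr (δ x)
    map_one' := by simp [derSpace_map_one hδ]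
    map_mul' := fun x y => by
      refine TrivSqZeroExt.ext ?_ ?_
      · simp
      · simp [hδ.2.1]
        ring
    map_zero' := by simp [derSpace_map_zero hδ]
    map_add' := fun x y => by
      refine TrivSqZeroExt.ext ?_ ?_
      · simp
      · simp [hδ.1]
    commutes' := fun c => by
      rw [resHom_algebraMap, hδ.2.2 c, TrivSqZeroExt.inr_zero, add_zero]
      rfl }

omit [Finite (ResidueField 𝒪)] in
theorem fst_derHom {δ : DQ.R → ResidueField 𝒪} (hδ : δ ∈ derSpace 𝒪 (resHom DQ)) (x : DQ.R) :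
    letI := dualAlgebra 𝒪
    (derHom hδ x).fst = resHom DQ x := by
  simp [derHom]

omit [Finite (ResidueField 𝒪)] in
theorem snd_derHom {δ : DQ.R → ResidueField 𝒪} (hδ : δ ∈ derSpace 𝒪 (resHom DQ)) (x : DQ.R) :
    letI := dualAlgebra 𝒪
    (derHom hδ x).snd = δ x := by
  simp [derHom]

omit [Finite (ResidueField 𝒪)] in
theorem derHom_surjective {δ : DQ.R → ResidueField 𝒪} (hδ : δ ∈ derSpace 𝒪 (resHom DQ))
    (h0 : δ ≠ 0) :
    letI := dualAlgebra 𝒪
    Function.Surjective (derHom hδ) := by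
  obtain ⟨x, hx⟩ := Function.ne_iff.mp h0
  obtain ⟨c, hc⟩ := resHom_comp_surjective DQ (resHom DQ x)
  have hy0 : resHom DQ (x - algebraMap 𝒪 DQ.R c) = 0 := by
    rw [map_sub, sub_eq_zero]
    exact hc.symm
  have hy1 : δ (x - algebraMap 𝒪 DQ.R c) = δ x := by
    rw [derSpace_map_sub hδ, hδ.2.2, sub_zero]
  intro t
  obtain ⟨ca, hca⟩ := residue_surjective t.fst
  obtain ⟨cb, hcb⟩ := residue_surjective (t.snd / δ x)
  refine ⟨algebraMap 𝒪 DQ.R ca + algebraMap 𝒪 DQ.R cb * (x - algebraMap 𝒪 DQ.R c),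
    TrivSqZeroExt.ext ?_ ?_⟩
  · rw [fst_derHom, map_add, map_mul, hy0, mul_zero, add_zero, resHom_algebraMap, hca]
  · rw [snd_derHom, hδ.1, hδ.2.1, hδ.2.2, hδ.2.2, hy0, hy1, resHom_algebraMap, hcb, zero_mul,
      add_zero, zero_add]
    exact div_mul_cancel₀ _ hx

/-- Injectivity modulo coboundaries. -/
theorem eq_zero_of_derCocycle_mem_adCoboundaries
    (hbase : letI := dualAlgebra 𝒪
      ∀ (φ : DQ.R →ₐ[𝒪] DualNumber (ResidueField 𝒪)) (hφ : IsLocalHom (φ : DQ.R →+* DualNumber (ResidueField 𝒪))),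
        Function.Surjective φ →
          𝒟 (DQ.ρ.baseChangeAlong (φ : DQ.R →+* DualNumber (ResidueField 𝒪)) hφ))
    {δ : DQ.R → ResidueField 𝒪} (hδ : δ ∈ derSpace 𝒪 (resHom DQ))
    (hB : derCocycle DQ δ ∈ adCoboundaries (matRep ρbar)) : δ = 0 := by
  by_contra h0
  let _ := dualAlgebra 𝒪
  obtain ⟨M, -, hM⟩ := hB
  have : Finite (DualNumber (ResidueField 𝒪)) :=
    Finite.of_injective (fun x : DualNumber (ResidueField 𝒪) => (x.fst, x.snd))
      (fun x y h => TrivSqZeroExt.ext (congrArg Prod.fst h) (congrArg Prod.snd h))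
  have : IsArtinianRing (DualNumber (ResidueField 𝒪)) := isArtinianRing_of_finite (DualNumber (ResidueField 𝒪))
  have htest := isTest_dual (𝒪 := 𝒪)
  have := htest.1
  have h0mem : (0 : DQ.R → ResidueField 𝒪) ∈ derSpace 𝒪 (resHom DQ) := Submodule.zero_mem _
  let φ := derHom hδ
  let φ0 := derHom h0mem
  have hsurj : Function.Surjective φ := derHom_surjective hδ h0
  have hφ : IsLocalHom (φ : DQ.R →+* (DualNumber (ResidueField 𝒪))) := IsLocalHom.of_surjective _ hsurj
  have hφ0 : IsLocalHom (φ0 : DQ.R →+* (DualNumber (ResidueField 𝒪))) := ⟨fun x hx => by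
    by_contra hu
    have h2 : resHom DQ x = 0 := (resHom_eq_zero_iff DQ x).mpr hu
    change IsUnit (φ0 x) at hx
    rw [TrivSqZeroExt.isUnit_iff_isUnit_fst, fst_derHom, h2] at hx
    exact not_isUnit_zero hx⟩
  have hr := mcont_repMat DQ.ρ (univBasis DQ)
  have eq1 : ∀ (ψ : DQ.R →ₐ[𝒪] (DualNumber (ResidueField 𝒪))) (hψ : IsLocalHom (ψ : DQ.R →+* (DualNumber (ResidueField 𝒪)))),
      (DQ.ρ.baseChangeAlong (ψ : DQ.R →+* (DualNumber (ResidueField 𝒪))) hψ).IsEquiv
        (toRep (mapRep (ψ : DQ.R →+* (DualNumber (ResidueField 𝒪))) (univMat DQ))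
          (mcont_mapRep (ψ : DQ.R →+* (DualNumber (ResidueField 𝒪))) hψ (univMat DQ) hr)) := fun ψ hψ => by
    obtain ⟨e⟩ := isEquiv_toRep DQ.ρ (univBasis DQ)
    obtain ⟨e2⟩ := isEquiv_baseChangeAlong_toRep (ψ : DQ.R →+* (DualNumber (ResidueField 𝒪))) hψ (univMat DQ) hr
    exact ⟨(e.baseChangeAlong (ψ : DQ.R →+* (DualNumber (ResidueField 𝒪))) hψ).trans e2⟩
  have hM' : ∀ σ, (univMat DQ σ).map δ = matRep ρbar σ * M - M * matRep ρbar σ := by
    intro σ
    rw [← derCocycle_mul_matRep, ← hM, adD_apply, sub_mul, mul_assoc _ (matRep ρbar σ⁻¹),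
      ← map_mul, inv_mul_cancel, map_one, mul_one]
  -- the two pushforwards are conjugate
  let P : M2 (DualNumber (ResidueField 𝒪)) := Matrix.of fun i j =>
    TrivSqZeroExt.inl ((1 : M2 (ResidueField 𝒪)) i j) - TrivSqZeroExt.inr (M i j)
  let Q : M2 (DualNumber (ResidueField 𝒪)) := Matrix.of fun i j =>
    TrivSqZeroExt.inl ((1 : M2 (ResidueField 𝒪)) i j) + TrivSqZeroExt.inr (M i j)
  have hPQ : P * Q = 1 := by
    refine Matrix.ext fun i j => TrivSqZeroExt.ext ?_ ?_ <;> fin_cases i <;> fin_cases j <;>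
      simp [P, Q, Matrix.mul_apply, Fin.sum_univ_two, -DualNumber.inr_eq_smul_eps]
  have hPu : IsUnit P := IsUnit.of_mul_eq_one Q hPQ
  have hint : ∀ σ, P * mapRep (φ0 : DQ.R →+* (DualNumber (ResidueField 𝒪))) (univMat DQ) σ =
      mapRep (φ : DQ.R →+* (DualNumber (ResidueField 𝒪))) (univMat DQ) σ * P := by
    intro σ
    have hr0 : ∀ i j, resHom DQ (univMat DQ σ i j) = matRep ρbar σ i j := fun i j =>
      congrFun (congrFun (univMat_map DQ σ) i) j
    have hrδ : ∀ i j, δ (univMat DQ σ i j) = (matRep ρbar σ * M - M * matRep ρbar σ) i j :=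
      fun i j => congrFun (congrFun (hM' σ) i) j
    refine Matrix.ext fun i j => TrivSqZeroExt.ext ?_ ?_
    · fin_cases i <;> fin_cases j <;>
        simp [P, φ, φ0, mapRep_apply, Matrix.mul_apply, Fin.sum_univ_two, fst_derHom,
          hr0, -DualNumber.inr_eq_smul_eps]
    · fin_cases i <;> fin_cases j <;>
        (simp [P, φ, φ0, mapRep_apply, Matrix.mul_apply, Fin.sum_univ_two, fst_derHom, snd_derHom,
          hr0, hrδ, -DualNumber.inr_eq_smul_eps]; try ring)
  have eq01 := (isEquiv_toRep_iff (mapRep (φ0 : DQ.R →+* (DualNumber (ResidueField 𝒪))) (univMat DQ))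
    (mapRep (φ : DQ.R →+* (DualNumber (ResidueField 𝒪))) (univMat DQ))
    (mcont_mapRep (φ0 : DQ.R →+* (DualNumber (ResidueField 𝒪))) hφ0 (univMat DQ) hr)
    (mcont_mapRep (φ : DQ.R →+* (DualNumber (ResidueField 𝒪))) hφ (univMat DQ) hr)).mpr ⟨P, hPu, hint⟩
  have hresA : Function.Surjective (residue (DualNumber (ResidueField 𝒪)) ∘ algebraMap 𝒪 (DualNumber (ResidueField 𝒪))) := htest.residue_surjective
  have hres : (DQ.ρ.baseChangeAlong (φ : DQ.R →+* (DualNumber (ResidueField 𝒪))) hφ).residual.IsEquiv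
      (ρbar.baseChangeAlong (ResidueField.map (algebraMap 𝒪 (DualNumber (ResidueField 𝒪))))) := by
    obtain ⟨e⟩ := eq1 φ hφ
    obtain ⟨e2⟩ := (residual_isEquiv_iff (mapRep (φ : DQ.R →+* (DualNumber (ResidueField 𝒪))) (univMat DQ))
      (mcont_mapRep (φ : DQ.R →+* (DualNumber (ResidueField 𝒪))) hφ (univMat DQ) hr) ρbar (residualBasis ρbar)
      (ResidueField.map (algebraMap 𝒪 (DualNumber (ResidueField 𝒪))))).mpr ⟨1, isUnit_one, fun σ => by
        rw [one_mul, mul_one]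
        refine Matrix.ext fun i j => ?_
        obtain ⟨c, hc⟩ := residue_surjective (matRep ρbar σ i j)
        show residue (DualNumber (ResidueField 𝒪)) (φ (univMat DQ σ i j)) =
          ResidueField.map (algebraMap 𝒪 (DualNumber (ResidueField 𝒪))) (matRep ρbar σ i j)
        rw [← hc, ResidueField.map_residue]
        refine Ideal.Quotient.eq.mpr ?_
        rw [mem_maximalIdeal, mem_nonunits_iff, TrivSqZeroExt.isUnit_iff_isUnit_fst,
          TrivSqZeroExt.fst_sub, fst_derHom,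
          show resHom DQ (univMat DQ σ i j) = matRep ρbar σ i j from
            congrFun (congrFun (univMat_map DQ σ) i) j, ← hc]
        show ¬ IsUnit (residue 𝒪 c - residue 𝒪 c)
        rw [sub_self]
        exact not_isUnit_zero⟩
    exact ⟨e.residual.trans e2⟩
  obtain ⟨ψ, -, huniq⟩ := DQ.universal (DualNumber (ResidueField 𝒪)) hresA _ (hbase φ hφ hsurj) hres
  have hφeq : φ = ψ := huniq φ ⟨hφ, ⟨GaloisRepAdic.Equiv.refl _⟩⟩
  have hφ0eq : φ0 = ψ := by
    refine huniq φ0 ⟨hφ0, ?_⟩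
    obtain ⟨e0⟩ := eq1 φ0 hφ0
    obtain ⟨e⟩ := eq1 φ hφ
    obtain ⟨e01⟩ := eq01
    exact ⟨(e0.trans e01).trans e.symm⟩
  refine h0 (funext fun x => ?_)
  have h := congrArg TrivSqZeroExt.snd (DFunLike.congr_fun (hφeq.trans hφ0eq.symm) x)
  simpa [φ, φ0, snd_derHom] using h

end Fermat.Agent.TW
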