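/-
The cocycle of a derivation satisfies the flat local condition.
-/
import Fermat.Agent.TW.TangentCLocal
import Fermat.Agent.TW.TangentCInjective
import Fermat.Agent.TW.TangentCModel
import Fermat.Prelude.Def_GaloisRep_Flat

set_option autoImplicit false

noncomputable section

open IsLocalRing Module Fermat.Agent.Deform

namespace Fermat.Agent.TW

variable {𝒪 : Type} [CommRing 𝒪] [IsDomain 𝒪] [IsDiscreteValuationRing 𝒪]
  [IsAdicComplete (maximalIdeal 𝒪) 𝒪] [Finite (ResidueField 𝒪)]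
  {ρbar : ResidualGaloisRep (ResidueField 𝒪)}
  {𝒟 : ∀ ⦃A : Type⦄ [CommRing A] [IsLocalRing A] [Algebra 𝒪 A], GaloisRepAdic A → Prop}
  {DQ : GaloisRep.DeformationRingData 𝒪 ρbar 𝒟} {δ : DQ.R → ResidueField 𝒪}

/-- The global action on pairs of the first order deformation. -/
def pairAct (DQ : GaloisRep.DeformationRingData 𝒪 ρbar 𝒟) (δ : DQ.R → ResidueField 𝒪) (σ : Γ)
    (v : (Fin 2 → ResidueField 𝒪) × (Fin 2 → ResidueField 𝒪)) :
    (Fin 2 → ResidueField 𝒪) × (Fin 2 → ResidueField 𝒪) :=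
  ((matRep ρbar σ).mulVec v.1,
    (matRep ρbar σ).mulVec v.2 + ((univMat DQ σ).map δ).mulVec v.1)

omit [Finite (ResidueField 𝒪)] in
theorem pairAct_localGaloisToGlobal (p : ℕ) [Fact p.Prime] :
    (fun g v => pairAct DQ δ (localGaloisToGlobal p g) v) =
      liftAct (locRep ρbar p) (resLoc p (derCocycle DQ δ)) := by
  funext g v
  refine Prod.ext rfl ?_
  show _ = (locRep ρbar p g).mulVec v.2 +
    (derCocycle DQ δ (localGaloisToGlobal p g)).mulVec ((locRep ρbar p g).mulVec v.1)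
  rw [Matrix.mulVec_mulVec]
  show _ = (matRep ρbar (localGaloisToGlobal p g)).mulVec v.2 +
    (derCocycle DQ δ (localGaloisToGlobal p g) * matRep ρbar (localGaloisToGlobal p g)).mulVec v.1
  rw [derCocycle_mul_matRep]
  rfl

theorem hasFlatModel_pairAct (p : ℕ) (hflat : DQ.ρ.IsFlatAt p)
    (hδ : δ ∈ derSpace 𝒪 (resHom DQ)) (h0 : δ ≠ 0) :
    FlatModel.HasFlatModel p ((Fin 2 → ResidueField 𝒪) × (Fin 2 → ResidueField 𝒪))
      (pairAct DQ δ) := by
  let I : Ideal DQ.R :=
    { carrier := {x | resHom DQ x = 0 ∧ δ x = 0}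
      add_mem' := fun {x y} hx hy => ⟨by rw [map_add, hx.1, hy.1, add_zero],
        by rw [hδ.1, hx.2, hy.2, add_zero]⟩
      zero_mem' := ⟨map_zero _, derSpace_map_zero hδ⟩
      smul_mem' := fun a x hx => ⟨by rw [smul_eq_mul, map_mul, hx.1, mul_zero],
        by rw [smul_eq_mul, hδ.2.1, hx.1, hx.2, mul_zero, zero_mul, add_zero]⟩ }
  have hI : Finite (DQ.R ⧸ I) := by
    let f : DQ.R ⧸ I → ResidueField 𝒪 × ResidueField 𝒪 :=
      Quotient.lift (fun x => (resHom DQ x, δ x)) fun x y hxy => by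
        obtain ⟨h1, h2⟩ : x - y ∈ I := (Submodule.quotientRel_def I).mp hxy
        rw [map_sub, sub_eq_zero] at h1
        rw [derSpace_map_sub hδ, sub_eq_zero] at h2
        exact Prod.ext h1 h2
    refine Finite.of_injective f fun x y hxy => ?_
    obtain ⟨x, rfl⟩ := Ideal.Quotient.mk_surjective x
    obtain ⟨y, rfl⟩ := Ideal.Quotient.mk_surjective y
    have h1 := congrArg Prod.fst hxy
    have h2 := congrArg Prod.snd hxy
    change resHom DQ x = resHom DQ y at h1
    change δ x = δ y at h2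
    exact Ideal.Quotient.eq.mpr
      ⟨by rw [map_sub, h1, sub_self], by rw [derSpace_map_sub hδ, h2, sub_self]⟩
  obtain ⟨H, hH1, hH2, hfin, hflat', hcc, e, headd, heσ⟩ := hflat.2 I hI
  let b := univBasis DQ
  let ψ : DQ.ρ.V →+ (Fin 2 → ResidueField 𝒪) × (Fin 2 → ResidueField 𝒪) :=
    { toFun := fun v => (resHom DQ ∘ b.equivFun v, δ ∘ b.equivFun v)
      map_zero' := by
        refine Prod.ext ?_ ?_ <;> funext i <;> simp [derSpace_map_zero hδ]
      map_add' := fun v w => by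
        refine Prod.ext ?_ ?_ <;> funext i <;> simp [hδ.1] }
  have hψs : Function.Surjective ψ := fun t => by
    choose y hy using fun i =>
      derHom_surjective hδ h0 (TrivSqZeroExt.inl (t.1 i) + TrivSqZeroExt.inr (t.2 i))
    refine ⟨b.equivFun.symm y, Prod.ext (funext fun i => ?_) (funext fun i => ?_)⟩
    · show resHom DQ (b.equivFun (b.equivFun.symm y) i) = _
      have := congrArg TrivSqZeroExt.fst (hy i)
      rw [fst_derHom] at this
      rw [LinearEquiv.apply_symm_apply, this]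
      simp
    · show δ (b.equivFun (b.equivFun.symm y) i) = _
      have := congrArg TrivSqZeroExt.snd (hy i)
      rw [snd_derHom] at this
      rw [LinearEquiv.apply_symm_apply, this]
      simp
  have hker : ∀ v, ψ v = 0 ↔ v ∈ I • (⊤ : Submodule DQ.R DQ.ρ.V) := fun v => by
    constructor
    · intro hv
      exact mem_smul_top_of_forall b I fun i =>
        ⟨congrFun (congrArg Prod.fst hv) i, congrFun (congrArg Prod.snd hv) i⟩
    · intro hv
      refine Prod.ext (funext fun i => ?_) (funext fun i => ?_)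
      · exact (repr_mem_of_mem_smul_top b I hv i).1
      · exact (repr_mem_of_mem_smul_top b I hv i).2
  let ψ' : (DQ.ρ.V ⧸ (I • (⊤ : Submodule DQ.R DQ.ρ.V))) →
      (Fin 2 → ResidueField 𝒪) × (Fin 2 → ResidueField 𝒪) :=
    Quotient.lift ψ fun v w hvw => by
      have h1 : v - w ∈ I • (⊤ : Submodule DQ.R DQ.ρ.V) :=
        (Submodule.quotientRel_def (I • (⊤ : Submodule DQ.R DQ.ρ.V))).mp hvw
      rw [← sub_eq_zero, ← map_sub]
      exact (hker _).mpr h1
  have hmk : ∀ v, ψ' (Submodule.Quotient.mk v) = ψ v := fun v => rfl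
  have hbij : Function.Bijective ψ' := by
    refine ⟨fun x y hxy => ?_, fun y => ?_⟩
    · obtain ⟨x, rfl⟩ := Submodule.Quotient.mk_surjective _ x
      obtain ⟨y, rfl⟩ := Submodule.Quotient.mk_surjective _ y
      rw [hmk, hmk, ← sub_eq_zero, ← map_sub, hker] at hxy
      exact (Submodule.Quotient.eq _).mpr hxy
    · obtain ⟨v, rfl⟩ := hψs y
      exact ⟨Submodule.Quotient.mk v, rfl⟩
  refine ⟨H, hH1, hH2, hfin, hflat', hcc, e.trans (Equiv.ofBijective ψ' hbij),
    fun f g => ?_, fun σ f g hfg => ?_⟩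
  · show ψ' (e (f * g)) = ψ' (e f) + ψ' (e g)
    rw [headd]
    obtain ⟨v, hv⟩ := Submodule.Quotient.mk_surjective _ (e f)
    obtain ⟨w, hw⟩ := Submodule.Quotient.mk_surjective _ (e g)
    rw [← hv, ← hw, ← Submodule.Quotient.mk_add, hmk, hmk, hmk, map_add]
  · show ψ' (e g) = pairAct DQ δ σ (ψ' (e f))
    rw [heσ σ f g hfg]
    obtain ⟨v, hv⟩ := Submodule.Quotient.mk_surjective _ (e f)
    rw [← hv]
    show ψ (DQ.ρ.ρ σ v) = pairAct DQ δ σ (ψ v)
    have hcol : b.equivFun (DQ.ρ.ρ σ v) = (univMat DQ σ).mulVec (b.equivFun v) :=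
      (LinearMap.toMatrix_mulVec_repr b b (DQ.ρ.ρ σ) v).symm
    refine Prod.ext ?_ ?_
    · show resHom DQ ∘ b.equivFun (DQ.ρ.ρ σ v) = (matRep ρbar σ).mulVec (resHom DQ ∘ b.equivFun v)
      funext i
      rw [hcol, Function.comp_apply, RingHom.map_mulVec, univMat_map]
    · show δ ∘ b.equivFun (DQ.ρ.ρ σ v) = (matRep ρbar σ).mulVec (δ ∘ b.equivFun v) +
        ((univMat DQ σ).map δ).mulVec (resHom DQ ∘ b.equivFun v)
      rw [hcol, derSpace_map_mulVec hδ, univMat_map, add_comm]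

/-- The flat condition. -/
theorem resLoc_derCocycle_mem_flatLocal (p : ℕ) [Fact p.Prime]
    (hdet : DQ.ρ.DetIsCyclotomic p) (hflat : DQ.ρ.IsFlatAt p)
    (hδ : δ ∈ derSpace 𝒪 (resHom DQ)) :
    resLoc p (derCocycle DQ δ) ∈ flatLocal p (locRep ρbar p) := by
  by_cases h0 : δ = 0
  · subst h0
    rw [map_zero, map_zero]
    exact Submodule.zero_mem _
  refine Submodule.mem_sup_left (Submodule.subset_span ⟨resLoc_mem_ctsCocycles ρbar p
    ⟨derCocycle_mem_adCocycles p hdet hδ, derCocycle_mem_globalFiniteLevel hδ⟩, ?_⟩)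
  rw [← pairAct_localGaloisToGlobal]
  exact hasLocalModel_of_hasFlatModel (hasFlatModel_pairAct p hflat hδ h0)

end Fermat.Agent.TW
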