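/-
The tangent space criterion for a deformation ring with given local conditions.
-/
import Fermat.Agent.TW.TangentCFlat
import Fermat.Agent.TW.TangentCBaseChange

set_option autoImplicit false

noncomputable section

open IsLocalRing Module Fermat.Agent.Deform

namespace Fermat.Agent.TW

section Coboundaries

variable {k : Type} [Field k] {ρbar : ResidualGaloisRep k}

/-- The global coboundaries have dimension three. -/
theorem finrank_adCoboundaries_matRep (h2 : (2 : k) ≠ 0) (habs : ρbar.IsAbsolutelyIrreducible) :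
    Module.finrank k (adCoboundaries (matRep ρbar)) = 3 := by
  have hspan := span_range_repMat_eq_top ρbar habs (residualBasis ρbar)
  have hinj : Function.Injective ((adD (matRep ρbar)).domRestrict (trZero k)) := by
    rw [injective_iff_map_eq_zero]
    rintro ⟨M, hMt⟩ hM
    have hMt' : M 0 0 + M 1 1 = 0 := by
      rw [← Matrix.trace_fin_two]
      exact hMt
    have hc : ∀ σ, matRep ρbar σ * M = M * matRep ρbar σ := by
      intro σ
      have h : adD (matRep ρbar) M σ = 0 := congrFun hM σ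
      rw [adD_apply, sub_eq_zero] at h
      calc matRep ρbar σ * M
          = matRep ρbar σ * M * matRep ρbar σ⁻¹ * matRep ρbar σ := by
            rw [mul_assoc _ (matRep ρbar σ⁻¹), ← map_mul, inv_mul_cancel, map_one, mul_one]
        _ = M * matRep ρbar σ := by rw [h]
    have hall : ∀ X : M2 k, X * M = M * X := fun X => by
      have hX : X ∈ Submodule.span k (Set.range (matRep ρbar)) := by
        have hrange : (matRep ρbar : Γ → M2 k) = repMat (residualBasis ρbar) ρbar.ρ := rfl
        rw [hrange, hspan]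
        trivial
      induction hX using Submodule.span_induction with
      | mem x hx => obtain ⟨σ, rfl⟩ := hx; exact hc σ
      | zero => simp
      | add x y _ _ hx hy => rw [add_mul, mul_add, hx, hy]
      | smul a x _ hx => rw [smul_mul_assoc, mul_smul_comm, hx]
    have e1 := congrFun (congrFun (hall !![0, 1; 0, 0]) 0) 1
    have e2 := congrFun (congrFun (hall !![0, 1; 0, 0]) 0) 0
    have e3 := congrFun (congrFun (hall !![0, 0; 1, 0]) 0) 0
    simp [Matrix.mul_apply, Fin.sum_univ_two] at e1 e2 e3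
    have h00 : M 0 0 = 0 := by
      have : (2 : k) * M 0 0 = 0 := by linear_combination hMt' - e1
      exact (mul_eq_zero.mp this).resolve_left h2
    refine Subtype.ext (Matrix.ext fun i j => ?_)
    fin_cases i <;> fin_cases j
    · exact h00
    · simpa using e3.symm
    · simpa using e2
    · exact e1.trans h00
  have himg : adCoboundaries (matRep ρbar) =
      LinearMap.range ((adD (matRep ρbar)).domRestrict (trZero k)) :=
    (LinearMap.range_domRestrict (trZero k) (adD (matRep ρbar))).symm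
  rw [himg, LinearMap.finrank_range_of_inj hinj]
  have h := LinearMap.finrank_range_add_finrank_ker (Matrix.traceLinearMap (Fin 2) k k)
  have hr : LinearMap.range (Matrix.traceLinearMap (Fin 2) k k) = ⊤ := by
    refine LinearMap.range_eq_top.mpr fun t => ⟨!![t, 0; 0, 0], ?_⟩
    simp [Matrix.trace_fin_two]
  rw [hr, finrank_top, Module.finrank_self, Module.finrank_matrix] at h
  simp only [Fintype.card_fin, Module.finrank_self] at h
  change Module.finrank k (LinearMap.ker (Matrix.traceLinearMap (Fin 2) k k)) = 3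
  omega

end Coboundaries

variable {𝒪 : Type} [CommRing 𝒪] [IsDomain 𝒪] [IsDiscreteValuationRing 𝒪]
  [IsAdicComplete (maximalIdeal 𝒪) 𝒪] [Finite (ResidueField 𝒪)]
  {ρbar : ResidualGaloisRep (ResidueField 𝒪)}
  {𝒟 : ∀ ⦃A : Type⦄ [CommRing A] [IsLocalRing A] [Algebra 𝒪 A], GaloisRepAdic A → Prop}

theorem exists_surjective_of_localConditions
    (DQ : GaloisRep.DeformationRingData 𝒪 ρbar 𝒟)
    (hbase : letI := dualAlgebra 𝒪
      ∀ (φ : DQ.R →ₐ[𝒪] DualNumber (ResidueField 𝒪))
        (hφ : IsLocalHom (φ : DQ.R →+* DualNumber (ResidueField 𝒪))),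
        Function.Surjective φ →
          𝒟 (DQ.ρ.baseChangeAlong (φ : DQ.R →+* DualNumber (ResidueField 𝒪)) hφ))
    (p : ℕ) [Fact p.Prime] (hp2 : p ≠ 2) (hp𝒪 : (p : 𝒪) ∈ maximalIdeal 𝒪)
    (habs : ρbar.IsAbsolutelyIrreducible) (Smin T : Finset ℕ) (rr : ℕ)
    (hdet : DQ.ρ.DetIsCyclotomic p)
    (hunr : ∀ q : ℕ, q.Prime → q ∉ Smin ∪ T → DQ.ρ.IsUnramifiedAt q)
    (hu : ∀ q ∈ Smin, q.Prime → q ≠ p → DQ.ρ.IsUnipotentOnInertiaAt q)
    (Lp : Submodule (ResidueField 𝒪) (GalQp p → Matrix (Fin 2) (Fin 2) (ResidueField 𝒪)))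
    (hLp : adCoboundaries (locRep ρbar p) ≤ Lp)
    (hderLp : ∀ δ ∈ derSpace 𝒪 (resHom DQ), resLoc p (derCocycle DQ δ) ∈ Lp)
    (hbound : ∀ W : Submodule (ResidueField 𝒪) (Γ → Matrix (Fin 2) (Fin 2) (ResidueField 𝒪)),
      FiniteDimensional (ResidueField 𝒪) W → W ≤ globalCocycles ρbar (Smin ∪ T) →
      (∀ c ∈ W, resLoc p c ∈ Lp) →
      (∀ (q : ℕ) [Fact q.Prime], q ∈ Smin → q ≠ p →
        ∀ c ∈ W, resLoc q c ∈ unipotentLocal q (locRep ρbar q)) →
      Module.finrank (ResidueField 𝒪) W ≤ rr + 3) :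
    ∃ γ : MvPowerSeries (Fin rr) 𝒪 →ₐ[𝒪] DQ.R, Function.Surjective γ := by
  have hp : p.Prime := Fact.out
  have h2 : (2 : ResidueField 𝒪) ≠ 0 := fun h => by
    have hpk : ((p : ℕ) : ResidueField 𝒪) = 0 := by
      rw [← map_natCast (residue 𝒪), residue_eq_zero_iff]
      exact hp𝒪
    have hchar : CharP (ResidueField 𝒪) p := (CharP.charP_iff_prime_eq_zero hp).mpr hpk
    have h' := (CharP.cast_eq_zero_iff (ResidueField 𝒪) p 2).mp (by exact_mod_cast h)
    exact hp2 ((Nat.prime_dvd_prime_iff_eq hp Nat.prime_two).mp h')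
  let D := derSpace 𝒪 (resHom DQ)
  have hDfin : FiniteDimensional (ResidueField 𝒪) D :=
    finiteDimensional_derSpace 𝒪 _ (resHom_comp_surjective DQ)
  let C := D.map (derCocycle DQ)
  let B := adCoboundaries (matRep ρbar)
  have hdisj : ∀ δ ∈ D, derCocycle DQ δ ∈ B → δ = 0 := fun δ hδ h =>
    eq_zero_of_derCocycle_mem_adCoboundaries hbase hδ h
  have hB3 : Module.finrank (ResidueField 𝒪) B = 3 := finrank_adCoboundaries_matRep h2 habs
  have hCD : Module.finrank (ResidueField 𝒪) C = Module.finrank (ResidueField 𝒪) D := by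
    have hinj : Function.Injective ((derCocycle DQ).domRestrict D) :=
      (injective_iff_map_eq_zero _).mpr fun δ hδ => by
        refine Subtype.ext (hdisj δ.1 δ.2 ?_)
        change derCocycle DQ δ.1 = 0 at hδ
        rw [hδ]
        exact Submodule.zero_mem _
    rw [← LinearMap.finrank_range_of_inj hinj, LinearMap.range_domRestrict]
  have hinf : C ⊓ B = ⊥ := by
    refine eq_bot_iff.mpr ?_
    rintro _ ⟨⟨δ, hδ, rfl⟩, hB⟩
    rw [hdisj δ hδ hB, map_zero]
    exact Submodule.zero_mem _
  have hBfin : FiniteDimensional (ResidueField 𝒪) B := Module.finite_of_finrank_eq_succ hB3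
  have hsum : Module.finrank (ResidueField 𝒪) (C ⊔ B : Submodule _ _) =
      Module.finrank (ResidueField 𝒪) D + 3 := by
    have h := Submodule.finrank_sup_add_finrank_inf_eq C B
    rw [hinf, finrank_bot, hCD, hB3, add_zero] at h
    exact h
  refine exists_surjective_of_finrank_derSpace_le 𝒪 (resHom DQ) (resHom_comp_surjective DQ) ?_
  have key := hbound (C ⊔ B) inferInstance ?_ ?_ ?_
  · have hle : Module.finrank (ResidueField 𝒪) D ≤ rr := by omega
    exact hle
  · refine sup_le ?_ ?_
    · rintro _ ⟨δ, hδ, rfl⟩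
      exact ⟨⟨derCocycle_mem_adCocycles p hdet hδ, derCocycle_mem_globalFiniteLevel hδ⟩,
        fun q hq hqT P hP σ hσ => derCocycle_eq_zero_of_rho_eq_one hδ (hunr q hq hqT P hP σ hσ)⟩
    · rintro _ ⟨M, -, rfl⟩
      refine ⟨⟨adD_mem_adCocycles_any _ _, adD_matRep_mem_globalFiniteLevel ρbar M⟩,
        fun q hq hqT P hP σ hσ => ?_⟩
      have h1 : matRep ρbar σ = 1 := by
        rw [← univMat_map DQ, univMat_eq_one DQ (hunr q hq hqT P hP σ hσ)]
        exact Matrix.map_one _ (map_zero _) (map_one _)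
      have h2 : matRep ρbar σ⁻¹ = 1 := by
        have h3 : matRep ρbar σ * matRep ρbar σ⁻¹ = 1 := by
          rw [← map_mul, mul_inv_cancel, map_one]
        rwa [h1, one_mul] at h3
      rw [adD_apply, h1, h2, one_mul, mul_one, sub_self]
  · intro c hc
    obtain ⟨_, ⟨δ, hδ, rfl⟩, _, ⟨M, hM, rfl⟩, rfl⟩ := Submodule.mem_sup.mp hc
    rw [map_add]
    refine add_mem (hderLp δ hδ) (hLp ?_)
    rw [resLoc_adD]
    exact Submodule.mem_map_of_mem hM
  · intro q _ hqS hqp c hc
    obtain ⟨_, ⟨δ, hδ, rfl⟩, _, ⟨M, hM, rfl⟩, rfl⟩ := Submodule.mem_sup.mp hc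
    rw [map_add]
    refine add_mem (Submodule.mem_sup_left (resLoc_derCocycle_mem_unipotentCocycles p q hdet
      (hu q hqS Fact.out hqp) hδ)) (Submodule.mem_sup_right ?_)
    rw [resLoc_adD]
    exact Submodule.mem_map_of_mem hM

end Fermat.Agent.TW
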