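/-
Tangent space criterion: a deformation ring is a quotient of a power series ring in `rr`
variables as soon as the space of global cocycles with the local conditions has dimension at
most `rr + 3`.
-/
import Fermat.Agent.TW.TangentCMain
import Fermat.Prelude.Def_GaloisRep_DeformationRingData
import Fermat.Prelude.Def_GaloisRep_StrictOrdinary
import Fermat.Prelude.Def_GaloisRep_Flat
import Mathlib.RingTheory.MvPowerSeries.Basic

set_option autoImplicit false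

noncomputable section

open IsLocalRing

namespace Fermat.Agent.TW

variable {𝒪 : Type} [CommRing 𝒪] [IsDomain 𝒪] [IsDiscreteValuationRing 𝒪]
  [IsAdicComplete (maximalIdeal 𝒪) 𝒪] [Finite (ResidueField 𝒪)]

/-- The strict ordinary criterion. -/
theorem exists_surjective_strictOrdinary (p : ℕ) [Fact p.Prime] (hp2 : p ≠ 2)
    (hp𝒪 : (p : 𝒪) ∈ maximalIdeal 𝒪) (ρbar : ResidualGaloisRep (ResidueField 𝒪))
    (habs : ρbar.IsAbsolutelyIrreducible) (Smin T : Finset ℕ) (rr : ℕ)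
    (hbound : ∀ W : Submodule (ResidueField 𝒪)
        ((AlgebraicClosure ℚ ≃ₐ[ℚ] AlgebraicClosure ℚ) →
          Matrix (Fin 2) (Fin 2) (ResidueField 𝒪)),
      FiniteDimensional (ResidueField 𝒪) W → W ≤ globalCocycles ρbar (Smin ∪ T) →
      (∀ c ∈ W, resLoc p c ∈ ordLocal p (locRep ρbar p)) →
      (∀ (q : ℕ) [Fact q.Prime], q ∈ Smin → q ≠ p →
        ∀ c ∈ W, resLoc q c ∈ unipotentLocal q (locRep ρbar q)) →
      Module.finrank (ResidueField 𝒪) W ≤ rr + 3)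
    (DQ : GaloisRep.DeformationRingData 𝒪 ρbar (fun _A _ _ _ ρ =>
      GaloisRep.strictOrdinaryCondition 𝒪 p (Smin ∪ T) ρ ∧
        ∀ q ∈ Smin, q.Prime → q ≠ p → ρ.IsUnipotentOnInertiaAt q)) :
    ∃ γ : MvPowerSeries (Fin rr) 𝒪 →ₐ[𝒪] DQ.R, Function.Surjective γ := by
  let _ := Deform.dualAlgebra 𝒪
  exact exists_surjective_of_localConditions DQ
    (fun φ hφ _ => strictOrdinary_type_baseChangeAlong _ hφ DQ.ρ DQ.isOfType)
    p hp2 hp𝒪 habs Smin T rr DQ.isOfType.1.1 DQ.isOfType.1.2.2 DQ.isOfType.2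
    (ordLocal p (locRep ρbar p)) le_sup_right
    (fun _ hδ => resLoc_derCocycle_mem_ordLocal p hp2 DQ.isOfType.1.1 DQ.isOfType.1.2.1 hδ)
    hbound

/-- The flat criterion. -/
theorem exists_surjective_flat (p : ℕ) [Fact p.Prime] (hp2 : p ≠ 2)
    (hp𝒪 : (p : 𝒪) ∈ maximalIdeal 𝒪) (ρbar : ResidualGaloisRep (ResidueField 𝒪))
    (habs : ρbar.IsAbsolutelyIrreducible) (Smin T : Finset ℕ) (rr : ℕ)
    (hbound : ∀ W : Submodule (ResidueField 𝒪)
        ((AlgebraicClosure ℚ ≃ₐ[ℚ] AlgebraicClosure ℚ) →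
          Matrix (Fin 2) (Fin 2) (ResidueField 𝒪)),
      FiniteDimensional (ResidueField 𝒪) W → W ≤ globalCocycles ρbar (Smin ∪ T) →
      (∀ c ∈ W, resLoc p c ∈ flatLocal p (locRep ρbar p)) →
      (∀ (q : ℕ) [Fact q.Prime], q ∈ Smin → q ≠ p →
        ∀ c ∈ W, resLoc q c ∈ unipotentLocal q (locRep ρbar q)) →
      Module.finrank (ResidueField 𝒪) W ≤ rr + 3)
    (DQ : GaloisRep.DeformationRingData 𝒪 ρbar (fun _A _ _ _ ρ =>
      GaloisRep.flatCondition 𝒪 p (Smin ∪ T) ρ ∧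
        ∀ q ∈ Smin, q.Prime → q ≠ p → ρ.IsUnipotentOnInertiaAt q)) :
    ∃ γ : MvPowerSeries (Fin rr) 𝒪 →ₐ[𝒪] DQ.R, Function.Surjective γ := by
  let _ := Deform.dualAlgebra 𝒪
  exact exists_surjective_of_localConditions DQ
    (fun φ hφ hs => flat_type_baseChangeAlong _ hφ DQ.ρ hs DQ.isOfType)
    p hp2 hp𝒪 habs Smin T rr DQ.isOfType.1.1 DQ.isOfType.1.2.2 DQ.isOfType.2
    (flatLocal p (locRep ρbar p)) le_sup_right
    (fun _ hδ => resLoc_derCocycle_mem_flatLocal p DQ.isOfType.1.1 DQ.isOfType.1.2.1 hδ)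
    hbound

end Fermat.Agent.TW
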