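/-
Taylor-Wiles primes for the strict ordinary and the flat deformation problems (statement S56).
-/
import Fermat.Agent.TW.Engine
import Fermat.Agent.TW.Tangent
import Fermat.Agent.TW.LocalGlobal
import Fermat.Agent.PoitouTate.GlobalPrincipalize
import Fermat.Agent.TW.LocalFlatBound

set_option autoImplicit false

noncomputable section

open Polynomial IsLocalRing

namespace Fermat.Agent.TW

open scoped Pointwise

local notation "Γℚ" => AlgebraicClosure ℚ ≃ₐ[ℚ] AlgebraicClosure ℚ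

variable {k : Type} [Field k]

theorem charP_of_natCast_mem_maximalIdeal {𝒪 : Type} [CommRing 𝒪] [IsLocalRing 𝒪] (p : ℕ)
    [Fact p.Prime] (hp : (p : 𝒪) ∈ maximalIdeal 𝒪) : CharP (ResidueField 𝒪) p := by
  have h : ((p : ℕ) : ResidueField 𝒪) = 0 := by
    rw [← map_natCast (residue 𝒪), residue_eq_zero_iff]; exact hp
  exact (CharP.charP_iff_prime_eq_zero Fact.out).2 h

theorem isFiniteLevel_locRep (ρ : ResidualGaloisRep k) (q : ℕ) [Fact q.Prime] :
    IsFiniteLevel q (locRep ρ q) := by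
  obtain ⟨E, hE, hker⟩ := matRep_factorsThroughFiniteLevel ρ
  haveI := hE
  obtain ⟨E', hE', hfix⟩ := exists_localLevel q E
  refine ⟨E', hE', fun g s hs => ?_⟩
  rw [map_mul, show locRep ρ q s = 1 from hker _ (hfix s hs), mul_one]

theorem det_matRep_eq_natCast {p : ℕ} [Fact p.Prime] [CharP k p] (ρ : ResidualGaloisRep k)
    (hdet : (GaloisRepAdic.ofResidualGaloisRep ρ).DetIsCyclotomic p) (σ : Γℚ) (a : ℕ)
    (ha : ∀ μ : AlgebraicClosure ℚ, μ ^ p = 1 → σ μ = μ ^ a) :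
    (matRep ρ σ).det = (a : k) := by
  have h := hdet.2 1 σ a (by simpa only [pow_one] using ha)
  rw [pow_one, CharP.cast_eq_zero, Ideal.mem_span_singleton, zero_dvd_iff, sub_eq_zero] at h
  rw [det_matRep]
  exact h

theorem det_locRep_self {p : ℕ} [Fact p.Prime] [CharP k p] (ρ : ResidualGaloisRep k)
    (hdet : (GaloisRepAdic.ofResidualGaloisRep ρ).DetIsCyclotomic p) (g : GalQp p) :
    (locRep ρ p g).det = ((localCyclo p g : ZMod p).val : k) := by
  refine det_matRep_eq_natCast ρ hdet _ _ fun μ hμ => ?_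
  apply (padicEmbedding p).toRingHom.injective
  show padicEmbedding p _ = padicEmbedding p _
  rw [padicEmbedding_localGaloisToGlobal, map_pow]
  exact localCyclo_spec p g _ (by rw [← map_pow, hμ, map_one])

/-- A deformation which is unipotent on inertia has a residual representation which is. -/
theorem charpoly_residual_of_unipotent {𝒪 : Type} [CommRing 𝒪] [IsDomain 𝒪]
    [IsDiscreteValuationRing 𝒪] [IsAdicComplete (maximalIdeal 𝒪) 𝒪]
    (ρbar : ResidualGaloisRep (ResidueField 𝒪)) {R : Type} [CommRing R] [IsLocalRing R]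
    [Algebra 𝒪 R] [IsLocalHom (algebraMap 𝒪 R)] (ρ : GaloisRepAdic R)
    (he : ρ.residual.IsEquiv (ρbar.baseChangeAlong (ResidueField.map (algebraMap 𝒪 R))))
    (σ : Γℚ) (hσ : LinearMap.charpoly (ρ.ρ σ) = (X - 1) ^ 2) :
    LinearMap.charpoly (ρbar.ρ σ) = (X - 1) ^ 2 := by
  obtain ⟨e⟩ := he
  set φ := ResidueField.map (algebraMap 𝒪 R) with hφ
  apply Polynomial.map_injective φ φ.injective
  letI : Algebra (ResidueField 𝒪) (ResidueField R) := φ.toAlgebra
  have h1 : LinearMap.charpoly ((ρbar.baseChangeAlong φ).ρ σ) =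
      (LinearMap.charpoly (ρbar.ρ σ)).map φ := LinearMap.charpoly_baseChange (ρbar.ρ σ) _
  have h2 : LinearMap.charpoly (ρ.residual.ρ σ) =
      (LinearMap.charpoly (ρ.ρ σ)).map (residue R) := LinearMap.charpoly_baseChange (ρ.ρ σ) _
  have h3 : e.toLinearEquiv.conj (ρ.residual.ρ σ) = (ρbar.baseChangeAlong φ).ρ σ := by
    refine LinearMap.ext fun y => ?_
    rw [LinearEquiv.conj_apply_apply, e.map_apply, LinearEquiv.apply_symm_apply]
  rw [← h1, ← h3, LinearEquiv.charpoly_conj, h2, hσ]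
  simp

section Conditions

variable {p : ℕ} [Fact p.Prime]

/-- The local bound at a ramified prime of unipotent type. -/
theorem finrank_unipotentLocal_locRep_le [Finite k] [CharP k p] (ρ : ResidualGaloisRep k)
    (hp2 : p ≠ 2) (q : ℕ) [Fact q.Prime] (hqp : q ≠ p) (hram : ¬ ρ.IsUnramifiedAt q)
    (hunip : ∀ P : ValuationSubring (AlgebraicClosure ℚ), P.LiesOverPrime q →
      ∀ σ ∈ P.inertiaSubgroupIn ℚ, LinearMap.charpoly (ρ.ρ σ) = (X - 1) ^ 2) :
    FiniteDimensional k (unipotentLocal q (locRep ρ q)) ∧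
      Module.finrank k (unipotentLocal q (locRep ρ q)) ≤ 3 := by
  refine finrank_unipotentLocal_le p q (locRep ρ q) hp2 hqp (isFiniteLevel_locRep ρ q) ?_ ?_
  · intro g hg
    rw [← hunip _ (PoitouTate.liesOverPrime_padicPlace ⟨q, Fact.out⟩) _
      (localGaloisToGlobal_mem_inertia q hg)]
    exact charpoly_matRep ρ _
  · simp only [ResidualGaloisRep.IsUnramifiedAt, not_forall] at hram
    obtain ⟨P, hP, σ, hσ, hne⟩ := hram
    obtain ⟨τ, hτ⟩ := Galois.exists_smul_eq_of_liesOverPrime (Fact.out : q.Prime) hP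
      (PoitouTate.liesOverPrime_padicPlace ⟨q, Fact.out⟩)
    have h := PoitouTate.conj_mem_inertiaSubgroupIn τ hσ
    rw [hτ] at h
    obtain ⟨g, hg, hgeq⟩ := exists_inertiaQp_eq q h
    refine ⟨g, hg, fun h1 => hne ?_⟩
    have h2 : ρ.ρ (τ * σ * τ⁻¹) = 1 := (matRep_eq_one_iff ρ _).1 (by rw [← hgeq]; exact h1)
    calc ρ.ρ σ = ρ.ρ τ⁻¹ * ρ.ρ (τ * σ * τ⁻¹) * ρ.ρ τ := by
          rw [← map_mul, ← map_mul]; congr 1; group
      _ = 1 := by rw [h2, mul_one, ← map_mul, inv_mul_cancel, map_one]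

end Conditions

/-- Statement S56. -/
theorem exists_taylorWilesPrimes_surjective
    {𝒪 : Type} [CommRing 𝒪] [IsDomain 𝒪] [IsDiscreteValuationRing 𝒪]
    [IsAdicComplete (maximalIdeal 𝒪) 𝒪] [Finite (ResidueField 𝒪)]
    (p : ℕ) [Fact p.Prime] (hp2 : p ≠ 2) (hp𝒪 : (p : 𝒪) ∈ maximalIdeal 𝒪)
    (ρbar : ResidualGaloisRep (ResidueField 𝒪))
    (habs : ρbar.IsAbsolutelyIrreducible)
    (hdet : (GaloisRepAdic.ofResidualGaloisRep ρbar).DetIsCyclotomic p)
    (hsplit : ∀ σ : Γℚ,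
      ∃ α β : ResidueField 𝒪, LinearMap.charpoly (ρbar.ρ σ) = (X - C α) * (X - C β))
    (hTW : ∀ (K : Type) [Field K] [Algebra (ResidueField 𝒪) K]
      (G : Subgroup Γℚ), G.index = 2 →
      ∀ V : Submodule K (ρbar.baseChange K).V,
        (∀ σ ∈ G, ∀ x ∈ V, (ρbar.baseChange K).ρ σ x ∈ V) → V = ⊥ ∨ V = ⊤)
    (S Smin : Finset ℕ) (hpSmin : p ∈ Smin) (hSmin : Smin ⊆ S) (hS : ∀ q ∈ S, q.Prime)
    (hmin : ∀ q : ℕ, q.Prime → q ≠ p → (q ∈ Smin ↔ ¬ ρbar.IsUnramifiedAt q)) :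
    (∃ r : ℕ, ∀ n : ℕ, ∃ qv : Fin r → ℕ, Function.Injective qv ∧
      (∀ i, (qv i).Prime ∧ qv i ∉ S ∧ p ^ (n + 1) ∣ qv i - 1) ∧
      (∀ i, ∀ P : ValuationSubring (AlgebraicClosure ℚ), P.LiesOverPrime (qv i) →
        ∀ φ : Γℚ, P.IsFrobeniusAt φ (qv i) →
          ∃ α β : ResidueField 𝒪, α ≠ β ∧ LinearMap.charpoly (ρbar.ρ φ) = (X - C α) * (X - C β)) ∧
      ∀ DQ : GaloisRep.DeformationRingData 𝒪 ρbar (fun _A _ _ _ ρ =>
          GaloisRep.strictOrdinaryCondition 𝒪 p (Smin ∪ Finset.univ.image qv) ρ ∧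
            ∀ q ∈ Smin, q.Prime → q ≠ p → ρ.IsUnipotentOnInertiaAt q),
        ∃ γ : MvPowerSeries (Fin r) 𝒪 →ₐ[𝒪] DQ.R, Function.Surjective γ) ∧
    (∃ r : ℕ, ∀ n : ℕ, ∃ qv : Fin r → ℕ, Function.Injective qv ∧
      (∀ i, (qv i).Prime ∧ qv i ∉ S ∧ p ^ (n + 1) ∣ qv i - 1) ∧
      (∀ i, ∀ P : ValuationSubring (AlgebraicClosure ℚ), P.LiesOverPrime (qv i) →
        ∀ φ : Γℚ, P.IsFrobeniusAt φ (qv i) →
          ∃ α β : ResidueField 𝒪, α ≠ β ∧ LinearMap.charpoly (ρbar.ρ φ) = (X - C α) * (X - C β)) ∧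
      ∀ DQ : GaloisRep.DeformationRingData 𝒪 ρbar (fun _A _ _ _ ρ =>
          GaloisRep.flatCondition 𝒪 p (Smin ∪ Finset.univ.image qv) ρ ∧
            ∀ q ∈ Smin, q.Prime → q ≠ p → ρ.IsUnipotentOnInertiaAt q),
        ∃ γ : MvPowerSeries (Fin r) 𝒪 →ₐ[𝒪] DQ.R, Function.Surjective γ) := by
  classical
  haveI := charP_of_natCast_mem_maximalIdeal p hp𝒪
  obtain ⟨r, hr⟩ := exists_taylorWilesPrimes_finrank_le p hp2 ρbar habs hdet hsplit hTW Smin
    hpSmin (fun q hq => hS q (hSmin hq)) fun q hq hqS => by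
      by_contra h
      exact hqS ((hmin q hq (fun e => hqS (e ▸ hpSmin))).2 h)
  -- the bound for one choice of the condition at `p`
  have key : ∀ (qv : Fin r → ℕ),
      (∀ (L : ∀ (q : ℕ) [Fact q.Prime],
          Submodule (ResidueField 𝒪) (GalQp q → Matrix (Fin 2) (Fin 2) (ResidueField 𝒪)))
        (δ : ℕ → ℤ),
        (∀ (q : ℕ) [Fact q.Prime], q ∈ Smin →
          adCoboundaries (locRep ρbar q) ≤ L q ∧ FiniteDimensional (ResidueField 𝒪) (L q) ∧
            (Module.finrank (ResidueField 𝒪) (L q) : ℤ) ≤ 3 + δ q) →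
        ∀ W : Submodule (ResidueField 𝒪) (Γℚ → Matrix (Fin 2) (Fin 2) (ResidueField 𝒪)),
          W ≤ globalCocycles ρbar (Smin ∪ Finset.univ.image qv) →
          (∀ (q : ℕ) [Fact q.Prime], q ∈ Smin → ∀ c ∈ W, resLoc q c ∈ L q) →
          FiniteDimensional (ResidueField 𝒪) (W ⊔ adCoboundaries (matRep ρbar) :
              Submodule (ResidueField 𝒪) (Γℚ → Matrix (Fin 2) (Fin 2) (ResidueField 𝒪))) ∧
            (Module.finrank (ResidueField 𝒪) (W ⊔ adCoboundaries (matRep ρbar) :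
              Submodule (ResidueField 𝒪) (Γℚ → Matrix (Fin 2) (Fin 2) (ResidueField 𝒪))) : ℤ) ≤
              (r : ℤ) + 2 + ∑ q ∈ Smin, δ q) →
      ∀ Lp : Submodule (ResidueField 𝒪) (GalQp p → Matrix (Fin 2) (Fin 2) (ResidueField 𝒪)),
        adCoboundaries (locRep ρbar p) ≤ Lp → FiniteDimensional (ResidueField 𝒪) Lp →
        Module.finrank (ResidueField 𝒪) Lp ≤ 4 →
        (∀ q ∈ Smin, q.Prime → q ≠ p → ∀ P : ValuationSubring (AlgebraicClosure ℚ),
          P.LiesOverPrime q → ∀ σ ∈ P.inertiaSubgroupIn ℚ,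
            LinearMap.charpoly (ρbar.ρ σ) = (X - 1) ^ 2) →
        ∀ W : Submodule (ResidueField 𝒪) (Γℚ → Matrix (Fin 2) (Fin 2) (ResidueField 𝒪)),
          FiniteDimensional (ResidueField 𝒪) W →
          W ≤ globalCocycles ρbar (Smin ∪ Finset.univ.image qv) →
          (∀ c ∈ W, resLoc p c ∈ Lp) →
          (∀ (q : ℕ) [Fact q.Prime], q ∈ Smin → q ≠ p →
            ∀ c ∈ W, resLoc q c ∈ unipotentLocal q (locRep ρbar q)) →
          Module.finrank (ResidueField 𝒪) W ≤ r + 3 := by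
    intro qv hq Lp hB hfin hdim hunip W hWfin hW hWp hWu
    let L : ∀ (q : ℕ) [Fact q.Prime],
        Submodule (ResidueField 𝒪) (GalQp q → Matrix (Fin 2) (Fin 2) (ResidueField 𝒪)) :=
      fun q _ => if h : p = q then (by subst h; exact Lp) else unipotentLocal q (locRep ρbar q)
    have hL : ∀ (q : ℕ) [Fact q.Prime], q ∈ Smin →
        adCoboundaries (locRep ρbar q) ≤ L q ∧ FiniteDimensional (ResidueField 𝒪) (L q) ∧
          (Module.finrank (ResidueField 𝒪) (L q) : ℤ) ≤ 3 + (if q = p then 1 else 0) := by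
      intro q hqF hqS
      by_cases h : p = q
      · subst h
        rw [show L p = Lp from dif_pos rfl, if_pos rfl]
        exact ⟨hB, hfin, by omega⟩
      · rw [show L q = unipotentLocal q (locRep ρbar q) from dif_neg h, if_neg (Ne.symm h)]
        obtain ⟨h1, h2⟩ := finrank_unipotentLocal_locRep_le ρbar hp2 q (Ne.symm h)
          ((hmin q Fact.out (Ne.symm h)).1 hqS) (hunip q hqS Fact.out (Ne.symm h))
        exact ⟨le_sup_right, h1, by omega⟩
    have hWL : ∀ (q : ℕ) [Fact q.Prime], q ∈ Smin → ∀ c ∈ W, resLoc q c ∈ L q := by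
      intro q hqF hqS c hc
      by_cases h : p = q
      · subst h
        rw [show L p = Lp from dif_pos rfl]
        exact hWp c hc
      · rw [show L q = unipotentLocal q (locRep ρbar q) from dif_neg h]
        exact hWu q hqS (Ne.symm h) c hc
    obtain ⟨hf, hle⟩ := hq L (fun q => if q = p then 1 else 0) hL W hW hWL
    have h1 := Submodule.finrank_mono (le_sup_left : W ≤ W ⊔ adCoboundaries (matRep ρbar))
    rw [Finset.sum_ite_eq' Smin p, if_pos hpSmin] at hle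
    omega
  have hdet' := det_locRep_self ρbar hdet
  have hlev := isFiniteLevel_locRep ρbar p
  have hsplit' : ∀ g : GalQp p, ∃ α β : ResidueField 𝒪,
      (locRep ρbar p g).charpoly = (X - C α) * (X - C β) := fun g => by
    obtain ⟨α, β, h⟩ := hsplit (localGaloisToGlobal p g)
    exact ⟨α, β, (charpoly_matRep ρbar _).trans h⟩
  constructor
  · refine ⟨r, fun n => ?_⟩
    obtain ⟨qv, hinj, hq, hdist, hbound⟩ := hr n S
    refine ⟨qv, hinj, fun i => ⟨(hq i).1, fun h => (hq i).2.1 (Finset.mem_union_right _ h),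
      (hq i).2.2⟩, hdist, fun DQ => ?_⟩
    obtain ⟨h1, h2⟩ := finrank_ordLocal_le p (locRep ρbar p) hp2 hlev hdet'
    refine exists_surjective_strictOrdinary p hp2 hp𝒪 ρbar habs Smin (Finset.univ.image qv) r
      (fun W hWfin hW hWp hWu => key qv hbound _ le_sup_right h1 h2
        (fun q hqS hq' hqp P hP σ hσ => charpoly_residual_of_unipotent ρbar DQ.ρ
          DQ.residual_isEquiv σ (DQ.isOfType.2 q hqS hq' hqp P hP σ hσ))
        W hWfin hW hWp hWu) DQ
  · refine ⟨r, fun n => ?_⟩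
    obtain ⟨qv, hinj, hq, hdist, hbound⟩ := hr n S
    refine ⟨qv, hinj, fun i => ⟨(hq i).1, fun h => (hq i).2.1 (Finset.mem_union_right _ h),
      (hq i).2.2⟩, hdist, fun DQ => ?_⟩
    obtain ⟨h1, h2⟩ := finrank_flatLocal_le p (locRep ρbar p) hp2 hlev hdet' hsplit'
    refine exists_surjective_flat p hp2 hp𝒪 ρbar habs Smin (Finset.univ.image qv) r
      (fun W hWfin hW hWp hWu => key qv hbound _ le_sup_right h1 h2
        (fun q hqS hq' hqp P hP σ hσ => charpoly_residual_of_unipotent ρbar DQ.ρ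
          DQ.residual_isEquiv σ (DQ.isOfType.2 q hqS hq' hqp P hP σ hσ))
        W hWfin hW hWp hWu) DQ

end Fermat.Agent.TW
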